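/-
Programme U44 (S44), stage 0, block (DESC) (helper1): **a divisor class fixed by a set of
semilinear automorphisms has a representative that is fixed as a DIVISOR.**

Step (1) of the written proof of (TR) (reports id 116): "choose `D` with `[D] = v` and `σ D = D` for
`σ ∈ I_L`".  No Hilbert 90: the normal form `E - m · P₀` of `J/DESC/NormalForm10` (`E ≥ 0` of
least degree `m`) is canonical, hence equivariant under every semilinear automorphism fixing the
base place `P₀`.

* `exists_stable_repr` (abstract, any function field with `LHyp` + Riemann's inequality): the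
  refined form (effective part `E`, degree `m`, `E` stable, `[E - m P₀] = x`);
* `exists_stable_degZero` : the same as an element of `Divisor.degZero`;
* `exists_stable_torsion` : for `x ∈ Pic⁰[n]`: moreover `n • D = div f`;
* the instance at `F = Fbar N` (`= ℚ̄ · F_N ⊆ ℚ̄((q))`), `K = ℚ̄`: `pInf N`, the place `q = 0`
  (the cusp `∞`), is fixed by the coefficientwise Galois action `gal N τ` of EVERY `τ ∈ G_ℚ`
  (`gal_smul_pInf`), `ord_pInf` (its order function is the `q`-order);
  `exists_stable_repr_Fbar` : the representative for a class of `Pic⁰ (Fbar N)` fixed by a set of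
  Galois automorphisms.
-/
import Mathlib
import Fermat.Agent.J.DESC.NormalForm10

set_option autoImplicit false

open AlgebraicCurve

namespace Fermat.Agent.U44.Desc1

open Fermat.Agent.RR.LSpace Fermat.Agent.X0.FF Fermat.Agent.J.DESC.NormalForm10

section Abstract

variable {K F : Type*} [Field K] [Field F] [Algebra K F]

/-- **(DESC), refined form**: a class `x ∈ Pic⁰` fixed by a set `S` of semilinear automorphisms
fixing the place `P₀` is the class of `E - m · P₀` with `E ≥ 0` of degree `m` and `g • E = E` for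
all `g ∈ S`. -/
theorem exists_stable_repr (H : LHyp K F) (hR : RiemannHyp K F) (P₀ : Place K F)
    (S : Set (SemilinearAut K F)) (hS : ∀ g ∈ S, g • P₀ = P₀) (x : Pic0 K F)
    (hx : ∀ g ∈ S, g • x = x) :
    ∃ (E : Divisor K F) (m : ℕ), 0 ≤ E ∧ Divisor.degree E = m ∧ (∀ g ∈ S, g • E = E) ∧
      ∃ h : E - Finsupp.single P₀ (m : ℤ) ∈ Divisor.degZero (K := K) (F := F),
        Pic0.mk ⟨_, h⟩ = x := by
  refine ⟨normalFormPic H hR P₀ x, minPolePic H hR P₀ x, normalFormPic_nonneg H hR P₀ x,
    degree_normalFormPic H hR P₀ x, ?_, sub_single_mem_degZero H hR P₀ x,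
    mk_normalFormPic' H hR P₀ x⟩
  intro g hg
  rw [← normalFormPic_smul H hR P₀ g (hS g hg) x, hx g hg]

/-- **(DESC)**: a class fixed by `S` has a degree-zero representative fixed by `S`. -/
theorem exists_stable_degZero (H : LHyp K F) (hR : RiemannHyp K F) (P₀ : Place K F)
    (S : Set (SemilinearAut K F)) (hS : ∀ g ∈ S, g • P₀ = P₀) (x : Pic0 K F)
    (hx : ∀ g ∈ S, g • x = x) :
    ∃ D : Divisor.degZero (K := K) (F := F), Pic0.mk D = x ∧
      ∀ g ∈ S, g • (D : Divisor K F) = (D : Divisor K F) := by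
  obtain ⟨E, m, -, -, hE, h, hmk⟩ := exists_stable_repr H hR P₀ S hS x hx
  refine ⟨⟨_, h⟩, hmk, ?_⟩
  intro g hg
  show g • (E - Finsupp.single P₀ (m : ℤ)) = E - Finsupp.single P₀ (m : ℤ)
  rw [smul_sub, hE g hg, SemilinearAut.smul_single, hS g hg]

/-- **(DESC) for torsion classes**: moreover `n • D` is the divisor of a function. -/
theorem exists_stable_torsion (H : LHyp K F) (hR : RiemannHyp K F) (P₀ : Place K F)
    (S : Set (SemilinearAut K F)) (hS : ∀ g ∈ S, g • P₀ = P₀) {n : ℕ} (x : Pic0 K F)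
    (hxn : x ∈ Pic0.torsion K F n) (hx : ∀ g ∈ S, g • x = x) :
    ∃ D : Divisor.degZero (K := K) (F := F), Pic0.mk D = x ∧
      (∀ g ∈ S, g • (D : Divisor K F) = (D : Divisor K F)) ∧
      ∃ f : F, f ≠ 0 ∧ ∀ v : Place K F, (n : ℤ) * (D : Divisor K F) v = v.ord f := by
  obtain ⟨D, hD, hst⟩ := exists_stable_degZero H hR P₀ S hS x hx
  refine ⟨D, hD, hst, ?_⟩
  rw [Pic0.mem_torsion, ← hD] at hxn
  have h1 : Pic0.mk ((n : ℤ) • D) = 0 := hxn
  have h2 : (n : ℤ) • D ∈
      (Divisor.principal (K := K) (F := F)).addSubgroupOf (Divisor.degZero (K := K) (F := F)) :=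
    (QuotientAddGroup.eq_zero_iff _).mp h1
  rw [AddSubgroup.mem_addSubgroupOf] at h2
  obtain ⟨f, hf0, hf⟩ := h2
  refine ⟨f, hf0, fun v => ?_⟩
  rw [← hf v]
  simp

end Abstract

end Fermat.Agent.U44.Desc1
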