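/-
Programme U44 (S44), stage 0, block (DESC), instance at `F = Fbar N` (helper1).

`K = ℚ̄`, `F = Fbar N = ℚ̄ · F_N ⊆ ℚ̄((q))`, `gal N τ` the coefficientwise action of `τ ∈ G_ℚ`
(`T33/Psi3C.gal`, the Prelude's `arithmeticGalois`).

* `pInf N : Place ℚ̄ (Fbar N)` : the place `q = 0` (the cusp `∞`); `ord_pInf` : its order function
  is the `q`-order; `gal_smul_pInf` : it is fixed by `gal N τ` for EVERY `τ ∈ G_ℚ`;
* `lHyp N`, `riemannHyp N` : `LHyp`, Riemann's inequality for `Fbar N` (from the generator `j`);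
* `exists_stable_repr_Fbar`, `exists_stable_degZero_Fbar`, `exists_stable_torsion_Fbar` : a class
  `x ∈ Pic⁰ (Fbar N)` fixed by `gal N τ` for all `τ` in a set `S ⊆ G_ℚ` is the class of
  `E - m · ∞` with `E ≥ 0` of degree `m` and `gal N τ • E = E` for all `τ ∈ S` — step (1) [DESC] of
  the written proof of (TR) (reports id 116) with `S := ` the image of `I_L`.
-/
import Mathlib
import Fermat.Agent.U44.Desc1
import Fermat.Agent.ES.P36.JDict26
import Fermat.Agent.ES.P36.DescTools1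
import Fermat.Agent.T33.Psi3C
import Fermat.Agent.RR.LHypGen

set_option autoImplicit false

open ModularCurve AlgebraicCurve
open scoped Pointwise

noncomputable section

namespace Fermat.Agent.U44.DescInst1

open Fermat.Agent.X0 Fermat.Agent.X0.FF Fermat.Agent.RR.LSpace Fermat.Agent.RR.LHypGen
  Fermat.Agent.J.DESC.NormalForm10 Fermat.Agent.ES.N34.ModEqBar23 Fermat.Agent.T33.Psi3C
  Fermat.Agent.U44.Desc1

variable (N : ℕ) [NeZero N]

theorem jF_ne_zero : jF N ≠ 0 :=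
  (Degree.isGen_jF N (realizeData N) (cuspData N)).ne_zero

theorem order_valHom_jF : (valHom N (jF N)).order = -1 := by
  rw [valHom_apply, coe_jF]
  exact Fermat.Agent.ES.P36.JDict26.order_jqK

theorem valHom_nontrivial : ∃ f : FF N, f ≠ 0 ∧ (valHom N f).order ≠ 0 :=
  ⟨jF N, jF_ne_zero N, by rw [order_valHom_jF]; decide⟩

/-- **the place `q = 0` of `Fbar N`** (the cusp `∞`). -/
def pInf : Place Kbar (FF N) :=
  LaurentPlace.embPlace (valHom N) (valHom_const N) (valHom_nontrivial N)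

/-- the order function of `pInf` is the `q`-order. -/
theorem ord_pInf {f : FF N} (hf : f ≠ 0) :
    (pInf N).ord f = ((f : FF N) : LaurentSeries Kbar).order :=
  embPlace_ord_eq (valHom N) (valHom_const N) (valHom_nontrivial N) (jF_ne_zero N)
    (order_valHom_jF N) hf

theorem mem_pInf_iff {f : FF N} (hf : f ≠ 0) :
    f ∈ (pInf N).toValuationSubring ↔ 0 ≤ ((f : FF N) : LaurentSeries Kbar).order :=
  LaurentPlace.mem_embPlace_iff (valHom N) (valHom_const N) (valHom_nontrivial N) hf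

/-- **the cusp `∞` is fixed by the coefficientwise Galois action.** -/
theorem gal_smul_pInf (τ : Kbar ≃ₐ[ℚ] Kbar) : gal N τ • pInf N = pInf N := by
  apply Place.ext
  rw [SemilinearAut.smul_toValuationSubring]
  ext f
  rw [ValuationSubring.mem_pointwise_smul_iff_inv_smul_mem]
  rcases eq_or_ne f 0 with rfl | hf
  · rw [smul_zero]
  have hf' : (gal N τ)⁻¹ • f ≠ 0 := by
    rw [Ne, smul_eq_zero_iff_eq]
    exact hf
  rw [mem_pInf_iff N hf', mem_pInf_iff N hf]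
  have h1 : (gal N τ)⁻¹ = gal N τ⁻¹ := (map_inv _ τ).symm
  rw [h1, coe_gal_smul, Fermat.Agent.ES.P36.DescTools1.order_coeffMap]

/-- `LHyp` for `Fbar N`. -/
theorem lHyp : LHyp Kbar (FF N) :=
  lHyp_of_isGen (Degree.isGen_jF N (realizeData N) (cuspData N))

/-- Riemann's inequality for `Fbar N`. -/
theorem riemannHyp : RiemannHyp Kbar (FF N) :=
  riemann_inequality_of_isGen (Degree.isGen_jF N (realizeData N) (cuspData N))

/-- **(DESC) at `Fbar N`, refined form.** -/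
theorem exists_stable_repr_Fbar (S : Set (Kbar ≃ₐ[ℚ] Kbar)) (x : Pic0 Kbar (FF N))
    (hx : ∀ τ ∈ S, gal N τ • x = x) :
    ∃ (E : Divisor Kbar (FF N)) (m : ℕ), 0 ≤ E ∧ Divisor.degree E = m ∧
      (∀ τ ∈ S, gal N τ • E = E) ∧
      ∃ h : E - Finsupp.single (pInf N) (m : ℤ) ∈ Divisor.degZero (K := Kbar) (F := FF N),
        Pic0.mk ⟨_, h⟩ = x := by
  obtain ⟨E, m, h0, hdeg, hE, h, hmk⟩ := exists_stable_repr (lHyp N) (riemannHyp N) (pInf N)
    (Set.image (gal N) S) (by rintro _ ⟨τ, -, rfl⟩; exact gal_smul_pInf N τ) x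
    (by rintro _ ⟨τ, hτ, rfl⟩; exact hx τ hτ)
  exact ⟨E, m, h0, hdeg, fun τ hτ => hE _ ⟨τ, hτ, rfl⟩, h, hmk⟩

/-- **(DESC) at `Fbar N`**: a class fixed by `gal N τ`, `τ ∈ S`, has a degree-zero representative
fixed by them. -/
theorem exists_stable_degZero_Fbar (S : Set (Kbar ≃ₐ[ℚ] Kbar)) (x : Pic0 Kbar (FF N))
    (hx : ∀ τ ∈ S, gal N τ • x = x) :
    ∃ D : Divisor.degZero (K := Kbar) (F := FF N), Pic0.mk D = x ∧
      ∀ τ ∈ S, gal N τ • (D : Divisor Kbar (FF N)) = (D : Divisor Kbar (FF N)) := by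
  obtain ⟨D, hD, hst⟩ := exists_stable_degZero (lHyp N) (riemannHyp N) (pInf N)
    (Set.image (gal N) S) (by rintro _ ⟨τ, -, rfl⟩; exact gal_smul_pInf N τ) x
    (by rintro _ ⟨τ, hτ, rfl⟩; exact hx τ hτ)
  exact ⟨D, hD, fun τ hτ => hst _ ⟨τ, hτ, rfl⟩⟩

/-- **(DESC) at `Fbar N` for torsion classes**: moreover `n • D = div f`. -/
theorem exists_stable_torsion_Fbar (S : Set (Kbar ≃ₐ[ℚ] Kbar)) {n : ℕ} (x : Pic0 Kbar (FF N))
    (hxn : x ∈ Pic0.torsion Kbar (FF N) n) (hx : ∀ τ ∈ S, gal N τ • x = x) :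
    ∃ D : Divisor.degZero (K := Kbar) (F := FF N), Pic0.mk D = x ∧
      (∀ τ ∈ S, gal N τ • (D : Divisor Kbar (FF N)) = (D : Divisor Kbar (FF N))) ∧
      ∃ f : FF N, f ≠ 0 ∧
        ∀ v : Place Kbar (FF N), (n : ℤ) * (D : Divisor Kbar (FF N)) v = v.ord f := by
  obtain ⟨D, hD, hst, hf⟩ := exists_stable_torsion (lHyp N) (riemannHyp N) (pInf N)
    (Set.image (gal N) S) (by rintro _ ⟨τ, -, rfl⟩; exact gal_smul_pInf N τ) x hxn
    (by rintro _ ⟨τ, hτ, rfl⟩; exact hx τ hτ)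
  exact ⟨D, hD, fun τ hτ => hst _ ⟨τ, hτ, rfl⟩, hf⟩

end Fermat.Agent.U44.DescInst1
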