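/-
Programme U44 (target S44), chapter (LIFT), step (Om-C3) (helper5).

**The genus of the special fibre equals the genus of the generic fibre.**

Generic lemma (`genusFF_eq_of_riemann`): for a function field `F / K` satisfying `LSpace.LHyp`,
if Riemann's inequality `deg D + 1 - g ≤ l(D)` holds for ALL divisors with a constant `g`, and ONE
divisor `D₀` has `l(D₀) = deg D₀ + 1 - g`, then `genusFF K F = dim H¹(0) = g`.
(`≤`: a divisor of large degree has `i(D) = 0`, so `l(D) = deg D + 1 - genusFF`; `≥`: the Euler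
characteristic formula at `D₀`.)  Only the char-free Euler characteristic of `FF/RiemannW1` is used.

Instance (`genusFF_special`): at a Haupt-level `M` (`m : RedModel ℓ A M`), the special fibre
`F̃_M = modularFunctionFieldFullC κ M` has `genusFF κ F̃_M = genusFF ℚ̄ (Fbar M)`, from
`SpecialRR6.riemann_inequality_special_genus` and `SpecialRR6.exists_delta_eq_zero_base`.
-/
import Mathlib
import Fermat.Agent.FF.RiemannW1D
import Fermat.Agent.FF.SpecialRR6L
import Fermat.Agent.FF.RedIface9
import Fermat.Agent.RR.RRMain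
import Fermat.Agent.X0.HasCanDivInst

set_option autoImplicit false
set_option linter.unusedSectionVars false
set_option linter.style.haveILetI false
set_option synthInstance.maxHeartbeats 400000

open AlgebraicCurve ModularCurve Module

namespace Fermat.Agent.U44.GenusEq5

open Fermat.Agent.RR.LSpace Fermat.Agent.FF.RiemannW1

section Generic

variable {K F : Type*} [Field K] [Field F] [Algebra K F]

/-- **(Om-C3), generic form.** -/
theorem genusFF_eq_of_riemann (HL : LHyp K F) (g : ℤ)
    (hR : ∀ D : Divisor K F,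
      Divisor.degree D + 1 - g ≤ (finrank K (riemannRochSpace D) : ℤ))
    (hD0 : ∃ D₀ : Divisor K F,
      (finrank K (riemannRochSpace D₀) : ℤ) = Divisor.degree D₀ + 1 - g) :
    (genusFF K F : ℤ) = g := by
  have hR' : ∃ γ : ℤ, ∀ D : Divisor K F,
      Divisor.degree D + 1 - γ ≤ (finrank K (riemannRochSpace D) : ℤ) := ⟨g, hR⟩
  apply le_antisymm
  · -- a divisor of large degree
    obtain ⟨c, hc⟩ := exists_forall_degree_ge_finrank_L_eq_of_lHyp HL hR'
    obtain ⟨v⟩ := HL.nonempty
    have h1 := hc (Finsupp.single v c) (by rw [degree_single HL])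
    have h2 := hR (Finsupp.single v c)
    rw [h1] at h2
    linarith
  · obtain ⟨D₀, hD₀⟩ := hD0
    have h1 := finrank_L_sub_finrank_H1_of_lHyp HL hR' D₀
    have h2 : (0 : ℤ) ≤ (finrank K (H1 D₀) : ℤ) := Int.natCast_nonneg _
    rw [hD₀] at h1
    linarith

end Generic

section Instance

open Fermat.Agent.RED.Interface4 Fermat.Agent.FF.RedIface9 Fermat.Agent.FF.SpecRR1
  Fermat.Agent.RED.BASE

variable {ℓ : ℕ} [Fact ℓ.Prime] {A : ValuationSubring Qbar} {M : ℕ} [NeZero M]
  (m : RedModel ℓ A M) (hA : A.LiesOverPrime ℓ)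

include m hA in
/-- `LHyp` on the special fibre at a Haupt-level. -/
theorem lHyp_special :
    LHyp (IsLocalRing.ResidueField A) ↥(modularFunctionFieldFullC (IsLocalRing.ResidueField A) M) :=
  Fermat.Agent.FF.SpecialRR6.lHyp_special m.n m.e M ℓ m.hℓM (Hauptmodul12.tMem_of_dvd m.hb m.hnM)
    (Hauptmodul12.tGenBase' m.hb) A hA m.rPl (m.isPlaceReduction hA)

include m hA in
/-- **(Om-C3)**: the special fibre has the genus of the generic fibre. -/
theorem genusFF_special :
    genusFF (IsLocalRing.ResidueField A)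
        ↥(modularFunctionFieldFullC (IsLocalRing.ResidueField A) M) =
      genusFF Qbar ↥(Fbar M) := by
  haveI := Fermat.Agent.X0.HasCanDivInst.hasCanonicalDivisor M
  have hmem := Hauptmodul12.tMem_of_dvd m.hb m.hnM
  have hgen := Hauptmodul12.tGenBase' m.hb
  have hgg : genus Qbar ↥(Fbar M) = genusFF Qbar ↥(Fbar M) :=
    Fermat.Agent.RR.RRMain.genus_eq_genusFF (Fermat.Agent.X0.HasCanDivInst.isGen M)
  have HLb := lHyp_special m hA
  have h := genusFF_eq_of_riemann HLb ((genus Qbar ↥(Fbar M) : ℕ) : ℤ)
    (fun Db => Fermat.Agent.FF.SpecialRR6.riemann_inequality_special_genus m.n m.e M ℓ m.hℓM hmem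
      hgen A hA m.rPl (m.isPlaceReduction hA) Db)
    (by
      obtain ⟨D₀, hD₀⟩ := Fermat.Agent.FF.SpecialRR6.exists_delta_eq_zero_base m.n m.e M ℓ m.hℓM
        A hA m.hb m.hnM m.rPl (m.isPlaceReduction hA)
      refine ⟨D₀, ?_⟩
      unfold delta ell at hD₀
      linarith)
  rw [← hgg]
  exact_mod_cast h

end Instance

end Fermat.Agent.U44.GenusEq5
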