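/-
Programme U44 (target S44), chapter (LIFT), block Om-C4 (helper8): auxiliary lemmas for the reduction
of regular differentials.

* `mapDomain_apply_eq_sum` and consequences: fibrewise description of the push-forward of divisors;
* `gauss_const` : the Gauss lemma for `γ · X = Y`, `X Y ∈ A((q))` of non-zero reduction;
* `thetaDer` : `θ = q d/dq` as a derivation `E → K((q))` for an intermediate field `E ≤ K((q))`,
  and `theta_eq_mul_of_D_eq_smul` : `D a = c • D b` in `Ω[E⁄K]` implies `θ a = c · θ b`.
-/
import Mathlib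
import Fermat.Agent.IG.PR.Theta20
import Fermat.Agent.ES.RED.Setup8

set_option autoImplicit false
set_option synthInstance.maxHeartbeats 400000

noncomputable section

open HahnSeries ModularCurve KaehlerDifferential

namespace Fermat.Agent.U44.RegRedAux8

open Fermat.Agent.IG.PR.Theta20 Fermat.Agent.ES.RED

/-! ### push-forward of divisors, fibrewise -/

section MapDomain

variable {α β : Type*}

theorem mapDomain_apply_eq_sum [DecidableEq β] (f : α → β) (D : α →₀ ℤ) (Q : β) :
    Finsupp.mapDomain f D Q = ∑ a ∈ D.support, if f a = Q then D a else 0 := by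
  rw [Finsupp.mapDomain, Finsupp.sum_apply, Finsupp.sum]
  refine Finset.sum_congr rfl fun a _ => ?_
  rw [Finsupp.single_apply]

theorem mapDomain_nonneg (f : α → β) (D : α →₀ ℤ) (Q : β) (h : ∀ a, f a = Q → 0 ≤ D a) :
    0 ≤ Finsupp.mapDomain f D Q := by
  classical
  rw [mapDomain_apply_eq_sum]
  refine Finset.sum_nonneg fun a _ => ?_
  split_ifs with ha
  · exact h a ha
  · exact le_rfl

theorem mapDomain_eq_zero_of_fibre (f : α → β) (D : α →₀ ℤ) (Q : β)
    (h : ∀ a, f a = Q → D a = 0) : Finsupp.mapDomain f D Q = 0 := by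
  classical
  rw [mapDomain_apply_eq_sum]
  refine Finset.sum_eq_zero fun a _ => ?_
  split_ifs with ha
  · exact h a ha
  · rfl

theorem mapDomain_congr_fibre (f : α → β) (D D' : α →₀ ℤ) (Q : β)
    (h : ∀ a, f a = Q → D a = D' a) :
    Finsupp.mapDomain f D Q = Finsupp.mapDomain f D' Q := by
  have h0 := mapDomain_eq_zero_of_fibre f (D - D') Q (fun a ha => by
    rw [Finsupp.sub_apply, h a ha, sub_self])
  rw [Finsupp.mapDomain_sub, Finsupp.sub_apply] at h0
  exact sub_eq_zero.mp h0

/-- a single term of the fibre is bounded by the push-forward, if the fibre is effective. -/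
theorem le_mapDomain_of_fibre_nonneg (f : α → β) (D : α →₀ ℤ) (Q : β)
    (h : ∀ a, f a = Q → 0 ≤ D a) (a₀ : α) (ha₀ : f a₀ = Q) :
    D a₀ ≤ Finsupp.mapDomain f D Q := by
  classical
  rw [mapDomain_apply_eq_sum]
  by_cases hs : a₀ ∈ D.support
  · have h1 : (if f a₀ = Q then D a₀ else 0) ≤
        ∑ a ∈ D.support, if f a = Q then D a else 0 :=
      Finset.single_le_sum (f := fun a => if f a = Q then D a else 0) (fun a _ => by
        show 0 ≤ (if f a = Q then D a else 0)
        split_ifs with ha
        · exact h a ha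
        · exact le_rfl) hs
    rwa [if_pos ha₀] at h1
  · rw [Finsupp.notMem_support_iff.mp hs]
    refine Finset.sum_nonneg fun a _ => ?_
    split_ifs with ha
    · exact h a ha
    · exact le_rfl

end MapDomain

/-! ### the Gauss lemma -/

section Gauss

variable {L : Type*} [Field L] (A : ValuationSubring L)

theorem coeff_C_mul {R : Type*} [CommRing R] (r : R) (X : LaurentSeries R) (k : ℤ) :
    (HahnSeries.C r * X).coeff k = r * X.coeff k := by
  rw [HahnSeries.C_mul_eq_smul, HahnSeries.coeff_smul, smul_eq_mul]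

/-- **Gauss lemma.**  If `γ · X = Y` with `X, Y ∈ A((q))` of non-zero reduction then `γ` is a unit of
`A` and `γ̄ · X̄ = Ȳ`. -/
theorem gauss_const {X Y : LaurentSeries ↥A} {γ : L}
    (h : HahnSeries.C γ * coeffMap A.subtype X = coeffMap A.subtype Y)
    (hX : coeffMap (Setup8.resA A) X ≠ 0) (hY : coeffMap (Setup8.resA A) Y ≠ 0) :
    ∃ g : ↥A, (g : L) = γ ∧ Setup8.resA A g ≠ 0 ∧
      HahnSeries.C (Setup8.resA A g) * coeffMap (Setup8.resA A) X =
        coeffMap (Setup8.resA A) Y := by
  have hk : ∀ k : ℤ, γ * ((X.coeff k : ↥A) : L) = ((Y.coeff k : ↥A) : L) := by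
    intro k
    have := congrArg (fun z : LaurentSeries L => z.coeff k) h
    simp only [coeff_C_mul, coeffMap_coeff] at this
    exact this
  obtain ⟨n, hn⟩ : ∃ n : ℤ, Setup8.resA A (X.coeff n) ≠ 0 := by
    by_contra hcon
    push Not at hcon
    apply hX
    ext k
    rw [coeffMap_coeff, hcon k, HahnSeries.coeff_zero]
  have hu : IsUnit (X.coeff n) := by
    by_contra hnu
    exact hn ((IsLocalRing.residue_eq_zero_iff _).mpr
      ((IsLocalRing.mem_maximalIdeal _).mpr hnu))
  obtain ⟨w, hw⟩ := hu.exists_right_inv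
  have hw' : ((X.coeff n : ↥A) : L) * (w : L) = 1 := by
    have := congrArg (fun z : ↥A => (z : L)) hw
    simpa using this
  have hγ : γ = ((Y.coeff n * w : ↥A) : L) := by
    push_cast
    rw [← hk n, mul_assoc, hw', mul_one]
  refine ⟨Y.coeff n * w, hγ.symm, ?_, ?_⟩
  · intro h0
    apply hY
    ext k
    rw [coeffMap_coeff, HahnSeries.coeff_zero]
    have h1 : Y.coeff k = (Y.coeff n * w) * X.coeff k := by
      apply Subtype.ext
      push_cast
      rw [← hk k, hγ]
      push_cast
      ring
    rw [h1, map_mul, h0, zero_mul]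
  · ext k
    rw [coeff_C_mul, coeffMap_coeff, coeffMap_coeff, ← map_mul]
    congr 1
    apply Subtype.ext
    push_cast
    rw [← hk k, hγ]
    push_cast
    ring

end Gauss

/-! ### `θ` as a derivation through the Kähler differentials -/

section ThetaDer

variable {K : Type*} [Field K] (E : IntermediateField K (LaurentSeries K))

attribute [local instance 2000] Algebra.toModule Algebra.toSMul

theorem theta_algebraMap' (c : K) : theta (algebraMap K (LaurentSeries K) c) = 0 := by
  rw [algebraMap_laurentSeries_eq_single, theta_single, Int.cast_zero, zero_mul,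
    HahnSeries.single_eq_zero]

/-- `θ = q d/dq` restricted to an intermediate field `E ≤ K((q))`, as a `K`-derivation with values
in `K((q))`. -/
def thetaDer : Derivation K ↥E (LaurentSeries K) where
  toFun x := theta (x : LaurentSeries K)
  map_add' x y := by
    show theta ((x : LaurentSeries K) + (y : LaurentSeries K)) = _
    rw [map_add]
  map_smul' c x := by
    show theta (((c • x : ↥E)) : LaurentSeries K) = c • theta (x : LaurentSeries K)
    have h1 : (((c • x : ↥E)) : LaurentSeries K) =
        algebraMap K (LaurentSeries K) c * (x : LaurentSeries K) := by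
      rw [Algebra.smul_def]; rfl
    rw [h1, theta_mul, theta_algebraMap', zero_mul, zero_add]
    exact (Algebra.smul_def c (theta (x : LaurentSeries K))).symm
  map_one_eq_zero' := by
    show theta ((1 : ↥E) : LaurentSeries K) = 0
    exact theta_one
  leibniz' a b := by
    show theta (((a * b : ↥E)) : LaurentSeries K) =
      a • theta (b : LaurentSeries K) + b • theta (a : LaurentSeries K)
    have h1 : (((a * b : ↥E)) : LaurentSeries K) = (a : LaurentSeries K) * (b : LaurentSeries K) :=
      rfl
    rw [h1, theta_mul, Algebra.smul_def, Algebra.smul_def]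
    show _ = (a : LaurentSeries K) * theta (b : LaurentSeries K) +
      (b : LaurentSeries K) * theta (a : LaurentSeries K)
    ring

@[simp] theorem thetaDer_apply (x : ↥E) : thetaDer E x = theta (x : LaurentSeries K) := rfl

/-- `D a = c • D b` in `Ω[E⁄K]` implies `θ a = c · θ b` in `K((q))`. -/
theorem theta_eq_mul_of_D_eq_smul {a b c : ↥E} (h : D K ↥E a = c • D K ↥E b) :
    theta (a : LaurentSeries K) = (c : LaurentSeries K) * theta (b : LaurentSeries K) := by
  have h1 := congrArg (thetaDer E).liftKaehlerDifferential h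
  rw [map_smul, Derivation.liftKaehlerDifferential_comp_D,
    Derivation.liftKaehlerDifferential_comp_D, thetaDer_apply, thetaDer_apply,
    Algebra.smul_def] at h1
  exact h1

/-- if `θ a ≠ 0` then `D a ≠ 0`. -/
theorem D_ne_zero_of_theta_ne_zero {a : ↥E} (h : theta (a : LaurentSeries K) ≠ 0) :
    D K ↥E a ≠ 0 := by
  intro h0
  apply h
  have h1 := congrArg (thetaDer E).liftKaehlerDifferential h0
  rw [Derivation.liftKaehlerDifferential_comp_D, map_zero, thetaDer_apply] at h1
  exact h1

end ThetaDer

/-! ### the coefficient `dj/dt` is a Gauss unit and reduces to `dj̃/dt̃` -/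

section Coefficient

variable {L : Type*} [Field L] (A : ValuationSubring L)

/-- **Reduction of `dj/dt`.**  Abstract form: `t = a / b`, `c = γ a' / b'` (series over `A`, the
denominators of non-zero reduction), `θ j = c θ t`; on the residue side `t̃ = ã / b̃`,
`θ j̃ = c̃ θ t̃ ≠ 0`.  Then `γ ∈ A` and `γ̃ ã' = c̃ b̃'`, i.e. `c` reduces to `c̃`. -/
theorem coefficient_red {Ya Yb Ya' Yb' J : LaurentSeries ↥A} {c t : LaurentSeries L} {γ : L}
    {cb tb : LaurentSeries (Setup8.kA A)}
    (h1 : t * coeffMap A.subtype Yb = coeffMap A.subtype Ya)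
    (h2 : c * coeffMap A.subtype Yb' = HahnSeries.C γ * coeffMap A.subtype Ya')
    (h3 : theta (coeffMap A.subtype J) = c * theta t)
    (hb : coeffMap (Setup8.resA A) Yb ≠ 0) (ha' : coeffMap (Setup8.resA A) Ya' ≠ 0)
    (hb' : coeffMap (Setup8.resA A) Yb' ≠ 0)
    (hJ : theta (coeffMap (Setup8.resA A) J) ≠ 0)
    (h1b : tb * coeffMap (Setup8.resA A) Yb = coeffMap (Setup8.resA A) Ya)
    (h3b : theta (coeffMap (Setup8.resA A) J) = cb * theta tb) :
    ∃ g : ↥A, (g : L) = γ ∧ HahnSeries.C (Setup8.resA A g) * coeffMap (Setup8.resA A) Ya' =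
      cb * coeffMap (Setup8.resA A) Yb' := by
  set X : LaurentSeries ↥A := Ya' * (theta Ya * Yb - Ya * theta Yb) with hX
  set Y : LaurentSeries ↥A := theta J * Yb' * Yb ^ 2 with hY
  have hθtb : theta tb ≠ 0 := by
    intro h0
    apply hJ
    rw [h3b, h0, mul_zero]
  -- the generic side
  have hθa : theta (coeffMap A.subtype Ya) =
      theta t * coeffMap A.subtype Yb + t * theta (coeffMap A.subtype Yb) := by
    rw [← h1, theta_mul]
  have hsub : HahnSeries.C γ * coeffMap A.subtype X = coeffMap A.subtype Y := by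
    rw [hX, hY, map_mul, map_sub, map_mul, map_mul, map_mul, map_mul, map_pow, coeffMap_theta,
      coeffMap_theta, coeffMap_theta, hθa, h3]
    linear_combination (-(theta t * (coeffMap A.subtype Yb) ^ 2)) * h2 +
      (HahnSeries.C γ * coeffMap A.subtype Ya' * theta (coeffMap A.subtype Yb)) * h1
  -- the special side
  have hθab : theta (coeffMap (Setup8.resA A) Ya) =
      theta tb * coeffMap (Setup8.resA A) Yb + tb * theta (coeffMap (Setup8.resA A) Yb) := by
    rw [← h1b, theta_mul]
  have hredX : coeffMap (Setup8.resA A) X =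
      coeffMap (Setup8.resA A) Ya' * theta tb * (coeffMap (Setup8.resA A) Yb) ^ 2 := by
    rw [hX, map_mul, map_sub, map_mul, map_mul, coeffMap_theta, coeffMap_theta, hθab]
    linear_combination (coeffMap (Setup8.resA A) Ya' *
      theta (coeffMap (Setup8.resA A) Yb)) * h1b
  have hredY : coeffMap (Setup8.resA A) Y =
      cb * theta tb * coeffMap (Setup8.resA A) Yb' * (coeffMap (Setup8.resA A) Yb) ^ 2 := by
    rw [hY, map_mul, map_mul, map_pow, coeffMap_theta, h3b]
  have hXne : coeffMap (Setup8.resA A) X ≠ 0 := by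
    rw [hredX]
    exact mul_ne_zero (mul_ne_zero ha' hθtb) (pow_ne_zero 2 hb)
  have hcb : cb ≠ 0 := by
    intro h0
    apply hJ
    rw [h3b, h0, zero_mul]
  have hYne : coeffMap (Setup8.resA A) Y ≠ 0 := by
    rw [hredY]
    exact mul_ne_zero (mul_ne_zero (mul_ne_zero hcb hθtb) hb') (pow_ne_zero 2 hb)
  obtain ⟨g, hg, -, hgXY⟩ := gauss_const A hsub hXne hYne
  refine ⟨g, hg, ?_⟩
  rw [hredX, hredY] at hgXY
  have hne : theta tb * (coeffMap (Setup8.resA A) Yb) ^ 2 ≠ 0 :=
    mul_ne_zero hθtb (pow_ne_zero 2 hb)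
  apply mul_right_cancel₀ hne
  linear_combination hgXY

end Coefficient

end Fermat.Agent.U44.RegRedAux8
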