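/-
Programme U44 (target S44), chapter (LIFT), block Om-C4 (helper8): **reduction of regular
differentials**, part (a).

Setting: `p` prime, `A ≤ ℚ̄` a valuation ring over `p`, `M` a Hauptmodul level prime to `p`,
`m : RedModel p A M` the concrete reduction model (`FF/RedIface9`), `F = Fbar M`,
`F̃ = modularFunctionFieldFullC κ M` (`κ` the residue field of `A`), `OV` the Gauss valuation ring
with its reduction `redVt : OV →+* F̃` (`FF/RedGauss9`, `FF/RedDiv9`).

* `ordDifferential_jb` : **`r_*(div dj) = div dj̃`**;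
* `regular_red` (C4-a) : if `h ∈ OV` and `h dj` is regular at every place of `F` then `h̃ dj̃` is
  regular at every place of `F̃`.

The only input about differentials of the special fibre is that every place has a generating
coordinate differential (`hgen`).
-/
import Mathlib
import Fermat.Agent.FF.RedDiv9
import Fermat.Agent.X0.FFDiff
import Fermat.Agent.X0.RootsK
import Fermat.Agent.X0.HasCanDivInst
import Fermat.Agent.U44.RegRedAux8

set_option autoImplicit false
set_option synthInstance.maxHeartbeats 400000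
set_option linter.style.haveILetI false
set_option linter.unusedSectionVars false

noncomputable section

open AlgebraicCurve ModularCurve IntermediateField HahnSeries KaehlerDifferential

namespace Fermat.Agent.U44.RegRed8

open Fermat.Agent.X0 Fermat.Agent.X0.FF Fermat.Agent.RED.Interface4
  Fermat.Agent.ES.RED Fermat.Agent.ES.RED.Contract8 Fermat.Agent.FF.RedIface9 Fermat.Agent.FF.RedGauss9 Fermat.Agent.FF.RedDiv9
  Fermat.Agent.FF.GeomIface8 Fermat.Agent.IG.PR.Theta20 Fermat.Agent.U44.RegRedAux8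
  Fermat.Agent.RED.TOP

/-- shortcut instance (the generic search is slow). -/
instance algebraFt8 (A : ValuationSubring Qbar) (M : ℕ) : Algebra (kA A) ↥(Ft A M) :=
  inferInstance

variable {ℓ : ℕ} [Fact ℓ.Prime] {A : ValuationSubring Qbar} {M : ℕ} [NeZero M]
  (m : RedModel ℓ A M) (hA : A.LiesOverPrime ℓ)

/-! ### constants -/

/-- a constant of `A` as an element of the Gauss valuation ring. -/
def cO (d : ↥A) : ↥(OV A M) := ⟨algebraMap Qbar ↥(Fbar M) (d : Qbar), algebraMap_mem_OV A M d⟩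

@[simp] theorem coe_cO (d : ↥A) :
    ((cO (M := M) d : ↥(OV A M)) : ↥(Fbar M)) = algebraMap Qbar ↥(Fbar M) (d : Qbar) := rfl

theorem redVt_cO (d : ↥A) :
    redVt m hA (cO d) = algebraMap (kA A) ↥(Ft A M) (Setup8.resA A d) := by
  apply Subtype.ext
  rw [coe_redVt]
  exact redV_algebraMap A M d

theorem redVt_cO_of_mem {d : ↥A} (hd : d ∈ IsLocalRing.maximalIdeal ↥A) :
    redVt m hA (cO d) = 0 := by
  rw [redVt_cO, (IsLocalRing.residue_eq_zero_iff d).mpr hd, map_zero]

/-- an element of `ℚ̄` outside `A` has its inverse in the maximal ideal of `A`. -/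
theorem exists_inv_mem_maximalIdeal {c : Qbar} (hc : c ∉ A) :
    ∃ d : ↥A, (d : Qbar) = c⁻¹ ∧ d ∈ IsLocalRing.maximalIdeal ↥A := by
  have hc0 : c ≠ 0 := fun h0 => hc (h0 ▸ A.zero_mem)
  have hcinv : c⁻¹ ∈ A := (A.mem_or_inv_mem c).resolve_left hc
  refine ⟨⟨c⁻¹, hcinv⟩, rfl, ?_⟩
  rw [IsLocalRing.mem_maximalIdeal, mem_nonunits_iff]
  intro hunit
  apply hc
  obtain ⟨w, hw⟩ := hunit.exists_right_inv
  have hw' : c⁻¹ * (w : Qbar) = 1 := by
    have := congrArg Subtype.val hw
    simpa using this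
  have : (w : Qbar) = c := by
    rw [← mul_one c, ← hw', ← mul_assoc, mul_inv_cancel₀ hc0, one_mul]
  rw [← this]; exact w.2

include hA in
/-- a constant lying in `OV` lies in `A`. -/
theorem mem_A_of_const_mem_OV {c : Qbar} (h : algebraMap Qbar ↥(Fbar M) c ∈ OV A M) : c ∈ A := by
  rw [← const_mul_mem_OV_iff A ℓ hA (IsOUnit.one (O := OV A M)), mul_one]
  exact h

theorem algebraMap_Ft_ne_zero {x : kA A} (hx : x ≠ 0) : algebraMap (kA A) ↥(Ft A M) x ≠ 0 :=
  fun h0 => hx ((algebraMap (kA A) ↥(Ft A M)).injective (h0.trans (map_zero _).symm))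

theorem const_mem_place (Q : Place Qbar ↥(Fbar M)) (c : Qbar) :
    algebraMap Qbar ↥(Fbar M) c ∈ Q.toValuationSubring :=
  ffp_mem_of_ord_nonneg Q (by rw [ffp_ord_algebraMap])

/-! ### `j` and its reduction -/

theorem coe_jF_eq_jqModC : ((jF M : ↥(Fbar M)) : LaurentSeries Qbar) = jqModC Qbar := by
  rw [Fermat.Agent.X0.coe_jF, jqK_eq_jqModC]

/-- the `j`-function of the special fibre. -/
def jb (A : ValuationSubring Qbar) (M : ℕ) [NeZero M] : ↥(Ft A M) :=
  ⟨jqModC (kA A), jqModC_mem_full (kA A) M⟩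

@[simp] theorem coe_jb : ((jb A M : ↥(Ft A M)) : LaurentSeries (kA A)) = jqModC (kA A) := rfl

theorem theta_jqModC_ne_zero (R : Type*) [CommRing R] [Nontrivial R] : theta (jqModC R) ≠ 0 := by
  intro h
  have h1 := congrArg (fun z : LaurentSeries R => z.coeff (-1)) h
  simp only [theta_coeff, coeff_jqModC_neg_one, HahnSeries.coeff_zero, mul_one] at h1
  have h2 : ((-1 : ℤ) : R) = -1 := by push_cast; rfl
  rw [h2, neg_eq_zero] at h1
  exact one_ne_zero h1

theorem algebraMap_coe_eq_C (γ : Qbar) :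
    ((algebraMap Qbar ↥(Fbar M) γ : ↥(Fbar M)) : LaurentSeries Qbar) = HahnSeries.C γ := by
  show algebraMap Qbar (LaurentSeries Qbar) γ = HahnSeries.C γ
  rw [algebraMap_laurentSeries_eq_single]
  rfl

/-! ### the residue disc of a point of the special fibre -/

include hA in
/-- **disc bound**: for a Gauss unit `w` without poles on the residue disc of `Pb`, the order of `w`
at each point of the disc is at most the order of `w̃` at `Pb`. -/
theorem ord_le_ord_red (w : ↥(OV A M)) (hw : redV A M w ≠ 0) (Pb : Place (kA A) ↥(Ft A M))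
    (hnn : ∀ Q : Place Qbar ↥(Fbar M), m.rPl Q = Pb → 0 ≤ Q.ord (w : ↥(Fbar M)))
    (P : Place Qbar ↥(Fbar M)) (hP : m.rPl P = Pb) :
    P.ord (w : ↥(Fbar M)) ≤ Pb.ord (redVt m hA w) := by
  have hw0 : (w : ↥(Fbar M)) ≠ 0 := by
    intro h0
    apply hw
    have : w = 0 := Subtype.ext h0
    rw [this, map_zero]
  obtain ⟨D, hD, -⟩ := FbarFacts20.exists_divisor_bar M hw0
  rw [← mapDomain_rPl_of_unit m hA w hw D hD Pb, ← hD P]
  exact le_mapDomain_of_fibre_nonneg m.rPl D Pb (fun Q hQ => by rw [hD Q]; exact hnn Q hQ) P hP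

include hA in
/-- on the residue disc of `Pb`, a function `t ∈ OV` without poles takes its values in `A`. -/
theorem value_mem_A (t : ↥(OV A M)) (Pb : Place (kA A) ↥(Ft A M))
    (hreg : ∀ Q : Place Qbar ↥(Fbar M), m.rPl Q = Pb → (t : ↥(Fbar M)) ∈ Q.toValuationSubring)
    (P : Place Qbar ↥(Fbar M)) (hP : m.rPl P = Pb) {c : Qbar}
    (hc : 0 < P.ord ((t : ↥(Fbar M)) - algebraMap Qbar ↥(Fbar M) c)) : c ∈ A := by
  by_contra hcA
  obtain ⟨d, hd, hdm⟩ := exists_inv_mem_maximalIdeal hcA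
  have hc0 : c ≠ 0 := fun h0 => hcA (h0 ▸ A.zero_mem)
  have htc0 : (t : ↥(Fbar M)) - algebraMap Qbar ↥(Fbar M) c ≠ 0 := by
    intro h0
    rw [h0, Place.ord_zero] at hc
    exact lt_irrefl _ hc
  -- `w = 1 - c⁻¹ t`
  set w : ↥(OV A M) := 1 - cO d * t with hw
  have hwred : redVt m hA w = 1 := by
    rw [hw, map_sub, map_one, map_mul, redVt_cO_of_mem m hA hdm, zero_mul, sub_zero]
  have hwF : (w : ↥(Fbar M)) =
      algebraMap Qbar ↥(Fbar M) (-c⁻¹) * ((t : ↥(Fbar M)) - algebraMap Qbar ↥(Fbar M) c) := by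
    have h1 : (w : ↥(Fbar M)) = 1 - algebraMap Qbar ↥(Fbar M) (d : Qbar) * (t : ↥(Fbar M)) := rfl
    rw [h1, hd, map_neg, mul_sub, neg_mul, neg_mul, sub_neg_eq_add, ← map_mul,
      inv_mul_cancel₀ hc0, map_one]
    ring
  have hwne : redV A M w ≠ 0 := by
    rw [← redVt_ne_zero_iff m hA, hwred]
    exact one_ne_zero
  have hnn : ∀ Q : Place Qbar ↥(Fbar M), m.rPl Q = Pb → 0 ≤ Q.ord (w : ↥(Fbar M)) := by
    intro Q hQ
    apply ffp_ord_nonneg_of_mem
    have h1 : (w : ↥(Fbar M)) = 1 - algebraMap Qbar ↥(Fbar M) (d : Qbar) * (t : ↥(Fbar M)) := rfl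
    rw [h1]
    exact sub_mem (one_mem _) (mul_mem (const_mem_place Q _) (hreg Q hQ))
  have h1 := ord_le_ord_red m hA w hwne Pb hnn P hP
  rw [hwred, Place.ord_one, hwF, P.ord_mul (by
    rw [Ne, map_eq_zero, neg_eq_zero, inv_eq_zero]; exact hc0) htc0, ffp_ord_algebraMap,
    zero_add] at h1
  omega

include hA in
/-- **a lift of a uniformiser is a uniformiser (after a shift) at every point of the residue
disc.** -/
theorem exists_const_ord_sub_eq_one (t : ↥(OV A M)) (Pb : Place (kA A) ↥(Ft A M))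
    (htb : Pb.ord (redVt m hA t) = 1)
    (hreg : ∀ Q : Place Qbar ↥(Fbar M), m.rPl Q = Pb → (t : ↥(Fbar M)) ∈ Q.toValuationSubring)
    (P : Place Qbar ↥(Fbar M)) (hP : m.rPl P = Pb) :
    ∃ c : Qbar, P.ord ((t : ↥(Fbar M)) - algebraMap Qbar ↥(Fbar M) c) = 1 := by
  have hx := FbarFacts20.isGen_j M
  have halg := ffg_isAlgebraic hx
  have htb0 : redVt m hA t ≠ 0 := by
    intro h0
    rw [h0, Place.ord_zero] at htb
    exact zero_ne_one htb
  obtain ⟨c, hc⟩ := ffp_exists_ord_sub_pos P (jF M) halg (hreg P hP)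
  rcases hc with hc | hc
  · -- `t` would be constant
    exfalso
    have hcA : c ∈ A := mem_A_of_const_mem_OV hA (by rw [← hc]; exact t.2)
    have h1 : t = cO ⟨c, hcA⟩ := Subtype.ext hc
    rw [h1, redVt_cO, ffp_ord_algebraMap] at htb
    exact zero_ne_one htb
  · refine ⟨c, ?_⟩
    have hcA : c ∈ A := value_mem_A m hA t Pb hreg P hP hc
    set w : ↥(OV A M) := t - cO ⟨c, hcA⟩ with hw
    have hwF : (w : ↥(Fbar M)) = (t : ↥(Fbar M)) - algebraMap Qbar ↥(Fbar M) c := rfl
    have hwred : redVt m hA w =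
        redVt m hA t - algebraMap (kA A) ↥(Ft A M) (Setup8.resA A ⟨c, hcA⟩) := by
      rw [hw, map_sub, redVt_cO]
    have hnn : ∀ Q : Place Qbar ↥(Fbar M), m.rPl Q = Pb → 0 ≤ Q.ord (w : ↥(Fbar M)) := by
      intro Q hQ
      apply ffp_ord_nonneg_of_mem
      rw [hwF]
      exact sub_mem (hreg Q hQ) (const_mem_place Q _)
    by_cases hres : Setup8.resA A ⟨c, hcA⟩ = 0
    · rw [hres, map_zero, sub_zero] at hwred
      have hwne : redV A M w ≠ 0 := by
        rw [← redVt_ne_zero_iff m hA, hwred]; exact htb0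
      have h1 := ord_le_ord_red m hA w hwne Pb hnn P hP
      rw [hwred, htb, hwF] at h1
      omega
    · exfalso
      have hcne := algebraMap_Ft_ne_zero (M := M) hres
      have hord : Pb.ord (redVt m hA w) = 0 := by
        rw [hwred, sub_eq_add_neg, add_comm,
          ffp_ord_add_eq_of_lt Pb (neg_ne_zero.mpr hcne) (by
            rw [ffp_ord_neg, ffp_ord_algebraMap, htb]; exact zero_lt_one),
          ffp_ord_neg, ffp_ord_algebraMap]
      have hwne : redV A M w ≠ 0 := by
        rw [← redVt_ne_zero_iff m hA, hwred, sub_ne_zero]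
        intro h0
        rw [h0, ffp_ord_algebraMap] at htb
        exact zero_ne_one htb
      have h1 := ord_le_ord_red m hA w hwne Pb hnn P hP
      rw [hord, hwF] at h1
      omega

/-! ### the coefficient `dj/dt` on a residue disc -/

include hA in
/-- **Key local statement.**  For every place `Pb` of the special fibre there is a Gauss unit `c`
(`= dj/dt` for a chart `t` of the residue disc of `Pb`) whose reduction is the coefficient of `dj̃`
with respect to the coordinate differential at `Pb`, and whose order at each `P` of the disc is the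
order of `dj` at `P`. -/
theorem exists_coefficient (hgen : ∀ Pb : Place (kA A) ↥(Ft A M), Pb.DCoordGenerates)
    (Pb : Place (kA A) ↥(Ft A M)) :
    ∃ c : ↥(OV A M),
      redVt m hA c = Pb.differentialCoeff (D (kA A) ↥(Ft A M) (jb A M)) ∧
      redVt m hA c ≠ 0 ∧
      ∀ P : Place Qbar ↥(Fbar M), m.rPl P = Pb →
        P.ordDifferential (D Qbar ↥(Fbar M) (jF M)) = P.ord (c : ↥(Fbar M)) := by
  haveI := hgen Pb
  have hx : IsGen Qbar (jF M) := FbarFacts20.isGen_j M
  have halg := ffg_isAlgebraic hx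
  -- the chart on the special fibre
  set tb : ↥(Ft A M) := ((ffu Pb : Pb.toValuationSubring) : ↥(Ft A M)) with htbdef
  have htb : Pb.ord tb = 1 := ffu_ord Pb
  obtain ⟨t, ht, hreg⟩ := exists_lift_regular m hA Pb tb (ffu Pb).2
  set cb : ↥(Ft A M) := Pb.differentialCoeff (D (kA A) ↥(Ft A M) (jb A M)) with hcbdef
  have hcb : D (kA A) ↥(Ft A M) (jb A M) = cb • D (kA A) ↥(Ft A M) tb :=
    (Pb.differentialCoeff_smul_dCoord (D (kA A) ↥(Ft A M) (jb A M))).symm
  have h3b : theta ((jb A M : ↥(Ft A M)) : LaurentSeries (kA A)) =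
      (cb : LaurentSeries (kA A)) * theta (tb : LaurentSeries (kA A)) :=
    theta_eq_mul_of_D_eq_smul (Ft A M) hcb
  -- a point of the disc, the chart on the generic fibre
  obtain ⟨P₀, hP₀⟩ := rPl_surjective m hA Pb
  obtain ⟨c₀, hc₀⟩ := exists_const_ord_sub_eq_one m hA t Pb (by rw [ht]; exact htb) hreg P₀ hP₀
  have hDsub : ∀ c' : Qbar, D Qbar ↥(Fbar M) ((t : ↥(Fbar M)) - algebraMap Qbar ↥(Fbar M) c') =
      D Qbar ↥(Fbar M) (t : ↥(Fbar M)) := by
    intro c'
    rw [map_sub, Derivation.map_algebraMap, sub_zero]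
  have htr : Transcendental Qbar ((t : ↥(Fbar M)) - algebraMap Qbar ↥(Fbar M) c₀) :=
    ffp_transcendental_of_ord_ne_zero P₀ (by rw [hc₀]; exact one_ne_zero)
  have halg' := ffx_isAlgebraic_of_transcendental (jF M) _ halg htr
  have hDt0 : D Qbar ↥(Fbar M) (t : ↥(Fbar M)) ≠ 0 := by
    rw [← hDsub c₀]
    exact ffd_D_ne_zero _ htr halg'
  obtain ⟨c, hc⟩ := ffd_exists_smul_D _ htr halg' (D Qbar ↥(Fbar M) (jF M))
  rw [hDsub c₀] at hc
  have h3 : theta ((jF M : ↥(Fbar M)) : LaurentSeries Qbar) =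
      (c : LaurentSeries Qbar) * theta ((t : ↥(Fbar M)) : LaurentSeries Qbar) :=
    theta_eq_mul_of_D_eq_smul (Fbar M) hc
  have hc0 : c ≠ 0 := by
    intro h0
    rw [h0, zero_smul] at hc
    exact D_ne_zero hx hc
  -- fractions
  obtain ⟨a, b, hb, hab⟩ := t.2
  obtain ⟨γ, a', b', hγ0, ha', hb', hrel⟩ := exists_gauss_fraction A ℓ hA c hc0
  have htred : redV A M t = redQ A M a / redQ A M b := redV_eq A M t hb hab
  have htbcoe : (tb : LaurentSeries (kA A)) = redV A M t := by
    rw [← ht]; rfl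
  obtain ⟨g, hg, hgred⟩ := coefficient_red A (Ya := Setup8.liftA A (Fbar M) a)
    (Yb := Setup8.liftA A (Fbar M) b) (Ya' := Setup8.liftA A (Fbar M) a')
    (Yb' := Setup8.liftA A (Fbar M) b') (J := jqModC ↥A)
    (c := (c : LaurentSeries Qbar)) (t := ((t : ↥(Fbar M)) : LaurentSeries Qbar)) (γ := γ)
    (cb := (cb : LaurentSeries (kA A))) (tb := (tb : LaurentSeries (kA A)))
    (by
      rw [Setup8.coeffMap_liftA, Setup8.coeffMap_liftA]
      exact congrArg Subtype.val hab)
    (by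
      rw [Setup8.coeffMap_liftA, Setup8.coeffMap_liftA, ← algebraMap_coe_eq_C (M := M)]
      exact congrArg Subtype.val hrel)
    (by rw [coeffMap_jqModC, ← coe_jF_eq_jqModC (M := M)]; exact h3)
    hb ha' hb'
    (by rw [coeffMap_jqModC]; exact theta_jqModC_ne_zero _)
    (by
      rw [htbcoe, htred]
      exact div_mul_cancel₀ _ hb)
    (by rw [coeffMap_jqModC]; exact h3b)
  -- `c` lies in the Gauss valuation ring
  set ga' : ↥(calO A M) :=
    ⟨algebraMap Qbar ↥(Fbar M) (g : Qbar), Setup8.algebraMap_mem_gaussA A (Fbar M) g⟩ * a'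
    with hga'
  have hcrel : c * ((b' : ↥(calO A M)) : ↥(Fbar M)) = ((ga' : ↥(calO A M)) : ↥(Fbar M)) := by
    rw [hrel, hga', ← hg]
    rfl
  have hcO : c ∈ OV A M := ⟨ga', b', hb', hcrel⟩
  have hcred : redV A M ⟨c, hcO⟩ = (cb : LaurentSeries (kA A)) := by
    rw [redV_eq A M ⟨c, hcO⟩ hb' hcrel, hga', map_mul]
    have h1 : redQ A M ⟨algebraMap Qbar ↥(Fbar M) (g : Qbar),
        Setup8.algebraMap_mem_gaussA A (Fbar M) g⟩ = HahnSeries.C (Setup8.resA A g) := by
      show Setup8.redA A (Fbar M) _ = _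
      rw [Setup8.redA_algebraMap, algebraMap_laurentSeries_eq_single]
      rfl
    rw [h1]
    have h2 : HahnSeries.C (Setup8.resA A g) * redQ A M a' =
        (cb : LaurentSeries (kA A)) * redQ A M b' := hgred
    rw [h2]
    exact mul_div_cancel_right₀ _ hb'
  have hcbne : cb ≠ 0 := by
    intro h0
    have := theta_jqModC_ne_zero (kA A)
    apply this
    have h4 := h3b
    rw [h0] at h4
    rw [← coe_jb (A := A) (M := M), h4]
    exact zero_mul _
  refine ⟨⟨c, hcO⟩, Subtype.ext hcred, ?_, ?_⟩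
  · intro h0
    apply hcbne
    have h6 : redVt m hA ⟨c, hcO⟩ = cb := Subtype.ext hcred
    rw [← h6]
    exact h0
  · intro P hP
    obtain ⟨c', hc'⟩ := exists_const_ord_sub_eq_one m hA t Pb (by rw [ht]; exact htb) hreg P hP
    have h5 : P.ordDifferential (D Qbar ↥(Fbar M) (t : ↥(Fbar M))) = 0 := by
      rw [← hDsub c', ordDifferential_D_of_ord_ne_zero hx P (by rw [hc']; exact one_ne_zero), hc']
      rfl
    rw [hc, ordDifferential_smul' hx P hc0 hDt0, h5, add_zero]

/-! ### `r_*(div dj) = div dj̃` and the reduction of regular differentials -/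

theorem D_jb_ne_zero : D (kA A) ↥(Ft A M) (jb A M) ≠ 0 :=
  D_ne_zero_of_theta_ne_zero (Ft A M) (by rw [coe_jb]; exact theta_jqModC_ne_zero _)

theorem nontrivial_kaehler_Ft : Nontrivial Ω[↥(Ft A M)⁄kA A] :=
  ⟨⟨D (kA A) ↥(Ft A M) (jb A M), 0, D_jb_ne_zero⟩⟩

include hA in
/-- **`r_*(div dj) = div dj̃`.** -/
theorem ordDifferential_jb (hgen : ∀ Pb : Place (kA A) ↥(Ft A M), Pb.DCoordGenerates)
    (W : Divisor Qbar ↥(Fbar M))
    (hW : ∀ P : Place Qbar ↥(Fbar M), W P = P.ordDifferential (D Qbar ↥(Fbar M) (jF M)))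
    (Pb : Place (kA A) ↥(Ft A M)) :
    Pb.ordDifferential (D (kA A) ↥(Ft A M) (jb A M)) = Finsupp.mapDomain m.rPl W Pb := by
  obtain ⟨c, hcred, hcne, hcW⟩ := exists_coefficient m hA hgen Pb
  have hc0 : (c : ↥(Fbar M)) ≠ 0 := by
    intro h0
    apply hcne
    have : c = 0 := Subtype.ext h0
    rw [this, map_zero]
  obtain ⟨Dc, hDc, -⟩ := FbarFacts20.exists_divisor_bar M hc0
  rw [mapDomain_congr_fibre m.rPl W Dc Pb (fun P hP => by rw [hW P, hcW P hP, hDc P]),
    mapDomain_rPl_of_unit m hA c ((redVt_ne_zero_iff m hA c).mp hcne) Dc hDc Pb, hcred]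
  rfl

include m hA in
/-- the coefficient of `dj̃` at any place is non-zero. -/
theorem differentialCoeff_D_jb_ne_zero
    (hgen : ∀ Pb : Place (kA A) ↥(Ft A M), Pb.DCoordGenerates) (Pb : Place (kA A) ↥(Ft A M)) :
    Pb.differentialCoeff (D (kA A) ↥(Ft A M) (jb A M)) ≠ 0 := by
  obtain ⟨c, hcred, hcne, -⟩ := exists_coefficient m hA hgen Pb
  rw [← hcred]
  exact hcne

include hA in
/-- **(C4-a) reduction of regular differentials.**  If `h ∈ OV` and `h dj` is regular at every
place of `Fbar M`, then `h̃ dj̃` is regular at every place of the special fibre. -/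
theorem regular_red (hgen : ∀ Pb : Place (kA A) ↥(Ft A M), Pb.DCoordGenerates) (h : ↥(OV A M))
    (hreg : ∀ P : Place Qbar ↥(Fbar M),
      0 ≤ P.ordDifferential ((h : ↥(Fbar M)) • D Qbar ↥(Fbar M) (jF M)))
    (Pb : Place (kA A) ↥(Ft A M)) :
    0 ≤ Pb.ordDifferential (redVt m hA h • D (kA A) ↥(Ft A M) (jb A M)) := by
  haveI := hgen Pb
  haveI : Nontrivial Ω[↥(Ft A M)⁄kA A] := nontrivial_kaehler_Ft
  have hx : IsGen Qbar (jF M) := FbarFacts20.isGen_j M
  by_cases hred : redVt m hA h = 0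
  · rw [hred, zero_smul, Place.ordDifferential, Place.differentialCoeff_zero, Place.ord_zero]
  · have hh0 : (h : ↥(Fbar M)) ≠ 0 := by
      intro h0
      apply hred
      have : h = 0 := Subtype.ext h0
      rw [this, map_zero]
    obtain ⟨Dh, hDh, -⟩ := FbarFacts20.exists_divisor_bar M hh0
    haveI := HasCanDivInst.hasCanonicalDivisor M
    set W : Divisor Qbar ↥(Fbar M) := canonicalDivisorOf (D_ne_zero hx) with hWdef
    have hW : ∀ P : Place Qbar ↥(Fbar M), W P = P.ordDifferential (D Qbar ↥(Fbar M) (jF M)) :=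
      fun P => canonicalDivisorOf_apply (D_ne_zero hx) P
    rw [Place.ordDifferential_smul Pb hred (differentialCoeff_D_jb_ne_zero m hA hgen Pb),
      ordDifferential_jb m hA hgen W hW Pb,
      ← mapDomain_rPl_of_unit m hA h ((redVt_ne_zero_iff m hA h).mp hred) Dh hDh Pb,
      ← Finsupp.add_apply, ← Finsupp.mapDomain_add]
    apply mapDomain_nonneg
    intro P _
    rw [Finsupp.add_apply, hDh P, hW P, ← ordDifferential_smul' hx P hh0 (D_ne_zero hx)]
    exact hreg P

end Fermat.Agent.U44.RegRed8
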