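/-
Programme U44 (target S44), chapter (LIFT), block Om-C1 (lead): **finitely many ramified places of a
separating generator, in any characteristic.**

`K` algebraically closed, `x : F` with `IsGen K x` and `[Algebra.IsSeparable K⟮x⟯ F]`.  The integral
closure `B = intRing K x` of `A = K[x]` is a Dedekind domain, finite over `A` (`ES/RED/SumOrdSep15`);
`Mathlib`'s different ideal `differentIdeal A B` is nonzero, a height-one prime `w` of `B` not dividing
it is unramified (`pow_sub_one_dvd_differentIdeal`), and the dictionary of `X0/FFDict` translates this
into `ord_v (x - c) ≤ 1`.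

* `isSeparable_fractionRing_of` : separability of `Frac B / Frac A` from that of `L / K'`;
* `ord_eq_one_of_not_dvd_different` : abstract form (`A ⊆ B` Dedekind, `B` finite over `A`);
* `finite_ramified` : `{v | ∃ c, 1 < ord_v (x - c)}` is finite.
-/
import Mathlib
import Fermat.Agent.ES.RED.SumOrdSep15
import Fermat.Agent.X0.FFPlace

set_option autoImplicit false
set_option linter.style.haveILetI false
set_option linter.unusedSectionVars false
set_option linter.overlappingInstances false

open AlgebraicCurve IntermediateField Polynomial IsDedekindDomain WithZero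

namespace Fermat.Agent.U44.RamFinite0

open Fermat.Agent.X0 Fermat.Agent.X0.FF

attribute [local instance] FractionRing.liftAlgebra FractionRing.isScalarTower_liftAlgebra

section Abstract

variable {A B K' L : Type*} [CommRing A] [IsDomain A] [CommRing B] [IsDomain B] [Algebra A B]
  [Module.IsTorsionFree A B]
  [Field K'] [Field L] [Algebra A K'] [IsFractionRing A K'] [Algebra B L] [IsFractionRing B L]
  [Algebra K' L] [Algebra A L] [IsScalarTower A K' L] [IsScalarTower A B L]

/-- separability of the fraction fields, in the form consumed by `Mathlib`'s different ideal. -/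
theorem isSeparable_fractionRing_of [Algebra.IsSeparable K' L] :
    Algebra.IsSeparable (FractionRing A) (FractionRing B) := by
  have H : RingHom.comp (algebraMap (FractionRing A) (FractionRing B))
      ↑(FractionRing.algEquiv A K').symm.toRingEquiv =
        RingHom.comp ↑(FractionRing.algEquiv B L).symm.toRingEquiv (algebraMap K' L) := by
    apply IsLocalization.ringHom_ext (nonZeroDivisors A)
    ext
    simp only [RingHom.coe_comp, RingHom.coe_coe,
      AlgEquiv.coe_ringEquiv, Function.comp_apply, AlgEquiv.commutes,
      ← IsScalarTower.algebraMap_apply]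
    rw [IsScalarTower.algebraMap_apply A B L, AlgEquiv.commutes, ← IsScalarTower.algebraMap_apply]
  exact Algebra.IsSeparable.of_equiv_equiv _ _ H

end Abstract

section Ram

variable {K F A B : Type*} [Field K] [Field F] [Algebra K F]
  [CommRing A] [IsDomain A] [IsDedekindDomain A] [CommRing B] [IsDedekindDomain B] [Algebra A B]
  [Module.Finite A B] [Module.IsTorsionFree A B]
  [Algebra.IsSeparable (FractionRing A) (FractionRing B)]
  [Algebra B F] [IsFractionRing B F] [Algebra K B] [IsScalarTower K B F]

/-- **an unramified prime**: if the height-one prime `w` of `B` does not divide the different of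
`B / A` and the generator `a` of a maximal ideal of `A` vanishes at `w`, it vanishes to order one. -/
theorem ord_eq_one_of_not_dvd_different (a : A) (ha : a ≠ 0) (hmax : (Ideal.span {a}).IsMaximal)
    (w : HeightOneSpectrum B) (hw : ¬ w.asIdeal ∣ differentIdeal A B)
    (hpos : 0 < (Place.ofHeightOneSpectrum (K := K) (F := F) w).ord
      (algebraMap B F (algebraMap A B a))) :
    (Place.ofHeightOneSpectrum (K := K) (F := F) w).ord (algebraMap B F (algebraMap A B a)) = 1 := by
  set aB : B := algebraMap A B a with haB
  have hp0 : Ideal.span {a} ≠ ⊥ := by rw [Ne, Ideal.span_singleton_eq_bot]; exact ha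
  have hmap : (Ideal.span {a}).map (algebraMap A B) = Ideal.span {aB} := by
    rw [Ideal.map_span, Set.image_singleton]
  rw [dict_ord_ofHeightOneSpectrum, HeightOneSpectrum.valuation_of_algebraMap] at hpos ⊢
  by_contra hne
  -- the valuation is at most `exp (-2)`
  have h2 : w.intValuation aB ≤ exp (-((2 : ℕ) : ℤ)) := by
    have hval0 : w.intValuation aB ≠ 0 := by
      intro h0
      rw [h0] at hpos
      simp at hpos
    have hlog : log (w.intValuation aB) ≤ -2 := by omega
    rw [← log_le_iff_le_exp hval0]
    exact_mod_cast hlog
  rw [HeightOneSpectrum.intValuation_le_pow_iff_dvd, ← hmap] at h2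
  have := pow_sub_one_dvd_differentIdeal A w.asIdeal 2 hp0 h2
  rw [show 2 - 1 = 1 from rfl, pow_one] at this
  exact hw this

end Ram

section Concrete

open scoped IntermediateField.algebraAdjoinAdjoin
open Fermat.Agent.ES.RED.SumOrdSep15

variable {K F : Type*} [Field K] [Field F] [Algebra K F] {x : F}

theorem span_sub_isMaximal (hx : Transcendental K x) (c : K) :
    (Ideal.span {genA K x - algebraMap K (polyRing K x) c}).IsMaximal := by
  let e := Polynomial.algEquivOfTranscendental K x hx
  have he : e (X - C c) = genA K x - algebraMap K (polyRing K x) c := by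
    ext
    simp [e]
  have h1 : (Ideal.span {(X - C c : K[X])}).IsMaximal :=
    PrincipalIdealRing.isMaximal_of_irreducible (Polynomial.irreducible_X_sub_C c)
  have h2 : Ideal.span {genA K x - algebraMap K (polyRing K x) c} =
      Ideal.map e.toRingEquiv (Ideal.span {(X - C c : K[X])}) := by
    rw [Ideal.map_span, Set.image_singleton]
    show _ = Ideal.span {e (X - C c)}
    rw [he]
  rw [h2]
  exact Ideal.map_isMaximal_of_equiv e.toRingEquiv

theorem genA_sub_ne_zero (hx : Transcendental K x) (c : K) :
    genA K x - algebraMap K (polyRing K x) c ≠ 0 := by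
  intro h
  apply hx
  have h1 : x - algebraMap K F c = 0 := congrArg Subtype.val h
  rw [sub_eq_zero] at h1
  rw [h1]
  exact isAlgebraic_algebraMap c

variable [IsAlgClosed K]

set_option maxHeartbeats 1600000 in
set_option synthInstance.maxHeartbeats 400000 in
/-- **finitely many ramified places**: for a separating generator `x`, the places at which some
`x - c` vanishes to order `≥ 2` are finite in number. -/
theorem finite_ramified (hx : IsGen K x) [Algebra.IsSeparable K⟮x⟯ F] :
    {v : Place K F | ∃ c : K, 1 < v.ord (x - algebraMap K F c)}.Finite := by
  classical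
  have := hx.finite
  have hPID := isPrincipalIdealRing_polyRing hx.transcendental
  have hDedB := isDedekindDomain_intRing_sep hx
  have hFracB := isFractionRing_intRing hx
  have hFinB := finite_intRing_sep hx
  have hfaith : FaithfulSMul (polyRing K x) (intRing K x) :=
    (faithfulSMul_iff_algebraMap_injective _ _).mpr
      (fun a b h => Subtype.ext (congrArg (fun z : intRing K x => (z : F)) h))
  haveI hsepFR : Algebra.IsSeparable (FractionRing (polyRing K x)) (FractionRing (intRing K x)) :=
    isSeparable_fractionRing_of (A := polyRing K x) (B := intRing K x) (K' := K⟮x⟯) (L := F)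
  have hne : differentIdeal (polyRing K x) (intRing K x) ≠ 0 := differentIdeal_ne_bot
  have hfin := Ideal.finite_factors hne
  refine (hfin.image (fun w => Place.ofHeightOneSpectrum (K := K) (F := F) w)).subset ?_
  rintro v ⟨c, hc⟩
  -- `x` is regular at `v`
  have hxv : x ∈ v.toValuationSubring := by
    have h1 : x - algebraMap K F c ∈ v.toValuationSubring :=
      ffp_mem_of_ord_nonneg v (by omega)
    have h2 : algebraMap K F c ∈ v.toValuationSubring := v.algebraMap_mem' c
    have := add_mem h1 h2
    rwa [sub_add_cancel] at this
  obtain ⟨w, hw⟩ := exists_eq_ofHeightOneSpectrum (K := K) (F := F) (R := intRing K x) v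
    (intRing_le_of_mem v hxv)
  refine ⟨w, ?_, hw.symm⟩
  show w.asIdeal ∣ differentIdeal (polyRing K x) (intRing K x)
  by_contra hnd
  have key := ord_eq_one_of_not_dvd_different (K := K) (F := F) (A := polyRing K x)
    (B := intRing K x) (genA K x - algebraMap K (polyRing K x) c)
    (genA_sub_ne_zero hx.transcendental c) (span_sub_isMaximal hx.transcendental c) w hnd
  have hval : algebraMap (intRing K x) F (algebraMap (polyRing K x) (intRing K x)
      (genA K x - algebraMap K (polyRing K x) c)) = x - algebraMap K F c := rfl
  rw [hval, ← hw] at key
  have := key (by omega)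
  omega

end Concrete

end Fermat.Agent.U44.RamFinite0
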