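/-
Programme U44 (target S44), chapter (LIFT), block Om-C1 (lead): **differentials of a function field in
one variable with a SEPARATING generator, in any characteristic.**

`X0/FFDiff1`, `X0/FFDiff` prove these facts for `K` of characteristic zero; the characteristic is used
there in exactly one line (separability of `F / K(x)`) and in the tame local Riemann–Hurwitz formula.
Here: `K` algebraically closed of ANY characteristic, `x : F` with `IsGen K x` and
`[Algebra.IsSeparable K⟮x⟯ F]`.

* `span_D_sep`, `D_ne_zero_sep`, `finrank_kaehler_sep` : `Ω[F⁄K] = F · dx`, one-dimensional;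
* `D_uniformizer_ne_zero`, `D_ne_zero_of_ord_eq_one` : the differential of a local parameter is nonzero
  (no separability needed: the derivation `d/dX ∘ expandHom : O_v → K⟦X⟧` takes the value `1`);
* `dCoordGenerates`, `ordDifferential_smul'`, `differentialCoeff_D_mem` (derivative lemma),
  `ordDifferential_D_of_ord_ne_zero` (tame local Riemann–Hurwitz: `ord_v y ≠ 0` IN `K`),
  `ordDifferential_D_of_ord_eq_one`.
-/
import Mathlib
import Fermat.Agent.X0.FFDiff

set_option autoImplicit false
set_option linter.style.haveILetI false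
set_option linter.unusedSectionVars false

namespace Fermat.Agent.U44.SepDiff0

open KaehlerDifferential Polynomial IntermediateField TensorProduct AlgebraicCurve IsLocalRing
open Fermat.Agent.X0.FF

variable {K F : Type*} [Field K] [Field F] [Algebra K F]

section Setup

variable (x : F)

/-- `F` as an algebra over `K[X]` via `X ↦ x`. -/
@[reducible] noncomputable def polyAlg : Algebra K[X] F := (aeval x).toRingHom.toAlgebra

theorem polyAlg_algebraMap_apply (p : K[X]) :
    letI := polyAlg (K := K) x
    algebraMap K[X] F p = aeval x p := rfl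

theorem polyAlg_isScalarTower :
    letI := polyAlg (K := K) x
    IsScalarTower K K[X] F := by
  letI := polyAlg (K := K) x
  refine IsScalarTower.of_algebraMap_eq fun a => ?_
  rw [polyAlg_algebraMap_apply, Polynomial.algebraMap_apply, aeval_C]
  simp

theorem polyAlg_faithfulSMul (hx : Transcendental K x) :
    letI := polyAlg (K := K) x
    FaithfulSMul K[X] F := by
  letI := polyAlg (K := K) x
  rw [faithfulSMul_iff_algebraMap_injective]
  exact transcendental_iff_injective.mp hx

end Setup

section Etale

variable (x : F) (hx : Transcendental K x) [hsep : Algebra.IsSeparable K⟮x⟯ F]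

include hx hsep in
/-- `F` is separable over `RatFunc K` (via `X ↦ x`). -/
theorem isSeparable_ratFunc :
    letI := polyAlg (K := K) x
    haveI := polyAlg_isScalarTower (K := K) x
    haveI := polyAlg_faithfulSMul x hx
    letI : Algebra (RatFunc K) F := RatFunc.liftAlgebra K F
    Algebra.IsSeparable (RatFunc K) F := by
  letI := polyAlg (K := K) x
  haveI := polyAlg_isScalarTower (K := K) x
  haveI := polyAlg_faithfulSMul x hx
  letI : Algebra (RatFunc K) F := RatFunc.liftAlgebra K F
  haveI : IsScalarTower K[X] (RatFunc K) F := RatFunc.isScalarTower_liftAlgebra K F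
  let e := RatFunc.algEquivOfTranscendental x hx
  refine Algebra.IsSeparable.of_equiv_equiv (A₁ := K⟮x⟯) (B₁ := F) (A₂ := RatFunc K) (B₂ := F)
    e.symm.toRingEquiv (RingEquiv.refl F) ?_
  have key : (algebraMap (RatFunc K) F) = (algebraMap K⟮x⟯ F).comp (e : RatFunc K →+* K⟮x⟯) := by
    refine IsLocalization.ringHom_ext (nonZeroDivisors K[X]) (RingHom.ext fun p => ?_)
    simp only [RingHom.coe_comp, Function.comp_apply]
    rw [← IsScalarTower.algebraMap_apply K[X] (RatFunc K) F, polyAlg_algebraMap_apply]
    show _ = (((e (algebraMap K[X] (RatFunc K) p)) : K⟮x⟯) : F)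
    rw [RatFunc.algEquivOfTranscendental_algebraMap]
    simp
  ext u
  obtain ⟨r, rfl⟩ := e.surjective u
  simp only [RingHom.coe_comp, Function.comp_apply,
    RingEquiv.coe_toRingHom, AlgEquiv.coe_ringEquiv, AlgEquiv.symm_apply_apply,
    RingEquiv.refl_apply]
  rw [key]
  rfl

include hx hsep in
/-- `F` is formally étale over `K[X]` (via `X ↦ x`). -/
theorem formallyEtale_poly :
    letI := polyAlg (K := K) x
    Algebra.FormallyEtale K[X] F := by
  letI := polyAlg (K := K) x
  haveI := polyAlg_isScalarTower (K := K) x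
  haveI := polyAlg_faithfulSMul x hx
  letI : Algebra (RatFunc K) F := RatFunc.liftAlgebra K F
  haveI : IsScalarTower K[X] (RatFunc K) F := RatFunc.isScalarTower_liftAlgebra K F
  haveI : Algebra.IsSeparable (RatFunc K) F := isSeparable_ratFunc x hx
  haveI : Algebra.FormallyEtale (RatFunc K) F := Algebra.FormallyEtale.of_isSeparable _ _
  haveI : Algebra.FormallyEtale K[X] (RatFunc K) :=
    Algebra.FormallyEtale.of_isLocalization (nonZeroDivisors K[X])
  exact Algebra.FormallyEtale.comp K[X] (RatFunc K) F

include hx hsep in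
/-- The comparison isomorphism `F ≃ Ω[F⁄K]`, `1 ↦ D x`. -/
theorem exists_equiv : ∃ e : F ≃ₗ[F] Ω[F⁄K], e 1 = D K F x := by
  letI := polyAlg (K := K) x
  haveI := polyAlg_isScalarTower (K := K) x
  haveI := formallyEtale_poly x hx
  let e1 : F ⊗[K[X]] Ω[K[X]⁄K] ≃ₗ[F] Ω[F⁄K] := tensorKaehlerEquivOfFormallyEtale K K[X] F
  let e2 : F ⊗[K[X]] Ω[K[X]⁄K] ≃ₗ[F] F ⊗[K[X]] K[X] :=
    TensorProduct.AlgebraTensorModule.congr (LinearEquiv.refl F F)
      (KaehlerDifferential.polynomialEquiv K)
  let e3 : F ⊗[K[X]] K[X] ≃ₗ[F] F := TensorProduct.AlgebraTensorModule.rid K[X] F F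
  refine ⟨(e3.symm.trans e2.symm).trans e1, ?_⟩
  have h1 : e3.symm 1 = (1 : F) ⊗ₜ[K[X]] (1 : K[X]) := by
    rw [LinearEquiv.symm_apply_eq]
    simp [e3]
  have h2 : e2.symm ((1 : F) ⊗ₜ[K[X]] (1 : K[X])) = (1 : F) ⊗ₜ[K[X]] D K K[X] X := by
    rw [LinearEquiv.symm_apply_eq]
    simp [e2, KaehlerDifferential.polynomialEquiv_D]
  have h3 : e1 ((1 : F) ⊗ₜ[K[X]] D K K[X] X) = D K F x := by
    simp only [e1, tensorKaehlerEquivOfFormallyEtale_apply, mapBaseChange_tmul, one_smul, map_D]
    congr 1
    rw [polyAlg_algebraMap_apply, aeval_X]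
  simp only [LinearEquiv.trans_apply]
  rw [h1, h2, h3]

include hx hsep in
/-- `D x ≠ 0` for a separating transcendental `x`. -/
theorem D_ne_zero_sep : D K F x ≠ 0 := by
  obtain ⟨e, he⟩ := exists_equiv x hx
  rw [← he]
  exact (LinearEquiv.map_ne_zero_iff e).mpr one_ne_zero

include hx hsep in
/-- `D x` spans the Kähler differentials. -/
theorem span_D_sep : Submodule.span F {D K F x} = ⊤ := by
  obtain ⟨e, he⟩ := exists_equiv x hx
  rw [eq_top_iff]
  intro ω _
  rw [Submodule.mem_span_singleton]
  refine ⟨e.symm ω, ?_⟩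
  rw [← he, ← map_smul, smul_eq_mul, mul_one, LinearEquiv.apply_symm_apply]

include hx hsep in
theorem exists_smul_D_sep (ω : Ω[F⁄K]) : ∃ f : F, ω = f • D K F x := by
  have h : ω ∈ Submodule.span F {D K F x} := by rw [span_D_sep x hx]; trivial
  obtain ⟨f, hf⟩ := Submodule.mem_span_singleton.mp h
  exact ⟨f, hf.symm⟩

include hx hsep in
theorem finrank_kaehler_sep : Module.finrank F Ω[F⁄K] = 1 := by
  obtain ⟨e, -⟩ := exists_equiv x hx
  rw [← e.finrank_eq, Module.finrank_self]

include hx hsep in
theorem nontrivial_kaehler_sep : Nontrivial Ω[F⁄K] :=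
  ⟨⟨D K F x, 0, D_ne_zero_sep x hx⟩⟩

end Etale

section Unif

variable {K O : Type*} [Field K] [CommRing O] [IsDomain O] [Algebra K O]
  [IsDiscreteValuationRing O] {t : O} (ht : Irreducible t)
  (hres : ∀ a : O, ∃ c : K, a - algebraMap K O c ∈ maximalIdeal O)
  {F : Type*} [Field F] [Algebra K F] [Algebra O F] [IsScalarTower K O F]
  [IsFractionRing O F]

include ht hres in
/-- **The differential of a uniformizer is nonzero** (any characteristic): the derivation
`d/dX ∘ expandHom : O → K⟦X⟧` takes the value `1` at `t`. -/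
theorem D_uniformizer_ne_zero : D K F (algebraMap O F t) ≠ 0 := by
  classical
  intro h0
  have hm0 : KaehlerDifferential.map K K O F (D K O t) = 0 := by
    rw [KaehlerDifferential.map_D, h0]
  obtain ⟨c, hc⟩ :=
    (IsLocalizedModule.eq_zero_iff (nonZeroDivisors O) (KaehlerDifferential.map K K O F)).mp hm0
  let φ : O →ₐ[K] PowerSeries K := expandHom ht hres
  letI : Algebra O (PowerSeries K) := φ.toRingHom.toAlgebra
  haveI : IsScalarTower K O (PowerSeries K) :=
    IsScalarTower.of_algebraMap_eq (fun c => (φ.commutes c).symm)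
  let dd : Derivation K O (PowerSeries K) := (PowerSeries.derivative K).compAlgebraMap O
  have hdd : ∀ b : O, dd b = PowerSeries.derivative K (φ b) := fun b => rfl
  have hsm : ∀ (b : O) (q : PowerSeries K), b • q = φ b * q := fun b q => rfl
  have key := congrArg dd.liftKaehlerDifferential hc
  rw [map_zero, Submonoid.smul_def, map_smul, Derivation.liftKaehlerDifferential_comp_D,
    hdd, hsm] at key
  have hφt : φ t = PowerSeries.X := expandHom_self ht hres
  rw [hφt, PowerSeries.derivative_X, mul_one] at key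
  have : (c : O) = 0 := expandHom_injective ht hres (by rw [map_zero]; exact key)
  exact nonZeroDivisors.ne_zero c.2 this

end Unif

section PlaceSec

variable [IsAlgClosed K] {x : F} (hx : IsGen K x) [hsep : Algebra.IsSeparable K⟮x⟯ F]
  (v : Place K F)

omit hsep in
theorem isAlgebraic_of_isGen (hx : IsGen K x) : Algebra.IsAlgebraic K⟮x⟯ F :=
  haveI := hx.finite
  Algebra.IsAlgebraic.of_finite _ _

omit hsep in
/-- the residue field of every place is `K`. -/
theorem hresO (hx : IsGen K x) (v : Place K F) (a : v.toValuationSubring) :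
    ∃ c : K, a - algebraMap K v.toValuationSubring c ∈ maximalIdeal v.toValuationSubring :=
  ffp_exists_sub_mem_maximalIdeal v x (isAlgebraic_of_isGen hx) a

omit hsep in
theorem hresF (hx : IsGen K x) (v : Place K F) : ∀ f ∈ v.toValuationSubring,
    ∃ c : K, f = algebraMap K F c ∨ 0 < v.ord (f - algebraMap K F c) :=
  fun _ hf => ffp_exists_ord_sub_pos v x (isAlgebraic_of_isGen hx) hf

omit [IsAlgClosed K] in
/-- an element of order one is an irreducible element of the valuation ring. -/
theorem irreducible_of_ord_eq_one (v : Place K F) {t : F} (ht : v.ord t = 1) :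
    ∃ ht' : t ∈ v.toValuationSubring, Irreducible (⟨t, ht'⟩ : v.toValuationSubring) := by
  have ht0 : t ≠ 0 := by rintro rfl; simp at ht
  have hmem : t ∈ v.toValuationSubring := ffp_mem_of_ord_nonneg v (by rw [ht]; exact zero_le_one)
  refine ⟨hmem, ?_⟩
  obtain ⟨u, hu⟩ := v.exists_unit_mul_zpow ht0 (ffu_irreducible v)
  rw [ht, zpow_one] at hu
  have heq : (⟨t, hmem⟩ : v.toValuationSubring) = (u : v.toValuationSubring) * ffu v :=
    Subtype.ext hu
  rw [heq]
  exact (irreducible_isUnit_mul u.isUnit).mpr (ffu_irreducible v)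

omit hsep in
/-- **the differential of a local parameter is nonzero**, in any characteristic. -/
theorem D_ne_zero_of_ord_eq_one (hx : IsGen K x) (v : Place K F) {t : F} (ht : v.ord t = 1) :
    D K F t ≠ 0 := by
  obtain ⟨hmem, hirr⟩ := irreducible_of_ord_eq_one v ht
  exact D_uniformizer_ne_zero (K := K) (O := v.toValuationSubring) (F := F) hirr (hresO hx v)

include hx hsep in
/-- a nonzero differential spans `Ω[F⁄K]`. -/
theorem span_eq_top_of_ne_zero {ω : Ω[F⁄K]} (hω : ω ≠ 0) : Submodule.span F {ω} = ⊤ := by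
  have htop := span_D_sep x hx.transcendental
  have hmem : ω ∈ Submodule.span F {D K F x} := htop ▸ Submodule.mem_top
  obtain ⟨c, hc⟩ := Submodule.mem_span_singleton.mp hmem
  have hc0 : c ≠ 0 := by rintro rfl; exact hω (by rw [← hc, zero_smul])
  rw [eq_top_iff, ← htop, Submodule.span_le, Set.singleton_subset_iff]
  refine Submodule.mem_span_singleton.mpr ⟨c⁻¹, ?_⟩
  rw [← hc, smul_smul, inv_mul_cancel₀ hc0, one_smul]

include hx hsep in
theorem span_D_of_ord_eq_one {t : F} (ht : v.ord t = 1) : Submodule.span F {D K F t} = ⊤ :=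
  span_eq_top_of_ne_zero hx (D_ne_zero_of_ord_eq_one hx v ht)

include hx hsep in
/-- Every place has a generating coordinate differential. -/
theorem dCoordGenerates : v.DCoordGenerates :=
  ⟨by rw [ffu_dCoord]; exact span_D_of_ord_eq_one hx v (ffu_ord v)⟩

include hx hsep in
theorem nontrivial_kaehler : Nontrivial Ω[F⁄K] :=
  ⟨⟨D K F x, 0, D_ne_zero_sep x hx.transcendental⟩⟩

include hx hsep in
theorem differentialCoeff_ne_zero {ω : Ω[F⁄K]} (hω : ω ≠ 0) : v.differentialCoeff ω ≠ 0 := by
  haveI := dCoordGenerates hx v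
  intro h
  apply hω
  rw [← v.differentialCoeff_smul_dCoord ω, h, zero_smul]

include hx hsep in
/-- `ord_v (g ω) = ord_v g + ord_v ω`. -/
theorem ordDifferential_smul' {g : F} (hg : g ≠ 0) {ω : Ω[F⁄K]} (hω : ω ≠ 0) :
    v.ordDifferential (g • ω) = v.ord g + v.ordDifferential ω := by
  haveI := dCoordGenerates hx v
  haveI := nontrivial_kaehler hx
  exact v.ordDifferential_smul hg (differentialCoeff_ne_zero hx v hω)

include hx hsep in
/-- **Derivative lemma**: the coefficient of `D a` with respect to the coordinate differential is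
regular at `v` if `a` is. -/
theorem differentialCoeff_D_mem {a : F} (ha : a ∈ v.toValuationSubring) :
    v.differentialCoeff (D K F a) ∈ v.toValuationSubring := by
  haveI := dCoordGenerates hx v
  have h := (v.differentialCoeff_smul_dCoord (D K F a)).symm
  rw [ffu_dCoord] at h
  obtain ⟨b, hb⟩ := ffv_deriv_mem (K := K) (O := v.toValuationSubring) (F := F)
    (ffu_irreducible v) (hresO hx v) ⟨a, ha⟩ (v.differentialCoeff (D K F a)) h
  rw [← hb]
  exact b.2

include hx hsep in
theorem ordDifferential_D_nonneg {a : F} (ha : 0 ≤ v.ord a) :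
    0 ≤ v.ordDifferential (D K F a) :=
  ffp_ord_nonneg_of_mem v (differentialCoeff_D_mem hx v (ffp_mem_of_ord_nonneg v ha))

include hx hsep in
/-- **Local Riemann–Hurwitz, tame case** (any characteristic): if `ord_v y = e` with `e ≠ 0` in
`K` then `ord_v (dy) = e - 1`. -/
theorem ordDifferential_D_of_ord_ne_zero {y : F} (hy : ((v.ord y : ℤ) : K) ≠ 0) :
    v.ordDifferential (D K F y) = v.ord y - 1 := by
  haveI := dCoordGenerates hx v
  haveI := nontrivial_kaehler hx
  have hy' : v.ord y ≠ 0 := by
    intro h; rw [h] at hy; simp at hy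
  have hy0 : y ≠ 0 := by rintro rfl; simp at hy'
  set e : ℤ := v.ord y with he
  set t : F := ((ffu v : v.toValuationSubring) : F) with ht
  have ht0 : t ≠ 0 := ffu_ne_zero v
  have htord : v.ord t = 1 := ffu_ord v
  obtain ⟨u, hu⟩ := v.exists_unit_mul_zpow hy0 (ffu_irreducible v)
  rw [← he, ← ht] at hu
  set uF : F := ((u : v.toValuationSubring) : F) with huF
  have hu0 : uF ≠ 0 := by
    rw [huF]
    simp [ne_eq, ZeroMemClass.coe_eq_zero]
  have huord : v.ord uF = 0 := v.ord_coe_unit u
  set δ : F := v.differentialCoeff (D K F uF) with hδ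
  have hδmem : δ ∈ v.toValuationSubring :=
    differentialCoeff_D_mem hx v (u : v.toValuationSubring).2
  have hDu : D K F uF = δ • D K F t := by
    have := (v.differentialCoeff_smul_dCoord (D K F uF)).symm
    rwa [ffu_dCoord] at this
  have hDy : D K F y = (uF * ((e : F) * t ^ (e - 1)) + t ^ e * δ) • D K F t := by
    rw [hu, Derivation.leibniz, Derivation.leibniz_zpow, hDu]
    rw [add_smul, mul_smul, mul_smul, mul_smul]
    congr 2
    rw [← Int.cast_smul_eq_zsmul F e]
  have hcoeff : v.differentialCoeff (D K F y) = uF * ((e : F) * t ^ (e - 1)) + t ^ e * δ := by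
    apply v.differentialCoeff_unique
    rw [ffu_dCoord]
    exact hDy
  rw [Place.ordDifferential, hcoeff]
  have heF : (e : F) ≠ 0 := by
    have : (e : F) = algebraMap K F (e : K) := by simp
    rw [this, ne_eq, map_eq_zero_iff _ (algebraMap K F).injective]
    exact hy
  have heord : v.ord (e : F) = 0 := by
    have : (e : F) = algebraMap K F (e : K) := by simp
    rw [this, ffp_ord_algebraMap]
  have htpow : ∀ n : ℤ, t ^ n ≠ 0 := fun n => zpow_ne_zero n ht0
  have h1ne : uF * ((e : F) * t ^ (e - 1)) ≠ 0 := mul_ne_zero hu0 (mul_ne_zero heF (htpow _))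
  have h1ord : v.ord (uF * ((e : F) * t ^ (e - 1))) = e - 1 := by
    rw [v.ord_mul hu0 (mul_ne_zero heF (htpow _)), v.ord_mul heF (htpow _), v.ord_zpow,
      huord, heord, htord]
    ring
  rcases eq_or_ne δ 0 with hδ0 | hδ0
  · rw [hδ0, mul_zero, add_zero, h1ord]
  · have h2ord : v.ord (t ^ e * δ) = e + v.ord δ := by
      rw [v.ord_mul (htpow _) hδ0, v.ord_zpow, htord, mul_one]
    have hδord : 0 ≤ v.ord δ := ffp_ord_nonneg_of_mem v hδmem
    rw [ffp_ord_add_eq_of_lt v h1ne (by rw [h1ord, h2ord]; omega), h1ord]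

include hx hsep in
/-- the differential of a local parameter has order zero. -/
theorem ordDifferential_D_of_ord_eq_one {y : F} (hy : v.ord y = 1) :
    v.ordDifferential (D K F y) = 0 := by
  rw [ordDifferential_D_of_ord_ne_zero hx v (by rw [hy]; simp), hy, sub_self]

end PlaceSec

end Fermat.Agent.U44.SepDiff0
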