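/-
Programme U44 (target S44), chapter (LIFT), block Om-C1 (lead): **divisors of differentials of a
function field with a separating generator, in any characteristic.**

`K` algebraically closed, `x : F` with `IsGen K x` and `[Algebra.IsSeparable K⟮x⟯ F]`, `HL : LHyp K F`
(on the special fibre of a modular curve: `FF/SpecialRR6.lHyp_special`).

* `finite_support_dx` : `ord_v (dx) = 0` outside the poles of `x` and the finitely many ramified places;
* `finite_support_ordDifferential` : the same for every nonzero differential;
* `hasCanonicalDivisor` : the Prelude class `AlgebraicCurve.HasCanonicalDivisor`;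
* `diffHyp` : `RR/Duality.DiffHyp K F`;
* `mem_L_canonical_iff` : `h ∈ L(div ω) ↔ h • ω` regular.
-/
import Mathlib
import Fermat.Agent.U44.SepDiff0
import Fermat.Agent.U44.RamFinite0
import Fermat.Agent.RR.Duality

set_option autoImplicit false
set_option linter.style.haveILetI false
set_option linter.unusedSectionVars false

namespace Fermat.Agent.U44.CanonSep0

open KaehlerDifferential IntermediateField AlgebraicCurve
open Fermat.Agent.X0.FF Fermat.Agent.RR.LSpace Fermat.Agent.RR.Duality
open Fermat.Agent.U44.SepDiff0 Fermat.Agent.U44.RamFinite0 Fermat.Agent.ES.RED.SumOrdSep15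

variable {K F : Type*} [Field K] [Field F] [Algebra K F] [IsAlgClosed K] {x : F}

/-- `ord_v (dx) = 0` at every place which is neither a pole of `x` nor ramified over `K(x)`. -/
theorem ordDifferential_dx_eq_zero (hx : IsGen K x) [Algebra.IsSeparable K⟮x⟯ F] (v : Place K F)
    (hpole : ¬ v.ord x < 0) (hram : ¬ ∃ c : K, 1 < v.ord (x - algebraMap K F c)) :
    v.ordDifferential (D K F x) = 0 := by
  have hxv : x ∈ v.toValuationSubring := ffp_mem_of_ord_nonneg v (not_lt.mp hpole)
  obtain ⟨c, hc | hc⟩ := hresF hx v x hxv
  · exact absurd (hc ▸ isAlgebraic_algebraMap c) hx.transcendental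
  · have h1 : v.ord (x - algebraMap K F c) = 1 := by
      by_contra hne
      exact hram ⟨c, by omega⟩
    have h2 := ordDifferential_D_of_ord_eq_one hx v h1
    rwa [map_sub, Derivation.map_algebraMap, sub_zero] at h2

/-- the divisor of `dx` has finite support. -/
theorem finite_support_dx (hx : IsGen K x) [Algebra.IsSeparable K⟮x⟯ F] :
    {v : Place K F | v.ordDifferential (D K F x) ≠ 0}.Finite := by
  refine ((finite_poles_sep hx).union (finite_ramified hx)).subset fun v hv => ?_
  by_contra hnot
  rw [Set.mem_union, not_or] at hnot
  exact hv (ordDifferential_dx_eq_zero hx v hnot.1 hnot.2)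

/-- the divisor of every nonzero differential has finite support. -/
theorem finite_support_ordDifferential (hx : IsGen K x) [Algebra.IsSeparable K⟮x⟯ F]
    (HL : LHyp K F) {ω : Ω[F⁄K]} (hω : ω ≠ 0) :
    {v : Place K F | v.ordDifferential ω ≠ 0}.Finite := by
  obtain ⟨g, rfl⟩ := exists_smul_D_sep x hx.transcendental ω
  have hg : g ≠ 0 := by rintro rfl; exact hω (zero_smul _ _)
  have hfg : {v : Place K F | v.ord g ≠ 0}.Finite := by
    refine (divOf HL hg).support.finite_toSet.subset fun v hv => ?_
    rw [Finset.mem_coe, Finsupp.mem_support_iff, divOf_apply]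
    exact hv
  refine (hfg.union (finite_support_dx hx)).subset fun v hv => ?_
  by_contra hnot
  rw [Set.mem_union, not_or] at hnot
  apply hv
  have h1 : v.ord g = 0 := by
    by_contra h; exact hnot.1 h
  have h2 : v.ordDifferential (D K F x) = 0 := by
    by_contra h; exact hnot.2 h
  rw [ordDifferential_smul' hx v hg (D_ne_zero_sep x hx.transcendental), h1, h2, add_zero]

/-- **`HasCanonicalDivisor`** for a function field with a separating generator. -/
theorem hasCanonicalDivisor (hx : IsGen K x) [Algebra.IsSeparable K⟮x⟯ F] (HL : LHyp K F) :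
    HasCanonicalDivisor (K := K) (F := F) where
  exists_divisor ω hω := by
    classical
    refine ⟨Finsupp.ofSupportFinite (fun v : Place K F => v.ordDifferential ω) ?_, fun v => rfl⟩
    exact finite_support_ordDifferential hx HL hω

/-- **`DiffHyp`** for a function field with a separating generator. -/
theorem diffHyp (hx : IsGen K x) [Algebra.IsSeparable K⟮x⟯ F] (HL : LHyp K F) : DiffHyp K F where
  ordDifferential_smul := fun v _ hg _ hω => ordDifferential_smul' hx v hg hω
  finite_support := fun _ hω => finite_support_ordDifferential hx HL hω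

/-- Membership in `L(div ω)`: `h • ω` is regular. -/
theorem mem_L_canonical_iff (hx : IsGen K x) [Algebra.IsSeparable K⟮x⟯ F] {ω : Ω[F⁄K]}
    (hω : ω ≠ 0) (W : Divisor K F) (hW : ∀ v : Place K F, W v = v.ordDifferential ω) {h : F}
    (hh : h ≠ 0) :
    h ∈ riemannRochSpace W ↔ ∀ v : Place K F, 0 ≤ v.ordDifferential (h • ω) := by
  rw [mem_L_iff hh]
  refine forall_congr' fun v => ?_
  rw [ordDifferential_smul' hx v hh hω, hW v]
  constructor <;> intro h' <;> omega

end Fermat.Agent.U44.CanonSep0
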