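/-
Programme U44, chapter (HECKE), file 3 (helper4): **the two degeneracy maps of the special fibre
and their degrees.**

`κ` a field of characteristic `p`, `M'` a level with `p ∤ M'`, `ℓ ≠ p` a prime with `ℓ ∤ M'`;
`κ·F̃_M = modularFunctionFieldFullC κ M = κ(j(q^d) : d ∣ M) ⊆ κ((q))`.

* `alphaC`, `betaC : κ·F̃_{M'} →ₐ[κ] κ·F̃_{M'ℓ}` (inclusion, `q ↦ q^ℓ`) : verbatim copies of the
  Prelude's `heckeAlphaBar`, `heckeBetaBar`;
* `relfinrank_alphaC`, `relfinrank_betaC` : both degrees are `ℓ + 1` (copies of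
  `ES/HECKE/DegreeL25.relfinrank_alpha/_beta` with `DegBaseChange25.relfinrank_fullC_eq_psi_of_charP`);
* `finrankAlong_alphaC`, `finrankAlong_betaC`, `finiteAlong_*`, `isIntegral_*` : the Prelude's
  `Along` forms.
-/
import Mathlib
import Fermat.Agent.ES.HECKE.AlongDegree25

set_option autoImplicit false
set_option linter.unusedSectionVars false
set_option linter.unusedVariables false

noncomputable section

namespace Fermat.Agent.U44.DegreeC4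

open HahnSeries ModularCurve IntermediateField AlgebraicCurve
open Fermat.Agent.IG Fermat.Agent.RED.PUR Fermat.Agent.ES.HECKE

/-! ### the two degeneracy maps of the special fibre -/

section Special

variable (κ : Type*) [Field κ] (M' ℓ : ℕ) [NeZero M'] [NeZero ℓ]

/-- `ᾱ` : the inclusion `κ·F̃_{M'} → κ·F̃_{M'ℓ}`. -/
def alphaC : ↥(modularFunctionFieldFullC κ M') →ₐ[κ] ↥(modularFunctionFieldFullC κ (M' * ℓ)) :=
  IntermediateField.inclusion (full_degeneracyC_le κ (dvd_mul_right M' ℓ))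

@[simp] theorem coe_alphaC (x : ↥(modularFunctionFieldFullC κ M')) :
    ((alphaC κ M' ℓ x : ↥(modularFunctionFieldFullC κ (M' * ℓ))) : LaurentSeries κ) =
      (x : LaurentSeries κ) :=
  IntermediateField.coe_inclusion _ x

/-- `β̄` : `q ↦ q^ℓ`, `κ·F̃_{M'} → κ·F̃_{M'ℓ}`. -/
def betaC : ↥(modularFunctionFieldFullC κ M') →ₐ[κ] ↥(modularFunctionFieldFullC κ (M' * ℓ)) where
  toFun x := ⟨qExpand κ ℓ (x : LaurentSeries κ),
    full_degeneracyC_map_le κ M' ℓ ⟨(x : LaurentSeries κ), x.2, rfl⟩⟩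
  map_one' := Subtype.ext (map_one (qExpand κ ℓ))
  map_mul' _ _ := Subtype.ext (map_mul (qExpand κ ℓ) _ _)
  map_zero' := Subtype.ext (map_zero (qExpand κ ℓ))
  map_add' _ _ := Subtype.ext (map_add (qExpand κ ℓ) _ _)
  commutes' a := Subtype.ext <| by
    show qExpand κ ℓ (algebraMap κ (LaurentSeries κ) a) = algebraMap κ (LaurentSeries κ) a
    rw [algebraMap_laurentSeries_eq_single, qExpand_single, mul_zero]

@[simp] theorem coe_betaC (x : ↥(modularFunctionFieldFullC κ M')) :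
    ((betaC κ M' ℓ x : ↥(modularFunctionFieldFullC κ (M' * ℓ))) : LaurentSeries κ) =
      qExpand κ ℓ (x : LaurentSeries κ) := rfl

end Special

/-! ### the degrees in characteristic `p` -/

section Degrees

variable (p : ℕ) [Fact p.Prime] (κ : Type) [Field κ] [CharP κ p] (M' ℓ : ℕ) [NeZero M'] [NeZero ℓ]

theorem not_dvd_mul {p M' ℓ : ℕ} (hp : p.Prime) (hℓ : ℓ.Prime) (hpM : ¬ p ∣ M') (hℓp : ℓ ≠ p) :
    ¬ p ∣ M' * ℓ := by
  intro hd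
  rcases (Nat.Prime.dvd_mul hp).1 hd with h1 | h1
  · exact hpM h1
  · exact hℓp ((Nat.prime_dvd_prime_iff_eq hp hℓ).1 h1).symm

/-- **`[κ·F̃_{M'ℓ} : κ·F̃_{M'}] = ℓ + 1`** in characteristic `p ∤ M'ℓ`. -/
theorem relfinrank_alphaC (hℓ : ℓ.Prime) (hℓM : ¬ ℓ ∣ M') (hpM : ¬ p ∣ M') (hℓp : ℓ ≠ p) :
    relfinrank (modularFunctionFieldFullC κ M') (modularFunctionFieldFullC κ (M' * ℓ)) = ℓ + 1 := by
  have h1 := DegBaseChange25.relfinrank_fullC_eq_psi_of_charP p κ M' hpM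
  have h2 := DegBaseChange25.relfinrank_fullC_eq_psi_of_charP p κ (M' * ℓ)
    (not_dvd_mul Fact.out hℓ hpM hℓp)
  have hmul := relfinrank_mul_relfinrank (DegreeL25.simple_le_fullC κ M')
    (full_degeneracyC_le κ (dvd_mul_right M' ℓ))
  rw [h1, h2, DegreeL25.psi_mul_prime M' ℓ hℓ hℓM] at hmul
  exact Nat.eq_of_mul_eq_mul_left (Fermat.Agent.X0.GNPsi.gnp_dedekindPsi_pos (NeZero.ne M')) hmul

/-- **`[κ·F̃_{M'ℓ} : V(κ·F̃_{M'})] = ℓ + 1`**, `V = (q ↦ q^ℓ)`, in characteristic `p ∤ M'ℓ`. -/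
theorem relfinrank_betaC (hℓ : ℓ.Prime) (hℓM : ¬ ℓ ∣ M') (hpM : ¬ p ∣ M') (hℓp : ℓ ≠ p) :
    relfinrank ((modularFunctionFieldFullC κ M').map (qExpandAlgHomC κ ℓ))
      (modularFunctionFieldFullC κ (M' * ℓ)) = ℓ + 1 := by
  have hψN := DegBaseChange25.relfinrank_fullC_eq_psi_of_charP p κ M' hpM
  have hψNℓ := DegBaseChange25.relfinrank_fullC_eq_psi_of_charP p κ (M' * ℓ)
    (not_dvd_mul Fact.out hℓ hpM hℓp)
  have hψpos := Fermat.Agent.X0.GNPsi.gnp_dedekindPsi_pos (NeZero.ne M')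
  have hℓκ : (ℓ : κ) ≠ 0 := by
    intro h0
    rw [CharP.cast_eq_zero_iff κ p] at h0
    exact hℓp ((Nat.prime_dvd_prime_iff_eq (Fact.out : p.Prime) hℓ).1 h0).symm
  obtain ⟨⟨-, hleft⟩, ⟨-, hright⟩⟩ := PR.Main20.primeLevel ℓ hℓ.two_le (AN.ModPoly3.p0 ℓ hℓ)
    AN.FormalJ10.p1 (AN.P2Final9.p2 ℓ) κ hℓκ
  -- the fields
  have hA : κ⟮jqModC κ⟯ ≤ κ⟮jqModC κ⟯ ⊔ κ⟮qExpand κ ℓ (jqModC κ)⟯ := le_sup_left
  have hAℓ : κ⟮qExpand κ ℓ (jqModC κ)⟯ ≤ κ⟮jqModC κ⟯ ⊔ κ⟮qExpand κ ℓ (jqModC κ)⟯ := le_sup_right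
  have hjℓ : qExpand κ ℓ (jqModC κ) ∈ modularFunctionFieldFullC κ (M' * ℓ) :=
    jqModCd_mem_full κ (M' * ℓ) (dvd_mul_left ℓ M')
  have hC : κ⟮jqModC κ⟯ ⊔ κ⟮qExpand κ ℓ (jqModC κ)⟯ ≤ modularFunctionFieldFullC κ (M' * ℓ) :=
    sup_le (DegreeL25.simple_le_fullC κ (M' * ℓ)) (adjoin_simple_le_iff.mpr hjℓ)
  have h1 := relfinrank_mul_relfinrank hA hC
  rw [hleft, hψNℓ, DegreeL25.psi_mul_prime M' ℓ hℓ hℓM, mul_comm] at h1
  have hx : relfinrank (κ⟮jqModC κ⟯ ⊔ κ⟮qExpand κ ℓ (jqModC κ)⟯)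
      (modularFunctionFieldFullC κ (M' * ℓ)) = dedekindPsi M' :=
    Nat.eq_of_mul_eq_mul_right (Nat.succ_pos ℓ) h1
  have h2 := relfinrank_mul_relfinrank hAℓ hC
  rw [hright, hx] at h2
  have hmapA : (κ⟮jqModC κ⟯).map (qExpandAlgHomC κ ℓ) = κ⟮qExpand κ ℓ (jqModC κ)⟯ := by
    rw [adjoin_map, Set.image_singleton, qExpandAlgHomC_apply]
  have hle1 : κ⟮qExpand κ ℓ (jqModC κ)⟯ ≤
      (modularFunctionFieldFullC κ M').map (qExpandAlgHomC κ ℓ) := by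
    rw [← hmapA]
    exact IntermediateField.map_mono _ (DegreeL25.simple_le_fullC κ M')
  have hle2 : (modularFunctionFieldFullC κ M').map (qExpandAlgHomC κ ℓ) ≤
      modularFunctionFieldFullC κ (M' * ℓ) := full_degeneracyC_map_le κ M' ℓ
  have h3 : relfinrank κ⟮qExpand κ ℓ (jqModC κ)⟯
      ((modularFunctionFieldFullC κ M').map (qExpandAlgHomC κ ℓ)) = dedekindPsi M' := by
    rw [← hmapA, relfinrank_map_map, hψN]
  have h4 := relfinrank_mul_relfinrank hle1 hle2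
  rw [h3, ← h2, mul_comm (ℓ + 1)] at h4
  exact Nat.eq_of_mul_eq_mul_left hψpos h4

/-- **`[κ·F̃_{M'ℓ} : ᾱ(κ·F̃_{M'})] = ℓ + 1`** in the Prelude's `Along` form. -/
theorem finrankAlong_alphaC (hℓ : ℓ.Prime) (hℓM : ¬ ℓ ∣ M') (hpM : ¬ p ∣ M') (hℓp : ℓ ≠ p) :
    finrankAlong κ (alphaC κ M' ℓ) = ℓ + 1 := by
  rw [AlongDegree25.finrankAlong_eq_relfinrank _ _ (alphaC κ M' ℓ)
    (AlgHom.id κ (LaurentSeries κ)) (fun a => by rw [coe_alphaC]; rfl), IntermediateField.map_id]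
  exact relfinrank_alphaC p κ M' ℓ hℓ hℓM hpM hℓp

/-- **`[κ·F̃_{M'ℓ} : β̄(κ·F̃_{M'})] = ℓ + 1`** in the Prelude's `Along` form. -/
theorem finrankAlong_betaC (hℓ : ℓ.Prime) (hℓM : ¬ ℓ ∣ M') (hpM : ¬ p ∣ M') (hℓp : ℓ ≠ p) :
    finrankAlong κ (betaC κ M' ℓ) = ℓ + 1 := by
  rw [AlongDegree25.finrankAlong_eq_relfinrank _ _ (betaC κ M' ℓ) (qExpandAlgHomC κ ℓ)
    (fun a => by rw [coe_betaC, qExpandAlgHomC_apply])]
  exact relfinrank_betaC p κ M' ℓ hℓ hℓM hpM hℓp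

theorem finiteAlong_alphaC (hℓ : ℓ.Prime) (hℓM : ¬ ℓ ∣ M') (hpM : ¬ p ∣ M') (hℓp : ℓ ≠ p) :
    FiniteAlong κ (alphaC κ M' ℓ) :=
  AlongDegree25.finiteAlong_of_finrankAlong_pos _
    (by rw [finrankAlong_alphaC p κ M' ℓ hℓ hℓM hpM hℓp]; exact Nat.succ_pos ℓ)

theorem finiteAlong_betaC (hℓ : ℓ.Prime) (hℓM : ¬ ℓ ∣ M') (hpM : ¬ p ∣ M') (hℓp : ℓ ≠ p) :
    FiniteAlong κ (betaC κ M' ℓ) :=
  AlongDegree25.finiteAlong_of_finrankAlong_pos _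
    (by rw [finrankAlong_betaC p κ M' ℓ hℓ hℓM hpM hℓp]; exact Nat.succ_pos ℓ)

theorem isIntegral_alphaC (hℓ : ℓ.Prime) (hℓM : ¬ ℓ ∣ M') (hpM : ¬ p ∣ M') (hℓp : ℓ ≠ p) :
    (alphaC κ M' ℓ).toRingHom.IsIntegral :=
  AlongDegree25.isIntegral_of_finiteAlong _ (finiteAlong_alphaC p κ M' ℓ hℓ hℓM hpM hℓp)

theorem isIntegral_betaC (hℓ : ℓ.Prime) (hℓM : ¬ ℓ ∣ M') (hpM : ¬ p ∣ M') (hℓp : ℓ ≠ p) :
    (betaC κ M' ℓ).toRingHom.IsIntegral :=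
  AlongDegree25.isIntegral_of_finiteAlong _ (finiteAlong_betaC p κ M' ℓ hℓ hℓM hpM hℓp)

end Degrees

end Fermat.Agent.U44.DegreeC4
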