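/-
Programme U44 (target S44), chapter (LIFT), block Om-C2 (lead): **local residues and the residue
theorem for a function field with a separating generator, in any characteristic.**

Tate's abstract residues (`RR/AbsResidue`, `FinPotent`, `Commens`, `ResidueThm`, `LocalRes`) are
characteristic free; only the glue (`RR/LocalResMain` global part, `ResidueLocalInst`, `ResidueGlob`
last two sections) assumed `[CharZero K]`, through `FF1Data` and `dCoordGenerates`.  Here the same glue
for `K` algebraically closed of any characteristic, `x : F` with `IsGen K x`,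
`[Algebra.IsSeparable K⟮x⟯ F]`, and `HL : LHyp K F`:

* `residue hx v : Ω[F⁄K] →ₗ[K] K`, `residue_eq_zero` (regular differentials), `residue_ne_zero`
  (simple poles), `exists_residue_smul_ne_zero`;
* `inE_mulR`, `global_fp`, `global_zero` : (GLOB0) for the adeles against the weak interface
  `FFWeak` of `FF/RiemannW1A`;
* `finsum_residue_eq_zero` : **the residue theorem**;
* `residueData hx HL : Duality.ResidueData K F`.
-/
import Mathlib
import Fermat.Agent.U44.CanonSep0
import Fermat.Agent.RR.LocalResMain
import Fermat.Agent.RR.ResidueGlob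
import Fermat.Agent.FF.RiemannW1D

set_option autoImplicit false
set_option linter.style.haveILetI false
set_option linter.unusedSectionVars false

namespace Fermat.Agent.U44.ResidueSep0

open KaehlerDifferential IntermediateField AlgebraicCurve
open Fermat.Agent.RR Fermat.Agent.RR.Commens Fermat.Agent.RR.AbsResidue
  Fermat.Agent.RR.LocalPrep Fermat.Agent.RR.LocalRes Fermat.Agent.RR.LocalResMain
  Fermat.Agent.RR.ResidueThm Fermat.Agent.RR.ResidueGlob Fermat.Agent.RR.ResidueLocalInst
open Fermat.Agent.X0.FF Fermat.Agent.RR.LSpace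
open Fermat.Agent.U44.SepDiff0 Fermat.Agent.U44.CanonSep0 Fermat.Agent.ES.RED.SumOrdSep15
open Fermat.Agent.FF.RiemannW1

variable {K F : Type*} [Field K] [Field F] [Algebra K F] [IsAlgClosed K] {x : F}

/-! ### local residues -/

section LocalSec

variable (hx : IsGen K x) [hsep : Algebra.IsSeparable K⟮x⟯ F]

/-- The residue at `v`. -/
noncomputable def residue (hx : IsGen K x) (v : Place K F) : Ω[F⁄K] →ₗ[K] K :=
  resΩ v (hresF hx v)

omit hsep in
theorem residue_smul_D (v : Place K F) (f g : F) :
    residue hx v (f • D K F g) = res (ringSub v) (mulOp (K := K) f) (mulOp g) :=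
  resΩ_smul_D v _ f g

include hsep in
/-- Regular differentials have residue zero. -/
theorem residue_eq_zero (v : Place K F) (ω : Ω[F⁄K])
    (h : 0 ≤ v.ordDifferential ω) : residue hx v ω = 0 := by
  haveI := dCoordGenerates hx v
  have hω := (v.differentialCoeff_smul_dCoord ω).symm
  rw [ffu_dCoord] at hω
  rw [hω]
  refine resΩ_smul_D_eq_zero v _ (ffp_mem_of_ord_nonneg v h) ?_
  exact (ffu v).2

include hsep in
/-- Differentials with a simple pole have nonzero residue. -/
theorem residue_ne_zero (v : Place K F) (ω : Ω[F⁄K])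
    (h : v.ordDifferential ω = -1) : residue hx v ω ≠ 0 := by
  haveI := dCoordGenerates hx v
  have hω := (v.differentialCoeff_smul_dCoord ω).symm
  rw [ffu_dCoord] at hω
  rw [hω]
  exact resΩ_smul_D_ne_zero v _ (ffu_ord v) h

include hsep in
/-- Nondegeneracy: if `ord_v ω = -1 - m` there is `a` of order `m` with `res_v (a ω) ≠ 0`. -/
theorem exists_residue_smul_ne_zero (v : Place K F)
    {ω : Ω[F⁄K]} (hω : ω ≠ 0) (m : ℤ) (h : v.ordDifferential ω = -1 - m) :
    ∃ a : F, a ≠ 0 ∧ v.ord a = m ∧ residue hx v (a • ω) ≠ 0 := by
  have ht0 := ffu_ne_zero v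
  refine ⟨((ffu v : v.toValuationSubring) : F) ^ m, zpow_ne_zero _ ht0, ?_, ?_⟩
  · rw [v.ord_zpow, ffu_ord, mul_one]
  · apply residue_ne_zero hx
    rw [ordDifferential_smul' hx v (zpow_ne_zero _ ht0) hω, v.ord_zpow, ffu_ord, h]
    ring

end LocalSec

/-! ### (GLOB0) against the weak interface -/

section GlobalSec

variable (H : FFWeak K F) (HL : LHyp K F)
  (hR : ∃ γ : ℤ, ∀ D : Divisor K F,
    Divisor.degree D + 1 - γ ≤ (Module.finrank K (riemannRochSpace D) : ℤ))

omit [IsAlgClosed K] in
include H HL in
/-- Multiplication by `f` maps `A(0)` into a subspace commensurable with `A(0)`. -/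
theorem inE_mulR (f : F) :
    InE (repartitionsOf (0 : Divisor K F)) (rt_mulR f) := by
  by_cases hf : f = 0
  · rw [hf, rg_mulR_zero]; exact inE_zero
  · have hle := rg_map_mulR_le (Riemann.poleDiv HL hf) hf (fun v => by
      rw [Riemann.poleDiv_apply]
      have := le_max_right 0 (-(v.ord f))
      omega)
    have hfin := (Fermat.Agent.FF.RiemannW1.finrank_repartitionsOf H
      (Riemann.poleDiv_nonneg HL hf)).1
    exact (rg_prec_of_finite_map_mkQ hfin).mono_left hle

omit [IsAlgClosed K] in
include H HL in
/-- The global commutator `[P f, g]` on the adeles is finite potent. -/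
theorem global_fp (f g : F) (P : Module.End K ↥(repartitions K F))
    (hP : IsProj (repartitionsOf (0 : Divisor K F)) P) :
    IsFinitePotent (rt_globalComm P f g) := by
  have h0 : InE0 (repartitionsOf (0 : Divisor K F))
      (P * rt_mulR f * rt_mulR g - rt_mulR g * (P * rt_mulR f)) :=
    commutator_proj_inE0 (rg_mulR_comm f g) (inE_mulR H HL f) (inE_mulR H HL g) hP
  have h1 : rt_globalComm P f g =
      P * rt_mulR f * rt_mulR g - rt_mulR g * (P * rt_mulR f) := by
    rw [rt_globalComm, mul_assoc (rt_mulR g)]
  rw [h1, isFinitePotent_iff]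
  refine ⟨2, ?_⟩
  rw [pow_two]
  exact h0.finite_range_mul h0

omit [IsAlgClosed K] in
include H HL hR in
/-- **(GLOB0) for the adeles**: the trace of the global commutator vanishes. -/
theorem global_zero (f g : F) (P : Module.End K ↥(repartitions K F))
    (hP : IsProj (repartitionsOf (0 : Divisor K F)) P) :
    fpTrace (rt_globalComm P f g) = 0 := by
  have h1 : rt_globalComm P f g =
      P * rt_mulR f * rt_mulR g - rt_mulR g * (P * rt_mulR f) := by
    rw [rt_globalComm, mul_assoc (rt_mulR g)]
  rw [h1, ← res_eq_of_isProj (rg_mulR_comm f g) (inE_mulR H HL f) (inE_mulR H HL g) hP]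
  exact rg_res_eq_zero_of_compl (rg_mulR_comm f g) (inE_mulR H HL f) (inE_mulR H HL g)
    (rg_map_mulR_principal_le f) (rg_map_mulR_principal_le g) (rg_finite_inf HL)
    (Fermat.Agent.FF.RiemannW1.finite_H1 H HL hR 0)

end GlobalSec

/-! ### the residue theorem -/

section Final

variable (hx : IsGen K x) [hsep : Algebra.IsSeparable K⟮x⟯ F] (HL : LHyp K F)

omit [IsAlgClosed K] in
theorem finite_poles (HL : LHyp K F) (f : F) : {v : Place K F | v.ord f < 0}.Finite := by
  rcases eq_or_ne f 0 with rfl | hf
  · simp
  · exact ((ffWeak_of_lHyp HL).finite_support_ord f hf).subset fun v hv => by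
      show v.ord f ≠ 0
      have : v.ord f < 0 := hv
      omega

include hx hsep HL in
/-- Riemann's inequality. -/
theorem riemann_inequality :
    ∃ γ : ℤ, ∀ D : Divisor K F,
      Divisor.degree D + 1 - γ ≤ (Module.finrank K (riemannRochSpace D) : ℤ) :=
  haveI := hx.finiteDimensional
  Fermat.Agent.RR.Riemann.riemann_inequality' HL hx.transcendental (sum_ord_poles_sep hx)

/-- `ResidueThm.ResidueData` for a function field with a separating generator. -/
noncomputable def residueThmData : ResidueThm.ResidueData K F where
  res v f g := res (ringSub v) (mulOp (K := K) f) (mulOp g)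
  res_eq v f g _ hπ := res_eq_fpTrace_localComm v (hresF hx v) f g hπ
  global_fp := global_fp (ffWeak_of_lHyp HL) HL
  global_zero := global_zero (ffWeak_of_lHyp HL) HL (riemann_inequality hx HL)
  finite_poles := finite_poles HL

include hsep HL in
/-- **The residue theorem**: `∑ᵥ res_v ω = 0`. -/
theorem finsum_residue_eq_zero (ω : Ω[F⁄K]) : ∑ᶠ v : Place K F, residue hx v ω = 0 :=
  (residueThmData hx HL).finsum_resΩ_eq_zero (residue hx)
    (fun v f g => residue_smul_D hx v f g) ω

/-- **The residue data consumed by Serre duality.** -/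
noncomputable def residueData : Duality.ResidueData K F where
  res := residue hx
  res_eq_zero v ω _ h := residue_eq_zero hx v ω h
  res_ne_zero v ω _ h := residue_ne_zero hx v ω h
  sum_res := finsum_residue_eq_zero hx HL

end Final

end Fermat.Agent.U44.ResidueSep0
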