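/-
Programme U44 (target S44), chapter (LIFT), block Om-C2 (lead): **Serre duality and Riemann–Roch for a
function field with a separating generator, in any characteristic.**

`K` algebraically closed, `x : F` with `IsGen K x` and `[Algebra.IsSeparable K⟮x⟯ F]`, `HL : LHyp K F`
(for the special fibre `F̄ / κ` of a modular curve at a good level: `x := t̃`, `ES/RED/SpecialGen16`,
`HL := FF/SpecialRR6.lHyp_special`).  All inputs of `RR/Final.RRData` are discharged:

* `rrData hx HL : RRData K F`;
* `riemann_roch`, `finrank_L_canonical : l(div ω₀) = genusFF K F`, `degree_canonical : deg (div ω₀) =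
  2 genusFF - 2`, `genus_eq_genusFF`;
* `finrank_L_canonical_le` : only the injective half `L(W) ↪ H¹(0)^*` (what chapter (LIFT) needs:
  `dim {regular differentials} ≤ genusFF`);
* `finrank_L_dx`, `mem_L_dx_iff` : the space of `h` with `h • dx` regular has dimension `genusFF K F`.
-/
import Mathlib
import Fermat.Agent.U44.ResidueSep0
import Fermat.Agent.RR.Final
import Fermat.Agent.RR.SerreDim
import Fermat.Agent.RR.InstPrep
import Fermat.Agent.FF.RiemannW1D

set_option autoImplicit false
set_option linter.style.haveILetI false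
set_option linter.unusedSectionVars false

namespace Fermat.Agent.U44.RRSep0

open KaehlerDifferential IntermediateField AlgebraicCurve
open Fermat.Agent.X0.FF Fermat.Agent.RR.LSpace Fermat.Agent.RR.Duality Fermat.Agent.RR.Final
open Fermat.Agent.U44.SepDiff0 Fermat.Agent.U44.CanonSep0 Fermat.Agent.U44.ResidueSep0
open Fermat.Agent.FF.RiemannW1

variable {K F : Type*} [Field K] [Field F] [Algebra K F] [IsAlgClosed K] {x : F}
  (hx : IsGen K x) [hsep : Algebra.IsSeparable K⟮x⟯ F] (HL : LHyp K F)

omit [IsAlgClosed K] in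
/-- Repartitions have finitely many poles. -/
theorem repFinite (HL : LHyp K F) : RepFinite K F :=
  fun α => (Fermat.Agent.FF.RiemannW1.mem_repartitions_iff (ffWeak_of_lHyp HL)).mp α.2

include hx hsep HL in
/-- (C5a) `H¹(D)` is finite-dimensional. -/
theorem hfin (D : Divisor K F) : Module.Finite K (H1 D) :=
  finite_H1_of_lHyp HL (riemann_inequality hx HL) D

include hx hsep HL in
/-- (C5b) `l(D) - i(D) = deg D + 1 - g`. -/
theorem heuler (D : Divisor K F) :
    (Module.finrank K (riemannRochSpace D) : ℤ) - Module.finrank K (H1 D) =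
      Divisor.degree D + 1 - genusFF K F :=
  finrank_L_sub_finrank_H1_of_lHyp HL (riemann_inequality hx HL) D

include hx hsep HL in
/-- Serre's lemma. -/
theorem serreLemma : SerreLemma K F :=
  Fermat.Agent.RR.InstPrep.serreLemma_of HL (riemann_inequality hx HL) (hfin hx HL)
    (heuler hx HL)

/-- **All the inputs of Riemann–Roch**, any characteristic. -/
noncomputable def rrData : RRData K F where
  HL := HL
  HD := diffHyp hx HL
  R := residueData hx HL
  hrep := repFinite HL
  hS := serreLemma hx HL
  hfin := hfin hx HL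
  heuler := heuler hx HL

include hx hsep HL in
/-- **Riemann–Roch.** -/
theorem riemann_roch {ω₀ : Ω[F⁄K]} (hω₀ : ω₀ ≠ 0) {W : Divisor K F}
    (hW : ∀ v : Place K F, W v = v.ordDifferential ω₀) (D : Divisor K F) :
    (Module.finrank K (riemannRochSpace D) : ℤ) - Module.finrank K (riemannRochSpace (W - D)) =
      Divisor.degree D + 1 - genusFF K F :=
  Fermat.Agent.RR.Final.riemann_roch (rrData hx HL) hω₀ hW D

include hx hsep HL in
/-- `l(W) = genusFF`. -/
theorem finrank_L_canonical {ω₀ : Ω[F⁄K]} (hω₀ : ω₀ ≠ 0) {W : Divisor K F}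
    (hW : ∀ v : Place K F, W v = v.ordDifferential ω₀) :
    Module.finrank K (riemannRochSpace W) = genusFF K F :=
  Fermat.Agent.RR.Final.finrank_L_canonical (rrData hx HL) hω₀ hW

include hx hsep HL in
/-- `deg W = 2 genusFF - 2`. -/
theorem degree_canonical {ω₀ : Ω[F⁄K]} (hω₀ : ω₀ ≠ 0) {W : Divisor K F}
    (hW : ∀ v : Place K F, W v = v.ordDifferential ω₀) :
    Divisor.degree W = 2 * (genusFF K F : ℤ) - 2 :=
  Fermat.Agent.RR.Final.degree_canonical (rrData hx HL) hω₀ hW

include hx hsep HL in
/-- The Prelude genus (through `deg W`) is the dimension of `H¹(0)`. -/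
theorem genus_eq_genusFF [HasCanonicalDivisor (K := K) (F := F)] : genus K F = genusFF K F :=
  Fermat.Agent.RR.Final.genus_eq_genusFF (rrData hx HL) ⟨D K F x, D_ne_zero_sep x hx.transcendental⟩

include hx hsep HL in
/-- **the injective half of Serre duality**: `l(W - D) ≤ i(D)`. -/
theorem finrank_L_sub_le {ω₀ : Ω[F⁄K]} (hω₀ : ω₀ ≠ 0) {W : Divisor K F}
    (hW : ∀ v : Place K F, W v = v.ordDifferential ω₀) (D : Divisor K F) :
    Module.finrank K (riemannRochSpace (W - D)) ≤ Module.finrank K (H1 D) := by
  haveI := hfin hx HL D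
  have h := LinearMap.finrank_le_finrank_of_injective
    (Psi_injective HL (diffHyp hx HL) (residueData hx HL) (repFinite HL) hω₀ hW D)
  rwa [Subspace.dual_finrank_eq] at h

include hx hsep HL in
/-- `l(W) ≤ genusFF`, from the injective half only. -/
theorem finrank_L_canonical_le {ω₀ : Ω[F⁄K]} (hω₀ : ω₀ ≠ 0) {W : Divisor K F}
    (hW : ∀ v : Place K F, W v = v.ordDifferential ω₀) :
    Module.finrank K (riemannRochSpace W) ≤ genusFF K F := by
  have h := finrank_L_sub_le hx HL hω₀ hW 0
  rwa [sub_zero] at h

/-! ### the differential `dx` -/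

include hx hsep HL in
/-- `l(div dx) = genusFF`: the `K`-space of `h` with `h • dx` regular has dimension `genusFF K F`. -/
theorem finrank_L_dx {W : Divisor K F} (hW : ∀ v : Place K F, W v = v.ordDifferential (D K F x)) :
    Module.finrank K (riemannRochSpace W) = genusFF K F :=
  finrank_L_canonical hx HL (D_ne_zero_sep x hx.transcendental) hW

include hx hsep in
/-- Membership in `L(div dx)`, including `h = 0`. -/
theorem mem_L_dx_iff {W : Divisor K F} (hW : ∀ v : Place K F, W v = v.ordDifferential (D K F x))
    {h : F} :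
    h ∈ riemannRochSpace W ↔ h = 0 ∨ ∀ v : Place K F, 0 ≤ v.ordDifferential (h • D K F x) := by
  rcases eq_or_ne h 0 with rfl | hh
  · simp
  · rw [mem_L_canonical_iff hx (D_ne_zero_sep x hx.transcendental) W hW hh, or_iff_right hh]

include hx hsep HL in
theorem finiteDimensional_L (D : Divisor K F) : FiniteDimensional K (riemannRochSpace D) :=
  Fermat.Agent.RR.LSpace.finiteDimensional_L HL D

end Fermat.Agent.U44.RRSep0
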