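/-
Programme U44 (S44), stage 0, block (TR)/instance, SmoothCoord existence, file 1 (helper1):
**the residue field of `A ≤ ℚ̄` and the special-fibre function field are unions over the number
fields FIXED BY INERTIA.**

`A` a valuation subring of `ℚ̄` over the prime `ℓ`, `k = ResidueField A`.
* `exists_rootOfUnity_lift` : every `c ∈ kˣ` is the residue of a root of unity of order prime to `ℓ`
  (Teichmüller lift);
* `exists_residue_descent_inert` : every `c ∈ k` lies in the image of `resMap A K` for all number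
  fields `K` containing a finite field `K₁` fixed pointwise by the inertia group of `A`;
* `exists_fullC_descent_inert` : the same for every `y ∈ k·F̃_M = modularFunctionFieldFullC k M`
  (inertial twin of `ES/RED/ResidueUnion1.exists_fullC_descent`);
* `exists_inertial_descent` : `y` descends to a finite INERTIAL field (`InertField27.IsInertial`)
  containing any given finite inertia-fixed field (e.g. `ℚ(ζ_M)`).
-/
import Mathlib
import Fermat.Agent.ES.RED.ResidueUnion1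
import Fermat.Agent.ES.P36.InertField27
import Fermat.Agent.ES.P36.ZetaUnr26

set_option autoImplicit false
set_option linter.style.haveILetI false

open HahnSeries ModularCurve IntermediateField IsLocalRing

noncomputable section

namespace Fermat.Agent.U44.InertDescent1

open Fermat.Agent.RED.Interface4 Fermat.Agent.RED.DESC Fermat.Agent.ES.RED.ResidueUnion1
  Fermat.Agent.ES.P36.InertField27 Fermat.Agent.ES.P36.ZetaUnr26 Fermat.Agent.ES.J.CycloChar8

variable {A : ValuationSubring Qbar} {ℓ : ℕ}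

/-- the sup of two inertia-fixed fields is inertia-fixed. -/
theorem InertFixed.sup' {K₁ K₂ : IntermediateField ℚ Qbar} (h₁ : InertFixed A K₁)
    (h₂ : InertFixed A K₂) : InertFixed A (K₁ ⊔ K₂) := by
  intro τ hτ x hx
  have hle : K₁ ⊔ K₂ ≤ IntermediateField.fixedField (A.inertiaSubgroupIn ℚ) :=
    sup_le (fun y hy => (IntermediateField.mem_fixedField_iff _ _).mpr fun τ hτ => h₁ τ hτ y hy)
      (fun y hy => (IntermediateField.mem_fixedField_iff _ _).mpr fun τ hτ => h₂ τ hτ y hy)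
  exact (IntermediateField.mem_fixedField_iff _ _).mp (hle hx) τ hτ

theorem inertFixed_bot : InertFixed A (⊥ : IntermediateField ℚ Qbar) := by
  intro τ _ x hx
  obtain ⟨r, rfl⟩ := IntermediateField.mem_bot.mp hx
  exact τ.commutes r

/-- every nonzero element of the residue field has finite order prime to `ℓ`. -/
theorem exists_pow_eq_one (hℓ : ℓ.Prime) (hA : A.LiesOverPrime ℓ) (c : ResidueField A)
    (hc : c ≠ 0) : ∃ m : ℕ, ¬ ℓ ∣ m ∧ c ^ m = 1 := by
  classical
  haveI : FiniteDimensional ℚ (⊥ : IntermediateField ℚ Qbar) := inferInstance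
  obtain ⟨K₁, hfin, -, H⟩ := exists_residue_descent A ⊥ c
  obtain ⟨c₀, rfl⟩ := H K₁ le_rfl
  haveI := hfin
  haveI : Finite (ResidueField ↥(AK A K₁)) :=
    NumberFieldDVR27.finite_residueField_AK A K₁ hℓ.ne_zero hA
  haveI : Fintype (ResidueField ↥(AK A K₁)) := Fintype.ofFinite _
  haveI : CharP (ResidueField ↥(AK A K₁)) ℓ := NumberFieldDVR27.charP_residueField_AK A K₁ hℓ hA
  haveI : Fact ℓ.Prime := ⟨hℓ⟩
  have hc₀ : c₀ ≠ 0 := by
    rintro rfl
    exact hc (map_zero _)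
  obtain ⟨n, hn⟩ := FiniteField.card (ResidueField ↥(AK A K₁)) ℓ
  refine ⟨Fintype.card (ResidueField ↥(AK A K₁)) - 1, ?_, ?_⟩
  · rw [hn.2]
    intro hdvd
    have h1 : ℓ ∣ ℓ ^ (n : ℕ) := dvd_pow_self ℓ n.ne_zero
    have h2 : 1 ≤ ℓ ^ (n : ℕ) := Nat.one_le_pow _ _ hℓ.pos
    have h3 : ℓ ∣ 1 := by
      have := (Nat.dvd_sub (m := ℓ ^ (n : ℕ)) (n := ℓ ^ (n : ℕ) - 1) h1 hdvd)
      rwa [Nat.sub_sub_self h2] at this
    exact hℓ.one_lt.ne' (Nat.dvd_one.mp h3)
  · rw [← map_pow, FiniteField.pow_card_sub_one_eq_one c₀ hc₀, map_one]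

/-- **Teichmüller lift**: every nonzero element of the residue field is the residue of a root of
unity of order prime to `ℓ`. -/
theorem exists_rootOfUnity_lift (hℓ : ℓ.Prime) (hA : A.LiesOverPrime ℓ) (c : ResidueField A)
    (hc : c ≠ 0) :
    ∃ (m : ℕ) (ω : A), ¬ ℓ ∣ m ∧ (ω : Qbar) ^ m = 1 ∧ residue A ω = c := by
  obtain ⟨m, hm, hcm⟩ := exists_pow_eq_one hℓ hA c hc
  have hm0 : m ≠ 0 := fun h0 => hm (h0 ▸ dvd_zero ℓ)
  haveI : NeZero m := ⟨hm0⟩
  set ζ : Qbar := Fermat.Agent.X0.zetaK m with hζdef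
  have hprim : IsPrimitiveRoot ζ m := Fermat.Agent.X0.isPrimitiveRoot_zetaK m
  have hζA : ∀ i : ℕ, ζ ^ i ∈ A := fun i =>
    mem_of_pow_eq_one (A := A) hm0 (by rw [← pow_mul, mul_comm, pow_mul, hprim.pow_eq_one, one_pow])
  -- the residue of `ζ` is a primitive `m`-th root of unity
  set ζb : ResidueField A := residue A ⟨ζ, by simpa using hζA 1⟩ with hζb
  have hpow : ∀ i : ℕ, ζb ^ i = residue A ⟨ζ ^ i, hζA i⟩ := by
    intro i
    rw [hζb, ← map_pow]
    rfl
  have hprimb : IsPrimitiveRoot ζb m := by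
    refine IsPrimitiveRoot.mk_of_lt ζb (Nat.pos_of_ne_zero hm0) ?_ ?_
    · rw [hpow]
      have : (⟨ζ ^ m, hζA m⟩ : A) = 1 := Subtype.ext hprim.pow_eq_one
      rw [this, map_one]
    · intro i hi0 him h1
      rw [hpow] at h1
      have h2 : residue A (⟨ζ ^ i, hζA i⟩ - 1) = 0 := by rw [map_sub, h1, map_one, sub_self]
      rw [residue_eq_zero_iff] at h2
      have h3 : ζ ^ i - 1 ∈ A.nonunits := by
        rw [ValuationSubring.mem_nonunits_iff_exists_mem_maximalIdeal]
        exact ⟨A.sub_mem (hζA i) A.one_mem, h2⟩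
      have h4 : (ζ ^ i) ^ m = 1 := by rw [← pow_mul, mul_comm, pow_mul, hprim.pow_eq_one, one_pow]
      have h5 := eq_one_of_sub_one_mem_nonunits hℓ hA hm h4 h3
      exact absurd (hprim.pow_ne_one_of_pos_of_lt hi0.ne' him) (not_not.mpr h5)
  obtain ⟨i, -, hi⟩ := hprimb.eq_pow_of_pow_eq_one hcm
  refine ⟨m, ⟨ζ ^ i, hζA i⟩, hm, ?_, ?_⟩
  · show (ζ ^ i) ^ m = 1
    rw [← pow_mul, mul_comm, pow_mul, hprim.pow_eq_one, one_pow]
  · rw [← hpow, hi]

/-- **every element of the residue field of `A` comes from `A ∩ K` for all number fields `K`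
containing a suitable finite field fixed by inertia.** -/
theorem exists_residue_descent_inert (hℓ : ℓ.Prime) (hA : A.LiesOverPrime ℓ)
    (c : ResidueField A) :
    ∃ K₁ : IntermediateField ℚ Qbar, FiniteDimensional ℚ K₁ ∧ InertFixed A K₁ ∧
      ∀ K : IntermediateField ℚ Qbar, K₁ ≤ K → c ∈ Set.range (NumberFieldDVR27.resMap A K) := by
  rcases eq_or_ne c 0 with rfl | hc
  · exact ⟨⊥, inferInstance, inertFixed_bot, fun K _ => ⟨0, map_zero _⟩⟩
  obtain ⟨m, ω, hm, hω, rfl⟩ := exists_rootOfUnity_lift hℓ hA c hc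
  obtain ⟨h1, h2, h3⟩ := adjoin_rootOfUnity_fixed hℓ hA hm hω
  refine ⟨ℚ⟮(ω : Qbar)⟯, h1, h3, fun K hK => ?_⟩
  have hωK : (ω : Qbar) ∈ K := hK h2
  have hωA : (⟨(ω : Qbar), hωK⟩ : K) ∈ AK A K := by
    rw [NumberFieldDVR27.mem_AK_iff]
    exact ω.2
  refine ⟨residue _ ⟨⟨(ω : Qbar), hωK⟩, hωA⟩, ?_⟩
  rw [NumberFieldDVR27.resMap_residue]
  congr 1

/-- **the special-fibre function field over `k` is the union of those over the residue fields of
the number fields containing a finite inertia-fixed field.** -/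
theorem exists_fullC_descent_inert (hℓ : ℓ.Prime) (hA : A.LiesOverPrime ℓ) (M : ℕ)
    {y : LaurentSeries (ResidueField A)}
    (hy : y ∈ modularFunctionFieldFullC (ResidueField A) M) :
    ∃ K₁ : IntermediateField ℚ Qbar, FiniteDimensional ℚ K₁ ∧ InertFixed A K₁ ∧
      ∀ K : IntermediateField ℚ Qbar, K₁ ≤ K →
        ∃ y₀ ∈ modularFunctionFieldFullC (ResidueField (AK A K)) M,
          coeffMap (NumberFieldDVR27.resMap A K) y₀ = y := by
  unfold modularFunctionFieldFullC at hy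
  induction hy using IntermediateField.adjoin_induction with
  | mem y hy =>
      obtain ⟨d, hne, hd, rfl⟩ := hy
      have := hne
      refine ⟨⊥, inferInstance, inertFixed_bot, fun K _ => ?_⟩
      refine ⟨qExpand _ d (jqModC _), jqModCd_mem_full _ M hd, ?_⟩
      rw [coeffMap_qExpand', coeffMap_jqModC]
  | algebraMap c =>
      obtain ⟨K₁, hfin, hfix, H⟩ := exists_residue_descent_inert hℓ hA c
      refine ⟨K₁, hfin, hfix, fun K hK => ?_⟩
      obtain ⟨c₀, hc₀⟩ := H K hK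
      refine ⟨algebraMap _ _ c₀, IntermediateField.algebraMap_mem _ _, ?_⟩
      rw [coeffMap_algebraMap', hc₀]
  | add x y _ _ hx hy =>
      obtain ⟨K₁, hfin₁, hK₁, H₁⟩ := hx
      obtain ⟨K₂, hfin₂, hK₂, H₂⟩ := hy
      have := hfin₁
      have := hfin₂
      refine ⟨K₁ ⊔ K₂, inferInstance, InertFixed.sup' hK₁ hK₂, fun K hK => ?_⟩
      obtain ⟨x₀, hx₀, hx₀'⟩ := H₁ K (le_sup_left.trans hK)
      obtain ⟨y₀, hy₀, hy₀'⟩ := H₂ K (le_sup_right.trans hK)
      exact ⟨x₀ + y₀, add_mem hx₀ hy₀, by rw [map_add, hx₀', hy₀']⟩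
  | inv x _ hx =>
      obtain ⟨K₁, hfin₁, hK₁, H₁⟩ := hx
      refine ⟨K₁, hfin₁, hK₁, fun K hK => ?_⟩
      obtain ⟨x₀, hx₀, hx₀'⟩ := H₁ K hK
      exact ⟨x₀⁻¹, inv_mem hx₀, by rw [map_inv₀, hx₀']⟩
  | mul x y _ _ hx hy =>
      obtain ⟨K₁, hfin₁, hK₁, H₁⟩ := hx
      obtain ⟨K₂, hfin₂, hK₂, H₂⟩ := hy
      have := hfin₁
      have := hfin₂
      refine ⟨K₁ ⊔ K₂, inferInstance, InertFixed.sup' hK₁ hK₂, fun K hK => ?_⟩
      obtain ⟨x₀, hx₀, hx₀'⟩ := H₁ K (le_sup_left.trans hK)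
      obtain ⟨y₀, hy₀, hy₀'⟩ := H₂ K (le_sup_right.trans hK)
      exact ⟨x₀ * y₀, mul_mem hx₀ hy₀, by rw [map_mul, hx₀', hy₀']⟩

/-- **descent to a finite INERTIAL field** containing a given finite inertia-fixed field. -/
theorem exists_inertial_descent (hℓ : ℓ.Prime) (hA : A.LiesOverPrime ℓ) (M : ℕ)
    (K₀ : IntermediateField ℚ Qbar) [FiniteDimensional ℚ K₀] (hK₀ : InertFixed A K₀)
    {y : LaurentSeries (ResidueField A)}
    (hy : y ∈ modularFunctionFieldFullC (ResidueField A) M) :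
    ∃ K : IntermediateField ℚ Qbar, FiniteDimensional ℚ K ∧ K₀ ≤ K ∧ IsInertial A K ∧
      ∃ y₀ ∈ modularFunctionFieldFullC (ResidueField (AK A K)) M,
        coeffMap (NumberFieldDVR27.resMap A K) y₀ = y := by
  obtain ⟨K₁, hfin₁, hfix₁, H⟩ := exists_fullC_descent_inert hℓ hA M hy
  haveI := hfin₁
  obtain ⟨K, hfinK, hle, hK⟩ := exists_isInertial_ge (A := A) (K₀ ⊔ K₁)
    (InertFixed.sup' hK₀ hfix₁)
  exact ⟨K, hfinK, le_sup_left.trans hle, hK, H K (le_sup_right.trans hle)⟩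

end Fermat.Agent.U44.InertDescent1
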