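/-
Programme U44 (target S44), chapter (LOC), file 1 (helper1): **dominant-term calculus in a
totally ramified simple extension** (abstract form of FACT 1 of the (TR) skeleton).

Setting: `F` a field with a valuation `v` (any value group, no discreteness/completeness),
`σ : F →+* F` with `v ∘ σ = v`, `K1 ≤ F` a subfield fixed by `σ` whose nonzero elements have
valuations in `(v lam)^ℤ` (`v lam < 1`), `θ ∈ F` with `(v θ)^p = (v lam)^k`, `p ∤ k`.
Put `ε := σ θ / θ - 1`.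

* `natCast_le_one` : `v n ≤ 1`.
* `one_add_pow_expand` : `(1 + ε)^i = 1 + i ε + ε² q`, `v q ≤ 1`.
* `val_injective` : `(v lam)^n (v θ)^i = (v lam)^m (v θ)^j`, `i, j < p` ⟹ `i = j ∧ n = m`.
* `exists_dominant` : a nonzero tuple `a : Fin p → K1` has a dominant index `i0`
  (`v (a i θ^i) < v (a i0 θ^i0)` for `i ≠ i0`).
* `sigma_of_dominant` (F1) : for `x = ∑ a i θ^i` with dominant index `i0`:
  `v x = v (a i0) (v θ)^i0` and `σ x = x (1 + i0 ε + ε r)` with `v r < 1`.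
* `sigma_span` : every `x ≠ 0` in the `K1`-span of `1, θ, …, θ^(p-1)` has
  `v x = (v lam)^n (v θ)^i0` (`i0 < p`) and `σ x = x (1 + i0 ε + ε r)`, `v r < 1`; `i0` (and `n`)
  are determined by `v x`.
-/
import Mathlib

set_option autoImplicit false

namespace Fermat.Agent.U44.LocKummer1

open Finset

variable {F : Type*} [Field F] {Γ₀ : Type*} [LinearOrderedCommGroupWithZero Γ₀]
  (v : Valuation F Γ₀)

/-- natural numbers have valuation `≤ 1`. -/
theorem natCast_le_one (n : ℕ) : v (n : F) ≤ 1 := by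
  induction n with
  | zero => simp
  | succ n ih =>
      rw [Nat.cast_succ]
      exact (v.map_add _ _).trans (max_le ih (by simp))

/-- integers have valuation `≤ 1`. -/
theorem intCast_le_one (n : ℤ) : v (n : F) ≤ 1 := by
  rcases Int.eq_nat_or_neg n with ⟨m, rfl | rfl⟩
  · simpa using natCast_le_one v m
  · simpa using natCast_le_one v m

/-- `(1 + ε)^i = 1 + i ε + ε² q` with `v q ≤ 1` as soon as `v ε ≤ 1`. -/
theorem one_add_pow_expand {ε : F} (hε : v ε ≤ 1) (i : ℕ) :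
    ∃ q : F, v q ≤ 1 ∧ (1 + ε) ^ i = 1 + (i : F) * ε + ε ^ 2 * q := by
  induction i with
  | zero => exact ⟨0, by simp, by simp⟩
  | succ i ih =>
      obtain ⟨q, hq, h⟩ := ih
      refine ⟨(i : F) + q + ε * q, ?_, ?_⟩
      · refine (v.map_add _ _).trans (max_le ((v.map_add _ _).trans (max_le ?_ hq)) ?_)
        · exact natCast_le_one v i
        · rw [map_mul]; exact mul_le_one' hε hq
      · rw [pow_succ, h]; push_cast; ring


/-! ### Distinct valuation classes -/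

section Distinct

variable {v} {lam θ : F} {p : ℕ} {k : ℤ}

/-- `(v lam)^n (v θ)^i` determines `i < p` and `n` when `(v θ)^p = (v lam)^k`, `gcd(k, p) = 1`
(`p` is any positive degree here). -/
theorem val_injective_of_isCoprime (hp : 0 < p) (hlam0 : v lam ≠ 0) (hlam1 : v lam < 1)
    (hθ : v θ ^ p = v lam ^ k) (hk : IsCoprime k (p : ℤ))
    {i j : ℕ} (hi : i < p) (hj : j < p) {n m : ℤ}
    (h : v lam ^ n * v θ ^ i = v lam ^ m * v θ ^ j) : i = j ∧ n = m := by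
  have hpos : 0 < v lam := zero_lt_iff.mpr hlam0
  have hne1 : v lam ≠ 1 := hlam1.ne
  have key : ∀ (n : ℤ) (i : ℕ), (v lam ^ n * v θ ^ i) ^ p = v lam ^ (n * p + k * i) := by
    intro n i
    rw [mul_pow, ← pow_mul, mul_comm i p, pow_mul, hθ, ← zpow_natCast (v lam ^ n) p, ← zpow_mul,
      ← zpow_natCast (v lam ^ k) i, ← zpow_mul, ← zpow_add₀ hlam0]
  have h2 : v lam ^ (n * p + k * i) = v lam ^ (m * p + k * j) := by
    rw [← key, ← key, h]
  have h3 : n * p + k * i = m * p + k * j := (zpow_right_inj₀ hpos hne1).mp h2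
  have hdvd : (p : ℤ) ∣ k * ((i : ℤ) - j) := ⟨m - n, by linarith⟩
  have hdvd' : (p : ℤ) ∣ (i : ℤ) - j := hk.symm.dvd_of_dvd_mul_left hdvd
  have hij : (i : ℤ) = j := by
    by_contra hne
    have hne' : (i : ℤ) - j ≠ 0 := sub_ne_zero.mpr hne
    have hle := Int.le_of_dvd (abs_pos.mpr hne') ((dvd_abs _ _).mpr hdvd')
    have : |(i : ℤ) - j| < p := by
      rw [abs_lt]; constructor <;> omega
    omega
  have hij' : i = j := by exact_mod_cast hij
  refine ⟨hij', ?_⟩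
  subst hij'
  have hp0 : (p : ℤ) ≠ 0 := by exact_mod_cast hp.ne'
  have : n * p = m * p := by linarith
  exact mul_right_cancel₀ hp0 this

theorem isCoprime_of_prime_not_dvd (hp : p.Prime) (hk : ¬ (p : ℤ) ∣ k) : IsCoprime k (p : ℤ) :=
  ((Nat.prime_iff_prime_int.mp hp).coprime_iff_not_dvd.mpr hk).symm

/-- prime-degree form of `val_injective_of_isCoprime`. -/
theorem val_injective (hp : p.Prime) (hlam0 : v lam ≠ 0) (hlam1 : v lam < 1)
    (hθ : v θ ^ p = v lam ^ k) (hk : ¬ (p : ℤ) ∣ k)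
    {i j : ℕ} (hi : i < p) (hj : j < p) {n m : ℤ}
    (h : v lam ^ n * v θ ^ i = v lam ^ m * v θ ^ j) : i = j ∧ n = m :=
  val_injective_of_isCoprime hp.pos hlam0 hlam1 hθ (isCoprime_of_prime_not_dvd hp hk) hi hj h

end Distinct


/-! ### Dominant terms -/

section Dominant

variable {v} {K1 : Subfield F} {lam θ : F} {p : ℕ} {k : ℤ}

/-- a nonzero tuple of coefficients in `K1` has a (strictly) dominant term. -/
theorem exists_dominant (hp : 0 < p) (hlam0 : v lam ≠ 0) (hlam1 : v lam < 1)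
    (hK1v : ∀ a ∈ K1, a ≠ 0 → ∃ n : ℤ, v a = v lam ^ n)
    (hθ : v θ ^ p = v lam ^ k) (hk : IsCoprime k (p : ℤ))
    {a : ℕ → F} (ha : ∀ i, a i ∈ K1) (hne : ∃ i, i < p ∧ a i ≠ 0) :
    ∃ i0, i0 < p ∧ a i0 ≠ 0 ∧ ∀ i, i < p → i ≠ i0 → v (a i * θ ^ i) < v (a i0 * θ ^ i0) := by
  classical
  have hθ0 : v θ ≠ 0 := by
    intro h0
    have hp0 : p ≠ 0 := hp.ne'
    rw [h0, zero_pow hp0] at hθ
    exact (zpow_ne_zero k hlam0) hθ.symm
  set S : Finset ℕ := (range p).filter (fun i => a i ≠ 0) with hS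
  have hSne : S.Nonempty := by
    obtain ⟨i, hi, hai⟩ := hne
    exact ⟨i, by simp [hS, hi, hai]⟩
  obtain ⟨i0, hi0S, hmax⟩ := S.exists_max_image (fun i => v (a i * θ ^ i)) hSne
  have hi0 : i0 < p ∧ a i0 ≠ 0 := by simpa [hS] using hi0S
  refine ⟨i0, hi0.1, hi0.2, fun i hi hii0 => ?_⟩
  have hv0 : v (a i0 * θ ^ i0) ≠ 0 := by
    rw [map_mul, map_pow]
    exact mul_ne_zero ((Valuation.ne_zero_iff v).mpr hi0.2) (pow_ne_zero _ hθ0)
  by_cases hai : a i = 0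
  · rw [hai, zero_mul, map_zero]
    exact zero_lt_iff.mpr hv0
  · have hiS : i ∈ S := by simp [hS, hi, hai]
    refine lt_of_le_of_ne (hmax i hiS) fun heq => hii0 ?_
    obtain ⟨n, hn⟩ := hK1v (a i) (ha i) hai
    obtain ⟨m, hm⟩ := hK1v (a i0) (ha i0) hi0.2
    rw [map_mul, map_mul, map_pow, map_pow, hn, hm] at heq
    exact (val_injective_of_isCoprime hp hlam0 hlam1 hθ hk hi hi0.1 heq).1

/-- **(F1), core**: the action of `σ` on an element with a dominant term. -/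
theorem sigma_of_dominant (σ : F →+* F) (hK1 : ∀ a ∈ K1, σ a = a) {ε : F}
    (hσθ : σ θ = θ * (1 + ε)) (hε : v ε < 1) {a : ℕ → F} (ha : ∀ i, a i ∈ K1)
    {i0 : ℕ} (hi0 : i0 < p)
    (hdom : ∀ i, i < p → i ≠ i0 → v (a i * θ ^ i) < v (a i0 * θ ^ i0)) :
    v (∑ i ∈ range p, a i * θ ^ i) = v (a i0 * θ ^ i0) ∧
    ∃ r : F, v r < 1 ∧
      σ (∑ i ∈ range p, a i * θ ^ i) =
        (∑ i ∈ range p, a i * θ ^ i) * (1 + (i0 : F) * ε + ε * r) := by
  classical
  set x : F := ∑ i ∈ range p, a i * θ ^ i with hx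
  have hvx : v x = v (a i0 * θ ^ i0) := by
    rw [hx]
    refine Valuation.map_sum_eq_of_lt v (mem_range.mpr hi0) fun i hi => ?_
    rw [mem_sdiff, mem_range, mem_singleton] at hi
    exact hdom i hi.1 hi.2
  refine ⟨hvx, ?_⟩
  by_cases hx0 : x = 0
  · exact ⟨0, by simp, by rw [hx0]; simp⟩
  have hvx0 : v x ≠ 0 := (Valuation.ne_zero_iff v).mpr hx0
  choose q hq hqe using fun i => one_add_pow_expand v hε.le i
  -- `s i := (i - i0) + ε q i`
  set s : ℕ → F := fun i => ((i : F) - (i0 : F)) + ε * q i with hs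
  have hs1 : ∀ i, v (s i) ≤ 1 := by
    intro i
    refine (v.map_add _ _).trans (max_le ((v.map_sub _ _).trans (max_le ?_ ?_)) ?_)
    · exact natCast_le_one v i
    · exact natCast_le_one v i0
    · rw [map_mul]; exact mul_le_one' hε.le (hq i)
  have hs0 : v (s i0) < 1 := by
    have : s i0 = ε * q i0 := by simp [hs]
    rw [this, map_mul]
    exact lt_of_le_of_lt (mul_le_of_le_one_right' (hq i0)) hε
  have hpow : ∀ i, (1 + ε) ^ i = 1 + (i0 : F) * ε + ε * s i := by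
    intro i
    rw [hqe i, hs]; ring
  set S : F := ∑ i ∈ range p, a i * θ ^ i * s i with hSdef
  have hσx : σ x = x * (1 + (i0 : F) * ε) + ε * S := by
    rw [hx, map_sum, hSdef, sum_mul, mul_sum, ← sum_add_distrib]
    refine sum_congr rfl fun i _ => ?_
    rw [map_mul, map_pow, hK1 _ (ha i), hσθ, mul_pow, hpow i]
    ring
  have hSlt : v S < v x := by
    rw [hSdef]
    refine Valuation.map_sum_lt v hvx0 fun i hi => ?_
    rw [mem_range] at hi
    rw [map_mul]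
    by_cases hii0 : i = i0
    · subst hii0
      rw [hvx]
      have h1 : v (a i * θ ^ i) ≠ 0 := by rw [← hvx]; exact hvx0
      calc v (a i * θ ^ i) * v (s i) < v (a i * θ ^ i) * 1 :=
            mul_lt_mul_of_pos_left hs0 (zero_lt_iff.mpr h1)
        _ = v (a i * θ ^ i) := mul_one _
    · calc v (a i * θ ^ i) * v (s i) ≤ v (a i * θ ^ i) * 1 := mul_le_mul_right (hs1 i) _
        _ = v (a i * θ ^ i) := mul_one _
        _ < v x := by rw [hvx]; exact hdom i hi hii0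
  refine ⟨S / x, ?_, ?_⟩
  · rw [map_div₀]
    exact (div_lt_one₀ (zero_lt_iff.mpr hvx0)).mpr hSlt
  · rw [hσx]; field_simp

/-- valuation of a nonzero element of the span of `1, θ, …, θ^(p-1)` over `K1`. -/
theorem val_sum (hp : 0 < p) (hlam0 : v lam ≠ 0) (hlam1 : v lam < 1)
    (hK1v : ∀ a ∈ K1, a ≠ 0 → ∃ n : ℤ, v a = v lam ^ n)
    (hθ : v θ ^ p = v lam ^ k) (hk : IsCoprime k (p : ℤ))
    {a : ℕ → F} (ha : ∀ i, a i ∈ K1) (hne : ∃ i, i < p ∧ a i ≠ 0) :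
    ∃ i0, i0 < p ∧ ∃ n : ℤ, v (∑ i ∈ range p, a i * θ ^ i) = v lam ^ n * v θ ^ i0 := by
  classical
  obtain ⟨i0, hi0, hai0, hdom⟩ := exists_dominant hp hlam0 hlam1 hK1v hθ hk ha hne
  obtain ⟨n, hn⟩ := hK1v (a i0) (ha i0) hai0
  refine ⟨i0, hi0, n, ?_⟩
  rw [Valuation.map_sum_eq_of_lt v (mem_range.mpr hi0) (fun i hi => by
    rw [mem_sdiff, mem_range, mem_singleton] at hi
    exact hdom i hi.1 hi.2), map_mul, map_pow, hn]

/-- the powers `1, θ, …, θ^(p-1)` are linearly independent over `K1` (sum form). -/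
theorem sum_ne_zero (hp : 0 < p) (hlam0 : v lam ≠ 0) (hlam1 : v lam < 1)
    (hK1v : ∀ a ∈ K1, a ≠ 0 → ∃ n : ℤ, v a = v lam ^ n)
    (hθ : v θ ^ p = v lam ^ k) (hk : IsCoprime k (p : ℤ))
    {a : ℕ → F} (ha : ∀ i, a i ∈ K1) (hne : ∃ i, i < p ∧ a i ≠ 0) :
    ∑ i ∈ range p, a i * θ ^ i ≠ 0 := by
  obtain ⟨i0, -, n, hn⟩ := val_sum hp hlam0 hlam1 hK1v hθ hk ha hne
  have hθ0 : v θ ≠ 0 := by
    intro h0
    rw [h0, zero_pow hp.ne'] at hθ
    exact (zpow_ne_zero k hlam0) hθ.symm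
  intro h0
  rw [h0, map_zero] at hn
  exact (mul_ne_zero (zpow_ne_zero n hlam0) (pow_ne_zero i0 hθ0)) hn.symm

/-- **(F1)**: for `x ≠ 0` in the `K1`-span of `1, θ, …, θ^(p-1)`: `v x = (v lam)^n (v θ)^i0`
with `i0 < p`, and `σ x = x (1 + i0 ε + ε r)` with `v r < 1`, where `σ θ = θ (1 + ε)`. -/
theorem sigma_sum (hp : 0 < p) (hlam0 : v lam ≠ 0) (hlam1 : v lam < 1)
    (hK1v : ∀ a ∈ K1, a ≠ 0 → ∃ n : ℤ, v a = v lam ^ n)
    (hθ : v θ ^ p = v lam ^ k) (hk : IsCoprime k (p : ℤ))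
    (σ : F →+* F) (hK1 : ∀ a ∈ K1, σ a = a) {ε : F}
    (hσθ : σ θ = θ * (1 + ε)) (hε : v ε < 1)
    {a : ℕ → F} (ha : ∀ i, a i ∈ K1) (hne : ∃ i, i < p ∧ a i ≠ 0) :
    ∃ i0, i0 < p ∧ ∃ n : ℤ, v (∑ i ∈ range p, a i * θ ^ i) = v lam ^ n * v θ ^ i0 ∧
      ∃ r : F, v r < 1 ∧ σ (∑ i ∈ range p, a i * θ ^ i) =
        (∑ i ∈ range p, a i * θ ^ i) * (1 + (i0 : F) * ε + ε * r) := by
  obtain ⟨i0, hi0, hai0, hdom⟩ := exists_dominant hp hlam0 hlam1 hK1v hθ hk ha hne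
  obtain ⟨n, hn⟩ := hK1v (a i0) (ha i0) hai0
  obtain ⟨hv, r, hr, hσ⟩ := sigma_of_dominant σ hK1 hσθ hε ha hi0 hdom
  exact ⟨i0, hi0, n, by rw [hv, map_mul, map_pow, hn], r, hr, hσ⟩

end Dominant

end Fermat.Agent.U44.LocKummer1
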