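/-
Programme U44 (target S44), chapter (LOC), file 2 (helper1): **the local fields at `ℚ̄`**.

`A` a valuation subring of `ℚ̄` over `p`, `v = A.valuation`.
* `valuation_apply_eq` : `v (σ x) = v x` for `σ` in the decomposition group of `A`.
* `Kur A` : the fixed field of the inertia group `Iner A` (`= Frac (W0 A)`); `val_Kur` : its nonzero
  elements have valuation in `(v p)^ℤ`.
-/
import Mathlib
import Fermat.Agent.FF.InertiaWire8
import Fermat.Agent.FF.Desc4B
import Fermat.Agent.T33.WZero2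
import Fermat.Agent.U44.LocKummer1

set_option autoImplicit false

open scoped Pointwise

namespace Fermat.Agent.U44.LocInst1

open Fermat.Agent.FF.InertiaWire8 Fermat.Agent.T33.WZero2 Fermat.Agent.U44.LocKummer1
open Finset Polynomial

variable {A : ValuationSubring Qb} {p : ℕ}

/-! ### (I1) the decomposition group preserves the valuation -/

theorem apply_mem_iff {σ : GQ} (hσ : σ ∈ A.decompositionSubgroup ℚ) (y : Qb) :
    σ y ∈ A ↔ y ∈ A := by
  refine ⟨fun h => ?_, fun h => apply_mem_of_mem_decomposition A hσ h⟩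
  have hinv : σ⁻¹ ∈ A.decompositionSubgroup ℚ := inv_mem hσ
  have := apply_mem_of_mem_decomposition A hinv h
  simpa using this

theorem val_le_one_iff {σ : GQ} (hσ : σ ∈ A.decompositionSubgroup ℚ) (y : Qb) :
    A.valuation (σ y) ≤ 1 ↔ A.valuation y ≤ 1 := by
  rw [A.valuation_le_one_iff, A.valuation_le_one_iff, apply_mem_iff hσ]

theorem val_lt_one_iff {σ : GQ} (hσ : σ ∈ A.decompositionSubgroup ℚ) (y : Qb) :
    A.valuation (σ y) < 1 ↔ A.valuation y < 1 := by
  by_cases hy : y = 0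
  · simp [hy]
  have hσy : σ y ≠ 0 := by simpa using hy
  have h1 : ∀ z : Qb, z ≠ 0 → (A.valuation z < 1 ↔ ¬ A.valuation z⁻¹ ≤ 1) := by
    intro z hz
    rw [map_inv₀, not_le, one_lt_inv₀ (zero_lt_iff.mpr ((Valuation.ne_zero_iff _).mpr hz))]
  rw [h1 _ hσy, h1 _ hy, ← map_inv₀ σ, val_le_one_iff hσ]

/-- a nonempty product of elements `< 1` is `< 1`. -/
theorem prod_lt_one {Γ₀ : Type*} [LinearOrderedCommGroupWithZero Γ₀] (f : ℕ → Γ₀) :
    ∀ n : ℕ, 0 < n → (∀ i, i < n → f i < 1) → ∏ i ∈ range n, f i < 1 := by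
  intro n
  induction n with
  | zero => intro h; exact absurd h (lt_irrefl 0)
  | succ n ih =>
      intro _ hf
      rw [prod_range_succ]
      rcases Nat.eq_zero_or_pos n with rfl | hn
      · simpa using hf 0 (by omega)
      · exact Right.mul_lt_one_of_le_of_lt (ih hn fun i hi => hf i (by omega)).le (hf n (by omega))

/-- every element of `ℚ̄` is fixed by a positive power of `σ`. -/
theorem exists_pow_apply_eq (σ : GQ) (x : Qb) : ∃ N : ℕ, 0 < N ∧ (σ ^ N) x = x := by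
  have := isAlgebraic_rat_Qb
  have hx : IsIntegral ℚ x := (Algebra.IsAlgebraic.isAlgebraic x).isIntegral
  have hfin : ((minpoly ℚ x).rootSet Qb).Finite := Polynomial.rootSet_finite _ _
  have hmem : ∀ i : ℕ, (σ ^ i) x ∈ (minpoly ℚ x).rootSet Qb := by
    intro i
    rw [Polynomial.mem_rootSet]
    refine ⟨minpoly.ne_zero hx, ?_⟩
    have : minpoly ℚ ((σ ^ i) x) = minpoly ℚ x := minpoly.algEquiv_eq (σ ^ i) x
    rw [← this]
    exact minpoly.aeval ℚ _
  obtain ⟨a, b, hab, heq⟩ := hfin.exists_lt_map_eq_of_forall_mem hmem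
  refine ⟨b - a, Nat.sub_pos_of_lt hab, ?_⟩
  have hb : σ ^ b = σ ^ a * σ ^ (b - a) := by
    rw [← pow_add]; congr 1; omega
  rw [hb, AlgEquiv.mul_apply] at heq
  exact ((σ ^ a).injective heq).symm

/-- **(I1)** the decomposition group of `A` preserves `A.valuation`. -/
theorem valuation_apply_eq {σ : GQ} (hσ : σ ∈ A.decompositionSubgroup ℚ) (x : Qb) :
    A.valuation (σ x) = A.valuation x := by
  by_cases hx : x = 0
  · simp [hx]
  obtain ⟨N, hN, hfix⟩ := exists_pow_apply_eq σ x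
  set y : Qb := σ x / x with hy
  have hprod : ∀ n : ℕ, ∏ i ∈ range n, (σ ^ i) y = (σ ^ n) x / x := by
    intro n
    induction n with
    | zero => simp [hx]
    | succ n ih =>
        rw [prod_range_succ, ih, hy, map_div₀, pow_succ', AlgEquiv.mul_apply]
        have h1 : (σ ^ n) x ≠ 0 := (map_ne_zero_iff _ (σ ^ n).injective).mpr hx
        have h2 : (σ ^ n) (σ x) = σ ((σ ^ n) x) := by
          rw [← AlgEquiv.mul_apply, ← AlgEquiv.mul_apply, ← pow_succ, ← pow_succ']
        rw [h2]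
        field_simp
  have hpow_mem : ∀ i : ℕ, σ ^ i ∈ A.decompositionSubgroup ℚ := fun i => pow_mem hσ i
  have hone : ∏ i ∈ range N, (σ ^ i) y = 1 := by rw [hprod, hfix, div_self hx]
  have hvy : A.valuation y = 1 := by
    rcases lt_trichotomy (A.valuation y) 1 with hlt | heq | hgt
    · exfalso
      have : A.valuation (∏ i ∈ range N, (σ ^ i) y) < 1 := by
        rw [map_prod]
        exact prod_lt_one _ N hN fun i _ => (val_lt_one_iff (hpow_mem i) y).mpr hlt
      rw [hone, map_one] at this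
      exact lt_irrefl _ this
    · exact heq
    · exfalso
      have hy0 : y ≠ 0 := by
        intro h0; rw [h0, map_zero] at hgt; exact not_lt.mpr zero_le hgt
      have hlt : A.valuation y⁻¹ < 1 := by
        rw [map_inv₀]; exact inv_lt_one_of_one_lt₀ hgt
      have : A.valuation (∏ i ∈ range N, (σ ^ i) y⁻¹) < 1 := by
        rw [map_prod]
        exact prod_lt_one _ N hN fun i _ => (val_lt_one_iff (hpow_mem i) y⁻¹).mpr hlt
      have h2 : ∏ i ∈ range N, (σ ^ i) y⁻¹ = 1 := by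
        have : ∀ i ∈ range N, (σ ^ i) y⁻¹ = ((σ ^ i) y)⁻¹ := fun i _ => map_inv₀ _ _
        rw [prod_congr rfl this, prod_inv_distrib, hone, inv_one]
      rw [h2, map_one] at this
      exact lt_irrefl _ this
  have : A.valuation (σ x) = A.valuation y * A.valuation x := by
    rw [← map_mul, hy, div_mul_cancel₀ _ hx]
  rw [this, hvy, one_mul]


/-- inertia elements preserve the valuation. -/
theorem valuation_smul_eq (σ : Iner A) (x : Qb) : A.valuation (σ • x) = A.valuation x :=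
  valuation_apply_eq (mem_decomposition_of_mem_inertia A σ.2) x

/-! ### (I2) the maximal unramified field `Kur = ℚ̄^I` -/

variable (A) in
/-- the fixed field of the inertia group of `A`. -/
noncomputable def Kur : Subfield Qb := FixedPoints.subfield (Iner A) Qb

theorem mem_Kur {x : Qb} : x ∈ Kur A ↔ ∀ σ : Iner A, σ • x = x := Iff.rfl

theorem natCast_mem_Kur (n : ℕ) : (n : Qb) ∈ Kur A := natCast_mem _ n

theorem val_natCast_lt_one (hA : A.LiesOverPrime p) : A.valuation (p : Qb) < 1 :=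
  A.mem_nonunits_iff.mp hA

theorem val_natCast_ne_zero (hp : p.Prime) : A.valuation (p : Qb) ≠ 0 :=
  (Valuation.ne_zero_iff _).mpr (natCast_ne_zero' hp)

/-- **(I2)** nonzero elements of `Kur` have valuation in `(v p)^ℤ`. -/
theorem val_Kur (hp : p.Prime) (hA : A.LiesOverPrime p) {x : Qb} (hx : x ∈ Kur A) (hx0 : x ≠ 0) :
    ∃ n : ℤ, A.valuation x = A.valuation (p : Qb) ^ n := by
  have hp0 : (p : Qb) ≠ 0 := natCast_ne_zero' hp
  obtain ⟨N, hN⟩ := Fermat.Agent.FF.Desc4.exists_pow_mul_mem A hp hA x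
  have hyW : (p : Qb) ^ N * x ∈ W0 A := by
    refine ⟨hN, fun σ => ?_⟩
    have hσp : σ • ((p : ℕ) : Qb) = (p : Qb) :=
      map_natCast (MulSemiringAction.toRingHom (Iner A) Qb σ) p
    rw [smul_mul', smul_pow', hx σ, hσp]
  have hy0 : (p : Qb) ^ N * x ≠ 0 := mul_ne_zero (pow_ne_zero _ hp0) hx0
  obtain ⟨n, u, huW, hu, hxu⟩ := exists_eq_pow_mul hp hA hyW hy0
  have hvu : A.valuation u = 1 := by
    have h1 : A.valuation u ≤ 1 := (A.valuation_le_one_iff u).mpr huW.1
    have h2 : ¬ A.valuation u < 1 := fun h => hu (A.mem_nonunits_iff.mpr h)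
    exact le_antisymm h1 (not_lt.mp h2)
  refine ⟨(n : ℤ) - N, ?_⟩
  have hvp0 := val_natCast_ne_zero (A := A) hp
  have h3 : A.valuation ((p : Qb) ^ N * x) = A.valuation ((p : Qb) ^ n * u) := by rw [hxu]
  rw [map_mul, map_mul, map_pow, map_pow, hvu, mul_one] at h3
  rw [zpow_sub₀ hvp0, zpow_natCast, zpow_natCast, eq_div_iff (pow_ne_zero _ hvp0), mul_comm]
  exact h3


/-! ### (I4) `p`-th roots of unity -/

/-- integers prime to `p` are units of `A`. -/
theorem val_natCast_eq_one (hp : p.Prime) (hA : A.LiesOverPrime p) {j : ℕ} (hj : ¬ p ∣ j) :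
    A.valuation (j : Qb) = 1 := by
  refine le_antisymm (natCast_le_one _ j) (not_lt.mp fun hlt => ?_)
  have hcop : IsCoprime (j : ℤ) (p : ℤ) :=
    Nat.isCoprime_iff_coprime.mpr ((Nat.Prime.coprime_iff_not_dvd hp).mpr hj).symm
  obtain ⟨a, b, hab⟩ := hcop
  have h1 : (1 : Qb) = (a : Qb) * (j : Qb) + (b : Qb) * (p : Qb) := by
    have := congrArg (fun z : ℤ => (z : Qb)) hab
    simpa using this.symm
  have h2 : A.valuation (1 : Qb) < 1 := by
    rw [h1]
    refine lt_of_le_of_lt (A.valuation.map_add _ _) (max_lt ?_ ?_)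
    · rw [map_mul]
      exact Right.mul_lt_one_of_le_of_lt (intCast_le_one _ a) hlt
    · rw [map_mul]
      exact Right.mul_lt_one_of_le_of_lt (intCast_le_one _ b) (val_natCast_lt_one hA)
  rw [map_one] at h2
  exact lt_irrefl _ h2

theorem val_eq_one_of_pow_eq_one {x : Qb} {n : ℕ} (hn : 0 < n) (hx : x ^ n = 1) :
    A.valuation x = 1 := by
  have h : A.valuation x ^ n = 1 := by rw [← map_pow, hx, map_one]
  rcases lt_trichotomy (A.valuation x) 1 with hlt | heq | hgt
  · exact absurd h (pow_lt_one₀ zero_le hlt hn.ne').ne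
  · exact heq
  · exact absurd h (one_lt_pow₀ hgt hn.ne').ne'

theorem val_geom_sum_le_one {x : Qb} (hx : A.valuation x = 1) (n : ℕ) :
    A.valuation (∑ i ∈ range n, x ^ i) ≤ 1 := by
  refine Valuation.map_sum_le _ fun i _ => ?_
  rw [map_pow, hx, one_pow]

/-- `v (ζ^k - 1) = v (ζ - 1)` for `p ∤ k`. -/
theorem val_zeta_pow_sub_one (hp : p.Prime) {ζ : Qb} (hζ : IsPrimitiveRoot ζ p) {k : ℕ}
    (hk : ¬ p ∣ k) : A.valuation (ζ ^ k - 1) = A.valuation (ζ - 1) := by
  have hζ1 : A.valuation ζ = 1 := val_eq_one_of_pow_eq_one hp.pos hζ.pow_eq_one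
  have hle : ∀ (x : Qb) (_ : A.valuation x = 1) (n : ℕ),
      A.valuation (x ^ n - 1) ≤ A.valuation (x - 1) := by
    intro x hx n
    rw [← geom_sum_mul, map_mul]
    exact mul_le_of_le_one_left' (val_geom_sum_le_one hx n)
  refine le_antisymm (hle ζ hζ1 k) ?_
  have hcop : Nat.Coprime k p := ((Nat.Prime.coprime_iff_not_dvd hp).mpr hk).symm
  obtain ⟨k', -, hk'⟩ := Nat.exists_mul_mod_eq_one_of_coprime hcop hp.one_lt
  have hpow : (ζ ^ k) ^ k' = ζ := by
    rw [← pow_mul, ← Nat.div_add_mod (k * k') p, hk', pow_add, pow_mul, hζ.pow_eq_one, one_pow,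
      one_mul, pow_one]
  have hζk1 : A.valuation (ζ ^ k) = 1 := by rw [map_pow, hζ1, one_pow]
  calc A.valuation (ζ - 1) = A.valuation ((ζ ^ k) ^ k' - 1) := by rw [hpow]
    _ ≤ A.valuation (ζ ^ k - 1) := hle _ hζk1 k'

/-- **`v (ζ - 1)^(p-1) = v p`**. -/
theorem val_zeta_sub_one_pow (hp : p.Prime) {ζ : Qb} (hζ : IsPrimitiveRoot ζ p) :
    A.valuation (ζ - 1) ^ (p - 1) = A.valuation (p : Qb) := by
  have hp1 : p - 1 + 1 = p := Nat.sub_add_cancel hp.one_le
  have hζ' : IsPrimitiveRoot ζ (p - 1 + 1) := by rwa [hp1]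
  have hprod := hζ'.prod_one_sub_pow_eq_order
  have hcast : ((p - 1 : ℕ) : Qb) + 1 = (p : Qb) := by
    rw [← Nat.cast_succ, Nat.succ_eq_add_one, hp1]
  rw [hcast] at hprod
  rw [← hprod, map_prod]
  rw [Finset.prod_congr rfl (g := fun _ => A.valuation (ζ - 1))]
  · rw [prod_const, card_range]
  · intro k hk
    rw [mem_range] at hk
    rw [Valuation.map_sub_swap]
    refine val_zeta_pow_sub_one hp hζ fun hdvd => ?_
    have := Nat.le_of_dvd (Nat.succ_pos k) hdvd
    omega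

theorem val_zeta_sub_one_lt_one (hp : p.Prime) (hA : A.LiesOverPrime p) {ζ : Qb}
    (hζ : IsPrimitiveRoot ζ p) : A.valuation (ζ - 1) < 1 := by
  by_contra hcon
  have h1 : 1 ≤ A.valuation (ζ - 1) := not_lt.mp hcon
  have h2 : 1 ≤ A.valuation (ζ - 1) ^ (p - 1) := one_le_pow₀ h1
  rw [val_zeta_sub_one_pow hp hζ] at h2
  exact absurd (val_natCast_lt_one hA) (not_lt.mpr h2)

theorem zeta_sub_one_ne_zero (hp : p.Prime) {ζ : Qb} (hζ : IsPrimitiveRoot ζ p) : ζ - 1 ≠ 0 :=
  sub_ne_zero.mpr (hζ.ne_one hp.one_lt)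


/-! ### (I3) simple extensions: representation by a power basis -/

section Repr

variable {F : Type*} [Field F] {K : Subfield F}

/-- modulo a monic polynomial `g` with root `θ`, every polynomial value at `θ` is a `K`-combination
of `1, θ, …, θ^(deg g - 1)`. -/
theorem exists_repr_of_monic {θ : F} {g : (↥K)[X]} (hg : g.Monic) (hgθ : aeval θ g = 0)
    (P : (↥K)[X]) :
    ∃ a : ℕ → F, (∀ i, a i ∈ K) ∧ aeval θ P = ∑ i ∈ range g.natDegree, a i * θ ^ i := by
  have hg1 : g ≠ 1 := by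
    rintro rfl
    simp at hgθ
  set Q := P %ₘ g with hQ
  have hdeg : Q.natDegree < g.natDegree := natDegree_modByMonic_lt P hg hg1
  have hPQ : aeval θ P = aeval θ Q := by
    have h := modByMonic_add_div P g
    have h2 := congrArg (aeval θ) h
    rw [map_add, map_mul, hgθ, zero_mul, add_zero] at h2
    exact h2.symm
  refine ⟨fun i => ((Q.coeff i : ↥K) : F), fun i => (Q.coeff i).2, ?_⟩
  rw [hPQ, aeval_eq_sum_range' hdeg]
  refine sum_congr rfl fun i _ => ?_
  rw [Algebra.smul_def]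
  rfl

/-- elements of a simple algebraic extension `K(θ)` as polynomial values. -/
theorem exists_aeval_eq_of_mem_adjoin {θ : F} (hθ : IsIntegral (↥K) θ) {x : F}
    (hx : x ∈ IntermediateField.adjoin (↥K) {θ}) : ∃ P : (↥K)[X], aeval θ P = x := by
  have h1 : x ∈ (IntermediateField.adjoin (↥K) {θ}).toSubalgebra := hx
  rw [IntermediateField.adjoin_simple_toSubalgebra_of_isAlgebraic hθ.isAlgebraic,
    Algebra.adjoin_singleton_eq_range_aeval] at h1
  exact h1

end Repr


/-! ### (I3)/(I4) the field `K1 = Kur(ζ_p)` and its uniformiser `ζ_p - 1` -/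

variable (A) in
/-- `K1 = Kur(ζ)`. -/
noncomputable def K1 (ζ : Qb) : Subfield Qb :=
  (IntermediateField.adjoin (↥(Kur A)) {ζ}).toSubfield

theorem mem_K1 {ζ x : Qb} : x ∈ K1 A ζ ↔ x ∈ IntermediateField.adjoin (↥(Kur A)) {ζ} := Iff.rfl

theorem Kur_le_K1 (ζ : Qb) : Kur A ≤ K1 A ζ := fun x hx =>
  (IntermediateField.adjoin (↥(Kur A)) {ζ}).algebraMap_mem ⟨x, hx⟩

theorem zeta_mem_K1 (ζ : Qb) : ζ ∈ K1 A ζ :=
  IntermediateField.mem_adjoin_simple_self (↥(Kur A)) ζ

theorem isIntegral_zeta (hp : p.Prime) {ζ : Qb} (hζ : IsPrimitiveRoot ζ p) :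
    IsIntegral (↥(Kur A)) ζ :=
  ⟨X ^ p - C 1, monic_X_pow_sub_C 1 hp.ne_zero, by simp [hζ.pow_eq_one]⟩

/-- every element of `K1` is a `Kur`-combination of `1, λ, …, λ^(p-2)`, `λ = ζ - 1`. -/
theorem exists_repr_K1 (hp : p.Prime) {ζ : Qb} (hζ : IsPrimitiveRoot ζ p) {x : Qb}
    (hx : x ∈ K1 A ζ) :
    ∃ a : ℕ → Qb, (∀ i, a i ∈ Kur A) ∧ x = ∑ i ∈ range (p - 1), a i * (ζ - 1) ^ i := by
  obtain ⟨P, hP⟩ := exists_aeval_eq_of_mem_adjoin (isIntegral_zeta hp hζ) (mem_K1.mp hx)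
  have hsh : aeval (ζ - 1) (X + C (1 : ↥(Kur A))) = ζ := by simp
  set g : (↥(Kur A))[X] := (cyclotomic p ↥(Kur A)).comp (X + C 1) with hg
  have hXC : (X + C (1 : ↥(Kur A))).natDegree = 1 := natDegree_X_add_C 1
  have hgm : g.Monic :=
    (cyclotomic.monic p _).comp (monic_X_add_C 1) (by rw [hXC]; exact one_ne_zero)
  have hgdeg : g.natDegree = p - 1 := by
    rw [hg, natDegree_comp, hXC, mul_one, natDegree_cyclotomic, Nat.totient_prime hp]
  have hcyc : aeval ζ (cyclotomic p ↥(Kur A)) = 0 := by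
    rw [aeval_def, eval₂_eq_eval_map, map_cyclotomic]
    exact hζ.isRoot_cyclotomic hp.pos
  have hgθ : aeval (ζ - 1) g = 0 := by
    rw [hg, aeval_comp, hsh, hcyc]
  obtain ⟨a, ha, hrep⟩ := exists_repr_of_monic hgm hgθ (P.comp (X + C 1))
  refine ⟨a, ha, ?_⟩
  rw [← hP, ← hgdeg, ← hrep, aeval_comp, hsh]

/-- **(I4)** `λ = ζ - 1` is a uniformiser of `K1`: every nonzero element of `K1` has valuation in
`(v λ)^ℤ`. -/
theorem val_K1 (hp : p.Prime) (hA : A.LiesOverPrime p) {ζ : Qb} (hζ : IsPrimitiveRoot ζ p)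
    {x : Qb} (hx : x ∈ K1 A ζ) (hx0 : x ≠ 0) :
    ∃ n : ℤ, A.valuation x = A.valuation (ζ - 1) ^ n := by
  obtain ⟨a, ha, rfl⟩ := exists_repr_K1 hp hζ hx
  have hne : ∃ i, i < p - 1 ∧ a i ≠ 0 := by
    by_contra hcon
    push Not at hcon
    apply hx0
    refine sum_eq_zero fun i hi => ?_
    rw [hcon i (mem_range.mp hi), zero_mul]
  have hp1 : 0 < p - 1 := Nat.sub_pos_of_lt hp.one_lt
  have hθ : A.valuation (ζ - 1) ^ (p - 1) = A.valuation (p : Qb) ^ (1 : ℤ) := by
    rw [zpow_one, val_zeta_sub_one_pow hp hζ]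
  obtain ⟨i0, -, n, hn⟩ := val_sum (K1 := Kur A) hp1 (val_natCast_ne_zero hp)
    (val_natCast_lt_one hA) (fun b hb hb0 => val_Kur hp hA hb hb0) hθ isCoprime_one_left ha hne
  refine ⟨n * ((p - 1 : ℕ) : ℤ) + i0, ?_⟩
  have hlam0 : A.valuation (ζ - 1) ≠ 0 :=
    (Valuation.ne_zero_iff _).mpr (zeta_sub_one_ne_zero hp hζ)
  rw [hn, zpow_add₀ hlam0, zpow_natCast, mul_comm n, zpow_mul, zpow_natCast,
    val_zeta_sub_one_pow hp hζ]

/-- an inertia element fixing `ζ` fixes `K1`. -/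
theorem smul_eq_of_mem_K1 (hp : p.Prime) {ζ : Qb} (hζ : IsPrimitiveRoot ζ p) {σ : Iner A}
    (hσ : σ • ζ = ζ) {x : Qb} (hx : x ∈ K1 A ζ) : σ • x = x := by
  obtain ⟨a, ha, rfl⟩ := exists_repr_K1 hp hζ hx
  rw [Finset.smul_sum]
  refine sum_congr rfl fun i _ => ?_
  rw [smul_mul', smul_pow', smul_sub, hσ, smul_one, ha i σ]

end Fermat.Agent.U44.LocInst1
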