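/-
Programme U44 (target S44), chapter (LOC), file 3 (helper1): **inertia at `ℚ̄`, part 2**.

* `val_smul_sub_lt_one` (h3) : `v x ≤ 1 → v (σ x - x) < 1` for `σ ∈ Iner A`.
* `val_pow_index_of_fixed` (L2a) : if `x ≠ 0` is fixed by a subgroup `H ≤ Iner A`, then
  `v x ^ H.index ∈ (v p)^ℤ` (norm over the finite orbit).
* `I1 A ζ` : the stabiliser of `ζ` in `Iner A`; `index_I1_dvd` : its index divides `p - 1`;
  `val_of_fixed_I1` (h4) : elements fixed by `I1` have valuation in `(v (ζ - 1))^ℤ`.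
-/
import Mathlib
import Fermat.Agent.U44.LocInst1
import Fermat.Agent.ES.RED.GaloisRed21

set_option autoImplicit false

open scoped Pointwise

namespace Fermat.Agent.U44.LocInst1B

open Fermat.Agent.FF.InertiaWire8 Fermat.Agent.T33.WZero2 Fermat.Agent.U44.LocKummer1
  Fermat.Agent.U44.LocInst1 Fermat.Agent.ES.RED.GaloisRed21
open Finset

variable {A : ValuationSubring Qb} {p : ℕ}

/-! ### (h3) inertia acts trivially modulo the maximal ideal -/

theorem val_smul_sub_lt_one (σ : Iner A) {x : Qb} (hx : A.valuation x ≤ 1) :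
    A.valuation (σ • x - x) < 1 := by
  have hxA : x ∈ A := (A.valuation_le_one_iff x).mp hx
  obtain ⟨hD, hψ⟩ := psiRes_eq_one_of_mem_inertia (K₀ := ℚ) A σ.2
  have h1 := psiRes_residue (K₀ := ℚ) A ⟨(σ : GQ), hD⟩ ⟨x, hxA⟩
  rw [hψ] at h1
  have h2 : IsLocalRing.residue ↥A (sigmaA (K₀ := ℚ) A ⟨(σ : GQ), hD⟩ ⟨x, hxA⟩ - ⟨x, hxA⟩) = 0 := by
    rw [map_sub, ← h1]
    simp
  rw [IsLocalRing.residue_eq_zero_iff, A.valuation_lt_one_iff] at h2
  exact h2


/-! ### (L2a) norms over finite orbits -/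

/-- orbits of the inertia group on `ℚ̄` are finite. -/
theorem finite_orbit (x : Qb) : (MulAction.orbit (Iner A) x).Finite := by
  have := isAlgebraic_rat_Qb
  have hx : IsIntegral ℚ x := (Algebra.IsAlgebraic.isAlgebraic x).isIntegral
  refine (Polynomial.rootSet_finite (minpoly ℚ x) Qb).subset ?_
  rintro _ ⟨σ, rfl⟩
  rw [Polynomial.mem_rootSet]
  refine ⟨minpoly.ne_zero hx, ?_⟩
  have : minpoly ℚ ((σ : GQ) x) = minpoly ℚ x := minpoly.algEquiv_eq (σ : GQ) x
  show Polynomial.aeval ((σ : GQ) x) (minpoly ℚ x) = 0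
  rw [← this]
  exact minpoly.aeval ℚ _

/-- the norm of `x` over its inertia orbit. -/
noncomputable def orbitNorm (A : ValuationSubring Qb) (x : Qb) : Qb :=
  ∏ y ∈ (finite_orbit (A := A) x).toFinset, y

theorem smul_orbitNorm (σ : Iner A) (x : Qb) : σ • orbitNorm A x = orbitNorm A x := by
  classical
  unfold orbitNorm
  rw [Finset.smul_prod']
  refine Finset.prod_bij (fun y _ => σ • y) ?_ ?_ ?_ ?_
  · intro y hy
    rw [Set.Finite.mem_toFinset] at hy ⊢
    exact MulAction.mem_orbit_of_mem_orbit σ hy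
  · intro y₁ _ y₂ _ h
    exact MulAction.injective σ h
  · intro y hy
    rw [Set.Finite.mem_toFinset] at hy
    refine ⟨σ⁻¹ • y, ?_, by simp⟩
    rw [Set.Finite.mem_toFinset]
    exact MulAction.mem_orbit_of_mem_orbit σ⁻¹ hy
  · intro y _
    rfl

theorem orbitNorm_mem_Kur (x : Qb) : orbitNorm A x ∈ Kur A := fun σ => smul_orbitNorm σ x

theorem val_orbitNorm (x : Qb) :
    A.valuation (orbitNorm A x) = A.valuation x ^ (MulAction.stabilizer (Iner A) x).index := by
  classical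
  unfold orbitNorm
  rw [map_prod, Finset.prod_congr rfl (g := fun _ => A.valuation x)]
  · rw [prod_const, MulAction.index_stabilizer, Set.ncard_eq_toFinset_card _ (finite_orbit x)]
  · intro y hy
    rw [Set.Finite.mem_toFinset] at hy
    obtain ⟨σ, rfl⟩ := hy
    exact valuation_smul_eq σ x

theorem orbitNorm_ne_zero {x : Qb} (hx : x ≠ 0) : orbitNorm A x ≠ 0 := by
  unfold orbitNorm
  rw [Finset.prod_ne_zero_iff]
  intro y hy
  rw [Set.Finite.mem_toFinset] at hy
  obtain ⟨σ, rfl⟩ := hy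
  exact (smul_ne_zero_iff_ne σ).mpr hx

/-- **(L2a)**: a nonzero `x` fixed by a subgroup `H` of the inertia group has
`v x ^ H.index ∈ (v p)^ℤ`. -/
theorem val_pow_index_of_fixed (hp : p.Prime) (hA : A.LiesOverPrime p) {x : Qb} (hx0 : x ≠ 0)
    {H : Subgroup (Iner A)} (hH : ∀ σ ∈ H, σ • x = x) :
    ∃ m : ℤ, A.valuation x ^ H.index = A.valuation (p : Qb) ^ m := by
  have hle : H ≤ MulAction.stabilizer (Iner A) x := fun σ hσ => hH σ hσ
  obtain ⟨c, hc⟩ := Subgroup.index_dvd_of_le hle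
  obtain ⟨m, hm⟩ := val_Kur hp hA (orbitNorm_mem_Kur (A := A) x) (orbitNorm_ne_zero hx0)
  refine ⟨m * c, ?_⟩
  rw [hc, pow_mul, ← val_orbitNorm, hm, zpow_mul, zpow_natCast]


/-! ### the stabiliser `I1` of `ζ_p` and the value group of its fixed field -/

variable (A) in
/-- the stabiliser of `ζ` in the inertia group. -/
noncomputable def I1 (ζ : Qb) : Subgroup (Iner A) := MulAction.stabilizer (Iner A) ζ

theorem mem_I1 {ζ : Qb} {σ : Iner A} : σ ∈ I1 A ζ ↔ σ • ζ = ζ := Iff.rfl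

/-- the index of `I1` divides `p - 1`. -/
theorem index_I1_dvd (hp : p.Prime) {ζ : Qb} (hζ : IsPrimitiveRoot ζ p) :
    (I1 A ζ).index ∣ p - 1 := by
  have : NeZero p := ⟨hp.ne_zero⟩
  have : Fact (1 < p) := ⟨hp.one_lt⟩
  set f : Iner A →* (ZMod p)ˣ := (hζ.autToPow ℚ).comp (Iner A).subtype with hf
  have hker : f.ker ≤ I1 A ζ := by
    intro σ hσ
    rw [MonoidHom.mem_ker] at hσ
    have hspec := hζ.autToPow_spec ℚ (σ : GQ)
    have h1 : hζ.autToPow ℚ (σ : GQ) = 1 := hσ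
    rw [h1, Units.val_one, ZMod.val_one, pow_one] at hspec
    exact hspec.symm
  have h1 : (I1 A ζ).index ∣ f.ker.index := Subgroup.index_dvd_of_le hker
  have h2 : f.ker.index ∣ p - 1 := by
    rw [Subgroup.index_ker]
    have h3 : Nat.card (ZMod p)ˣ = p - 1 := by
      rw [Nat.card_eq_fintype_card, ZMod.card_units_eq_totient, Nat.totient_prime hp]
    rw [← h3]
    exact Subgroup.card_subgroup_dvd_card f.range
  exact h1.trans h2

/-- **(h4)** elements fixed by `I1` have valuation in `(v (ζ - 1))^ℤ`. -/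
theorem val_of_fixed_I1 (hp : p.Prime) (hA : A.LiesOverPrime p) {ζ : Qb}
    (hζ : IsPrimitiveRoot ζ p) {x : Qb} (hx0 : x ≠ 0) (hx : ∀ σ ∈ I1 A ζ, σ • x = x) :
    ∃ n : ℤ, A.valuation x = A.valuation (ζ - 1) ^ n := by
  obtain ⟨m, hm⟩ := val_pow_index_of_fixed hp hA hx0 hx
  obtain ⟨c, hc⟩ := index_I1_dvd (A := A) hp hζ
  refine ⟨m * c, ?_⟩
  have hp1 : p - 1 ≠ 0 := (Nat.sub_pos_of_lt hp.one_lt).ne'
  have hlam0 : A.valuation (ζ - 1) ≠ 0 :=
    (Valuation.ne_zero_iff _).mpr (zeta_sub_one_ne_zero hp hζ)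
  have h1 : A.valuation x ^ (p - 1) = (A.valuation (ζ - 1) ^ (m * c)) ^ (p - 1) := by
    rw [hc, pow_mul, hm, ← zpow_natCast (A.valuation (ζ - 1) ^ (m * (c : ℤ))), ← zpow_mul,
      ← val_zeta_sub_one_pow hp hζ, ← zpow_natCast (A.valuation (ζ - 1)) (p - 1), ← zpow_mul,
      ← zpow_natCast _ c, ← zpow_mul, hc]
    congr 1
    push_cast
    ring
  exact (pow_left_inj₀ zero_le zero_le hp1).mp h1

end Fermat.Agent.U44.LocInst1B
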