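/-
Programme U44, chapter (HECKE), file 5 (helper4): **the norm formula `π_* div f = div (N f)` under
separability** -- a verbatim copy of `ES/HECKE/NormFormula15` (Program I, helper15) with the
hypothesis `[CharZero F]` (used there only to make `F'/F` separable) replaced by
`[Algebra.IsSeparable F F']`; to be used on the special fibre (characteristic `p`).

* `pushforwardNormFormula`  : `AlgebraicCurve.Divisor.PushforwardNormFormula K F F'`;
* `normFormulaAlong`        : the same along a `K`-algebra map `φ : F → F'`;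
* `ord_norm`, `fiberEquiv`, `IC`.
-/
import Mathlib
import Fermat.Prelude.Def_AlgebraicCurve_Correspondence
import Fermat.Agent.X0.FFDedekind
import Fermat.Agent.X0.FFSum

set_option autoImplicit false
set_option linter.unusedSectionVars false
set_option linter.style.haveILetI false

open AlgebraicCurve IsDedekindDomain IsLocalRing

noncomputable section

namespace Fermat.Agent.U44.NormFormulaSep4

open Fermat.Agent.X0 Fermat.Agent.X0.FF

/-! ### residue fields of degree one -/

section DegOne

variable {K F : Type*} [Field K] [Field F] [Algebra K F]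

/-- A place of degree one has residue field `K`: every element of `O_v` is congruent to a
constant. -/
theorem exists_const_of_deg_eq_one (v : Place K F) (hv : v.deg = 1) {f : F}
    (hf : f ∈ v.toValuationSubring) :
    ∃ c : K, f = algebraMap K F c ∨ 0 < v.ord (f - algebraMap K F c) := by
  have h1 : Module.finrank K v.ResidueField = 1 := hv
  have hone : (1 : v.ResidueField) ≠ 0 := one_ne_zero
  obtain ⟨c, hc⟩ := (finrank_eq_one_iff_of_nonzero' (1 : v.ResidueField) hone).mp h1
    (IsLocalRing.residue _ (⟨f, hf⟩ : v.toValuationSubring))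
  refine ⟨c, ?_⟩
  by_cases hfc : f = algebraMap K F c
  · exact Or.inl hfc
  · right
    have hsub : f - algebraMap K F c ≠ 0 := sub_ne_zero.mpr hfc
    have hmem : (⟨f, hf⟩ : v.toValuationSubring) - algebraMap K v.toValuationSubring c ∈
        IsLocalRing.maximalIdeal v.toValuationSubring := by
      rw [← IsLocalRing.residue_eq_zero_iff, map_sub, ← hc, Algebra.smul_def, mul_one]
      rw [sub_eq_zero]
      rfl
    have h2 := (FF.mem_maximalIdeal_iff v _).mp hmem
    rcases h2 with h2 | h2
    · exfalso
      apply hsub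
      have := congrArg (Subtype.val : v.toValuationSubring → F) h2
      simpa using this
    · simpa using h2

end DegOne

/-! ### the integral closure of `O_v` in `F'` -/

section Setup

variable {K F : Type*} (F' : Type*) [Field K] [Field F] [Field F'] [Algebra K F] [Algebra K F']
  [Algebra F F'] [IsScalarTower K F F'] [FiniteDimensional F F'] [Algebra.IsSeparable F F']

/-- `B_v`: the integral closure of `O_v` in `F'`. -/
abbrev IC (v : Place K F) : Subalgebra ↥v.toValuationSubring F' :=
  integralClosure ↥v.toValuationSubring F'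

instance isDedekindDomain_IC (v : Place K F) : IsDedekindDomain ↥(IC F' v) :=
  integralClosure.isDedekindDomain ↥v.toValuationSubring F F'

instance finite_IC (v : Place K F) : Module.Finite ↥v.toValuationSubring ↥(IC F' v) :=
  IsIntegralClosure.finite ↥v.toValuationSubring F F' _

instance isFractionRing_IC (v : Place K F) : IsFractionRing ↥(IC F' v) F' :=
  integralClosure.isFractionRing_of_finite_extension F F'

instance algebraK_IC (v : Place K F) : Algebra K ↥(IC F' v) :=
  ((algebraMap ↥v.toValuationSubring ↥(IC F' v)).comp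
    (algebraMap K ↥v.toValuationSubring)).toAlgebra

instance isScalarTower_K_A_IC (v : Place K F) :
    IsScalarTower K ↥v.toValuationSubring ↥(IC F' v) :=
  IsScalarTower.of_algebraMap_eq fun _ => rfl

theorem coe_algebraMap_A (v : Place K F) (a : ↥v.toValuationSubring) :
    algebraMap ↥v.toValuationSubring F' a = algebraMap F F' (a : F) := rfl

theorem coe_algebraMap_A_IC (v : Place K F) (a : ↥v.toValuationSubring) :
    ((algebraMap ↥v.toValuationSubring ↥(IC F' v) a : ↥(IC F' v)) : F') =
      algebraMap F F' (a : F) := rfl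

instance isScalarTower_K_IC (v : Place K F) : IsScalarTower K ↥(IC F' v) F' :=
  IsScalarTower.of_algebraMap_eq fun c => by
    show algebraMap K F' c = algebraMap F F' (algebraMap K F c)
    rw [← IsScalarTower.algebraMap_apply]

end Setup

/-! ### the dictionary: fibre of `v` ↔ height-one primes of `B_v` -/

section Dict

variable {K F : Type*} (F' : Type*) [Field K] [Field F] [Field F'] [Algebra K F] [Algebra K F']
  [Algebra F F'] [IsScalarTower K F F'] [FiniteDimensional F F'] [Algebra.IsSeparable F F']

variable {F'}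

/-- If `w` restricts to `v`, then `B_v ⊂ O_w`. -/
theorem IC_le_of_restrict_eq {v : Place K F} {w : Place K F'} (hw : w.restrict F = v)
    (b : ↥(IC F' v)) : algebraMap ↥(IC F' v) F' b ∈ w.toValuationSubring := by
  have hA : ∀ a : ↥v.toValuationSubring,
      algebraMap ↥v.toValuationSubring F' a ∈ w.toValuationSubring := by
    intro a
    rw [coe_algebraMap_A]
    have : (a : F) ∈ (w.restrict F).toValuationSubring := by rw [hw]; exact a.2
    exact (w.mem_restrict_iff).mp this
  exact FFDedekind.mem_of_isIntegral_of_algebraMap_mem w hA b.2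

/-- The height-one prime of `B_v` under a place `w` over `v`. -/
def primeOf {v : Place K F} (w : Place K F') (hw : w.restrict F = v) :
    HeightOneSpectrum ↥(IC F' v) :=
  FFDedekind.centreSpec w (IC_le_of_restrict_eq hw)

/-- The place of `F'` attached to a height-one prime of `B_v`. -/
def placeOf {v : Place K F} (P : HeightOneSpectrum ↥(IC F' v)) : Place K F' :=
  Place.ofHeightOneSpectrum (K := K) (F := F') P

theorem placeOf_primeOf {v : Place K F} (w : Place K F') (hw : w.restrict F = v) :
    placeOf (primeOf w hw) = w :=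
  FFDedekind.ofHeightOneSpectrum_centreSpec w (IC_le_of_restrict_eq hw)

theorem algebraMap_mem_placeOf {v : Place K F} (P : HeightOneSpectrum ↥(IC F' v))
    (b : ↥(IC F' v)) : algebraMap ↥(IC F' v) F' b ∈ (placeOf P).toValuationSubring :=
  FFDedekind.algebraMap_mem_ofHeightOneSpectrum P b

theorem restrict_placeOf {v : Place K F} (P : HeightOneSpectrum ↥(IC F' v)) :
    (placeOf P).restrict F = v := by
  symm
  apply Place.ext
  refine ValuationSubring.eq_of_le_of_ne_top _ ?_ ((placeOf P).restrict F).ne_top'
  intro a ha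
  rw [Place.mem_restrict_iff]
  have := algebraMap_mem_placeOf P (algebraMap ↥v.toValuationSubring ↥(IC F' v) ⟨a, ha⟩)
  exact this

theorem primeOf_placeOf {v : Place K F} (P : HeightOneSpectrum ↥(IC F' v)) :
    primeOf (placeOf P) (restrict_placeOf P) = P :=
  FFDedekind.centreSpec_ofHeightOneSpectrum P

theorem placeOf_injective {v : Place K F} :
    Function.Injective (placeOf : HeightOneSpectrum ↥(IC F' v) → Place K F') :=
  FFDedekind.ofHeightOneSpectrum_injective

/-- The fibre of `v` is the set of places attached to the height-one primes of `B_v`. -/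
def fiberEquiv (v : Place K F) :
    {w : Place K F' // w.restrict F = v} ≃ HeightOneSpectrum ↥(IC F' v) where
  toFun w := primeOf w.1 w.2
  invFun P := ⟨placeOf P, restrict_placeOf P⟩
  left_inv w := Subtype.ext (placeOf_primeOf w.1 w.2)
  right_inv P := primeOf_placeOf P

end Dict

/-! ### the relative norm of a prime of residue degree one (no perfectness hypothesis) -/

section RelNormGeneral

open Ideal

variable {R S : Type*} [CommRing R] [IsDedekindDomain R] [CommRing S] [IsDedekindDomain S]
  [Algebra R S] [Module.Finite R S] [Module.IsTorsionFree R S]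

/-- **`N(P) = p` when all primes over `p` have residue degree one** -- by counting:
`N(P_i) = p^{s_i}`, `s_i ≥ 1`, `∑ s_i e_i = n = ∑ e_i`.  (Mathlib's
`Ideal.relNorm_eq_pow_of_isMaximal` assumes a perfect fraction field.) -/
theorem relNorm_eq_of_inertiaDeg_eq_one (p : Ideal R) [p.IsMaximal] (hp : p ≠ ⊥)
    (hf : ∀ Q : Ideal S, Q.IsPrime → Q.LiesOver p → Q.inertiaDeg R = 1)
    (P : Ideal S) [hP : P.IsPrime] [hPp : P.LiesOver p] : relNorm R P = p := by
  classical
  haveI : Module.Flat R S := inferInstance
  haveI : Fintype (p.primesOver S) := Fintype.ofFinite _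
  have hs : ∀ Q : p.primesOver S, ∃ s : ℕ, 1 ≤ s ∧ relNorm R Q.1 = p ^ s := by
    intro Q
    haveI : Q.1.IsPrime := Q.2.1
    haveI : Q.1.LiesOver p := Q.2.2
    obtain ⟨s, hs⟩ := exists_relNorm_eq_pow_of_isPrime Q.1 p
    refine ⟨s, ?_, hs⟩
    by_contra h0
    have h0' : s = 0 := by omega
    rw [h0', pow_zero] at hs
    have h1 := relNorm_le_comap R Q.1
    rw [hs, ← Ideal.under_def, ← Ideal.over_def Q.1 p, Ideal.one_eq_top] at h1
    exact (IsMaximal.ne_top inferInstance) (top_le_iff.1 h1)
  choose s hs1 hs using hs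
  have hsum := Ideal.sum_ramification_inertia_eq_finrank p S
  have hprod := Ideal.map_algebraMap_eq_finsetProd_pow (R := S) (S := R) (p := p) hp
  have hrel := relNorm_algebraMap S p
  rw [hprod, map_prod, ← Finset.prod_set_coe] at hrel
  have h1 : ∏ q : p.primesOver S, relNorm R (q.1 ^ q.1.ramificationIdx R) =
      p ^ ∑ q : p.primesOver S, s q * q.1.ramificationIdx R := by
    rw [← Finset.prod_pow_eq_pow_sum]
    refine Finset.prod_congr rfl fun q _ => ?_
    rw [map_pow, hs q, ← pow_mul]
  have hrel' : p ^ ∑ q : p.primesOver S, s q * q.1.ramificationIdx R = p ^ Module.finrank R S :=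
    h1.symm.trans (by convert hrel)
  have hpu : p ≠ 1 := by
    rw [Ideal.one_eq_top]
    exact IsMaximal.ne_top inferInstance
  have h2 : ∑ q : p.primesOver S, s q * q.1.ramificationIdx R = Module.finrank R S :=
    ((IsLeftCancelMulZero.mul_left_cancel_of_ne_zero hp).pow_injective hpu) hrel'
  have h3 : ∑ q : p.primesOver S, q.1.ramificationIdx R = Module.finrank R S := by
    rw [← hsum]
    refine Finset.sum_congr rfl fun q _ => ?_
    rw [hf q.1 q.2.1 q.2.2, mul_one]
  have he : ∀ q : p.primesOver S, 1 ≤ q.1.ramificationIdx R := by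
    intro q
    haveI : q.1.IsPrime := q.2.1
    haveI : q.1.LiesOver p := q.2.2
    exact Ideal.ramificationIdx_pos (R := R) (q := q.1)
  have hP1 : s ⟨P, hP, hPp⟩ = 1 := by
    by_contra hne
    have h2' : 2 ≤ s ⟨P, hP, hPp⟩ := by have := hs1 ⟨P, hP, hPp⟩; omega
    have hlt : ∑ q : p.primesOver S, q.1.ramificationIdx R <
        ∑ q : p.primesOver S, s q * q.1.ramificationIdx R := by
      refine Finset.sum_lt_sum (fun q _ => ?_) ⟨⟨P, hP, hPp⟩, Finset.mem_univ _, ?_⟩
      · have := hs1 q; nlinarith
      · have := he ⟨P, hP, hPp⟩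
        show P.ramificationIdx R < s ⟨P, hP, hPp⟩ * P.ramificationIdx R
        nlinarith
    omega
  have := hs ⟨P, hP, hPp⟩
  rw [hP1, pow_one] at this
  exact this

end RelNormGeneral

/-! ### the relative norm of ideals of `B_v` -/

section Norm

variable {K F F' : Type*} [Field K] [Field F] [Field F'] [Algebra K F] [Algebra K F']
  [Algebra F F'] [IsScalarTower K F F'] [FiniteDimensional F F'] [Algebra.IsSeparable F F']

instance faithfulSMul_IC (v : Place K F) :
    FaithfulSMul ↥v.toValuationSubring ↥(IC F' v) := by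
  rw [faithfulSMul_iff_algebraMap_injective]
  intro a b hab
  have h := congrArg (fun x : ↥(IC F' v) => (x : F')) hab
  simp only [coe_algebraMap_A_IC] at h
  exact Subtype.ext ((algebraMap F F').injective h)

instance liesOver_IC (v : Place K F) (P : HeightOneSpectrum ↥(IC F' v)) :
    P.asIdeal.LiesOver (maximalIdeal ↥v.toValuationSubring) := by
  constructor
  have : P.asIdeal.IsMaximal := P.isMaximal
  have h : (P.asIdeal.under ↥v.toValuationSubring).IsMaximal := inferInstance
  exact (IsLocalRing.eq_maximalIdeal h).symm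

/-- `B_v` is semilocal: it has finitely many height-one primes. -/
instance finite_heightOneSpectrum_IC (v : Place K F) :
    Finite (HeightOneSpectrum ↥(IC F' v)) := by
  obtain ⟨π, hπ⟩ := IsDiscreteValuationRing.exists_irreducible ↥v.toValuationSubring
  have hπB : algebraMap ↥v.toValuationSubring ↥(IC F' v) π ≠ 0 := by
    rw [Ne, FaithfulSMul.algebraMap_eq_zero_iff]
    exact hπ.ne_zero
  have hI : (Ideal.span {algebraMap ↥v.toValuationSubring ↥(IC F' v) π} :
      Ideal ↥(IC F' v)) ≠ 0 := by
    rw [Ne, Ideal.zero_eq_bot, Ideal.span_singleton_eq_bot]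
    exact hπB
  refine Set.finite_univ_iff.mp ((Ideal.finite_factors hI).subset fun P _ => ?_)
  show P.asIdeal ∣ Ideal.span {algebraMap ↥v.toValuationSubring ↥(IC F' v) π}
  rw [Ideal.dvd_span_singleton]
  have hmem : π ∈ P.asIdeal.under ↥v.toValuationSubring := by
    rw [← Ideal.over_def P.asIdeal (maximalIdeal ↥v.toValuationSubring)]
    exact (IsDiscreteValuationRing.irreducible_iff_uniformizer _).mp hπ ▸
      Ideal.mem_span_singleton_self π
  exact hmem

theorem inertiaDeg_IC (hdeg' : ∀ w : Place K F', w.deg = 1) (v : Place K F)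
    (P : HeightOneSpectrum ↥(IC F' v)) :
    P.asIdeal.inertiaDeg ↥v.toValuationSubring = 1 := by
  have : P.asIdeal.IsMaximal := P.isMaximal
  refine inertiaDeg_eq_one_of_forall (maximalIdeal ↥v.toValuationSubring) P.asIdeal ?_
  intro b
  obtain ⟨c, hc⟩ := exists_const_of_deg_eq_one (placeOf P) (hdeg' _) (algebraMap_mem_placeOf P b)
  refine ⟨algebraMap K ↥v.toValuationSubring c, ?_⟩
  rw [mem_asIdeal_iff_ord_pos (K := K) (F := F')]
  have hF : algebraMap ↥(IC F' v) F'
      (algebraMap ↥v.toValuationSubring ↥(IC F' v) (algebraMap K ↥v.toValuationSubring c) - b) =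
        algebraMap K F' c - algebraMap ↥(IC F' v) F' b := by
    rw [map_sub, ← IsScalarTower.algebraMap_apply K ↥v.toValuationSubring ↥(IC F' v),
      ← IsScalarTower.algebraMap_apply K ↥(IC F' v) F']
  rcases hc with hc | hc
  · left
    apply IsFractionRing.injective ↥(IC F' v) F'
    rw [hF, hc, sub_self, map_zero]
  · right
    rw [hF, ← ord_neg, neg_sub]
    exact hc

theorem relNorm_prime_IC (hdeg' : ∀ w : Place K F', w.deg = 1) (v : Place K F)
    (P : HeightOneSpectrum ↥(IC F' v)) :
    Ideal.relNorm ↥v.toValuationSubring P.asIdeal = maximalIdeal ↥v.toValuationSubring := by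
  have : P.asIdeal.IsMaximal := P.isMaximal
  have hne : maximalIdeal ↥v.toValuationSubring ≠ ⊥ :=
    IsDiscreteValuationRing.not_a_field ↥v.toValuationSubring
  refine relNorm_eq_of_inertiaDeg_eq_one (maximalIdeal ↥v.toValuationSubring) hne
    (fun Q hQ hQp => ?_) P.asIdeal
  have hQ0 : Q ≠ ⊥ := Ideal.ne_bot_of_mem_primesOver hne ⟨hQ, hQp⟩
  exact inertiaDeg_IC hdeg' v ⟨Q, hQ, hQ0⟩

theorem relNorm_IC (hdeg' : ∀ w : Place K F', w.deg = 1) (v : Place K F)
    {I : Ideal ↥(IC F' v)} (hI : I ≠ 0) :
    Ideal.relNorm ↥v.toValuationSubring I = maximalIdeal ↥v.toValuationSubring ^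
      ∑ᶠ P : HeightOneSpectrum ↥(IC F' v),
        (Associates.mk P.asIdeal).count (Associates.mk I).factors := by
  classical
  let _ := Fintype.ofFinite (HeightOneSpectrum ↥(IC F' v))
  conv_lhs => rw [← Ideal.finprod_heightOneSpectrum_factorization hI]
  rw [finprod_eq_prod_of_fintype, map_prod, finsum_eq_sum_of_fintype,
    ← Finset.prod_pow_eq_pow_sum]
  refine Finset.prod_congr rfl fun P _ => ?_
  rw [HeightOneSpectrum.maxPowDividing, map_pow, relNorm_prime_IC hdeg' v P]

/-- `ord_v` of an element generating `𝔪 ^ n`. -/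
theorem ord_eq_of_span_eq_pow (v : Place K F) {a : ↥v.toValuationSubring} {n : ℕ}
    (h : Ideal.span {a} = maximalIdeal ↥v.toValuationSubring ^ n) : v.ord (a : F) = n := by
  obtain ⟨π, hπ⟩ := IsDiscreteValuationRing.exists_irreducible ↥v.toValuationSubring
  rw [(IsDiscreteValuationRing.irreducible_iff_uniformizer _).mp hπ, Ideal.span_singleton_pow,
    Ideal.span_singleton_eq_span_singleton] at h
  obtain ⟨u, hu⟩ := h.symm
  have h1 : (a : F) = ((π : F) ^ n) * ((u : ↥v.toValuationSubring) : F) := by
    rw [← hu]; push_cast; rfl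
  have hπ0 : (π : F) ≠ 0 := by
    simpa [ne_eq, ZeroMemClass.coe_eq_zero] using hπ.ne_zero
  have hu0 : ((u : ↥v.toValuationSubring) : F) ≠ 0 := by
    simp [ne_eq, ZeroMemClass.coe_eq_zero]
  rw [h1, v.ord_mul (pow_ne_zero _ hπ0) hu0, FF.ord_pow, v.ord_coe_irreducible hπ,
    v.ord_coe_unit, mul_one, add_zero]

theorem ord_norm_IC (hdeg' : ∀ w : Place K F', w.deg = 1) (v : Place K F)
    {b : ↥(IC F' v)} (hb : b ≠ 0) :
    v.ord (Algebra.norm F (algebraMap ↥(IC F' v) F' b)) =
      ∑ᶠ P : HeightOneSpectrum ↥(IC F' v), (placeOf P).ord (algebraMap ↥(IC F' v) F' b) := by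
  classical
  let _ := Fintype.ofFinite (HeightOneSpectrum ↥(IC F' v))
  have hI : (Ideal.span {b} : Ideal ↥(IC F' v)) ≠ 0 := by
    rw [Ne, Ideal.zero_eq_bot, Ideal.span_singleton_eq_bot]
    exact hb
  have h1 := relNorm_IC hdeg' v hI
  rw [Ideal.relNorm_singleton] at h1
  have h2 := ord_eq_of_span_eq_pow v h1
  have h3 : algebraMap ↥v.toValuationSubring F
      (Algebra.intNorm ↥v.toValuationSubring ↥(IC F' v) b) =
        Algebra.norm F (algebraMap ↥(IC F' v) F' b) :=
    Algebra.algebraMap_intNorm (A := ↥v.toValuationSubring) (K := F) (L := F')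
      (B := ↥(IC F' v)) b
  rw [← h3]
  show v.ord ((Algebra.intNorm ↥v.toValuationSubring ↥(IC F' v) b : ↥v.toValuationSubring) : F) = _
  rw [h2, finsum_eq_sum_of_fintype, finsum_eq_sum_of_fintype, Nat.cast_sum]
  refine Finset.sum_congr rfl fun P _ => ?_
  exact (FFDedekind.ord_ofHeightOneSpectrum_algebraMap (K := K) (F := F') P hb).symm

theorem ord_norm (hdeg' : ∀ w : Place K F', w.deg = 1) (v : Place K F)
    {f : F'} (hf : f ≠ 0) :
    v.ord (Algebra.norm F f) =
      ∑ᶠ P : HeightOneSpectrum ↥(IC F' v), (placeOf P).ord f := by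
  classical
  let _ := Fintype.ofFinite (HeightOneSpectrum ↥(IC F' v))
  obtain ⟨b1, b2, hb2, rfl⟩ := IsFractionRing.div_surjective (A := ↥(IC F' v)) f
  have hb2' : b2 ≠ 0 := nonZeroDivisors.ne_zero hb2
  have hb1' : b1 ≠ 0 := by
    rintro rfl
    simp at hf
  have hinj := IsFractionRing.injective ↥(IC F' v) F'
  have h1 : algebraMap ↥(IC F' v) F' b1 ≠ 0 := (map_ne_zero_iff _ hinj).mpr hb1'
  have h2 : algebraMap ↥(IC F' v) F' b2 ≠ 0 := (map_ne_zero_iff _ hinj).mpr hb2'
  have hn1 : Algebra.norm F (algebraMap ↥(IC F' v) F' b1) ≠ 0 := Algebra.norm_ne_zero_iff.mpr h1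
  have hn2 : Algebra.norm F (algebraMap ↥(IC F' v) F' b2) ≠ 0 := Algebra.norm_ne_zero_iff.mpr h2
  have hninv : Algebra.norm F (algebraMap ↥(IC F' v) F' b2)⁻¹ =
      (Algebra.norm F (algebraMap ↥(IC F' v) F' b2))⁻¹ := by
    apply eq_inv_of_mul_eq_one_left
    rw [← map_mul, inv_mul_cancel₀ h2, map_one]
  rw [div_eq_mul_inv, map_mul, hninv, v.ord_mul hn1 (inv_ne_zero hn2), v.ord_inv,
    ord_norm_IC hdeg' v hb1', ord_norm_IC hdeg' v hb2', finsum_eq_sum_of_fintype,
    finsum_eq_sum_of_fintype, finsum_eq_sum_of_fintype, ← sub_eq_add_neg,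
    ← Finset.sum_sub_distrib]
  refine Finset.sum_congr rfl fun P _ => ?_
  rw [(placeOf P).ord_mul h1 (inv_ne_zero h2), (placeOf P).ord_inv, sub_eq_add_neg]

theorem inertiaDeg_eq_one (hdeg' : ∀ w : Place K F', w.deg = 1) (w : Place K F') :
    w.inertiaDeg F = 1 := by
  have h := w.deg_restrict_mul_inertiaDeg (F := F)
  rw [hdeg' w] at h
  exact Nat.eq_one_of_mul_eq_one_left h

theorem pushforwardNormFormula (hdeg' : ∀ w : Place K F', w.deg = 1) :
    Divisor.PushforwardNormFormula K F F' := by
  classical
  intro f hf D hD v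
  let _ := Fintype.ofFinite (HeightOneSpectrum ↥(IC F' v))
  rw [Divisor.pushforward_apply, ord_norm hdeg' v hf, finsum_eq_sum_of_fintype,
    ← Finset.sum_filter,
    ← Finset.sum_image (s := Finset.univ) (g := placeOf) (f := fun w : Place K F' => w.ord f)
      (fun P _ Q _ h => placeOf_injective h)]
  have hsum : ∑ w ∈ D.support with w.restrict F = v, D w * (w.inertiaDeg F : ℤ) =
      ∑ w ∈ D.support with w.restrict F = v, w.ord f := by
    refine Finset.sum_congr rfl fun w _ => ?_
    rw [inertiaDeg_eq_one hdeg' w, hD w, Nat.cast_one, mul_one]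
  rw [hsum]
  refine Finset.sum_subset ?_ ?_
  · intro w hw
    rw [Finset.mem_filter] at hw
    rw [Finset.mem_image]
    exact ⟨primeOf w hw.2, Finset.mem_univ _, placeOf_primeOf w hw.2⟩
  · intro w hw hnot
    rw [Finset.mem_image] at hw
    obtain ⟨P, -, rfl⟩ := hw
    rw [Finset.mem_filter, not_and_or] at hnot
    rcases hnot with hnot | hnot
    · rw [Finsupp.mem_support_iff, not_not] at hnot
      rw [← hD, hnot]
    · exact absurd (restrict_placeOf P) hnot

end Norm

/-! ### corollaries: the `Along` form, and the algebraically closed case -/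

section Along

variable {K F F' : Type*} [Field K] [Field F] [Field F'] [Algebra K F] [Algebra K F']

/-- The norm formula along a `K`-algebra map `φ : F → F'` making `F'` finite separable over
`F`. -/
theorem normFormulaAlong (φ : F →ₐ[K] F') (hfin : FiniteAlong K φ)
    (hsep : letI := algebraAlong φ; Algebra.IsSeparable F F')
    (hdeg' : ∀ w : Place K F', w.deg = 1) : NormFormulaAlong K φ hfin := by
  letI := algebraAlong φ
  haveI := isScalarTower_along φ
  haveI : Module.Finite F F' := hfin
  haveI : Algebra.IsSeparable F F' := hsep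
  exact pushforwardNormFormula hdeg'

end Along

end Fermat.Agent.U44.NormFormulaSep4
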