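/-
Programme U44 (stage 0), chapter (HECKE), file 1 (helper4): **(N-RED) the norm commutes with
reduction when the residue degree equals the degree.**  Mathlib only.

`F'/F` a finite extension of fields, `O` a valuation subring of `F` with a reduction
`ρ : O →+* k` whose kernel contains all non-units, `O' ⊆ F'` a subring over `O` with a SURJECTIVE
reduction `ρ' : O' →+* k'` compatible with `ρ`, `k'/k` finite with `[k' : k] = [F' : F]`
("`e = 1`, `f = n`, no defect": the Gauss valuations of the modular curves along the degeneracy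
maps).  Then

* `Over.exists_basis` : `O'` is free over `O` on lifts `b i` of a `k`-basis `b̄ i` of `k'`
  (`b` is an `F`-basis of `F'`, and the `b`-coordinates of the elements of `O'` lie in `O`);
* `Over.mem_of_map_mem` : `O' ∩ F = O`;
* `Over.norm_mem`, `Over.ρ_norm` : `N_{F'/F}(O') ⊆ O` and `ρ (N_{F'/F} y) = N_{k'/k} (ρ' y)`;
* `Over.trace_mem`, `Over.ρ_trace` : the same for the trace.

Use in (H1)/(H3): `ρ_j (c^{ℓ+1} N_α (β f)) = N̄ (ρ'_j (c β f))` for the two Gauss rings of
`X₀(M'p)` inside those of `X₀(M'ℓp)`; in (LIFT)/Om-B: `N̄_ᾱ (β̄ ḡ) = ρ₀ (N_α (β G))` at the good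
levels.
-/
import Mathlib

set_option autoImplicit false

noncomputable section

namespace Fermat.Agent.U44.NormRed4

open Module

variable {F F' k k' : Type*} [Field F] [Field F'] [Field k] [Field k']
  [Algebra F F'] [Algebra k k']

/-- **the hypotheses of (N-RED).** -/
structure Over (O : ValuationSubring F) (O' : Subring F') (ρ : ↥O →+* k) (ρ' : ↥O' →+* k') :
    Prop where
  /-- non-units of `O` reduce to `0`. -/
  ker : ∀ x : ↥O, (x : F)⁻¹ ∉ O → ρ x = 0
  /-- `O ⊆ O'`. -/
  le : ∀ x : ↥O, algebraMap F F' (x : F) ∈ O'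
  /-- the reductions are compatible. -/
  comm : ∀ x : ↥O, ρ' ⟨algebraMap F F' (x : F), le x⟩ = algebraMap k k' (ρ x)
  /-- the upper reduction is onto. -/
  surj : Function.Surjective ρ'
  /-- residue degree = degree. -/
  deg : finrank k k' = finrank F F'

namespace Over

variable {O : ValuationSubring F} {O' : Subring F'} {ρ : ↥O →+* k} {ρ' : ↥O' →+* k'}

/-- the inclusion `O → O'`. -/
def incl (h : Over O O' ρ ρ') : ↥O →+* ↥O' where
  toFun x := ⟨algebraMap F F' (x : F), h.le x⟩
  map_one' := Subtype.ext (by simp)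
  map_mul' a b := Subtype.ext (by simp)
  map_zero' := Subtype.ext (by simp)
  map_add' a b := Subtype.ext (by simp)

@[simp] theorem coe_incl (h : Over O O' ρ ρ') (x : ↥O) :
    ((h.incl x : ↥O') : F') = algebraMap F F' (x : F) := rfl

theorem ρ'_incl (h : Over O O' ρ ρ') (x : ↥O) : ρ' (h.incl x) = algebraMap k k' (ρ x) :=
  h.comm x

/-- reduction of an `O`-linear combination. -/
theorem ρ'_sum (h : Over O O' ρ ρ') {ι : Type*} (s : Finset ι) (c : ι → ↥O) (v : ι → ↥O') :
    ρ' (∑ i ∈ s, h.incl (c i) * v i) = ∑ i ∈ s, ρ (c i) • ρ' (v i) := by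
  rw [map_sum]
  refine Finset.sum_congr rfl fun i _ => ?_
  rw [map_mul, h.ρ'_incl, Algebra.smul_def]

theorem coe_sum (h : Over O O' ρ ρ') {ι : Type*} (s : Finset ι) (c : ι → ↥O) (v : ι → ↥O') :
    ((∑ i ∈ s, h.incl (c i) * v i : ↥O') : F') = ∑ i ∈ s, (c i : F) • (v i : F') := by
  show O'.subtype (∑ i ∈ s, h.incl (c i) * v i) = _
  rw [map_sum]
  refine Finset.sum_congr rfl fun i _ => ?_
  rw [map_mul, Algebra.smul_def]
  rfl

/-- **`O' ∩ F = O`.** -/
theorem mem_of_map_mem (h : Over O O' ρ ρ') {a : F} (ha : algebraMap F F' a ∈ O') : a ∈ O := by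
  by_contra hna
  have ha0 : a ≠ 0 := fun h0 => hna (h0 ▸ O.zero_mem)
  have hinv : a⁻¹ ∈ O := (O.mem_or_inv_mem a).resolve_left hna
  have hρ : ρ ⟨a⁻¹, hinv⟩ = 0 := h.ker ⟨a⁻¹, hinv⟩ (by simpa using hna)
  have h1 : h.incl ⟨a⁻¹, hinv⟩ * ⟨algebraMap F F' a, ha⟩ = 1 := by
    apply Subtype.ext
    simp only [Subring.coe_mul, coe_incl, Subring.coe_one]
    rw [← map_mul, inv_mul_cancel₀ ha0, map_one]
  have h2 := congrArg ρ' h1
  rw [map_mul, h.ρ'_incl, hρ, map_zero, zero_mul, map_one] at h2
  exact zero_ne_one h2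

section Scaling

/-- in a valuation ring, a finite family which is not identically zero can be scaled by one of its
members to a family in the ring with one entry equal to `1`. -/
theorem exists_scale {ι : Type*} [Fintype ι] (O : ValuationSubring F) (g : ι → F) (i₀ : ι)
    (hi₀ : g i₀ ≠ 0) :
    ∃ j, g j ≠ 0 ∧ (∀ i, O.valuation (g i) ≤ O.valuation (g j)) ∧ ∀ i, g i / g j ∈ O := by
  obtain ⟨j, -, hj⟩ := Finset.exists_max_image Finset.univ (fun i => O.valuation (g i))
    ⟨i₀, Finset.mem_univ _⟩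
  have hj0 : g j ≠ 0 := by
    intro h0
    have h1 := hj i₀ (Finset.mem_univ _)
    rw [h0, map_zero] at h1
    exact hi₀ ((map_eq_zero O.valuation).1 (le_antisymm h1 zero_le))
  refine ⟨j, hj0, fun i => hj i (Finset.mem_univ _), fun i => ?_⟩
  rw [← ValuationSubring.valuation_le_one_iff, map_div₀]
  exact div_le_one_of_le₀ (hj i (Finset.mem_univ _)) zero_le

end Scaling

/-- **lifts of a residue basis are linearly independent.** -/
theorem linearIndependent_of_lift (h : Over O O' ρ ρ') {ι : Type*} [Fintype ι]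
    (v : ι → ↥O') (hv : LinearIndependent k fun i => ρ' (v i)) :
    LinearIndependent F fun i => ((v i : ↥O') : F') := by
  classical
  rw [Fintype.linearIndependent_iff]
  intro g hg
  by_contra hne
  obtain ⟨i₀, hi₀⟩ := not_forall.1 hne
  obtain ⟨j, hj0, -, hmem⟩ := exists_scale O g i₀ hi₀
  set c : ι → ↥O := fun i => ⟨g i / g j, hmem i⟩ with hc
  have hsum : (∑ i, h.incl (c i) * v i : ↥O') = 0 := by
    apply Subtype.ext
    rw [h.coe_sum]
    have h1 : ∑ i, ((c i : ↥O) : F) • ((v i : ↥O') : F') = (g j)⁻¹ • ∑ i, g i • ((v i : ↥O') : F') := by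
      rw [Finset.smul_sum]
      refine Finset.sum_congr rfl fun i _ => ?_
      rw [smul_smul]
      congr 1
      show g i / g j = (g j)⁻¹ * g i
      rw [div_eq_inv_mul]
    rw [h1, hg, smul_zero]
    rfl
  have h2 := congrArg ρ' hsum
  rw [h.ρ'_sum, map_zero] at h2
  have h3 := (Fintype.linearIndependent_iff.1 hv) (fun i => ρ (c i)) h2 j
  have h4 : c j = 1 := Subtype.ext (by simp [hc, div_self hj0])
  rw [h4, map_one] at h3
  exact one_ne_zero h3

/-- **the coordinates of an element of `O'` in a basis of lifts lie in `O`.** -/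
theorem repr_mem (h : Over O O' ρ ρ') {ι : Type*} [Fintype ι] (b : Basis ι F F')
    (v : ι → ↥O') (hbv : ∀ i, b i = (v i : F')) (hv : LinearIndependent k fun i => ρ' (v i))
    (y : ↥O') (i : ι) : b.repr (y : F') i ∈ O := by
  classical
  by_contra hni
  set g : ι → F := fun i => b.repr (y : F') i with hg
  have hi0 : g i ≠ 0 := fun h0 => hni (by rw [show b.repr (y : F') i = g i from rfl, h0]; exact O.zero_mem)
  obtain ⟨j, hj0, hmax, hmem⟩ := exists_scale O g i hi0
  -- `g j ∉ O`
  have hgj : g j ∉ O := by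
    intro hjO
    apply hni
    rw [← ValuationSubring.valuation_le_one_iff] at hjO ⊢
    exact (hmax i).trans hjO
  have hdinv : (g j)⁻¹ ∈ O := (O.mem_or_inv_mem (g j)).resolve_left hgj
  set d : ↥O := ⟨(g j)⁻¹, hdinv⟩ with hd
  have hρd : ρ d = 0 := h.ker d (by simpa [hd] using hgj)
  set c : ι → ↥O := fun i => ⟨g i / g j, hmem i⟩ with hc
  have hsum : h.incl d * y = ∑ i, h.incl (c i) * v i := by
    apply Subtype.ext
    rw [h.coe_sum, Subring.coe_mul, coe_incl]
    have hy : (y : F') = ∑ i, g i • b i := (b.sum_repr (y : F')).symm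
    rw [← Algebra.smul_def]
    conv_lhs => rw [hy]
    rw [Finset.smul_sum]
    refine Finset.sum_congr rfl fun i _ => ?_
    rw [smul_smul, hbv]
    congr 1
    show (g j)⁻¹ * g i = g i / g j
    rw [div_eq_inv_mul]
  have h2 := congrArg ρ' hsum
  rw [h.ρ'_sum, map_mul, h.ρ'_incl, hρd, map_zero, zero_mul] at h2
  have h3 := (Fintype.linearIndependent_iff.1 hv) (fun i => ρ (c i)) h2.symm j
  have h4 : c j = 1 := Subtype.ext (by simp [hc, div_self hj0])
  rw [h4, map_one] at h3
  exact one_ne_zero h3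

variable [FiniteDimensional F F'] [FiniteDimensional k k']

/-- **(N-RED), basis form**: `O'` is `O`-free on lifts of a residue basis. -/
theorem exists_basis (h : Over O O' ρ ρ') :
    ∃ (b : Basis (Fin (finrank k k')) F F') (bbar : Basis (Fin (finrank k k')) k k')
      (v : Fin (finrank k k') → ↥O'),
      (∀ i, b i = (v i : F')) ∧ (∀ i, ρ' (v i) = bbar i) ∧
        ∀ (y : ↥O') (i : Fin (finrank k k')), b.repr (y : F') i ∈ O := by
  classical
  set bbar : Basis (Fin (finrank k k')) k k' := Module.finBasis k k' with hbbar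
  choose v hv using fun i => h.surj (bbar i)
  have hlin : LinearIndependent k fun i => ρ' (v i) := by
    simp_rw [hv]
    exact bbar.linearIndependent
  have hlinF := h.linearIndependent_of_lift v hlin
  have hcard : Fintype.card (Fin (finrank k k')) = finrank F F' := by
    rw [Fintype.card_fin, h.deg]
  have : Nonempty (Fin (finrank k k')) := ⟨⟨0, by rw [h.deg]; exact finrank_pos⟩⟩
  set b : Basis (Fin (finrank k k')) F F' :=
    basisOfLinearIndependentOfCardEqFinrank hlinF hcard with hb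
  have hbv : ∀ i, b i = (v i : F') := fun i => by
    rw [hb, coe_basisOfLinearIndependentOfCardEqFinrank]
  exact ⟨b, bbar, v, hbv, hv, fun y i => h.repr_mem b v hbv hlin y i⟩

omit [FiniteDimensional F F'] [FiniteDimensional k k'] in
/-- the matrix of multiplication by `y ∈ O'` has entries in `O`, and reduces to the matrix of
multiplication by `ρ' y`. -/
theorem leftMulMatrix_red (h : Over O O' ρ ρ') {n : ℕ} (b : Basis (Fin n) F F')
    (bbar : Basis (Fin n) k k') (v : Fin n → ↥O') (hbv : ∀ i, b i = (v i : F'))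
    (hv : ∀ i, ρ' (v i) = bbar i) (hrepr : ∀ (y : ↥O') (i : Fin n), b.repr (y : F') i ∈ O)
    (y : ↥O') :
    ∃ M₀ : Matrix (Fin n) (Fin n) ↥O,
      Algebra.leftMulMatrix b (y : F') = M₀.map O.subtype ∧
        Algebra.leftMulMatrix bbar (ρ' y) = M₀.map ρ := by
  classical
  set M₀ : Matrix (Fin n) (Fin n) ↥O :=
    fun i j => ⟨b.repr ((y * v j : ↥O') : F') i, hrepr (y * v j) i⟩ with hM₀
  refine ⟨M₀, ?_, ?_⟩
  · ext i j
    rw [Algebra.leftMulMatrix_eq_repr_mul, Matrix.map_apply, hbv]
    rfl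
  · ext i j
    rw [Algebra.leftMulMatrix_eq_repr_mul, Matrix.map_apply]
    have hprod : y * v j = ∑ i, h.incl (M₀ i j) * v i := by
      apply Subtype.ext
      rw [h.coe_sum]
      have h1 := (b.sum_repr ((y * v j : ↥O') : F')).symm
      rw [h1]
      refine Finset.sum_congr rfl fun i _ => ?_
      rw [hbv]
    have h2 := congrArg ρ' hprod
    rw [h.ρ'_sum, map_mul, hv] at h2
    rw [h2]
    simp_rw [hv]
    rw [bbar.repr_sum_self]

/-- **(N-RED): the norm of an element of `O'` lies in `O` and reduces to the norm of the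
reduction.** -/
theorem norm_red (h : Over O O' ρ ρ') (y : ↥O') :
    ∃ hN : Algebra.norm F (y : F') ∈ O,
      ρ ⟨Algebra.norm F (y : F'), hN⟩ = Algebra.norm k (ρ' y) := by
  classical
  obtain ⟨b, bbar, v, hbv, hv, hrepr⟩ := h.exists_basis
  obtain ⟨M₀, hM, hMbar⟩ := h.leftMulMatrix_red b bbar v hbv hv hrepr y
  have h1 : Algebra.norm F (y : F') = O.subtype M₀.det := by
    rw [Algebra.norm_eq_matrix_det b, hM, RingHom.map_det, RingHom.mapMatrix_apply]
  have hN : Algebra.norm F (y : F') ∈ O := by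
    rw [h1]
    exact (M₀.det).2
  refine ⟨hN, ?_⟩
  have h2 : (⟨Algebra.norm F (y : F'), hN⟩ : ↥O) = M₀.det := Subtype.ext h1
  rw [h2, Algebra.norm_eq_matrix_det bbar, hMbar, RingHom.map_det, RingHom.mapMatrix_apply]

theorem norm_mem (h : Over O O' ρ ρ') (y : ↥O') : Algebra.norm F (y : F') ∈ O :=
  (h.norm_red y).1

theorem ρ_norm (h : Over O O' ρ ρ') (y : ↥O') :
    ρ ⟨Algebra.norm F (y : F'), h.norm_mem y⟩ = Algebra.norm k (ρ' y) :=
  (h.norm_red y).2

/-- the same for the trace. -/
theorem trace_red (h : Over O O' ρ ρ') (y : ↥O') :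
    ∃ hT : Algebra.trace F F' (y : F') ∈ O,
      ρ ⟨Algebra.trace F F' (y : F'), hT⟩ = Algebra.trace k k' (ρ' y) := by
  classical
  obtain ⟨b, bbar, v, hbv, hv, hrepr⟩ := h.exists_basis
  obtain ⟨M₀, hM, hMbar⟩ := h.leftMulMatrix_red b bbar v hbv hv hrepr y
  have h1 : Algebra.trace F F' (y : F') = O.subtype M₀.trace := by
    rw [Algebra.trace_eq_matrix_trace b, hM, Matrix.trace, Matrix.trace, map_sum]
    rfl
  have hT : Algebra.trace F F' (y : F') ∈ O := by
    rw [h1]
    exact (M₀.trace).2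
  refine ⟨hT, ?_⟩
  have h2 : (⟨Algebra.trace F F' (y : F'), hT⟩ : ↥O) = M₀.trace := Subtype.ext h1
  rw [h2, Algebra.trace_eq_matrix_trace bbar, hMbar, Matrix.trace, Matrix.trace, map_sum]
  rfl

/-- a unit of `O'` (nonzero reduction) has a norm which is a unit of `O` (nonzero reduction). -/
theorem ρ_norm_ne_zero (h : Over O O' ρ ρ') (y : ↥O') (hy : ρ' y ≠ 0) :
    ρ ⟨Algebra.norm F (y : F'), h.norm_mem y⟩ ≠ 0 := by
  rw [h.ρ_norm]
  exact fun h0 => hy (Algebra.norm_eq_zero_iff.1 h0)

end Over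

/-- homogeneity of the norm: `N (c • y) = c ^ [F' : F] * N y`. -/
theorem norm_smul_eq [FiniteDimensional F F'] (c : F) (y : F') :
    Algebra.norm F (c • y) = c ^ finrank F F' * Algebra.norm F y := by
  rw [Algebra.smul_def, map_mul, Algebra.norm_algebraMap]

end Fermat.Agent.U44.NormRed4
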