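/-
Programme U44 (stage 0), chapter (HECKE), file 2 (helper4): **(N-RED) for the Gauss rings of
programme T** (`T33/NodalCtx1.HalfRed`).

`H : HalfRed A F Fb` (Gauss ring `H.O ⊆ F`, reduction `H.ρ : H.O →+* Fb`, constants `A ⊆ H.O`,
`ker ρ = 𝔪_A O`, every `f ≠ 0` is a constant times a Gauss unit).

* `inv_mem` : a Gauss unit (`ρ y ≠ 0`) is a unit of `H.O`;
* `const_mem` : `K ∩ H.O = A`;
* `mem_or_inv_mem`, `valSub H : ValuationSubring F`, `ρv H : valSub H →+* Fb`, `ρv_eq_zero_of_inv_not_mem`;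
* `over_of` : the hypotheses `NormRed4.Over` from `H.O ⊆ H'.O`, compatibility of the reductions,
  surjectivity of `H'.ρ` and equality of degrees;
* `norm_red` : **`N_{F'/F}` maps `H'.O` into `H.O` and `H.ρ (N y) = N_{Fb'/Fb} (H'.ρ y)`**;
* `normalise_norm` : if `c • f` is a Gauss unit of `H'` with reduction `u`, then `c ^ n • N f`
  (`n = [F' : F]`) is a Gauss unit of `H` with reduction `N u`.
-/
import Mathlib
import Fermat.Agent.U44.NormRed4
import Fermat.Agent.T33.NodalCtx1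

set_option autoImplicit false
set_option linter.unusedSectionVars false

noncomputable section

namespace Fermat.Agent.U44.HalfRedOver4

open IsLocalRing Module Fermat.Agent.T33.NodalCtx1 Fermat.Agent.U44.NormRed4

variable {K : Type*} [Field K] {A : ValuationSubring K} {F : Type*} [Field F] [Algebra K F]
  {Fb : Type*} [Field Fb] [Algebra (ResidueField A) Fb]

/-! ### units of a Gauss ring -/

/-- a constant of `𝔪_A` reduces to `0`. -/
theorem ρ_const_eq_zero (H : HalfRed A F Fb) {a : K} (ha : a ∈ A) (hinv : a⁻¹ ∉ A) :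
    H.ρ ⟨algebraMap K F a, H.algebraMap_mem ⟨a, ha⟩⟩ = 0 := by
  rw [H.ρ_algebraMap ⟨a, ha⟩]
  have h1 : residue A ⟨a, ha⟩ = 0 := by
    rw [IsLocalRing.residue_eq_zero_iff, IsLocalRing.mem_maximalIdeal, mem_nonunits_iff]
    intro hu
    apply hinv
    obtain ⟨u, hu⟩ := hu
    have h3 : (u : A) * ((u⁻¹ : Aˣ) : A) = 1 := Units.mul_inv u
    have h4 : a * (((u⁻¹ : Aˣ) : A) : K) = 1 := by
      have := congrArg (Subtype.val) h3
      rw [hu] at this
      simpa using this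
    have h5 : (((u⁻¹ : Aˣ) : A) : K) = a⁻¹ := (eq_inv_of_mul_eq_one_right h4)
    rw [← h5]
    exact SetLike.coe_mem _
  rw [h1, map_zero]

/-- **`K ∩ O = A`.** -/
theorem const_mem (H : HalfRed A F Fb) {a : K} (ha : algebraMap K F a ∈ H.O) : a ∈ A := by
  by_contra hna
  have ha0 : a ≠ 0 := fun h0 => hna (h0 ▸ A.zero_mem)
  have hinv : a⁻¹ ∈ A := (A.mem_or_inv_mem a).resolve_left hna
  have hρ := ρ_const_eq_zero H hinv (by simpa using hna)
  have h1 : (⟨algebraMap K F a⁻¹, H.algebraMap_mem ⟨a⁻¹, hinv⟩⟩ : H.O) * ⟨algebraMap K F a, ha⟩ = 1 := by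
    apply Subtype.ext
    show algebraMap K F a⁻¹ * algebraMap K F a = 1
    rw [← map_mul, inv_mul_cancel₀ ha0, map_one]
  have h2 := congrArg H.ρ h1
  rw [map_mul, hρ, zero_mul, map_one] at h2
  exact zero_ne_one h2

/-- **a Gauss unit is a unit of the Gauss ring.** -/
theorem inv_mem (H : HalfRed A F Fb) (y : H.O) (hy : H.ρ y ≠ 0) : ((y : F))⁻¹ ∈ H.O := by
  have hy0 : (y : F) ≠ 0 := by
    intro h0
    apply hy
    have : y = 0 := Subtype.ext h0
    rw [this, map_zero]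
  obtain ⟨c, hc0, hmem, hρ⟩ := H.gauss ((y : F))⁻¹ (inv_ne_zero hy0)
  -- `c = (c y⁻¹) y ∈ O`, with nonzero reduction
  have hcO : algebraMap K F c ∈ H.O := by
    have h1 : algebraMap K F c = (algebraMap K F c * ((y : F))⁻¹) * (y : F) := by
      rw [mul_assoc, inv_mul_cancel₀ hy0, mul_one]
    rw [h1]
    exact H.O.mul_mem hmem y.2
  have hcA : c ∈ A := const_mem H hcO
  have hcinv : c⁻¹ ∈ A := by
    by_contra hni
    have h0 := ρ_const_eq_zero H hcA hni
    have h1 : (⟨algebraMap K F c, H.algebraMap_mem ⟨c, hcA⟩⟩ : H.O) =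
        ⟨algebraMap K F c * ((y : F))⁻¹, hmem⟩ * y := by
      apply Subtype.ext
      show algebraMap K F c = (algebraMap K F c * ((y : F))⁻¹) * (y : F)
      rw [mul_assoc, inv_mul_cancel₀ hy0, mul_one]
    rw [h1, map_mul] at h0
    rcases mul_eq_zero.1 h0 with h | h
    · exact hρ h
    · exact hy h
  have h2 : ((y : F))⁻¹ = algebraMap K F c⁻¹ * (algebraMap K F c * ((y : F))⁻¹) := by
    rw [← mul_assoc, ← map_mul, inv_mul_cancel₀ hc0, map_one, one_mul]
  rw [h2]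
  exact H.O.mul_mem (H.algebraMap_mem ⟨c⁻¹, hcinv⟩) hmem

/-- **the Gauss ring is a valuation ring.** -/
theorem mem_or_inv_mem (H : HalfRed A F Fb) (a : F) : a ∈ H.O ∨ a⁻¹ ∈ H.O := by
  by_cases ha0 : a = 0
  · exact Or.inl (ha0 ▸ H.O.zero_mem)
  obtain ⟨c, hc0, hmem, hρ⟩ := H.gauss a ha0
  rcases A.mem_or_inv_mem c with hc | hc
  · -- `a⁻¹ = c (c a)⁻¹`
    right
    have h1 := inv_mem H ⟨_, hmem⟩ hρ
    have h2 : a⁻¹ = algebraMap K F c * (algebraMap K F c * a)⁻¹ := by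
      rw [mul_inv, ← mul_assoc, mul_inv_cancel₀ ((map_ne_zero _).2 hc0), one_mul]
    rw [h2]
    exact H.O.mul_mem (H.algebraMap_mem ⟨c, hc⟩) h1
  · left
    have h2 : a = algebraMap K F c⁻¹ * (algebraMap K F c * a) := by
      rw [← mul_assoc, ← map_mul, inv_mul_cancel₀ hc0, map_one, one_mul]
    rw [h2]
    exact H.O.mul_mem (H.algebraMap_mem ⟨c⁻¹, hc⟩) hmem

/-- the Gauss ring as a `ValuationSubring`. -/
def valSub (H : HalfRed A F Fb) : ValuationSubring F :=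
  { H.O with mem_or_inv_mem' := mem_or_inv_mem H }

theorem mem_valSub (H : HalfRed A F Fb) (a : F) : a ∈ valSub H ↔ a ∈ H.O := Iff.rfl

/-- the identity `valSub H → H.O`. -/
def toO (H : HalfRed A F Fb) : ↥(valSub H) →+* ↥H.O where
  toFun x := ⟨(x : F), (mem_valSub H _).1 x.2⟩
  map_one' := rfl
  map_mul' _ _ := rfl
  map_zero' := rfl
  map_add' _ _ := rfl

/-- the reduction on `valSub H`. -/
def ρv (H : HalfRed A F Fb) : ↥(valSub H) →+* Fb := H.ρ.comp (toO H)

theorem ρv_apply (H : HalfRed A F Fb) (x : ↥(valSub H)) :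
    ρv H x = H.ρ ⟨(x : F), (mem_valSub H _).1 x.2⟩ := rfl

theorem ρv_eq_zero_of_inv_not_mem (H : HalfRed A F Fb) (x : ↥(valSub H))
    (hx : ((x : F))⁻¹ ∉ valSub H) : ρv H x = 0 := by
  by_contra hne
  exact hx ((mem_valSub H _).2 (inv_mem H ⟨(x : F), (mem_valSub H _).1 x.2⟩ hne))

/-! ### (N-RED) for a pair of Gauss rings -/

variable {F' : Type*} [Field F'] [Algebra K F'] [Algebra F F'] [IsScalarTower K F F']
  {Fb' : Type*} [Field Fb'] [Algebra (ResidueField A) Fb'] [Algebra Fb Fb']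

/-- **the hypotheses of (N-RED)** for `H.O ⊆ H'.O`. -/
theorem over_of (H : HalfRed A F Fb) (H' : HalfRed A F' Fb')
    (hle : ∀ y : F, y ∈ H.O → algebraMap F F' y ∈ H'.O)
    (hcomm : ∀ (y : F) (hy : y ∈ H.O), H'.ρ ⟨algebraMap F F' y, hle y hy⟩ =
      algebraMap Fb Fb' (H.ρ ⟨y, hy⟩))
    (hsurj : Function.Surjective H'.ρ) (hdeg : finrank Fb Fb' = finrank F F') :
    Over (valSub H) H'.O (ρv H) H'.ρ where
  ker x hx := ρv_eq_zero_of_inv_not_mem H x hx
  le x := hle _ ((mem_valSub H _).1 x.2)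
  comm x := hcomm _ ((mem_valSub H _).1 x.2)
  surj := hsurj
  deg := hdeg

variable [FiniteDimensional F F'] [FiniteDimensional Fb Fb']

/-- **(N-RED) for Gauss rings.** -/
theorem norm_red (H : HalfRed A F Fb) (H' : HalfRed A F' Fb')
    (hle : ∀ y : F, y ∈ H.O → algebraMap F F' y ∈ H'.O)
    (hcomm : ∀ (y : F) (hy : y ∈ H.O), H'.ρ ⟨algebraMap F F' y, hle y hy⟩ =
      algebraMap Fb Fb' (H.ρ ⟨y, hy⟩))
    (hsurj : Function.Surjective H'.ρ) (hdeg : finrank Fb Fb' = finrank F F') (y : H'.O) :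
    ∃ hN : Algebra.norm F (y : F') ∈ H.O,
      H.ρ ⟨Algebra.norm F (y : F'), hN⟩ = Algebra.norm Fb (H'.ρ y) := by
  obtain ⟨hN, h⟩ := (over_of H H' hle hcomm hsurj hdeg).norm_red y
  exact ⟨(mem_valSub H _).1 hN, h⟩

/-- **normalisation of a norm**: if `c • f` is a Gauss unit of `H'` with reduction `u`, then
`c ^ [F' : F] • N f` is a Gauss unit of `H` with reduction `N u`. -/
theorem normalise_norm (H : HalfRed A F Fb) (H' : HalfRed A F' Fb')
    (hle : ∀ y : F, y ∈ H.O → algebraMap F F' y ∈ H'.O)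
    (hcomm : ∀ (y : F) (hy : y ∈ H.O), H'.ρ ⟨algebraMap F F' y, hle y hy⟩ =
      algebraMap Fb Fb' (H.ρ ⟨y, hy⟩))
    (hsurj : Function.Surjective H'.ρ) (hdeg : finrank Fb Fb' = finrank F F')
    (c : K) (f : F') (hm : algebraMap K F' c * f ∈ H'.O) :
    ∃ hN : algebraMap K F (c ^ finrank F F') * Algebra.norm F f ∈ H.O,
      H.ρ ⟨_, hN⟩ = Algebra.norm Fb (H'.ρ ⟨_, hm⟩) := by
  obtain ⟨hN, h⟩ := norm_red H H' hle hcomm hsurj hdeg ⟨_, hm⟩
  have h1 : Algebra.norm F (algebraMap K F' c * f) =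
      algebraMap K F (c ^ finrank F F') * Algebra.norm F f := by
    rw [map_mul, IsScalarTower.algebraMap_apply K F F', Algebra.norm_algebraMap, map_pow]
  have hN' : algebraMap K F (c ^ finrank F F') * Algebra.norm F f ∈ H.O := h1 ▸ hN
  refine ⟨hN', ?_⟩
  rw [← h]
  congr 1
  exact Subtype.ext h1.symm

end Fermat.Agent.U44.HalfRedOver4
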