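/-
Programme U44 (stage 0), chapter (HECKE), file 3 (helper4): **the two Gauss rings of `X₀(M'p)`
inside those of `X₀(M'ℓp)`** — the level-`ℓ` twins of `T33/FrickeRed3B.rho1_alphaA/rho2_betaA`.

`h : LevelHyp p M' A`, `ℓ` a prime `≠ p`, `hEll h : LevelHyp p (M' * ℓ) A`; `α = heckeAlphaBar`,
`β = heckeBetaBar : Fbar (M'p) → Fbar ((M'p)ℓ)` (the maps of the Prelude's `T_ℓ`).  The Gauss rings
of chapter (e) at the level `M'ℓ` live on `Fbar ((M'ℓ)p)`; they are transported to `Fbar ((M'p)ℓ)`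
along `castN` (`c1L`, `c2L`).

* `castN`, `coe_castN`, `frickeBar_castN`, `castN_mem_gaussA`, `redA_castN`;
* `comapEquiv` : transport of a `HalfRed` along an algebra isomorphism;
* `alphaC`, `betaC : Fb A M' →ₐ[κ] Fb A (M' * ℓ)` (inclusion, `q ↦ q^ℓ`) are in `U44/DegreeC4`;
* component 1: `alpha_mem₁`, `rho_alpha₁ : ρ₁' (α y) = ᾱ (ρ₁ y)`, `beta_mem₁`,
  `rho_beta₁ : ρ₁' (β y) = β̄ (ρ₁ y)`;
* component 2 (the roles of `ᾱ`, `β̄` are SWAPPED): `alpha_mem₂`, `rho_alpha₂ : ρ₂' (α y) = β̄ (ρ₂ y)`,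
  `beta_mem₂`, `rho_beta₂ : ρ₂' (β y) = ᾱ (ρ₂ y)`.
-/
import Mathlib
import Fermat.Agent.T33.FrickeRed3B
import Fermat.Agent.U44.HalfRedOver4
import Fermat.Agent.U44.DegreeC4

set_option autoImplicit false
set_option linter.unusedSectionVars false
set_option linter.style.haveILetI false
set_option linter.unusedVariables false
set_option synthInstance.maxHeartbeats 400000

noncomputable section

namespace Fermat.Agent.U44.LevelEll4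

open HahnSeries ModularCurve IntermediateField IsLocalRing AlgebraicCurve
open Fermat.Agent.RED.Interface4 Fermat.Agent.ES.RED Fermat.Agent.ES.N34.FrickeFK8
  Fermat.Agent.FF.GaussOv1 Fermat.Agent.T33.NodalCtx1 Fermat.Agent.T33.NodalHalf4
  Fermat.Agent.T33.NodalBase4A Fermat.Agent.T33.FrickeRed3 Fermat.Agent.U44.DegreeC4

/-! ### change of the name of the level -/

section Cast

variable {n n' : ℕ}

/-- `Fbar n = Fbar n'` for `n = n'`. -/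
def castN (e : n = n') : ↥(Fbar n) ≃ₐ[Qbar] ↥(Fbar n') where
  toFun x := ⟨(x : LaurentSeries Qbar), e ▸ x.2⟩
  invFun x := ⟨(x : LaurentSeries Qbar), e.symm ▸ x.2⟩
  left_inv _ := rfl
  right_inv _ := rfl
  map_mul' _ _ := rfl
  map_add' _ _ := rfl
  commutes' _ := rfl

@[simp] theorem coe_castN (e : n = n') (x : ↥(Fbar n)) :
    ((castN e x : ↥(Fbar n')) : LaurentSeries Qbar) = (x : LaurentSeries Qbar) := by
  obtain ⟨v, hv⟩ := x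
  rfl

theorem castN_mem_gaussA (A : ValuationSubring Qbar) (e : n = n')
    (a : ↥(Setup8.gaussA A (Fbar n))) :
    castN e (a : ↥(Fbar n)) ∈ Setup8.gaussA A (Fbar n') := by
  obtain ⟨Y, hY⟩ := a.2
  exact ⟨Y, by rw [hY, coe_castN]⟩

theorem redA_castN (A : ValuationSubring Qbar) (e : n = n') (a : ↥(Setup8.gaussA A (Fbar n))) :
    Setup8.redA A (Fbar n') ⟨_, castN_mem_gaussA A e a⟩ = Setup8.redA A (Fbar n) a := by
  rw [Setup8.redA_eq A (Fbar n') ⟨_, castN_mem_gaussA A e a⟩ (Y := Setup8.liftA A (Fbar n) a)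
    (by rw [Setup8.coeffMap_liftA]; exact (coe_castN e _).symm)]
  rfl

theorem frickeBar_castN [NeZero n] [NeZero n'] (e : n = n') (x : ↥(Fbar n)) :
    frickeBar n' (castN e x) = castN e (frickeBar n x) := by
  subst e
  rfl

end Cast

/-! ### transport of a `HalfRed` along an isomorphism -/

section Transport

variable {K : Type*} [Field K] {A : ValuationSubring K} {F₁ F₂ : Type*} [Field F₁] [Field F₂]
  [Algebra K F₁] [Algebra K F₂] {Fb : Type*} [Field Fb] [Algebra (ResidueField A) Fb]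

/-- the restriction `e : O.comap e → O`. -/
def comapEquivHom (O : Subring F₂) (e : F₁ ≃ₐ[K] F₂) : ↥(O.comap (e : F₁ →+* F₂)) →+* ↥O where
  toFun y := ⟨e (y : F₁), y.2⟩
  map_one' := Subtype.ext (map_one e)
  map_mul' a b := Subtype.ext (map_mul e _ _)
  map_zero' := Subtype.ext (map_zero e)
  map_add' a b := Subtype.ext (map_add e _ _)

/-- **transport of a `HalfRed` along an isomorphism `e : F₁ ≃ F₂`**: the Gauss ring `e⁻¹(O)`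
with the reduction `ρ ∘ e`. -/
def comapEquiv (H : HalfRed A F₂ Fb) (e : F₁ ≃ₐ[K] F₂) : HalfRed A F₁ Fb where
  O := H.O.comap (e : F₁ →+* F₂)
  ρ := H.ρ.comp (comapEquivHom H.O e)
  algebraMap_mem a := by
    show e (algebraMap K F₁ (a : K)) ∈ H.O
    rw [e.commutes]
    exact H.algebraMap_mem a
  ρ_algebraMap a := by
    have h1 : comapEquivHom H.O e ⟨algebraMap K F₁ (a : K), by
        show e (algebraMap K F₁ (a : K)) ∈ H.O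
        rw [e.commutes]; exact H.algebraMap_mem a⟩ =
        ⟨algebraMap K F₂ (a : K), H.algebraMap_mem a⟩ := Subtype.ext (e.commutes _)
    rw [RingHom.comp_apply, h1]
    exact H.ρ_algebraMap a
  ρ_ker y hy := by
    obtain ⟨c, hc, y', hy'⟩ := H.ρ_ker (comapEquivHom H.O e y) hy
    refine ⟨c, hc, ⟨e.symm (y' : F₂), ?_⟩, ?_⟩
    · show e (e.symm (y' : F₂)) ∈ H.O
      rw [e.apply_symm_apply]; exact y'.2
    · show (y : F₁) = algebraMap K F₁ (c : K) * e.symm (y' : F₂)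
      apply e.injective
      rw [map_mul, e.commutes, e.apply_symm_apply]
      exact hy'
  gauss f hf := by
    have hwf : e f ≠ 0 := fun h => hf (by simpa using h)
    obtain ⟨c, hc, hmem, hρ⟩ := H.gauss (e f) hwf
    have hmem' : algebraMap K F₁ c * f ∈ H.O.comap (e : F₁ →+* F₂) := by
      show e (algebraMap K F₁ c * f) ∈ H.O
      rw [map_mul, e.commutes]; exact hmem
    refine ⟨c, hc, hmem', ?_⟩
    have h1 : comapEquivHom H.O e ⟨algebraMap K F₁ c * f, hmem'⟩ =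
        ⟨algebraMap K F₂ c * e f, hmem⟩ := Subtype.ext (by simp [comapEquivHom, map_mul])
    rw [RingHom.comp_apply, h1]
    exact hρ

theorem mem_comapEquiv (H : HalfRed A F₂ Fb) (e : F₁ ≃ₐ[K] F₂) (y : F₁) :
    y ∈ (comapEquiv H e).O ↔ e y ∈ H.O := Iff.rfl

theorem comapEquiv_ρ (H : HalfRed A F₂ Fb) (e : F₁ ≃ₐ[K] F₂) (y : ↥(comapEquiv H e).O) :
    (comapEquiv H e).ρ y = H.ρ ⟨e (y : F₁), (mem_comapEquiv H e _).1 y.2⟩ := rfl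

theorem comapEquiv_ρ_surjective (H : HalfRed A F₂ Fb) (e : F₁ ≃ₐ[K] F₂)
    (hs : Function.Surjective H.ρ) : Function.Surjective (comapEquiv H e).ρ := by
  intro z
  obtain ⟨y, rfl⟩ := hs z
  refine ⟨⟨e.symm (y : F₂), ?_⟩, ?_⟩
  · show e (e.symm (y : F₂)) ∈ H.O
    rw [e.apply_symm_apply]; exact y.2
  · rw [comapEquiv_ρ]
    congr 1
    exact Subtype.ext (e.apply_symm_apply _)

end Transport

/-! ### the level `M' ℓ` -/

variable {p M' : ℕ} [NeZero M'] [NeZero p] {A : ValuationSubring Qbar}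

/-- the level hypotheses at `M' * ℓ`. -/
theorem hEll (h : LevelHyp p M' A) {ℓ : ℕ} (hℓ : ℓ.Prime) (hℓp : ℓ ≠ p) :
    LevelHyp p (M' * ℓ) A where
  prime := h.prime
  ne_two := h.ne_two
  not_dvd := by
    intro hd
    rcases (Nat.Prime.dvd_mul h.prime).1 hd with h1 | h1
    · exact h.not_dvd h1
    · exact hℓp ((Nat.prime_dvd_prime_iff_eq h.prime hℓ).1 h1).symm
  four_dvd := Dvd.dvd.mul_right h.four_dvd ℓ
  liesOver := h.liesOver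

/-! ### the Gauss rings of the level `M' ℓ` on `Fbar n`, `n = (M' ℓ) p` -/

theorem castN_self {n : ℕ} (e : n = n) (x : ↥(Fbar n)) : castN e x = x :=
  Subtype.ext (coe_castN e x)

/-- shortcut instance. -/
local instance (priority := high) algebraKFbL (M : ℕ) [NeZero M] :
    Algebra (ResidueField ↥A) (Fb A M) := inferInstance

theorem level_eq (M' p ℓ : ℕ) : (M' * p) * ℓ = (M' * ℓ) * p := Nat.mul_right_comm M' p ℓ

variable (h : LevelHyp p M' A) {ℓ : ℕ} [NeZero ℓ] (hℓ : ℓ.Prime) (hℓp : ℓ ≠ p)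

/-- the first Gauss ring of the level `M' ℓ`, on `Fbar n`, `n = (M' ℓ) p`. -/
def c1G {n : ℕ} (e : n = (M' * ℓ) * p) : HalfRed A ↥(Fbar n) (Fb A (M' * ℓ)) :=
  comapEquiv (c1 (hEll h hℓ hℓp)) (castN e)

/-- the second Gauss ring of the level `M' ℓ`, on `Fbar n`, `n = (M' ℓ) p`. -/
def c2G {n : ℕ} (e : n = (M' * ℓ) * p) : HalfRed A ↥(Fbar n) (Fb A (M' * ℓ)) :=
  comapEquiv (c2 (hEll h hℓ hℓp)) (castN e)

theorem mem_c1G_iff {n : ℕ} (e : n = (M' * ℓ) * p) (f : ↥(Fbar n)) :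
    f ∈ (c1G h hℓ hℓp e).O ↔ ∃ a b : ↥(Setup8.gaussA A (Fbar n)),
      Setup8.redA A (Fbar n) b ≠ 0 ∧ f * (b : ↥(Fbar n)) = (a : ↥(Fbar n)) := by
  subst e
  rw [c1G, mem_comapEquiv, castN_self]
  exact mem_O1_iff_redA (hEll h hℓ hℓp) f

/-- the reduction on `c1G` as a quotient of coefficientwise reductions. -/
theorem coe_rho_c1G {n : ℕ} (e : n = (M' * ℓ) * p) (y : ↥(c1G h hℓ hℓp e).O)
    (a b : ↥(Setup8.gaussA A (Fbar n))) (hb : Setup8.redA A (Fbar n) b ≠ 0)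
    (hab : (y : ↥(Fbar n)) * (b : ↥(Fbar n)) = (a : ↥(Fbar n))) :
    (((c1G h hℓ hℓp e).ρ y : Fb A (M' * ℓ)) : LaurentSeries (Setup8.kA A)) =
      Setup8.redA A (Fbar n) a / Setup8.redA A (Fbar n) b := by
  subst e
  have hy : (y : ↥(Fbar ((M' * ℓ) * p))) ∈ O1 (hEll h hℓ hℓp) := by
    have h0 : castN rfl (y : ↥(Fbar ((M' * ℓ) * p))) ∈ (c1 (hEll h hℓ hℓp)).O :=
      (mem_comapEquiv (c1 (hEll h hℓ hℓp)) (castN rfl) _).1 y.2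
    rwa [castN_self] at h0
  have h1 : (c1G h hℓ hℓp rfl).ρ y = rho1 (hEll h hℓ hℓp) ⟨(y : ↥(Fbar ((M' * ℓ) * p))), hy⟩ := by
    refine (comapEquiv_ρ (c1 (hEll h hℓ hℓp)) (castN rfl) y).trans ?_
    show rho1 (hEll h hℓ hℓp) _ = rho1 (hEll h hℓ hℓp) _
    congr 1
  rw [h1]
  exact coe_rho1_eq (hEll h hℓ hℓp) ⟨_, hy⟩ a b hb hab

theorem mem_c2G_iff {n : ℕ} [NeZero n] (e : n = (M' * ℓ) * p) (f : ↥(Fbar n)) :
    f ∈ (c2G h hℓ hℓp e).O ↔ frickeBar n f ∈ (c1G h hℓ hℓp e).O := by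
  subst e
  have h1 : f ∈ (c2G h hℓ hℓp rfl).O ↔ castN rfl f ∈ O2 (hEll h hℓ hℓp) :=
    mem_comapEquiv (c2 (hEll h hℓ hℓp)) (castN rfl) f
  have h2 : frickeBar ((M' * ℓ) * p) f ∈ (c1G h hℓ hℓp rfl).O ↔
      castN rfl (frickeBar ((M' * ℓ) * p) f) ∈ O1 (hEll h hℓ hℓp) :=
    mem_comapEquiv (c1 (hEll h hℓ hℓp)) (castN rfl) _
  rw [h1, h2, castN_self, castN_self]
  exact mem_O2_iff (hEll h hℓ hℓp) f

theorem rho_c2G {n : ℕ} [NeZero n] (e : n = (M' * ℓ) * p) (y : ↥(c2G h hℓ hℓp e).O) :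
    (c2G h hℓ hℓp e).ρ y =
      (c1G h hℓ hℓp e).ρ ⟨frickeBar n (y : ↥(Fbar n)), (mem_c2G_iff h hℓ hℓp e _).1 y.2⟩ := by
  subst e
  have hy : (y : ↥(Fbar ((M' * ℓ) * p))) ∈ O2 (hEll h hℓ hℓp) := by
    have h0 : castN rfl (y : ↥(Fbar ((M' * ℓ) * p))) ∈ (c2 (hEll h hℓ hℓp)).O :=
      (mem_comapEquiv (c2 (hEll h hℓ hℓp)) (castN rfl) _).1 y.2
    rwa [castN_self] at h0
  have h1 : (c2G h hℓ hℓp rfl).ρ y = rho2 (hEll h hℓ hℓp) ⟨(y : ↥(Fbar ((M' * ℓ) * p))), hy⟩ := by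
    refine (comapEquiv_ρ (c2 (hEll h hℓ hℓp)) (castN rfl) y).trans ?_
    show rho2 (hEll h hℓ hℓp) _ = rho2 (hEll h hℓ hℓp) _
    congr 1
  have hy' : frickeBar ((M' * ℓ) * p) (y : ↥(Fbar ((M' * ℓ) * p))) ∈ O1 (hEll h hℓ hℓp) :=
    (mem_O2_iff (hEll h hℓ hℓp) _).1 hy
  have h2 : (c1G h hℓ hℓp rfl).ρ ⟨frickeBar ((M' * ℓ) * p) (y : ↥(Fbar ((M' * ℓ) * p))),
      (mem_c2G_iff h hℓ hℓp rfl _).1 y.2⟩ = rho1 (hEll h hℓ hℓp) ⟨_, hy'⟩ := by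
    refine (comapEquiv_ρ (c1 (hEll h hℓ hℓp)) (castN rfl) _).trans ?_
    show rho1 (hEll h hℓ hℓp) _ = rho1 (hEll h hℓ hℓp) _
    congr 1
  rw [h1, h2]
  exact rho2_apply (hEll h hℓ hℓp) ⟨_, hy⟩

theorem c1G_ρ_surjective {n : ℕ} (e : n = (M' * ℓ) * p) :
    Function.Surjective (c1G h hℓ hℓp e).ρ :=
  comapEquiv_ρ_surjective _ _ (rho1_surjective (hEll h hℓ hℓp))

theorem c2G_ρ_surjective {n : ℕ} (e : n = (M' * ℓ) * p) :
    Function.Surjective (c2G h hℓ hℓp e).ρ :=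
  comapEquiv_ρ_surjective _ _ (rho2_surjective (hEll h hℓ hℓp))

/-! ### the two degeneracy maps on coefficientwise reductions -/

section Maps

variable {n : ℕ} (a b : ↥(Fbar (M' * p)) →ₐ[Qbar] ↥(Fbar n))

/-- `a` is the identity on `q`-expansions. -/
def IsIncl (a : ↥(Fbar (M' * p)) →ₐ[Qbar] ↥(Fbar n)) : Prop :=
  ∀ x, ((a x : ↥(Fbar n)) : LaurentSeries Qbar) = (x : LaurentSeries Qbar)

/-- `b` is `q ↦ q^ℓ` on `q`-expansions. -/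
def IsExpand (ℓ : ℕ) [NeZero ℓ] (b : ↥(Fbar (M' * p)) →ₐ[Qbar] ↥(Fbar n)) : Prop :=
  ∀ x, ((b x : ↥(Fbar n)) : LaurentSeries Qbar) = qExpand Qbar ℓ (x : LaurentSeries Qbar)

theorem a_mem_gaussA (ha : IsIncl a) (g : ↥(Setup8.gaussA A (Fbar (M' * p)))) :
    a (g : ↥(Fbar (M' * p))) ∈ Setup8.gaussA A (Fbar n) := by
  obtain ⟨Y, hY⟩ := g.2
  exact ⟨Y, by rw [hY, ha]⟩

theorem redA_a (ha : IsIncl a) (g : ↥(Setup8.gaussA A (Fbar (M' * p)))) :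
    Setup8.redA A (Fbar n) ⟨_, a_mem_gaussA a ha g⟩ = Setup8.redA A (Fbar (M' * p)) g := by
  rw [Setup8.redA_eq A (Fbar n) ⟨_, a_mem_gaussA a ha g⟩
    (Y := Setup8.liftA A (Fbar (M' * p)) g)
    (by rw [Setup8.coeffMap_liftA]; exact (ha _).symm)]
  rfl

theorem b_mem_gaussA (hb : IsExpand ℓ b) (g : ↥(Setup8.gaussA A (Fbar (M' * p)))) :
    b (g : ↥(Fbar (M' * p))) ∈ Setup8.gaussA A (Fbar n) := by
  obtain ⟨Y, hY⟩ := g.2
  exact ⟨qExpand ↥A ℓ Y, by rw [ModularCurve.coeffMap_qExpand, hY, hb]⟩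

theorem redA_b (hb : IsExpand ℓ b) (g : ↥(Setup8.gaussA A (Fbar (M' * p)))) :
    Setup8.redA A (Fbar n) ⟨_, b_mem_gaussA b hb g⟩ =
      qExpand (Setup8.kA A) ℓ (Setup8.redA A (Fbar (M' * p)) g) := by
  rw [Setup8.redA_eq A (Fbar n) ⟨_, b_mem_gaussA b hb g⟩
    (Y := qExpand ↥A ℓ (Setup8.liftA A (Fbar (M' * p)) g))
    (by rw [ModularCurve.coeffMap_qExpand, Setup8.coeffMap_liftA]; exact (hb _).symm)]
  rw [ModularCurve.coeffMap_qExpand]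
  rfl

/-! ### component 1 -/

variable (e : n = (M' * ℓ) * p)

theorem alpha_mem₁ (ha : IsIncl a) {y : ↥(Fbar (M' * p))} (hy : y ∈ O1 h) :
    a y ∈ (c1G h hℓ hℓp e).O := by
  obtain ⟨g, d, hd, hgd⟩ := (mem_O1_iff_redA h y).1 hy
  refine (mem_c1G_iff h hℓ hℓp e _).2 ⟨⟨_, a_mem_gaussA a ha g⟩, ⟨_, a_mem_gaussA a ha d⟩, ?_, ?_⟩
  · rw [redA_a a ha]; exact hd
  · show a y * a (d : ↥(Fbar (M' * p))) = a (g : ↥(Fbar (M' * p)))
    rw [← map_mul, hgd]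

/-- **`ρ₁' (α y) = ᾱ (ρ₁ y)`.** -/
theorem rho_alpha₁ (ha : IsIncl a) (y : ↥(O1 h)) :
    (c1G h hℓ hℓp e).ρ ⟨a (y : ↥(Fbar (M' * p))), alpha_mem₁ h hℓ hℓp a e ha y.2⟩ =
      alphaC (Setup8.kA A) M' ℓ (rho1 h y) := by
  obtain ⟨g, d, hd, hgd⟩ := (mem_O1_iff_redA h _).1 y.2
  apply Subtype.ext
  rw [coe_alphaC, coe_rho1_eq h y g d hd hgd,
    coe_rho_c1G h hℓ hℓp e ⟨_, alpha_mem₁ h hℓ hℓp a e ha y.2⟩ ⟨_, a_mem_gaussA a ha g⟩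
      ⟨_, a_mem_gaussA a ha d⟩ (by rw [redA_a a ha]; exact hd)
      (by show a (y : ↥(Fbar (M' * p))) * a (d : ↥(Fbar (M' * p))) = a (g : ↥(Fbar (M' * p)))
          rw [← map_mul, hgd]),
    redA_a a ha, redA_a a ha]

theorem qExpand_ne_zero {x : LaurentSeries (Setup8.kA A)} (hx : x ≠ 0) :
    qExpand (Setup8.kA A) ℓ x ≠ 0 := by
  rwa [Ne, map_eq_zero]

theorem beta_mem₁ (hb : IsExpand ℓ b) {y : ↥(Fbar (M' * p))} (hy : y ∈ O1 h) :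
    b y ∈ (c1G h hℓ hℓp e).O := by
  obtain ⟨g, d, hd, hgd⟩ := (mem_O1_iff_redA h y).1 hy
  refine (mem_c1G_iff h hℓ hℓp e _).2 ⟨⟨_, b_mem_gaussA b hb g⟩, ⟨_, b_mem_gaussA b hb d⟩, ?_, ?_⟩
  · rw [redA_b b hb]; exact qExpand_ne_zero hd
  · show b y * b (d : ↥(Fbar (M' * p))) = b (g : ↥(Fbar (M' * p)))
    rw [← map_mul, hgd]

/-- **`ρ₁' (β y) = β̄ (ρ₁ y)`.** -/
theorem rho_beta₁ (hb : IsExpand ℓ b) (y : ↥(O1 h)) :
    (c1G h hℓ hℓp e).ρ ⟨b (y : ↥(Fbar (M' * p))), beta_mem₁ h hℓ hℓp b e hb y.2⟩ =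
      betaC (Setup8.kA A) M' ℓ (rho1 h y) := by
  obtain ⟨g, d, hd, hgd⟩ := (mem_O1_iff_redA h _).1 y.2
  apply Subtype.ext
  rw [coe_betaC, coe_rho1_eq h y g d hd hgd,
    coe_rho_c1G h hℓ hℓp e ⟨_, beta_mem₁ h hℓ hℓp b e hb y.2⟩ ⟨_, b_mem_gaussA b hb g⟩
      ⟨_, b_mem_gaussA b hb d⟩ (by rw [redA_b b hb]; exact qExpand_ne_zero hd)
      (by show b (y : ↥(Fbar (M' * p))) * b (d : ↥(Fbar (M' * p))) = b (g : ↥(Fbar (M' * p)))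
          rw [← map_mul, hgd]),
    redA_b b hb, redA_b b hb, map_div₀]

/-! ### component 2: the roles of `ᾱ`, `β̄` are swapped -/

variable [NeZero n]

theorem alpha_mem₂ (hb : IsExpand ℓ b)
    (hWa : ∀ x, frickeBar n (a x) = b (frickeBar (M' * p) x))
    {y : ↥(Fbar (M' * p))} (hy : y ∈ O2 h) : a y ∈ (c2G h hℓ hℓp e).O := by
  rw [mem_c2G_iff, hWa]
  exact beta_mem₁ h hℓ hℓp b e hb ((mem_O2_iff h y).1 hy)

/-- **`ρ₂' (α y) = β̄ (ρ₂ y)`.** -/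
theorem rho_alpha₂ (hb : IsExpand ℓ b)
    (hWa : ∀ x, frickeBar n (a x) = b (frickeBar (M' * p) x)) (y : ↥(O2 h)) :
    (c2G h hℓ hℓp e).ρ ⟨a (y : ↥(Fbar (M' * p))), alpha_mem₂ h hℓ hℓp a b e hb hWa y.2⟩ =
      betaC (Setup8.kA A) M' ℓ (rho2 h y) := by
  rw [rho_c2G, rho2_apply, ← rho_beta₁ h hℓ hℓp b e hb]
  congr 1
  exact Subtype.ext (hWa _)

theorem beta_mem₂ (ha : IsIncl a)
    (hWb : ∀ x, frickeBar n (b x) = a (frickeBar (M' * p) x))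
    {y : ↥(Fbar (M' * p))} (hy : y ∈ O2 h) : b y ∈ (c2G h hℓ hℓp e).O := by
  rw [mem_c2G_iff, hWb]
  exact alpha_mem₁ h hℓ hℓp a e ha ((mem_O2_iff h y).1 hy)

/-- **`ρ₂' (β y) = ᾱ (ρ₂ y)`.** -/
theorem rho_beta₂ (ha : IsIncl a)
    (hWb : ∀ x, frickeBar n (b x) = a (frickeBar (M' * p) x)) (y : ↥(O2 h)) :
    (c2G h hℓ hℓp e).ρ ⟨b (y : ↥(Fbar (M' * p))), beta_mem₂ h hℓ hℓp a b e ha hWb y.2⟩ =
      alphaC (Setup8.kA A) M' ℓ (rho2 h y) := by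
  rw [rho_c2G, rho2_apply, ← rho_alpha₁ h hℓ hℓp a e ha]
  congr 1
  exact Subtype.ext (hWb _)

end Maps

/-! ### the concrete maps `α = heckeAlphaBar`, `β = heckeBetaBar` at `(M' p, ℓ)` -/

section Concrete

/-- the first Gauss ring of the level `M' ℓ` on `Fbar ((M' p) ℓ)`. -/
def c1L : HalfRed A ↥(Fbar ((M' * p) * ℓ)) (Fb A (M' * ℓ)) := c1G h hℓ hℓp (level_eq M' p ℓ)

/-- the second Gauss ring of the level `M' ℓ` on `Fbar ((M' p) ℓ)`. -/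
def c2L : HalfRed A ↥(Fbar ((M' * p) * ℓ)) (Fb A (M' * ℓ)) := c2G h hℓ hℓp (level_eq M' p ℓ)

theorem c1L_ρ_surjective : Function.Surjective (c1L h hℓ hℓp).ρ := c1G_ρ_surjective h hℓ hℓp _

theorem c2L_ρ_surjective : Function.Surjective (c2L h hℓ hℓp).ρ := c2G_ρ_surjective h hℓ hℓp _

/-- `α` : the inclusion `Fbar (M' p) → Fbar ((M' p) ℓ)`. -/
abbrev alphaL (M' p ℓ : ℕ) [NeZero M'] [NeZero p] [NeZero ℓ] :
    ↥(Fbar (M' * p)) →ₐ[Qbar] ↥(Fbar ((M' * p) * ℓ)) := alphaA (M' * p) ℓ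

/-- `β` : `q ↦ q^ℓ`, `Fbar (M' p) → Fbar ((M' p) ℓ)`. -/
abbrev betaL (M' p ℓ : ℕ) [NeZero M'] [NeZero p] [NeZero ℓ] :
    ↥(Fbar (M' * p)) →ₐ[Qbar] ↥(Fbar ((M' * p) * ℓ)) := betaA (M' * p) ℓ

theorem isIncl_alphaL : IsIncl (alphaL M' p ℓ) := fun x => coe_alphaA x

theorem isExpand_betaL : IsExpand ℓ (betaL M' p ℓ) := fun x => coe_betaA x

theorem frickeBar_alphaL (x : ↥(Fbar (M' * p))) :
    frickeBar ((M' * p) * ℓ) (alphaL M' p ℓ x) = betaL M' p ℓ (frickeBar (M' * p) x) :=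
  frickeBar_alphaA x

theorem frickeBar_betaL (x : ↥(Fbar (M' * p))) :
    frickeBar ((M' * p) * ℓ) (betaL M' p ℓ x) = alphaL M' p ℓ (frickeBar (M' * p) x) :=
  frickeBar_betaA x

theorem alphaL_mem₁ {y : ↥(Fbar (M' * p))} (hy : y ∈ (c1 h).O) :
    alphaL M' p ℓ y ∈ (c1L h hℓ hℓp).O :=
  alpha_mem₁ h hℓ hℓp _ _ isIncl_alphaL hy

theorem rho_alphaL₁ (y : ↥(Fbar (M' * p))) (hy : y ∈ (c1 h).O) :
    (c1L h hℓ hℓp).ρ ⟨alphaL M' p ℓ y, alphaL_mem₁ h hℓ hℓp hy⟩ =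
      alphaC (Setup8.kA A) M' ℓ ((c1 h).ρ ⟨y, hy⟩) :=
  rho_alpha₁ h hℓ hℓp _ _ isIncl_alphaL ⟨y, hy⟩

theorem betaL_mem₁ {y : ↥(Fbar (M' * p))} (hy : y ∈ (c1 h).O) :
    betaL M' p ℓ y ∈ (c1L h hℓ hℓp).O :=
  beta_mem₁ h hℓ hℓp _ _ isExpand_betaL hy

theorem rho_betaL₁ (y : ↥(Fbar (M' * p))) (hy : y ∈ (c1 h).O) :
    (c1L h hℓ hℓp).ρ ⟨betaL M' p ℓ y, betaL_mem₁ h hℓ hℓp hy⟩ =
      betaC (Setup8.kA A) M' ℓ ((c1 h).ρ ⟨y, hy⟩) :=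
  rho_beta₁ h hℓ hℓp _ _ isExpand_betaL ⟨y, hy⟩

theorem alphaL_mem₂ {y : ↥(Fbar (M' * p))} (hy : y ∈ (c2 h).O) :
    alphaL M' p ℓ y ∈ (c2L h hℓ hℓp).O :=
  alpha_mem₂ h hℓ hℓp _ _ _ isExpand_betaL frickeBar_alphaL hy

theorem rho_alphaL₂ (y : ↥(Fbar (M' * p))) (hy : y ∈ (c2 h).O) :
    (c2L h hℓ hℓp).ρ ⟨alphaL M' p ℓ y, alphaL_mem₂ h hℓ hℓp hy⟩ =
      betaC (Setup8.kA A) M' ℓ ((c2 h).ρ ⟨y, hy⟩) :=
  rho_alpha₂ h hℓ hℓp _ _ _ isExpand_betaL frickeBar_alphaL ⟨y, hy⟩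

theorem betaL_mem₂ {y : ↥(Fbar (M' * p))} (hy : y ∈ (c2 h).O) :
    betaL M' p ℓ y ∈ (c2L h hℓ hℓp).O :=
  beta_mem₂ h hℓ hℓp _ _ _ isIncl_alphaL frickeBar_betaL hy

theorem rho_betaL₂ (y : ↥(Fbar (M' * p))) (hy : y ∈ (c2 h).O) :
    (c2L h hℓ hℓp).ρ ⟨betaL M' p ℓ y, betaL_mem₂ h hℓ hℓp hy⟩ =
      alphaC (Setup8.kA A) M' ℓ ((c2 h).ρ ⟨y, hy⟩) :=
  rho_beta₂ h hℓ hℓp _ _ _ isIncl_alphaL frickeBar_betaL ⟨y, hy⟩

end Concrete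

end Fermat.Agent.U44.LevelEll4
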