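/-
Programme U44, chapter (HECKE), file 7 (helper4): **the reduced Fricke involution and the two
degeneracy maps of the special fibre; separability of `ᾱ`, `β̄`.**

`h : LevelHyp p M' A`, `h' = hEll h : LevelHyp p (M' ℓ) A`, `W̄ = FrickeRed3.Wb`.

* `alpha_mem₀`, `rho0_alpha : ρ₀' (α₀ y) = ᾱ (ρ₀ y)`, `beta_mem₀`, `rho0_beta` : the good-level twins
  of `LevelEll4.rho_alpha₁/rho_beta₁` (`α₀, β₀ : Fbar M' → Fbar (M' ℓ)`);
* `Wb_alphaC : W̄' ∘ ᾱ = β̄ ∘ W̄`, `Wb_betaC : W̄' ∘ β̄ = ᾱ ∘ W̄`;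
* `alphaC_xOne : ᾱ x₁ = x₁'`, `betaC_xTwo : β̄ x₂ = x₂'`;
* `isSeparable_along_of_adjoin` (generic), `isSeparable_alphaC`, `isSeparable_betaC`.
-/
import Mathlib
import Fermat.Agent.U44.LevelEll4

set_option autoImplicit false
set_option linter.unusedSectionVars false
set_option linter.style.haveILetI false
set_option linter.unusedVariables false
set_option synthInstance.maxHeartbeats 400000

noncomputable section

namespace Fermat.Agent.U44.WbEll4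

open HahnSeries ModularCurve IntermediateField IsLocalRing AlgebraicCurve
open Fermat.Agent.RED.Interface4 Fermat.Agent.ES.RED Fermat.Agent.ES.N34.FrickeFK8
  Fermat.Agent.FF.GaussOv1 Fermat.Agent.T33.NodalCtx1 Fermat.Agent.T33.NodalHalf4
  Fermat.Agent.T33.NodalBase4A Fermat.Agent.T33.FrickeRed3 Fermat.Agent.U44.DegreeC4
  Fermat.Agent.U44.LevelEll4

/-! ### separability along a homomorphism -/

section Generic

variable {κ F F' : Type*} [Field κ] [Field F] [Field F'] [Algebra κ F] [Algebra κ F']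

/-- `κ(x) ≃ κ(φ x)`. -/
def adjoinHomEquiv (φ : F →ₐ[κ] F') (x : F) : ↥κ⟮x⟯ ≃+* ↥κ⟮φ x⟯ :=
  ((κ⟮x⟯).equivMap φ).toRingEquiv.trans
    (IntermediateField.equivOfEq (by rw [adjoin_map, Set.image_singleton])).toRingEquiv

theorem coe_adjoinHomEquiv (φ : F →ₐ[κ] F') (x : F) (c : ↥κ⟮x⟯) :
    ((adjoinHomEquiv φ x c : ↥κ⟮φ x⟯) : F') = φ (c : F) := rfl

/-- if `F'` is separable over `κ(φ x)`, it is separable over `φ F`. -/
theorem isSeparable_along_of_adjoin (φ : F →ₐ[κ] F') (x : F)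
    [Algebra.IsSeparable ↥κ⟮φ x⟯ F'] :
    letI := algebraAlong φ; Algebra.IsSeparable F F' := by
  letI := algebraAlong φ
  haveI : Algebra.IsSeparable ↥κ⟮x⟯ F' := by
    refine Algebra.IsSeparable.of_equiv_equiv (adjoinHomEquiv φ x).symm (RingEquiv.refl F') ?_
    ext c
    obtain ⟨d, rfl⟩ := (adjoinHomEquiv φ x).surjective c
    simp only [RingHom.comp_apply, RingEquiv.coe_toRingHom, RingEquiv.symm_apply_apply,
      RingEquiv.refl_apply]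
    exact (coe_adjoinHomEquiv φ x d).symm
  exact Algebra.isSeparable_tower_top_of_isSeparable ↥κ⟮x⟯ F F'

end Generic

variable {p M' : ℕ} [NeZero M'] [NeZero p] {A : ValuationSubring Qbar}
  (h : LevelHyp p M' A) {ℓ : ℕ} [NeZero ℓ] (hℓ : ℓ.Prime) (hℓp : ℓ ≠ p)

/-- shortcut instance. -/
local instance (priority := high) algebraKFbW (M : ℕ) [NeZero M] :
    Algebra (ResidueField ↥A) (Fb A M) := inferInstance

/-! ### the good levels `M'`, `M' ℓ` -/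

theorem alpha_mem₀ {y : ↥(Fbar M')} (hy : y ∈ Ov0 h) :
    alphaA M' ℓ y ∈ Ov0 (hEll h hℓ hℓp) := by
  obtain ⟨a, b, hb, hab⟩ := (mem_Ov0_iff h y).1 hy
  refine (mem_Ov0_iff (hEll h hℓ hℓp) _).2 ⟨⟨_, alphaA_mem_gaussA (p := ℓ) a⟩,
    ⟨_, alphaA_mem_gaussA (p := ℓ) b⟩, ?_, ?_⟩
  · rw [redA_alphaA]; exact hb
  · show alphaA M' ℓ y * alphaA M' ℓ (b : ↥(Fbar M')) = alphaA M' ℓ (a : ↥(Fbar M'))
    rw [← map_mul, hab]

/-- **`ρ₀' (α₀ y) = ᾱ (ρ₀ y)`.** -/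
theorem rho0_alpha (y : ↥(Ov0 h)) :
    rho0 (hEll h hℓ hℓp) ⟨alphaA M' ℓ (y : ↥(Fbar M')), alpha_mem₀ h hℓ hℓp y.2⟩ =
      alphaC (Setup8.kA A) M' ℓ (rho0 h y) := by
  obtain ⟨a, b, hb, hab⟩ := (mem_Ov0_iff h _).1 y.2
  apply Subtype.ext
  rw [coe_alphaC, coe_rho0_eq h y a b hb hab,
    coe_rho0_eq (hEll h hℓ hℓp) ⟨_, alpha_mem₀ h hℓ hℓp y.2⟩ ⟨_, alphaA_mem_gaussA (p := ℓ) a⟩
      ⟨_, alphaA_mem_gaussA (p := ℓ) b⟩ (by rw [redA_alphaA]; exact hb)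
      (by show alphaA M' ℓ (y : ↥(Fbar M')) * alphaA M' ℓ (b : ↥(Fbar M')) =
            alphaA M' ℓ (a : ↥(Fbar M'))
          rw [← map_mul, hab]),
    redA_alphaA, redA_alphaA]

theorem beta_mem₀ {y : ↥(Fbar M')} (hy : y ∈ Ov0 h) :
    betaA M' ℓ y ∈ Ov0 (hEll h hℓ hℓp) := by
  obtain ⟨a, b, hb, hab⟩ := (mem_Ov0_iff h y).1 hy
  refine (mem_Ov0_iff (hEll h hℓ hℓp) _).2 ⟨⟨_, betaA_mem_gaussA (p := ℓ) a⟩,
    ⟨_, betaA_mem_gaussA (p := ℓ) b⟩, ?_, ?_⟩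
  · rw [redA_betaA]; exact LevelEll4.qExpand_ne_zero hb
  · show betaA M' ℓ y * betaA M' ℓ (b : ↥(Fbar M')) = betaA M' ℓ (a : ↥(Fbar M'))
    rw [← map_mul, hab]

/-- **`ρ₀' (β₀ y) = β̄ (ρ₀ y)`.** -/
theorem rho0_beta (y : ↥(Ov0 h)) :
    rho0 (hEll h hℓ hℓp) ⟨betaA M' ℓ (y : ↥(Fbar M')), beta_mem₀ h hℓ hℓp y.2⟩ =
      betaC (Setup8.kA A) M' ℓ (rho0 h y) := by
  obtain ⟨a, b, hb, hab⟩ := (mem_Ov0_iff h _).1 y.2
  apply Subtype.ext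
  rw [coe_betaC, coe_rho0_eq h y a b hb hab,
    coe_rho0_eq (hEll h hℓ hℓp) ⟨_, beta_mem₀ h hℓ hℓp y.2⟩ ⟨_, betaA_mem_gaussA (p := ℓ) a⟩
      ⟨_, betaA_mem_gaussA (p := ℓ) b⟩
      (by rw [redA_betaA]; exact LevelEll4.qExpand_ne_zero hb)
      (by show betaA M' ℓ (y : ↥(Fbar M')) * betaA M' ℓ (b : ↥(Fbar M')) =
            betaA M' ℓ (a : ↥(Fbar M'))
          rw [← map_mul, hab]),
    redA_betaA, redA_betaA, map_div₀]

theorem rho0_congr (h : LevelHyp p M' A) {x x' : ↥(Fbar M')} (hxx : x = x') (hx : x ∈ Ov0 h)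
    (hx' : x' ∈ Ov0 h) : rho0 h ⟨x, hx⟩ = rho0 h ⟨x', hx'⟩ := by
  subst hxx; rfl

/-- **`W̄' ∘ ᾱ = β̄ ∘ W̄`.** -/
theorem Wb_alphaC (x : Fb A M') :
    Wb (hEll h hℓ hℓp) (alphaC (Setup8.kA A) M' ℓ x) = betaC (Setup8.kA A) M' ℓ (Wb h x) := by
  obtain ⟨y, rfl⟩ := rho0_surjective h x
  rw [← rho0_alpha h hℓ hℓp y, ← rho0_frickeBar (hEll h hℓ hℓp), ← rho0_frickeBar h y,
    ← rho0_beta h hℓ hℓp]
  exact rho0_congr (hEll h hℓ hℓp) (frickeBar_alphaA _) _ _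

/-- **`W̄' ∘ β̄ = ᾱ ∘ W̄`.** -/
theorem Wb_betaC (x : Fb A M') :
    Wb (hEll h hℓ hℓp) (betaC (Setup8.kA A) M' ℓ x) = alphaC (Setup8.kA A) M' ℓ (Wb h x) := by
  obtain ⟨y, rfl⟩ := rho0_surjective h x
  rw [← rho0_beta h hℓ hℓp y, ← rho0_frickeBar (hEll h hℓ hℓp), ← rho0_frickeBar h y,
    ← rho0_alpha h hℓ hℓp]
  exact rho0_congr (hEll h hℓ hℓp) (frickeBar_betaA _) _ _

/-! ### the separating generators -/

theorem alphaC_xOne : alphaC (Setup8.kA A) M' ℓ (xOne h) = xOne (hEll h hℓ hℓp) := by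
  apply Subtype.ext
  rw [coe_alphaC, coe_xOne, coe_xOne]

theorem betaC_xTwo : betaC (Setup8.kA A) M' ℓ (xTwo h) = xTwo (hEll h hℓ hℓp) := by
  show betaC (Setup8.kA A) M' ℓ (Wb h (xOne h)) = Wb (hEll h hℓ hℓp) (xOne (hEll h hℓ hℓp))
  rw [← Wb_alphaC h hℓ hℓp, alphaC_xOne h hℓ hℓp]

include h hℓ hℓp in
/-- **`κ·F̃_{M'ℓ}` is separable over `ᾱ (κ·F̃_{M'})`.** -/
theorem isSeparable_alphaC :
    letI := algebraAlong (alphaC (Setup8.kA A) M' ℓ)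
    Algebra.IsSeparable (Fb A M') (Fb A (M' * ℓ)) := by
  haveI : Algebra.IsSeparable ↥((Setup8.kA A)⟮alphaC (Setup8.kA A) M' ℓ (xOne h)⟯)
      (Fb A (M' * ℓ)) := by
    rw [alphaC_xOne h hℓ hℓp]
    exact isSeparable_xOne (hEll h hℓ hℓp)
  exact isSeparable_along_of_adjoin (alphaC (Setup8.kA A) M' ℓ) (xOne h)

include h hℓ hℓp in
/-- **`κ·F̃_{M'ℓ}` is separable over `β̄ (κ·F̃_{M'})`.** -/
theorem isSeparable_betaC :
    letI := algebraAlong (betaC (Setup8.kA A) M' ℓ)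
    Algebra.IsSeparable (Fb A M') (Fb A (M' * ℓ)) := by
  haveI : Algebra.IsSeparable ↥((Setup8.kA A)⟮betaC (Setup8.kA A) M' ℓ (xTwo h)⟯)
      (Fb A (M' * ℓ)) := by
    rw [betaC_xTwo h hℓ hℓp]
    exact isSeparable_xTwo (hEll h hℓ hℓp)
  exact isSeparable_along_of_adjoin (betaC (Setup8.kA A) M' ℓ) (xTwo h)

end Fermat.Agent.U44.WbEll4
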