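/-
Programme U44, chapter (HECKE), file 8 (helper4): **the Hecke correspondence `T̄_ℓ` of the special
fibre** (characteristic `p`, `ℓ ≠ p` a prime with `ℓ ∤ M'`).

`h : LevelHyp p M' A`, `κ = Setup8.kA A`, `Fb A M = κ·F̃_M`, `JZeroC κ M' = Pic⁰ (κ·F̃_{M'})`,
`ᾱ = alphaC`, `β̄ = betaC : Fb A M' →ₐ[κ] Fb A (M' ℓ)`.

* the five inputs of the Prelude's `Pic0.correspondence` in characteristic `p`:
  `isIntegral_alpha/_beta`, `hasPrincipalDivisors`, `fundId_alpha/_beta`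
  (`FundIdSep4`), `finiteAlong_alpha/_beta`, `normFormula_alpha/_beta` (`NormFormulaSep4`);
* `heckeC h hℓ hℓp hℓM : JZeroC κ M' →+ JZeroC κ M'` `= ᾱ_* β̄^*` **(the operator `T̄_ℓ`)**,
  `heckeCt … = β̄_* ᾱ^*` (its transpose);
* `heckeC_mk`, `heckeCt_mk` (unfolding on classes);
* `heckeC_principal` : if `D = div u` then `ᾱ_* β̄^* D = div (N_ᾱ (β̄ u))`; `heckeCt_principal`.
-/
import Mathlib
import Fermat.Agent.U44.WbEll4
import Fermat.Agent.U44.FundIdSep4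
import Fermat.Agent.U44.NormFormulaSep4
import Fermat.Agent.T33.NodalInst4C
import Fermat.Agent.ES.HECKE.PointFormula28

set_option autoImplicit false
set_option linter.unusedSectionVars false
set_option linter.style.haveILetI false
set_option linter.unusedVariables false
set_option synthInstance.maxHeartbeats 400000

noncomputable section

namespace Fermat.Agent.U44.HeckeC4

open HahnSeries ModularCurve IntermediateField IsLocalRing AlgebraicCurve
open Fermat.Agent.RED.Interface4 Fermat.Agent.ES.RED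
  Fermat.Agent.T33.NodalCtx1 Fermat.Agent.T33.NodalHalf4
  Fermat.Agent.T33.NodalBase4A Fermat.Agent.T33.FrickeRed3 Fermat.Agent.U44.DegreeC4
  Fermat.Agent.U44.LevelEll4 Fermat.Agent.U44.WbEll4 Fermat.Agent.T33.NodalInst4A
  Fermat.Agent.ES.HECKE.PointFormula28

variable {p M' : ℕ} [NeZero M'] [NeZero p] {A : ValuationSubring Qbar}
  (h : LevelHyp p M' A) {ℓ : ℕ} [NeZero ℓ] (hℓ : ℓ.Prime) (hℓp : ℓ ≠ p) (hℓM : ¬ ℓ ∣ M')

/-- shortcut instance. -/
local instance (priority := high) algebraKFbH (M : ℕ) [NeZero M] :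
    Algebra (ResidueField ↥A) (Fb A M) := inferInstance

/-! ### the inputs -/

include h in
theorem charP_kA : CharP (Setup8.kA A) p :=
  Fermat.Agent.ES.KRON.KronInst10.charP_residueField A h.prime h.liesOver

include h hℓ hℓp hℓM in
theorem finrankAlong_alpha : finrankAlong (Setup8.kA A) (alphaC (Setup8.kA A) M' ℓ) = ℓ + 1 :=
  haveI : Fact p.Prime := ⟨h.prime⟩
  haveI := charP_kA h
  finrankAlong_alphaC p (Setup8.kA A) M' ℓ hℓ hℓM h.not_dvd hℓp

include h hℓ hℓp hℓM in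
theorem finrankAlong_beta : finrankAlong (Setup8.kA A) (betaC (Setup8.kA A) M' ℓ) = ℓ + 1 :=
  haveI : Fact p.Prime := ⟨h.prime⟩
  haveI := charP_kA h
  finrankAlong_betaC p (Setup8.kA A) M' ℓ hℓ hℓM h.not_dvd hℓp

include h hℓ hℓp hℓM in
theorem finiteAlong_alpha : FiniteAlong (Setup8.kA A) (alphaC (Setup8.kA A) M' ℓ) :=
  haveI : Fact p.Prime := ⟨h.prime⟩
  haveI := charP_kA h
  finiteAlong_alphaC p (Setup8.kA A) M' ℓ hℓ hℓM h.not_dvd hℓp

include h hℓ hℓp hℓM in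
theorem finiteAlong_beta : FiniteAlong (Setup8.kA A) (betaC (Setup8.kA A) M' ℓ) :=
  haveI : Fact p.Prime := ⟨h.prime⟩
  haveI := charP_kA h
  finiteAlong_betaC p (Setup8.kA A) M' ℓ hℓ hℓM h.not_dvd hℓp

include h hℓ hℓp hℓM in
theorem isIntegral_alpha : (alphaC (Setup8.kA A) M' ℓ).toRingHom.IsIntegral :=
  haveI : Fact p.Prime := ⟨h.prime⟩
  haveI := charP_kA h
  isIntegral_alphaC p (Setup8.kA A) M' ℓ hℓ hℓM h.not_dvd hℓp

include h hℓ hℓp hℓM in
theorem isIntegral_beta : (betaC (Setup8.kA A) M' ℓ).toRingHom.IsIntegral :=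
  haveI : Fact p.Prime := ⟨h.prime⟩
  haveI := charP_kA h
  isIntegral_betaC p (Setup8.kA A) M' ℓ hℓ hℓM h.not_dvd hℓp

include h hℓ hℓp in
/-- principal divisors on the special fibre of the level `M' ℓ`. -/
theorem hasPrincipalDivisors : HasPrincipalDivisors (Setup8.kA A) (Fb A (M' * ℓ)) :=
  ⟨(Fermat.Agent.T33.NodalInst4C.lHypFb (hEll h hℓ hℓp)).principal⟩

include h in
theorem hasPrincipalDivisors₀ : HasPrincipalDivisors (Setup8.kA A) (Fb A M') :=
  ⟨(Fermat.Agent.T33.NodalInst4C.lHypFb h).principal⟩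

/-- **the fundamental identity along `ᾱ`.** -/
theorem fundId_alpha :
    haveI := hasPrincipalDivisors h hℓ hℓp
    FundamentalIdentityAlong (Setup8.kA A) (alphaC (Setup8.kA A) M' ℓ)
      (isIntegral_alpha h hℓ hℓp hℓM) :=
  haveI := hasPrincipalDivisors h hℓ hℓp
  Fermat.Agent.U44.FundIdSep4.fundamentalIdentityAlong _ _ (finiteAlong_alpha h hℓ hℓp hℓM)
    (isSeparable_alphaC h hℓ hℓp) (isGen_xOne h) (isGen_xOne (hEll h hℓ hℓp))

/-- **the fundamental identity along `β̄`.** -/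
theorem fundId_beta :
    haveI := hasPrincipalDivisors h hℓ hℓp
    FundamentalIdentityAlong (Setup8.kA A) (betaC (Setup8.kA A) M' ℓ)
      (isIntegral_beta h hℓ hℓp hℓM) :=
  haveI := hasPrincipalDivisors h hℓ hℓp
  Fermat.Agent.U44.FundIdSep4.fundamentalIdentityAlong _ _ (finiteAlong_beta h hℓ hℓp hℓM)
    (isSeparable_betaC h hℓ hℓp) (isGen_xOne h) (isGen_xOne (hEll h hℓ hℓp))

/-- **the norm formula along `ᾱ`.** -/
theorem normFormula_alpha :
    NormFormulaAlong (Setup8.kA A) (alphaC (Setup8.kA A) M' ℓ) (finiteAlong_alpha h hℓ hℓp hℓM) :=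
  Fermat.Agent.U44.NormFormulaSep4.normFormulaAlong _ _ (isSeparable_alphaC h hℓ hℓp)
    (Fermat.Agent.T33.NodalInst4C.lHypFb (hEll h hℓ hℓp)).deg_eq_one

/-- **the norm formula along `β̄`.** -/
theorem normFormula_beta :
    NormFormulaAlong (Setup8.kA A) (betaC (Setup8.kA A) M' ℓ) (finiteAlong_beta h hℓ hℓp hℓM) :=
  Fermat.Agent.U44.NormFormulaSep4.normFormulaAlong _ _ (isSeparable_betaC h hℓ hℓp)
    (Fermat.Agent.T33.NodalInst4C.lHypFb (hEll h hℓ hℓp)).deg_eq_one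

/-! ### the operator -/

/-- **`T̄_ℓ = ᾱ_* β̄^*`** on `Pic⁰` of the special fibre of the good level `M'`. -/
def heckeC : JZeroC (Setup8.kA A) M' →+ JZeroC (Setup8.kA A) M' :=
  haveI := hasPrincipalDivisors h hℓ hℓp
  Pic0.correspondence (betaC (Setup8.kA A) M' ℓ) (alphaC (Setup8.kA A) M' ℓ)
    (isIntegral_beta h hℓ hℓp hℓM) (isIntegral_alpha h hℓ hℓp hℓM) (fundId_beta h hℓ hℓp hℓM)
    (finiteAlong_alpha h hℓ hℓp hℓM) (normFormula_alpha h hℓ hℓp hℓM)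

/-- **the transpose `T̄_ℓᵗ = β̄_* ᾱ^*`.** -/
def heckeCt : JZeroC (Setup8.kA A) M' →+ JZeroC (Setup8.kA A) M' :=
  haveI := hasPrincipalDivisors h hℓ hℓp
  Pic0.correspondence (alphaC (Setup8.kA A) M' ℓ) (betaC (Setup8.kA A) M' ℓ)
    (isIntegral_alpha h hℓ hℓp hℓM) (isIntegral_beta h hℓ hℓp hℓM) (fundId_alpha h hℓ hℓp hℓM)
    (finiteAlong_beta h hℓ hℓp hℓM) (normFormula_beta h hℓ hℓp hℓM)

/-- the divisor-level correspondence `ᾱ_* β̄^*`. -/
def heckeDivC : Divisor (Setup8.kA A) (Fb A M') →+ Divisor (Setup8.kA A) (Fb A M') :=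
  haveI := hasPrincipalDivisors h hℓ hℓp
  Divisor.correspondence (betaC (Setup8.kA A) M' ℓ) (alphaC (Setup8.kA A) M' ℓ)
    (isIntegral_beta h hℓ hℓp hℓM) (isIntegral_alpha h hℓ hℓp hℓM)

/-- the divisor-level correspondence `β̄_* ᾱ^*`. -/
def heckeDivCt : Divisor (Setup8.kA A) (Fb A M') →+ Divisor (Setup8.kA A) (Fb A M') :=
  haveI := hasPrincipalDivisors h hℓ hℓp
  Divisor.correspondence (alphaC (Setup8.kA A) M' ℓ) (betaC (Setup8.kA A) M' ℓ)
    (isIntegral_alpha h hℓ hℓp hℓM) (isIntegral_beta h hℓ hℓp hℓM)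

theorem heckeDivC_mem_degZero {D : Divisor (Setup8.kA A) (Fb A M')}
    (hD : D ∈ Divisor.degZero (K := Setup8.kA A) (F := Fb A M')) :
    heckeDivC h hℓ hℓp hℓM D ∈ Divisor.degZero (K := Setup8.kA A) (F := Fb A M') :=
  haveI := hasPrincipalDivisors h hℓ hℓp
  Divisor.correspondence_mem_degZero _ _ _ _ (fundId_beta h hℓ hℓp hℓM) hD

theorem heckeDivCt_mem_degZero {D : Divisor (Setup8.kA A) (Fb A M')}
    (hD : D ∈ Divisor.degZero (K := Setup8.kA A) (F := Fb A M')) :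
    heckeDivCt h hℓ hℓp hℓM D ∈ Divisor.degZero (K := Setup8.kA A) (F := Fb A M') :=
  haveI := hasPrincipalDivisors h hℓ hℓp
  Divisor.correspondence_mem_degZero _ _ _ _ (fundId_alpha h hℓ hℓp hℓM) hD

/-- **`T̄_ℓ [D] = [ᾱ_* β̄^* D]`.** -/
theorem heckeC_mk (D : Divisor.degZero (K := Setup8.kA A) (F := Fb A M')) :
    heckeC h hℓ hℓp hℓM (Pic0.mk D) =
      Pic0.mk ⟨heckeDivC h hℓ hℓp hℓM (D : Divisor (Setup8.kA A) (Fb A M')),
        heckeDivC_mem_degZero h hℓ hℓp hℓM D.2⟩ := rfl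

/-- **`T̄_ℓᵗ [D] = [β̄_* ᾱ^* D]`.** -/
theorem heckeCt_mk (D : Divisor.degZero (K := Setup8.kA A) (F := Fb A M')) :
    heckeCt h hℓ hℓp hℓM (Pic0.mk D) =
      Pic0.mk ⟨heckeDivCt h hℓ hℓp hℓM (D : Divisor (Setup8.kA A) (Fb A M')),
        heckeDivCt_mem_degZero h hℓ hℓp hℓM D.2⟩ := rfl

/-- **`ᾱ_* β̄^* div u = div (N_ᾱ (β̄ u))`.** -/
theorem heckeDivC_principal {u : Fb A M'} (hu : u ≠ 0) {D : Divisor (Setup8.kA A) (Fb A M')}
    (hD : ∀ v : Place (Setup8.kA A) (Fb A M'), D v = v.ord u)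
    (v : Place (Setup8.kA A) (Fb A M')) :
    heckeDivC h hℓ hℓp hℓM D v =
      v.ord (normAlong (alphaC (Setup8.kA A) M' ℓ) (betaC (Setup8.kA A) M' ℓ u)) :=
  haveI := hasPrincipalDivisors h hℓ hℓp
  correspondence_eq_ord_norm _ _ _ _ (finiteAlong_alpha h hℓ hℓp hℓM)
    (normFormula_alpha h hℓ hℓp hℓM) hu hD v

/-- **`β̄_* ᾱ^* div u = div (N_β̄ (ᾱ u))`.** -/
theorem heckeDivCt_principal {u : Fb A M'} (hu : u ≠ 0) {D : Divisor (Setup8.kA A) (Fb A M')}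
    (hD : ∀ v : Place (Setup8.kA A) (Fb A M'), D v = v.ord u)
    (v : Place (Setup8.kA A) (Fb A M')) :
    heckeDivCt h hℓ hℓp hℓM D v =
      v.ord (normAlong (betaC (Setup8.kA A) M' ℓ) (alphaC (Setup8.kA A) M' ℓ u)) :=
  haveI := hasPrincipalDivisors h hℓ hℓp
  correspondence_eq_ord_norm _ _ _ _ (finiteAlong_beta h hℓ hℓp hℓM)
    (normFormula_beta h hℓ hℓp hℓM) hu hD v

end Fermat.Agent.U44.HeckeC4
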