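/-
Programme U44 (S44), chapter (WIRE), lemma (J2) (helper7): **every integral model of the Frey curve
is bad at `2`.**

If `C • P.freyCurve = W.map (Int.castRingHom ℚ)` for a variable change `C` over `ℚ`, then
`W.c₄ ^ 3 * Δ₀ = c₄₀ ^ 3 * W.Δ` in `ℤ` (`c₄₀`, `Δ₀` the invariants of `P.freyCurveInt`: the
`j`-invariant does not depend on the model).  `Δ₀ = a₄² (A + B)²` is even (`16 a₄ = -A B`,
`32 ∣ B = bᵖ`) and `c₄₀ = A² + A B + B²` is odd (`A = aᵖ` odd), hence `2 ∣ W.Δ`.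

Use in (WIRE): the Hecke operator `T_2` is lost when passing to the auxiliary level
`lcm (N / p) 4`; the frozen `ModularRepOfLevel M` only asks for the congruence at primes where the
model `W` is good, so `ℓ = 2` never occurs.
-/
import Mathlib
import Fermat.Prelude.Def_FLTPrelim_FreyPackage
import Fermat.Prelude.Def_FLTPrelim_Modularity
import Fermat.Agent.Wire.FreyModel9

set_option autoImplicit false

open WeierstrassCurve

namespace Fermat.Agent.U44.FreyBadTwo7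

open Fermat.Agent.Wire.FreyModel9

variable (P : FreyPackage)

/-- `a` is odd. -/
theorem not_two_dvd_a : ¬ (2 : ℤ) ∣ P.a := by
  intro h
  have h4 : ((P.a : ℤ) : ZMod 4) = 3 := P.ha4
  obtain ⟨k, hk⟩ := h
  have h2 : (((P.a : ℤ) : ZMod 4) * 2) = 0 := by
    rw [hk]
    push_cast
    have : (2 : ZMod 4) * (k : ZMod 4) * 2 = 4 * (k : ZMod 4) := by ring
    rw [this]
    have h40 : (4 : ZMod 4) = 0 := by decide
    rw [h40, zero_mul]
  rw [h4] at h2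
  revert h2
  decide

/-- `aᵖ` is odd. -/
theorem not_two_dvd_a_pow : ¬ (2 : ℤ) ∣ P.a ^ P.p := fun h =>
  not_two_dvd_a P (Int.prime_two.dvd_of_dvd_pow h)

/-- `a₄` of the integral Frey model is even. -/
theorem two_dvd_a₄ : (2 : ℤ) ∣ P.freyCurveInt.a₄ := by
  obtain ⟨k, hk⟩ := thirtytwo_dvd_b_pow P
  have h := a₄_mul P
  -- `a₄ * 16 = -(A * (32 k))`, so `a₄ = -2 A k`
  refine ⟨-(P.a ^ P.p) * k, ?_⟩
  have : P.freyCurveInt.a₄ * 16 = (2 * (-(P.a ^ P.p) * k)) * 16 := by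
    rw [h, hk]; ring
  exact mul_right_cancel₀ (by norm_num : (16 : ℤ) ≠ 0) this

/-- `Δ` of the integral Frey model is even. -/
theorem two_dvd_Δ₀ : (2 : ℤ) ∣ P.freyCurveInt.Δ := by
  rw [freyCurveInt_Δ]
  exact Dvd.dvd.mul_right (Dvd.dvd.pow (two_dvd_a₄ P) (by norm_num)) _

/-- `c₄` of the integral Frey model is odd. -/
theorem not_two_dvd_c₄₀ : ¬ (2 : ℤ) ∣ P.freyCurveInt.c₄ := by
  rw [freyCurveInt_c₄]
  intro h
  obtain ⟨k, hk⟩ := two_dvd_b P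
  have hB : (2 : ℤ) ∣ P.b ^ P.p := Dvd.dvd.trans ⟨16, by norm_num⟩ (thirtytwo_dvd_b_pow P)
  have h1 : (2 : ℤ) ∣ P.a ^ P.p * P.b ^ P.p + (P.b ^ P.p) ^ 2 :=
    dvd_add (Dvd.dvd.mul_left hB _) (Dvd.dvd.pow hB (by norm_num))
  have h2 : (2 : ℤ) ∣ (P.a ^ P.p) ^ 2 := by
    have := dvd_sub h h1
    have e : (P.a ^ P.p) ^ 2 + P.a ^ P.p * P.b ^ P.p + (P.b ^ P.p) ^ 2 -
        (P.a ^ P.p * P.b ^ P.p + (P.b ^ P.p) ^ 2) = (P.a ^ P.p) ^ 2 := by ring
    rwa [e] at this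
  exact not_two_dvd_a_pow P (Int.prime_two.dvd_of_dvd_pow h2)

/-- **the `j`-invariant relation between an integral model and the integral Frey model.** -/
theorem c₄_pow_mul_Δ₀ {W : WeierstrassCurve ℤ} (hW : W.IsIntegralModelOf P.freyCurve) :
    W.c₄ ^ 3 * P.freyCurveInt.Δ = P.freyCurveInt.c₄ ^ 3 * W.Δ := by
  obtain ⟨C, hC⟩ := hW
  have hΔ : ((W.Δ : ℤ) : ℚ) = C.u⁻¹ ^ 12 * ((P.freyCurveInt.Δ : ℤ) : ℚ) := by
    have h1 : (W.map (Int.castRingHom ℚ)).Δ = ((W.Δ : ℤ) : ℚ) := by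
      rw [WeierstrassCurve.map_Δ]; rfl
    have h2 : (P.freyCurveInt.map (Int.castRingHom ℚ)).Δ = ((P.freyCurveInt.Δ : ℤ) : ℚ) := by
      rw [WeierstrassCurve.map_Δ]; rfl
    rw [← h1, ← hC, variableChange_Δ, ← freyCurveInt_map, h2]
  have hc : ((W.c₄ : ℤ) : ℚ) = C.u⁻¹ ^ 4 * ((P.freyCurveInt.c₄ : ℤ) : ℚ) := by
    have h1 : (W.map (Int.castRingHom ℚ)).c₄ = ((W.c₄ : ℤ) : ℚ) := by
      rw [WeierstrassCurve.map_c₄]; rfl
    have h2 : (P.freyCurveInt.map (Int.castRingHom ℚ)).c₄ = ((P.freyCurveInt.c₄ : ℤ) : ℚ) := by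
      rw [WeierstrassCurve.map_c₄]; rfl
    rw [← h1, ← hC, variableChange_c₄, ← freyCurveInt_map, h2]
  have key : (((W.c₄ ^ 3 * P.freyCurveInt.Δ : ℤ)) : ℚ) =
      ((P.freyCurveInt.c₄ ^ 3 * W.Δ : ℤ) : ℚ) := by
    push_cast
    rw [hΔ, hc]
    ring
  exact_mod_cast key

/-- **(J2)** every integral model of the Frey curve has even discriminant. -/
theorem two_dvd_Δ {W : WeierstrassCurve ℤ} (hW : W.IsIntegralModelOf P.freyCurve) :
    (2 : ℤ) ∣ W.Δ := by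
  have h := c₄_pow_mul_Δ₀ P hW
  have h1 : (2 : ℤ) ∣ P.freyCurveInt.c₄ ^ 3 * W.Δ := by
    rw [← h]
    exact Dvd.dvd.mul_left (two_dvd_Δ₀ P) _
  rcases Int.prime_two.dvd_or_dvd h1 with h2 | h2
  · exact absurd (Int.prime_two.dvd_of_dvd_pow h2) (not_two_dvd_c₄₀ P)
  · exact h2

/-- **(J2)**, in the vocabulary of the frozen statement: `2` is never a good prime. -/
theorem not_isGoodPrimeFor_two {W : WeierstrassCurve ℤ} (hW : W.IsIntegralModelOf P.freyCurve) :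
    ¬ W.IsGoodPrimeFor 2 := by
  intro h
  apply h
  have := two_dvd_Δ P hW
  exact_mod_cast this

end Fermat.Agent.U44.FreyBadTwo7
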