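/-
Programme U44 (S44), chapter (WIRE) (helper7): **vocabulary of the chain and the top theorem,
with the chapter contracts as hypotheses.**

* `Good W N p`        : the set of primes at which the frozen `ModularRepOfLevel N` asks a congruence;
* `Ep P`              : `E[p](ℚ̄)` of the Frey curve, the module of `GaloisRepIsIrreducible`;
* `FreyEmbeds P W M G`: `E[p]` embeds `G_ℚ`-equivariantly into `J₀(M)(ℚ̄)`, inside the common
                        eigenspace `T_ℓ = a_ℓ(W)`, `ℓ ∈ G`            (output of chapter (C1));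
* `ResModAway W p M G`: a normalised eigenform of level `M` congruent to `W` modulo some maximal
                        ideal over `p`, at the primes of `G`          (output of chapter (LIFT));
* `s44_of_contracts`  : the frozen statement S44 from
    (C1)   `hmod` data ⟹ `FreyEmbeds P W N (Good W N p)`,
    (CORE) `FreyEmbeds P W N (Good W N p)` ⟹ `ResModAway W p (N / p) (Good W N p \ {2})`
  ((CORE) = PULL + FREY + LOC + TR + HECKE + CONN + GAMMA + LIFT, see reports `U44 WIRE`).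
  The bookkeeping of the `ℓ`-sets uses `FreyBadTwo7.not_isGoodPrimeFor_two` (the prime `2`, lost at
  the auxiliary level `lcm (N / p) 4`, is never a good prime of an integral model of the Frey curve).
-/
import Mathlib
import Fermat.Prelude.Def_FLTPrelim_ModularRep
import Fermat.Prelude.Def_FLTPrelim_GaloisRep
import Fermat.Prelude.Def_FreyPackage_IsConductorLevel
import Fermat.Prelude.Def_ModularCurve_HeckeModule
import Fermat.Agent.U44.FreyBadTwo7

set_option autoImplicit false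

open WeierstrassCurve WeierstrassCurve.Affine WeierstrassCurve.Affine.Point
open CuspForm ModularFormClass ModularCurve

noncomputable section

namespace Fermat.Agent.U44.Wire7

/-- `ℚ̄`. -/
abbrev Qb : Type := AlgebraicClosure ℚ

/-- `G_ℚ`. -/
abbrev GQ : Type := Qb ≃ₐ[ℚ] Qb

/-- the primes at which `ModularRepOfLevel N` asks for a congruence with the model `W`. -/
def Good (W : WeierstrassCurve ℤ) (N p : ℕ) : Set ℕ :=
  {ℓ | ℓ.Prime ∧ W.IsGoodPrimeFor ℓ ∧ ¬ ℓ ∣ N ∧ ℓ ≠ p}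

/-- `E[p](ℚ̄)` of the Frey curve. -/
abbrev Ep (P : FreyPackage) : Type :=
  Submodule.torsionBy ℤ (P.freyCurve⁄Qb).Point P.p

/-- **output of (C1)**: `E[p]` sits `G_ℚ`-equivariantly in `J₀(M)(ℚ̄)`, inside the common
eigenspace `T_ℓ = a_ℓ(W)` for the primes `ℓ ∈ G`. -/
def FreyEmbeds (P : FreyPackage) (W : WeierstrassCurve ℤ) (M : ℕ) [NeZero M] (G : Set ℕ) : Prop :=
  ∃ ι : Ep P →+ JZero M, Function.Injective ι ∧
    (∀ (σ : GQ) (z : Ep P), ι (σ • z) = σ • ι z) ∧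
    ∀ ℓ : Nat.Primes, (ℓ : ℕ) ∈ G → ∀ z : Ep P,
      heckeOperatorBar M ℓ (ι z) = (W.apOfModel ℓ) • ι z

/-- **the system of eigenvalues of `W` occurs in `J₀(M)(ℚ̄)[p]`.** -/
def OccursJ (W : WeierstrassCurve ℤ) (p M : ℕ) [NeZero M] (G : Set ℕ) : Prop :=
  ∃ x : JZero M, x ≠ 0 ∧ p • x = 0 ∧
    ∀ ℓ : Nat.Primes, (ℓ : ℕ) ∈ G → heckeOperatorBar M ℓ x = (W.apOfModel ℓ) • x

/-- `FreyEmbeds` gives an occurrence (the Frey representation is non-zero). -/
theorem FreyEmbeds.occursJ {P : FreyPackage} {W : WeierstrassCurve ℤ} {M : ℕ} [NeZero M]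
    {G : Set ℕ} (h : FreyEmbeds P W M G) (hnt : Nontrivial (Ep P)) : OccursJ W P.p M G := by
  obtain ⟨ι, hinj, -, hT⟩ := h
  obtain ⟨z, hz⟩ := exists_ne (0 : Ep P)
  refine ⟨ι z, fun h0 => hz (hinj (by rw [h0, _root_.map_zero])), ?_, fun ℓ hℓ => hT ℓ hℓ z⟩
  rw [← map_nsmul]
  have hpz : P.p • z = 0 := by
    apply Subtype.ext
    have h1 := z.2
    rw [Submodule.mem_torsionBy_iff] at h1
    have h2 : ((P.p • z : Ep P) : (P.freyCurve⁄Qb).Point) = P.p • (z : (P.freyCurve⁄Qb).Point) :=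
      rfl
    rw [h2, ← Nat.cast_smul_eq_nsmul ℤ]
    exact h1
  rw [hpz, _root_.map_zero]

/-- **output of (LIFT)**: a normalised eigenform of level `M` congruent to `W` at the primes of `G`. -/
def ResModAway (W : WeierstrassCurve ℤ) (p M : ℕ) (G : Set ℕ) : Prop :=
  ∃ (g : CuspForm (CongruenceSubgroup.Gamma0 M) 2) (𝔪' : Ideal (integralClosure ℤ ℂ)),
    g.IsNormalizedEigenform ∧ 𝔪'.IsMaximal ∧ (p : integralClosure ℤ ℂ) ∈ 𝔪' ∧
    ∀ ℓ ∈ G, ∃ a : integralClosure ℤ ℂ, (a : ℂ) = ModularFormClass.qCoeff g ℓ ∧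
      a - ((W.apOfModel ℓ : ℤ) : integralClosure ℤ ℂ) ∈ 𝔪'

/-- the literal congruence hypothesis carried by `ModularRepOfLevel N`. -/
def CongAt (W : WeierstrassCurve ℤ) (p N : ℕ) (f : CuspForm (CongruenceSubgroup.Gamma0 N) 2)
    (𝔪 : Ideal (integralClosure ℤ ℂ)) : Prop :=
  ∀ ℓ : ℕ, ℓ.Prime → W.IsGoodPrimeFor ℓ → ¬ ℓ ∣ N → ℓ ≠ p →
    ∃ a : integralClosure ℤ ℂ, (a : ℂ) = ModularFormClass.qCoeff f ℓ ∧
      a - ((W.apOfModel ℓ : ℤ) : integralClosure ℤ ℂ) ∈ 𝔪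

/-- **contract (C1)**. -/
def C1Stmt : Prop :=
  ∀ (P : FreyPackage) {N : ℕ} [NeZero N], P.IsConductorLevel N → P.p ∣ N →
    GaloisRepIsIrreducible (K := Qb) ℚ P.freyCurve P.p →
    ∀ (f : CuspForm (CongruenceSubgroup.Gamma0 N) 2) (W : WeierstrassCurve ℤ)
      (𝔪 : Ideal (integralClosure ℤ ℂ)),
      f.IsNormalizedEigenform → W.IsIntegralModelOf P.freyCurve → 𝔪.IsMaximal →
      (P.p : integralClosure ℤ ℂ) ∈ 𝔪 → CongAt W P.p N f 𝔪 →
      FreyEmbeds P W N (Good W N P.p)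

/-- **contract (CORE)** = PULL + FREY + LOC + TR + HECKE + CONN + GAMMA + LIFT. -/
def CoreStmt : Prop :=
  ∀ (P : FreyPackage) {N : ℕ} [NeZero N], P.IsConductorLevel N → P.p ∣ N →
    GaloisRepIsIrreducible (K := Qb) ℚ P.freyCurve P.p →
    ∀ W : WeierstrassCurve ℤ, W.IsIntegralModelOf P.freyCurve →
      FreyEmbeds P W N (Good W N P.p) →
      ResModAway W P.p (N / P.p) (Good W N P.p \ {2})

/-- a prime dividing `N = (N / p) * p` and different from `p` divides `N / p`. -/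
theorem dvd_div_of_dvd {N p ℓ : ℕ} (hp : p.Prime) (hℓ : ℓ.Prime) (hpN : p ∣ N) (hℓN : ℓ ∣ N)
    (hℓp : ℓ ≠ p) : ℓ ∣ N / p := by
  have hN : N / p * p = N := Nat.div_mul_cancel hpN
  rw [← hN] at hℓN
  rcases (Nat.Prime.dvd_mul hℓ).1 hℓN with h | h
  · exact h
  · exact absurd ((Nat.prime_dvd_prime_iff_eq hℓ hp).1 h) hℓp

/-- **S44 from the contracts (C1) and (CORE).**  The conclusion is the literal frozen one. -/
theorem s44_of_contracts (hC1 : C1Stmt) (hCore : CoreStmt)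
    (P : FreyPackage) {N : ℕ} (hcond : P.IsConductorLevel N) (hpN : P.p ∣ N)
    (hirr : GaloisRepIsIrreducible (K := AlgebraicClosure ℚ) ℚ P.freyCurve P.p)
    (hmod : P.ModularRepOfLevel N) :
    ∃ M : ℕ, M ∣ N ∧ ¬ P.p ∣ M ∧ P.ModularRepOfLevel M := by
  have : NeZero N := ⟨hcond.pos.ne'⟩
  obtain ⟨f, W, 𝔪, hf, hW, hmax, hpm, hcong⟩ := hmod
  have h1 : FreyEmbeds P W N (Good W N P.p) := hC1 P hcond hpN hirr f W 𝔪 hf hW hmax hpm hcong
  obtain ⟨g, 𝔪', hg, hmax', hpm', hc⟩ := hCore P hcond hpN hirr W hW h1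
  refine ⟨N / P.p, Nat.div_dvd_of_dvd hpN, ?_, g, W, 𝔪', hg, hW, hmax', hpm', ?_⟩
  · -- `p ∤ N / p` because `N` is squarefree
    intro h
    apply hcond.sq_not_dvd P.pp
    obtain ⟨k, hk⟩ := h
    refine ⟨k, ?_⟩
    have hN : N / P.p * P.p = N := Nat.div_mul_cancel hpN
    rw [← hN, hk]
    ring
  · intro ℓ hℓ hgood hℓM hℓp
    refine hc ℓ ⟨⟨hℓ, hgood, fun hℓN => hℓM (dvd_div_of_dvd P.pp hℓ hpN hℓN hℓp), hℓp⟩, ?_⟩
    intro h2
    have h2' : ℓ = 2 := h2
    subst h2'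
    exact Fermat.Agent.U44.FreyBadTwo7.not_isGoodPrimeFor_two P hW hgood

end Fermat.Agent.U44.Wire7
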