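/-
Programme U44 (S44), chapter (WIRE), step (PULL) (helper7): **`FreyEmbeds` passes to a higher level.**

* `pull` : for `N ∣ M` with `π^* : J₀(N) → J₀(M)` injective on torsion, `FreyEmbeds P W N G` gives
  `FreyEmbeds P W M G'` for every `G' ⊆ G` consisting of primes not dividing `M` (the new embedding is
  `π^* ∘ ι`; Galois equivariance `PullbackInj12.levelPullback_smul`, Hecke equivariance
  `LevelTop20.levelPullback_heckeOperatorAlong`);
* `pull_aux` : the case `M = auxLevel p N = lcm N 4` (`p` odd), `G' = G \ {2}`;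
* `pull_mem_range` : the image of the new embedding lies in the image of `π^*` (for the descent
  chapter (GAMMA)).
-/
import Mathlib
import Fermat.Agent.U44.Wire7
import Fermat.Agent.ES.HECKE.LevelTop20
import Fermat.Agent.ES.RED.PullbackInj12

set_option autoImplicit false
set_option linter.unusedSectionVars false
set_option linter.style.haveILetI false

open AlgebraicCurve ModularCurve
open WeierstrassCurve WeierstrassCurve.Affine WeierstrassCurve.Affine.Point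

noncomputable section

namespace Fermat.Agent.U44.Pull7

open Fermat.Agent.U44.Wire7 Fermat.Agent.ES.HECKE.LevelPullback12 Fermat.Agent.RED.Interface4

variable {P : FreyPackage} {W : WeierstrassCurve ℤ} {N M : ℕ} [NeZero N] [NeZero M]

/-- `E[p]` is killed by `p`. -/
theorem nsmul_Ep (z : Ep P) : P.p • z = 0 := by
  apply Subtype.ext
  have h1 := z.2
  rw [Submodule.mem_torsionBy_iff] at h1
  have h2 : ((P.p • z : Ep P) : (P.freyCurve⁄Qb).Point) = P.p • (z : (P.freyCurve⁄Qb).Point) :=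
    rfl
  rw [h2, ← Nat.cast_smul_eq_nsmul ℤ]
  exact h1

/-- **(PULL)**, with the explicit embedding. -/
theorem pull' (hNM : N ∣ M)
    (hinj : ∀ m : ℕ, 0 < m → ∀ x : JZero N, m • x = 0 → levelPullback hNM x = 0 → x = 0)
    {G G' : Set ℕ} (hG' : ∀ ℓ ∈ G', ℓ ∈ G ∧ ¬ ℓ ∣ M)
    (ι : Ep P →+ JZero N) (hι : Function.Injective ι)
    (hσ : ∀ (σ : GQ) (z : Ep P), ι (σ • z) = σ • ι z)
    (hT : ∀ ℓ : Nat.Primes, (ℓ : ℕ) ∈ G → ∀ z : Ep P,
      heckeOperatorBar N ℓ (ι z) = (W.apOfModel ℓ) • ι z) :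
    Function.Injective ((levelPullback hNM).comp ι) ∧
    (∀ (σ : GQ) (z : Ep P), (levelPullback hNM).comp ι (σ • z) = σ • (levelPullback hNM).comp ι z) ∧
    ∀ ℓ : Nat.Primes, (ℓ : ℕ) ∈ G' → ∀ z : Ep P,
      heckeOperatorBar M ℓ ((levelPullback hNM).comp ι z) =
        (W.apOfModel ℓ) • (levelPullback hNM).comp ι z := by
  refine ⟨?_, ?_, ?_⟩
  · intro z z' hzz'
    apply hι
    rw [← sub_eq_zero]
    have hp0 : 0 < P.p := P.hppos
    refine hinj P.p hp0 _ ?_ ?_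
    · rw [← map_sub, ← map_nsmul, nsmul_Ep, _root_.map_zero]
    · rw [map_sub, sub_eq_zero]
      exact hzz'
  · intro σ z
    show levelPullback hNM (ι (σ • z)) = σ • levelPullback hNM (ι z)
    rw [hσ, Fermat.Agent.ES.RED.PullbackInj12.levelPullback_smul]
  · intro ℓ hℓ z
    obtain ⟨hℓG, hℓM⟩ := hG' ℓ hℓ
    show heckeOperatorBar M ℓ (levelPullback hNM (ι z)) = (W.apOfModel ℓ) • levelPullback hNM (ι z)
    haveI : NeZero (ℓ : ℕ) := ⟨ℓ.2.ne_zero⟩
    have h1 := Fermat.Agent.ES.HECKE.LevelTop20.levelPullback_heckeOperatorAlong hNM ℓ.2 hℓM (ι z)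
    have h2 : heckeOperatorBar M ℓ (levelPullback hNM (ι z)) =
        heckeOperatorAlong Qb M ℓ (levelPullback hNM (ι z)) := rfl
    have h3 : heckeOperatorAlong Qb N ℓ (ι z) = heckeOperatorBar N ℓ (ι z) := rfl
    rw [h2, ← h1, h3, hT ℓ hℓG z, map_zsmul]

/-- **(PULL)**. -/
theorem pull (hNM : N ∣ M)
    (hinj : ∀ m : ℕ, 0 < m → ∀ x : JZero N, m • x = 0 → levelPullback hNM x = 0 → x = 0)
    {G G' : Set ℕ} (hG' : ∀ ℓ ∈ G', ℓ ∈ G ∧ ¬ ℓ ∣ M) (h : FreyEmbeds P W N G) :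
    FreyEmbeds P W M G' := by
  obtain ⟨ι, hι, hσ, hT⟩ := h
  obtain ⟨h1, h2, h3⟩ := pull' hNM hinj hG' ι hι hσ hT
  exact ⟨(levelPullback hNM).comp ι, h1, h2, h3⟩

/-- a prime `ℓ ≠ 2` not dividing `N` does not divide `auxLevel p N = lcm N 4` (`p` odd). -/
theorem not_dvd_auxLevel {p N ℓ : ℕ} (hp2 : p ≠ 2) (hℓ : ℓ.Prime) (hℓ2 : ℓ ≠ 2) (hℓN : ¬ ℓ ∣ N) :
    ¬ ℓ ∣ auxLevel p N := by
  have haux : auxLevel p N = Nat.lcm N 4 := by
    unfold auxLevel
    rw [if_neg hp2]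
  rw [haux]
  intro h
  have h1 : ℓ ∣ N * 4 := dvd_trans h (Nat.lcm_dvd_mul N 4)
  rcases (Nat.Prime.dvd_mul hℓ).1 h1 with h2 | h2
  · exact hℓN h2
  · have h3 : ℓ ∣ 2 ^ 2 := by norm_num; exact h2
    exact hℓ2 ((Nat.prime_dvd_prime_iff_eq hℓ Nat.prime_two).1 (hℓ.dvd_of_dvd_pow h3))

/-- **(PULL) to the auxiliary level `lcm N 4`.** -/
theorem pull_aux (hM : M = auxLevel P.p N) (h : FreyEmbeds P W N (Good W N P.p)) :
    FreyEmbeds P W M (Good W N P.p \ {2}) := by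
  subst hM
  have hp2 : P.p ≠ 2 := by have := P.hp5; omega
  refine pull (dvd_auxLevel P.p N)
    (fun m hm x hmx hx =>
      Fermat.Agent.ES.RED.PullbackInj12.levelPullback_auxLevel_eq_zero P.p N m hm x hmx hx)
    (fun ℓ hℓ => ⟨hℓ.1, not_dvd_auxLevel hp2 hℓ.1.1 (fun h2 => hℓ.2 h2) hℓ.1.2.2.1⟩) h

end Fermat.Agent.U44.Pull7
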