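/-
Programme U44 (target S44), chapter (LIFT), cheap half (L-B) (helper5).

**Deligne–Serre lift from the annihilator condition.**  Let `𝓛` be a set of primes not dividing
`M`, `a : ℕ → ℤ`, `p` a prime.  Assume that every integral polynomial `s` in the Hecke operators
`T_ℓ` (`ℓ ∈ 𝓛`) which vanishes on `S₂(Γ₀(M))` satisfies `p ∣ s(a)`.  Then there are a normalised
eigenform `f ∈ S₂(Γ₀(M))` and a maximal ideal `𝔪' ∋ p` of the algebraic integers such that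
`a_ℓ(f) ≡ a ℓ mod 𝔪'` for all `ℓ ∈ 𝓛` — the tail of `FreyPackage.ModularRepOfLevel` /
`WeierstrassCurve.IsResiduallyModularOfLevel`.

Inputs: `S22.result` (the Hecke algebra is finite over `ℤ`), `S49.exists_eigenvector_lift`
(abstract Deligne–Serre), `EigenformOfCommon23` (a Hecke-stable subspace contains a normalised
eigenform; read-off of eigenvalues).
-/
import Mathlib
import Fermat.Agent.S22
import Fermat.Agent.S49.CommAlg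
import Fermat.Agent.ES.LR.EigenformOfCommon23

set_option autoImplicit false

open CuspForm CongruenceSubgroup ModularFormClass

namespace Fermat.Agent.U44.LiftCore5

variable {M : ℕ} [NeZero M]

/-- the Hecke operators `T_ℓ`, `ℓ ∈ 𝓛`, as elements of the (commutative) full Hecke algebra. -/
noncomputable def tL (Lset : Set ℕ) (hL : ∀ ℓ ∈ Lset, ℓ.Prime ∧ ¬ ℓ ∣ M) (ℓ : ↥Lset) :
    heckeAlgebra M 2 (∅ : Set ℕ) :=
  heckeAlgebra.T (hL ℓ.1 ℓ.2).1 (hL ℓ.1 ℓ.2).2 (Set.notMem_empty _)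

theorem tL_val (Lset : Set ℕ) (hL : ∀ ℓ ∈ Lset, ℓ.Prime ∧ ¬ ℓ ∣ M) (ℓ : ↥Lset) :
    ((tL Lset hL ℓ : heckeAlgebra M 2 (∅ : Set ℕ)) :
      Module.End ℂ (CuspForm (Gamma0 M) 2)) = heckeTLin 2 (hL ℓ.1 ℓ.2).1 (hL ℓ.1 ℓ.2).2 := rfl

/-- **(L-B): Deligne–Serre lift from the annihilator condition.** -/
theorem lift_of_ann {p : ℕ} (hp : p.Prime) (Lset : Set ℕ)
    (hL : ∀ ℓ ∈ Lset, ℓ.Prime ∧ ¬ ℓ ∣ M) (a : ℕ → ℤ)
    (hann : ∀ s : MvPolynomial ↥Lset ℤ, MvPolynomial.aeval (tL Lset hL) s = 0 →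
      (p : ℤ) ∣ MvPolynomial.eval (fun ℓ : ↥Lset => a ℓ.1) s) :
    ∃ (f : CuspForm (Gamma0 M) 2) (𝔪' : Ideal (integralClosure ℤ ℂ)),
      f.IsNormalizedEigenform ∧ 𝔪'.IsMaximal ∧ (p : integralClosure ℤ ℂ) ∈ 𝔪' ∧
      ∀ ℓ ∈ Lset, ∃ c : integralClosure ℤ ℂ, (c : ℂ) = qCoeff ⇑f ℓ ∧
        c - ((a ℓ : ℤ) : integralClosure ℤ ℂ) ∈ 𝔪' := by
  classical
  have : Fact p.Prime := ⟨hp⟩
  have hfinV : FiniteDimensional ℂ (CuspForm (Gamma0 M) 2) := Fermat.Agent.S21.Assembly.finite_cusp M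
  have hfinT : Module.Finite ℤ (heckeAlgebra M 2 (∅ : Set ℕ)) := Fermat.Agent.S22.result M 2 ∅
  -- the evaluation `ℤ[X_ℓ] → 𝕋`, its range `A'`
  let φ : MvPolynomial ↥Lset ℤ →ₐ[ℤ] heckeAlgebra M 2 (∅ : Set ℕ) := MvPolynomial.aeval (tL Lset hL)
  let A' : Subalgebra ℤ (heckeAlgebra M 2 (∅ : Set ℕ)) := φ.range
  have : IsNoetherian ℤ (heckeAlgebra M 2 (∅ : Set ℕ)) := isNoetherian_of_isNoetherianRing_of_finite ℤ _
  have hfinA' : Module.Finite ℤ A' :=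
    Module.Finite.of_injective (Subalgebra.val A').toLinearMap Subtype.val_injective
  let φr : MvPolynomial ↥Lset ℤ →+* A' := φ.rangeRestrict.toRingHom
  have hφr : Function.Surjective φr := φ.rangeRestrict_surjective
  -- the character mod `p`
  let evp : MvPolynomial ↥Lset ℤ →+* ZMod p :=
    (Int.castRingHom (ZMod p)).comp (MvPolynomial.eval (fun ℓ : ↥Lset => a ℓ.1))
  have hker : RingHom.ker φr ≤ RingHom.ker evp := by
    intro s hs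
    rw [RingHom.mem_ker] at hs ⊢
    have h0 : φ s = 0 := by
      have := congrArg Subtype.val hs
      exact this
    have hd := hann s h0
    show (Int.castRingHom (ZMod p)) (MvPolynomial.eval (fun ℓ : ↥Lset => a ℓ.1) s) = 0
    rw [eq_intCast, ZMod.intCast_zmod_eq_zero_iff_dvd]
    exact hd
  let ψ : A' →+* ZMod p := RingHom.liftOfSurjective φr hφr ⟨evp, hker⟩
  have hψ : ∀ s, ψ (φr s) = evp s := fun s =>
    RingHom.liftOfRightInverse_comp_apply _ _ (Function.surjInv_eq hφr) ⟨evp, hker⟩ s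
  let 𝔫 : Ideal A' := RingHom.ker ψ
  have h𝔫 : 𝔫.IsPrime := RingHom.ker_isPrime ψ
  -- the faithful action
  let ρ : A' →+* Module.End ℂ (CuspForm (Gamma0 M) 2) :=
    ((heckeAlgebra M 2 (∅ : Set ℕ)).val.toRingHom).comp (Subalgebra.val A').toRingHom
  have hρ : Function.Injective ρ := fun x y h => Subtype.ext (Subtype.ext h)
  obtain ⟨w, χ, 𝔪', hw0, heig, hmax, hle⟩ :=
    Fermat.Agent.S49.exists_eigenvector_lift ρ hρ 𝔫
  -- the eigenvalues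
  let c : ↥Lset → integralClosure ℤ ℂ := fun ℓ => χ (φr (MvPolynomial.X ℓ))
  have hcT : ∀ ℓ : ↥Lset, heckeTLin 2 (hL ℓ.1 ℓ.2).1 (hL ℓ.1 ℓ.2).2 w = ((c ℓ : integralClosure ℤ ℂ) : ℂ) • w := by
    intro ℓ
    have h := heig (φr (MvPolynomial.X ℓ))
    have h1 : ρ (φr (MvPolynomial.X ℓ)) = heckeTLin 2 (hL ℓ.1 ℓ.2).1 (hL ℓ.1 ℓ.2).2 := by
      show ((φ (MvPolynomial.X ℓ) : heckeAlgebra M 2 (∅ : Set ℕ)) :
        Module.End ℂ (CuspForm (Gamma0 M) 2)) = _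
      rw [show φ (MvPolynomial.X ℓ) = tL Lset hL ℓ from MvPolynomial.aeval_X _ _]
      rfl
    rw [h1] at h
    exact h
  have hc𝔪 : ∀ ℓ : ↥Lset, c ℓ - ((a ℓ.1 : ℤ) : integralClosure ℤ ℂ) ∈ 𝔪' := by
    intro ℓ
    have hmem : φr (MvPolynomial.X ℓ - MvPolynomial.C (a ℓ.1)) ∈ 𝔫 := by
      show ψ (φr (MvPolynomial.X ℓ - MvPolynomial.C (a ℓ.1))) = 0
      rw [hψ]
      show (Int.castRingHom (ZMod p))
        (MvPolynomial.eval (fun ℓ : ↥Lset => a ℓ.1) (MvPolynomial.X ℓ - MvPolynomial.C (a ℓ.1))) = 0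
      rw [map_sub, MvPolynomial.eval_X, MvPolynomial.eval_C, sub_self, map_zero]
    have h2 := hle hmem
    rw [Ideal.mem_comap, map_sub, map_sub] at h2
    have h3 : χ (φr (MvPolynomial.C (a ℓ.1))) = ((a ℓ.1 : ℤ) : integralClosure ℤ ℂ) := by
      have : (MvPolynomial.C (a ℓ.1) : MvPolynomial ↥Lset ℤ) = ((a ℓ.1 : ℤ) : MvPolynomial ↥Lset ℤ) := by
        simp
      rw [this, map_intCast, map_intCast]
    rw [h3] at h2
    exact h2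
  have hp𝔪 : (p : integralClosure ℤ ℂ) ∈ 𝔪' := by
    have hmem : φr ((p : ℤ) : MvPolynomial ↥Lset ℤ) ∈ 𝔫 := by
      show ψ (φr ((p : ℤ) : MvPolynomial ↥Lset ℤ)) = 0
      rw [map_intCast, map_intCast]
      simp
    have h2 := hle hmem
    rw [Ideal.mem_comap, map_intCast, map_intCast] at h2
    exact_mod_cast h2
  -- the joint eigenspace
  let V : Submodule ℂ (CuspForm (Gamma0 M) 2) :=
    ⨅ ℓ : ↥Lset, LinearMap.ker
      (heckeTLin 2 (hL ℓ.1 ℓ.2).1 (hL ℓ.1 ℓ.2).2 - ((c ℓ : integralClosure ℤ ℂ) : ℂ) • (1 : Module.End ℂ _))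
  have hmemV : ∀ g : CuspForm (Gamma0 M) 2, g ∈ V ↔
      ∀ ℓ : ↥Lset, heckeTLin 2 (hL ℓ.1 ℓ.2).1 (hL ℓ.1 ℓ.2).2 g = ((c ℓ : integralClosure ℤ ℂ) : ℂ) • g := by
    intro g
    simp only [V, Submodule.mem_iInf, LinearMap.mem_ker, LinearMap.sub_apply, LinearMap.smul_apply,
      Module.End.one_apply, sub_eq_zero]
  have hwV : w ∈ V := (hmemV w).2 hcT
  have hVne : V ≠ ⊥ := fun h => hw0 (by rw [h] at hwV; exact (Submodule.mem_bot ℂ).1 hwV)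
  have hVT : ∀ (ℓ' : ℕ) (hℓ' : ℓ'.Prime) (hℓ'M : ¬ ℓ' ∣ M), ∀ g ∈ V,
      CuspForm.heckeTLin 2 hℓ' hℓ'M g ∈ V := by
    intro ℓ' hℓ' hℓ'M g hg
    rw [hmemV] at hg ⊢
    intro ℓ
    have hcomm := CuspForm.heckeTLin_comm 2 (hL ℓ.1 ℓ.2).1 (hL ℓ.1 ℓ.2).2 hℓ' hℓ'M
    have h1 : heckeTLin 2 (hL ℓ.1 ℓ.2).1 (hL ℓ.1 ℓ.2).2 (heckeTLin 2 hℓ' hℓ'M g) =
        heckeTLin 2 hℓ' hℓ'M (heckeTLin 2 (hL ℓ.1 ℓ.2).1 (hL ℓ.1 ℓ.2).2 g) := by
      have := congrArg (fun T : Module.End ℂ (CuspForm (Gamma0 M) 2) => T g) hcomm.eq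
      exact this
    rw [h1, hg ℓ, map_smul]
  have hVU : ∀ (ℓ' : ℕ) (_ : ℓ'.Prime) (hℓ'M : ℓ' ∣ M), ∀ g ∈ V,
      CuspForm.heckeULin 2 hℓ'M g ∈ V := by
    intro ℓ' _ hℓ'M g hg
    rw [hmemV] at hg ⊢
    intro ℓ
    have hcomm := CuspForm.heckeTLin_heckeULin_comm 2 (hL ℓ.1 ℓ.2).1 (hL ℓ.1 ℓ.2).2 hℓ'M
    have h1 : heckeTLin 2 (hL ℓ.1 ℓ.2).1 (hL ℓ.1 ℓ.2).2 (heckeULin 2 hℓ'M g) =
        heckeULin 2 hℓ'M (heckeTLin 2 (hL ℓ.1 ℓ.2).1 (hL ℓ.1 ℓ.2).2 g) := by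
      have := congrArg (fun T : Module.End ℂ (CuspForm (Gamma0 M) 2) => T g) hcomm.eq
      exact this
    rw [h1, hg ℓ, map_smul]
  obtain ⟨f, hfV, hf⟩ :=
    Fermat.Agent.ES.LR.EigenformOfCommon23.exists_normalizedEigenform_mem V hVne hVT hVU
  refine ⟨f, 𝔪', hf, hmax, hp𝔪, ?_⟩
  intro ℓ hℓ
  refine ⟨c ⟨ℓ, hℓ⟩, ?_, hc𝔪 ⟨ℓ, hℓ⟩⟩
  exact (Fermat.Agent.ES.LR.EigenformOfCommon23.qCoeff_eq_of_heckeTLin_eq_smul hf
    (hL ℓ hℓ).1 (hL ℓ hℓ).2 ((hmemV f).1 hfV ⟨ℓ, hℓ⟩)).symm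

end Fermat.Agent.U44.LiftCore5
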