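/-
Programme U44 (target S44), stage 0, chapter (GAMMA), file 1 (helper2): **the involution
`τ : q ↦ -q` of the function field `Fbar L` of `X₀(L)`, `4 ∣ L`.**

Classically `τ` is `z ↦ z + 1/2`, which normalises `Γ₀(L)` exactly when `4 ∣ L`; it is the deck
transformation of the degeneracy map `z ↦ 2z : X₀(L) → X₀(L/2)`.  Here it is obtained with NO modular
identity, from a degree count: the subfield `W_L (Fbar (L/2)) ⊆ ℚ̄((q²))` has index `2` in `Fbar L`
(`ψ(L) = 2 ψ(L/2)`), so each generator `x = j(q^d)` (`d` odd) satisfies a quadratic relation with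
coefficients in `ℚ̄((q²))`; the coefficientwise twist `tw = (q ↦ -q)` fixes these coefficients, so
`tw x` is the other root, `tw x = -C₁/C₂ - x ∈ Fbar L`.

* `tw : ℚ̄((q)) →ₐ[ℚ̄] ℚ̄((q))`, `tw_tw`, `tw_qExpand_even`, `tw_qExpand_odd`;
* `coe_frickeBar_levelIncl` : `W_{2M} (f) = (W_M f)(q²)` for `f ∈ Fbar M`;
* `relfinrank_two` : `[Fbar (M * 2) : Fbar M] = 2` for `2 ∣ M`;
* `tw_mem` : `tw` maps `Fbar (M * 2)` into itself (`2 ∣ M`);
* `tau M hM : Fbar (M * 2) ≃ₐ[ℚ̄] Fbar (M * 2)`, `coe_tau`, `tau_tau`;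
* `tau' M hM = W τ W` (the deck involution of `X₀(2M) → X₀(M)`), `tau'_tau'`, `tau'_levelIncl`;
* `tau'_eq_self_iff` : the fixed field of `τ'` is `Fbar M`; `tau_eq_self_iff` : the fixed field of
  `τ` is `{f(q²) : f ∈ Fbar M}`.
-/
import Mathlib
import Fermat.Agent.ES.KRON.KronCong24
import Fermat.Agent.ES.N34.FrickeFK8
import Fermat.Agent.ES.HECKE.LevelPullback12
import Fermat.Agent.RED.BASE.TGen19
import Fermat.Agent.IG.PR.Counting20

set_option autoImplicit false
set_option linter.unusedSectionVars false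
set_option synthInstance.maxHeartbeats 400000

noncomputable section

namespace Fermat.Agent.U44.GammaTwist2

open HahnSeries ModularCurve IntermediateField
open Fermat.Agent.X0 Fermat.Agent.ES.KRON.KronCong24 Fermat.Agent.ES.N34.FrickeFK8
  Fermat.Agent.ES.HECKE.LevelPullback12

/-! ### the coefficientwise twist `q ↦ -q` -/

/-- **the twist `q ↦ -q`** of `ℚ̄((q))`, as a `ℚ̄`-algebra endomorphism. -/
def tw : LaurentSeries Kbar →ₐ[Kbar] LaurentSeries Kbar :=
  { twistU (-1 : Kbarˣ) with
    commutes' := fun c => by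
      show twistU (-1 : Kbarˣ) (algebraMap Kbar (LaurentSeries Kbar) c) =
        algebraMap Kbar (LaurentSeries Kbar) c
      rw [algebraMap_laurentSeries_eq_single]
      ext n
      rw [twistU_coeff, HahnSeries.coeff_single]
      split_ifs with h
      · subst h; simp
      · simp }

@[simp] theorem tw_coeff (x : LaurentSeries Kbar) (n : ℤ) :
    (tw x).coeff n = (((-1 : Kbarˣ) ^ n : Kbarˣ) : Kbar) * x.coeff n := rfl

theorem tw_tw (x : LaurentSeries Kbar) : tw (tw x) = x := by
  show twistU (-1 : Kbarˣ) (twistU (-1 : Kbarˣ) x) = x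
  rw [← twistU_mul]
  simp

theorem tw_qExpand_even (d : ℕ) [NeZero d] (hd : Even d) (x : LaurentSeries Kbar) :
    tw (qExpand Kbar d x) = qExpand Kbar d x :=
  twistU_qExpand d (-1 : Kbarˣ) hd.neg_one_pow x

theorem tw_qExpand_odd (d : ℕ) [NeZero d] (hd : Odd d) (x : LaurentSeries Kbar) :
    tw (qExpand Kbar d x) = qExpand Kbar d (tw x) := by
  ext n
  rw [tw_coeff]
  by_cases hn : (d : ℤ) ∣ n
  · obtain ⟨c, rfl⟩ := hn
    rw [qExpand_coeff_mul, qExpand_coeff_mul, tw_coeff, zpow_mul, zpow_natCast, hd.neg_one_pow]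
  · rw [qExpand_coeff_of_not_dvd d x hn, qExpand_coeff_of_not_dvd d _ hn, mul_zero]

/-! ### `ℚ̄`-algebra maps out of `Fbar N` are determined by the generators -/

/-- Two `ℚ̄`-algebra maps from `Fbar N` to a field that agree on the generators `x_d` agree. -/
theorem algHom_ext_jdF' {T : Type*} [Field T] [Algebra Kbar T] (N : ℕ) [NeZero N]
    {φ ψ : FF N →ₐ[Kbar] T}
    (h : ∀ (d : ℕ) [NeZero d] (hd : d ∣ N), φ (jdF N d hd) = ψ (jdF N d hd)) : φ = ψ := by
  have hR : ∀ u : Rsub N, φ (u : FF N) = ψ (u : FF N) := by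
    intro u
    induction u using FracR.Rsub_induction with
    | hgen d hd => exact h d hd
    | hconst c =>
        show φ (algebraMap Kbar (FF N) c) = ψ (algebraMap Kbar (FF N) c)
        rw [φ.commutes, ψ.commutes]
    | hadd u v hu hv =>
        show φ ((u : FF N) + (v : FF N)) = ψ ((u : FF N) + (v : FF N))
        rw [map_add, map_add, hu, hv]
    | hmul u v hu hv =>
        show φ ((u : FF N) * (v : FF N)) = ψ ((u : FF N) * (v : FF N))
        rw [map_mul, map_mul, hu, hv]
  apply AlgHom.ext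
  intro y
  obtain ⟨r, s, rfl⟩ := FracR.exists_div N y
  rw [map_div₀, map_div₀, hR r, hR s]

/-! ### `W_{2M}` on the subfield `Fbar M` -/

/-- **`W_{2M} f = (W_M f)(q²)` for `f ∈ Fbar M ⊆ Fbar (2M)`.** -/
theorem coe_frickeBar_levelIncl (M : ℕ) [NeZero M] (c : FF M) :
    ((frickeBar (M * 2) (levelIncl (dvd_mul_right M 2) c) : FF (M * 2)) : LaurentSeries Kbar) =
      qExpand Kbar 2 ((frickeBar M c : FF M) : LaurentSeries Kbar) := by
  set φ₁ : FF M →ₐ[Kbar] LaurentSeries Kbar :=
    (modularFunctionFieldBar (M * 2)).val.comp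
      ((frickeBar (M * 2)).comp (levelIncl (dvd_mul_right M 2))) with hφ₁
  set φ₂ : FF M →ₐ[Kbar] LaurentSeries Kbar :=
    (qExpandAlgHomC Kbar 2).comp ((modularFunctionFieldBar M).val.comp (frickeBar M)) with hφ₂
  have key : φ₁ = φ₂ := by
    apply algHom_ext_jdF'
    intro d _ hd
    obtain ⟨e, hde⟩ := hd
    have he0 : e ≠ 0 := by
      rintro rfl
      exact NeZero.ne M (by rw [hde, mul_zero])
    have : NeZero e := ⟨he0⟩
    have : NeZero (e * 2) := ⟨by omega⟩
    have hde2 : d * (e * 2) = M * 2 := by rw [hde]; ring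
    have h1 : levelIncl (dvd_mul_right M 2) (jdF M d ⟨e, hde⟩) =
        jdF (M * 2) d (Dvd.intro _ hde2) := by
      apply Subtype.ext
      rw [coe_levelIncl, coe_jdF_eq_qExpand, coe_jdF_eq_qExpand]
    have h2 := frickeBar_jdF (M * 2) d (e * 2) hde2
    have h3 := frickeBar_jdF M d e hde.symm
    show ((frickeBar (M * 2) (levelIncl (dvd_mul_right M 2) (jdF M d ⟨e, hde⟩)) : FF (M * 2)) :
        LaurentSeries Kbar) = qExpand Kbar 2 ((frickeBar M (jdF M d ⟨e, hde⟩) : FF M) :
        LaurentSeries Kbar)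
    rw [h1, h2, h3, coe_jdF_eq_qExpand, coe_jdF_eq_qExpand, qExpand_qExpand]
    exact qExpand_congr (mul_comm e 2) _
  exact DFunLike.congr_fun key c

/-! ### the degree `[Fbar (2M) : Fbar M] = 2` for even `M` -/

/-- **`[Fbar (M * 2) : Fbar M] = 2` when `2 ∣ M`** (`ψ(2M) = 2 ψ(M)`). -/
theorem relfinrank_two (M : ℕ) [NeZero M] (hM : 2 ∣ M) :
    relfinrank (modularFunctionFieldBar M) (modularFunctionFieldBar (M * 2)) = 2 := by
  have h1 := Fermat.Agent.RED.BASE.TGen19.relfinrank_K0 M
  have h2 := Fermat.Agent.RED.BASE.TGen19.relfinrank_K0 (M * 2)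
  have h3 := relfinrank_mul_relfinrank (Fermat.Agent.RED.BASE.QExpMem19.K0_le M)
    (Fermat.Agent.RED.BASE.Interface12.fbar_mono (dvd_mul_right M 2))
  have h4 : dedekindPsi (M * 2) = 2 * dedekindPsi M := by
    rw [mul_comm]
    exact Fermat.Agent.IG.PR.Counting20.psi_prime_mul_of_dvd Nat.prime_two (NeZero.ne M) hM
  have h5 : 0 < dedekindPsi M := by
    unfold dedekindPsi
    apply Finset.sum_pos'
    · intro d _; exact Nat.zero_le _
    · refine ⟨1, ?_, ?_⟩
      · rw [Finset.mem_filter]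
        exact ⟨Nat.one_mem_divisors.mpr (NeZero.ne M), squarefree_one⟩
      · rw [Nat.div_one]; exact Nat.pos_of_ne_zero (NeZero.ne M)
  rw [h1, h2, h4] at h3
  have h6 : dedekindPsi M * relfinrank (modularFunctionFieldBar M)
      (modularFunctionFieldBar (M * 2)) = dedekindPsi M * 2 := by rw [h3]; ring
  exact Nat.eq_of_mul_eq_mul_left h5 h6

/-- **every `y ∈ Fbar (2M)` is quadratic over `Fbar M`** (`2 ∣ M`): a non-trivial relation
`c₀ + c₁ y + c₂ y² = 0`. -/
theorem exists_quadratic (M : ℕ) [NeZero M] (hM : 2 ∣ M) (y : FF (M * 2)) :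
    ∃ c : Fin 3 → FF M, (∃ i, c i ≠ 0) ∧
      levelIncl (dvd_mul_right M 2) (c 0) + levelIncl (dvd_mul_right M 2) (c 1) * y +
        levelIncl (dvd_mul_right M 2) (c 2) * y ^ 2 = 0 := by
  have hAB := Fermat.Agent.RED.BASE.Interface12.fbar_mono (dvd_mul_right M 2)
  have hfr : Module.finrank ↥(modularFunctionFieldBar M) ↥(extendScalars hAB) = 2 := by
    rw [← relfinrank_eq_finrank_of_le hAB]
    exact relfinrank_two M hM
  have : Module.Finite ↥(modularFunctionFieldBar M) ↥(extendScalars hAB) :=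
    Module.finite_of_finrank_pos (by rw [hfr]; norm_num)
  set v : Fin 3 → ↥(extendScalars hAB) :=
    ![1, ⟨(y : LaurentSeries Kbar), y.2⟩,
      ⟨(y : LaurentSeries Kbar) ^ 2, pow_mem (S := modularFunctionFieldBar (M * 2)) y.2 2⟩] with hv
  have hnot : ¬ LinearIndependent ↥(modularFunctionFieldBar M) v := by
    intro hli
    have := hli.fintype_card_le_finrank
    rw [hfr, Fintype.card_fin] at this
    omega
  obtain ⟨g, hg, hne⟩ := Fintype.not_linearIndependent_iff.mp hnot
  refine ⟨g, hne, ?_⟩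
  rw [Fin.sum_univ_three] at hg
  apply Subtype.ext
  have h := congrArg (fun z : ↥(extendScalars hAB) => (z : LaurentSeries Kbar)) hg
  simp only [hv, Matrix.cons_val_zero, Matrix.cons_val_one, Matrix.cons_val_two,
    Matrix.head_cons, Matrix.tail_cons] at h
  simpa [Algebra.smul_def, SubmonoidClass.coe_pow] using h

/-! ### the twist preserves `Fbar (2M)`, `2 ∣ M` -/

theorem coe_jdF_ne_tw (N d : ℕ) [NeZero N] [NeZero d] (hd : d ∣ N) (hodd : Odd d) :
    ((jdF N d hd : FF N) : LaurentSeries Kbar) ≠ tw ((jdF N d hd : FF N) : LaurentSeries Kbar) := by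
  intro h
  rw [coe_jdF_eq_qExpand, tw_qExpand_odd d hodd] at h
  have h1 := congrArg (fun z : LaurentSeries Kbar => z.coeff ((d : ℤ) * (-1))) h
  simp only [qExpand_coeff_mul, tw_coeff] at h1
  rw [Fermat.Agent.X0.coeff_jqK_neg_one, zpow_neg_one, inv_neg_one] at h1
  simp only [Units.val_neg, Units.val_one, mul_one] at h1
  have h2 : (2 : Kbar) = 0 := by linear_combination h1
  exact two_ne_zero h2

theorem tw_jdF_mem (M : ℕ) [NeZero M] (hM : 2 ∣ M) (d : ℕ) [NeZero d] (hd : d ∣ M * 2) :
    tw ((jdF (M * 2) d hd : FF (M * 2)) : LaurentSeries Kbar) ∈ modularFunctionFieldBar (M * 2) := by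
  rcases Nat.even_or_odd d with hpar | hodd
  · rw [coe_jdF_eq_qExpand, tw_qExpand_even d hpar, ← coe_jdF_eq_qExpand (M * 2) d hd]
    exact (jdF (M * 2) d hd).2
  · set x : FF (M * 2) := jdF (M * 2) d hd with hx
    obtain ⟨c, ⟨i, hi⟩, hrel⟩ := exists_quadratic M hM (frickeBar (M * 2) x)
    have hW := congrArg (frickeBar (M * 2)) hrel
    simp only [map_add, map_mul, map_pow, map_zero, frickeBar_frickeBar] at hW
    set C : Fin 3 → FF (M * 2) :=
      fun k => frickeBar (M * 2) (levelIncl (dvd_mul_right M 2) (c k)) with hC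
    have hCtw : ∀ k, tw ((C k : FF (M * 2)) : LaurentSeries Kbar) =
        ((C k : FF (M * 2)) : LaurentSeries Kbar) := by
      intro k
      rw [hC]
      show tw ((frickeBar (M * 2) (levelIncl (dvd_mul_right M 2) (c k)) : FF (M * 2)) :
        LaurentSeries Kbar) = _
      rw [coe_frickeBar_levelIncl]
      exact tw_qExpand_even 2 even_two _
    have hW' : C 0 + C 1 * x + C 2 * x ^ 2 = 0 := hW
    have hL : ((C 0 : FF (M * 2)) : LaurentSeries Kbar) +
        ((C 1 : FF (M * 2)) : LaurentSeries Kbar) * (x : LaurentSeries Kbar) +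
        ((C 2 : FF (M * 2)) : LaurentSeries Kbar) * (x : LaurentSeries Kbar) ^ 2 = 0 := by
      have := congrArg (fun z : FF (M * 2) => (z : LaurentSeries Kbar)) hW'
      simpa only [AddMemClass.coe_add, MulMemClass.coe_mul, SubmonoidClass.coe_pow,
        ZeroMemClass.coe_zero] using this
    have hL' := congrArg tw hL
    simp only [map_add, map_mul, map_pow, map_zero, hCtw] at hL'
    have hne : (x : LaurentSeries Kbar) ≠ tw (x : LaurentSeries Kbar) :=
      coe_jdF_ne_tw (M * 2) d hd hodd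
    have hprod : ((x : LaurentSeries Kbar) - tw (x : LaurentSeries Kbar)) *
        (((C 1 : FF (M * 2)) : LaurentSeries Kbar) +
          ((C 2 : FF (M * 2)) : LaurentSeries Kbar) *
            ((x : LaurentSeries Kbar) + tw (x : LaurentSeries Kbar))) = 0 := by
      linear_combination hL - hL'
    have hsum : ((C 1 : FF (M * 2)) : LaurentSeries Kbar) +
          ((C 2 : FF (M * 2)) : LaurentSeries Kbar) *
            ((x : LaurentSeries Kbar) + tw (x : LaurentSeries Kbar)) = 0 :=
      (mul_eq_zero.mp hprod).resolve_left (sub_ne_zero.mpr hne)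
    have hinj : ∀ k, C k = 0 → c k = 0 := by
      intro k hk
      have h1 : levelIncl (dvd_mul_right M 2) (c k) = 0 := by
        have := congrArg (frickeBar (M * 2)) hk
        rwa [hC, frickeBar_frickeBar, map_zero] at this
      exact (map_eq_zero_iff _ (levelIncl_injective (dvd_mul_right M 2))).mp h1
    by_cases hC2 : C 2 = 0
    · exfalso
      have hC1 : C 1 = 0 := by
        apply Subtype.ext
        have := hsum
        rw [hC2] at this
        simpa using this
      have hC0 : C 0 = 0 := by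
        apply Subtype.ext
        have := hL
        rw [hC2, hC1] at this
        simpa using this
      apply hi
      fin_cases i
      · exact hinj 0 hC0
      · exact hinj 1 hC1
      · exact hinj 2 hC2
    · have hC2' : ((C 2 : FF (M * 2)) : LaurentSeries Kbar) ≠ 0 := fun h0 =>
        hC2 (Subtype.ext h0)
      have hval : tw (x : LaurentSeries Kbar) =
          ((-(C 1) / (C 2) - x : FF (M * 2)) : LaurentSeries Kbar) := by
        push_cast
        field_simp
        linear_combination hsum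
      rw [hval]
      exact (-(C 1) / (C 2) - x : FF (M * 2)).2

/-- the twist restricted to `Fbar (2M)`, as a map to `ℚ̄((q))`. -/
def twOn (L : ℕ) [NeZero L] : FF L →ₐ[Kbar] LaurentSeries Kbar :=
  tw.comp (modularFunctionFieldBar L).val

@[simp] theorem twOn_apply (L : ℕ) [NeZero L] (f : FF L) :
    twOn L f = tw (f : LaurentSeries Kbar) := rfl

/-- **`q ↦ -q` maps `Fbar (2M)` into itself when `2 ∣ M`.** -/
theorem tw_mem (M : ℕ) [NeZero M] (hM : 2 ∣ M) (f : FF (M * 2)) :
    tw (f : LaurentSeries Kbar) ∈ modularFunctionFieldBar (M * 2) := by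
  have htop : IntermediateField.adjoin Kbar (genSet (M * 2)) ≤
      (modularFunctionFieldBar (M * 2)).comap (twOn (M * 2)) := by
    rw [IntermediateField.adjoin_le_iff]
    rintro _ ⟨d, hne, hd, rfl⟩
    have := hne
    rw [SetLike.mem_coe, Fermat.Agent.RED.LVL.FrickeExp17.mem_comap_iff, twOn_apply]
    exact tw_jdF_mem M hM d hd
  have hf := htop (FracR.mem_adjoin_genSet (M * 2) f)
  rwa [Fermat.Agent.RED.LVL.FrickeExp17.mem_comap_iff, twOn_apply] at hf

/-- **the involution `τ : q ↦ -q` of `Fbar (2M)`, `2 ∣ M`**, as an algebra endomorphism. -/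
def tauHom (M : ℕ) [NeZero M] (hM : 2 ∣ M) : FF (M * 2) →ₐ[Kbar] FF (M * 2) :=
  (twOn (M * 2)).codRestrict (modularFunctionFieldBar (M * 2)).toSubalgebra (tw_mem M hM)

@[simp] theorem coe_tauHom (M : ℕ) [NeZero M] (hM : 2 ∣ M) (f : FF (M * 2)) :
    ((tauHom M hM f : FF (M * 2)) : LaurentSeries Kbar) = tw (f : LaurentSeries Kbar) := rfl

theorem tauHom_tauHom (M : ℕ) [NeZero M] (hM : 2 ∣ M) (f : FF (M * 2)) :
    tauHom M hM (tauHom M hM f) = f :=
  Subtype.ext (by rw [coe_tauHom, coe_tauHom, tw_tw])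

/-- **`τ` as an algebra automorphism of `Fbar (2M)`.** -/
def tau (M : ℕ) [NeZero M] (hM : 2 ∣ M) : FF (M * 2) ≃ₐ[Kbar] FF (M * 2) :=
  AlgEquiv.ofAlgHom (tauHom M hM) (tauHom M hM)
    (AlgHom.ext fun f => tauHom_tauHom M hM f) (AlgHom.ext fun f => tauHom_tauHom M hM f)

@[simp] theorem coe_tau (M : ℕ) [NeZero M] (hM : 2 ∣ M) (f : FF (M * 2)) :
    ((tau M hM f : FF (M * 2)) : LaurentSeries Kbar) = tw (f : LaurentSeries Kbar) := rfl

theorem tau_tau (M : ℕ) [NeZero M] (hM : 2 ∣ M) (f : FF (M * 2)) :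
    tau M hM (tau M hM f) = f := tauHom_tauHom M hM f

/-- **the deck involution `τ' = W τ W` of `Fbar (2M) / Fbar M`.** -/
def tau' (M : ℕ) [NeZero M] (hM : 2 ∣ M) : FF (M * 2) ≃ₐ[Kbar] FF (M * 2) :=
  ((frickeBarEquiv (M * 2)).trans (tau M hM)).trans (frickeBarEquiv (M * 2))

theorem tau'_apply (M : ℕ) [NeZero M] (hM : 2 ∣ M) (f : FF (M * 2)) :
    tau' M hM f = frickeBar (M * 2) (tau M hM (frickeBar (M * 2) f)) := rfl

theorem tau'_tau' (M : ℕ) [NeZero M] (hM : 2 ∣ M) (f : FF (M * 2)) :
    tau' M hM (tau' M hM f) = f := by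
  rw [tau'_apply, tau'_apply, frickeBar_frickeBar, tau_tau, frickeBar_frickeBar]

/-- **`τ'` fixes `Fbar M`.** -/
theorem tau'_levelIncl (M : ℕ) [NeZero M] (hM : 2 ∣ M) (c : FF M) :
    tau' M hM (levelIncl (dvd_mul_right M 2) c) = levelIncl (dvd_mul_right M 2) c := by
  rw [tau'_apply]
  have h1 : tau M hM (frickeBar (M * 2) (levelIncl (dvd_mul_right M 2) c)) =
      frickeBar (M * 2) (levelIncl (dvd_mul_right M 2) c) := by
    apply Subtype.ext
    rw [coe_tau, coe_frickeBar_levelIncl]
    exact tw_qExpand_even 2 even_two _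
  rw [h1, frickeBar_frickeBar]

/-! ### the fixed fields -/

/-- a generator moved by `τ`: `j(q)`. -/
theorem tau_jF_ne (M : ℕ) [NeZero M] (hM : 2 ∣ M) :
    tau M hM (jdF (M * 2) 1 (one_dvd _)) ≠ jdF (M * 2) 1 (one_dvd _) := by
  intro h
  have h1 := congrArg (fun z : FF (M * 2) => (z : LaurentSeries Kbar)) h
  simp only [coe_tau] at h1
  exact coe_jdF_ne_tw (M * 2) 1 (one_dvd _) odd_one h1.symm

/-- **the fixed field of `τ'` is `Fbar M`.** -/
theorem tau'_eq_self_iff (M : ℕ) [NeZero M] (hM : 2 ∣ M) (f : FF (M * 2)) :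
    tau' M hM f = f ↔ ∃ c : FF M, f = levelIncl (dvd_mul_right M 2) c := by
  constructor
  · intro hf
    set y : FF (M * 2) := frickeBar (M * 2) (jdF (M * 2) 1 (one_dvd _)) with hy
    have hy' : tau' M hM y ≠ y := by
      intro h
      rw [tau'_apply, hy, frickeBar_frickeBar] at h
      have := congrArg (frickeBar (M * 2)) h
      rw [frickeBar_frickeBar, frickeBar_frickeBar] at this
      exact tau_jF_ne M hM this
    -- `1, y, f` are linearly dependent over `Fbar M`
    have hAB := Fermat.Agent.RED.BASE.Interface12.fbar_mono (dvd_mul_right M 2)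
    have hfr : Module.finrank ↥(modularFunctionFieldBar M) ↥(extendScalars hAB) = 2 := by
      rw [← relfinrank_eq_finrank_of_le hAB]
      exact relfinrank_two M hM
    have : Module.Finite ↥(modularFunctionFieldBar M) ↥(extendScalars hAB) :=
      Module.finite_of_finrank_pos (by rw [hfr]; norm_num)
    set v : Fin 3 → ↥(extendScalars hAB) :=
      ![1, ⟨(y : LaurentSeries Kbar), y.2⟩, ⟨(f : LaurentSeries Kbar), f.2⟩] with hv
    have hnot : ¬ LinearIndependent ↥(modularFunctionFieldBar M) v := by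
      intro hli
      have := hli.fintype_card_le_finrank
      rw [hfr, Fintype.card_fin] at this
      omega
    obtain ⟨g, hg, hne⟩ := Fintype.not_linearIndependent_iff.mp hnot
    rw [Fin.sum_univ_three] at hg
    have hrel : levelIncl (dvd_mul_right M 2) (g 0) + levelIncl (dvd_mul_right M 2) (g 1) * y +
        levelIncl (dvd_mul_right M 2) (g 2) * f = 0 := by
      apply Subtype.ext
      have h := congrArg (fun z : ↥(extendScalars hAB) => (z : LaurentSeries Kbar)) hg
      simp only [hv, Matrix.cons_val_zero, Matrix.cons_val_one, Matrix.cons_val_two,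
        Matrix.head_cons, Matrix.tail_cons] at h
      simpa [Algebra.smul_def] using h
    have hrel' := congrArg (tau' M hM) hrel
    simp only [map_add, map_mul, map_zero, tau'_levelIncl, hf] at hrel'
    have h1 : levelIncl (dvd_mul_right M 2) (g 1) * (tau' M hM y - y) = 0 := by
      linear_combination hrel' - hrel
    have hg1 : g 1 = 0 := by
      rcases mul_eq_zero.mp h1 with h | h
      · exact (map_eq_zero_iff _ (levelIncl_injective (dvd_mul_right M 2))).mp h
      · exact absurd (sub_eq_zero.mp h) hy'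
    rw [hg1, map_zero, zero_mul, add_zero] at hrel
    by_cases hg2 : g 2 = 0
    · exfalso
      rw [hg2, map_zero, zero_mul, add_zero] at hrel
      have hg0 : g 0 = 0 :=
        (map_eq_zero_iff _ (levelIncl_injective (dvd_mul_right M 2))).mp hrel
      obtain ⟨i, hi⟩ := hne
      fin_cases i
      · exact hi hg0
      · exact hi hg1
      · exact hi hg2
    · refine ⟨-(g 0) / g 2, ?_⟩
      have hg2' : levelIncl (dvd_mul_right M 2) (g 2) ≠ 0 := fun h =>
        hg2 ((map_eq_zero_iff _ (levelIncl_injective (dvd_mul_right M 2))).mp h)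
      rw [map_div₀, map_neg, eq_div_iff hg2']
      linear_combination hrel
  · rintro ⟨c, rfl⟩
    exact tau'_levelIncl M hM c

/-- **the fixed field of `τ` is `{f(q²)} = W (Fbar M)`.** -/
theorem tau_eq_self_iff (M : ℕ) [NeZero M] (hM : 2 ∣ M) (f : FF (M * 2)) :
    tau M hM f = f ↔ ∃ c : FF M, (f : LaurentSeries Kbar) = qExpand Kbar 2 (c : LaurentSeries Kbar) := by
  have key : tau M hM f = f ↔ tau' M hM (frickeBar (M * 2) f) = frickeBar (M * 2) f := by
    rw [tau'_apply, frickeBar_frickeBar]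
    constructor
    · intro h; rw [h]
    · intro h
      have := congrArg (frickeBar (M * 2)) h
      rwa [frickeBar_frickeBar, frickeBar_frickeBar] at this
  rw [key, tau'_eq_self_iff]
  constructor
  · rintro ⟨c, hc⟩
    refine ⟨frickeBar M c, ?_⟩
    have := congrArg (frickeBar (M * 2)) hc
    rw [frickeBar_frickeBar] at this
    rw [this, coe_frickeBar_levelIncl]
  · rintro ⟨c, hc⟩
    refine ⟨frickeBar M c, ?_⟩
    have h1 : f = frickeBar (M * 2) (levelIncl (dvd_mul_right M 2) (frickeBar M c)) := by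
      apply Subtype.ext
      rw [coe_frickeBar_levelIncl, frickeBar_frickeBar, hc]
    rw [h1, frickeBar_frickeBar]

end Fermat.Agent.U44.GammaTwist2
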