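/-
Programme U44 (target S44), stage 0, chapter (GAMMA), file 2 (helper2): **the involutions `τ`, `τ'`
of `Fbar L` for an arbitrary level `L` with `4 ∣ L`, and their compatibility with the two
degeneracy maps `α, β : Fbar M' → Fbar (M' p)` (`p` odd).**

* `tw_mem_four` : `q ↦ -q` maps `Fbar L` into itself when `4 ∣ L` (`GammaTwist2.tw_mem` transported
  along `L = L / 2 * 2`);
* `tauL L h4`, `tau'L L h4 = W_L τ_L W_L : Fbar L ≃ₐ[ℚ̄] Fbar L`, `coe_tauL`, involutions;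
* `tau'L_jdF_of_even` : `τ'` fixes the generators `j(q^d)` with `L / d` even (so it fixes
  `Fbar (L / 2)`);
* `tauL_alphaA`, `tauL_betaA`, `tau'L_alphaA`, `tau'L_betaA` : `τ`, `τ'` of level `M' p` restrict to
  `τ`, `τ'` of level `M'` along both degeneracy maps (design item (A4)).
-/
import Mathlib
import Fermat.Agent.U44.GammaTwist2
import Fermat.Agent.T33.FrickeRed3B

set_option autoImplicit false
set_option linter.unusedSectionVars false
set_option synthInstance.maxHeartbeats 400000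

noncomputable section

namespace Fermat.Agent.U44.GammaLevel2

open HahnSeries ModularCurve IntermediateField
open Fermat.Agent.X0 Fermat.Agent.ES.KRON.KronCong24 Fermat.Agent.ES.N34.FrickeFK8
  Fermat.Agent.U44.GammaTwist2 Fermat.Agent.T33.NodalBase4A Fermat.Agent.T33.FrickeRed3

theorem fbar_congr {N N' : ℕ} [NeZero N] [NeZero N'] (h : N = N') :
    modularFunctionFieldBar N = modularFunctionFieldBar N' := by
  subst h; rfl

theorem half_mul_two {L : ℕ} (h4 : 4 ∣ L) : L = L / 2 * 2 :=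
  (Nat.div_mul_cancel (dvd_trans (by norm_num) h4)).symm

theorem two_dvd_half {L : ℕ} (h4 : 4 ∣ L) : 2 ∣ L / 2 := by
  obtain ⟨k, rfl⟩ := h4
  exact ⟨k, by omega⟩

theorem neZero_half {L : ℕ} [NeZero L] (h4 : 4 ∣ L) : NeZero (L / 2) := by
  obtain ⟨k, rfl⟩ := h4
  have := NeZero.ne (4 * k)
  exact ⟨by omega⟩

/-- **`q ↦ -q` maps `Fbar L` into itself when `4 ∣ L`.** -/
theorem tw_mem_four (L : ℕ) [NeZero L] (h4 : 4 ∣ L) (f : FF L) :
    tw (f : LaurentSeries Kbar) ∈ modularFunctionFieldBar L := by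
  have := neZero_half h4
  have hE := fbar_congr (half_mul_two h4)
  have hiff : ∀ x : LaurentSeries Kbar, x ∈ modularFunctionFieldBar L ↔
      x ∈ modularFunctionFieldBar (L / 2 * 2) := fun x => by rw [hE]
  have hf : (f : LaurentSeries Kbar) ∈ modularFunctionFieldBar (L / 2 * 2) := (hiff _).mp f.2
  have h1 : tw (f : LaurentSeries Kbar) ∈ modularFunctionFieldBar (L / 2 * 2) :=
    GammaTwist2.tw_mem (L / 2) (two_dvd_half h4) ⟨_, hf⟩
  exact (hiff _).mpr h1

/-- `τ_L` as an algebra endomorphism. -/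
def tauLHom (L : ℕ) [NeZero L] (h4 : 4 ∣ L) : FF L →ₐ[Kbar] FF L :=
  (twOn L).codRestrict (modularFunctionFieldBar L).toSubalgebra (tw_mem_four L h4)

@[simp] theorem coe_tauLHom (L : ℕ) [NeZero L] (h4 : 4 ∣ L) (f : FF L) :
    ((tauLHom L h4 f : FF L) : LaurentSeries Kbar) = tw (f : LaurentSeries Kbar) := rfl

theorem tauLHom_tauLHom (L : ℕ) [NeZero L] (h4 : 4 ∣ L) (f : FF L) :
    tauLHom L h4 (tauLHom L h4 f) = f :=
  Subtype.ext (by rw [coe_tauLHom, coe_tauLHom, tw_tw])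

/-- **the involution `τ_L : q ↦ -q` of `Fbar L`, `4 ∣ L`.** -/
def tauL (L : ℕ) [NeZero L] (h4 : 4 ∣ L) : FF L ≃ₐ[Kbar] FF L :=
  AlgEquiv.ofAlgHom (tauLHom L h4) (tauLHom L h4)
    (AlgHom.ext fun f => tauLHom_tauLHom L h4 f) (AlgHom.ext fun f => tauLHom_tauLHom L h4 f)

@[simp] theorem coe_tauL (L : ℕ) [NeZero L] (h4 : 4 ∣ L) (f : FF L) :
    ((tauL L h4 f : FF L) : LaurentSeries Kbar) = tw (f : LaurentSeries Kbar) := rfl

theorem tauL_tauL (L : ℕ) [NeZero L] (h4 : 4 ∣ L) (f : FF L) : tauL L h4 (tauL L h4 f) = f :=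
  tauLHom_tauLHom L h4 f

/-- **the deck involution `τ'_L = W_L τ_L W_L` of `Fbar L / Fbar (L/2)`.** -/
def tau'L (L : ℕ) [NeZero L] (h4 : 4 ∣ L) : FF L ≃ₐ[Kbar] FF L :=
  ((frickeBarEquiv L).trans (tauL L h4)).trans (frickeBarEquiv L)

theorem tau'L_apply (L : ℕ) [NeZero L] (h4 : 4 ∣ L) (f : FF L) :
    tau'L L h4 f = frickeBar L (tauL L h4 (frickeBar L f)) := rfl

theorem tau'L_tau'L (L : ℕ) [NeZero L] (h4 : 4 ∣ L) (f : FF L) :
    tau'L L h4 (tau'L L h4 f) = f := by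
  rw [tau'L_apply, tau'L_apply, frickeBar_frickeBar, tauL_tauL, frickeBar_frickeBar]

/-- `τ` fixes the generators `j(q^d)`, `d` even. -/
theorem tauL_jdF_of_even (L : ℕ) [NeZero L] (h4 : 4 ∣ L) (d : ℕ) [NeZero d] (hd : d ∣ L)
    (hev : Even d) : tauL L h4 (jdF L d hd) = jdF L d hd := by
  apply Subtype.ext
  rw [coe_tauL, coe_jdF_eq_qExpand]
  exact tw_qExpand_even d hev _

/-- **`τ'` fixes the generators `j(q^d)` with `L / d` even** (the generators of `Fbar (L/2)`). -/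
theorem tau'L_jdF_of_even (L : ℕ) [NeZero L] (h4 : 4 ∣ L) (d e : ℕ) [NeZero d] [NeZero e]
    (hde : d * e = L) (hev : Even e) :
    tau'L L h4 (jdF L d (Dvd.intro _ hde)) = jdF L d (Dvd.intro _ hde) := by
  rw [tau'L_apply, frickeBar_jdF L d e hde, tauL_jdF_of_even L h4 e _ hev]
  have := frickeBar_jdF L e d (by rw [mul_comm]; exact hde)
  rw [this]

/-! ### compatibility with the degeneracy maps `α, β : Fbar M' → Fbar (M' p)`, `p` odd -/

section Degeneracy

variable {p M' : ℕ} [NeZero M'] [NeZero p]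

theorem four_dvd_mul (h4 : 4 ∣ M') : 4 ∣ M' * p := dvd_mul_of_dvd_left h4 p

theorem tauL_alphaA (h4 : 4 ∣ M') (x : FF M') :
    tauL (M' * p) (four_dvd_mul h4) (alphaA M' p x) = alphaA M' p (tauL M' h4 x) := by
  apply Subtype.ext
  rw [coe_tauL, coe_alphaA, coe_alphaA, coe_tauL]

theorem tauL_betaA (h4 : 4 ∣ M') (hp : Odd p) (x : FF M') :
    tauL (M' * p) (four_dvd_mul h4) (betaA M' p x) = betaA M' p (tauL M' h4 x) := by
  apply Subtype.ext
  rw [coe_tauL, coe_betaA, coe_betaA, coe_tauL]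
  exact tw_qExpand_odd p hp _

/-- **`τ'_{M'p} ∘ α = α ∘ τ'_{M'}`.** -/
theorem tau'L_alphaA (h4 : 4 ∣ M') (hp : Odd p) (x : FF M') :
    tau'L (M' * p) (four_dvd_mul h4) (alphaA M' p x) = alphaA M' p (tau'L M' h4 x) := by
  rw [tau'L_apply, frickeBar_alphaA, tauL_betaA h4 hp, frickeBar_betaA, tau'L_apply]

/-- **`τ'_{M'p} ∘ β = β ∘ τ'_{M'}`.** -/
theorem tau'L_betaA (h4 : 4 ∣ M') (x : FF M') :
    tau'L (M' * p) (four_dvd_mul h4) (betaA M' p x) = betaA M' p (tau'L M' h4 x) := by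
  rw [tau'L_apply, frickeBar_betaA, tauL_alphaA h4, frickeBar_alphaA, tau'L_apply]

end Degeneracy

end Fermat.Agent.U44.GammaLevel2
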