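/-
Programme U44 (target S44), stage 0, chapter (GAMMA), file 3 (helper2): **`τ : q ↦ -q` on the Gauss
rings** (design items (C1), (C2)).

`h : LevelHyp p M' A`.  The twist is coefficientwise, so it preserves `A`-integrality and commutes
with the coefficientwise reduction:

* `tauL_mem_gaussA`, `redA_tauL` : `τ` preserves `Setup8.gaussA A (Fbar L)` and
  `redA (τ a) = twK (redA a)`, `twK := twistU (-1)` on `κ((q))`;
* good level: `tauL_mem_Ov0`, `coe_rho0_tauL`; `tauB h : Fb A M' ≃ₐ[κ] Fb A M'` (the reduction `τ̄`,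
  `coe_tauB`, from the surjectivity of `ρ₀` — no characteristic-`p` modular theory), `rho0_tauL`;
  `tau'L_mem_Ov0`, `rho0_tau'L : ρ₀ (τ' y) = W̄ τ̄ W̄ (ρ₀ y)` (free from `frickeBar_mem_Ov0`);
* bad level: `tauL_mem_O1`, `rho1_tauL : ρ₁ (τ y) = τ̄ (ρ₁ y)`; `tau'L_mem_O2`,
  `rho2_tau'L : ρ₂ (τ' y) = τ̄ (ρ₂ y)`.
-/
import Mathlib
import Fermat.Agent.U44.GammaLevel2

set_option autoImplicit false
set_option linter.unusedSectionVars false
set_option linter.style.haveILetI false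
set_option synthInstance.maxHeartbeats 400000

noncomputable section

namespace Fermat.Agent.U44.GammaGauss2

open HahnSeries ModularCurve IntermediateField IsLocalRing
open Fermat.Agent.X0 Fermat.Agent.ES.KRON.KronCong24 Fermat.Agent.ES.N34.FrickeFK8
  Fermat.Agent.ES.RED Fermat.Agent.RED.Interface4
  Fermat.Agent.U44.GammaTwist2 Fermat.Agent.U44.GammaLevel2
  Fermat.Agent.T33.NodalHalf4 Fermat.Agent.T33.NodalBase4A Fermat.Agent.T33.FrickeRed3

variable {A : ValuationSubring Qbar}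

/-- the twist `q ↦ -q` on `κ((q))`. -/
def twK (A : ValuationSubring Qbar) : LaurentSeries (Setup8.kA A) →+* LaurentSeries (Setup8.kA A) :=
  twistU (-1 : (Setup8.kA A)ˣ)

theorem twK_twK (x : LaurentSeries (Setup8.kA A)) : twK A (twK A x) = x := by
  show twistU (-1 : (Setup8.kA A)ˣ) (twistU (-1 : (Setup8.kA A)ˣ) x) = x
  rw [← twistU_mul]
  simp

theorem tw_eq_twistU (x : LaurentSeries Qbar) : tw x = twistU (-1 : Qbarˣ) x := rfl

/-! ### the twist on Gauss-integral functions -/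

section GaussA

variable (L : ℕ) [NeZero L] (h4 : 4 ∣ L)

theorem tauL_mem_gaussA (a : ↥(Setup8.gaussA A (Fbar L))) :
    tauL L h4 (a : ↥(Fbar L)) ∈ Setup8.gaussA A (Fbar L) := by
  obtain ⟨Y, hY⟩ := a.2
  refine ⟨twistU (-1 : (↥A)ˣ) Y, ?_⟩
  rw [coeffMap_twistU, hY, coe_tauL, tw_eq_twistU]
  congr 1

theorem redA_tauL (a : ↥(Setup8.gaussA A (Fbar L))) :
    Setup8.redA A (Fbar L) ⟨_, tauL_mem_gaussA L h4 a⟩ = twK A (Setup8.redA A (Fbar L) a) := by
  rw [Setup8.redA_eq A (Fbar L) ⟨_, tauL_mem_gaussA L h4 a⟩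
    (Y := twistU (-1 : (↥A)ˣ) (Setup8.liftA A (Fbar L) a))
    (by
      rw [coeffMap_twistU, Setup8.coeffMap_liftA]
      show _ = tw ((a : ↥(Fbar L)) : LaurentSeries Qbar)
      rw [tw_eq_twistU]
      congr 1)]
  rw [coeffMap_twistU]
  show _ = twistU (-1 : (Setup8.kA A)ˣ) (coeffMap (Setup8.resA A) (Setup8.liftA A (Fbar L) a))
  congr 1

end GaussA

/-! ### the good level `M'` -/

section Good

variable {p M' : ℕ} [NeZero M'] [NeZero p] (h : LevelHyp p M' A)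

theorem twK_ne_zero {x : LaurentSeries (Setup8.kA A)} (hx : x ≠ 0) : twK A x ≠ 0 := by
  intro h0
  apply hx
  have := congrArg (twK A) h0
  rwa [twK_twK, map_zero] at this

/-- **`τ` preserves the Gauss valuation ring of the good level.** -/
theorem tauL_mem_Ov0 {y : ↥(Fbar M')} (hy : y ∈ Ov0 h) : tauL M' h.four_dvd y ∈ Ov0 h := by
  obtain ⟨a, b, hb, hab⟩ := (mem_Ov0_iff h y).1 hy
  refine (mem_Ov0_iff h _).2 ⟨⟨_, tauL_mem_gaussA M' h.four_dvd a⟩,
    ⟨_, tauL_mem_gaussA M' h.four_dvd b⟩, ?_, ?_⟩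
  · rw [redA_tauL]; exact twK_ne_zero hb
  · show tauL M' h.four_dvd y * tauL M' h.four_dvd (b : ↥(Fbar M')) =
      tauL M' h.four_dvd (a : ↥(Fbar M'))
    rw [← map_mul, hab]

/-- **`ρ₀ (τ y) = (ρ₀ y)(-q)`.** -/
theorem coe_rho0_tauL (y : ↥(Ov0 h)) :
    ((rho0 h ⟨tauL M' h.four_dvd (y : ↥(Fbar M')), tauL_mem_Ov0 h y.2⟩ : Fb A M') :
        LaurentSeries (Setup8.kA A)) =
      twK A ((rho0 h y : Fb A M') : LaurentSeries (Setup8.kA A)) := by
  obtain ⟨a, b, hb, hab⟩ := (mem_Ov0_iff h _).1 y.2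
  rw [coe_rho0_eq h y a b hb hab,
    coe_rho0_eq h ⟨_, tauL_mem_Ov0 h y.2⟩ ⟨_, tauL_mem_gaussA M' h.four_dvd a⟩
      ⟨_, tauL_mem_gaussA M' h.four_dvd b⟩ (by rw [redA_tauL]; exact twK_ne_zero hb)
      (by show tauL M' h.four_dvd (y : ↥(Fbar M')) * tauL M' h.four_dvd (b : ↥(Fbar M')) =
            tauL M' h.four_dvd (a : ↥(Fbar M'))
          rw [← map_mul, hab]),
    redA_tauL, redA_tauL, map_div₀]

/-- the twist `q ↦ -q` of `κ((q))` as a `κ`-algebra map. -/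
def twKAlg (A : ValuationSubring Qbar) :
    LaurentSeries (Setup8.kA A) →ₐ[Setup8.kA A] LaurentSeries (Setup8.kA A) :=
  { twK A with
    commutes' := fun c => by
      show twistU (-1 : (Setup8.kA A)ˣ) (algebraMap (Setup8.kA A) (LaurentSeries (Setup8.kA A)) c) =
        algebraMap (Setup8.kA A) (LaurentSeries (Setup8.kA A)) c
      rw [algebraMap_laurentSeries_eq_single]
      ext n
      rw [twistU_coeff, HahnSeries.coeff_single]
      split_ifs with hn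
      · subst hn; simp
      · simp }

@[simp] theorem twKAlg_apply (x : LaurentSeries (Setup8.kA A)) : twKAlg A x = twK A x := rfl

include h in
/-- **the special fibre field `Fb A M'` is stable under `q ↦ -q`** (because `ρ₀` is onto). -/
theorem twK_mem_Fb (x : Fb A M') :
    twK A (x : LaurentSeries (Setup8.kA A)) ∈ modularFunctionFieldFullC (Setup8.kA A) M' := by
  obtain ⟨y, rfl⟩ := rho0_surjective h x
  rw [← coe_rho0_tauL h y]
  exact (rho0 h ⟨tauL M' h.four_dvd (y : ↥(Fbar M')), tauL_mem_Ov0 h y.2⟩).2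

/-- `τ̄` as an algebra endomorphism of `Fb A M'`. -/
def tauBHom (h : LevelHyp p M' A) : Fb A M' →ₐ[Setup8.kA A] Fb A M' :=
  ((twKAlg A).comp (modularFunctionFieldFullC (Setup8.kA A) M').val).codRestrict
    (modularFunctionFieldFullC (Setup8.kA A) M').toSubalgebra (twK_mem_Fb h)

@[simp] theorem coe_tauBHom (x : Fb A M') :
    ((tauBHom h x : Fb A M') : LaurentSeries (Setup8.kA A)) =
      twK A (x : LaurentSeries (Setup8.kA A)) := rfl

theorem tauBHom_tauBHom (x : Fb A M') : tauBHom h (tauBHom h x) = x :=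
  Subtype.ext (by rw [coe_tauBHom, coe_tauBHom, twK_twK])

/-- **`τ̄ : q ↦ -q` on the special fibre field `Fb A M'`**, the reduction of `τ`. -/
def tauB (h : LevelHyp p M' A) : Fb A M' ≃ₐ[Setup8.kA A] Fb A M' :=
  AlgEquiv.ofAlgHom (tauBHom h) (tauBHom h)
    (AlgHom.ext fun x => tauBHom_tauBHom h x) (AlgHom.ext fun x => tauBHom_tauBHom h x)

@[simp] theorem coe_tauB (x : Fb A M') :
    ((tauB h x : Fb A M') : LaurentSeries (Setup8.kA A)) =
      twK A (x : LaurentSeries (Setup8.kA A)) := rfl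

theorem tauB_tauB (x : Fb A M') : tauB h (tauB h x) = x := tauBHom_tauBHom h x

/-- **`ρ₀ (τ y) = τ̄ (ρ₀ y)`.** -/
theorem rho0_tauL (y : ↥(Ov0 h)) :
    rho0 h ⟨tauL M' h.four_dvd (y : ↥(Fbar M')), tauL_mem_Ov0 h y.2⟩ = tauB h (rho0 h y) :=
  Subtype.ext (by rw [coe_rho0_tauL, coe_tauB])

/-- **`τ' = W τ W` preserves the Gauss valuation ring of the good level** (free). -/
theorem tau'L_mem_Ov0 {y : ↥(Fbar M')} (hy : y ∈ Ov0 h) : tau'L M' h.four_dvd y ∈ Ov0 h := by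
  rw [tau'L_apply]
  exact frickeBar_mem_Ov0 h (tauL_mem_Ov0 h (frickeBar_mem_Ov0 h hy))

/-- **the reduction `τ̄' = W̄ τ̄ W̄` of `τ'`.** -/
def tauB' (h : LevelHyp p M' A) : Fb A M' ≃ₐ[Setup8.kA A] Fb A M' :=
  ((Wb h).trans (tauB h)).trans (Wb h)

theorem tauB'_apply (x : Fb A M') : tauB' h x = Wb h (tauB h (Wb h x)) := rfl

/-- **`ρ₀ (τ' y) = τ̄' (ρ₀ y)`.** -/
theorem rho0_tau'L (y : ↥(Ov0 h)) :
    rho0 h ⟨tau'L M' h.four_dvd (y : ↥(Fbar M')), tau'L_mem_Ov0 h y.2⟩ = tauB' h (rho0 h y) := by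
  rw [tauB'_apply, ← rho0_frickeBar h y,
    ← rho0_tauL h ⟨_, frickeBar_mem_Ov0 h y.2⟩,
    ← rho0_frickeBar h ⟨_, tauL_mem_Ov0 h (frickeBar_mem_Ov0 h y.2)⟩]
  rfl

end Good

/-! ### the bad level `M' p`: the trivial halves -/

section Bad

variable {p M' : ℕ} [NeZero M'] [NeZero p] (h : LevelHyp p M' A)

/-- **`τ` preserves the Gauss ring `O₁` of the expansion at `∞`.** -/
theorem tauL_mem_O1 {y : ↥(Fbar (M' * p))} (hy : y ∈ O1 h) :
    tauL (M' * p) (four_dvd_mul h.four_dvd) y ∈ O1 h := by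
  obtain ⟨a, b, hb, hab⟩ := (mem_O1_iff_redA h y).1 hy
  refine (mem_O1_iff_redA h _).2 ⟨⟨_, tauL_mem_gaussA (M' * p) (four_dvd_mul h.four_dvd) a⟩,
    ⟨_, tauL_mem_gaussA (M' * p) (four_dvd_mul h.four_dvd) b⟩, ?_, ?_⟩
  · rw [redA_tauL]; exact twK_ne_zero hb
  · show tauL (M' * p) (four_dvd_mul h.four_dvd) y *
        tauL (M' * p) (four_dvd_mul h.four_dvd) (b : ↥(Fbar (M' * p))) =
      tauL (M' * p) (four_dvd_mul h.four_dvd) (a : ↥(Fbar (M' * p)))
    rw [← map_mul, hab]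

theorem coe_rho1_tauL (y : ↥(O1 h)) :
    ((rho1 h ⟨tauL (M' * p) (four_dvd_mul h.four_dvd) (y : ↥(Fbar (M' * p))),
        tauL_mem_O1 h y.2⟩ : Fb A M') : LaurentSeries (Setup8.kA A)) =
      twK A ((rho1 h y : Fb A M') : LaurentSeries (Setup8.kA A)) := by
  obtain ⟨a, b, hb, hab⟩ := (mem_O1_iff_redA h _).1 y.2
  rw [coe_rho1_eq h y a b hb hab,
    coe_rho1_eq h ⟨_, tauL_mem_O1 h y.2⟩
      ⟨_, tauL_mem_gaussA (M' * p) (four_dvd_mul h.four_dvd) a⟩
      ⟨_, tauL_mem_gaussA (M' * p) (four_dvd_mul h.four_dvd) b⟩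
      (by rw [redA_tauL]; exact twK_ne_zero hb)
      (by show tauL (M' * p) (four_dvd_mul h.four_dvd) (y : ↥(Fbar (M' * p))) *
              tauL (M' * p) (four_dvd_mul h.four_dvd) (b : ↥(Fbar (M' * p))) =
            tauL (M' * p) (four_dvd_mul h.four_dvd) (a : ↥(Fbar (M' * p)))
          rw [← map_mul, hab]),
    redA_tauL, redA_tauL, map_div₀]

/-- **`ρ₁ (τ y) = τ̄ (ρ₁ y)`.** -/
theorem rho1_tauL (y : ↥(O1 h)) :
    rho1 h ⟨tauL (M' * p) (four_dvd_mul h.four_dvd) (y : ↥(Fbar (M' * p))), tauL_mem_O1 h y.2⟩ =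
      tauB h (rho1 h y) :=
  Subtype.ext (by rw [coe_rho1_tauL, coe_tauB])

theorem frickeBar_tau'L (y : ↥(Fbar (M' * p))) :
    frickeBar (M' * p) (tau'L (M' * p) (four_dvd_mul h.four_dvd) y) =
      tauL (M' * p) (four_dvd_mul h.four_dvd) (frickeBar (M' * p) y) := by
  rw [tau'L_apply, frickeBar_frickeBar]

/-- **`τ'` preserves the Gauss ring `O₂` of the expansion at `0`.** -/
theorem tau'L_mem_O2 {y : ↥(Fbar (M' * p))} (hy : y ∈ O2 h) :
    tau'L (M' * p) (four_dvd_mul h.four_dvd) y ∈ O2 h := by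
  rw [mem_O2_iff, frickeBar_tau'L h]
  exact tauL_mem_O1 h ((mem_O2_iff h _).1 hy)

/-- **`ρ₂ (τ' y) = τ̄ (ρ₂ y)`.** -/
theorem rho2_tau'L (y : ↥(O2 h)) :
    rho2 h ⟨tau'L (M' * p) (four_dvd_mul h.four_dvd) (y : ↥(Fbar (M' * p))), tau'L_mem_O2 h y.2⟩ =
      tauB h (rho2 h y) := by
  rw [rho2_apply, rho2_apply, ← rho1_tauL h ⟨_, (mem_O2_iff h _).1 y.2⟩]
  exact rho1_congr h (frickeBar_tau'L h _) _ _

end Bad

end Fermat.Agent.U44.GammaGauss2
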