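/-
Programme U44 (target S44), chapter (GAMMA), design items (C3) + (C4) (lead):
**the deck involution `τ'` of `X₀(M'p) → X₀(M'p/2)` preserves the Gauss ring `O₁` of the cusp `∞`,
and its reduction on the first component is `τ̄' = W̄ τ̄ W̄`.**

`h : LevelHyp p M' A`, `F = Fbar (M' p)`, `E = α(Fbar M')`, `[F : E] = p + 1`.

* `gauss0`, `mem_Ov0_of_map_mem_O1` : the Gauss property of the good level; consequently
  `alphaA_mem_O1_iff`, `betaA_mem_O1_iff`, `alphaA_mem_O2_iff`, `tau'L_alphaA_mem_O1_iff`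
  (`O₁ ∩ E = O₂ ∩ E = τ'(O₁) ∩ E = α(Ov₀)`);
* `O1V h`, `O2V h`, `O3V h` (`= τ'⁻¹ O₁`) as `ValuationSubring`s, `O1V_ne_O2V`;
* residual independence of `1` in `O₁` and of `1, y, …, y^{p-1}` (`y = β t₀`, `ρ₂ y = x₂`) in `O₂`
  over `ρ₂(α Ov₀) = {g(q^p)}` (`x₂` is a separating generator, so `x₂ ∉ κ((q^p))`);
* `two` : **(TWO) over `ℚ̄`**: a valuation subring of `F` whose restriction to `E` is `α(Ov₀)` is
  `O₁` or `O₂` (`TwoExt22.eq_or_eq_of_residually_independent`);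
* `O3V_ne_O2V` : the witness `u = j(q)^p - j(q^p)` (fixed by `τ'`, non-unit of `O₁`, unit of `O₂`);
* **`tau'L_mem_O1`** (C3), **`rho1_tau'L`** (C4), and the mirror statements `tauL_mem_O2`,
  `rho2_tauL`.
-/
import Mathlib
import Fermat.Agent.U44.GammaGauss2
import Fermat.Agent.U44.HalfRedOver4
import Fermat.Agent.ES.N34.TwoExt22
import Fermat.Agent.ES.N34.TwoExtCor22
import Fermat.Agent.ES.HECKE.AlongDegree25

set_option autoImplicit false
set_option linter.unusedSectionVars false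
set_option linter.style.haveILetI false
set_option synthInstance.maxHeartbeats 400000

noncomputable section

namespace Fermat.Agent.U44.GammaTwo0

open HahnSeries ModularCurve IntermediateField IsLocalRing
open Fermat.Agent.X0 Fermat.Agent.ES.KRON.KronCong24 Fermat.Agent.ES.N34.FrickeFK8
  Fermat.Agent.ES.RED Fermat.Agent.RED.Interface4
  Fermat.Agent.U44.GammaTwist2 Fermat.Agent.U44.GammaLevel2 Fermat.Agent.U44.GammaGauss2
  Fermat.Agent.T33.NodalHalf4 Fermat.Agent.T33.NodalBase4A Fermat.Agent.T33.FrickeRed3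
  Fermat.Agent.T33.NodalCtx1 Fermat.Agent.U44.HalfRedOver4

variable {p M' : ℕ} [NeZero M'] [NeZero p] {A : ValuationSubring Qbar} (h : LevelHyp p M' A)

/-! ### the Gauss property of the good level -/

theorem const_mem_Ov0 (a : ↥A) : algebraMap Qbar ↥(Fbar M') (a : Qbar) ∈ Ov0 h :=
  gaussA_mem_Ov0 h ⟨_, Setup8.algebraMap_mem_gaussA A (Fbar M') a⟩

/-- **Gauss property of `Ov₀`.** -/
theorem gauss0 (x : ↥(Fbar M')) (hx : x ≠ 0) :
    ∃ c : Qbar, c ≠ 0 ∧ ∃ hm : algebraMap Qbar ↥(Fbar M') c * x ∈ Ov0 h,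
      rho0 h ⟨_, hm⟩ ≠ 0 := by
  haveI : Fact p.Prime := ⟨h.prime⟩
  obtain ⟨c, a, b, hc0, ha, hb, hrel⟩ :=
    Fermat.Agent.FF.GaussOv1.exists_gauss_fraction A M' p h.liesOver x hx
  have hrel' : (algebraMap Qbar ↥(Fbar M') c⁻¹ * x) * (b : ↥(Fbar M')) = (a : ↥(Fbar M')) := by
    rw [mul_assoc, hrel, ← mul_assoc, ← map_mul, inv_mul_cancel₀ hc0, map_one, one_mul]
  have hmem : algebraMap Qbar ↥(Fbar M') c⁻¹ * x ∈ Ov0 h :=
    (mem_Ov0_iff h _).2 ⟨a, b, hb, hrel'⟩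
  refine ⟨c⁻¹, inv_ne_zero hc0, hmem, ?_⟩
  intro h0
  have h1 := coe_rho0_eq h ⟨_, hmem⟩ a b hb hrel'
  rw [h0] at h1
  have h2 : Setup8.redA A (Fbar M') a / Setup8.redA A (Fbar M') b = 0 := h1.symm
  rcases div_eq_zero_iff.1 h2 with h3 | h3
  · exact ha h3
  · exact hb h3

/-- a `ℚ̄`-algebra map `φ : Fbar M' → F` that maps Gauss units of `Ov₀` to Gauss units of a Gauss
ring `H` of `F` satisfies `φ⁻¹(H.O) ⊆ Ov₀`. -/
theorem mem_Ov0_of_map_mem {F : Type*} [Field F] [Algebra Qbar F] {Fb' : Type*} [Field Fb']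
    [Algebra (ResidueField ↥A) Fb'] (H : HalfRed A F Fb') (φ : ↥(Fbar M') →ₐ[Qbar] F)
    (hφ : ∀ y : ↥(Ov0 h), rho0 h y ≠ 0 → ∃ hm : φ (y : ↥(Fbar M')) ∈ H.O, H.ρ ⟨_, hm⟩ ≠ 0)
    {x : ↥(Fbar M')} (hx : φ x ∈ H.O) : x ∈ Ov0 h := by
  by_cases hx0 : x = 0
  · rw [hx0]; exact (Ov0 h).zero_mem
  obtain ⟨c, hc0, hm, hρ⟩ := gauss0 h x hx0
  obtain ⟨hm', hρ'⟩ := hφ ⟨_, hm⟩ hρ
  have hcinv : c⁻¹ ∈ A := by
    by_contra hni
    have hc : c ∈ A := by
      have := (A.mem_or_inv_mem c⁻¹).resolve_left hni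
      rwa [inv_inv] at this
    have h0 := ρ_const_eq_zero H hc hni
    apply hρ'
    have h1 : (⟨φ (algebraMap Qbar ↥(Fbar M') c * x), hm'⟩ : H.O) =
        ⟨algebraMap Qbar F c, H.algebraMap_mem ⟨c, hc⟩⟩ * ⟨φ x, hx⟩ := by
      apply Subtype.ext
      show φ (algebraMap Qbar ↥(Fbar M') c * x) = algebraMap Qbar F c * φ x
      rw [map_mul, AlgHom.commutes]
    rw [h1, map_mul, h0, zero_mul]
  have h2 : x = algebraMap Qbar ↥(Fbar M') c⁻¹ * (algebraMap Qbar ↥(Fbar M') c * x) := by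
    rw [← mul_assoc, ← map_mul, inv_mul_cancel₀ hc0, map_one, one_mul]
  rw [h2]
  exact (Ov0 h).mul_mem (const_mem_Ov0 h ⟨c⁻¹, hcinv⟩) hm

/-- **`O₁ ∩ α(Fbar M') = α(Ov₀)`.** -/
theorem alphaA_mem_O1_iff (x : ↥(Fbar M')) : alphaA M' p x ∈ O1 h ↔ x ∈ Ov0 h := by
  refine ⟨fun hx => mem_Ov0_of_map_mem h (c1 h) (alphaA M' p) (fun y hy => ?_) hx,
    fun hx => alphaA_mem_O1 h hx⟩
  refine ⟨alphaA_mem_O1 h y.2, ?_⟩
  show rho1 h ⟨alphaA M' p (y : ↥(Fbar M')), alphaA_mem_O1 h y.2⟩ ≠ 0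
  rw [rho1_alphaA]; exact hy

/-- **`O₁ ∩ β(Fbar M') = β(Ov₀)`.** -/
theorem betaA_mem_O1_iff (x : ↥(Fbar M')) : betaA M' p x ∈ O1 h ↔ x ∈ Ov0 h := by
  refine ⟨fun hx => mem_Ov0_of_map_mem h (c1 h) (betaA M' p) (fun y hy => ?_) hx,
    fun hx => betaA_mem_O1 h hx⟩
  refine ⟨betaA_mem_O1 h y.2, ?_⟩
  show rho1 h ⟨betaA M' p (y : ↥(Fbar M')), betaA_mem_O1 h y.2⟩ ≠ 0
  intro h0
  have h1 := coe_rho1_betaA h y
  rw [h0] at h1
  have h2 : qExpand (Setup8.kA A) p ((rho0 h y : Fb A M') : LaurentSeries (Setup8.kA A)) = 0 :=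
    h1.symm
  rw [map_eq_zero] at h2
  exact hy (Subtype.ext h2)

theorem frickeBar_mem_Ov0_iff (x : ↥(Fbar M')) : frickeBar M' x ∈ Ov0 h ↔ x ∈ Ov0 h := by
  refine ⟨fun hx => ?_, fun hx => frickeBar_mem_Ov0 h hx⟩
  have := frickeBar_mem_Ov0 h hx
  rwa [frickeBar_frickeBar] at this

/-- **`O₂ ∩ α(Fbar M') = α(Ov₀)`.** -/
theorem alphaA_mem_O2_iff (x : ↥(Fbar M')) : alphaA M' p x ∈ O2 h ↔ x ∈ Ov0 h := by
  rw [mem_O2_iff, frickeBar_alphaA, betaA_mem_O1_iff, frickeBar_mem_Ov0_iff]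

theorem tau'L_mem_Ov0_iff (x : ↥(Fbar M')) : tau'L M' h.four_dvd x ∈ Ov0 h ↔ x ∈ Ov0 h := by
  refine ⟨fun hx => ?_, fun hx => tau'L_mem_Ov0 h hx⟩
  have := tau'L_mem_Ov0 h hx
  rwa [tau'L_tau'L] at this

include h in
theorem odd_p : Odd p := h.prime.odd_of_ne_two h.ne_two

/-- **`τ'(O₁) ∩ α(Fbar M') = α(Ov₀)`.** -/
theorem tau'L_alphaA_mem_O1_iff (x : ↥(Fbar M')) :
    tau'L (M' * p) (four_dvd_mul h.four_dvd) (alphaA M' p x) ∈ O1 h ↔ x ∈ Ov0 h := by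
  rw [tau'L_alphaA h.four_dvd (odd_p h), alphaA_mem_O1_iff, tau'L_mem_Ov0_iff]


theorem frickeBar_betaA_mem_O1_iff (x : ↥(Fbar M')) : betaA M' p x ∈ O2 h ↔ x ∈ Ov0 h := by
  rw [mem_O2_iff, frickeBar_betaA, alphaA_mem_O1_iff, frickeBar_mem_Ov0_iff]

/-- **`τ'(O₁) ∩ β(Fbar M') = β(Ov₀)`.** -/
theorem tau'L_betaA_mem_O1_iff (x : ↥(Fbar M')) :
    tau'L (M' * p) (four_dvd_mul h.four_dvd) (betaA M' p x) ∈ O1 h ↔ x ∈ Ov0 h := by
  rw [tau'L_betaA h.four_dvd, betaA_mem_O1_iff, tau'L_mem_Ov0_iff]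

/-! ### Gauss rings as valuation subrings -/

section Abstract

variable {K : Type*} [Field K] {B : ValuationSubring K} {F : Type*} [Field F] [Algebra K F]
  {Fb' : Type*} [Field Fb'] [Algebra (ResidueField ↥B) Fb']

theorem ρ_eq_zero_iff (H : HalfRed B F Fb') (y : H.O) :
    H.ρ y = 0 ↔ (valSub H).valuation (y : F) < 1 := by
  rw [Fermat.Agent.RED.PUR.UniqueExt20.val_lt_one_iff]
  constructor
  · intro h0
    by_cases hy0 : (y : F) = 0
    · exact Or.inl hy0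
    · right
      intro hinv
      have h1 : y * ⟨(y : F)⁻¹, hinv⟩ = 1 := Subtype.ext (mul_inv_cancel₀ hy0)
      have h2 := congrArg H.ρ h1
      rw [map_mul, h0, zero_mul, map_one] at h2
      exact zero_ne_one h2
  · rintro (h0 | hinv)
    · have : y = 0 := Subtype.ext h0
      rw [this, map_zero]
    · by_contra hne
      exact hinv (inv_mem H y hne)

theorem ρv_eq_zero_iff (H : HalfRed B F Fb') (y : ↥(valSub H)) :
    ρv H y = 0 ↔ (valSub H).valuation (y : F) < 1 :=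
  ρ_eq_zero_iff H ⟨(y : F), (mem_valSub H _).1 y.2⟩

end Abstract

/-- `O₁` as a valuation subring. -/
def O1V : ValuationSubring ↥(Fbar (M' * p)) := valSub (c1 h)

/-- `O₂` as a valuation subring. -/
def O2V : ValuationSubring ↥(Fbar (M' * p)) := valSub (c2 h)

/-- `τ'⁻¹(O₁) = τ'(O₁)` as a valuation subring. -/
def O3V : ValuationSubring ↥(Fbar (M' * p)) :=
  (O1V h).comap ((tau'L (M' * p) (four_dvd_mul h.four_dvd) :
    ↥(Fbar (M' * p)) ≃ₐ[Qbar] ↥(Fbar (M' * p))) : ↥(Fbar (M' * p)) →+* ↥(Fbar (M' * p)))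

theorem mem_O1V (f : ↥(Fbar (M' * p))) : f ∈ O1V h ↔ f ∈ O1 h := Iff.rfl

theorem mem_O2V (f : ↥(Fbar (M' * p))) : f ∈ O2V h ↔ f ∈ O2 h := Iff.rfl

theorem mem_O3V (f : ↥(Fbar (M' * p))) :
    f ∈ O3V h ↔ tau'L (M' * p) (four_dvd_mul h.four_dvd) f ∈ O1 h := Iff.rfl

/-! ### the subfield `Fb ∩ κ((q^p))` and the independence of `1, x₁, …, x₁^{p-1}` -/

/-- **`Fb ∩ κ((q^p))`**, the residue field of `β(Ov₀)` inside the residue field of `O₁`. -/
def FbP (A : ValuationSubring Qbar) (M' p : ℕ) [NeZero M'] [NeZero p] : Subfield (Fb A M') :=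
  ((qExpand (Setup8.kA A) p).fieldRange).comap
    (algebraMap (Fb A M') (LaurentSeries (Setup8.kA A)))

theorem mem_FbP (z : Fb A M') :
    z ∈ FbP A M' p ↔ ∃ w : LaurentSeries (Setup8.kA A),
      qExpand (Setup8.kA A) p w = (z : LaurentSeries (Setup8.kA A)) := by
  show algebraMap (Fb A M') (LaurentSeries (Setup8.kA A)) z ∈ (qExpand (Setup8.kA A) p).fieldRange ↔ _
  rw [RingHom.mem_fieldRange]
  rfl

include h in
theorem xOne_not_mem_FbP : xOne h ∉ FbP A M' p := by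
  rw [mem_FbP]
  rintro ⟨w, hw⟩
  have h1 : (qExpand (Setup8.kA A) p w).coeff (-1) = 0 := by
    apply qExpand_coeff_of_not_dvd
    intro hd
    have h2 : ((p : ℤ)) ∣ 1 := by
      obtain ⟨k, hk⟩ := hd
      exact ⟨-k, by linarith⟩
    have h3 := Int.eq_one_of_dvd_one (by positivity) h2
    have h4 : p = 1 := by exact_mod_cast h3
    exact h.prime.one_lt.ne' h4
  rw [hw, coe_xOne, Fermat.Agent.RED.BASE.EtaQuot12.coeff_tq_neg_one] at h1
  exact one_ne_zero h1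

theorem xOne_pow_mem_FbP : xOne h ^ p ∈ FbP A M' p := by
  haveI : Fact p.Prime := ⟨h.prime⟩
  haveI : CharP (Setup8.kA A) p :=
    Fermat.Agent.ES.KRON.KronInst10.charP_residueField A h.prime h.liesOver
  rw [mem_FbP]
  refine ⟨((xOne h : Fb A M') : LaurentSeries (Setup8.kA A)), ?_⟩
  rw [qExpand_eq_pow (by rw [coe_xOne]; exact Fermat.Agent.RED.BASE.EtaQuot12.coeffMap_tq _ _ 4 8)]
  rfl


/-- purely inseparable degree `p`: in characteristic `p`, if `x ^ p ∈ P` and `x ∉ P` then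
`1, x, …, x^{p-1}` are linearly independent over the subfield `P`. -/
theorem linearIndependent_pow_of_not_mem {L : Type*} [Field L] (q : ℕ) (hq : q.Prime) [CharP L q]
    (P : Subfield L) (x : L) (hxp : x ^ q ∈ P) (hx : x ∉ P) :
    LinearIndependent ↥P (fun i : Fin q => x ^ (i : ℕ)) := by
  haveI : Fact q.Prime := ⟨hq⟩
  have hirr : Irreducible (Polynomial.X ^ q - Polynomial.C (⟨x ^ q, hxp⟩ : ↥P) :
      Polynomial ↥P) := by
    rw [X_pow_sub_C_irreducible_iff_of_prime hq]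
    intro b hb
    have h1 : ((b : L)) ^ q = x ^ q := congrArg Subtype.val hb
    have h2 : (b : L) = x := frobenius_inj L q h1
    exact hx (h2 ▸ b.2)
  have hroot : Polynomial.aeval x (Polynomial.X ^ q - Polynomial.C (⟨x ^ q, hxp⟩ : ↥P) :
      Polynomial ↥P) = 0 := by
    rw [map_sub, map_pow, Polynomial.aeval_X, Polynomial.aeval_C]
    show x ^ q - x ^ q = 0
    exact sub_self _
  have hmonic : (Polynomial.X ^ q - Polynomial.C (⟨x ^ q, hxp⟩ : ↥P) : Polynomial ↥P).Monic :=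
    Polynomial.monic_X_pow_sub_C _ hq.ne_zero
  have hmin := minpoly.eq_of_irreducible_of_monic hirr hroot hmonic
  have hdeg : (minpoly ↥P x).natDegree = q := by
    rw [← hmin]; exact Polynomial.natDegree_X_pow_sub_C
  have hli := linearIndependent_pow (K := ↥P) x
  exact hli.comp (Fin.cast hdeg.symm) (Fin.cast_injective _)

/-- **`1, x₁, …, x₁^{p-1}` are linearly independent over `Fb ∩ κ((q^p))`.** -/
theorem linearIndependent_xOne_pow :
    LinearIndependent ↥(FbP A M' p) (fun i : Fin p => xOne h ^ (i : ℕ)) := by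
  haveI : CharP (Setup8.kA A) p :=
    Fermat.Agent.ES.KRON.KronInst10.charP_residueField A h.prime h.liesOver
  haveI : CharP (Fb A M') p :=
    charP_of_injective_algebraMap (algebraMap (Setup8.kA A) (Fb A M')).injective p
  exact linearIndependent_pow_of_not_mem p h.prime (FbP A M' p) (xOne h) (xOne_pow_mem_FbP h)
    (xOne_not_mem_FbP h)

/-! ### (TWO) over `ℚ̄` -/

section Two

/-- `Fbar (M' p)` as an algebra over `Fbar M'` along `β : q ↦ q^p`. -/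
abbrev algB (M' p : ℕ) [NeZero M'] [NeZero p] : Algebra ↥(Fbar M') ↥(Fbar (M' * p)) :=
  AlgebraicCurve.algebraAlong (betaA M' p)

attribute [local instance] algB

theorem algebraMap_eq (x : ↥(Fbar M')) :
    algebraMap ↥(Fbar M') ↥(Fbar (M' * p)) x = betaA M' p x := rfl

include h in
theorem finiteDimensional_beta : FiniteDimensional ↥(Fbar M') ↥(Fbar (M' * p)) :=
  Fermat.Agent.ES.HECKE.AlongDegree25.finiteAlong_beta Qbar M' p h.prime h.not_dvd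

include h in
theorem finrank_beta : Module.finrank ↥(Fbar M') ↥(Fbar (M' * p)) = p + 1 :=
  Fermat.Agent.ES.HECKE.AlongDegree25.finrankAlong_beta Qbar M' p h.prime h.not_dvd

theorem comap_O1V_eq_O2V :
    (O1V h).comap (algebraMap ↥(Fbar M') ↥(Fbar (M' * p))) =
      (O2V h).comap (algebraMap ↥(Fbar M') ↥(Fbar (M' * p))) := by
  ext x
  rw [ValuationSubring.mem_comap, ValuationSubring.mem_comap, algebraMap_eq, mem_O1V, mem_O2V,
    betaA_mem_O1_iff, frickeBar_betaA_mem_O1_iff]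

theorem comap_O1V_eq_O3V :
    (O1V h).comap (algebraMap ↥(Fbar M') ↥(Fbar (M' * p))) =
      (O3V h).comap (algebraMap ↥(Fbar M') ↥(Fbar (M' * p))) := by
  ext x
  rw [ValuationSubring.mem_comap, ValuationSubring.mem_comap, algebraMap_eq, mem_O1V, mem_O3V,
    betaA_mem_O1_iff, tau'L_betaA_mem_O1_iff]


include h in
theorem two_le_pp : 2 ≤ p * p := by
  have := h.prime.two_le
  nlinarith

theorem sub_pow_ne_zero' {κ Fb' : Type*} [Field κ] [Field Fb'] [Algebra κ Fb'] {x : Fb'}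
    (hx : Transcendental κ x) {n : ℕ} (hn : 2 ≤ n) : x - x ^ n ≠ 0 := by
  intro h0
  apply hx
  refine ⟨Polynomial.X - Polynomial.X ^ n, ?_, ?_⟩
  · intro hX
    have := congrArg (fun q => Polynomial.coeff q 1) hX
    simp only [Polynomial.coeff_sub, Polynomial.coeff_X_one, Polynomial.coeff_X_pow,
      Polynomial.coeff_zero] at this
    rw [if_neg (by omega)] at this
    simp at this
  · simp [h0]

/-- two Gauss rings separated by an element are different valuation subrings. -/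
theorem valSub_ne_of_sep {K : Type*} [Field K] {B : ValuationSubring K} {F : Type*} [Field F]
    [Algebra K F] {Fb₁ Fb₂ : Type*} [Field Fb₁] [Field Fb₂] [Algebra (ResidueField ↥B) Fb₁]
    [Algebra (ResidueField ↥B) Fb₂] (H₁ : HalfRed B F Fb₁) (H₂ : HalfRed B F Fb₂) (u : F)
    (hu₁ : u ∈ H₁.O) (hu₂ : u ∈ H₂.O) (h₁ : H₁.ρ ⟨u, hu₁⟩ = 0) (h₂ : H₂.ρ ⟨u, hu₂⟩ ≠ 0) :
    valSub H₁ ≠ valSub H₂ := by
  intro heq
  have hinv2 : u⁻¹ ∈ valSub H₂ := Fermat.Agent.U44.HalfRedOver4.inv_mem H₂ ⟨u, hu₂⟩ h₂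
  have hinv1 : u⁻¹ ∈ H₁.O := by
    rw [← heq] at hinv2
    exact hinv2
  have hne : u ≠ 0 := by
    intro h0
    apply h₂
    have : (⟨u, hu₂⟩ : H₂.O) = 0 := Subtype.ext h0
    rw [this, map_zero]
  have h3 : (⟨u, hu₁⟩ : H₁.O) * ⟨u⁻¹, hinv1⟩ = 1 := Subtype.ext (mul_inv_cancel₀ hne)
  have h4 := congrArg H₁.ρ h3
  rw [map_mul, h₁, zero_mul, map_one] at h4
  exact zero_ne_one h4

theorem sep_mem_O1 : yA h - tA h ^ p ∈ O1 h :=
  (O1 h).sub_mem (yA_mem_O1 h) ((O1 h).pow_mem (tA_mem_O1 h) p)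

theorem sep_mem_O2 : yA h - tA h ^ p ∈ O2 h :=
  (O2 h).sub_mem (yA_mem_O2 h) ((O2 h).pow_mem (tA_mem_O2 h) p)

theorem rho1_sep : rho1 h ⟨yA h - tA h ^ p, sep_mem_O1 h⟩ = 0 := by
  have h1 : (⟨yA h - tA h ^ p, sep_mem_O1 h⟩ : ↥(O1 h)) =
      (⟨yA h, yA_mem_O1 h⟩ : ↥(O1 h)) - ⟨tA h, tA_mem_O1 h⟩ ^ p := Subtype.ext rfl
  rw [h1, map_sub, map_pow, rho1_yA, rho1_tA, sub_self]

theorem rho2_sep : rho2 h ⟨yA h - tA h ^ p, sep_mem_O2 h⟩ ≠ 0 := by
  have h1 : (⟨yA h - tA h ^ p, sep_mem_O2 h⟩ : ↥(O2 h)) =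
      (⟨yA h, yA_mem_O2 h⟩ : ↥(O2 h)) - ⟨tA h, tA_mem_O2 h⟩ ^ p := Subtype.ext rfl
  rw [h1, map_sub, map_pow, rho2_yA, rho2_tA, ← pow_mul]
  exact sub_pow_ne_zero' (isGen_xTwo h).transcendental (two_le_pp h)

/-- **`O₁ ≠ O₂`**: `y - t^p` is a non-unit of `O₁` and a unit of `O₂`. -/
theorem O1V_ne_O2V : O1V h ≠ O2V h :=
  valSub_ne_of_sep (c1 h) (c2 h) (yA h - tA h ^ p) (sep_mem_O1 h) (sep_mem_O2 h) (rho1_sep h)
    (rho2_sep h)

open Fermat.Agent.ES.N34 in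
/-- residual independence of `1, t, …, t^{p-1}` in `O₁` over `β(Ov₀)`. -/
theorem indep_O1 : ∀ a : Fin p → ↥(Fbar M'),
    (∀ i, ((O1V h).comap (algebraMap ↥(Fbar M') ↥(Fbar (M' * p)))).valuation (a i) ≤ 1) →
    (O1V h).valuation (∑ i, algebraMap ↥(Fbar M') ↥(Fbar (M' * p)) (a i) * tA h ^ (i : ℕ)) < 1 →
    ∀ i, ((O1V h).comap (algebraMap ↥(Fbar M') ↥(Fbar (M' * p)))).valuation (a i) < 1 := by
  have hmem : ∀ i : Fin p, tA h ^ (i : ℕ) ∈ O1V h := fun i => (O1 h).pow_mem (tA_mem_O1 h) _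
  have hli : LinearIndependent ↥(FbP A M' p)
      (fun i : Fin p => ρv (c1 h) ⟨tA h ^ (i : ℕ), hmem i⟩) := by
    have h1 : (fun i : Fin p => ρv (c1 h) ⟨tA h ^ (i : ℕ), hmem i⟩) =
        fun i : Fin p => xOne h ^ (i : ℕ) := by
      funext i
      have h2 : (⟨tA h ^ (i : ℕ), hmem i⟩ : ↥(valSub (c1 h))) =
          (⟨tA h, tA_mem_O1 h⟩ : ↥(valSub (c1 h))) ^ (i : ℕ) := Subtype.ext rfl
      rw [h2, map_pow]
      congr 1
      exact rho1_tA h
    rw [h1]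
    exact linearIndependent_xOne_pow h
  exact TwoExtCor22.elementwise_of_residue (O1V h) (ρv (c1 h))
    (fun x => ρv_eq_zero_iff (c1 h) x) (FbP A M' p)
    (fun a ha => by
      have ha' : a ∈ Ov0 h := (betaA_mem_O1_iff h a).1 ha
      rw [mem_FbP]
      exact ⟨_, (coe_rho1_betaA h ⟨a, ha'⟩).symm⟩)
    (fun i => ⟨tA h ^ (i : ℕ), hmem i⟩) hli

open Fermat.Agent.RED.PUR.UniqueExt20 in
/-- residual independence of `1` in `O₂` over `β(Ov₀)`. -/
theorem indep_O2 : ∀ a : Fin 1 → ↥(Fbar M'),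
    (∀ i, ((O1V h).comap (algebraMap ↥(Fbar M') ↥(Fbar (M' * p)))).valuation (a i) ≤ 1) →
    (O2V h).valuation (∑ i, algebraMap ↥(Fbar M') ↥(Fbar (M' * p)) (a i) *
      (fun _ : Fin 1 => (1 : ↥(Fbar (M' * p)))) i) < 1 →
    ∀ i, ((O1V h).comap (algebraMap ↥(Fbar M') ↥(Fbar (M' * p)))).valuation (a i) < 1 := by
  intro a _ hs i
  rw [comap_O1V_eq_O2V h, comap_val_lt_one_iff]
  have hi : i = 0 := Subsingleton.elim _ _
  subst hi
  simpa using hs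

/-- **(TWO) over `ℚ̄`**: a valuation subring of `Fbar (M' p)` with the same restriction to
`β(Fbar M')` as `O₁` is `O₁` or `O₂`. -/
theorem two (V : ValuationSubring ↥(Fbar (M' * p)))
    (hV : (O1V h).comap (algebraMap ↥(Fbar M') ↥(Fbar (M' * p))) =
      V.comap (algebraMap ↥(Fbar M') ↥(Fbar (M' * p)))) : V = O1V h ∨ V = O2V h := by
  haveI := finiteDimensional_beta h
  exact Fermat.Agent.ES.N34.TwoExt22.eq_or_eq_of_residually_independent (n₁ := p) (n₂ := 1)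
    (finrank_beta h).le (O1V h) (O2V h) V (O1V_ne_O2V h) (comap_O1V_eq_O2V h) hV
    (fun i : Fin p => tA h ^ (i : ℕ)) (fun i => (O1 h).pow_mem (tA_mem_O1 h) _) (indep_O1 h)
    (fun _ : Fin 1 => 1) (fun _ => (O2V h).one_mem) (indep_O2 h)


/-- **`τ'(O₁) ≠ O₂`**: `τ'` is an involution preserving `O₂` (helper4's remark). -/
theorem O3V_ne_O2V : O3V h ≠ O2V h := by
  intro heq
  apply O1V_ne_O2V h
  ext f
  rw [mem_O1V, mem_O2V]
  constructor
  · intro hf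
    -- `τ' f ∈ O3V = O2V`, hence `f = τ' (τ' f) ∈ O2`
    have h1 : tau'L (M' * p) (four_dvd_mul h.four_dvd) f ∈ O3V h := by
      rw [mem_O3V, tau'L_tau'L]; exact hf
    rw [heq, mem_O2V] at h1
    have h2 := tau'L_mem_O2 h h1
    rwa [tau'L_tau'L] at h2
  · intro hf
    have h1 : tau'L (M' * p) (four_dvd_mul h.four_dvd) f ∈ O2V h := tau'L_mem_O2 h hf
    rw [← heq, mem_O3V, tau'L_tau'L] at h1
    exact h1

theorem O3V_eq_O1V : O3V h = O1V h :=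
  (two h (O3V h) (comap_O1V_eq_O3V h)).resolve_right (O3V_ne_O2V h)

end Two

/-- **(C3)** `τ'` preserves the Gauss ring `O₁` of the expansion at `∞`. -/
theorem tau'L_mem_O1 {y : ↥(Fbar (M' * p))} (hy : y ∈ O1 h) :
    tau'L (M' * p) (four_dvd_mul h.four_dvd) y ∈ O1 h := by
  have h1 : y ∈ O3V h := by
    rw [O3V_eq_O1V h]; exact hy
  exact (mem_O3V h y).1 h1

/-- **(C4)** `ρ₁ (τ' y) = τ̄' (ρ₁ y)`. -/
theorem rho1_tau'L (y : ↥(Fbar (M' * p))) (hy : y ∈ O1 h) :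
    rho1 h ⟨tau'L (M' * p) (four_dvd_mul h.four_dvd) y, tau'L_mem_O1 h hy⟩ =
      tauB' h (rho1 h ⟨y, hy⟩) := by
  obtain ⟨x, hx⟩ := rho0_surjective h (rho1 h ⟨y, hy⟩)
  -- `d := y - α x ∈ ker ρ₁ = 𝔪_A O₁`
  have hαx : alphaA M' p (x : ↥(Fbar M')) ∈ O1 h := alphaA_mem_O1 h x.2
  have hd : rho1 h (⟨y, hy⟩ - ⟨alphaA M' p (x : ↥(Fbar M')), hαx⟩) = 0 := by
    rw [map_sub, rho1_alphaA, hx, sub_self]
  obtain ⟨c, hc, d', hd'⟩ := rho1_ker h _ hd
  have hd'' : y - alphaA M' p (x : ↥(Fbar M')) =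
      algebraMap Qbar ↥(Fbar (M' * p)) (c : Qbar) * (d' : ↥(Fbar (M' * p))) := hd'
  have hτd' := tau'L_mem_O1 h d'.2
  have hτα : tau'L (M' * p) (four_dvd_mul h.four_dvd) (alphaA M' p (x : ↥(Fbar M'))) ∈ O1 h :=
    tau'L_mem_O1 h hαx
  have hsplit : (⟨tau'L (M' * p) (four_dvd_mul h.four_dvd) y, tau'L_mem_O1 h hy⟩ : ↥(O1 h)) =
      ⟨tau'L (M' * p) (four_dvd_mul h.four_dvd) (alphaA M' p (x : ↥(Fbar M'))), hτα⟩ +
      ⟨algebraMap Qbar ↥(Fbar (M' * p)) (c : Qbar) *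
        tau'L (M' * p) (four_dvd_mul h.four_dvd) (d' : ↥(Fbar (M' * p))),
        smul_mem_O1 h c hτd'⟩ := by
    apply Subtype.ext
    show tau'L (M' * p) (four_dvd_mul h.four_dvd) y =
      tau'L (M' * p) (four_dvd_mul h.four_dvd) (alphaA M' p (x : ↥(Fbar M'))) +
      algebraMap Qbar ↥(Fbar (M' * p)) (c : Qbar) *
        tau'L (M' * p) (four_dvd_mul h.four_dvd) (d' : ↥(Fbar (M' * p)))
    have h1 : y = alphaA M' p (x : ↥(Fbar M')) +
        algebraMap Qbar ↥(Fbar (M' * p)) (c : Qbar) * (d' : ↥(Fbar (M' * p))) := by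
      rw [← hd'']; ring
    conv_lhs => rw [h1]
    rw [map_add, map_mul, AlgEquiv.commutes]
  rw [hsplit, map_add]
  have hzero : rho1 h ⟨algebraMap Qbar ↥(Fbar (M' * p)) (c : Qbar) *
      tau'L (M' * p) (four_dvd_mul h.four_dvd) (d' : ↥(Fbar (M' * p))),
      smul_mem_O1 h c hτd'⟩ = 0 := by
    have h2 := rho1_smul h c ⟨_, hτd'⟩
    rw [(residue_eq_zero_iff c).2 hc, map_zero, zero_mul] at h2
    exact h2
  rw [hzero, add_zero]
  have h3 : rho1 h ⟨tau'L (M' * p) (four_dvd_mul h.four_dvd) (alphaA M' p (x : ↥(Fbar M'))), hτα⟩ =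
      rho1 h ⟨alphaA M' p (tau'L M' h.four_dvd (x : ↥(Fbar M'))),
        alphaA_mem_O1 h (tau'L_mem_Ov0 h x.2)⟩ :=
    rho1_congr h (tau'L_alphaA h.four_dvd (odd_p h) _) _ _
  rw [h3, rho1_alphaA h ⟨_, tau'L_mem_Ov0 h x.2⟩, rho0_tau'L, hx]

end Fermat.Agent.U44.GammaTwo0
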