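/-
Programme U44 (target S44), stage 0, chapter (GAMMA), file 4 (helper2): **valuation-theoretic
preliminaries for (C3)** (`τ'` preserves the Gauss ring `O₁` of the bad level).

* generic: a component `c : HalfRed A F Fb` gives a valuation subring `valSub c` of `F`
  (`halfRed_inv_mem`, `halfRed_mem_or_inv_mem`), whose maximal ideal is the kernel of the reduction
  (`valSub_val_lt_one_iff`);
* `betaA_mem_O1_iff`, `betaA_mem_O2_iff`, `tau'L_betaA_mem_O1_iff` : the three valuation rings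
  `O₁`, `O₂`, `τ'⁻¹ O₁` of `Fbar (M' p)` restrict to the SAME valuation ring `Ov₀` of `Fbar M'`
  along `β : q ↦ q ^ p`;
* `valSub_c1_ne_c2` : `O₁ ≠ O₂` (witness `t - y ^ p`).
-/
import Mathlib
import Fermat.Agent.U44.GammaGauss2
import Fermat.Agent.ES.N34.TwoExt22
import Fermat.Agent.ES.HECKE.AlongDegree25
import Fermat.Agent.RED.PUR.SepLaurent25

set_option autoImplicit false
set_option linter.unusedSectionVars false
set_option linter.style.haveILetI false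
set_option synthInstance.maxHeartbeats 400000

noncomputable section

namespace Fermat.Agent.U44.GammaVal2

open HahnSeries ModularCurve IntermediateField IsLocalRing AlgebraicCurve
open Fermat.Agent.X0 Fermat.Agent.ES.KRON.KronCong24 Fermat.Agent.ES.N34.FrickeFK8
  Fermat.Agent.ES.RED Fermat.Agent.RED.Interface4
  Fermat.Agent.U44.GammaTwist2 Fermat.Agent.U44.GammaLevel2 Fermat.Agent.U44.GammaGauss2
  Fermat.Agent.T33.NodalHalf4 Fermat.Agent.T33.NodalBase4A Fermat.Agent.T33.FrickeRed3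
  Fermat.Agent.T33.NodalCtx1

section Generic

variable {K : Type*} [Field K] {A : ValuationSubring K} {F : Type*} [Field F] [Algebra K F]
  {Fb : Type*} [Field Fb] [Algebra (ResidueField A) Fb]

/-- a constant of `O` with nonzero reduction has its inverse in `A`. -/
theorem halfRed_const_inv_mem (c : HalfRed A F Fb) {e : K} (he : algebraMap K F e ∈ c.O)
    (hρ : c.ρ ⟨_, he⟩ ≠ 0) : e⁻¹ ∈ A := by
  by_contra hinv
  have heA : e ∈ A := by
    have := (A.mem_or_inv_mem e⁻¹).resolve_left hinv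
    rwa [inv_inv] at this
  have hm : (⟨e, heA⟩ : A) ∈ maximalIdeal A := by
    rw [mem_maximalIdeal, mem_nonunits_iff]
    intro hu
    apply hinv
    obtain ⟨v, hv⟩ := hu.exists_right_inv
    have hv' : e * (v : K) = 1 := by
      have := congrArg Subtype.val hv
      simpa using this
    have : (v : K) = e⁻¹ := eq_inv_of_mul_eq_one_right hv'
    rw [← this]; exact v.2
  apply hρ
  have h1 := c.ρ_algebraMap ⟨e, heA⟩
  rw [(residue_eq_zero_iff _).2 hm, map_zero] at h1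
  exact h1

/-- **elements of nonzero reduction are invertible in `O`.** -/
theorem halfRed_inv_mem (c : HalfRed A F Fb) (x : c.O) (hx : c.ρ x ≠ 0) : (x : F)⁻¹ ∈ c.O := by
  have hx0 : (x : F) ≠ 0 := by
    intro h0
    apply hx
    have : x = 0 := Subtype.ext h0
    rw [this, map_zero]
  obtain ⟨e, he0, hm, hρ⟩ := c.gauss (x : F)⁻¹ (inv_ne_zero hx0)
  have heq : algebraMap K F e = (algebraMap K F e * (x : F)⁻¹) * (x : F) := by
    rw [mul_assoc, inv_mul_cancel₀ hx0, mul_one]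
  have heO : algebraMap K F e ∈ c.O := by
    rw [heq]; exact c.O.mul_mem hm x.2
  have hρe : c.ρ ⟨_, heO⟩ ≠ 0 := by
    have h1 : (⟨_, heO⟩ : c.O) = ⟨_, hm⟩ * x := Subtype.ext heq
    rw [h1, map_mul]
    exact mul_ne_zero hρ hx
  have heA := halfRed_const_inv_mem c heO hρe
  have h2 : (x : F)⁻¹ = algebraMap K F ((⟨e⁻¹, heA⟩ : A) : K) * (algebraMap K F e * (x : F)⁻¹) := by
    rw [← mul_assoc, ← map_mul, inv_mul_cancel₀ he0, map_one, one_mul]
  rw [h2]
  exact c.O.mul_mem (c.algebraMap_mem ⟨e⁻¹, heA⟩) hm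

/-- **`O` is a valuation ring.** -/
theorem halfRed_mem_or_inv_mem (c : HalfRed A F Fb) (f : F) : f ∈ c.O ∨ f⁻¹ ∈ c.O := by
  by_cases hf0 : f = 0
  · left; rw [hf0]; exact c.O.zero_mem
  obtain ⟨e, he0, hm, hρ⟩ := c.gauss f hf0
  rcases A.mem_or_inv_mem e with he | he
  · right
    have h1 := halfRed_inv_mem c ⟨_, hm⟩ hρ
    have h3 : algebraMap K F ((⟨e, he⟩ : A) : K) * (algebraMap K F e * f)⁻¹ = f⁻¹ := by
      have : algebraMap K F e ≠ 0 := by rw [Ne, map_eq_zero]; exact he0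
      show algebraMap K F e * (algebraMap K F e * f)⁻¹ = f⁻¹
      field_simp
    rw [← h3]
    exact c.O.mul_mem (c.algebraMap_mem ⟨e, he⟩) h1
  · left
    have h3 : algebraMap K F ((⟨e⁻¹, he⟩ : A) : K) * (algebraMap K F e * f) = f := by
      show algebraMap K F e⁻¹ * (algebraMap K F e * f) = f
      rw [← mul_assoc, ← map_mul, inv_mul_cancel₀ he0, map_one, one_mul]
    rw [← h3]
    exact c.O.mul_mem (c.algebraMap_mem ⟨e⁻¹, he⟩) hm

/-- the Gauss ring of a component as a valuation subring. -/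
def valSub (c : HalfRed A F Fb) : ValuationSubring F :=
  { c.O with mem_or_inv_mem' := halfRed_mem_or_inv_mem c }

theorem mem_valSub (c : HalfRed A F Fb) (x : F) : x ∈ valSub c ↔ x ∈ c.O := Iff.rfl

/-- the maximal ideal of `valSub c` is the kernel of the reduction. -/
theorem valSub_val_lt_one_iff (c : HalfRed A F Fb) (x : F) :
    (valSub c).valuation x < 1 ↔ ∃ hx : x ∈ c.O, c.ρ ⟨x, hx⟩ = 0 := by
  constructor
  · intro hlt
    have hx : x ∈ c.O := (mem_valSub c x).1 (((valSub c).valuation_le_one_iff x).1 hlt.le)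
    refine ⟨hx, ?_⟩
    by_contra hρ
    have hinv : x⁻¹ ∈ valSub c := halfRed_inv_mem c ⟨x, hx⟩ hρ
    have h1 : (valSub c).valuation x⁻¹ ≤ 1 := ((valSub c).valuation_le_one_iff _).2 hinv
    have hx0 : x ≠ 0 := by
      rintro rfl
      exact hρ (map_zero c.ρ)
    rw [map_inv₀] at h1
    have h2 : 1 ≤ (valSub c).valuation x := by
      have hpos : 0 < (valSub c).valuation x := by
        rw [pos_iff_ne_zero, Ne, map_eq_zero]; exact hx0
      exact (inv_le_one₀ hpos).1 h1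
    exact absurd hlt (not_lt.2 h2)
  · rintro ⟨hx, hρ⟩
    by_contra hnlt
    have hle : (valSub c).valuation x ≤ 1 := ((valSub c).valuation_le_one_iff x).2 hx
    have heq : (valSub c).valuation x = 1 := le_antisymm hle (not_lt.1 hnlt)
    have hx0 : x ≠ 0 := by
      rintro rfl
      rw [map_zero] at heq
      exact zero_ne_one heq
    have hinv : x⁻¹ ∈ c.O := by
      apply (mem_valSub c _).1
      rw [← (valSub c).valuation_le_one_iff, map_inv₀, heq, inv_one]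
    have h1 : (⟨x, hx⟩ : c.O) * ⟨x⁻¹, hinv⟩ = 1 := Subtype.ext (mul_inv_cancel₀ hx0)
    have h2 := congrArg c.ρ h1
    rw [map_mul, hρ, zero_mul, map_one] at h2
    exact zero_ne_one h2

end Generic

variable {A : ValuationSubring Qbar}
variable {p M' : ℕ} [NeZero M'] [NeZero p] (h : LevelHyp p M' A)

/-- `Ov₀` is a valuation ring. -/
theorem mem_or_inv_mem_Ov0 (x : ↥(Fbar M')) : x ∈ Ov0 h ∨ x⁻¹ ∈ Ov0 h :=
  haveI : Fact p.Prime := ⟨h.prime⟩
  Fermat.Agent.FF.GaussOv1.mem_or_inv_mem A M' p h.liesOver h.not_dvd x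

theorem inv_mem_Ov0 (y : ↥(Ov0 h)) (hy : rho0 h y ≠ 0) : ((y : ↥(Fbar M')))⁻¹ ∈ Ov0 h :=
  haveI : Fact p.Prime := ⟨h.prime⟩
  Fermat.Agent.FF.GaussOv1.inv_mem A M' p h.liesOver h.not_dvd y hy

/-- an element outside `Ov₀` is the inverse of an element of zero reduction. -/
theorem exists_inv_of_not_mem_Ov0 {x : ↥(Fbar M')} (hx : x ∉ Ov0 h) :
    ∃ hinv : x⁻¹ ∈ Ov0 h, rho0 h ⟨x⁻¹, hinv⟩ = 0 := by
  have hinv : x⁻¹ ∈ Ov0 h := (mem_or_inv_mem_Ov0 h x).resolve_left hx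
  refine ⟨hinv, ?_⟩
  by_contra hρ
  apply hx
  have := inv_mem_Ov0 h ⟨x⁻¹, hinv⟩ hρ
  rwa [inv_inv] at this

/-- **`β x ∈ O₁ ↔ x ∈ Ov₀`.** -/
theorem betaA_mem_O1_iff (x : ↥(Fbar M')) : betaA M' p x ∈ O1 h ↔ x ∈ Ov0 h := by
  refine ⟨fun hx => ?_, betaA_mem_O1 h⟩
  by_contra hn
  obtain ⟨hinv, hρ⟩ := exists_inv_of_not_mem_Ov0 h hn
  have hx0 : x ≠ 0 := fun h0 => hn (h0 ▸ (Ov0 h).zero_mem)
  have h1 : rho1 h ⟨betaA M' p x⁻¹, betaA_mem_O1 h hinv⟩ = 0 := by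
    apply Subtype.ext
    rw [coe_rho1_betaA h ⟨x⁻¹, hinv⟩, hρ]
    simp
  have h2 : (⟨betaA M' p x, hx⟩ : ↥(O1 h)) * ⟨betaA M' p x⁻¹, betaA_mem_O1 h hinv⟩ = 1 := by
    apply Subtype.ext
    show betaA M' p x * betaA M' p x⁻¹ = 1
    rw [← map_mul, mul_inv_cancel₀ hx0, map_one]
  have h3 := congrArg (rho1 h) h2
  rw [map_mul, h1, mul_zero, map_one] at h3
  exact zero_ne_one h3

/-- **`β x ∈ O₂ ↔ x ∈ Ov₀`.** -/
theorem betaA_mem_O2_iff (x : ↥(Fbar M')) : betaA M' p x ∈ O2 h ↔ x ∈ Ov0 h := by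
  refine ⟨fun hx => ?_, betaA_mem_O2 h⟩
  by_contra hn
  obtain ⟨hinv, hρ⟩ := exists_inv_of_not_mem_Ov0 h hn
  have hx0 : x ≠ 0 := fun h0 => hn (h0 ▸ (Ov0 h).zero_mem)
  have h1 : rho2 h ⟨betaA M' p x⁻¹, betaA_mem_O2 h hinv⟩ = 0 := by
    rw [rho2_betaA h ⟨x⁻¹, hinv⟩, hρ, map_zero]
  have h2 : (⟨betaA M' p x, hx⟩ : ↥(O2 h)) * ⟨betaA M' p x⁻¹, betaA_mem_O2 h hinv⟩ = 1 := by
    apply Subtype.ext
    show betaA M' p x * betaA M' p x⁻¹ = 1
    rw [← map_mul, mul_inv_cancel₀ hx0, map_one]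
  have h3 := congrArg (rho2 h) h2
  rw [map_mul, h1, mul_zero, map_one] at h3
  exact zero_ne_one h3

/-- **`τ' (β x) ∈ O₁ ↔ x ∈ Ov₀`.** -/
theorem tau'L_betaA_mem_O1_iff (x : ↥(Fbar M')) :
    tau'L (M' * p) (four_dvd_mul h.four_dvd) (betaA M' p x) ∈ O1 h ↔ x ∈ Ov0 h := by
  rw [tau'L_betaA h.four_dvd, betaA_mem_O1_iff]
  constructor
  · intro hx
    have := tau'L_mem_Ov0 h hx
    rwa [tau'L_tau'L] at this
  · exact tau'L_mem_Ov0 h

/-- a transcendental element is not a root of `X - X ^ n`, `n ≥ 2`. -/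
theorem sub_pow_ne_zero' {κ Fb' : Type*} [Field κ] [Field Fb'] [Algebra κ Fb'] {x : Fb'}
    (hx : Transcendental κ x) {n : ℕ} (hn : 2 ≤ n) : x - x ^ n ≠ 0 := by
  intro h0
  apply hx
  refine ⟨Polynomial.X - Polynomial.X ^ n, ?_, ?_⟩
  · intro hX
    have := congrArg (fun q => Polynomial.coeff q 1) hX
    simp only [Polynomial.coeff_sub, Polynomial.coeff_X_one, Polynomial.coeff_X_pow,
      Polynomial.coeff_zero] at this
    rw [if_neg (by omega)] at this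
    simp at this
  · simp [h0]

/-- **the two Gauss rings differ**: `t - y ^ p` is a unit of `O₁` and a non-unit of `O₂`. -/
theorem valSub_c1_ne_c2 : valSub (c1 h) ≠ valSub (c2 h) := by
  haveI : Fact p.Prime := ⟨h.prime⟩
  intro heq
  have hu1 : tA h - yA h ^ p ∈ O1 h :=
    (O1 h).sub_mem (tA_mem_O1 h) ((O1 h).pow_mem (yA_mem_O1 h) p)
  have hu2 : tA h - yA h ^ p ∈ O2 h :=
    (O2 h).sub_mem (tA_mem_O2 h) ((O2 h).pow_mem (yA_mem_O2 h) p)
  have hρ1 : rho1 h ⟨_, hu1⟩ ≠ 0 := by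
    have : (⟨_, hu1⟩ : ↥(O1 h)) = ⟨tA h, tA_mem_O1 h⟩ - ⟨yA h, yA_mem_O1 h⟩ ^ p := rfl
    rw [this, map_sub, map_pow, rho1_tA, rho1_yA, ← pow_mul]
    refine sub_pow_ne_zero' (isGen_xOne h).transcendental ?_
    have := h.prime.two_le
    nlinarith
  have hρ2 : rho2 h ⟨_, hu2⟩ = 0 := by
    have : (⟨_, hu2⟩ : ↥(O2 h)) = ⟨tA h, tA_mem_O2 h⟩ - ⟨yA h, yA_mem_O2 h⟩ ^ p := rfl
    rw [this, map_sub, map_pow, rho2_tA, rho2_yA, sub_self]
  have hinv1 : (tA h - yA h ^ p)⁻¹ ∈ valSub (c1 h) := halfRed_inv_mem (c1 h) ⟨_, hu1⟩ hρ1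
  rw [heq] at hinv1
  have hinv2 : (tA h - yA h ^ p)⁻¹ ∈ O2 h := hinv1
  have hu0 : tA h - yA h ^ p ≠ 0 := by
    intro h0
    apply hρ1
    have : (⟨_, hu1⟩ : ↥(O1 h)) = 0 := Subtype.ext h0
    rw [this, map_zero]
  have h1 : (⟨_, hu2⟩ : ↥(O2 h)) * ⟨_, hinv2⟩ = 1 := Subtype.ext (mul_inv_cancel₀ hu0)
  have h2 := congrArg (rho2 h) h1
  rw [map_mul, hρ2, zero_mul, map_one] at h2
  exact zero_ne_one h2

end Fermat.Agent.U44.GammaVal2
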