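/-
Programme U44 (target S44), stage 0, chapter (GAMMA), file 5 (helper2): **(C3) — the deck involution
`τ' = W τ W` of `X₀(M'p) → X₀(M'p/2)` preserves BOTH Gauss rings of the bad level** (and `τ` too),
with the cross compatibilities of the reductions.

`h : LevelHyp p M' A`, `F = Fbar (M' p)` over `E = Fbar M'` through `β : q ↦ q ^ p`, `[F : βE] = p + 1`.
The valuation rings `O₁`, `O₂`, `τ'⁻¹ O₁` of `F` all restrict to `Ov₀` on `E` (`GammaVal2`); `O₁`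
contains the `p` residually independent elements `1, t, …, t^{p-1}` (`rho0_eq_zero_of_sum`: the
reductions `c_i(q^p) x₁^i` have pairwise distinct orders mod `p`, `x₁` of order `-1`) and `O₂`
contains `1`; so by `TwoExt22.eq_or_eq_of_residually_independent` (`∑ e f ≤ n`, no completions)
`τ'⁻¹ O₁ ∈ {O₁, O₂}` (`comap_tau'_eq_or`), and `τ'⁻¹ O₁ = O₂` would force `O₁ = O₂`.

* `tau'L_mem_O1_iff`, `tau'L_mem_O1` : `τ' y ∈ O₁ ↔ y ∈ O₁`;
* `rho1_tau'L : ρ₁ (τ' y) = τ̄' (ρ₁ y)` (`τ̄' = W̄ τ̄ W̄ = GammaGauss2.tauB'`; the two ring maps agree on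
  `α(Ov₀)`, which surjects onto the residue field, and `ker ρ₁ = 𝔪_A O₁`);
* `tauL_mem_O2`, `rho2_tauL : ρ₂ (τ y) = τ̄' (ρ₂ y)`.

Together with `GammaGauss2` (`ρ₁ τ = τ̄ ρ₁`, `ρ₂ τ' = τ̄ ρ₂`): `Γ = ⟨τ, τ'⟩` acts on the nodal reduction
context of `X₀(M'p)`, by `(τ̄, τ̄')` on the component `C₁` and by `(τ̄', τ̄)` on `C₂`.
-/
import Mathlib
import Fermat.Agent.U44.GammaVal2

set_option autoImplicit false
set_option linter.unusedSectionVars false
set_option linter.style.haveILetI false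
set_option synthInstance.maxHeartbeats 400000

noncomputable section

namespace Fermat.Agent.U44.GammaTwo2

open HahnSeries ModularCurve IntermediateField IsLocalRing AlgebraicCurve
open Fermat.Agent.X0 Fermat.Agent.ES.KRON.KronCong24 Fermat.Agent.ES.N34.FrickeFK8
  Fermat.Agent.ES.RED Fermat.Agent.RED.Interface4
  Fermat.Agent.U44.GammaTwist2 Fermat.Agent.U44.GammaLevel2 Fermat.Agent.U44.GammaGauss2
  Fermat.Agent.U44.GammaVal2
  Fermat.Agent.T33.NodalHalf4 Fermat.Agent.T33.NodalBase4A Fermat.Agent.T33.FrickeRed3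
  Fermat.Agent.T33.NodalCtx1

variable {A : ValuationSubring Qbar}
variable {p M' : ℕ} [NeZero M'] [NeZero p] (h : LevelHyp p M' A)

/-- the order of `x₁ = t̃` is `-1`. -/
theorem order_tq (κ : Type*) [Field κ] :
    (Fermat.Agent.RED.BASE.EtaQuot12.tq κ 4 8).order = -1 := by
  have h1 : (Fermat.Agent.RED.BASE.EtaQuot12.tq κ 4 8).coeff (-1) = 1 :=
    Fermat.Agent.RED.BASE.EtaQuot12.coeff_tq_neg_one κ 4 8
  have hne : Fermat.Agent.RED.BASE.EtaQuot12.tq κ 4 8 ≠ 0 := by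
    intro h0
    rw [h0] at h1
    simp at h1
  apply le_antisymm
  · exact HahnSeries.order_le_of_coeff_ne_zero (by rw [h1]; exact one_ne_zero)
  · by_contra hlt
    rw [not_le] at hlt
    exact (HahnSeries.coeff_order_eq_zero.not.2 hne)
      (Fermat.Agent.RED.BASE.EtaQuot12.coeff_tq_of_lt κ 4 8 hlt)

/-- **residual independence of `1, t, …, t^{p-1}` over `β(Ov₀)`** (in terms of reductions). -/
theorem rho0_eq_zero_of_sum (a : Fin p → ↥(Ov0 h))
    (hsum : ∑ i : Fin p, rho1 h ⟨betaA M' p (a i : ↥(Fbar M')), betaA_mem_O1 h (a i).2⟩ *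
      xOne h ^ (i : ℕ) = 0) : ∀ i, rho0 h (a i) = 0 := by
  classical
  have hsum' : ((∑ i : Fin p, rho1 h ⟨betaA M' p (a i : ↥(Fbar M')), betaA_mem_O1 h (a i).2⟩ *
      xOne h ^ (i : ℕ) : Fb A M') : LaurentSeries (Setup8.kA A)) = 0 := by
    rw [hsum]; rfl
  set c : ℕ → LaurentSeries (Setup8.kA A) := fun j =>
    if hj : j < p then
      qExpand (Setup8.kA A) p ((rho0 h (a ⟨j, hj⟩) : Fb A M') : LaurentSeries (Setup8.kA A))
    else 0 with hc
  have hzero : ∑ j ∈ Finset.range p, c j * (Fermat.Agent.RED.BASE.EtaQuot12.tq (Setup8.kA A) 4 8) ^ j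
      = 0 := by
    rw [← Fin.sum_univ_eq_sum_range (fun j => c j *
      (Fermat.Agent.RED.BASE.EtaQuot12.tq (Setup8.kA A) 4 8) ^ j) p]
    rw [← hsum']
    push_cast
    refine Finset.sum_congr rfl fun i _ => ?_
    rw [hc]
    simp only [i.2, dif_pos, Fin.eta]
    rw [coe_rho1_betaA h (a i), coe_xOne]
  have hy : (Fermat.Agent.RED.BASE.EtaQuot12.tq (Setup8.kA A) 4 8).order = -1 := order_tq _
  have hy0 : Fermat.Agent.RED.BASE.EtaQuot12.tq (Setup8.kA A) 4 8 ≠ 0 := by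
    intro h0
    rw [h0, order_zero] at hy
    omega
  have hall := Fermat.Agent.RED.PUR.SepLaurent25.eq_zero_of_sum_mul_pow_eq_zero (p := p) hy0
    (by rw [hy]; exact (isCoprime_one_left (x := (p : ℤ))).neg_left) c
    (fun j => by
      rw [hc]
      by_cases hj : j < p
      · simp only [hj, dif_pos]
        exact Fermat.Agent.IG.PR.RamDeg25.dvd_order_qExpand p _
      · simp only [hj, dif_neg, not_false_iff, order_zero, dvd_zero]) hzero
  intro i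
  have h1 := hall i i.2
  rw [hc] at h1
  simp only [i.2, dif_pos, Fin.eta] at h1
  apply Subtype.ext
  have h2 := (map_eq_zero_iff _ (qExpand_injective (R := Setup8.kA A) p)).1 h1
  rw [h2]; rfl

/-- `τ'` of the bad level, as a ring endomorphism. -/
def tau'Ring (h : LevelHyp p M' A) : ↥(Fbar (M' * p)) →+* ↥(Fbar (M' * p)) :=
  ((tau'L (M' * p) (four_dvd_mul h.four_dvd) : ↥(Fbar (M' * p)) ≃ₐ[Qbar] ↥(Fbar (M' * p))) :
    ↥(Fbar (M' * p)) →+* ↥(Fbar (M' * p)))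

@[simp] theorem tau'Ring_apply (y : ↥(Fbar (M' * p))) :
    tau'Ring h y = tau'L (M' * p) (four_dvd_mul h.four_dvd) y := rfl

/-- **(TWO) for `β`**: the valuation ring `τ'⁻¹ O₁` is `O₁` or `O₂`. -/
theorem comap_tau'_eq_or :
    (valSub (c1 h)).comap (tau'Ring h) = valSub (c1 h) ∨
      (valSub (c1 h)).comap (tau'Ring h) = valSub (c2 h) := by
  classical
  letI : Algebra ↥(Fbar M') ↥(Fbar (M' * p)) := algebraAlong (betaA M' p)
  haveI : FiniteDimensional ↥(Fbar M') ↥(Fbar (M' * p)) :=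
    Fermat.Agent.ES.HECKE.AlongDegree25.finiteAlong_beta Qbar M' p h.prime h.not_dvd
  have hn : Module.finrank ↥(Fbar M') ↥(Fbar (M' * p)) ≤ p + 1 :=
    (Fermat.Agent.ES.HECKE.AlongDegree25.finrankAlong_beta Qbar M' p h.prime h.not_dvd).le
  have halg : ∀ x : ↥(Fbar M'),
      algebraMap ↥(Fbar M') ↥(Fbar (M' * p)) x = betaA M' p x := fun _ => rfl
  have hcomap₂ : (valSub (c1 h)).comap (algebraMap ↥(Fbar M') ↥(Fbar (M' * p))) =
      (valSub (c2 h)).comap (algebraMap ↥(Fbar M') ↥(Fbar (M' * p))) := by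
    ext x
    rw [ValuationSubring.mem_comap, ValuationSubring.mem_comap, halg]
    exact (betaA_mem_O1_iff h x).trans (betaA_mem_O2_iff h x).symm
  have hcomap₃ : (valSub (c1 h)).comap (algebraMap ↥(Fbar M') ↥(Fbar (M' * p))) =
      ((valSub (c1 h)).comap (tau'Ring h)).comap (algebraMap ↥(Fbar M') ↥(Fbar (M' * p))) := by
    ext x
    rw [ValuationSubring.mem_comap, ValuationSubring.mem_comap, ValuationSubring.mem_comap, halg]
    exact (betaA_mem_O1_iff h x).trans (tau'L_betaA_mem_O1_iff h x).symm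
  have hmemOv : ∀ x : ↥(Fbar M'),
      ((valSub (c1 h)).comap (algebraMap ↥(Fbar M') ↥(Fbar (M' * p)))).valuation x ≤ 1 →
        x ∈ Ov0 h := by
    intro x hx
    have := (Fermat.Agent.RED.PUR.UniqueExt20.comap_val_le_one_iff (valSub (c1 h)) x).1 hx
    rw [ValuationSubring.valuation_le_one_iff] at this
    exact (betaA_mem_O1_iff h x).1 this
  have hlt_of : ∀ (x : ↥(Fbar M')) (hx : x ∈ Ov0 h), rho0 h ⟨x, hx⟩ = 0 →
      ((valSub (c1 h)).comap (algebraMap ↥(Fbar M') ↥(Fbar (M' * p)))).valuation x < 1 := by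
    intro x hx hρ
    rw [Fermat.Agent.RED.PUR.UniqueExt20.comap_val_lt_one_iff, valSub_val_lt_one_iff]
    refine ⟨betaA_mem_O1 h hx, ?_⟩
    apply Subtype.ext
    refine (coe_rho1_betaA h ⟨x, hx⟩).trans ?_
    rw [hρ]
    simp
  refine (Fermat.Agent.ES.N34.TwoExt22.eq_or_eq_of_residually_independent (n₁ := p) (n₂ := 1) hn
    (valSub (c1 h)) (valSub (c2 h)) ((valSub (c1 h)).comap (tau'Ring h)) (valSub_c1_ne_c2 h)
    hcomap₂ hcomap₃ (fun i => tA h ^ (i : ℕ)) (fun i => (O1 h).pow_mem (tA_mem_O1 h) _) ?_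
    (fun _ => 1) (fun _ => (O2 h).one_mem) ?_)
  · intro a ha hlt i
    have ha' : ∀ i, a i ∈ Ov0 h := fun i => hmemOv _ (ha i)
    obtain ⟨hS, hρ⟩ := (valSub_val_lt_one_iff (c1 h) _).1 hlt
    refine hlt_of _ (ha' i) (rho0_eq_zero_of_sum h (fun i => ⟨a i, ha' i⟩) ?_ i)
    have hS' : (⟨_, hS⟩ : ↥(O1 h)) = ∑ i : Fin p,
        (⟨betaA M' p (a i), betaA_mem_O1 h (ha' i)⟩ : ↥(O1 h)) *
          (⟨tA h, tA_mem_O1 h⟩ : ↥(O1 h)) ^ (i : ℕ) := by
      apply Subtype.ext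
      push_cast
      rfl
    have hρ' : rho1 h ⟨_, hS⟩ = 0 := hρ
    rw [hS', map_sum] at hρ'
    rw [← hρ']
    refine Finset.sum_congr rfl fun i _ => ?_
    rw [map_mul, map_pow, rho1_tA]
  · intro a ha hlt i
    have ha' : ∀ i, a i ∈ Ov0 h := fun i => hmemOv _ (ha i)
    obtain ⟨hS, hρ⟩ := (valSub_val_lt_one_iff (c2 h) _).1 hlt
    have hi : i = 0 := Subsingleton.elim _ _
    subst hi
    refine hlt_of _ (ha' 0) ?_
    have hS' : (⟨_, hS⟩ : ↥(O2 h)) = ⟨betaA M' p (a 0), betaA_mem_O2 h (ha' 0)⟩ := by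
      apply Subtype.ext
      simp [halg]
    have hρ' : rho2 h ⟨_, hS⟩ = 0 := hρ
    rw [hS', rho2_betaA h ⟨a 0, ha' 0⟩] at hρ'
    exact (map_eq_zero_iff _ (Wb h).injective).1 hρ'

/-- `W τ' = τ W` (from `τ' = W τ W`). -/
theorem tau'L_frickeBar (y : ↥(Fbar (M' * p))) :
    tau'L (M' * p) (four_dvd_mul h.four_dvd) (frickeBar (M' * p) y) =
      frickeBar (M' * p) (tauL (M' * p) (four_dvd_mul h.four_dvd) y) := by
  rw [tau'L_apply, frickeBar_frickeBar]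

theorem tauL_mem_O1_iff (y : ↥(Fbar (M' * p))) :
    tauL (M' * p) (four_dvd_mul h.four_dvd) y ∈ O1 h ↔ y ∈ O1 h := by
  refine ⟨fun hy => ?_, tauL_mem_O1 h⟩
  have := tauL_mem_O1 h hy
  rwa [tauL_tauL] at this

theorem mem_valSub_c1 (z : ↥(Fbar (M' * p))) : z ∈ valSub (c1 h) ↔ z ∈ O1 h := Iff.rfl

theorem mem_valSub_c2 (z : ↥(Fbar (M' * p))) : z ∈ valSub (c2 h) ↔ z ∈ O2 h := Iff.rfl

theorem mem_comap_tau'Ring (V : ValuationSubring ↥(Fbar (M' * p))) (z : ↥(Fbar (M' * p))) :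
    z ∈ V.comap (tau'Ring h) ↔ tau'L (M' * p) (four_dvd_mul h.four_dvd) z ∈ V := Iff.rfl

/-- **(C3): `τ'` preserves the Gauss ring `O₁` of the expansion at `∞`.** -/
theorem tau'L_mem_O1_iff (y : ↥(Fbar (M' * p))) :
    tau'L (M' * p) (four_dvd_mul h.four_dvd) y ∈ O1 h ↔ y ∈ O1 h := by
  rcases comap_tau'_eq_or h with h1 | h2
  · rw [← mem_valSub_c1 h, ← mem_comap_tau'Ring h, h1, mem_valSub_c1 h]
  · exfalso
    apply valSub_c1_ne_c2 h
    ext z
    rw [mem_valSub_c1 h, mem_valSub_c2 h, mem_O2_iff]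
    have h3 : ∀ w : ↥(Fbar (M' * p)),
        tau'L (M' * p) (four_dvd_mul h.four_dvd) w ∈ O1 h ↔ w ∈ O2 h := fun w => by
      rw [← mem_valSub_c1 h, ← mem_comap_tau'Ring h, h2, mem_valSub_c2 h]
    have h4 := h3 (frickeBar (M' * p) (tauL (M' * p) (four_dvd_mul h.four_dvd) z))
    rw [tau'L_frickeBar h, tauL_tauL, mem_O2_iff, frickeBar_frickeBar, tauL_mem_O1_iff h] at h4
    exact h4.symm

theorem tau'L_mem_O1 {y : ↥(Fbar (M' * p))} (hy : y ∈ O1 h) :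
    tau'L (M' * p) (four_dvd_mul h.four_dvd) y ∈ O1 h := (tau'L_mem_O1_iff h y).2 hy

/-- **`ρ₁ (τ' y) = τ̄' (ρ₁ y)`.** -/
theorem rho1_tau'L (y : ↥(O1 h)) :
    rho1 h ⟨tau'L (M' * p) (four_dvd_mul h.four_dvd) (y : ↥(Fbar (M' * p))),
      tau'L_mem_O1 h y.2⟩ = tauB' h (rho1 h y) := by
  have hodd : Odd p := h.prime.odd_of_ne_two h.ne_two
  obtain ⟨y0, hy0⟩ := rho0_surjective h (rho1 h y)
  -- on `α (Ov₀)`
  have hα : rho1 h ⟨tau'L (M' * p) (four_dvd_mul h.four_dvd) (alphaA M' p (y0 : ↥(Fbar M'))),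
      tau'L_mem_O1 h (alphaA_mem_O1 h y0.2)⟩ = tauB' h (rho1 h y) := by
    rw [← hy0, ← rho0_tau'L h y0, ← rho1_alphaA h ⟨_, tau'L_mem_Ov0 h y0.2⟩]
    exact rho1_congr h (tau'L_alphaA h.four_dvd hodd _) _ _
  -- the difference lies in `𝔪_A O₁`
  have hd : rho1 h (y - ⟨alphaA M' p (y0 : ↥(Fbar M')), alphaA_mem_O1 h y0.2⟩) = 0 := by
    rw [map_sub, rho1_alphaA h y0, hy0, sub_self]
  obtain ⟨c, hc, y', hy'⟩ := rho1_ker h _ hd
  have h1 : tau'L (M' * p) (four_dvd_mul h.four_dvd) (y : ↥(Fbar (M' * p))) =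
      tau'L (M' * p) (four_dvd_mul h.four_dvd) (alphaA M' p (y0 : ↥(Fbar M'))) +
        algebraMap Qbar ↥(Fbar (M' * p)) (c : Qbar) *
          tau'L (M' * p) (four_dvd_mul h.four_dvd) (y' : ↥(Fbar (M' * p))) := by
    have h2 : (y : ↥(Fbar (M' * p))) = alphaA M' p (y0 : ↥(Fbar M')) +
        algebraMap Qbar ↥(Fbar (M' * p)) (c : Qbar) * (y' : ↥(Fbar (M' * p))) := by
      rw [← hy']
      push_cast
      ring
    conv_lhs => rw [h2]
    rw [map_add, map_mul, AlgEquiv.commutes]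
  have h3 : (⟨tau'L (M' * p) (four_dvd_mul h.four_dvd) (y : ↥(Fbar (M' * p))),
      tau'L_mem_O1 h y.2⟩ : ↥(O1 h)) =
      ⟨tau'L (M' * p) (four_dvd_mul h.four_dvd) (alphaA M' p (y0 : ↥(Fbar M'))),
        tau'L_mem_O1 h (alphaA_mem_O1 h y0.2)⟩ +
      ⟨algebraMap Qbar ↥(Fbar (M' * p)) (c : Qbar) *
          tau'L (M' * p) (four_dvd_mul h.four_dvd) (y' : ↥(Fbar (M' * p))),
        smul_mem_O1 h c (tau'L_mem_O1 h y'.2)⟩ := Subtype.ext h1
  rw [h3, map_add, hα, rho1_smul h c ⟨_, tau'L_mem_O1 h y'.2⟩,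
    (residue_eq_zero_iff _).2 hc, map_zero, zero_mul, add_zero]

/-- **`τ` preserves the Gauss ring `O₂` of the expansion at `0`.** -/
theorem tauL_mem_O2 {y : ↥(Fbar (M' * p))} (hy : y ∈ O2 h) :
    tauL (M' * p) (four_dvd_mul h.four_dvd) y ∈ O2 h := by
  rw [mem_O2_iff, ← tau'L_frickeBar h]
  exact tau'L_mem_O1 h ((mem_O2_iff h _).1 hy)

/-- **`ρ₂ (τ y) = τ̄' (ρ₂ y)`.** -/
theorem rho2_tauL (y : ↥(O2 h)) :
    rho2 h ⟨tauL (M' * p) (four_dvd_mul h.four_dvd) (y : ↥(Fbar (M' * p))), tauL_mem_O2 h y.2⟩ =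
      tauB' h (rho2 h y) := by
  rw [rho2_apply, rho2_apply, ← rho1_tau'L h ⟨_, (mem_O2_iff h _).1 y.2⟩]
  exact rho1_congr h (tau'L_frickeBar h _).symm _ _

end Fermat.Agent.U44.GammaTwo2
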