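/-
Programme U44 (S44), chapter (WIRE)/(C1), part B (helper7): **the mod `p` representation of the Frey
curve, concretely**.

* `finrank_Ep`   : `E[p]` is a plane over `𝔽_p`;
* `rhoV`         : `G_ℚ →* End_{𝔽_p} E[p]`;
* `frob_rel`     : the Eichler–Shimura relation `σ² − a_ℓ(W) σ + ℓ = 0` on `E[p]` for a Frobenius
                   element `σ` at a good prime `ℓ ≠ p` of an integral model `W`;
* `hasLevel_Ep`  : `E[p]` is cut out by a number field;
* `dmod`         : the mod `p` cyclotomic character, with its values at Frobenius elements, at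
                   complex conjugation and its level;
* `model_Δ_ne_zero`, `irr_rhoV`.
-/
import Mathlib
import Fermat.Agent.U44.Wire7
import Fermat.Agent.ES.EC.FixedVec20
import Fermat.Agent.DivPoly.CardEq29
import Fermat.Agent.DivPoly.A1Final
import Fermat.Agent.S52x.Spec3Main
import Fermat.Agent.ES.Q58.Red9Final
import Fermat.Agent.ES.J.CycloChar8

set_option autoImplicit false
set_option linter.unusedSectionVars false
set_option linter.style.haveILetI false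

open WeierstrassCurve WeierstrassCurve.Affine WeierstrassCurve.Affine.Point

noncomputable section

namespace Fermat.Agent.U44.FreyRep7

open Fermat.Agent.U44.Wire7

variable (P : FreyPackage)

theorem freyCurve_Δ_ne_zero : P.freyCurve.Δ ≠ 0 := by
  rw [← Fermat.Agent.Wire.FreyModel9.freyCurveInt_map, WeierstrassCurve.map_Δ]
  simpa using Fermat.Agent.Wire.FreyModel9.freyCurveInt_Δ_ne_zero P

theorem freyCurve_bc_Δ_ne_zero : (P.freyCurve⁄Qb).Δ ≠ 0 := by
  show (P.freyCurve.map (algebraMap ℚ Qb)).Δ ≠ 0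
  rw [WeierstrassCurve.map_Δ]
  exact (map_ne_zero_iff _ (algebraMap ℚ Qb).injective).mpr (freyCurve_Δ_ne_zero P)

theorem p_ne_two : P.p ≠ 2 := by have := P.hp5; omega

/-- `E[p]` is a plane over `𝔽_p`. -/
theorem finrank_Ep : haveI : Fact P.p.Prime := ⟨P.pp⟩
    Module.finrank (ZMod P.p) (Ep P) = 2 :=
  haveI : Fact P.p.Prime := ⟨P.pp⟩
  Fermat.Agent.DivPoly.CardEq29.finrank_torsionBy_eq_two (freyCurve_bc_Δ_ne_zero P) (p_ne_two P)

/-- **the mod `p` representation of the Frey curve.** -/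
def rhoV : GQ →* Module.End (ZMod P.p) (Ep P) :=
  Fermat.Agent.ES.EC.FixedVec20.galRep (S := ℚ) (W' := P.freyCurve) P.p

theorem rhoV_apply (σ : GQ) (v : Ep P) : rhoV P σ v = σ • v := rfl

theorem irr_rhoV (hirr : GaloisRepIsIrreducible (K := Qb) ℚ P.freyCurve P.p) :
    ∀ U : Submodule (ZMod P.p) (Ep P), (∀ g, ∀ w ∈ U, rhoV P g w ∈ U) → U = ⊥ ∨ U = ⊤ :=
  fun U hU => hirr.2 U fun σ x hx => hU σ x hx

/-- the discriminant of an integral model is nonzero. -/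
theorem model_Δ_ne_zero {W : WeierstrassCurve ℤ} (hW : W.IsIntegralModelOf P.freyCurve) :
    W.Δ ≠ 0 := by
  obtain ⟨C, hC⟩ := hW
  intro h0
  have h1 : (C • P.freyCurve).Δ = 0 := by rw [hC, WeierstrassCurve.map_Δ, h0, _root_.map_zero]
  rw [variableChange_Δ] at h1
  rcases mul_eq_zero.mp h1 with h2 | h2
  · exact (pow_ne_zero _ (Units.ne_zero _)) h2
  · exact freyCurve_Δ_ne_zero P h2

/-- **the Eichler–Shimura relation on `E[p]`.** -/
theorem frob_rel {W : WeierstrassCurve ℤ} (hW : W.IsIntegralModelOf P.freyCurve) {ℓ : ℕ}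
    (hℓ : ℓ.Prime) (hgood : W.IsGoodPrimeFor ℓ) (hℓp : ℓ ≠ P.p) (A : ValuationSubring Qb)
    (hA : A.LiesOverPrime ℓ) (σ : GQ) (hσ : A.IsFrobeniusAt σ ℓ) (v : Ep P) :
    σ • σ • v - W.apOfModel ℓ • (σ • v) + ℓ • v = 0 := by
  obtain ⟨C, hC⟩ := hW
  have hsh : P.freyCurve = C⁻¹ • W.map (Int.castRingHom ℚ) := by
    rw [← hC, smul_smul, inv_mul_cancel, one_smul]
  have hℓp' : ¬ ℓ ∣ P.p := fun h => hℓp ((Nat.prime_dvd_prime_iff_eq hℓ P.pp).mp h)
  have hv : P.p • (v : (P.freyCurve⁄Qb).Point) = 0 := by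
    have h1 := v.2
    rw [Submodule.mem_torsionBy_iff] at h1
    rw [← Nat.cast_smul_eq_nsmul ℤ]
    exact h1
  have key := Fermat.Agent.S52x.Spec3.rel_of_vc W (Fermat.Agent.ES.Q58.Red9.relQbar W) hsh hℓ hgood
    P.hp_odd hℓp' A σ hA hσ (v : (P.freyCurve⁄Qb).Point) hv
  apply Subtype.ext
  exact key

/-- `E[p]` is cut out by a number field. -/
theorem hasLevel_Ep : ∃ K : IntermediateField ℚ Qb, FiniteDimensional ℚ K ∧
    ∀ σ : GQ, (∀ x ∈ K, σ x = x) → ∀ v : Ep P, σ • v = v := by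
  have hpF : ((P.p : ℕ) : Qb) ≠ 0 := Nat.cast_ne_zero.mpr P.hp0
  have hfin : {Q : (P.freyCurve⁄Qb).Point | P.p • Q = 0}.Finite :=
    (Fermat.Agent.DivPoly.A1Final.torsion_finite_ncard_le (W := (P.freyCurve⁄Qb)) P.hp_odd hpF).1
  obtain ⟨K, hK, H⟩ := Fermat.Agent.ES.Q58.TraceCong20.exists_field (E := P.freyCurve) _ hfin
  refine ⟨K, hK, fun σ hσ v => ?_⟩
  have hv : (v : (P.freyCurve⁄Qb).Point) ∈ {Q : (P.freyCurve⁄Qb).Point | P.p • Q = 0} := by
    have h1 := v.2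
    rw [Submodule.mem_torsionBy_iff] at h1
    show P.p • (v : (P.freyCurve⁄Qb).Point) = 0
    rw [← Nat.cast_smul_eq_nsmul ℤ]
    exact h1
  have h2 := H σ 1 (fun x hx => by rw [hσ x hx]; rfl) _ hv
  apply Subtype.ext
  show σ • (v : (P.freyCurve⁄Qb).Point) = v
  rw [h2, one_smul]

/-! ### the mod `p` cyclotomic character -/

section Cyclo

variable (p : ℕ) [hp : Fact p.Prime]

/-- the mod `p` cyclotomic character of `G_ℚ`. -/
def dmod : GQ →* (ZMod p)ˣ :=
  (Units.map ((PadicInt.toZMod : ℤ_[p] →+* ZMod p) : ℤ_[p] →* ZMod p)).comp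
    (Fermat.Agent.ES.J.CycloChar8.cyclo p)

theorem coe_dmod (σ : GQ) :
    ((dmod p σ : (ZMod p)ˣ) : ZMod p) =
      PadicInt.toZMod ((Fermat.Agent.ES.J.CycloChar8.cyclo p σ : ℤ_[p]ˣ) : ℤ_[p]) := rfl

theorem dmod_frob {ℓ : ℕ} (hℓ : ℓ.Prime) (hℓp : ℓ ≠ p) (A : ValuationSubring Qb)
    (hA : A.LiesOverPrime ℓ) {σ : GQ} (hσ : A.IsFrobeniusAt σ ℓ) :
    ((dmod p σ : (ZMod p)ˣ) : ZMod p) = (ℓ : ZMod p) := by
  rw [coe_dmod, Fermat.Agent.ES.J.CycloChar8.cyclo_of_isFrobeniusAt p hℓ hℓp A hA hσ, map_natCast]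

theorem dmod_conj : ((dmod p complexConjugation : (ZMod p)ˣ) : ZMod p) = -1 := by
  rw [coe_dmod, Fermat.Agent.ES.J.CycloChar8.cyclo_complexConjugation, map_neg, map_one]

theorem hasLevel_dmod : ∃ K : IntermediateField ℚ Qb, FiniteDimensional ℚ K ∧
    ∀ σ : GQ, (∀ x ∈ K, σ x = x) → dmod p σ = 1 := by
  obtain ⟨K, hK, H⟩ := Fermat.Agent.ES.J.CycloChar8.cyclo_sub_one_mem p 1
  refine ⟨K, hK, fun σ hσ => ?_⟩
  apply Units.ext
  rw [coe_dmod, Units.val_one]
  have h1 := H σ hσ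
  rw [pow_one, ← PadicInt.maximalIdeal_eq_span_p, ← PadicInt.ker_toZMod, RingHom.mem_ker, map_sub,
    map_one, sub_eq_zero] at h1
  exact h1

end Cyclo

end Fermat.Agent.U44.FreyRep7
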