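/-
Programme U44 (S44), chapter (WIRE), step (PULL) (helper7): **Hecke eigen-relations are automatic
for a Galois-equivariant copy of `E[p]` in `J₀(M)(ℚ̄)`.**

For any additive `G_ℚ`-equivariant map `ι : E[p] → J₀(M)(ℚ̄)` and any good prime `ℓ ∤ M p` of the
integral model `W`, the Eichler–Shimura relation at level `M`
(`TorsionGalois12.frobenius_relation`: `σ² x − T_ℓ σ x + ℓ x = 0` on `J₀(M)[p]`) and the relation on
`E[p]` (`FreyRep7.frob_rel`: `σ² v − a_ℓ σ v + ℓ v = 0`) give `T_ℓ (ι z) = a_ℓ(W) • ι z`.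

* `hecke_eigen_of_equivariant` : the eigen-relation at one prime;
* `freyEmbeds_of_equivariant`  : an injective equivariant `ι` gives `FreyEmbeds P W M (Good W M p)`.

Consequence: degeneracy pull-backs need not be Hecke-equivariant to be used in step (PULL).
-/
import Mathlib
import Fermat.Agent.U44.Wire7
import Fermat.Agent.U44.FreyRep7
import Fermat.Agent.U44.Pull7
import Fermat.Agent.ES.TOP.TorsionGalois12
import Fermat.Agent.Lib.FrobeniusExists

set_option autoImplicit false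
set_option linter.unusedSectionVars false
set_option linter.style.haveILetI false

open AlgebraicCurve ModularCurve
open WeierstrassCurve WeierstrassCurve.Affine WeierstrassCurve.Affine.Point

noncomputable section

namespace Fermat.Agent.U44.EquivEmbed7

open Fermat.Agent.U44.Wire7

variable (P : FreyPackage) {W : WeierstrassCurve ℤ} {M : ℕ} [NeZero M]

/-- **the eigen-relation at a good prime `ℓ ∤ M p` on a Galois-equivariant image of `E[p]`.** -/
theorem hecke_eigen_of_equivariant (hW : W.IsIntegralModelOf P.freyCurve)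
    (ι : Ep P →+ JZero M) (hσ : ∀ (σ : GQ) (z : Ep P), ι (σ • z) = σ • ι z)
    {ℓ : ℕ} (hℓ : ℓ.Prime) (hgood : W.IsGoodPrimeFor ℓ) (hℓM : ¬ ℓ ∣ M) (hℓp : ℓ ≠ P.p)
    (z : Ep P) :
    heckeOperatorBar M ⟨ℓ, hℓ⟩ (ι z) = (W.apOfModel ℓ) • ι z := by
  obtain ⟨A, σ, hA, hσF⟩ := Fermat.Agent.Lib.exists_isFrobeniusAt ℓ hℓ
  have hℓp' : ¬ ℓ ∣ P.p := fun h => hℓp ((Nat.prime_dvd_prime_iff_eq hℓ P.pp).mp h)
  obtain ⟨z', hzz'⟩ : ∃ z' : Ep P, σ • z' = z := ⟨σ⁻¹ • z, smul_inv_smul σ z⟩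
  have hpx : P.p • ι z' = 0 := by
    rw [← map_nsmul, Fermat.Agent.U44.Pull7.nsmul_Ep, _root_.map_zero]
  -- Eichler–Shimura at level `M`
  have h1 := Fermat.Agent.ES.TOP.TorsionGalois12.frobenius_relation hℓ hℓM hA hℓp' hpx hσF
  -- the relation on `E[p]`, transported by `ι`
  have h2 := Fermat.Agent.U44.FreyRep7.frob_rel P hW hℓ hgood hℓp A hA σ hσF z'
  have h3 := congrArg ι h2
  rw [_root_.map_zero, map_add, map_sub, map_zsmul, map_nsmul, hσ, hσ] at h3
  -- subtract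
  have h4 : heckeOperatorBar M ⟨ℓ, hℓ⟩ (σ • ι z') = (W.apOfModel ℓ) • (σ • ι z') := by
    have h5 := h1.trans h3.symm
    have h6 := add_right_cancel h5
    have h7 := sub_right_inj.mp h6
    exact h7
  rw [← hσ, hzz'] at h4
  exact h4

/-- **an injective Galois-equivariant copy of `E[p]` in `J₀(M)(ℚ̄)` lies in the eigenspace of `W`.** -/
theorem freyEmbeds_of_equivariant (hW : W.IsIntegralModelOf P.freyCurve)
    (ι : Ep P →+ JZero M) (hinj : Function.Injective ι)
    (hσ : ∀ (σ : GQ) (z : Ep P), ι (σ • z) = σ • ι z) :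
    FreyEmbeds P W M (Good W M P.p) :=
  ⟨ι, hinj, hσ, fun ℓ hℓ z =>
    hecke_eigen_of_equivariant P hW ι hσ ℓ.2 hℓ.2.1 hℓ.2.2.1 hℓ.2.2.2 z⟩

end Fermat.Agent.U44.EquivEmbed7
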