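/-
Programme U44 (S44), chapter (WIRE), step (PULL), **case O** (`N` odd) (helper7):
**the pull-back along the middle degeneracy `f(q) ↦ f(q²)`.**

For odd `N` the auxiliary level is `M = lcm N 4 = 4 N`, the group of the descent chapter (GAMMA) is
`⟨τ, τ'⟩ ≅ S₃` and its fixed field in `Fbar (4 N)` is `{f(q²) : f ∈ Fbar N}`; so `E[p]` has to be carried
to level `4 N` along

  `ψ = levelIncl (2 N ∣ 4 N) ∘ β₂ ,   β₂ = heckeBetaBar ℚ̄ N 2 : Fbar N → Fbar (N * 2), f(q) ↦ f(q²)`.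

* generic: `pushforwardAlong_pullbackAlong` (`φ_* φ^* D = [F' : φ F] • D`) and
  `finrank_nsmul_eq_zero_of_pullback_eq_zero` (`φ^* x = 0 ⟹ [F' : φ F] • x = 0` on `Pic⁰`);
* `betaPull N : JZero N →+ JZero (N * 2)`, `betaPull_smul` (Galois-equivariance),
  `betaPull_eq_zero` (`3 x = 0` for `x` in the kernel);
* `psiO`, `pullO_eq` : the composite as ONE pull-back `pic0PullbackAlong (psiO h)` (for (GAMMA) (T3):
  an automorphism `g` of `Fbar M` with `g ∘ psiO = psiO` fixes the image pointwise);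
* `pullO'`, `pullO_aux` : `FreyEmbeds P W N (Good W N p) → FreyEmbeds P W M (Good W N p \ {2})` for
  `M = auxLevel p N`, `N` odd, with the explicit embedding; the eigen-relations come from
  `EquivEmbed7.hecke_eigen_of_equivariant` (no Hecke-equivariance of `β₂^*` is needed).
-/
import Mathlib
import Fermat.Agent.U44.Wire7
import Fermat.Agent.U44.Pull7
import Fermat.Agent.U44.EquivEmbed7
import Fermat.Agent.ES.HECKE.HeckeGalois12
import Fermat.Agent.ES.HECKE.InputsFinal15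
import Fermat.Agent.ES.HECKE.AlongDegree25
import Fermat.Agent.ES.HECKE.PointFormula28
import Fermat.Agent.ES.HECKE.BaseChange19

set_option autoImplicit false
set_option linter.unusedSectionVars false
set_option linter.style.haveILetI false

open AlgebraicCurve ModularCurve
open WeierstrassCurve WeierstrassCurve.Affine WeierstrassCurve.Affine.Point

noncomputable section

namespace Fermat.Agent.U44.PullTwo7

open Fermat.Agent.U44.Wire7 Fermat.Agent.ES.HECKE.LevelPullback12 Fermat.Agent.RED.Interface4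
  Fermat.Agent.ES.HECKE.PointFormula28

/-! ### Generic: `φ_* φ^* = deg φ` -/

section Generic

variable {K F F' : Type*} [Field K] [Field F] [Field F'] [Algebra K F] [Algebra K F']
variable [HasPrincipalDivisors K F']
variable (φ : F →ₐ[K] F') (hφ : φ.toRingHom.IsIntegral)

/-- push-forward at a point, as a sum over the fibre (all places of degree one). -/
theorem pushforwardAlong_apply_eq_sum (hdeg' : ∀ w : Place K F', w.deg = 1)
    (D' : Divisor K F') (Q : Place K F) :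
    Divisor.pushforwardAlong φ hφ D' Q = ∑ w ∈ Place.fiberAlong φ hφ Q, D' w := by
  classical
  have h1 : Divisor.pushforwardAlong φ hφ D' Q =
      ∑ w ∈ D'.support, if w.restrictAlong φ hφ = Q then
        D' w * (w.inertiaDegAlong φ hφ : ℤ) else 0 := by
    letI := algebraAlong φ
    haveI := isScalarTower_along φ
    haveI := isIntegral_along φ hφ
    exact Divisor.pushforward_apply D' Q
  rw [h1]
  have h2 : ∀ w ∈ D'.support, (if w.restrictAlong φ hφ = Q then
      D' w * (w.inertiaDegAlong φ hφ : ℤ) else 0) =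
      if w ∈ Place.fiberAlong φ hφ Q then D' w else 0 := by
    intro w _
    rw [inertiaDegAlong_eq_one φ hφ w (hdeg' w), Nat.cast_one, mul_one]
    simp only [Place.mem_fiberAlong]
  rw [Finset.sum_congr rfl h2, Finset.sum_ite_mem]
  refine Finset.sum_subset Finset.inter_subset_right fun w hw hnot => ?_
  by_contra hne
  exact hnot (Finset.mem_inter.2 ⟨Finsupp.mem_support_iff.2 hne, hw⟩)

/-- **`φ_* φ^* D = [F' : φ F] • D`.** -/
theorem pushforwardAlong_pullbackAlong (hFI : FundamentalIdentityAlong K φ hφ)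
    (hdeg' : ∀ w : Place K F', w.deg = 1) (hdeg : ∀ v : Place K F, v.deg = 1)
    (D : Divisor K F) :
    Divisor.pushforwardAlong φ hφ (Divisor.pullbackAlong φ hφ D) = finrankAlong K φ • D := by
  ext Q
  rw [pushforwardAlong_apply_eq_sum φ hφ hdeg', Finsupp.smul_apply, nsmul_eq_mul,
    ← sum_ramificationIndexAlong φ hφ hFI hdeg' Q (hdeg Q), Finset.sum_mul]
  refine Finset.sum_congr rfl fun w hw => ?_
  rw [Divisor.pullbackAlong_apply, Place.mem_fiberAlong.mp hw]

/-- **the kernel of `φ^*` on `Pic⁰` is killed by the degree.** -/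
theorem finrank_nsmul_eq_zero_of_pullback_eq_zero (hFI : FundamentalIdentityAlong K φ hφ)
    (hfin : FiniteAlong K φ) (hN : NormFormulaAlong K φ hfin)
    (hdeg' : ∀ w : Place K F', w.deg = 1) (hdeg : ∀ v : Place K F, v.deg = 1)
    (x : Pic0 K F) (hx : pic0PullbackAlong φ hφ hFI x = 0) : finrankAlong K φ • x = 0 := by
  obtain ⟨⟨D, hD⟩, rfl⟩ := Pic0.mk_surjective x
  have h1 : Divisor.pullbackAlong φ hφ D ∈ Divisor.principal (K := K) (F := F') := by
    rw [pic0PullbackAlong_mk] at hx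
    have h2 := (QuotientAddGroup.eq_zero_iff _).mp hx
    rw [AddSubgroup.mem_addSubgroupOf] at h2
    exact h2
  have h3 := Divisor.isPrincipal_pushforwardAlong φ hφ hfin hN h1
  rw [pushforwardAlong_pullbackAlong φ hφ hFI hdeg' hdeg] at h3
  show finrankAlong K φ • Pic0.mk (⟨D, hD⟩ : Divisor.degZero (K := K) (F := F)) = 0
  have h4 : finrankAlong K φ • Pic0.mk (⟨D, hD⟩ : Divisor.degZero (K := K) (F := F)) =
      Pic0.mk (finrankAlong K φ • (⟨D, hD⟩ : Divisor.degZero (K := K) (F := F))) := rfl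
  rw [h4, Pic0.mk, QuotientAddGroup.eq_zero_iff, AddSubgroup.mem_addSubgroupOf]
  exact h3

omit [HasPrincipalDivisors K F'] in
/-- a composite of finite embeddings is finite. -/
theorem finiteAlong_comp {G₁ : Type*} [Field G₁] [Algebra K G₁] (φ : F →ₐ[K] F') (ψ : F' →ₐ[K] G₁)
    (h1 : FiniteAlong K φ) (h2 : FiniteAlong K ψ) : FiniteAlong K (ψ.comp φ) := by
  unfold FiniteAlong at h1 h2 ⊢
  letI := algebraAlong φ
  letI := algebraAlong ψ
  letI := algebraAlong (ψ.comp φ)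
  haveI : IsScalarTower F F' G₁ := IsScalarTower.of_algebraMap_eq (fun _ => rfl)
  haveI : Module.Finite F F' := h1
  haveI : Module.Finite F' G₁ := h2
  exact Module.Finite.trans F' G₁

end Generic

/-! ### The pull-back along `β₂ : f(q) ↦ f(q²)` -/

section Beta

open Fermat.Agent.ES.HECKE Fermat.Agent.RED.TOP

variable (N : ℕ) [NeZero N]

/-- `β₂ = heckeBetaBar ℚ̄ N 2 : Fbar N → Fbar (N * 2)` is integral (`N` odd). -/
theorem beta_isIntegral (hodd : ¬ 2 ∣ N) : (heckeBetaBar Qb N 2).toRingHom.IsIntegral :=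
  AlongDegree25.heckeBetaBarIntegral Qb N 2 Nat.prime_two hodd

/-- the fundamental identity along `β₂`. -/
theorem beta_fundamentalIdentityAlong (hodd : ¬ 2 ∣ N) :
    haveI := FbarFacts20.hasPrincipalDivisors_bar (N * 2)
    FundamentalIdentityAlong Qb (heckeBetaBar Qb N 2) (beta_isIntegral N hodd) :=
  InputsMain19.fundamentalIdentityAlong_beta N 2 Nat.prime_two hodd

/-- **`β₂^* : J₀(N)(ℚ̄) → J₀(2N)(ℚ̄)`.** -/
def betaPull (hodd : ¬ 2 ∣ N) : JZero N →+ JZero (N * 2) :=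
  haveI := FbarFacts20.hasPrincipalDivisors_bar (N * 2)
  pic0PullbackAlong (heckeBetaBar Qb N 2) (beta_isIntegral N hodd)
    (beta_fundamentalIdentityAlong N hodd)

/-- **`β₂^*` is `Gal(ℚ̄/ℚ)`-equivariant.** -/
theorem betaPull_smul (hodd : ¬ 2 ∣ N) (σ : GQ) (x : JZero N) :
    betaPull N hodd (σ • x) = σ • betaPull N hodd x := by
  haveI := FbarFacts20.hasPrincipalDivisors_bar (N * 2)
  rw [galois_smul_pic0_def, galois_smul_pic0_def]
  exact Fermat.Agent.ES.RED.PullbackInj12.pic0PullbackAlong_smul (heckeBetaBar Qb N 2)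
    (beta_isIntegral N hodd) _ _ (beta_fundamentalIdentityAlong N hodd)
    (HeckeGalois12.heckeBetaBar_smul N 2 σ) x

/-- **the kernel of `β₂^*` is killed by `3`.** -/
theorem betaPull_eq_zero (hodd : ¬ 2 ∣ N) (x : JZero N) (hx : betaPull N hodd x = 0) :
    3 • x = 0 := by
  haveI := FbarFacts20.hasPrincipalDivisors_bar (N * 2)
  have h := finrank_nsmul_eq_zero_of_pullback_eq_zero (heckeBetaBar Qb N 2)
    (beta_isIntegral N hodd) (beta_fundamentalIdentityAlong N hodd)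
    (AlongDegree25.finiteAlong_beta Qb N 2 Nat.prime_two hodd)
    (InputsFinal15.normFormulaAlong_beta N 2 Nat.prime_two hodd)
    (fun w => Fermat.Agent.X0.FF.deg_eq_one (FbarFacts20.isGen_j (N * 2)) w)
    (fun v => Fermat.Agent.X0.FF.deg_eq_one (FbarFacts20.isGen_j N) v) x hx
  rw [AlongDegree25.finrankAlong_beta Qb N 2 Nat.prime_two hodd] at h
  exact h

/-- `β₂^*` is injective on `m`-torsion, `3 ∤ m`. -/
theorem betaPull_injOn_torsion (hodd : ¬ 2 ∣ N) {m : ℕ} (hm : Nat.Coprime m 3) (x : JZero N)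
    (hmx : m • x = 0) (hx : betaPull N hodd x = 0) : x = 0 := by
  have h3 := betaPull_eq_zero N hodd x hx
  have h1 : (Nat.gcd m 3 : ℤ) • x = 0 := by
    rw [Nat.gcd_eq_gcd_ab, add_zsmul, mul_comm, mul_zsmul, mul_comm ((3 : ℕ) : ℤ), mul_zsmul,
      natCast_zsmul, natCast_zsmul, hmx, h3, smul_zero, smul_zero, add_zero]
  rw [hm.gcd_eq_one, Nat.cast_one, one_smul] at h1
  exact h1

end Beta

/-! ### The composite `ψ : Fbar N → Fbar (N * 2) → Fbar M`, `f(q) ↦ f(q²)` -/

section Psi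

open Fermat.Agent.ES.HECKE Fermat.Agent.RED.TOP

variable {N M : ℕ} [NeZero N] [NeZero M]

/-- **`ψ = levelIncl ∘ β₂ : Fbar N → Fbar M`**, `f(q) ↦ f(q²)`, for `N * 2 ∣ M`. -/
def psiO (h : N * 2 ∣ M) : modularFunctionFieldBar N →ₐ[Qb] modularFunctionFieldBar M :=
  (levelIncl h).comp (heckeBetaBar Qb N 2)

theorem psiO_apply (h : N * 2 ∣ M) (f : modularFunctionFieldBar N) :
    psiO h f = levelIncl h (heckeBetaBar Qb N 2 f) := rfl

/-- on `q`-expansions `ψ` is `q ↦ q²`. -/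
theorem coe_psiO (h : N * 2 ∣ M) (f : modularFunctionFieldBar N) :
    ((psiO h f : modularFunctionFieldBar M) : LaurentSeries Qb) =
      qExpand Qb 2 (f : LaurentSeries Qb) := by
  rw [psiO_apply, coe_levelIncl, coe_heckeBetaBar]

theorem psiO_isIntegral (hodd : ¬ 2 ∣ N) (h : N * 2 ∣ M) : (psiO h).toRingHom.IsIntegral :=
  BaseChange19.isIntegral_comp (heckeBetaBar Qb N 2) (levelIncl h) (beta_isIntegral N hodd)
    (levelIncl_isIntegral h)

theorem psiO_finiteAlong (hodd : ¬ 2 ∣ N) (h : N * 2 ∣ M) : FiniteAlong Qb (psiO h) :=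
  finiteAlong_comp (heckeBetaBar Qb N 2) (levelIncl h)
    (AlongDegree25.finiteAlong_beta Qb N 2 Nat.prime_two hodd) (levelIncl_finiteAlong h)

theorem psiO_fundamentalIdentityAlong (hodd : ¬ 2 ∣ N) (h : N * 2 ∣ M) :
    haveI := FbarFacts20.hasPrincipalDivisors_bar M
    FundamentalIdentityAlong Qb (psiO h) (psiO_isIntegral hodd h) :=
  haveI := FbarFacts20.hasPrincipalDivisors_bar M
  FundId12.fundamentalIdentityAlong (psiO h) (psiO_isIntegral hodd h) (psiO_finiteAlong hodd h)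
    (FbarFacts20.isGen_j N)

/-- **the two-step pull-back is the pull-back along `ψ`.** -/
theorem pullO_eq (hodd : ¬ 2 ∣ N) (h : N * 2 ∣ M) (x : JZero N) :
    haveI := FbarFacts20.hasPrincipalDivisors_bar M
    levelPullback h (betaPull N hodd x) =
      pic0PullbackAlong (psiO h) (psiO_isIntegral hodd h) (psiO_fundamentalIdentityAlong hodd h) x := by
  haveI := FbarFacts20.hasPrincipalDivisors_bar M
  haveI := FbarFacts20.hasPrincipalDivisors_bar (N * 2)
  obtain ⟨D, rfl⟩ := Pic0.mk_surjective x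
  show levelPullback h (pic0PullbackAlong (heckeBetaBar Qb N 2) (beta_isIntegral N hodd)
    (beta_fundamentalIdentityAlong N hodd) (Pic0.mk D)) = _
  rw [pic0PullbackAlong_mk, levelPullback_mk, pic0PullbackAlong_mk]
  refine congrArg Pic0.mk (Subtype.ext ?_)
  exact (BaseChange19.pullbackAlong_comp (heckeBetaBar Qb N 2) (levelIncl h)
    (beta_isIntegral N hodd) (levelIncl_isIntegral h) (psiO_isIntegral hodd h)
    (D : Divisor Qb (modularFunctionFieldBar N))).symm

/-- **an automorphism fixing the image of `ψ` fixes the image of `ψ^*` pointwise.** -/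
theorem smul_pullO_of_fix (hodd : ¬ 2 ∣ N) (h : N * 2 ∣ M)
    (g : SemilinearAut Qb (modularFunctionFieldBar M))
    (hg : ∀ f : modularFunctionFieldBar N, g • psiO h f = psiO h f) (x : JZero N) :
    g • levelPullback h (betaPull N hodd x) = levelPullback h (betaPull N hodd x) := by
  haveI := FbarFacts20.hasPrincipalDivisors_bar M
  rw [pullO_eq hodd h x]
  have key := Fermat.Agent.ES.RED.PullbackInj12.pic0PullbackAlong_smul (psiO h)
    (psiO_isIntegral hodd h) (1 : SemilinearAut Qb (modularFunctionFieldBar N)) g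
    (psiO_fundamentalIdentityAlong hodd h) (fun f => by rw [one_smul, hg]) x
  rw [one_smul] at key
  exact key.symm

end Psi

/-! ### (PULL), case O -/

section Pull

open Fermat.Agent.ES.HECKE Fermat.Agent.RED.TOP

variable {P : FreyPackage} {W : WeierstrassCurve ℤ} {N M : ℕ} [NeZero N] [NeZero M]

/-- the case-O embedding `ψ^* ∘ ι`. -/
def iotaO (hodd : ¬ 2 ∣ N) (h : N * 2 ∣ M) (ι : Ep P →+ JZero N) : Ep P →+ JZero M :=
  (levelPullback h).comp ((betaPull N hodd).comp ι)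

theorem iotaO_apply (hodd : ¬ 2 ∣ N) (h : N * 2 ∣ M) (ι : Ep P →+ JZero N) (z : Ep P) :
    iotaO hodd h ι z = levelPullback h (betaPull N hodd (ι z)) := rfl

/-- **(PULL), case O, with the explicit embedding.** -/
theorem pullO' (hW : W.IsIntegralModelOf P.freyCurve) (hodd : ¬ 2 ∣ N) (h : N * 2 ∣ M)
    (hinj : ∀ m : ℕ, 0 < m → ∀ x : JZero (N * 2), m • x = 0 → levelPullback h x = 0 → x = 0)
    (ι : Ep P →+ JZero N) (hι : Function.Injective ι)
    (hσ : ∀ (σ : GQ) (z : Ep P), ι (σ • z) = σ • ι z) :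
    Function.Injective (iotaO hodd h ι) ∧
    (∀ (σ : GQ) (z : Ep P), iotaO hodd h ι (σ • z) = σ • iotaO hodd h ι z) ∧
    ∀ ℓ : Nat.Primes, (ℓ : ℕ) ∈ Good W M P.p → ∀ z : Ep P,
      heckeOperatorBar M ℓ (iotaO hodd h ι z) = (W.apOfModel ℓ) • iotaO hodd h ι z := by
  have hequiv : ∀ (σ : GQ) (z : Ep P), iotaO hodd h ι (σ • z) = σ • iotaO hodd h ι z := by
    intro σ z
    rw [iotaO_apply, iotaO_apply, hσ, betaPull_smul,
      Fermat.Agent.ES.RED.PullbackInj12.levelPullback_smul]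
  refine ⟨?_, hequiv, fun ℓ hℓ z =>
    Fermat.Agent.U44.EquivEmbed7.hecke_eigen_of_equivariant P hW (iotaO hodd h ι) hequiv ℓ.2
      hℓ.2.1 hℓ.2.2.1 hℓ.2.2.2 z⟩
  intro z z' hzz'
  apply hι
  rw [← sub_eq_zero]
  have hp0 : 0 < P.p := P.hppos
  have hpz : P.p • ι (z - z') = 0 := by
    rw [← map_nsmul, Fermat.Agent.U44.Pull7.nsmul_Ep, _root_.map_zero]
  have h1 : levelPullback h (betaPull N hodd (ι (z - z'))) = 0 := by
    rw [← iotaO_apply, map_sub, sub_eq_zero]
    exact hzz'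
  have h2 : betaPull N hodd (ι (z - z')) = 0 :=
    hinj P.p hp0 _ (by rw [← map_nsmul, hpz, _root_.map_zero]) h1
  have hcop : Nat.Coprime P.p 3 := by
    rw [Nat.coprime_primes P.pp Nat.prime_three]
    have := P.hp5
    omega
  rw [← map_sub]
  exact betaPull_injOn_torsion N hodd hcop _ hpz h2

/-- `lcm N 4 = lcm (N * 2) 4` for odd `N`. -/
theorem lcm_four_of_odd (N : ℕ) (hodd : ¬ 2 ∣ N) : Nat.lcm N 4 = Nat.lcm (N * 2) 4 := by
  have hc : Nat.Coprime N 2 :=
    Nat.coprime_comm.mp ((Nat.Prime.coprime_iff_not_dvd Nat.prime_two).mpr hodd)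
  have hc4 : Nat.Coprime N 4 := by
    have h4 : (4 : ℕ) = 2 ^ 2 := by norm_num
    rw [h4]
    exact Nat.Coprime.pow_right 2 hc
  have h1 : Nat.lcm N 4 = N * 4 := hc4.lcm_eq_mul
  have h2 : Nat.lcm (N * 2) 4 = N * 4 := by
    apply Nat.dvd_antisymm
    · apply Nat.lcm_dvd
      · exact ⟨2, by ring⟩
      · exact Dvd.intro_left N rfl
    · have h3 : N ∣ Nat.lcm (N * 2) 4 := dvd_trans (Dvd.intro _ rfl) (Nat.dvd_lcm_left _ _)
      have h4 : 4 ∣ Nat.lcm (N * 2) 4 := Nat.dvd_lcm_right _ _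
      exact hc4.mul_dvd_of_dvd_of_dvd h3 h4
  rw [h1, h2]

/-- for odd `N`: `auxLevel p N = auxLevel p (N * 2)` (`p` odd). -/
theorem auxLevel_mul_two {p : ℕ} (hp2 : p ≠ 2) (hodd : ¬ 2 ∣ N) :
    auxLevel p N = auxLevel p (N * 2) := by
  unfold auxLevel
  rw [if_neg hp2, if_neg hp2]
  exact lcm_four_of_odd N hodd

/-- `N * 2 ∣ auxLevel p N` for odd `N`. -/
theorem mul_two_dvd_auxLevel {p : ℕ} (hp2 : p ≠ 2) (hodd : ¬ 2 ∣ N) : N * 2 ∣ auxLevel p N := by
  rw [auxLevel_mul_two hp2 hodd]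
  exact dvd_auxLevel p (N * 2)

/-- **(PULL), case O, to the auxiliary level `lcm N 4 = 4 N`, with the explicit embedding.** -/
theorem pullO_aux' (hW : W.IsIntegralModelOf P.freyCurve) (hodd : ¬ 2 ∣ N)
    (hM : M = auxLevel P.p N) (h : N * 2 ∣ M)
    (ι : Ep P →+ JZero N) (hι : Function.Injective ι)
    (hσ : ∀ (σ : GQ) (z : Ep P), ι (σ • z) = σ • ι z) :
    Function.Injective (iotaO hodd h ι) ∧
    (∀ (σ : GQ) (z : Ep P), iotaO hodd h ι (σ • z) = σ • iotaO hodd h ι z) ∧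
    ∀ ℓ : Nat.Primes, (ℓ : ℕ) ∈ Good W N P.p \ {2} → ∀ z : Ep P,
      heckeOperatorBar M ℓ (iotaO hodd h ι z) = (W.apOfModel ℓ) • iotaO hodd h ι z := by
  have hp2 : P.p ≠ 2 := by have := P.hp5; omega
  have hM' : M = auxLevel P.p (N * 2) := by rw [hM, auxLevel_mul_two hp2 hodd]
  have hinj : ∀ m : ℕ, 0 < m → ∀ x : JZero (N * 2), m • x = 0 → levelPullback h x = 0 → x = 0 := by
    subst hM'
    intro m hm x hmx hx
    exact Fermat.Agent.ES.RED.PullbackInj12.levelPullback_auxLevel_eq_zero P.p (N * 2) m hm x hmx hx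
  obtain ⟨h1, h2, h3⟩ := pullO' hW hodd h hinj ι hι hσ
  refine ⟨h1, h2, fun ℓ hℓ z => h3 ℓ ⟨hℓ.1.1, hℓ.1.2.1, ?_, hℓ.1.2.2.2⟩ z⟩
  rw [hM]
  exact Fermat.Agent.U44.Pull7.not_dvd_auxLevel hp2 hℓ.1.1 (fun h2 => hℓ.2 h2) hℓ.1.2.2.1

/-- **(PULL), case O.** -/
theorem pullO_aux (hW : W.IsIntegralModelOf P.freyCurve) (hodd : ¬ 2 ∣ N)
    (hM : M = auxLevel P.p N) (h : FreyEmbeds P W N (Good W N P.p)) :
    FreyEmbeds P W M (Good W N P.p \ {2}) := by
  obtain ⟨ι, hι, hσ, -⟩ := h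
  have hp2 : P.p ≠ 2 := by have := P.hp5; omega
  have hdvd : N * 2 ∣ M := by rw [hM]; exact mul_two_dvd_auxLevel hp2 hodd
  obtain ⟨h1, h2, h3⟩ := pullO_aux' hW hodd hM hdvd ι hι hσ
  exact ⟨iotaO hodd hdvd ι, h1, h2, h3⟩

end Pull

end Fermat.Agent.U44.PullTwo7
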