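/-
Programme U44 (target S44), block (TR), abstract layer (helper3): **total reduction maps and Gauss
units** for a one-sided reduction context `NodalCtx1.HalfRed`.

`red R y` is `R.ρ y` for `y ∈ R.O` and `0` otherwise, so that the statements of the annulus calculus
(`U44/Annulus3`) need no subtype bookkeeping.  `IsGU R y` (“Gauss unit”) says `y ∈ R.O` with
nonzero reduction; Gauss units form a group, `red` is multiplicative on them.
-/
import Mathlib
import Fermat.Agent.T33.NodalAbs1A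
import Fermat.Agent.T33.NodalDisc8A

set_option autoImplicit false

open AlgebraicCurve IsLocalRing

namespace Fermat.Agent.U44.GaussRed3

open Fermat.Agent.T33.NodalCtx1 Fermat.Agent.T33.NodalAbs1A Fermat.Agent.T33.NodalDisc8A

variable {K : Type*} [Field K] {A : ValuationSubring K}
variable {F : Type*} [Field F] [Algebra K F]
variable {Fb : Type*} [Field Fb] [Algebra (ResidueField A) Fb]
variable (R : HalfRed A F Fb)

/-- the total reduction map: `ρ` on `O`, `0` outside. -/
noncomputable def red (y : F) : Fb := by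
  classical
  exact if h : y ∈ R.O then R.ρ ⟨y, h⟩ else 0

theorem red_of_mem {y : F} (h : y ∈ R.O) : red R y = R.ρ ⟨y, h⟩ := by
  classical
  unfold red
  rw [dif_pos h]

theorem red_zero : red R 0 = 0 := by
  rw [red_of_mem R R.O.zero_mem]
  exact map_zero R.ρ

theorem red_one : red R 1 = 1 := by
  rw [red_of_mem R R.O.one_mem]
  exact map_one R.ρ

theorem red_mul {x y : F} (hx : x ∈ R.O) (hy : y ∈ R.O) : red R (x * y) = red R x * red R y := by
  rw [red_of_mem R (R.O.mul_mem hx hy), red_of_mem R hx, red_of_mem R hy, ← map_mul]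
  rfl

theorem red_add {x y : F} (hx : x ∈ R.O) (hy : y ∈ R.O) : red R (x + y) = red R x + red R y := by
  rw [red_of_mem R (R.O.add_mem hx hy), red_of_mem R hx, red_of_mem R hy, ← map_add]
  rfl

theorem red_neg {x : F} (hx : x ∈ R.O) : red R (-x) = -red R x := by
  rw [red_of_mem R (R.O.neg_mem hx), red_of_mem R hx, ← map_neg]
  rfl

theorem red_sub {x y : F} (hx : x ∈ R.O) (hy : y ∈ R.O) : red R (x - y) = red R x - red R y := by
  rw [red_of_mem R (R.O.sub_mem hx hy), red_of_mem R hx, red_of_mem R hy, ← map_sub]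
  rfl

theorem red_pow {x : F} (hx : x ∈ R.O) (n : ℕ) : red R (x ^ n) = red R x ^ n := by
  rw [red_of_mem R (R.O.pow_mem hx n), red_of_mem R hx, ← map_pow]
  rfl

theorem const_mem {a : K} (ha : a ∈ A) : algebraMap K F a ∈ R.O := R.algebraMap_mem ⟨a, ha⟩

theorem red_const {a : K} (ha : a ∈ A) :
    red R (algebraMap K F a) = algebraMap (ResidueField A) Fb (residue A ⟨a, ha⟩) := by
  rw [red_of_mem R (const_mem R ha)]
  exact R.ρ_algebraMap ⟨a, ha⟩

/-- `a ∈ 𝔪_A`, in field language. -/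
def Small (A : ValuationSubring K) (a : K) : Prop := a ∈ A ∧ (a = 0 ∨ a⁻¹ ∉ A)

theorem Small.mem {a : K} (h : Small A a) : a ∈ A := h.1

theorem Small.mem_max {a : K} (h : Small A a) : (⟨a, h.1⟩ : A) ∈ maximalIdeal A := by
  rcases h.2 with h0 | hinv
  · have : (⟨a, h.1⟩ : A) = 0 := Subtype.ext h0
    rw [this]
    exact Ideal.zero_mem _
  · exact mem_maximalIdeal_of_inv_not_mem h.1 hinv

theorem small_of_mem_max {a : A} (h : a ∈ maximalIdeal A) : Small A (a : K) := by
  refine ⟨a.2, ?_⟩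
  by_cases h0 : (a : K) = 0
  · exact Or.inl h0
  · right
    intro hinv
    rw [IsLocalRing.mem_maximalIdeal, mem_nonunits_iff] at h
    apply h
    refine ⟨⟨a, ⟨(a : K)⁻¹, hinv⟩, ?_, ?_⟩, rfl⟩
    · exact Subtype.ext (by simp [mul_inv_cancel₀ h0])
    · exact Subtype.ext (by simp [inv_mul_cancel₀ h0])

theorem red_const_small {a : K} (ha : Small A a) : red R (algebraMap K F a) = 0 := by
  rw [red_const R ha.1, (IsLocalRing.residue_eq_zero_iff _).2 ha.mem_max, map_zero]

theorem Small.mul_mem {a b : K} (ha : Small A a) (hb : b ∈ A) : Small A (a * b) := by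
  have h := (maximalIdeal A).mul_mem_right (⟨b, hb⟩ : A) ha.mem_max
  exact small_of_mem_max h

theorem Small.mem_mul {a b : K} (hb : b ∈ A) (ha : Small A a) : Small A (b * a) := by
  rw [mul_comm]
  exact ha.mul_mem hb

theorem Small.add {a b : K} (ha : Small A a) (hb : Small A b) : Small A (a + b) :=
  small_of_mem_max ((maximalIdeal A).add_mem ha.mem_max hb.mem_max)

theorem small_zero : Small A (0 : K) := ⟨A.zero_mem, Or.inl rfl⟩

theorem not_small_one : ¬ Small A (1 : K) := by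
  rintro ⟨_, h | h⟩
  · exact one_ne_zero h
  · exact h (by rw [inv_one]; exact A.one_mem)

/-- a unit of `A`, in field language. -/
def AUnit (A : ValuationSubring K) (a : K) : Prop := a ∈ A ∧ a⁻¹ ∈ A ∧ a ≠ 0

theorem AUnit.mul {a b : K} (ha : AUnit A a) (hb : AUnit A b) : AUnit A (a * b) :=
  ⟨A.mul_mem _ _ ha.1 hb.1, by rw [mul_inv]; exact A.mul_mem _ _ ha.2.1 hb.2.1,
    mul_ne_zero ha.2.2 hb.2.2⟩

theorem AUnit.inv {a : K} (ha : AUnit A a) : AUnit A a⁻¹ :=
  ⟨ha.2.1, by rw [inv_inv]; exact ha.1, inv_ne_zero ha.2.2⟩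

theorem aunit_one : AUnit A (1 : K) := ⟨A.one_mem, by rw [inv_one]; exact A.one_mem, one_ne_zero⟩

theorem AUnit.pow {a : K} (ha : AUnit A a) (n : ℕ) : AUnit A (a ^ n) := by
  induction n with
  | zero => rw [pow_zero]; exact aunit_one
  | succ n ih => rw [pow_succ]; exact ih.mul ha

theorem AUnit.zpow {a : K} (ha : AUnit A a) (n : ℤ) : AUnit A (a ^ n) := by
  cases n with
  | ofNat n => rw [Int.ofNat_eq_natCast, zpow_natCast]; exact ha.pow n
  | negSucc n => rw [zpow_negSucc]; exact (ha.pow (n + 1)).inv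

theorem AUnit.not_small {a : K} (ha : AUnit A a) : ¬ Small A a := by
  rintro ⟨_, h | h⟩
  · exact ha.2.2 h
  · exact h ha.2.1

/-- trichotomy in a valuation ring. -/
theorem small_or_aunit_or_inv_small (a : K) (ha0 : a ≠ 0) :
    Small A a ∨ AUnit A a ∨ Small A a⁻¹ := by
  by_cases h1 : a ∈ A
  · by_cases h2 : a⁻¹ ∈ A
    · exact Or.inr (Or.inl ⟨h1, h2, ha0⟩)
    · exact Or.inl ⟨h1, Or.inr h2⟩
  · have h2 : a⁻¹ ∈ A := (A.mem_or_inv_mem a).resolve_left h1
    exact Or.inr (Or.inr ⟨h2, Or.inr (by rwa [inv_inv])⟩)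

/-! ### Gauss units -/

/-- a Gauss unit: an element of `O` with nonzero reduction. -/
def IsGU (y : F) : Prop := y ∈ R.O ∧ red R y ≠ 0

variable {R}

theorem IsGU.mem {y : F} (h : IsGU R y) : y ∈ R.O := h.1

theorem IsGU.ρ_ne {y : F} (h : IsGU R y) : R.ρ ⟨y, h.1⟩ ≠ 0 := by
  have := h.2
  rwa [red_of_mem R h.1] at this

theorem isGU_of_ρ_ne {y : F} (hy : y ∈ R.O) (h : R.ρ ⟨y, hy⟩ ≠ 0) : IsGU R y :=
  ⟨hy, by rwa [red_of_mem R hy]⟩

theorem IsGU.ne_zero {y : F} (h : IsGU R y) : y ≠ 0 := by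
  rintro rfl
  exact h.2 (red_zero R)

theorem IsGU.inv_mem {y : F} (h : IsGU R y) : y⁻¹ ∈ R.O :=
  HalfRedApi.inv_mem_of_ρ_ne_zero R (y := ⟨y, h.1⟩) h.ρ_ne

theorem IsGU.red_inv {y : F} (h : IsGU R y) : red R y⁻¹ = (red R y)⁻¹ := by
  have h1 : red R (y * y⁻¹) = red R y * red R y⁻¹ := red_mul R h.1 h.inv_mem
  rw [mul_inv_cancel₀ h.ne_zero, red_one] at h1
  exact eq_inv_of_mul_eq_one_right h1.symm

theorem IsGU.inv {y : F} (h : IsGU R y) : IsGU R y⁻¹ :=
  ⟨h.inv_mem, by rw [h.red_inv]; exact inv_ne_zero h.2⟩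

theorem IsGU.mul {x y : F} (hx : IsGU R x) (hy : IsGU R y) : IsGU R (x * y) :=
  ⟨R.O.mul_mem hx.1 hy.1, by rw [red_mul R hx.1 hy.1]; exact mul_ne_zero hx.2 hy.2⟩

theorem isGU_one : IsGU R (1 : F) := ⟨R.O.one_mem, by rw [red_one]; exact one_ne_zero⟩

theorem IsGU.pow {y : F} (h : IsGU R y) (n : ℕ) : IsGU R (y ^ n) := by
  induction n with
  | zero => rw [pow_zero]; exact isGU_one
  | succ n ih => rw [pow_succ]; exact ih.mul h

theorem IsGU.zpow {y : F} (h : IsGU R y) (n : ℤ) : IsGU R (y ^ n) := by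
  cases n with
  | ofNat n => rw [Int.ofNat_eq_natCast, zpow_natCast]; exact h.pow n
  | negSucc n => rw [zpow_negSucc]; exact (h.pow (n + 1)).inv

theorem IsGU.red_zpow {y : F} (h : IsGU R y) (n : ℤ) : red R (y ^ n) = red R y ^ n := by
  cases n with
  | ofNat n => rw [Int.ofNat_eq_natCast, zpow_natCast, zpow_natCast]; exact red_pow R h.1 n
  | negSucc n =>
    rw [zpow_negSucc, zpow_negSucc, (h.pow (n + 1)).red_inv, red_pow R h.1]

theorem isGU_const {a : K} (ha : AUnit A a) : IsGU R (algebraMap K F a) := by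
  refine ⟨const_mem R ha.1, ?_⟩
  rw [red_const R ha.1]
  intro h
  have h0 : residue A ⟨a, ha.1⟩ = 0 :=
    (algebraMap (ResidueField A) Fb).injective (by rw [h, map_zero])
  exact residue_ne_zero_of_unit ha.1 ha.2.1 ha.2.2 h0

/-- a constant `c` with `c·1 ∈ O` having nonzero reduction is a unit of `A`. -/
theorem aunit_of_isGU_const {a : K} (h : IsGU R (algebraMap K F a)) : AUnit A a := by
  have ha : a ∈ A := HalfRedApi.mem_of_algebraMap_mem R h.1
  have ha0 : a ≠ 0 := by
    rintro rfl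
    exact h.ne_zero (map_zero _)
  have hinv : a⁻¹ ∈ A := by
    have h' := h.inv
    rw [← map_inv₀] at h'
    exact HalfRedApi.mem_of_algebraMap_mem R h'.1
  exact ⟨ha, hinv, ha0⟩

/-- two normalising constants of the same function differ by a unit of `A`. -/
theorem aunit_div_of_isGU {c c' : K} {f : F} (h : IsGU R (algebraMap K F c * f))
    (h' : IsGU R (algebraMap K F c' * f)) : AUnit A (c / c') := by
  have hf : f ≠ 0 := fun h0 => h.ne_zero (by rw [h0, mul_zero])
  have hc' : c' ≠ 0 := fun h0 => h'.ne_zero (by rw [h0, map_zero, zero_mul])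
  have hc'F : algebraMap K F c' ≠ 0 := by rwa [ne_eq, _root_.map_eq_zero]
  apply aunit_of_isGU_const (R := R)
  have : algebraMap K F (c / c') = (algebraMap K F c * f) * (algebraMap K F c' * f)⁻¹ := by
    rw [map_div₀]
    field_simp
  rw [this]
  exact h.mul h'.inv

/-- the kernel of the reduction is `𝔪_A O`, in field language. -/
theorem exists_small_of_red_eq_zero {y : F} (hy : y ∈ R.O) (h : red R y = 0) :
    ∃ c : K, Small A c ∧ ∃ y' : F, y' ∈ R.O ∧ y = algebraMap K F c * y' := by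
  rw [red_of_mem R hy] at h
  obtain ⟨c, hc, y', hy'⟩ := R.ρ_ker ⟨y, hy⟩ h
  exact ⟨c, small_of_mem_max hc, y', y'.2, hy'⟩

theorem red_small_mul {c : K} (hc : Small A c) {y : F} (hy : y ∈ R.O) :
    red R (algebraMap K F c * y) = 0 := by
  rw [red_mul R (const_mem R hc.1) hy, red_const_small R hc, zero_mul]

end Fermat.Agent.U44.GaussRed3
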