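/-
Programme U44 (target S44), block (TR), abstract layer (helper3): **annulus coordinates at a node
and the quantitative slope formula**.

`AnnCoord N k` packages the only new geometric input of (TR) at the node `k` of a two-component
nodal reduction context `N : NodalRed A F Nd`: a function `z'` which is a Gauss unit on the first
component with a simple zero of its reduction at the branch `s1 k`, such that `z'/ϖ` is a Gauss
unit on the second component (`ϖ ∈ 𝔪_A`: the thickness of the node), and whose values at the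
places over the node fill the open annulus `1 > |z'(P)| > |ϖ|` injectively.

* `quant_slope` (QS): if `f` has neither zero nor pole over the node and `c₁ f`, `c₂ f` are its
  normalisations on the two components then `c₁ / c₂ = ϖ ^ s · unit`, `s = ord_{s1 k} ρ₁ (c₁ f)`.
  (From the EXISTING `NodalAbs1A.slope_pos₁`, applied to `f z'^{-s}` and to its inverse.)
-/
import Mathlib
import Fermat.Agent.U44.GaussRed3

set_option autoImplicit false

open AlgebraicCurve IsLocalRing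

namespace Fermat.Agent.U44.Annulus3

open Fermat.Agent.T33.NodalCtx1 Fermat.Agent.T33.NodalCurve6 Fermat.Agent.T33.NodalAbs1A
  Fermat.Agent.X0.FF Fermat.Agent.U44.GaussRed3

variable {K : Type*} [Field K] {A : ValuationSubring K}
variable {F : Type*} [Field F] [Algebra K F]
variable {Fb₁ Fb₂ : Type*} [Field Fb₁] [Field Fb₂]
  [Algebra (ResidueField A) Fb₁] [Algebra (ResidueField A) Fb₂]
variable {ι : Type*} {Nd : NodalData (ResidueField A) Fb₁ Fb₂ ι}

/-- **annulus coordinate at the node `k`.** -/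
structure AnnCoord (N : NodalRed A F Nd) (k : ι) where
  /-- the coordinate: uniformiser of `C₁` at the branch, of Gauss norm `|ϖ|` on `C₂`. -/
  zp : F
  /-- the thickness of the node. -/
  ϖ : K
  /-- `z' / ϖ`. -/
  y₂ : F
  ϖ_small : Small A ϖ
  ϖ_ne : ϖ ≠ 0
  zp_mem : zp ∈ N.c₁.O
  ord_zp : (Nd.s1 k).ord (red N.c₁ zp) = 1
  zp_eq : zp = algebraMap K F ϖ * y₂
  y₂_gu : IsGU N.c₂ y₂
  /-- the value `z'(P)` at a place over the node (junk elsewhere). -/
  value : Place K F → K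
  value_small : ∀ P, N.RedToNode P k → Small A (value P)
  value_ne : ∀ P, N.RedToNode P k → value P ≠ 0
  value_big : ∀ P, N.RedToNode P k → Small A (ϖ / value P)
  value_spec : ∀ P, N.RedToNode P k → 0 < P.ord (zp - algebraMap K F (value P))
  unique : ∀ P P', N.RedToNode P k → N.RedToNode P' k →
    0 < P'.ord (zp - algebraMap K F (value P)) → P' = P
  simple : ∀ P, N.RedToNode P k → P.ord (zp - algebraMap K F (value P)) = 1

namespace AnnCoord

variable {N : NodalRed A F Nd} {k : ι} (X : AnnCoord N k)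

theorem red_zp_ne : red N.c₁ X.zp ≠ 0 := by
  intro h
  have := X.ord_zp
  rw [h, Place.ord_zero] at this
  exact zero_ne_one this

theorem zp_gu : IsGU N.c₁ X.zp := ⟨X.zp_mem, X.red_zp_ne⟩

theorem zp_ne : X.zp ≠ 0 := X.zp_gu.ne_zero

/-- `z'` has neither zero nor pole over the node. -/
theorem ord_zp_eq_zero (P : Place K F) (hP : N.RedToNode P k) : P.ord X.zp = 0 := by
  have h1 := X.value_spec P hP
  have ha : algebraMap K F (X.value P) ≠ 0 := by
    rw [ne_eq, _root_.map_eq_zero]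
    exact X.value_ne P hP
  have hne : X.zp - algebraMap K F (X.value P) ≠ 0 := by
    intro h0
    rw [h0, Place.ord_zero] at h1
    exact lt_irrefl _ h1
  have h2 : P.ord (algebraMap K F (X.value P)) < P.ord (X.zp - algebraMap K F (X.value P)) := by
    rw [ord_algebraMap]
    exact h1
  have h3 := ord_add_eq_of_lt P ha h2
  rw [ord_algebraMap] at h3
  have : algebraMap K F (X.value P) + (X.zp - algebraMap K F (X.value P)) = X.zp := by ring
  rw [this] at h3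
  exact h3

end AnnCoord

variable (N : NodalRed A F Nd)

/-- `slope_pos₁` in `red` form. -/
theorem slope_pos_red (i : ι) (f : F) (hf : f ≠ 0)
    (hpole : ∀ P : Place K F, N.RedToNode P i → 0 ≤ P.ord f) (c₁ c₂ : K)
    (h₁ : IsGU N.c₁ (algebraMap K F c₁ * f)) (h₂ : IsGU N.c₂ (algebraMap K F c₂ * f))
    (hs : Small A (c₁ / c₂)) :
    0 < (Nd.s1 i).ord (red N.c₁ (algebraMap K F c₁ * f)) := by
  have hc₁ : c₁ ≠ 0 := fun h0 => h₁.ne_zero (by rw [h0, map_zero, zero_mul])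
  have hc₂ : c₂ ≠ 0 := fun h0 => h₂.ne_zero (by rw [h0, map_zero, zero_mul])
  have hinv : (c₁ / c₂)⁻¹ ∉ A := by
    rcases hs.2 with h0 | h
    · exact absurd h0 (div_ne_zero hc₁ hc₂)
    · exact h
  have := slope_pos₁ N i f hf hpole c₁ c₂ h₁.1 h₂.1 h₁.ρ_ne h₂.ρ_ne hs.1 hinv
  rwa [red_of_mem N.c₁ h₁.1]

variable {N}

/-- `slope_nonneg` at the second branch, in `red` form. -/
theorem slope_nonneg_red₂ (i : ι) (f : F) (hf : f ≠ 0)
    (hpole : ∀ P : Place K F, N.RedToNode P i → 0 ≤ P.ord f) (c₁ c₂ : K)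
    (h₁ : IsGU N.c₁ (algebraMap K F c₁ * f)) (h₂ : IsGU N.c₂ (algebraMap K F c₂ * f))
    (hu : AUnit A (c₁ / c₂)) :
    0 ≤ (Nd.s2 i).ord (red N.c₂ (algebraMap K F c₂ * f)) := by
  have hA' : c₂ / c₁ ∈ A := by
    have := hu.2.1
    rwa [inv_div] at this
  have := (slope_nonneg N i f hf hpole c₁ c₂ h₁.1 h₂.1 h₁.ρ_ne h₂.ρ_ne hu.1 hA').2
  rwa [red_of_mem N.c₂ h₂.1]

/-- twisting `f` by a power of the annulus coordinate. -/
theorem twist {k : ι} (X : AnnCoord N k) {f : F} {c₁ c₂ : K}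
    (h₁ : IsGU N.c₁ (algebraMap K F c₁ * f)) (h₂ : IsGU N.c₂ (algebraMap K F c₂ * f)) (s : ℤ) :
    IsGU N.c₁ (algebraMap K F c₁ * (f * X.zp ^ (-s))) ∧
    red N.c₁ (algebraMap K F c₁ * (f * X.zp ^ (-s))) =
      red N.c₁ (algebraMap K F c₁ * f) * red N.c₁ X.zp ^ (-s) ∧
    IsGU N.c₂ (algebraMap K F (c₂ * X.ϖ ^ s) * (f * X.zp ^ (-s))) ∧
    red N.c₂ (algebraMap K F (c₂ * X.ϖ ^ s) * (f * X.zp ^ (-s))) =
      red N.c₂ (algebraMap K F c₂ * f) * red N.c₂ X.y₂ ^ (-s) := by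
  have e₁ : algebraMap K F c₁ * (f * X.zp ^ (-s)) = (algebraMap K F c₁ * f) * X.zp ^ (-s) := by
    ring
  have e₂ : algebraMap K F (c₂ * X.ϖ ^ s) * (f * X.zp ^ (-s)) =
      (algebraMap K F c₂ * f) * X.y₂ ^ (-s) := by
    rw [X.zp_eq, mul_zpow, map_mul, ← map_zpow₀]
    have : algebraMap K F (X.ϖ ^ s) * algebraMap K F (X.ϖ ^ (-s)) = 1 := by
      rw [← map_mul, ← zpow_add₀ X.ϖ_ne, add_neg_cancel, zpow_zero, map_one]
    calc algebraMap K F c₂ * algebraMap K F (X.ϖ ^ s) *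
          (f * (algebraMap K F (X.ϖ ^ (-s)) * X.y₂ ^ (-s)))
        = (algebraMap K F (X.ϖ ^ s) * algebraMap K F (X.ϖ ^ (-s))) *
          (algebraMap K F c₂ * f * X.y₂ ^ (-s)) := by ring
      _ = algebraMap K F c₂ * f * X.y₂ ^ (-s) := by rw [this, one_mul]
  refine ⟨?_, ?_, ?_, ?_⟩
  · rw [e₁]; exact h₁.mul (X.zp_gu.zpow _)
  · rw [e₁, red_mul N.c₁ h₁.1 (X.zp_gu.zpow _).1, X.zp_gu.red_zpow]
  · rw [e₂]; exact h₂.mul (X.y₂_gu.zpow _)
  · rw [e₂, red_mul N.c₂ h₂.1 (X.y₂_gu.zpow _).1, X.y₂_gu.red_zpow]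

/-- **(QS) the quantitative slope formula.** -/
theorem quant_slope {k : ι} (X : AnnCoord N k) {f : F} (hf : f ≠ 0)
    (hno : ∀ P : Place K F, N.RedToNode P k → P.ord f = 0) {c₁ c₂ : K}
    (h₁ : IsGU N.c₁ (algebraMap K F c₁ * f)) (h₂ : IsGU N.c₂ (algebraMap K F c₂ * f)) :
    AUnit A (c₁ / (c₂ * X.ϖ ^ (Nd.s1 k).ord (red N.c₁ (algebraMap K F c₁ * f)))) := by
  set s : ℤ := (Nd.s1 k).ord (red N.c₁ (algebraMap K F c₁ * f)) with hs
  have hc₁ : c₁ ≠ 0 := fun h0 => h₁.ne_zero (by rw [h0, map_zero, zero_mul])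
  have hc₂ : c₂ ≠ 0 := fun h0 => h₂.ne_zero (by rw [h0, map_zero, zero_mul])
  have hϖs : X.ϖ ^ s ≠ 0 := zpow_ne_zero _ X.ϖ_ne
  obtain ⟨g₁, r₁, g₂, -⟩ := twist X h₁ h₂ s
  -- the auxiliary function `f'' = f z'^{-s}`
  set f'' : F := f * X.zp ^ (-s) with hf''
  have hf''0 : f'' ≠ 0 := mul_ne_zero hf (zpow_ne_zero _ X.zp_ne)
  have hno'' : ∀ P : Place K F, N.RedToNode P k → P.ord f'' = 0 := by
    intro P hP
    rw [hf'', P.ord_mul hf (zpow_ne_zero _ X.zp_ne), hno P hP, Place.ord_zpow,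
      X.ord_zp_eq_zero P hP, mul_zero, add_zero]
  have o₁ : (Nd.s1 k).ord (red N.c₁ (algebraMap K F c₁ * f'')) = 0 := by
    rw [r₁, (Nd.s1 k).ord_mul h₁.2 (zpow_ne_zero _ X.red_zp_ne), Place.ord_zpow, X.ord_zp, ← hs]
    ring
  -- the trichotomy
  set r : K := c₁ / (c₂ * X.ϖ ^ s) with hr
  have hr0 : r ≠ 0 := div_ne_zero hc₁ (mul_ne_zero hc₂ hϖs)
  rcases small_or_aunit_or_inv_small (A := A) r hr0 with h | h | h
  · exfalso
    have := slope_pos_red N k f'' hf''0 (fun P hP => (hno'' P hP).ge) c₁ (c₂ * X.ϖ ^ s) g₁ g₂ h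
    rw [o₁] at this
    exact lt_irrefl _ this
  · exact h
  · exfalso
    -- apply the slope lemma to the inverse
    have hno3 : ∀ P : Place K F, N.RedToNode P k → 0 ≤ P.ord f''⁻¹ := by
      intro P hP
      rw [Place.ord_inv, hno'' P hP, neg_zero]
    have e₃ : algebraMap K F c₁⁻¹ * f''⁻¹ = (algebraMap K F c₁ * f'')⁻¹ := by
      rw [map_inv₀, ← mul_inv]
    have e₄ : algebraMap K F (c₂ * X.ϖ ^ s)⁻¹ * f''⁻¹ =
        (algebraMap K F (c₂ * X.ϖ ^ s) * f'')⁻¹ := by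
      rw [map_inv₀, ← mul_inv]
    have g₃ : IsGU N.c₁ (algebraMap K F c₁⁻¹ * f''⁻¹) := by rw [e₃]; exact g₁.inv
    have g₄ : IsGU N.c₂ (algebraMap K F (c₂ * X.ϖ ^ s)⁻¹ * f''⁻¹) := by rw [e₄]; exact g₂.inv
    have hq : c₁⁻¹ / (c₂ * X.ϖ ^ s)⁻¹ = r⁻¹ := by
      rw [hr, inv_div, inv_div_inv]
    have := slope_pos_red N k f''⁻¹ (inv_ne_zero hf''0) hno3 c₁⁻¹ (c₂ * X.ϖ ^ s)⁻¹ g₃ g₄
      (by rw [hq]; exact h)
    rw [e₃, g₁.red_inv, Place.ord_inv, o₁, neg_zero] at this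
    exact lt_irrefl _ this

/-- **node push-forward, unit case**: if `f` has neither zero nor pole over the node and the
reduction of `z'/ϖ` has a simple pole at the second branch (thickness exactly `ϖ`), the slopes of
`f` at the two branches are opposite. -/
theorem unit_slopes {k : ι} (X : AnnCoord N k)
    (hy₂ : (Nd.s2 k).ord (red N.c₂ X.y₂) = -1) {f : F} (hf : f ≠ 0)
    (hno : ∀ P : Place K F, N.RedToNode P k → P.ord f = 0) {c₁ c₂ : K}
    (h₁ : IsGU N.c₁ (algebraMap K F c₁ * f)) (h₂ : IsGU N.c₂ (algebraMap K F c₂ * f)) :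
    (Nd.s1 k).ord (red N.c₁ (algebraMap K F c₁ * f)) +
      (Nd.s2 k).ord (red N.c₂ (algebraMap K F c₂ * f)) = 0 := by
  have hu := quant_slope X hf hno h₁ h₂
  set s : ℤ := (Nd.s1 k).ord (red N.c₁ (algebraMap K F c₁ * f)) with hs
  obtain ⟨g₁, -, g₂, r₂⟩ := twist X h₁ h₂ s
  set f'' : F := f * X.zp ^ (-s) with hf''
  have hf''0 : f'' ≠ 0 := mul_ne_zero hf (zpow_ne_zero _ X.zp_ne)
  have hno'' : ∀ P : Place K F, N.RedToNode P k → P.ord f'' = 0 := by
    intro P hP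
    rw [hf'', P.ord_mul hf (zpow_ne_zero _ X.zp_ne), hno P hP, Place.ord_zpow,
      X.ord_zp_eq_zero P hP, mul_zero, add_zero]
  have hge := slope_nonneg_red₂ k f'' hf''0 (fun P hP => (hno'' P hP).ge) c₁ (c₂ * X.ϖ ^ s)
    g₁ g₂ hu
  have hno3 : ∀ P : Place K F, N.RedToNode P k → 0 ≤ P.ord f''⁻¹ := by
    intro P hP
    rw [Place.ord_inv, hno'' P hP, neg_zero]
  have e₃ : algebraMap K F c₁⁻¹ * f''⁻¹ = (algebraMap K F c₁ * f'')⁻¹ := by
    rw [map_inv₀, ← mul_inv]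
  have e₄ : algebraMap K F (c₂ * X.ϖ ^ s)⁻¹ * f''⁻¹ =
      (algebraMap K F (c₂ * X.ϖ ^ s) * f'')⁻¹ := by
    rw [map_inv₀, ← mul_inv]
  have g₃ : IsGU N.c₁ (algebraMap K F c₁⁻¹ * f''⁻¹) := by rw [e₃]; exact g₁.inv
  have g₄ : IsGU N.c₂ (algebraMap K F (c₂ * X.ϖ ^ s)⁻¹ * f''⁻¹) := by rw [e₄]; exact g₂.inv
  have hq : c₁⁻¹ / (c₂ * X.ϖ ^ s)⁻¹ = (c₁ / (c₂ * X.ϖ ^ s))⁻¹ := by
    rw [inv_div, inv_div_inv]
  have hle := slope_nonneg_red₂ k f''⁻¹ (inv_ne_zero hf''0) hno3 c₁⁻¹ (c₂ * X.ϖ ^ s)⁻¹ g₃ g₄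
    (by rw [hq]; exact hu.inv)
  rw [e₄, g₂.red_inv, Place.ord_inv] at hle
  have h0 : (Nd.s2 k).ord (red N.c₂ (algebraMap K F (c₂ * X.ϖ ^ s) * f'')) = 0 :=
    le_antisymm (neg_nonneg.1 hle) hge
  have hy₂0 : red N.c₂ X.y₂ ≠ 0 := X.y₂_gu.2
  rw [r₂, (Nd.s2 k).ord_mul h₂.2 (zpow_ne_zero _ hy₂0), Place.ord_zpow, hy₂] at h0
  linarith

/-! ### finite products -/

section Prod

variable {Fb : Type*} [Field Fb] [Algebra (ResidueField A) Fb] {R : HalfRed A F Fb}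

theorem isGU_prod {α : Type*} (T : Finset α) (g : α → F) (h : ∀ i ∈ T, IsGU R (g i)) :
    IsGU R (∏ i ∈ T, g i) := by
  classical
  induction T using Finset.induction_on with
  | empty => rw [Finset.prod_empty]; exact isGU_one
  | insert a T ha ih =>
    rw [Finset.prod_insert ha]
    exact (h a (Finset.mem_insert_self a T)).mul
      (ih fun i hi => h i (Finset.mem_insert_of_mem hi))

theorem red_prod {α : Type*} (T : Finset α) (g : α → F) (h : ∀ i ∈ T, IsGU R (g i)) :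
    red R (∏ i ∈ T, g i) = ∏ i ∈ T, red R (g i) := by
  classical
  induction T using Finset.induction_on with
  | empty => rw [Finset.prod_empty, Finset.prod_empty]; exact red_one R
  | insert a T ha ih =>
    rw [Finset.prod_insert ha, Finset.prod_insert ha,
      red_mul R (h a (Finset.mem_insert_self a T)).1
        (isGU_prod T g fun i hi => h i (Finset.mem_insert_of_mem hi)).1,
      ih fun i hi => h i (Finset.mem_insert_of_mem hi)]

theorem ord_finset_prod {k₀ : Type*} [Field k₀] {E : Type*} [Field E] [Algebra k₀ E]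
    (v : Place k₀ E) {α : Type*} (T : Finset α) (g : α → E) (h : ∀ i ∈ T, g i ≠ 0) :
    v.ord (∏ i ∈ T, g i) = ∑ i ∈ T, v.ord (g i) := by
  classical
  induction T using Finset.induction_on with
  | empty => rw [Finset.prod_empty, Finset.sum_empty, Place.ord_one]
  | insert a T ha ih =>
    rw [Finset.prod_insert ha, Finset.sum_insert ha,
      v.ord_mul (h a (Finset.mem_insert_self a T))
        (Finset.prod_ne_zero_iff.2 fun i hi => h i (Finset.mem_insert_of_mem hi)),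
      ih fun i hi => h i (Finset.mem_insert_of_mem hi)]

end Prod

/-! ### linear factors -/

namespace AnnCoord

variable {k : ι} (X : AnnCoord N k)

/-- the linear factor `a - z'`. -/
def lin (a : K) : F := algebraMap K F a - X.zp

theorem lin_gu₁ {a : K} (ha : Small A a) : IsGU N.c₁ (X.lin a) := by
  have hm : X.lin a ∈ N.c₁.O := N.c₁.O.sub_mem (const_mem N.c₁ ha.1) X.zp_mem
  refine ⟨hm, ?_⟩
  rw [lin, red_sub N.c₁ (const_mem N.c₁ ha.1) X.zp_mem, red_const_small N.c₁ ha, zero_sub]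
  exact neg_ne_zero.2 X.red_zp_ne

theorem red_lin₁ {a : K} (ha : Small A a) : red N.c₁ (X.lin a) = -red N.c₁ X.zp := by
  rw [lin, red_sub N.c₁ (const_mem N.c₁ ha.1) X.zp_mem, red_const_small N.c₁ ha, zero_sub]

theorem lin_eq₂ {a : K} (ha0 : a ≠ 0) :
    algebraMap K F a⁻¹ * X.lin a = 1 - algebraMap K F (X.ϖ / a) * X.y₂ := by
  have haF : algebraMap K F a ≠ 0 := by rwa [ne_eq, _root_.map_eq_zero]
  rw [lin, X.zp_eq, map_div₀, map_inv₀]
  field_simp

theorem lin_gu₂ {a : K} (ha0 : a ≠ 0) (hb : Small A (X.ϖ / a)) :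
    IsGU N.c₂ (algebraMap K F a⁻¹ * X.lin a) ∧ red N.c₂ (algebraMap K F a⁻¹ * X.lin a) = 1 := by
  have hm : algebraMap K F (X.ϖ / a) * X.y₂ ∈ N.c₂.O :=
    N.c₂.O.mul_mem (const_mem N.c₂ hb.1) X.y₂_gu.1
  have hr : red N.c₂ (algebraMap K F a⁻¹ * X.lin a) = 1 := by
    rw [X.lin_eq₂ ha0, red_sub N.c₂ N.c₂.O.one_mem hm, red_one, red_small_mul hb X.y₂_gu.1,
      sub_zero]
  refine ⟨⟨?_, ?_⟩, hr⟩
  · rw [X.lin_eq₂ ha0]
    exact N.c₂.O.sub_mem N.c₂.O.one_mem hm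
  · rw [hr]
    exact one_ne_zero

theorem lin_ne {a : K} (ha : Small A a) : X.lin a ≠ 0 := (X.lin_gu₁ ha).ne_zero

theorem ord_lin_value (P : Place K F) (hP : N.RedToNode P k) : P.ord (X.lin (X.value P)) = 1 := by
  have : X.lin (X.value P) = -(X.zp - algebraMap K F (X.value P)) := by rw [lin]; ring
  rw [this, ord_neg]
  exact X.simple P hP

theorem ord_lin_value_of_ne (P Q : Place K F) (hP : N.RedToNode P k) (hQ : N.RedToNode Q k)
    (hne : Q ≠ P) : Q.ord (X.lin (X.value P)) = 0 := by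
  have e : X.lin (X.value P) = -(X.zp - algebraMap K F (X.value P)) := by rw [lin]; ring
  have hle : ¬ 0 < Q.ord (X.zp - algebraMap K F (X.value P)) := fun h =>
    hne (X.unique P Q hP hQ h)
  have hne0 : X.zp - algebraMap K F (X.value P) ≠ 0 := by
    have := X.lin_ne (X.value_small P hP)
    rw [e] at this
    exact neg_ne_zero.1 this
  have hge : 0 ≤ Q.ord (X.zp - algebraMap K F (X.value P)) := by
    have h1 := ord_sub_ge Q hne0
    rw [X.ord_zp_eq_zero Q hQ, ord_algebraMap, min_self] at h1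
    exact h1
  rw [e, ord_neg]
  exact le_antisymm (not_lt.1 hle) hge

end AnnCoord

/-- the correcting factor `Φ = ∏_T (z'(P) − z')^{-n_P}`: `f Φ` has neither zero nor pole over the
node; its normalisations on the two components. -/
theorem exists_unit_part {k : ι} (X : AnnCoord N k) {f : F} (hf : f ≠ 0)
    (T : Finset (Place K F)) (hT : ∀ P ∈ T, N.RedToNode P k)
    (hT' : ∀ P : Place K F, N.RedToNode P k → P.ord f ≠ 0 → P ∈ T) {c₁ c₂ : K}
    (h₁ : IsGU N.c₁ (algebraMap K F c₁ * f)) (h₂ : IsGU N.c₂ (algebraMap K F c₂ * f)) :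
    ∃ Φ : F, f * Φ ≠ 0 ∧ (∀ Q : Place K F, N.RedToNode Q k → Q.ord (f * Φ) = 0) ∧
      IsGU N.c₁ (algebraMap K F c₁ * (f * Φ)) ∧
      (Nd.s1 k).ord (red N.c₁ (algebraMap K F c₁ * (f * Φ))) =
        (Nd.s1 k).ord (red N.c₁ (algebraMap K F c₁ * f)) - ∑ P ∈ T, P.ord f ∧
      IsGU N.c₂ (algebraMap K F (c₂ * ∏ P ∈ T, X.value P ^ P.ord f) * (f * Φ)) ∧
      red N.c₂ (algebraMap K F (c₂ * ∏ P ∈ T, X.value P ^ P.ord f) * (f * Φ)) =
        red N.c₂ (algebraMap K F c₂ * f) := by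
  classical
  set Φ : F := ∏ P ∈ T, X.lin (X.value P) ^ (-(P.ord f)) with hΦ
  set b : K := ∏ P ∈ T, X.value P ^ P.ord f with hb
  have hlin0 : ∀ P ∈ T, X.lin (X.value P) ^ (-(P.ord f)) ≠ 0 := fun P hP =>
    zpow_ne_zero _ (X.lin_ne (X.value_small P (hT P hP)))
  have hΦ0 : Φ ≠ 0 := Finset.prod_ne_zero_iff.2 hlin0
  have hf'0 : f * Φ ≠ 0 := mul_ne_zero hf hΦ0
  -- no zero or pole over the node
  have hno : ∀ Q : Place K F, N.RedToNode Q k → Q.ord (f * Φ) = 0 := by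
    intro Q hQ
    rw [Q.ord_mul hf hΦ0, hΦ, ord_finset_prod Q T _ hlin0]
    have hterm : ∀ P ∈ T, Q.ord (X.lin (X.value P) ^ (-(P.ord f))) =
        if P = Q then -(Q.ord f) else 0 := by
      intro P hP
      rw [Place.ord_zpow]
      by_cases hPQ : P = Q
      · rw [if_pos hPQ, hPQ, X.ord_lin_value Q hQ, mul_one]
      · rw [if_neg hPQ, X.ord_lin_value_of_ne P Q (hT P hP) hQ (fun h => hPQ h.symm), mul_zero]
    rw [Finset.sum_congr rfl hterm, Finset.sum_ite_eq' T Q]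
    by_cases hQT : Q ∈ T
    · rw [if_pos hQT]; ring
    · rw [if_neg hQT, add_zero]
      by_contra hne
      exact hQT (hT' Q hQ hne)
  -- first component
  have gΦ₁ : IsGU N.c₁ Φ := isGU_prod T _ fun P hP =>
    (X.lin_gu₁ (X.value_small P (hT P hP))).zpow _
  have e₁ : algebraMap K F c₁ * (f * Φ) = (algebraMap K F c₁ * f) * Φ := by ring
  have g₁ : IsGU N.c₁ (algebraMap K F c₁ * (f * Φ)) := by rw [e₁]; exact h₁.mul gΦ₁
  have oΦ : (Nd.s1 k).ord (red N.c₁ Φ) = -∑ P ∈ T, P.ord f := by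
    rw [hΦ, red_prod T _ fun P hP => (X.lin_gu₁ (X.value_small P (hT P hP))).zpow _,
      ord_finset_prod _ T _ fun P hP =>
        ((X.lin_gu₁ (X.value_small P (hT P hP))).zpow _).2, ← Finset.sum_neg_distrib]
    refine Finset.sum_congr rfl fun P hP => ?_
    rw [(X.lin_gu₁ (X.value_small P (hT P hP))).red_zpow, Place.ord_zpow,
      X.red_lin₁ (X.value_small P (hT P hP)), ord_neg, X.ord_zp, mul_one]
  have o₁ : (Nd.s1 k).ord (red N.c₁ (algebraMap K F c₁ * (f * Φ))) =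
      (Nd.s1 k).ord (red N.c₁ (algebraMap K F c₁ * f)) - ∑ P ∈ T, P.ord f := by
    rw [e₁, red_mul N.c₁ h₁.1 gΦ₁.1, (Nd.s1 k).ord_mul h₁.2 gΦ₁.2, oΦ]
    ring
  -- second component
  have hgu₂ : ∀ P ∈ T, IsGU N.c₂
      ((algebraMap K F (X.value P)⁻¹ * X.lin (X.value P)) ^ (-(P.ord f))) := fun P hP =>
    ((X.lin_gu₂ (X.value_ne P (hT P hP)) (X.value_big P (hT P hP))).1).zpow _
  have e₂ : algebraMap K F (c₂ * b) * (f * Φ) = (algebraMap K F c₂ * f) *
      ∏ P ∈ T, (algebraMap K F (X.value P)⁻¹ * X.lin (X.value P)) ^ (-(P.ord f)) := by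
    have : (∏ P ∈ T, (algebraMap K F (X.value P)⁻¹ * X.lin (X.value P)) ^ (-(P.ord f))) =
        algebraMap K F b * Φ := by
      rw [hb, hΦ, map_prod, ← Finset.prod_mul_distrib]
      refine Finset.prod_congr rfl fun P hP => ?_
      rw [mul_zpow, map_inv₀, inv_zpow, ← zpow_neg, neg_neg, map_zpow₀]
    rw [this, map_mul]
    ring
  have g₂ : IsGU N.c₂ (algebraMap K F (c₂ * b) * (f * Φ)) := by
    rw [e₂]
    exact h₂.mul (isGU_prod T _ hgu₂)
  have r₂ : red N.c₂ (algebraMap K F (c₂ * b) * (f * Φ)) = red N.c₂ (algebraMap K F c₂ * f) := by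
    rw [e₂, red_mul N.c₂ h₂.1 (isGU_prod T _ hgu₂).1, red_prod T _ hgu₂]
    have : ∀ P ∈ T, red N.c₂
        ((algebraMap K F (X.value P)⁻¹ * X.lin (X.value P)) ^ (-(P.ord f))) = 1 := by
      intro P hP
      rw [((X.lin_gu₂ (X.value_ne P (hT P hP)) (X.value_big P (hT P hP))).1).red_zpow,
        (X.lin_gu₂ (X.value_ne P (hT P hP)) (X.value_big P (hT P hP))).2, one_zpow]
    rw [Finset.prod_congr rfl this, Finset.prod_const_one, mul_one]
  exact ⟨Φ, hf'0, hno, g₁, o₁, g₂, r₂⟩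

/-- **(AF) the annulus formula**: for `f ≠ 0` whose zeros and poles over the node `k` lie in the
finite set `T`, with normalisations `c₁ f`, `c₂ f`:
`c₁ / c₂ = ϖ ^ (s − Σ_T n_P) · ∏_T z'(P) ^ n_P · unit`, `s = ord_{s1 k} ρ₁ (c₁ f)`, `n_P = ord_P f`. -/
theorem annulus_formula {k : ι} (X : AnnCoord N k) {f : F} (hf : f ≠ 0)
    (T : Finset (Place K F)) (hT : ∀ P ∈ T, N.RedToNode P k)
    (hT' : ∀ P : Place K F, N.RedToNode P k → P.ord f ≠ 0 → P ∈ T) {c₁ c₂ : K}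
    (h₁ : IsGU N.c₁ (algebraMap K F c₁ * f)) (h₂ : IsGU N.c₂ (algebraMap K F c₂ * f)) :
    AUnit A (c₁ / (c₂ * (∏ P ∈ T, X.value P ^ P.ord f) *
      X.ϖ ^ ((Nd.s1 k).ord (red N.c₁ (algebraMap K F c₁ * f)) - ∑ P ∈ T, P.ord f))) := by
  obtain ⟨Φ, hf'0, hno, g₁, o₁, g₂, -⟩ := exists_unit_part X hf T hT hT' h₁ h₂
  have := quant_slope X hf'0 hno g₁ g₂
  rw [o₁] at this
  exact this

/-- **(NP) node push-forward**: if the reduction of `z'/ϖ` has a simple pole at the second branch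
(thickness exactly `ϖ`), the slopes of `f` at the two branches add up to the number of zeros of
`f` over the node. -/
theorem node_push {k : ι} (X : AnnCoord N k) (hy₂ : (Nd.s2 k).ord (red N.c₂ X.y₂) = -1)
    {f : F} (hf : f ≠ 0) (T : Finset (Place K F)) (hT : ∀ P ∈ T, N.RedToNode P k)
    (hT' : ∀ P : Place K F, N.RedToNode P k → P.ord f ≠ 0 → P ∈ T) {c₁ c₂ : K}
    (h₁ : IsGU N.c₁ (algebraMap K F c₁ * f)) (h₂ : IsGU N.c₂ (algebraMap K F c₂ * f)) :
    (Nd.s1 k).ord (red N.c₁ (algebraMap K F c₁ * f)) +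
      (Nd.s2 k).ord (red N.c₂ (algebraMap K F c₂ * f)) = ∑ P ∈ T, P.ord f := by
  obtain ⟨Φ, hf'0, hno, g₁, o₁, g₂, r₂⟩ := exists_unit_part X hf T hT hT' h₁ h₂
  have := unit_slopes X hy₂ hf'0 hno g₁ g₂
  rw [o₁, r₂] at this
  linarith

end Fermat.Agent.U44.Annulus3
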