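/-
Programme U44 (target S44), block (TR), instance layer (helper6): **generation lemmas at level
`M'p` for one number field `K`** (inputs of `AnnLevel6.NodeLevel` / `AnnRho6.OnComp`).

* `hdesc_of_unif` (abstract) : descent of `ρ = 0` from the uniformiser property;
* `fb_induction` : induction principle for `Fb A M' = κ(j̄(q^d) : d ∣ M')`;
* `gen₁`, `gen₂` : the generators `j̄(q^d)` are reductions (on `c1 h`, `c2 h`) of base changes of
  units of the finite-level Gauss rings `O1`, `O2`;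
* `frac_closure` (FRAC) : `Fbar (M'p)` is the fraction field of the subring generated by the
  constants of `A` and the image of a finite-level ring with fraction field `FK (M'p) K`;
* `hsep` : every element of `κ` is a simple root of an integer polynomial.
-/
import Mathlib
import Fermat.Agent.T33.ChartOK5
import Fermat.Agent.ES.RED.LevelMax17
import Fermat.Agent.ES.N34.IsoM25
import Fermat.Agent.U44.InertDescent1

set_option autoImplicit false
set_option linter.unusedSectionVars false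
set_option linter.style.haveILetI false
set_option synthInstance.maxHeartbeats 400000

noncomputable section

namespace Fermat.Agent.U44.AnnGen6

open HahnSeries ModularCurve IntermediateField AlgebraicCurve IsLocalRing Polynomial
open Fermat.Agent.RED.Interface4 Fermat.Agent.RED.PUR.GaussGen8 Fermat.Agent.RED.DESC
  Fermat.Agent.RED.DESC.PlaceExtend27 Fermat.Agent.RED.DESC.NumberFieldDVR27
  Fermat.Agent.RED.PUR.GaussBridge10
  Fermat.Agent.ES.RED Fermat.Agent.ES.N34.FrickeFK8 Fermat.Agent.ES.N34.ModelDefs9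
  Fermat.Agent.T33.NodalCtx1 Fermat.Agent.T33.NodalHalf4 Fermat.Agent.T33.ChartOK5

/-! ### abstract: descent of `ρ = 0` -/

section Abstract

variable {K : Type*} [Field K] {A : ValuationSubring K}
variable {F : Type*} [Field F] [Algebra K F]
variable {Fb : Type*} [Field Fb] [Algebra (ResidueField A) Fb]
variable {R Ff : Type*} [CommRing R] [Field Ff] [Algebra R Ff]

/-- an element of `Oon` whose base change reduces to zero lies in `π Oon`. -/
theorem hdesc_of_unif (c : HalfRed A F Fb) (f : Ff →+* F) (π : R) (Oon : ValuationSubring Ff)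
    (hOn : ∀ o ∈ Oon, f o ∈ c.O)
    (unif : ∀ z ∈ Oon, z⁻¹ ∉ Oon → ∃ o ∈ Oon, z = algebraMap R Ff π * o)
    (o : Ff) (ho : o ∈ Oon) (h0 : c.ρ ⟨f o, hOn o ho⟩ = 0) :
    ∃ o' ∈ Oon, o = algebraMap R Ff π * o' := by
  rcases eq_or_ne o 0 with rfl | hne
  · exact ⟨0, Oon.zero_mem, by rw [mul_zero]⟩
  by_contra hcon
  have hinv : o⁻¹ ∈ Oon := by
    by_contra hn
    exact hcon (unif o ho hn)
  have h1 : (⟨f o, hOn o ho⟩ : c.O) * ⟨f o⁻¹, hOn _ hinv⟩ = 1 := by
    apply Subtype.ext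
    show f o * f o⁻¹ = 1
    rw [← map_mul, mul_inv_cancel₀ hne, map_one]
  have h2 := congrArg c.ρ h1
  rw [map_mul, h0, zero_mul, map_one] at h2
  exact zero_ne_one h2

end Abstract

variable {p M' : ℕ} [NeZero M'] [NeZero p] {A : ValuationSubring Qbar}

/-- shortcut instance. -/
local instance (priority := high) algebraAFbarGen : Algebra ↥A ↥(Fbar (M' * p)) := inferInstance

/-- shortcut instance. -/
local instance (priority := high) algebraKFbGen : Algebra (Setup8.kA A) (Fb A M') := inferInstance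

/-! ### induction on the function field of the special fibre -/

/-- the generators `j̄(q^d)`, `d ∣ M'`, of `Fb A M'`. -/
def G (A : ValuationSubring Qbar) (M' : ℕ) [NeZero M'] : Set (Fb A M') :=
  {g | ∃ (d : ℕ) (_ : NeZero d), d ∣ M' ∧
    (g : LaurentSeries (Setup8.kA A)) = qExpand (Setup8.kA A) d (jqModC (Setup8.kA A))}

/-- **induction principle for `Fb A M'`.** -/
theorem fb_induction (P : Fb A M' → Prop) (hG : ∀ g ∈ G A M', P g)
    (hk : ∀ k : Setup8.kA A, P (algebraMap (Setup8.kA A) (Fb A M') k))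
    (hadd : ∀ g₁ g₂, P g₁ → P g₂ → P (g₁ + g₂)) (hinv : ∀ g, P g → P g⁻¹)
    (hmul : ∀ g₁ g₂, P g₁ → P g₂ → P (g₁ * g₂)) : ∀ g, P g := by
  rintro ⟨g, hg⟩
  have key : ∀ x (hx : x ∈ IntermediateField.adjoin (Setup8.kA A)
      (divisorExpansionsC (Setup8.kA A) M')), P ⟨x, hx⟩ := by
    intro x hx
    induction hx using IntermediateField.adjoin_induction with
    | mem x hx =>
      obtain ⟨d, hne, hd, rfl⟩ := hx
      exact hG _ ⟨d, hne, hd, rfl⟩
    | algebraMap k => exact hk k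
    | add x y hx hy h1 h2 => exact hadd ⟨x, hx⟩ ⟨y, hy⟩ h1 h2
    | inv x hx h1 => exact hinv ⟨x, hx⟩ h1
    | mul x y hx hy h1 h2 => exact hmul ⟨x, hx⟩ ⟨y, hy⟩ h1 h2
  exact key g hg

/-! ### the generators are reductions of finite-level units -/

variable (h : LevelHyp p M' A) (K : IntermediateField ℚ Qbar)

section Gens

variable {π : ↥(AK A K)} (hπ : IsUnif (AK A K) π)
  (hE : FK (M' * p) K ≤ fracField (AK A K))

/-- the finite-level function `j(q^d)`, `d ∣ M'`, at level `M'p`. -/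
def Jd (d : ℕ) [NeZero d] (hd : d ∣ M') : FK (M' * p) K :=
  xdL (M' * p) K d (Dvd.dvd.mul_right hd p)

theorem coe_Jd (d : ℕ) [NeZero d] (hd : d ∣ M') :
    ((Jd (p := p) K d hd : FK (M' * p) K) : LaurentSeries K) = qExpand K d (jqModC K) := rfl

theorem Jd_mem_gauss (d : ℕ) [NeZero d] (hd : d ∣ M') :
    ((Jd (p := p) K d hd : FK (M' * p) K) : LaurentSeries K) ∈ gaussRing (AK A K) := by
  rw [coe_Jd]
  exact jqd_mem_gaussRing (AK A K) d

theorem Jd_inv_mem_gauss (d : ℕ) [NeZero d] (hd : d ∣ M') :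
    (((Jd (p := p) K d hd)⁻¹ : FK (M' * p) K) : LaurentSeries K) ∈ gaussRing (AK A K) := by
  have h1 := inv_mem_of_gaussRed_ne_zero (AK A K)
    ⟨qExpand K d (jqModC K), jqd_mem_gaussRing (AK A K) d⟩
    (Fermat.Agent.ES.N34.IsoM25.gaussRed_jqd_ne_zero (AK A K) d)
  have h2 : (((Jd (p := p) K d hd)⁻¹ : FK (M' * p) K) : LaurentSeries K) =
      (qExpand K d (jqModC K))⁻¹ := by
    rw [IntermediateField.coe_inv, coe_Jd]
  rw [h2]
  exact h1

theorem Jd_ne_zero (A' : ValuationSubring Qbar) (d : ℕ) [NeZero d] (hd : d ∣ M') :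
    Jd (p := p) K d hd ≠ 0 := by
  intro h0
  have h1 := Fermat.Agent.ES.N34.IsoM25.gaussRed_jqd_ne_zero (AK A' K) d
  apply h1
  have h2 : (qExpand K d (jqModC K) : LaurentSeries K) = 0 := by
    have := congrArg (fun z : FK (M' * p) K => (z : LaurentSeries K)) h0
    rw [coe_Jd] at this
    exact this
  have h3 : (⟨qExpand K d (jqModC K), jqd_mem_gaussRing (AK A' K) d⟩ :
      ↥(gaussRing (AK A' K))) = 0 := Subtype.ext h2
  rw [h3, map_zero]

include h in
/-- the base change of `j(q^d)` reduces to `j̄(q^d)` on the first component. -/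
theorem rho1_Jd (d : ℕ) [NeZero d] (hd : d ∣ M')
    (hm : baseChangeHom (M' * p) K (Jd (p := p) K d hd) ∈ O1 h) :
    ((rho1 h ⟨baseChangeHom (M' * p) K (Jd (p := p) K d hd), hm⟩ : Fb A M') :
      LaurentSeries (Setup8.kA A)) = qExpand (Setup8.kA A) d (jqModC (Setup8.kA A)) := by
  have hY : ∃ Y : LaurentSeries ↥(AK A K),
      embK (AK A K) Y = ((Jd (p := p) K d hd : FK (M' * p) K) : LaurentSeries K) :=
    ⟨jdO (AK A K) d, by rw [coe_Jd]; exact embK_jdO (AK A K) d⟩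
  have hgA := Fermat.Agent.ES.RED.LevelMax17.baseChangeHom_mem_gaussA A (M' * p) K _ hY
  have h1 : (⟨baseChangeHom (M' * p) K (Jd (p := p) K d hd), hm⟩ : ↥(O1 h)) =
      ⟨((⟨_, hgA⟩ : ↥(Setup8.gaussA A (Fbar (M' * p)))) : ↥(Fbar (M' * p))),
        gaussA_mem_O1 h ⟨_, hgA⟩⟩ := rfl
  rw [h1, rho1_gaussA, coe_redN,
    Fermat.Agent.ES.RED.LevelMax17.redA_baseChangeHom A (M' * p) K _ hY (Jd_mem_gauss K d hd) hgA]
  have h2 : (⟨((Jd (p := p) K d hd : FK (M' * p) K) : LaurentSeries K), Jd_mem_gauss K d hd⟩ :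
      ↥(gaussRing (AK A K))) = ⟨qExpand K d (jqModC K), jqd_mem_gaussRing (AK A K) d⟩ :=
    Subtype.ext (coe_Jd (p := p) K d hd)
  rw [h2, gaussRed_jqd, Fermat.Agent.X0.CuspGood.coeffMap_qExpand, coeffMap_jqModC]

include h in
/-- **the generators on the first component.** -/
theorem gen₁ (hOn : ∀ o ∈ O1 M' p hπ hE, baseChangeHom (M' * p) K o ∈ (c1 h).O) :
    ∀ g ∈ G A M', ∃ (J : FK (M' * p) K) (hJ : J ∈ O1 M' p hπ hE), J⁻¹ ∈ O1 M' p hπ hE ∧ J ≠ 0 ∧
      (c1 h).ρ ⟨baseChangeHom (M' * p) K J, hOn J hJ⟩ = g := by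
  rintro g ⟨d, hne, hd, hg⟩
  haveI := hne
  have hJ : Jd (p := p) K d hd ∈ O1 M' p hπ hE :=
    (Fermat.Agent.ES.N34.ModelDefs9.mem_O1_iff M' p hπ hE (Jd (p := p) K d hd)).2
      (Jd_mem_gauss (p := p) (A := A) K d hd)
  refine ⟨Jd (p := p) K d hd, hJ,
    (Fermat.Agent.ES.N34.ModelDefs9.mem_O1_iff M' p hπ hE (Jd (p := p) K d hd)⁻¹).2
      (Jd_inv_mem_gauss (p := p) (A := A) K d hd),
    Jd_ne_zero (p := p) K A d hd, ?_⟩
  apply Subtype.ext
  rw [hg]
  exact rho1_Jd h K d hd _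

include h in
/-- **the generators on the second component.** -/
theorem gen₂ (hOn : ∀ o ∈ O2 M' p hπ hE, baseChangeHom (M' * p) K o ∈ (c2 h).O) :
    ∀ g ∈ G A M', ∃ (J : FK (M' * p) K) (hJ : J ∈ O2 M' p hπ hE), J⁻¹ ∈ O2 M' p hπ hE ∧ J ≠ 0 ∧
      (c2 h).ρ ⟨baseChangeHom (M' * p) K J, hOn J hJ⟩ = g := by
  rintro g ⟨d, hne, hd, hg⟩
  haveI := hne
  set J : FK (M' * p) K := frickeFK (M' * p) K (Jd (p := p) K d hd) with hJdef
  have hwJ : frickeFK (M' * p) K J = Jd (p := p) K d hd := frickeFK_frickeFK _ _ _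
  have hJ : J ∈ O2 M' p hπ hE := by
    rw [mem_O2_iff_wN_mem_O1]
    show frickeFK (M' * p) K J ∈ O1 M' p hπ hE
    rw [hwJ]
    exact (mem_O1_iff M' p hπ hE _).2 (Jd_mem_gauss K d hd)
  have hJi : J⁻¹ ∈ O2 M' p hπ hE := by
    rw [mem_O2_iff_wN_mem_O1]
    show frickeFK (M' * p) K J⁻¹ ∈ O1 M' p hπ hE
    rw [map_inv₀, hwJ]
    exact (mem_O1_iff M' p hπ hE _).2 (Jd_inv_mem_gauss K d hd)
  have hJ0 : J ≠ 0 := by
    intro h0
    apply Jd_ne_zero (p := p) K A d hd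
    rw [← hwJ, h0, map_zero]
  refine ⟨J, hJ, hJi, hJ0, ?_⟩
  apply Subtype.ext
  rw [hg]
  have hm : baseChangeHom (M' * p) K (Jd (p := p) K d hd) ∈ O1 h := by
    have := (Fermat.Agent.T33.NodalHalf4.mem_O2_iff h _).1 (hOn J hJ)
    rwa [← baseChangeHom_frickeFK, hwJ] at this
  rw [← rho1_Jd h K d hd hm]
  show ((rho2 h ⟨baseChangeHom (M' * p) K J, hOn J hJ⟩ : Fb A M') : LaurentSeries (Setup8.kA A)) = _
  rw [rho2_apply]
  congr 2
  apply Subtype.ext
  show frickeBar (M' * p) (baseChangeHom (M' * p) K J) = _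
  rw [← baseChangeHom_frickeFK, hwJ]

end Gens

/-! ### (FRAC) -/

/-- the subring generated by the constants of `A` and the image of a subset of a finite level. -/
def B₀ (A : ValuationSubring Qbar) (K : IntermediateField ℚ Qbar) (N : ℕ)
    (B : Set ↥(FK N K)) : Subring ↥(Fbar N) :=
  Subring.closure (Set.range (fun a : A => algebraMap Qbar ↥(Fbar N) (a : Qbar)) ∪
    baseChangeHom N K '' B)

theorem const_mem_B₀ (N : ℕ) (B : Set ↥(FK N K)) (a : A) :
    algebraMap Qbar ↥(Fbar N) (a : Qbar) ∈ B₀ A K N B :=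
  Subring.subset_closure (Or.inl ⟨a, rfl⟩)

theorem map_mem_B₀ (N : ℕ) (B : Set ↥(FK N K)) {b : ↥(FK N K)} (hb : b ∈ B) :
    baseChangeHom N K b ∈ B₀ A K N B :=
  Subring.subset_closure (Or.inr ⟨b, hb, rfl⟩)

/-- **(FRAC)**: `Fbar N` is the fraction field of `B₀` as soon as `FK N K` is the fraction field
of `B`. -/
theorem frac_closure (N : ℕ) (B : Set ↥(FK N K))
    (hfrac : ∀ x : ↥(FK N K), ∃ a ∈ B, ∃ b ∈ B, b ≠ 0 ∧ x * b = a) :
    ∀ z : ↥(Fbar N), ∃ a b : ↥(B₀ A K N B), (b : ↥(Fbar N)) ≠ 0 ∧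
      z * (b : ↥(Fbar N)) = (a : ↥(Fbar N)) := by
  have key : ∀ x (hx : x ∈ IntermediateField.adjoin Qbar
      (⇑(coeffEmb Qbar) '' ((modularFunctionFieldFull N : IntermediateField ℚ (LaurentSeries ℚ)) :
        Set (LaurentSeries ℚ)))),
      ∃ a b : ↥(B₀ A K N B), (b : ↥(Fbar N)) ≠ 0 ∧
        (⟨x, hx⟩ : ↥(Fbar N)) * (b : ↥(Fbar N)) = (a : ↥(Fbar N)) := by
    intro x hx
    induction hx using IntermediateField.adjoin_induction with
    | mem x hx =>
      obtain ⟨x₀, hx₀, rfl⟩ := hx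
      have hxK : coeffEmb K x₀ ∈ FK N K := coeffEmb_mem_laurentBaseChange K hx₀
      obtain ⟨a, ha, b, hb, hb0, e⟩ := hfrac ⟨coeffEmb K x₀, hxK⟩
      have hbc : baseChangeHom N K ⟨coeffEmb K x₀, hxK⟩ =
          (⟨coeffEmb Qbar x₀, IntermediateField.subset_adjoin _ _ ⟨x₀, hx₀, rfl⟩⟩ : ↥(Fbar N)) := by
        apply Subtype.ext
        rw [coe_baseChangeHom]
        show coeffMap (algebraMap K Qbar) (coeffMap (algebraMap ℚ K) x₀) =
          coeffMap (algebraMap ℚ Qbar) x₀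
        rw [coeffMap_coeffMap]
        congr 1
      refine ⟨⟨baseChangeHom N K a, map_mem_B₀ (A := A) K N B ha⟩,
        ⟨baseChangeHom N K b, map_mem_B₀ (A := A) K N B hb⟩, ?_, ?_⟩
      · show baseChangeHom N K b ≠ 0
        rwa [ne_eq, map_eq_zero]
      · show _ * baseChangeHom N K b = baseChangeHom N K a
        rw [← hbc, ← map_mul, e]
    | algebraMap k =>
      have hk' : (⟨algebraMap Qbar (LaurentSeries Qbar) k, (Fbar N).algebraMap_mem k⟩ : ↥(Fbar N)) =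
          algebraMap Qbar ↥(Fbar N) k := rfl
      rcases A.mem_or_inv_mem k with hk | hk
      · refine ⟨⟨algebraMap Qbar ↥(Fbar N) k, const_mem_B₀ (A := A) K N B ⟨k, hk⟩⟩, 1,
          one_ne_zero, ?_⟩
        show _ * (1 : ↥(Fbar N)) = algebraMap Qbar ↥(Fbar N) k
        rw [mul_one]
        exact hk'
      · rcases eq_or_ne k 0 with rfl | hk0
        · refine ⟨0, 1, one_ne_zero, ?_⟩
          show _ * (1 : ↥(Fbar N)) = (0 : ↥(Fbar N))
          rw [mul_one]
          exact hk'.trans (map_zero _)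
        · refine ⟨1, ⟨algebraMap Qbar ↥(Fbar N) k⁻¹, const_mem_B₀ (A := A) K N B ⟨k⁻¹, hk⟩⟩,
            ?_, ?_⟩
          · show algebraMap Qbar ↥(Fbar N) k⁻¹ ≠ 0
            rw [ne_eq, map_eq_zero]
            exact inv_ne_zero hk0
          · show _ * algebraMap Qbar ↥(Fbar N) k⁻¹ = (1 : ↥(Fbar N))
            rw [hk', ← map_mul, mul_inv_cancel₀ hk0, map_one]
    | add x y hx hy h1 h2 =>
      obtain ⟨a₁, b₁, hb₁, e₁⟩ := h1
      obtain ⟨a₂, b₂, hb₂, e₂⟩ := h2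
      refine ⟨a₁ * b₂ + a₂ * b₁, b₁ * b₂, mul_ne_zero hb₁ hb₂, ?_⟩
      show ((⟨x, hx⟩ : ↥(Fbar N)) + ⟨y, hy⟩) * ((b₁ : ↥(Fbar N)) * (b₂ : ↥(Fbar N))) =
        (a₁ : ↥(Fbar N)) * (b₂ : ↥(Fbar N)) + (a₂ : ↥(Fbar N)) * (b₁ : ↥(Fbar N))
      rw [← e₁, ← e₂]
      ring
    | inv x hx h1 =>
      obtain ⟨a, b, hb, e⟩ := h1
      rcases eq_or_ne (⟨x, hx⟩ : ↥(Fbar N)) 0 with h0 | h0
      · refine ⟨0, 1, one_ne_zero, ?_⟩
        show (⟨x, hx⟩ : ↥(Fbar N))⁻¹ * (1 : ↥(Fbar N)) = (0 : ↥(Fbar N))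
        rw [h0, inv_zero, zero_mul]
      · have ha : (a : ↥(Fbar N)) ≠ 0 := by
          rw [← e]
          exact mul_ne_zero h0 hb
        refine ⟨b, a, ha, ?_⟩
        show (⟨x, hx⟩ : ↥(Fbar N))⁻¹ * (a : ↥(Fbar N)) = (b : ↥(Fbar N))
        rw [← e]
        field_simp
    | mul x y hx hy h1 h2 =>
      obtain ⟨a₁, b₁, hb₁, e₁⟩ := h1
      obtain ⟨a₂, b₂, hb₂, e₂⟩ := h2
      refine ⟨a₁ * a₂, b₁ * b₂, mul_ne_zero hb₁ hb₂, ?_⟩
      show ((⟨x, hx⟩ : ↥(Fbar N)) * ⟨y, hy⟩) * ((b₁ : ↥(Fbar N)) * (b₂ : ↥(Fbar N))) =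
        (a₁ : ↥(Fbar N)) * (a₂ : ↥(Fbar N))
      rw [← e₁, ← e₂]
      ring
  rintro ⟨z, hz⟩
  exact key z hz

/-! ### separability in the residue field -/

include h in
/-- every element of `κ` is a simple root of an integer polynomial. -/
theorem hsep (k : ResidueField ↥A) :
    ∃ g : ℤ[X], aeval k g = 0 ∧ aeval k (derivative g) ≠ 0 := by
  rcases eq_or_ne k 0 with rfl | hk
  · exact ⟨X, by simp, by simp⟩
  · obtain ⟨m, hpm, hm⟩ :=
      Fermat.Agent.U44.InertDescent1.exists_pow_eq_one h.prime h.liesOver k hk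
    haveI : CharP (ResidueField ↥A) p :=
      Fermat.Agent.ES.KRON.KronInst10.charP_residueField A h.prime h.liesOver
    refine ⟨X ^ m - 1, by simp [hm], ?_⟩
    have hm0 : m ≠ 0 := fun h0 => hpm (h0 ▸ dvd_zero p)
    have hmk : (m : ResidueField ↥A) ≠ 0 := by
      rw [ne_eq, CharP.cast_eq_zero_iff (ResidueField ↥A) p]
      exact hpm
    simp only [derivative_sub, derivative_X_pow, derivative_one, sub_zero, map_mul, map_pow,
      aeval_X, map_natCast]
    exact mul_ne_zero hmk (pow_ne_zero _ hk)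

end Fermat.Agent.U44.AnnGen6
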