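/-
Programme U44 (target S44), block (TR), instance layer (helper6): **peeling at a regular node**,
abstract commutative algebra (Mathlib only).

Setting.  `A` a local domain (the valuation ring of `ℚ̄` over `p`), `L` a commutative ring with
`ι : A →+* L` (constants) and a retraction `ev : L →+* A` (the value at a point `P` of the generic
fibre specialising to the node), local along `ev` (`ev z` a unit `⟹` `z` a unit): `L` is the local
ring generated by `A` and the image `S` of the local ring of a REGULAR finite-level model at the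
node.  `X Y E ∈ L` are the node coordinates of the finite level, `X Y = π E`
(`NodeReg10.node_regular`), `a = ev X`, `a c' = π` with `a, c' ∈ 𝔪_A` (the point lies in the open
annulus `|π| < |X| < 1`).

Hypotheses on `S` (all satisfied by the image of a regular local ring with `𝔪 = (X, Y)` and
separable residue field extension):
* `hH3` : for every `s ∈ S` there is a polynomial `g ∈ A[T]` with `g(s) = X s₁ + Y s₂`, `s₁ s₂ ∈ S`,
  and `g'(ev s)` a unit of `A` (lift of the separable minimal polynomial of the residue of `s`);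
* `hgen` : `ker ev` is generated by FINITELY many differences `t - ι (ev t)`, `t ∈ S`
  (finite generation of the finite-level chart).

Results:
* `ker_ev_le` (**PEEL**) : `ker ev = (X - a, Y - c' E)` — Nakayama, no noetherian hypothesis on `L`;
* `ev_unique` : a second retraction `ev'` with `ev' X = a` is `ev` (the point of the annulus is
  determined by the value of `X`);
* `mem_span_of_not_isUnit` : `𝔪_L = (X, Y) + 𝔪_A L`.
-/
import Mathlib

set_option autoImplicit false

open IsLocalRing Polynomial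

namespace Fermat.Agent.U44.NodePeel6

variable {A L : Type*} [CommRing A] [IsDomain A] [IsLocalRing A] [CommRing L]

/-- the data and hypotheses of the peeling lemma. -/
structure PeelHyp (ι : A →+* L) (ev : L →+* A) (S : Set L) (X Y E : L) (π a c' : A) : Prop where
  ev_ι : ∀ c : A, ev (ι c) = c
  loc : ∀ z : L, IsUnit (ev z) → IsUnit z
  hXY : X * Y = ι π * E
  hac : a * c' = π
  ha : a ∈ maximalIdeal A
  hc' : c' ∈ maximalIdeal A
  ha0 : a ≠ 0
  hX : ev X = a
  hE : E ∈ S
  hH3 : ∀ s ∈ S, ∃ (g : A[X]) (s₁ s₂ : L), s₁ ∈ S ∧ s₂ ∈ S ∧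
    (g.map ι).eval s = X * s₁ + Y * s₂ ∧ IsUnit (g.derivative.eval (ev s))
  hgen : ∃ T : Finset L, (∀ t ∈ T, t ∈ S) ∧
    ∀ z : L, ev z = 0 → z ∈ Ideal.span ((fun t : L => t - ι (ev t)) '' (T : Set L))

namespace PeelHyp

variable {ι : A →+* L} {ev : L →+* A} {S : Set L} {X Y E : L} {π a c' : A}

/-- `ev Y = c' * ev E`. -/
theorem ev_Y (h : PeelHyp ι ev S X Y E π a c') : ev Y = c' * ev E := by
  have h1 : a * ev Y = a * (c' * ev E) := by
    have := congrArg ev h.hXY
    rw [map_mul, map_mul, h.hX, h.ev_ι] at this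
    rw [this, ← h.hac]
    ring
  exact mul_left_cancel₀ h.ha0 h1

/-- the ideal of constants `𝔪_A L` lies in the Jacobson radical. -/
theorem map_le_jacobson (h : PeelHyp ι ev S X Y E π a c') :
    Ideal.map ι (maximalIdeal A) ≤ Ideal.jacobson (⊥ : Ideal L) := by
  have hev : ∀ x ∈ Ideal.map ι (maximalIdeal A), ev x ∈ maximalIdeal A := by
    intro x hx
    have : Ideal.map ι (maximalIdeal A) ≤ Ideal.comap ev (maximalIdeal A) := by
      rw [Ideal.map_le_iff_le_comap]
      intro c hc
      rw [Ideal.mem_comap, Ideal.mem_comap, h.ev_ι]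
      exact hc
    exact this hx
  intro x hx
  rw [Ideal.mem_jacobson_bot]
  intro y
  apply h.loc
  rw [map_add, map_mul, map_one]
  have h1 : ev x * ev y ∈ maximalIdeal A := Ideal.mul_mem_right _ _ (hev x hx)
  by_contra hnu
  have h2 : ev x * ev y + 1 ∈ maximalIdeal A := (mem_maximalIdeal _).2 hnu
  have h3 : (1 : A) ∈ maximalIdeal A := by
    have := Ideal.sub_mem _ h2 h1
    rwa [add_sub_cancel_left] at this
  exact (maximalIdeal.isMaximal A).ne_top ((Ideal.eq_top_iff_one _).2 h3)

/-- the kernel of the evaluation. -/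
def N (ev : L →+* A) : Ideal L := RingHom.ker ev

theorem sub_mem_N (h : PeelHyp ι ev S X Y E π a c') (z : L) : z - ι (ev z) ∈ N ev := by
  rw [N, RingHom.mem_ker, map_sub, h.ev_ι, sub_self]

/-- the ideal `(X - a, Y - c' E)`. -/
def J (ι : A →+* L) (X Y E : L) (a c' : A) : Ideal L :=
  Ideal.span {X - ι a, Y - ι c' * E}

theorem J_le_N (h : PeelHyp ι ev S X Y E π a c') : J ι X Y E a c' ≤ N ev := by
  rw [J, Ideal.span_le]
  rintro z (rfl | hz)
  · show X - ι a ∈ RingHom.ker ev
    rw [RingHom.mem_ker, map_sub, h.ev_ι, h.hX, sub_self]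
  · rw [Set.mem_singleton_iff] at hz
    subst hz
    show Y - ι c' * E ∈ RingHom.ker ev
    rw [RingHom.mem_ker, map_sub, map_mul, h.ev_ι, h.ev_Y, sub_self]

/-- the key step: the difference `s - ev s`, `s ∈ S`, lies in `J + 𝔪_A N`. -/
theorem sub_mem_sup (h : PeelHyp ι ev S X Y E π a c') {s : L} (hs : s ∈ S) :
    s - ι (ev s) ∈ J ι X Y E a c' ⊔ Ideal.map ι (maximalIdeal A) • N ev := by
  obtain ⟨g, s₁, s₂, -, -, hg, hu⟩ := h.hH3 s hs
  set c : A := ev s with hc
  set I : Ideal L := Ideal.map ι (maximalIdeal A) with hI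
  set b : A := c' * ev E with hb
  have hbm : b ∈ maximalIdeal A := Ideal.mul_mem_right _ _ h.hc'
  -- Taylor expansion at the constant `ι c`
  obtain ⟨k, hk⟩ := (g.map ι).binomExpansion (ι c) (s - ι c)
  rw [add_sub_cancel] at hk
  have e1 : (g.map ι).eval (ι c) = ι (g.eval c) := by
    rw [eval_map, eval₂_at_apply]
  have e2 : (g.map ι).derivative.eval (ι c) = ι (g.derivative.eval c) := by
    rw [derivative_map, eval_map, eval₂_at_apply]
  -- the value of `g(s)`
  have e3 : g.eval c = a * ev s₁ + b * ev s₂ := by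
    have h1 := congrArg ev hg
    rw [map_add, map_mul, map_mul, h.hX, h.ev_Y] at h1
    rw [← h1, eval_map, hom_eval₂]
    have : (ev.comp ι) = RingHom.id A := RingHom.ext h.ev_ι
    rw [this, eval₂_id]
  -- the unit `H`
  set H : L := ι (g.derivative.eval c) + k * (s - ι c) with hH
  have hHu : IsUnit H := by
    apply h.loc
    rw [hH, map_add, map_mul, map_sub, h.ev_ι, h.ev_ι, ← hc, sub_self, mul_zero, add_zero]
    exact hu
  -- the main identity
  have key : (s - ι c) * H =
      (X - ι a) * s₁ + (Y - ι c' * E) * s₂ +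
        (ι a * (s₁ - ι (ev s₁)) + ι c' * ((E - ι (ev E)) * s₂) + ι b * (s₂ - ι (ev s₂))) := by
    have h2 : (s - ι c) * H = (g.map ι).eval s - ι (g.eval c) := by
      rw [hk, e1, e2, hH]
      ring
    rw [h2, hg, e3, hb]
    simp only [map_add, map_mul]
    ring
  have hmem : (s - ι c) * H ∈ J ι X Y E a c' ⊔ I • N ev := by
    rw [key]
    refine Ideal.add_mem _ (Ideal.mem_sup_left ?_) (Ideal.mem_sup_right ?_)
    · refine Ideal.add_mem _ (Ideal.mul_mem_right _ _ (Ideal.subset_span (by simp)))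
        (Ideal.mul_mem_right _ _ (Ideal.subset_span (by simp)))
    · refine Ideal.add_mem _ (Ideal.add_mem _ ?_ ?_) ?_
      · exact Submodule.smul_mem_smul (Ideal.mem_map_of_mem ι h.ha) (h.sub_mem_N s₁)
      · exact Submodule.smul_mem_smul (Ideal.mem_map_of_mem ι h.hc')
          (Ideal.mul_mem_right _ _ (h.sub_mem_N E))
      · exact Submodule.smul_mem_smul (Ideal.mem_map_of_mem ι hbm) (h.sub_mem_N s₂)
  obtain ⟨Hu, hHu'⟩ := hHu
  have : s - ι c = ((s - ι c) * H) * ((Hu⁻¹ : Lˣ) : L) := by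
    rw [mul_assoc, ← hHu', Units.mul_inv, mul_one]
  rw [this]
  exact Ideal.mul_mem_right _ _ hmem

/-- **PEEL**: the kernel of the evaluation is `(X - a, Y - c' E)`. -/
theorem ker_ev_le (h : PeelHyp ι ev S X Y E π a c') : N ev ≤ J ι X Y E a c' := by
  obtain ⟨T, hTS, hT⟩ := h.hgen
  have hle : N ev ≤ Ideal.span ((fun t : L => t - ι (ev t)) '' (T : Set L)) := fun z hz =>
    hT z ((RingHom.mem_ker).1 hz)
  have hge : Ideal.span ((fun t : L => t - ι (ev t)) '' (T : Set L)) ≤ N ev := by
    rw [Ideal.span_le]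
    rintro _ ⟨t, -, rfl⟩
    exact h.sub_mem_N t
  have hfg : (N ev).FG := by
    rw [le_antisymm hle hge]
    classical
    exact ⟨T.image fun t : L => t - ι (ev t), by rw [Finset.coe_image]⟩
  refine Submodule.le_of_le_smul_of_le_jacobson_bot hfg h.map_le_jacobson ?_
  refine hle.trans ?_
  rw [Ideal.span_le]
  rintro _ ⟨t, ht, rfl⟩
  exact h.sub_mem_sup (hTS t ht)

theorem mem_J_of_ev_eq_zero (h : PeelHyp ι ev S X Y E π a c') {z : L} (hz : ev z = 0) :
    z ∈ J ι X Y E a c' :=
  h.ker_ev_le ((RingHom.mem_ker).2 hz)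

/-- element form of PEEL. -/
theorem exists_eq_of_ev_eq_zero (h : PeelHyp ι ev S X Y E π a c') {z : L} (hz : ev z = 0) :
    ∃ z₁ z₂ : L, z = z₁ * (X - ι a) + z₂ * (Y - ι c' * E) := by
  have := h.mem_J_of_ev_eq_zero hz
  rw [J, Ideal.mem_span_pair] at this
  obtain ⟨z₁, z₂, e⟩ := this
  exact ⟨z₁, z₂, e.symm⟩

/-- **the point of the annulus is determined by the value of `X`.** -/
theorem ev_unique (h : PeelHyp ι ev S X Y E π a c') (ev' : L →+* A) (hι : ∀ c : A, ev' (ι c) = c)
    (hX' : ev' X = a) (z : L) : ev' z = ev z := by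
  have hY' : ev' Y = c' * ev' E := by
    have h1 : a * ev' Y = a * (c' * ev' E) := by
      have := congrArg ev' h.hXY
      rw [map_mul, map_mul, hX', hι] at this
      rw [this, ← h.hac]
      ring
    exact mul_left_cancel₀ h.ha0 h1
  obtain ⟨z₁, z₂, e⟩ := h.exists_eq_of_ev_eq_zero (z := z - ι (ev z))
    (by rw [map_sub, h.ev_ι, sub_self])
  have := congrArg ev' e
  rw [map_sub, hι, map_add, map_mul, map_mul, map_sub, map_sub, map_mul, hι, hι, hX', hY', sub_self,
    sub_self, mul_zero, mul_zero, add_zero, sub_eq_zero] at this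
  exact this

/-- **`𝔪_L = (X, Y) + 𝔪_A L`.** -/
theorem mem_span_of_not_isUnit (h : PeelHyp ι ev S X Y E π a c') {z : L} (hz : ¬ IsUnit z) :
    z ∈ Ideal.span {X, Y} ⊔ Ideal.map ι (maximalIdeal A) := by
  have hev : ev z ∈ maximalIdeal A := by
    rw [mem_maximalIdeal, mem_nonunits_iff]
    exact fun hu => hz (h.loc z hu)
  obtain ⟨z₁, z₂, e⟩ := h.exists_eq_of_ev_eq_zero (z := z - ι (ev z))
    (by rw [map_sub, h.ev_ι, sub_self])
  have hXm : X ∈ Ideal.span {X, Y} := Ideal.subset_span (by simp)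
  have hYm : Y ∈ Ideal.span {X, Y} := Ideal.subset_span (by simp)
  have : z = (z₁ * X + z₂ * Y) + (ι (ev z) - z₁ * ι a - z₂ * (ι c' * E)) := by
    linear_combination e
  rw [this]
  refine Ideal.add_mem _ (Ideal.mem_sup_left ?_) (Ideal.mem_sup_right ?_)
  · exact Ideal.add_mem _ (Ideal.mul_mem_left _ _ hXm) (Ideal.mul_mem_left _ _ hYm)
  · refine Ideal.sub_mem _ (Ideal.sub_mem _ (Ideal.mem_map_of_mem ι hev) ?_) ?_
    · exact Ideal.mul_mem_left _ _ (Ideal.mem_map_of_mem ι h.ha)
    · exact Ideal.mul_mem_left _ _ (Ideal.mul_mem_right _ _ (Ideal.mem_map_of_mem ι h.hc'))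

end PeelHyp

end Fermat.Agent.U44.NodePeel6
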