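/-
Programme U44 (target S44), block (TR), instance layer (helper6): **the annulus over a regular node,
function-field layer** (abstract; vocabulary of `T33/PushLoc9A`).

Setting.  `c : HalfRed A F Fb`, `X : PointChart c` = a subring `B₀ ⊆ c.O` of `F` containing the
constants of `A`, with a closed point `χ : B₀ →+* κ`; `X.Bx` the local ring at the point,
`X.S` the places of `F` through the point.  For `P ∈ X.S` the evaluation `evA H hP : X.Bx →+* A`
is a retraction of the constants, local along `χx`.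

`NodeHyp X S x y e π` : `x y = π e` in `X.Bx` with `χx x = χx y = 0`, `χx e ≠ 0`, `π ∈ 𝔪_A ∖ 0`,
`F = Frac B₀`, and the two finite-level inputs of `NodePeel6.PeelHyp` on a set `S ⊆ X.Bx`
(`hH3` with integer polynomials and the separability condition read in the residue field, `hgen` in
the form "`B₀` is generated by the constants and a finite subset of `S`").

Results (for every `P ∈ X.S`, `a := val P = x(P)`):
* `val_mem`, `val_ne`, `exists_cofactor` : `a ∈ 𝔪_A`, `a ≠ 0`, `a c' = π` with `c' ∈ 𝔪_A`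
  (the point lies in the open annulus `|π| < |x| < 1`);
* `peelHyp` : the hypotheses of `NodePeel6` hold for `evA`;
* `exists_div` : every `z ∈ X.Bx` vanishing at `P` is `(x - a) z'` with `a z' ∈ X.Bx`;
* `ord_eq_one` : `ord_P (x - a) = 1`;  `eq_of_ord_pos` : `P` is the only zero of `x - a` in `X.S`;
* `mem_max` : `𝔪_{Bx} = (x, y) + 𝔪_A Bx`.
-/
import Mathlib
import Fermat.Agent.U44.NodePeel6
import Fermat.Agent.T33.PushLoc9A
import Fermat.Agent.FF.RedLat2A

set_option autoImplicit false
set_option linter.unusedSectionVars false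

open AlgebraicCurve IsLocalRing Polynomial

noncomputable section

namespace Fermat.Agent.U44.NodeAnn6

open Fermat.Agent.T33.NodalCtx1 Fermat.Agent.T33.PushLoc9 Fermat.Agent.FF.GaussOv1
  Fermat.Agent.FF.RedLat2 Fermat.Agent.X0.FF Fermat.Agent.RR.LSpace Fermat.Agent.U44.NodePeel6

variable {K : Type*} [Field K] {A : ValuationSubring K}
variable {F : Type*} [Field F] [Algebra K F]
variable {Fb : Type*} [Field Fb] [Algebra (ResidueField A) Fb]
variable {c : HalfRed A F Fb} (X : PointChart c)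

/-! ### constants and evaluation -/

/-- the constants, as a ring homomorphism `A →+* X.Bx`. -/
def constHom : A →+* X.Bx where
  toFun a := ⟨algebraMap K F (a : K), X.const_mem_Bx a⟩
  map_one' := Subtype.ext (by simp)
  map_mul' a b := Subtype.ext (by simp)
  map_zero' := Subtype.ext (by simp)
  map_add' a b := Subtype.ext (by simp)

@[simp] theorem coe_constHom (a : A) : ((constHom X a : X.Bx) : F) = algebraMap K F (a : K) := rfl

theorem χx_constHom (a : A) : X.χx (constHom X a) = residue A a := X.χx_const a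

variable {X}
variable (H : LHyp K F) {P : Place K F} (hP : P ∈ X.S)

include hP in
theorem Bx_le_place : X.Bx ≤ P.toValuationSubring.toSubring := fun _ hy => X.mem_place hP hy

/-- the value at `P` of an element of the local ring lies in `A`. -/
theorem valueAt_mem (y : X.Bx) :
    valueAt H P ⟨(y : F), X.mem_place hP y.2⟩ ∈ A.toSubring := by
  obtain ⟨a, ha, -⟩ := X.exists_value H hP y
  have : valueAt H P ⟨(y : F), X.mem_place hP y.2⟩ = (a : K) := (valueAt_eq_iff H P _ _).2 ha
  rw [this]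
  exact a.2

/-- **evaluation at a place through the point**, `X.Bx →+* A`. -/
def evA : X.Bx →+* A :=
  RingHom.codRestrict ((valueAt H P).comp (Subring.inclusion (Bx_le_place hP))) A.toSubring
    (fun y => valueAt_mem H hP y)

theorem coe_evA (y : X.Bx) :
    ((evA H hP y : A) : K) = valueAt H P ⟨(y : F), X.mem_place hP y.2⟩ := rfl

theorem evA_spec (y : X.Bx) :
    (y : F) = algebraMap K F ((evA H hP y : A) : K) ∨
      0 < P.ord ((y : F) - algebraMap K F ((evA H hP y : A) : K)) :=
  (valueAt_eq_iff H P ⟨(y : F), X.mem_place hP y.2⟩ _).1 (coe_evA H hP y).symm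

theorem evA_eq_iff (y : X.Bx) (a : A) :
    evA H hP y = a ↔
      ((y : F) = algebraMap K F (a : K) ∨ 0 < P.ord ((y : F) - algebraMap K F (a : K))) := by
  rw [← valueAt_eq_iff H P ⟨(y : F), X.mem_place hP y.2⟩ (a : K), ← coe_evA H hP y]
  exact Subtype.ext_iff

theorem evA_constHom (a : A) : evA H hP (constHom X a) = a :=
  (evA_eq_iff H hP _ a).2 (Or.inl rfl)

theorem evA_eq_zero_iff (y : X.Bx) :
    evA H hP y = 0 ↔ ((y : F) = 0 ∨ 0 < P.ord (y : F)) := by
  rw [evA_eq_iff]
  simp

/-- the evaluation reduces to the closed point. -/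
theorem residue_evA (y : X.Bx) : residue A (evA H hP y) = X.χx y := by
  obtain ⟨a, ha, hχ⟩ := X.exists_value H hP y
  rw [(evA_eq_iff H hP y a).2 ha, hχ]

theorem isUnit_of_evA (y : X.Bx) (hy : IsUnit (evA H hP y)) : IsUnit y := by
  have h1 : residue A (evA H hP y) ≠ 0 := by
    rw [ne_eq, residue_eq_zero_iff]
    exact fun hm => (mem_maximalIdeal _).1 hm hy
  rw [residue_evA] at h1
  exact (isUnit_iff_fracRed_ne_zero X.B₀ X.χ y).2 h1

/-! ### the hypotheses at a node -/

variable (X) in
/-- **the hypotheses at a regular node of thickness `π`.** -/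
structure NodeHyp (S : Set X.Bx) (x y e : X.Bx) (π : A) : Prop where
  hxy : x * y = constHom X π * e
  hπ : π ∈ maximalIdeal A
  hπ0 : π ≠ 0
  hx : X.χx x = 0
  hy : X.χx y = 0
  he : X.χx e ≠ 0
  /-- (FRAC). -/
  frac : ∀ f : F, ∃ a b : X.B₀, (b : F) ≠ 0 ∧ f * (b : F) = (a : F)
  hE : e ∈ S
  /-- (H3'): lifts of separable polynomials. -/
  hH3 : ∀ s ∈ S, ∃ (g : ℤ[X]) (s₁ s₂ : X.Bx), s₁ ∈ S ∧ s₂ ∈ S ∧
    aeval s g = x * s₁ + y * s₂ ∧ aeval (X.χx s) (derivative g) ≠ 0
  /-- (gen): the chart is generated by the constants and finitely many elements of `S`. -/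
  hgen : ∃ T : Finset X.Bx, (∀ t ∈ T, t ∈ S) ∧ ∀ b : X.B₀,
    (⟨(b : F), X.B₀_le_Bx b.2⟩ : X.Bx) ∈
      Subring.closure (Set.range (constHom X) ∪ (T : Set X.Bx))

namespace NodeHyp

variable {S : Set X.Bx} {x y e : X.Bx} {π : A} (h : NodeHyp X S x y e π)

/-- the value of `x` at `P`. -/
def val : A := evA H hP x

include h

theorem val_mem : val H hP (x := x) ∈ maximalIdeal A := by
  rw [← residue_eq_zero_iff, val, residue_evA, h.hx]

theorem evA_y_mem : evA H hP y ∈ maximalIdeal A := by
  rw [← residue_eq_zero_iff, residue_evA, h.hy]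

theorem isUnit_evA_e : IsUnit (evA H hP e) := by
  by_contra hnu
  have : evA H hP e ∈ maximalIdeal A := (mem_maximalIdeal _).2 hnu
  rw [← residue_eq_zero_iff, residue_evA] at this
  exact h.he this

theorem val_mul : val H hP (x := x) * evA H hP y = π * evA H hP e := by
  have := congrArg (evA H hP) h.hxy
  rwa [map_mul, map_mul, evA_constHom] at this

theorem val_ne : val H hP (x := x) ≠ 0 := by
  intro h0
  have h1 := h.val_mul H hP
  rw [h0, zero_mul] at h1
  rcases mul_eq_zero.1 h1.symm with h2 | h2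
  · exact h.hπ0 h2
  · exact (h.isUnit_evA_e H hP).ne_zero h2

/-- **the point lies in the open annulus**: `x(P) · c' = π` with `c' ∈ 𝔪_A`. -/
theorem exists_cofactor : ∃ c' : A, c' ∈ maximalIdeal A ∧ val H hP (x := x) * c' = π ∧
    evA H hP y = c' * evA H hP e := by
  obtain ⟨u, hu⟩ := h.isUnit_evA_e H hP
  refine ⟨evA H hP y * ((u⁻¹ : Aˣ) : A), Ideal.mul_mem_right _ _ (h.evA_y_mem H hP), ?_, ?_⟩
  · rw [← mul_assoc, h.val_mul H hP, ← hu, mul_assoc, Units.mul_inv, mul_one]
  · rw [mul_assoc, ← hu, Units.inv_mul, mul_one]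

/-- the hypotheses of `NodePeel6` hold for the evaluation at `P`. -/
theorem peelHyp {c' : A} (hc' : c' ∈ maximalIdeal A) (hac : val H hP (x := x) * c' = π) :
    PeelHyp (constHom X) (evA H hP) S x y e π (val H hP (x := x)) c' where
  ev_ι := evA_constHom H hP
  loc := isUnit_of_evA H hP
  hXY := h.hxy
  hac := hac
  ha := h.val_mem H hP
  hc' := hc'
  ha0 := h.val_ne H hP
  hX := rfl
  hE := h.hE
  hH3 := by
    intro s hs
    obtain ⟨g, s₁, s₂, hs₁, hs₂, hg, hd⟩ := h.hH3 s hs
    refine ⟨g.map (Int.castRingHom A), s₁, s₂, hs₁, hs₂, ?_, ?_⟩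
    · rw [Polynomial.map_map, ← hg, aeval_def, eval₂_eq_eval_map]
      congr 2
      exact RingHom.ext_int _ _
    · rw [derivative_map, eval_map, ← algebraMap_int_eq, ← aeval_def]
      have h1 : residue A (aeval (evA H hP s) (derivative g)) ≠ 0 := by
        have := aeval_algHom_apply (residue A).toIntAlgHom (evA H hP s) (derivative g)
        rw [RingHom.toIntAlgHom_apply, RingHom.toIntAlgHom_apply] at this
        rw [← this, residue_evA]
        exact hd
      by_contra hnu
      exact h1 ((residue_eq_zero_iff _).2 ((mem_maximalIdeal _).2 hnu))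
  hgen := by
    classical
    obtain ⟨T, hTS, hT⟩ := h.hgen
    refine ⟨T, hTS, fun z hz => ?_⟩
    set I : Ideal X.Bx :=
      Ideal.span ((fun t : X.Bx => t - constHom X (evA H hP t)) '' (T : Set X.Bx)) with hI
    -- every element of the closure differs from its value by an element of `I`
    have key : ∀ u ∈ Subring.closure (Set.range (constHom X) ∪ (T : Set X.Bx)),
        u - constHom X (evA H hP u) ∈ I := by
      intro u hu
      induction hu using Subring.closure_induction with
      | mem u hu =>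
        rcases hu with ⟨a, rfl⟩ | hu
        · rw [evA_constHom, sub_self]
          exact I.zero_mem
        · exact Ideal.subset_span ⟨u, hu, rfl⟩
      | zero => simp
      | one => simp
      | add u v _ _ hu hv =>
        have : u + v - constHom X (evA H hP (u + v)) =
            (u - constHom X (evA H hP u)) + (v - constHom X (evA H hP v)) := by
          rw [map_add, map_add]; ring
        rw [this]
        exact I.add_mem hu hv
      | neg u _ hu =>
        have : -u - constHom X (evA H hP (-u)) = -(u - constHom X (evA H hP u)) := by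
          rw [map_neg, map_neg]; ring
        rw [this]
        exact I.neg_mem hu
      | mul u v _ _ hu hv =>
        have : u * v - constHom X (evA H hP (u * v)) =
            u * (v - constHom X (evA H hP v)) +
              constHom X (evA H hP v) * (u - constHom X (evA H hP u)) := by
          rw [map_mul, map_mul]; ring
        rw [this]
        exact I.add_mem (I.mul_mem_left _ hv) (I.mul_mem_left _ hu)
    obtain ⟨a, d, hd, had, -⟩ := exists_num_den X.B₀ X.χ z
    set a' : X.Bx := ⟨(a : F), X.B₀_le_Bx a.2⟩ with ha'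
    set d' : X.Bx := ⟨(d : F), X.B₀_le_Bx d.2⟩ with hd'
    have e1 : z * d' = a' := Subtype.ext had
    have hχd : X.χx d' ≠ 0 := by rw [hd', X.χx_coe]; exact hd
    have hdu : IsUnit d' := (isUnit_iff_fracRed_ne_zero X.B₀ X.χ d').2 hχd
    obtain ⟨w, hw⟩ : ∃ w : X.Bx, d' * w = 1 := hdu.exists_right_inv
    have hev : evA H hP a' = 0 := by rw [← e1, map_mul, hz, zero_mul]
    have ha'I : a' ∈ I := by
      have := key a' (hT a)
      rwa [hev, map_zero, sub_zero] at this
    have : z = a' * w := by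
      rw [← e1, mul_assoc, hw, mul_one]
    rw [this]
    exact I.mul_mem_right _ ha'I

/-- **division by `x - x(P)`**: `a z = (x - a) z''` for `z` vanishing at `P`. -/
theorem exists_div {z : X.Bx} (hz : evA H hP z = 0) :
    ∃ z'' : X.Bx, constHom X (val H hP (x := x)) * z =
      (x - constHom X (val H hP (x := x))) * z'' := by
  obtain ⟨c', hc', hac, -⟩ := h.exists_cofactor H hP
  obtain ⟨z₁, z₂, e1⟩ := (h.peelHyp H hP hc' hac).exists_eq_of_ev_eq_zero hz
  refine ⟨constHom X (val H hP (x := x)) * z₁ - z₂ * y, ?_⟩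
  have e2 : constHom X (val H hP (x := x)) * constHom X c' = constHom X π := by
    rw [← map_mul, hac]
  have hxy := h.hxy
  rw [e1]
  linear_combination z₂ * hxy - (z₂ * e) * e2

include H hP in
/-- **`𝔪_{Bx} = (x, y) + 𝔪_A Bx`.** -/
theorem mem_max {z : X.Bx} (hz : X.χx z = 0) :
    z ∈ Ideal.span {x, y} ⊔ Ideal.map (constHom X) (maximalIdeal A) := by
  obtain ⟨c', hc', hac, -⟩ := h.exists_cofactor H hP
  refine (h.peelHyp H hP hc' hac).mem_span_of_not_isUnit ?_
  intro hu
  exact (isUnit_iff_fracRed_ne_zero X.B₀ X.χ z).1 hu hz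

end NodeHyp

/-! ### the local ring with the constants inverted -/

variable (X) in
/-- `z ∈ X.Bx ⊗ K`: a nonzero constant multiple of `z` lies in the local ring. -/
def InLK (z : F) : Prop := ∃ c : A, c ≠ 0 ∧ algebraMap K F (c : K) * z ∈ X.Bx

theorem algebraMap_coe_ne_zero {c : A} (hc : c ≠ 0) : algebraMap K F (c : K) ≠ 0 := by
  rw [ne_eq, _root_.map_eq_zero]
  exact fun h0 => hc (Subtype.ext h0)

theorem InLK.of_mem {z : F} (hz : z ∈ X.Bx) : InLK X z :=
  ⟨1, one_ne_zero, by simpa using hz⟩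

theorem InLK.sub {z₁ z₂ : F} (h₁ : InLK X z₁) (h₂ : InLK X z₂) : InLK X (z₁ - z₂) := by
  obtain ⟨c₁, hc₁, m₁⟩ := h₁
  obtain ⟨c₂, hc₂, m₂⟩ := h₂
  refine ⟨c₁ * c₂, mul_ne_zero hc₁ hc₂, ?_⟩
  have : algebraMap K F ((c₁ * c₂ : A) : K) * (z₁ - z₂) =
      algebraMap K F (c₂ : K) * (algebraMap K F (c₁ : K) * z₁) -
        algebraMap K F (c₁ : K) * (algebraMap K F (c₂ : K) * z₂) := by
    rw [show ((c₁ * c₂ : A) : K) = (c₁ : K) * (c₂ : K) from rfl, map_mul]
    ring
  rw [this]
  exact X.Bx.sub_mem (X.Bx.mul_mem (X.const_mem_Bx c₂) m₁) (X.Bx.mul_mem (X.const_mem_Bx c₁) m₂)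

theorem InLK.const (k : K) : InLK X (algebraMap K F k) := by
  rcases A.mem_or_inv_mem k with hk | hk
  · exact InLK.of_mem (X.const_mem_Bx ⟨k, hk⟩)
  · rcases eq_or_ne k 0 with rfl | hk0
    · rw [map_zero]
      exact InLK.of_mem X.Bx.zero_mem
    · refine ⟨⟨k⁻¹, hk⟩, fun h0 => inv_ne_zero hk0 (congrArg Subtype.val h0), ?_⟩
      rw [← map_mul, inv_mul_cancel₀ hk0, map_one]
      exact X.Bx.one_mem

theorem InLK.of_mul {z z' : F} {c : A} (hc : c ≠ 0) (e : algebraMap K F (c : K) * z' = z)
    (hz : InLK X z) : InLK X z' := by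
  obtain ⟨c₁, hc₁, m₁⟩ := hz
  refine ⟨c₁ * c, mul_ne_zero hc₁ hc, ?_⟩
  have : algebraMap K F ((c₁ * c : A) : K) * z' = algebraMap K F (c₁ : K) * z := by
    rw [show ((c₁ * c : A) : K) = (c₁ : K) * (c : K) from rfl, map_mul, ← e]
    ring
  rw [this]
  exact m₁

include hP in
theorem InLK.mem_place {z : F} (hz : InLK X z) : z ∈ P.toValuationSubring := by
  obtain ⟨c, hc, m⟩ := hz
  have hcF := algebraMap_coe_ne_zero (F := F) hc
  have h1 : (algebraMap K F (c : K))⁻¹ ∈ P.toValuationSubring := by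
    apply mem_of_ord_nonneg
    rw [Place.ord_inv, ord_algebraMap, neg_zero]
  have : z = (algebraMap K F (c : K))⁻¹ * (algebraMap K F (c : K) * z) := by
    rw [← mul_assoc, inv_mul_cancel₀ hcF, one_mul]
  rw [this]
  exact P.toValuationSubring.mul_mem _ _ h1 (X.mem_place hP m)

include hP in
theorem InLK.ord_nonneg {z : F} (hz : InLK X z) : 0 ≤ P.ord z :=
  ord_nonneg_of_mem P (hz.mem_place hP)

namespace NodeHyp

variable {S : Set X.Bx} {x y e : X.Bx} {π : A} (h : NodeHyp X S x y e π)

/-- the local parameter `x - x(P)`. -/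
def u (x : X.Bx) : F := (x : F) - algebraMap K F ((val H hP (x := x) : A) : K)

include h

/-- **division by the local parameter in the local ring with constants inverted.** -/
theorem exists_div_LK {z : F} (hz : InLK X z) (hpos : 0 < P.ord z) :
    ∃ z' : F, InLK X z' ∧ z = u H hP x * z' := by
  obtain ⟨c, hc, m⟩ := hz
  have hcF := algebraMap_coe_ne_zero (F := F) hc
  have hz0 : z ≠ 0 := by
    intro h0
    rw [h0, Place.ord_zero] at hpos
    exact lt_irrefl _ hpos
  have hev : evA H hP ⟨_, m⟩ = 0 := by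
    rw [evA_eq_zero_iff]
    right
    show 0 < P.ord (algebraMap K F (c : K) * z)
    rw [P.ord_mul hcF hz0, ord_algebraMap, zero_add]
    exact hpos
  obtain ⟨z'', e1⟩ := h.exists_div H hP hev
  have e1' : algebraMap K F ((val H hP (x := x) : A) : K) * (algebraMap K F (c : K) * z) =
      u H hP x * (z'' : F) := congrArg Subtype.val e1
  have ha0 := h.val_ne H hP
  have hac : val H hP (x := x) * c ≠ 0 := mul_ne_zero ha0 hc
  have hacF := algebraMap_coe_ne_zero (F := F) hac
  refine ⟨(algebraMap K F ((val H hP (x := x) * c : A) : K))⁻¹ * (z'' : F), ?_, ?_⟩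
  · refine InLK.of_mul hac ?_ (InLK.of_mem z''.2)
    rw [← mul_assoc, mul_inv_cancel₀ hacF, one_mul]
  · have : algebraMap K F ((val H hP (x := x) * c : A) : K) * z = u H hP x * (z'' : F) := by
      rw [← e1', show ((val H hP (x := x) * c : A) : K) =
        ((val H hP (x := x) : A) : K) * (c : K) from rfl, map_mul]
      ring
    rw [mul_left_comm, ← this, ← mul_assoc, inv_mul_cancel₀ hacF, one_mul]

/-- iterated division. -/
theorem peel_pow (hu : 0 < P.ord (u H hP x)) {z : F} (hz : InLK X z) (hz0 : z ≠ 0) :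
    ∃ (j : ℕ) (w : F), InLK X w ∧ w ≠ 0 ∧ P.ord w = 0 ∧ z = u H hP x ^ j * w := by
  obtain ⟨n, hn⟩ : ∃ n : ℕ, P.ord z = n := Int.eq_ofNat_of_zero_le (hz.ord_nonneg hP)
  induction n using Nat.strong_induction_on generalizing z with
  | _ n ih =>
    by_cases hpos : 0 < P.ord z
    · obtain ⟨z', hz', e1⟩ := h.exists_div_LK H hP hz hpos
      have hu0 : u H hP x ≠ 0 := left_ne_zero_of_mul (e1 ▸ hz0)
      have hz'0 : z' ≠ 0 := right_ne_zero_of_mul (e1 ▸ hz0)
      have hord : P.ord z = P.ord (u H hP x) + P.ord z' := by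
        rw [e1, P.ord_mul hu0 hz'0]
      obtain ⟨m, hm⟩ : ∃ m : ℕ, P.ord z' = m := Int.eq_ofNat_of_zero_le (hz'.ord_nonneg hP)
      have hmn : m < n := by omega
      obtain ⟨j, w, hw, hw0, hwo, e₂⟩ := ih m hmn hz' hz'0 hm
      refine ⟨j + 1, w, hw, hw0, hwo, ?_⟩
      rw [e1, e₂, pow_succ]
      ring
    · refine ⟨0, z, hz, hz0, ?_, by rw [pow_zero, one_mul]⟩
      have := hz.ord_nonneg hP
      omega

/-- **the local parameter has order one.** -/
theorem ord_eq_one (hu : 0 < P.ord (u H hP x)) : P.ord (u H hP x) = 1 := by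
  obtain ⟨ϖ, hϖ⟩ := IsDiscreteValuationRing.exists_irreducible P.toValuationSubring
  have hϖ1 : P.ord (ϖ : F) = 1 := P.ord_coe_irreducible hϖ
  have hϖF : (ϖ : F) ≠ 0 := by
    intro h0
    rw [h0, Place.ord_zero] at hϖ1
    exact zero_ne_one hϖ1
  obtain ⟨a, b, hb0, e1⟩ := h.frac (ϖ : F)
  have haF : (a : F) ≠ 0 := by
    rw [← e1]
    exact mul_ne_zero hϖF hb0
  obtain ⟨j, w₁, -, hw₁0, hw₁, e₁⟩ :=
    h.peel_pow H hP hu (InLK.of_mem (X.B₀_le_Bx a.2)) haF
  obtain ⟨k, w₂, -, hw₂0, hw₂, e₂⟩ :=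
    h.peel_pow H hP hu (InLK.of_mem (X.B₀_le_Bx b.2)) hb0
  have huj : u H hP x ^ j ≠ 0 := left_ne_zero_of_mul (e₁ ▸ haF)
  have huk : u H hP x ^ k ≠ 0 := left_ne_zero_of_mul (e₂ ▸ hb0)
  have ha : P.ord (a : F) = j * P.ord (u H hP x) := by
    rw [e₁, P.ord_mul huj hw₁0, hw₁, add_zero, ord_pow]
  have hb : P.ord (b : F) = k * P.ord (u H hP x) := by
    rw [e₂, P.ord_mul huk hw₂0, hw₂, add_zero, ord_pow]
  have hord := congrArg P.ord e1
  rw [P.ord_mul hϖF hb0, hϖ1, ha, hb] at hord
  have hdvd : P.ord (u H hP x) ∣ 1 :=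
    ⟨(j : ℤ) - k, by
      rw [mul_sub]
      linarith [mul_comm (P.ord (u H hP x)) (j : ℤ), mul_comm (P.ord (u H hP x)) (k : ℤ)]⟩
  exact Int.eq_one_of_dvd_one hu.le hdvd

/-- **the local parameter at `P` has no other zero through the point.** -/
theorem eq_of_ord_pos {P' : Place K F} (hP' : P' ∈ X.S) (hu : 0 < P.ord (u H hP x))
    (hu' : 0 < P'.ord (u H hP x)) : P' = P := by
  have huF : u H hP x ≠ 0 := by
    intro h0
    rw [h0, Place.ord_zero] at hu
    exact lt_irrefl _ hu
  -- vanishing at `P` implies vanishing at `P'`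
  have hA : ∀ z : F, InLK X z → 0 < P.ord z → 0 < P'.ord z := by
    intro z hz hpos
    have hz0 : z ≠ 0 := by
      intro h0
      rw [h0, Place.ord_zero] at hpos
      exact lt_irrefl _ hpos
    obtain ⟨z', hz', e1⟩ := h.exists_div_LK H hP hz hpos
    have hz'0 : z' ≠ 0 := right_ne_zero_of_mul (e1 ▸ hz0)
    have h1 := hz'.ord_nonneg hP'
    rw [e1, P'.ord_mul huF hz'0]
    omega
  -- units at `P` are units at `P'`
  have hB : ∀ w : F, InLK X w → w ≠ 0 → P.ord w = 0 → P'.ord w = 0 := by
    intro w hw hw0 hwo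
    have hwP : w ∈ P.toValuationSubring := hw.mem_place hP
    set k : K := valueAt H P ⟨w, hwP⟩ with hk
    have hk' := sub_valueAt H P ⟨w, hwP⟩
    rw [← hk] at hk'
    rcases hk' with hk' | hk'
    · have : w = algebraMap K F k := hk'
      rw [this, ord_algebraMap]
    · have hk'' : 0 < P.ord (w - algebraMap K F k) := hk'
      have hvpos : 0 < P'.ord (w - algebraMap K F k) :=
        hA _ (hw.sub (InLK.const k)) hk''
      have hcne : algebraMap K F k ≠ 0 := by
        intro h0
        rw [h0, sub_zero] at hk''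
        omega
      have hw' : w = algebraMap K F k + (w - algebraMap K F k) := by ring
      rw [hw', ord_add_eq_of_lt P' hcne (by rw [ord_algebraMap]; exact hvpos), ord_algebraMap]
  -- `O_P ≤ O_{P'}`
  have hle : P.toValuationSubring ≤ P'.toValuationSubring := by
    intro f hf
    rcases eq_or_ne f 0 with rfl | hf0
    · exact zero_mem _
    obtain ⟨a, b, hb0, e1⟩ := h.frac f
    have haF : (a : F) ≠ 0 := by
      rw [← e1]
      exact mul_ne_zero hf0 hb0
    obtain ⟨j, w₁, hw₁m, hw₁0, hw₁, e₁⟩ :=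
      h.peel_pow H hP hu (InLK.of_mem (X.B₀_le_Bx a.2)) haF
    obtain ⟨k, w₂, hw₂m, hw₂0, hw₂, e₂⟩ :=
      h.peel_pow H hP hu (InLK.of_mem (X.B₀_le_Bx b.2)) hb0
    have huj : u H hP x ^ j ≠ 0 := left_ne_zero_of_mul (e₁ ▸ haF)
    have huk : u H hP x ^ k ≠ 0 := left_ne_zero_of_mul (e₂ ▸ hb0)
    have key : ∀ R : Place K F, R.ord w₁ = 0 → R.ord w₂ = 0 →
        R.ord f + k * R.ord (u H hP x) = j * R.ord (u H hP x) := by
      intro R h1 h2
      have ha : R.ord (a : F) = j * R.ord (u H hP x) := by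
        rw [e₁, R.ord_mul huj hw₁0, h1, add_zero, ord_pow]
      have hb : R.ord (b : F) = k * R.ord (u H hP x) := by
        rw [e₂, R.ord_mul huk hw₂0, h2, add_zero, ord_pow]
      have hord := congrArg R.ord e1
      rw [R.ord_mul hf0 hb0, ha, hb] at hord
      exact hord
    have keyP := key P hw₁ hw₂
    have keyP' := key P' (hB w₁ hw₁m hw₁0 hw₁) (hB w₂ hw₂m hw₂0 hw₂)
    have hfP : 0 ≤ P.ord f := ord_nonneg_of_mem P hf
    apply mem_of_ord_nonneg
    have hjk : (k : ℤ) ≤ j := by
      by_contra hlt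
      rw [not_le] at hlt
      have : (j : ℤ) * P.ord (u H hP x) < k * P.ord (u H hP x) :=
        mul_lt_mul_of_pos_right hlt hu
      omega
    have : (k : ℤ) * P'.ord (u H hP x) ≤ j * P'.ord (u H hP x) :=
      mul_le_mul_of_nonneg_right hjk hu'.le
    omega
  exact Place.ext
    (Fermat.Agent.ES.HECKE.FundIdentity19.valuationSubring_eq_of_le P P'.toValuationSubring hle
      P'.ne_top')

/-- `x - x(P)` vanishes at `P` as soon as `x` is not a constant. -/
theorem u_pos (hxc : ∀ a : K, (x : F) ≠ algebraMap K F a) : 0 < P.ord (u H hP x) := by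
  rcases evA_spec H hP x with h1 | h1
  · exact absurd h1 (hxc _)
  · exact h1

end NodeHyp

end Fermat.Agent.U44.NodeAnn6
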