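/-
Programme U44 (target S44), block (TR), instance layer (helper6): **one regular finite level at a
two-branch point ⟹ the node hypotheses `NodeAnn6.NodeHyp`** (abstract; vocabulary of
`T33/PushLoc9A/C` and `ES/P36/NodeRegAt10`).

Setting.  `X : PointChart c` whose ring `X.B₀` is generated by the constants of `A` and the image
`f(B)` of ONE finite-level chart `B` (an `R`-subalgebra of `Ff`, `f : Ff →+* F`),
`𝔪 = levelIdeal X f B hfB` the contraction of the point, `x y e : B` node coordinates at `𝔪`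
(`x y = π e`, `𝔪 B_𝔪 = (x, y)`, `e ∉ 𝔪`: the output of `NodeRegAt10.NodeRegAt`).

* `exists_sep_lift` : lifts of separable polynomials (pure algebra);
* `NodeLevel`, `NodeCoordsAt` : the hypotheses;
* `phi` : `B_𝔪 →+* X.Bx`;
* **`nodeHyp`** : `NodeHyp X (range phi) (phi x) (phi y) (phi e) πA`.
-/
import Mathlib
import Fermat.Agent.U44.NodeAnn6
import Fermat.Agent.T33.PushLoc9C

set_option autoImplicit false
set_option linter.unusedSectionVars false
set_option linter.style.haveILetI false

open AlgebraicCurve IsLocalRing Polynomial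

noncomputable section

namespace Fermat.Agent.U44.AnnLevel6

open Fermat.Agent.T33.NodalCtx1 Fermat.Agent.T33.PushLoc9 Fermat.Agent.FF.GaussOv1
  Fermat.Agent.X0.FF Fermat.Agent.RR.LSpace Fermat.Agent.U44.NodeAnn6
  Fermat.Agent.ES.N34.NodalSmooth13

/-! ### lifts of separable polynomials -/

/-- in a local ring `C` with `𝔪_C = (x, y)` mapping to a field all of whose elements are simple
roots of integer polynomials, every element satisfies an integer polynomial modulo `(x, y)` whose
derivative does not vanish at its image. -/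
theorem exists_sep_lift {C L κ : Type*} [CommRing C] [IsLocalRing C] [CommRing L] [Field κ]
    (φ : C →+* L) (χ : L →+* κ) (x y : C) (hmax : maximalIdeal C = Ideal.span {x, y})
    (hsep : ∀ k : κ, ∃ g : ℤ[X], aeval k g = 0 ∧ aeval k (derivative g) ≠ 0) (c : C) :
    ∃ (g : ℤ[X]) (c₁ c₂ : C), aeval (φ c) g = φ x * φ c₁ + φ y * φ c₂ ∧
      aeval (χ (φ c)) (derivative g) ≠ 0 := by
  obtain ⟨g, hg, hg'⟩ := hsep (χ (φ c))
  have h1 : (χ.comp φ) (aeval c g) = 0 := by
    have := aeval_algHom_apply (χ.comp φ).toIntAlgHom c g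
    rw [RingHom.toIntAlgHom_apply, RingHom.toIntAlgHom_apply] at this
    rw [← this]
    exact hg
  have hker : RingHom.ker (χ.comp φ) ≤ maximalIdeal C := by
    apply IsLocalRing.le_maximalIdeal
    rw [ne_eq, Ideal.eq_top_iff_one, RingHom.mem_ker, map_one]
    exact one_ne_zero
  have h2 : aeval c g ∈ Ideal.span {x, y} := by
    rw [← hmax]
    exact hker ((RingHom.mem_ker).2 h1)
  rw [Ideal.mem_span_pair] at h2
  obtain ⟨a, b, e⟩ := h2
  refine ⟨g, a, b, ?_, hg'⟩
  have := aeval_algHom_apply φ.toIntAlgHom c g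
  rw [RingHom.toIntAlgHom_apply, RingHom.toIntAlgHom_apply] at this
  rw [this, ← e, map_add, map_mul, map_mul]
  ring

variable {K : Type*} [Field K] {A : ValuationSubring K}
variable {F : Type*} [Field F] [Algebra K F]
variable {Fb : Type*} [Field Fb] [Algebra (ResidueField A) Fb]
variable {c : HalfRed A F Fb} (X : PointChart c)
variable {R Ff : Type*} [CommRing R] [Field Ff] [Algebra R Ff]

/-! ### the hypotheses -/

/-- **one finite level generating the chart ring of the point.** -/
structure NodeLevel (π : R) (B : Subalgebra R Ff) (f : Ff →+* F) (πA : A) : Prop where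
  hfB : ∀ b ∈ B, f b ∈ X.B₀
  /-- the ring of the point is generated by the constants and the finite level. -/
  hgenB₀ : X.B₀ ≤ Subring.closure
    (Set.range (fun a : A => algebraMap K F (a : K)) ∪ f '' (B : Set Ff))
  hπ : f (algebraMap R Ff π) = algebraMap K F (πA : K)
  πA_mem : πA ∈ maximalIdeal A
  πA_ne : πA ≠ 0
  hconst : ∀ r : R, ∃ a : A, f (algebraMap R Ff r) = algebraMap K F (a : K)
  /-- the finite-level chart is a finitely generated algebra. -/
  fg : ∃ T : Finset Ff, (∀ t ∈ T, t ∈ B) ∧ ∀ b ∈ B, b ∈ Algebra.adjoin R (T : Set Ff)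
  frac : ∀ z : F, ∃ a b : X.B₀, (b : F) ≠ 0 ∧ z * (b : F) = (a : F)
  hsep : ∀ k : ResidueField A, ∃ g : ℤ[X], aeval k g = 0 ∧ aeval k (derivative g) ≠ 0

variable {X}
variable {π : R} {B : Subalgebra R Ff} {f : Ff →+* F} {πA : A}

/-- **node coordinates at the contraction of the point.** -/
structure NodeCoordsAt (L : NodeLevel X π B f πA) (x y e : B) : Prop where
  hxy : x * y = algebraMap R B π * e
  hmaxC : maximalIdeal ↥(locSub B (levelIdeal X f B L.hfB)) =
    Ideal.span {algebraMap ↥B ↥(locSub B (levelIdeal X f B L.hfB)) x,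
      algebraMap ↥B ↥(locSub B (levelIdeal X f B L.hfB)) y}
  he : e ∉ levelIdeal X f B L.hfB

variable (L : NodeLevel X π B f πA)

/-! ### the map to the local ring of the point -/

theorem map_mem_Bx {z : Ff} (hz : z ∈ locSub B (levelIdeal X f B L.hfB)) : f z ∈ X.Bx := by
  obtain ⟨a, d, hd, h⟩ := hz
  refine ⟨levelHom X f B L.hfB a, levelHom X f B L.hfB d, hd, ?_⟩
  rw [coe_levelHom, coe_levelHom, ← map_mul, h]

/-- the map `B_𝔪 →+* X.Bx`. -/
def phi : ↥(locSub B (levelIdeal X f B L.hfB)) →+* X.Bx where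
  toFun z := ⟨f (z : Ff), map_mem_Bx L z.2⟩
  map_one' := Subtype.ext (by simp)
  map_mul' a b := Subtype.ext (by simp)
  map_zero' := Subtype.ext (by simp)
  map_add' a b := Subtype.ext (by simp)

@[simp] theorem coe_phi (z : ↥(locSub B (levelIdeal X f B L.hfB))) :
    ((phi L z : X.Bx) : F) = f (z : Ff) := rfl

/-- the image of an element of the chart. -/
def phiB (b : B) : X.Bx := phi L (algebraMap ↥B ↥(locSub B (levelIdeal X f B L.hfB)) b)

@[simp] theorem coe_phiB (b : B) : ((phiB L b : X.Bx) : F) = f (b : Ff) := rfl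

theorem χx_phiB (b : B) : X.χx (phiB L b) = X.χ ⟨f (b : Ff), L.hfB _ b.2⟩ :=
  X.χx_coe ⟨f (b : Ff), L.hfB _ b.2⟩

theorem χx_phiB_eq_zero_iff (b : B) : X.χx (phiB L b) = 0 ↔ b ∈ levelIdeal X f B L.hfB := by
  rw [χx_phiB]
  exact Iff.rfl

theorem phiB_algebraMap (r : R) : ∃ a : A, phiB L (algebraMap R B r) = constHom X a := by
  obtain ⟨a, ha⟩ := L.hconst r
  exact ⟨a, Subtype.ext ha⟩

theorem phiB_π : phiB L (algebraMap R B π) = constHom X πA := Subtype.ext L.hπ

/-! ### the node hypotheses -/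

variable {x y e : B} (N : NodeCoordsAt L x y e)

include N

theorem x_mem : x ∈ levelIdeal X f B L.hfB := by
  by_contra hx
  have h1 : IsUnit (algebraMap ↥B ↥(locSub B (levelIdeal X f B L.hfB)) x) :=
    (IsLocalization.AtPrime.isUnit_to_map_iff ↥(locSub B (levelIdeal X f B L.hfB))
      (levelIdeal X f B L.hfB) x).2 hx
  have h2 : algebraMap ↥B ↥(locSub B (levelIdeal X f B L.hfB)) x ∈
      maximalIdeal ↥(locSub B (levelIdeal X f B L.hfB)) := by
    rw [N.hmaxC]
    exact Ideal.subset_span (Set.mem_insert _ _)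
  exact (mem_maximalIdeal _).1 h2 h1

theorem y_mem : y ∈ levelIdeal X f B L.hfB := by
  by_contra hy
  have h1 : IsUnit (algebraMap ↥B ↥(locSub B (levelIdeal X f B L.hfB)) y) :=
    (IsLocalization.AtPrime.isUnit_to_map_iff ↥(locSub B (levelIdeal X f B L.hfB))
      (levelIdeal X f B L.hfB) y).2 hy
  have h2 : algebraMap ↥B ↥(locSub B (levelIdeal X f B L.hfB)) y ∈
      maximalIdeal ↥(locSub B (levelIdeal X f B L.hfB)) := by
    rw [N.hmaxC]
    exact Ideal.subset_span (Set.mem_insert_of_mem _ (Set.mem_singleton _))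
  exact (mem_maximalIdeal _).1 h2 h1

/-- **the node hypotheses of `NodeAnn6`.** -/
theorem nodeHyp :
    NodeHyp X (Set.range (phi L)) (phiB L x) (phiB L y) (phiB L e) πA where
  hxy := by
    have h1 := congrArg (phiB L) N.hxy
    rw [← phiB_π L]
    show phiB L x * phiB L y = phiB L (algebraMap R B π) * phiB L e
    unfold phiB at h1 ⊢
    rw [← map_mul, ← map_mul, ← map_mul, ← map_mul]
    exact h1
  hπ := L.πA_mem
  hπ0 := L.πA_ne
  hx := (χx_phiB_eq_zero_iff L x).2 (x_mem L N)
  hy := (χx_phiB_eq_zero_iff L y).2 (y_mem L N)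
  he := fun h0 => N.he ((χx_phiB_eq_zero_iff L e).1 h0)
  frac := L.frac
  hE := ⟨_, rfl⟩
  hH3 := by
    rintro _ ⟨s, rfl⟩
    obtain ⟨g, c₁, c₂, hg, hg'⟩ := exists_sep_lift (phi L) X.χx _ _ N.hmaxC L.hsep s
    exact ⟨g, phi L c₁, phi L c₂, ⟨c₁, rfl⟩, ⟨c₂, rfl⟩, hg, hg'⟩
  hgen := by
    classical
    obtain ⟨T, hTB, hT⟩ := L.fg
    -- the finite set of generators in `X.Bx`
    let T' : Finset X.Bx := T.attach.image fun t => phiB L ⟨t.1, hTB t.1 t.2⟩
    refine ⟨T', ?_, ?_⟩
    · intro t ht
      obtain ⟨t₀, -, rfl⟩ := Finset.mem_image.1 ht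
      exact ⟨_, rfl⟩
    · -- the subring of `F` generated by the constants and the generators
      set M : Subring F :=
        (Subring.closure (Set.range (constHom X) ∪ (T' : Set X.Bx))).map X.Bx.subtype with hM
      have hcM : ∀ a : A, algebraMap K F (a : K) ∈ M := fun a =>
        ⟨constHom X a, Subring.subset_closure (Or.inl ⟨a, rfl⟩), rfl⟩
      have hTM : ∀ t ∈ T, f t ∈ M := by
        intro t ht
        refine ⟨phiB L ⟨t, hTB t ht⟩, Subring.subset_closure (Or.inr ?_), rfl⟩
        rw [Finset.mem_coe]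
        exact Finset.mem_image.2 ⟨⟨t, ht⟩, Finset.mem_attach _ _, rfl⟩
      have hadj : ∀ b ∈ Algebra.adjoin R (T : Set Ff), f b ∈ M := by
        intro b hb'
        induction hb' using Algebra.adjoin_induction with
        | mem z hz => exact hTM z hz
        | algebraMap r =>
          obtain ⟨a, ha⟩ := L.hconst r
          rw [ha]
          exact hcM a
        | add z w _ _ hz hw =>
          rw [map_add]
          exact M.add_mem hz hw
        | mul z w _ _ hz hw =>
          rw [map_mul]
          exact M.mul_mem hz hw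
      have hBM : ∀ b ∈ B, f b ∈ M := fun b hb => hadj b (hT b hb)
      have hle : X.B₀ ≤ M := by
        refine L.hgenB₀.trans ?_
        rw [Subring.closure_le]
        rintro z (⟨a, rfl⟩ | ⟨b, hb, rfl⟩)
        · exact hcM a
        · exact hBM b hb
      intro b
      obtain ⟨z, hz, e1⟩ := hle b.2
      have : z = ⟨(b : F), X.B₀_le_Bx b.2⟩ := Subtype.ext e1
      rw [← this]
      exact hz

end Fermat.Agent.U44.AnnLevel6
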