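/-
Programme U44 (target S44), block (TR), instance layer (helper6): **the reductions of the node
coordinates on one component, and generation of the function field of the component by the
reductions of the local ring** (abstract; continuation of `AnnLevel6`).

Setting of `AnnLevel6` (`X : PointChart c`, `L : NodeLevel X π B f πA`), together with
`OnComp L Oon x y` : `Oon` is the finite-level Gauss valuation ring of the component `c`
(`f(Oon) ⊆ c.O`, descent of `ρ = 0`), `y` is the coordinate vanishing on the component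
(`z ∈ π Oon ↔ y ∣ z` in `B_𝔪`), `x` the branch parameter (`y ∤ x`).

* `ρx_phiB_y` : `ρx (phiB y) = 0`;  `ρx_phiB_x` : `ρx (phiB x) ≠ 0`;
* `exists_factor` : `z = y^j z'` with `y ∤ z'` in `B_𝔪`;
* `exists_frac_of_unit` : for a unit `J` of `Oon`, `ρ (f J)` is a fraction of reductions of `X.Bx`;
* `exists_frac` : hence every element of `Fb`, if `Fb` is generated by such reductions (`hind`).
-/
import Mathlib
import Fermat.Agent.U44.AnnLevel6
import Fermat.Agent.U44.NodeOrd6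

set_option autoImplicit false
set_option linter.unusedSectionVars false
set_option linter.style.haveILetI false

open AlgebraicCurve IsLocalRing Polynomial

noncomputable section

namespace Fermat.Agent.U44.AnnRho6

open Fermat.Agent.T33.NodalCtx1 Fermat.Agent.T33.PushLoc9 Fermat.Agent.FF.GaussOv1
  Fermat.Agent.X0.FF Fermat.Agent.RR.LSpace Fermat.Agent.U44.NodeAnn6
  Fermat.Agent.U44.AnnLevel6 Fermat.Agent.U44.NodeOrd6 Fermat.Agent.ES.N34.NodalSmooth13

variable {K : Type*} [Field K] {A : ValuationSubring K}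
variable {F : Type*} [Field F] [Algebra K F]
variable {Fb : Type*} [Field Fb] [Algebra (ResidueField A) Fb]
variable {c : HalfRed A F Fb} {X : PointChart c}
variable {R Ff : Type*} [CommRing R] [Field Ff] [Algebra R Ff]
variable {π : R} {B : Subalgebra R Ff} {f : Ff →+* F} {πA : A}

/-- **the finite-level Gauss ring of the component `c` at the node.** -/
structure OnComp (L : NodeLevel X π B f πA) (Oon : ValuationSubring Ff) (x y : B) : Prop where
  locOn : ∀ z ∈ locSub B (levelIdeal X f B L.hfB), z ∈ Oon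
  hOn : ∀ o ∈ Oon, f o ∈ c.O
  hdesc : ∀ (o : Ff) (ho : o ∈ Oon), c.ρ ⟨f o, hOn o ho⟩ = 0 →
    ∃ o' ∈ Oon, o = algebraMap R Ff π * o'
  pi_nonunit : (algebraMap R Ff π)⁻¹ ∉ Oon
  unif : ∀ z ∈ Oon, z⁻¹ ∉ Oon → ∃ o ∈ Oon, z = algebraMap R Ff π * o
  arch : ∀ z : Ff, ∃ k : ℕ, algebraMap R Ff π ^ k * z ∈ Oon
  div : ∀ z : ↥(locSub B (levelIdeal X f B L.hfB)),
    (∃ o ∈ Oon, (z : Ff) = algebraMap R Ff π * o) ↔
      algebraMap ↥B ↥(locSub B (levelIdeal X f B L.hfB)) y ∣ z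
  notdvd : ¬ algebraMap ↥B ↥(locSub B (levelIdeal X f B L.hfB)) y ∣
    algebraMap ↥B ↥(locSub B (levelIdeal X f B L.hfB)) x
  fracB : ∀ z : Ff, ∃ a ∈ B, ∃ b ∈ B, b ≠ 0 ∧ z * b = a
  y_ne : (y : Ff) ≠ 0

variable {L : NodeLevel X π B f πA} {Oon : ValuationSubring Ff} {x y : B}
  (D : OnComp L Oon x y)

include D

theorem ρ_const_πA : c.ρ ⟨algebraMap K F (πA : K), c.algebraMap_mem πA⟩ = 0 := by
  rw [c.ρ_algebraMap, (residue_eq_zero_iff _).2 L.πA_mem, map_zero]

/-- elements of `π Oon` reduce to zero. -/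
theorem ρ_eq_zero_of_mem {z o : Ff} (ho : o ∈ Oon) (hz : z = algebraMap R Ff π * o)
    (h : f z ∈ c.O) : c.ρ ⟨f z, h⟩ = 0 := by
  have h1 : f z = algebraMap K F (πA : K) * f o := by rw [hz, map_mul, L.hπ]
  have h2 : (⟨f z, h⟩ : c.O) =
      ⟨algebraMap K F (πA : K), c.algebraMap_mem πA⟩ * ⟨f o, D.hOn o ho⟩ := Subtype.ext h1
  rw [h2, map_mul, ρ_const_πA D, zero_mul]

/-- `y ∈ π Oon`. -/
theorem y_mem_piOn : ∃ o ∈ Oon, (y : Ff) = algebraMap R Ff π * o :=
  (D.div (algebraMap ↥B ↥(locSub B (levelIdeal X f B L.hfB)) y)).2 (dvd_refl _)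

/-- `x ∉ π Oon`. -/
theorem x_not_mem_piOn : ¬ ∃ o ∈ Oon, (x : Ff) = algebraMap R Ff π * o := fun h =>
  D.notdvd ((D.div (algebraMap ↥B ↥(locSub B (levelIdeal X f B L.hfB)) x)).1 h)

/-- **the coordinate of the component reduces to zero.** -/
theorem ρx_phiB_y : X.ρx (phiB L y) = 0 := by
  obtain ⟨o, ho, e⟩ := y_mem_piOn D
  rw [PointChart.ρx_apply]
  exact ρ_eq_zero_of_mem D ho e _

/-- the reduction of the image of an element of `B_𝔪` outside `π Oon` is nonzero. -/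
theorem ρx_phi_ne_zero (z : ↥(locSub B (levelIdeal X f B L.hfB)))
    (hz : ¬ ∃ o ∈ Oon, (z : Ff) = algebraMap R Ff π * o) : X.ρx (phi L z) ≠ 0 := by
  intro h0
  rw [PointChart.ρx_apply] at h0
  exact hz (D.hdesc (z : Ff) (D.locOn _ z.2) h0)

/-- **the branch parameter has nonzero reduction.** -/
theorem ρx_phiB_x : X.ρx (phiB L x) ≠ 0 := by
  have h := x_not_mem_piOn (x := x) (y := y) D
  exact ρx_phi_ne_zero D (algebraMap ↥B ↥(locSub B (levelIdeal X f B L.hfB)) x) h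

/-- an element of `Oon` outside `π Oon` is a unit of `Oon`. -/
theorem inv_mem_of_not_mem {z : Ff} (hz : z ∈ Oon)
    (h : ¬ ∃ o ∈ Oon, z = algebraMap R Ff π * o) : z⁻¹ ∈ Oon := by
  by_contra hcon
  exact h (D.unif z hz hcon)

theorem pi_ne : algebraMap R Ff π ≠ 0 := by
  intro h0
  apply D.pi_nonunit
  rw [h0, inv_zero]
  exact Oon.zero_mem

/-- `y` is not a unit of `Oon`. -/
theorem y_inv_not_mem : ((y : Ff))⁻¹ ∉ Oon := by
  intro h
  obtain ⟨o, ho, e⟩ := y_mem_piOn D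
  apply D.pi_nonunit
  have hπ0 := pi_ne D
  have ho0 : o ≠ 0 := by
    rintro rfl
    rw [mul_zero] at e
    exact D.y_ne e
  have : (algebraMap R Ff π)⁻¹ = o * ((y : Ff))⁻¹ := by
    rw [e, mul_inv]
    field_simp
  rw [this]
  exact Oon.mul_mem _ _ ho h

/-- **factorisation by the coordinate of the component.** -/
theorem exists_factor (z : ↥(locSub B (levelIdeal X f B L.hfB))) (hz : (z : Ff) ≠ 0) :
    ∃ (j : ℕ) (z' : ↥(locSub B (levelIdeal X f B L.hfB))),
      (z : Ff) = (y : Ff) ^ j * (z' : Ff) ∧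
        ¬ ∃ o ∈ Oon, (z' : Ff) = algebraMap R Ff π * o := by
  obtain ⟨k, hk⟩ := D.arch ((z : Ff))⁻¹
  induction k generalizing z with
  | zero =>
    refine ⟨0, z, by rw [pow_zero, one_mul], ?_⟩
    rintro ⟨o, ho, e⟩
    rw [pow_zero, one_mul] at hk
    apply D.pi_nonunit
    have hπ0 := pi_ne D
    have ho0 : o ≠ 0 := by
      rintro rfl
      rw [mul_zero] at e
      exact hz e
    have : (algebraMap R Ff π)⁻¹ = o * ((z : Ff))⁻¹ := by
      rw [e, mul_inv]
      field_simp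
    rw [this]
    exact Oon.mul_mem _ _ ho hk
  | succ k ih =>
    by_cases hdiv : ∃ o ∈ Oon, (z : Ff) = algebraMap R Ff π * o
    · obtain ⟨z'', e1⟩ := (D.div z).1 hdiv
      have e1' : (z : Ff) = (y : Ff) * (z'' : Ff) := congrArg Subtype.val e1
      have hz''0 : (z'' : Ff) ≠ 0 := right_ne_zero_of_mul (e1' ▸ hz)
      obtain ⟨oy, hoy, ey⟩ := y_mem_piOn D
      have hπ0 := pi_ne D
      have hk' : algebraMap R Ff π ^ k * ((z'' : Ff))⁻¹ ∈ Oon := by
        have : algebraMap R Ff π ^ k * ((z'' : Ff))⁻¹ =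
            (algebraMap R Ff π ^ (k + 1) * ((z : Ff))⁻¹) * oy := by
          rw [e1', ey, pow_succ, mul_inv, mul_inv]
          have hoy0 : oy ≠ 0 := by
            rintro rfl
            rw [mul_zero] at ey
            exact D.y_ne ey
          field_simp
        rw [this]
        exact Oon.mul_mem _ _ hk hoy
      obtain ⟨j, z', e2, hz'⟩ := ih z'' hz''0 hk'
      refine ⟨j + 1, z', ?_, hz'⟩
      rw [e1', e2, pow_succ]
      ring
    · exact ⟨0, z, by rw [pow_zero, one_mul], hdiv⟩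

/-- powers of `y` that are units of `Oon` are trivial. -/
theorem pow_y_unit {m : ℕ} (h : ((y : Ff) ^ m)⁻¹ ∈ Oon) : m = 0 := by
  by_contra hm
  obtain ⟨m', rfl⟩ := Nat.exists_eq_succ_of_ne_zero hm
  apply y_inv_not_mem D
  obtain ⟨oy, hoy, ey⟩ := y_mem_piOn D
  have hyO : (y : Ff) ∈ Oon := D.locOn _ ((le_locSub B _) y.2)
  have : ((y : Ff))⁻¹ = (y : Ff) ^ m' * ((y : Ff) ^ (m' + 1))⁻¹ := by
    rw [pow_succ, mul_inv]
    have := D.y_ne
    field_simp
  rw [this]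
  exact Oon.mul_mem _ _ (pow_mem hyO _) h

/-- **the reduction of a unit of `Oon` is a fraction of reductions of the local ring.** -/
theorem exists_frac_of_unit {J : Ff} (hJ : J ∈ Oon) (hJi : J⁻¹ ∈ Oon) (hJ0 : J ≠ 0) :
    ∃ a d : X.Bx, X.ρx d ≠ 0 ∧ c.ρ ⟨f J, D.hOn J hJ⟩ * X.ρx d = X.ρx a := by
  obtain ⟨a, ha, b, hb, hb0, e⟩ := D.fracB J
  have ha0 : a ≠ 0 := by
    rw [← e]
    exact mul_ne_zero hJ0 hb0
  set aC : ↥(locSub B (levelIdeal X f B L.hfB)) := ⟨a, le_locSub B _ ha⟩ with haC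
  set bC : ↥(locSub B (levelIdeal X f B L.hfB)) := ⟨b, le_locSub B _ hb⟩ with hbC
  obtain ⟨j₁, a', ea, ha'⟩ := exists_factor D aC ha0
  obtain ⟨j₂, b', eb, hb'⟩ := exists_factor D bC hb0
  have ea' : a = (y : Ff) ^ j₁ * (a' : Ff) := ea
  have eb' : b = (y : Ff) ^ j₂ * (b' : Ff) := eb
  have ha'O : (a' : Ff) ∈ Oon := D.locOn _ a'.2
  have hb'O : (b' : Ff) ∈ Oon := D.locOn _ b'.2
  have ha'i := inv_mem_of_not_mem D ha'O ha'
  have hb'i := inv_mem_of_not_mem D hb'O hb'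
  have ha'0 : (a' : Ff) ≠ 0 := right_ne_zero_of_mul (ea' ▸ ha0)
  have hb'0 : (b' : Ff) ≠ 0 := right_ne_zero_of_mul (eb' ▸ hb0)
  have hy0 := D.y_ne
  -- `J y^{j₂} b' = y^{j₁} a'`
  have key : J * ((y : Ff) ^ j₂ * (b' : Ff)) = (y : Ff) ^ j₁ * (a' : Ff) := by
    rw [← eb', ← ea', e]
  have hj : j₁ = j₂ := by
    rcases le_total j₁ j₂ with hle | hle
    · obtain ⟨m, rfl⟩ := Nat.exists_eq_add_of_le hle
      have hm : m = 0 := by
        apply pow_y_unit D
        have : ((y : Ff) ^ m)⁻¹ = J * (b' : Ff) * ((a' : Ff))⁻¹ := by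
          rw [pow_add] at key
          have hyj : (y : Ff) ^ j₁ ≠ 0 := pow_ne_zero _ hy0
          have hym : (y : Ff) ^ m ≠ 0 := pow_ne_zero _ hy0
          have k2 : J * (b' : Ff) * (y : Ff) ^ m = (a' : Ff) := by
            apply mul_left_cancel₀ hyj
            linear_combination key
          rw [← k2]
          field_simp
        rw [this]
        exact Oon.mul_mem _ _ (Oon.mul_mem _ _ hJ hb'O) ha'i
      rw [hm, add_zero]
    · obtain ⟨m, rfl⟩ := Nat.exists_eq_add_of_le hle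
      have hm : m = 0 := by
        apply pow_y_unit D
        have : ((y : Ff) ^ m)⁻¹ = J⁻¹ * (a' : Ff) * ((b' : Ff))⁻¹ := by
          rw [pow_add] at key
          have hyj : (y : Ff) ^ j₂ ≠ 0 := pow_ne_zero _ hy0
          have hym : (y : Ff) ^ m ≠ 0 := pow_ne_zero _ hy0
          have k2 : J * (b' : Ff) = (y : Ff) ^ m * (a' : Ff) := by
            apply mul_left_cancel₀ hyj
            linear_combination key
          have k3 : (a' : Ff) = J * (b' : Ff) * ((y : Ff) ^ m)⁻¹ := by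
            rw [k2]
            field_simp
          rw [k3]
          field_simp
        rw [this]
        exact Oon.mul_mem _ _ (Oon.mul_mem _ _ hJi ha'O) hb'i
      rw [hm, add_zero]
  subst hj
  have k2 : J * (b' : Ff) = (a' : Ff) := by
    have hyj : (y : Ff) ^ j₁ ≠ 0 := pow_ne_zero _ hy0
    apply mul_left_cancel₀ hyj
    linear_combination key
  refine ⟨phi L a', phi L b', ρx_phi_ne_zero D b' hb', ?_⟩
  rw [PointChart.ρx_apply, PointChart.ρx_apply, ← map_mul]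
  congr 1
  apply Subtype.ext
  show f J * f (b' : Ff) = f (a' : Ff)
  rw [← map_mul, k2]

/-- **the reductions of the local ring generate the function field of the component.** -/
theorem exists_frac (G : Set Fb)
    (hG : ∀ g ∈ G, ∃ (J : Ff) (hJ : J ∈ Oon), J⁻¹ ∈ Oon ∧ J ≠ 0 ∧ c.ρ ⟨f J, D.hOn J hJ⟩ = g)
    (hind : ∀ P : Fb → Prop, (∀ g ∈ G, P g) →
      (∀ k : ResidueField A, P (algebraMap (ResidueField A) Fb k)) →
      (∀ g₁ g₂, P g₁ → P g₂ → P (g₁ + g₂)) → (∀ g, P g → P g⁻¹) →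
      (∀ g₁ g₂, P g₁ → P g₂ → P (g₁ * g₂)) → ∀ g, P g) (g : Fb) :
    ∃ a d : X.Bx, X.ρx d ≠ 0 ∧ g * X.ρx d = X.ρx a := by
  refine hind (fun g => ∃ a d : X.Bx, X.ρx d ≠ 0 ∧ g * X.ρx d = X.ρx a) ?_ ?_ ?_ ?_ ?_ g
  · intro g hg
    obtain ⟨J, hJ, hJi, hJ0, rfl⟩ := hG g hg
    exact exists_frac_of_unit D hJ hJi hJ0
  · intro k
    obtain ⟨a, rfl⟩ := residue_surjective k
    refine ⟨constHom X a, 1, by rw [map_one]; exact one_ne_zero, ?_⟩
    rw [map_one, mul_one, ρx_constHom]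
  · rintro g₁ g₂ ⟨a₁, d₁, hd₁, e₁⟩ ⟨a₂, d₂, hd₂, e₂⟩
    refine ⟨a₁ * d₂ + a₂ * d₁, d₁ * d₂, by rw [map_mul]; exact mul_ne_zero hd₁ hd₂, ?_⟩
    rw [map_add, map_mul, map_mul, map_mul, ← e₁, ← e₂]
    ring
  · rintro g ⟨a, d, hd, e⟩
    rcases eq_or_ne g 0 with rfl | hg0
    · exact ⟨0, 1, by rw [map_one]; exact one_ne_zero, by rw [inv_zero, zero_mul, map_zero]⟩
    · have ha : X.ρx a ≠ 0 := by
        rw [← e]
        exact mul_ne_zero hg0 hd
      refine ⟨d, a, ha, ?_⟩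
      rw [← e]
      field_simp
  · rintro g₁ g₂ ⟨a₁, d₁, hd₁, e₁⟩ ⟨a₂, d₂, hd₂, e₂⟩
    refine ⟨a₁ * a₂, d₁ * d₂, by rw [map_mul]; exact mul_ne_zero hd₁ hd₂, ?_⟩
    rw [map_mul, map_mul, ← e₁, ← e₂]
    ring

end Fermat.Agent.U44.AnnRho6
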