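/-
Programme U44 (target S44), block (TR), instance layer (helper6): **the annulus coordinate at a
regular node of thickness `π`, abstract assembly.**

Vocabulary of `AnnLevel6` / `AnnRho6`: a point `X₁` of the first component `c₁` which also lies on the
second component `c₂` (`other X₁ le₂ hon₂ : PointChart c₂`, same ring, same character), one finite
level `L₁ : NodeLevel X₁ π B f πA` with node coordinates `x y e` (`x y = π e`) such that `y` cuts out
the first component (`D₁ : OnComp L₁ O1 x y`) and `x` the second (`D₂ : OnComp L₂ O2 y x`).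

* `AnnOut c₁ c₂ S Q₁ Q₂ ϖ R` : the data of `Annulus3.AnnCoord` at a node with branches `Q₁`, `Q₂`,
  for the set `S` of places over the node, with `zp ∈ R` and `ord_{Q₂} (red c₂ y₂) = -1`;
* `AnnOut.mono`;
* **`exists_annOut`** : `AnnOut c₁ c₂ X₁.S Q₁ Q₂ πA (Set.range f)` with `zp = f x`, `y₂ = f (x / π)`,
  `value P = x(P)`.
-/
import Mathlib
import Fermat.Agent.U44.AnnRho6
import Fermat.Agent.U44.GaussRed3

set_option autoImplicit false
set_option linter.unusedSectionVars false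

open AlgebraicCurve IsLocalRing Polynomial

noncomputable section

namespace Fermat.Agent.U44.AnnCore6

open Fermat.Agent.T33.NodalCtx1 Fermat.Agent.T33.PushLoc9 Fermat.Agent.FF.GaussOv1
  Fermat.Agent.X0.FF Fermat.Agent.RR.LSpace Fermat.Agent.U44.NodeAnn6
  Fermat.Agent.U44.AnnLevel6 Fermat.Agent.U44.NodeOrd6 Fermat.Agent.U44.AnnRho6
  Fermat.Agent.ES.N34.NodalSmooth13 Fermat.Agent.U44.GaussRed3

variable {K : Type*} [Field K] {A : ValuationSubring K}
variable {F : Type*} [Field F] [Algebra K F]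
variable {Fb₁ Fb₂ : Type*} [Field Fb₁] [Field Fb₂]
  [Algebra (ResidueField A) Fb₁] [Algebra (ResidueField A) Fb₂]

/-! ### the output -/

/-- **the annulus data at a node** with branches `Q₁`, `Q₂`, for the set `S` of places over it. -/
structure AnnOut (c₁ : HalfRed A F Fb₁) (c₂ : HalfRed A F Fb₂) (S : Set (Place K F))
    (Q₁ : Place (ResidueField A) Fb₁) (Q₂ : Place (ResidueField A) Fb₂) (ϖ : K) (R : Set F) where
  /-- the coordinate. -/
  zp : F
  /-- `zp / ϖ`. -/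
  y₂ : F
  /-- the values. -/
  value : Place K F → K
  ϖ_small : Small A ϖ
  ϖ_ne : ϖ ≠ 0
  zp_range : zp ∈ R
  zp_mem : zp ∈ c₁.O
  ord_zp : Q₁.ord (red c₁ zp) = 1
  zp_eq : zp = algebraMap K F ϖ * y₂
  y₂_gu : IsGU c₂ y₂
  ord_y₂ : Q₂.ord (red c₂ y₂) = -1
  value_small : ∀ P ∈ S, Small A (value P)
  value_ne : ∀ P ∈ S, value P ≠ 0
  value_big : ∀ P ∈ S, Small A (ϖ / value P)
  value_spec : ∀ P ∈ S, 0 < P.ord (zp - algebraMap K F (value P))
  unique : ∀ P ∈ S, ∀ P' ∈ S, 0 < P'.ord (zp - algebraMap K F (value P)) → P' = P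
  simple : ∀ P ∈ S, P.ord (zp - algebraMap K F (value P)) = 1

/-- restriction to a smaller set of places. -/
def AnnOut.mono {c₁ : HalfRed A F Fb₁} {c₂ : HalfRed A F Fb₂} {S S' : Set (Place K F)}
    {Q₁ : Place (ResidueField A) Fb₁} {Q₂ : Place (ResidueField A) Fb₂} {ϖ : K} {R : Set F}
    (o : AnnOut c₁ c₂ S' Q₁ Q₂ ϖ R) (hS : S ⊆ S') : AnnOut c₁ c₂ S Q₁ Q₂ ϖ R where
  zp := o.zp
  y₂ := o.y₂
  value := o.value
  ϖ_small := o.ϖ_small
  ϖ_ne := o.ϖ_ne
  zp_range := o.zp_range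
  zp_mem := o.zp_mem
  ord_zp := o.ord_zp
  zp_eq := o.zp_eq
  y₂_gu := o.y₂_gu
  ord_y₂ := o.ord_y₂
  value_small P hP := o.value_small P (hS hP)
  value_ne P hP := o.value_ne P (hS hP)
  value_big P hP := o.value_big P (hS hP)
  value_spec P hP := o.value_spec P (hS hP)
  unique P hP P' hP' := o.unique P (hS hP) P' (hS hP')
  simple P hP := o.simple P (hS hP)

/-! ### a non-unit of the local ring with nonzero reduction is not a constant -/

theorem not_const {Fb : Type*} [Field Fb] [Algebra (ResidueField A) Fb] {c : HalfRed A F Fb}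
    (X : PointChart c) (z : X.Bx) (hχ : X.χx z = 0) (hρ : X.ρx z ≠ 0) (a : K) :
    (z : F) ≠ algebraMap K F a := by
  intro ha
  by_cases haA : a ∈ A
  · have hz : z = constHom X ⟨a, haA⟩ := Subtype.ext ha
    rw [hz, χx_constHom] at hχ
    rw [hz, ρx_constHom, hχ, map_zero] at hρ
    exact hρ rfl
  · have hinv : a⁻¹ ∈ A := (A.mem_or_inv_mem a).resolve_left haA
    have ha0 : a ≠ 0 := by
      rintro rfl
      exact haA A.zero_mem
    have hsm : Small A a⁻¹ := ⟨hinv, Or.inr (by rwa [inv_inv])⟩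
    have h1 : z * constHom X ⟨a⁻¹, hinv⟩ = 1 := by
      apply Subtype.ext
      show (z : F) * algebraMap K F a⁻¹ = 1
      rw [ha, ← map_mul, mul_inv_cancel₀ ha0, map_one]
    have h2 := congrArg X.ρx h1
    rw [map_mul, ρx_constHom, (residue_eq_zero_iff _).2 hsm.mem_max, map_zero, mul_zero,
      map_one] at h2
    exact zero_ne_one h2

/-! ### the same point on the other component -/

variable {c₁ : HalfRed A F Fb₁} {c₂ : HalfRed A F Fb₂}

/-- the point `X`, seen on the second component. -/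
@[reducible] def other (X : PointChart c₁) (le₂ : X.B₀ ≤ c₂.O)
    (hon₂ : ∀ b : X.B₀, c₂.ρ ⟨(b : F), le₂ b.2⟩ = 0 → X.χ b = 0) : PointChart c₂ where
  B₀ := X.B₀
  le := le₂
  const_mem := X.const_mem
  χ := X.χ
  χ_const := X.χ_const
  χ_of_ρ := hon₂

variable {R Ff : Type*} [CommRing R] [Field Ff] [Algebra R Ff]
variable {π : R} {B : Subalgebra R Ff} {f : Ff →+* F} {πA : A}

/-- the finite level, seen on the second component. -/
theorem otherLevel {X : PointChart c₁} (le₂ : X.B₀ ≤ c₂.O)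
    (hon₂ : ∀ b : X.B₀, c₂.ρ ⟨(b : F), le₂ b.2⟩ = 0 → X.χ b = 0)
    (L : NodeLevel X π B f πA) : NodeLevel (other X le₂ hon₂) π B f πA :=
  ⟨L.hfB, L.hgenB₀, L.hπ, L.πA_mem, L.πA_ne, L.hconst, L.fg, L.frac, L.hsep⟩

/-- the node coordinates, seen on the second component. -/
theorem otherCoords {X : PointChart c₁} (le₂ : X.B₀ ≤ c₂.O)
    (hon₂ : ∀ b : X.B₀, c₂.ρ ⟨(b : F), le₂ b.2⟩ = 0 → X.χ b = 0)
    (L : NodeLevel X π B f πA) {x y e : B} (N : NodeCoordsAt L x y e) :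
    NodeCoordsAt (otherLevel le₂ hon₂ L) y x e where
  hxy := by rw [mul_comm]; exact N.hxy
  hmaxC := N.hmaxC.trans (Ideal.span_pair_comm)
  he := N.he

/-! ### the assembly -/

set_option maxHeartbeats 1000000 in
/-- **the annulus coordinate at a regular node of thickness `π`.** -/
theorem exists_annOut (H : LHyp K F) {X : PointChart c₁} (le₂ : X.B₀ ≤ c₂.O)
    (hon₂ : ∀ b : X.B₀, c₂.ρ ⟨(b : F), le₂ b.2⟩ = 0 → X.χ b = 0)
    (L : NodeLevel X π B f πA) {x y e : B} (N : NodeCoordsAt L x y e)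
    {O1 O2 : ValuationSubring Ff} (D₁ : OnComp L O1 x y)
    (D₂ : OnComp (otherLevel le₂ hon₂ L) O2 y x)
    {Q₁ : Place (ResidueField A) Fb₁} {Q₂ : Place (ResidueField A) Fb₂}
    (hv₁ : ValueCompat X Q₁) (hv₂ : ValueCompat (other X le₂ hon₂) Q₂)
    (hfrac₁ : ∀ g : Fb₁, ∃ a d : X.Bx, X.ρx d ≠ 0 ∧ g * X.ρx d = X.ρx a)
    (hfrac₂ : ∀ g : Fb₂, ∃ a d : (other X le₂ hon₂).Bx,
      (other X le₂ hon₂).ρx d ≠ 0 ∧ g * (other X le₂ hon₂).ρx d = (other X le₂ hon₂).ρx a)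
    (hne : ∃ P : Place K F, P ∈ X.S) :
    Nonempty (AnnOut c₁ c₂ X.S Q₁ Q₂ ((πA : A) : K) (Set.range f)) := by
  classical
  obtain ⟨P₀, hP₀⟩ := hne
  have hP₀' : P₀ ∈ (other X le₂ hon₂).S := hP₀
  have L₂ := otherLevel le₂ hon₂ L
  have N₂ := otherCoords le₂ hon₂ L N
  have NH₁ := nodeHyp L N
  have NH₂ := nodeHyp (otherLevel le₂ hon₂ L) N₂
  -- the orders of the two branch parameters
  have o1 : Q₁.ord (X.ρx (phiB L x)) = 1 :=
    ord_ρx_eq_one (fun z hz => NH₁.mem_max H hP₀ hz) (ρx_phiB_y D₁) (ρx_phiB_x D₁) NH₁.hx hv₁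
      hfrac₁
  have o2 : Q₂.ord ((other X le₂ hon₂).ρx (phiB (otherLevel le₂ hon₂ L) y)) = 1 :=
    ord_ρx_eq_one (fun z hz => NH₂.mem_max H hP₀' hz) (ρx_phiB_y D₂) (ρx_phiB_x D₂) NH₂.hx hv₂
      hfrac₂
  have oe := ord_ρx_of_χx_ne hv₂ NH₂.he
  -- `x = π o`
  obtain ⟨o, ho, hxo⟩ := y_mem_piOn D₂
  have hπ0 : algebraMap R Ff π ≠ 0 := pi_ne D₂
  have hoy : o * (y : Ff) = (e : Ff) := by
    have h1 : (x : Ff) * (y : Ff) = algebraMap R Ff π * (e : Ff) := by
      have := congrArg (fun b : B => (b : Ff)) N.hxy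
      simpa using this
    rw [hxo, mul_assoc] at h1
    exact mul_left_cancel₀ hπ0 h1
  have hfo : f o ∈ c₂.O := D₂.hOn o ho
  have hfy : f (y : Ff) ∈ c₂.O :=
    (other X le₂ hon₂).Bx_le (phiB (otherLevel le₂ hon₂ L) y).2
  have hfe : f (e : Ff) ∈ c₂.O :=
    (other X le₂ hon₂).Bx_le (phiB (otherLevel le₂ hon₂ L) e).2
  have hprod : c₂.ρ ⟨f o, hfo⟩ * c₂.ρ ⟨f (y : Ff), hfy⟩ = c₂.ρ ⟨f (e : Ff), hfe⟩ := by
    rw [← map_mul]
    congr 1
    apply Subtype.ext
    show f o * f (y : Ff) = f (e : Ff)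
    rw [← map_mul, hoy]
  have hρy : c₂.ρ ⟨f (y : Ff), hfy⟩ =
      (other X le₂ hon₂).ρx (phiB (otherLevel le₂ hon₂ L) y) := rfl
  have hρe : c₂.ρ ⟨f (e : Ff), hfe⟩ =
      (other X le₂ hon₂).ρx (phiB (otherLevel le₂ hon₂ L) e) := rfl
  have hρe0 : c₂.ρ ⟨f (e : Ff), hfe⟩ ≠ 0 := by rw [hρe]; exact oe.1
  have hρo0 : c₂.ρ ⟨f o, hfo⟩ ≠ 0 := left_ne_zero_of_mul (hprod ▸ hρe0)
  have hρy0 : c₂.ρ ⟨f (y : Ff), hfy⟩ ≠ 0 := right_ne_zero_of_mul (hprod ▸ hρe0)
  have hordo : Q₂.ord (c₂.ρ ⟨f o, hfo⟩) = -1 := by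
    have h1 := congrArg Q₂.ord hprod
    rw [Q₂.ord_mul hρo0 hρy0, hρy, o2, hρe, oe.2] at h1
    omega
  -- the coordinate is not constant
  have hxc : ∀ a : K, ((phiB L x : X.Bx) : F) ≠ algebraMap K F a :=
    not_const X (phiB L x) NH₁.hx (ρx_phiB_x D₁)
  have hzO : f (x : Ff) ∈ c₁.O := X.Bx_le (phiB L x).2
  refine ⟨{
    zp := f (x : Ff)
    y₂ := f o
    value := fun P => if hP : P ∈ X.S then ((NodeHyp.val H hP (x := phiB L x) : A) : K) else 0
    ϖ_small := small_of_mem_max L.πA_mem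
    ϖ_ne := fun h0 => L.πA_ne (Subtype.ext h0)
    zp_range := ⟨(x : Ff), rfl⟩
    zp_mem := hzO
    ord_zp := ?_
    zp_eq := by rw [hxo, map_mul, L.hπ]
    y₂_gu := ⟨hfo, by rw [red_of_mem c₂ hfo]; exact hρo0⟩
    ord_y₂ := by rw [red_of_mem c₂ hfo]; exact hordo
    value_small := ?_
    value_ne := ?_
    value_big := ?_
    value_spec := ?_
    unique := ?_
    simple := ?_ }⟩
  · rw [red_of_mem c₁ hzO]
    exact o1
  · intro P hP
    rw [dif_pos hP]
    exact small_of_mem_max (NH₁.val_mem H hP)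
  · intro P hP
    rw [dif_pos hP]
    intro h0
    exact NH₁.val_ne H hP (Subtype.ext h0)
  · intro P hP
    rw [dif_pos hP]
    obtain ⟨c', hc', hac, -⟩ := NH₁.exists_cofactor H hP
    have ha0 : ((NodeHyp.val H hP (x := phiB L x) : A) : K) ≠ 0 := fun h0 =>
      NH₁.val_ne H hP (Subtype.ext h0)
    have h1 : ((πA : A) : K) = ((NodeHyp.val H hP (x := phiB L x) : A) : K) * ((c' : A) : K) :=
      (congrArg (fun a : A => (a : K)) hac).symm
    rw [h1, mul_div_cancel_left₀ _ ha0]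
    exact small_of_mem_max hc'
  · intro P hP
    rw [dif_pos hP]
    exact NH₁.u_pos H hP hxc
  · intro P hP P' hP' hpos
    rw [dif_pos hP] at hpos
    exact NH₁.eq_of_ord_pos H hP hP' (NH₁.u_pos H hP hxc) hpos
  · intro P hP
    rw [dif_pos hP]
    exact NH₁.ord_eq_one H hP (NH₁.u_pos H hP hxc)

end Fermat.Agent.U44.AnnCore6
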