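/-
Programme U44 (target S44), block (TR), instance layer (helper6): **the annulus coordinate at a
two-branch point of a chart, from the regularity of the finite-level node (abstract).**

`C : Chart c₁ c₂` a chart of the two-component model, `χ : C.Pt` a point with branches `Q₁`, `Q₂`
(`C.Val₁ χ Q₁`, `C.Val₂ χ Q₂`), `B₀ ≤ C.B` a subring containing the constants and the image of a
finite-level chart `Bk` (`L : NodeLevel (subPoint …) π Bk f πA`) whose two-branch closed points are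
regular nodes of thickness `π` (`NodeRegAt π Bk O1 O2`).

* `subPoint C B₀ hle hc χ hon` : the point `χ` on the smaller ring `B₀`, as a `PointChart c₁`;
* **`exists_annOut_of_reg`** : `AnnCore6.AnnOut c₁ c₂ {P | C.Centred P χ} Q₁ Q₂ πA (Set.range f)`.
-/
import Mathlib
import Fermat.Agent.U44.AnnCore6
import Fermat.Agent.T33.PushWire5
import Fermat.Agent.ES.P36.NodeRegAt10

set_option autoImplicit false
set_option linter.unusedSectionVars false

open AlgebraicCurve IsLocalRing Polynomial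

noncomputable section

namespace Fermat.Agent.U44.AnnNode6

open Fermat.Agent.T33.NodalCtx1 Fermat.Agent.T33.PushLoc9 Fermat.Agent.FF.GaussOv1
  Fermat.Agent.X0.FF Fermat.Agent.RR.LSpace Fermat.Agent.U44.NodeAnn6
  Fermat.Agent.U44.AnnLevel6 Fermat.Agent.U44.NodeOrd6 Fermat.Agent.U44.AnnRho6
  Fermat.Agent.ES.N34.NodalSmooth13 Fermat.Agent.ES.N34.NodalCore13 Fermat.Agent.U44.GaussRed3
  Fermat.Agent.U44.AnnCore6 Fermat.Agent.T33.NodalPlaces1 Fermat.Agent.ES.P36.NodeRegAt10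

variable {K : Type*} [Field K] {A : ValuationSubring K}
variable {F : Type*} [Field F] [Algebra K F]
variable {Fb₁ Fb₂ : Type*} [Field Fb₁] [Field Fb₂]
  [Algebra (ResidueField A) Fb₁] [Algebra (ResidueField A) Fb₂]
variable {c₁ : HalfRed A F Fb₁} {c₂ : HalfRed A F Fb₂}

/-! ### a point of a chart on a smaller ring -/

/-- the point `χ` of the chart `C`, on a subring `B₀ ≤ C.B` containing the constants. -/
def subPoint (C : Chart c₁ c₂) (B₀ : Subring F) (hle : B₀ ≤ C.B)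
    (hc : ∀ a : A, algebraMap K F (a : K) ∈ B₀) (χ : C.Pt) (hon : C.On₁ χ) : PointChart c₁ where
  B₀ := B₀
  le := fun _ hb => C.le₁ (hle hb)
  const_mem := hc
  χ := χ.1.comp (Subring.inclusion hle)
  χ_const := fun a => χ.2 a
  χ_of_ρ := fun b hb => hon ⟨(b : F), hle b.2⟩ hb

variable (C : Chart c₁ c₂) (B₀ : Subring F) (hle : B₀ ≤ C.B)
  (hc : ∀ a : A, algebraMap K F (a : K) ∈ B₀) (χ : C.Pt) (hon : C.On₁ χ)

theorem subPoint_le₂ : (subPoint C B₀ hle hc χ hon).B₀ ≤ c₂.O := fun _ hb => C.le₂ (hle hb)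

theorem subPoint_hon₂ (hon₂ : C.On₂ χ) (b : (subPoint C B₀ hle hc χ hon).B₀)
    (hb : c₂.ρ ⟨(b : F), subPoint_le₂ C B₀ hle hc χ hon b.2⟩ = 0) :
    (subPoint C B₀ hle hc χ hon).χ b = 0 :=
  hon₂ ⟨(b : F), hle b.2⟩ hb

theorem mem_S_of_centred {P : Place K F} (hP : C.Centred P χ) :
    P ∈ (subPoint C B₀ hle hc χ hon).S := by
  have h := Fermat.Agent.T33.GlueWire5.thru_of_centred C χ P hP
  exact ⟨fun b => h.1 ⟨(b : F), hle b.2⟩, fun b hb => h.2 ⟨(b : F), hle b.2⟩ hb⟩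

theorem valueCompat₁ {Q : Place (ResidueField A) Fb₁} (hQ : C.Val₁ χ Q) :
    ValueCompat (subPoint C B₀ hle hc χ hon) Q := by
  intro b
  rcases hQ ⟨(b : F), hle b.2⟩ with h | h
  · exact Or.inl (sub_eq_zero.1 h)
  · exact Or.inr h

theorem valueCompat₂ (hon₂ : C.On₂ χ) {Q : Place (ResidueField A) Fb₂} (hQ : C.Val₂ χ Q) :
    ValueCompat (other (subPoint C B₀ hle hc χ hon) (subPoint_le₂ C B₀ hle hc χ hon)
      (subPoint_hon₂ C B₀ hle hc χ hon hon₂)) Q := by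
  intro b
  rcases hQ ⟨(b : F), hle b.2⟩ with h | h
  · exact Or.inl (sub_eq_zero.1 h)
  · exact Or.inr h

/-! ### the assembly -/

variable {R Ff : Type*} [CommRing R] [Field Ff] [Algebra R Ff]
variable {π : R} {Bk : Subalgebra R Ff} {f : Ff →+* F} {πA : A}

/-- a component passing through the point is not off the contraction of the point. -/
theorem not_offBranch {Fb : Type*} [Field Fb] [Algebra (ResidueField A) Fb] {c : HalfRed A F Fb}
    {X : PointChart c} (L : NodeLevel X π Bk f πA) (Oon : ValuationSubring Ff)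
    (hOn : ∀ o ∈ Oon, f o ∈ c.O) : ¬ OffBranch π Bk Oon (levelIdeal X f Bk L.hfB) := by
  rintro ⟨e, he, o, ho, heo⟩
  apply he
  show X.χ ⟨f (e : Ff), L.hfB _ e.2⟩ = 0
  apply X.χ_of_ρ
  have h1 : f (e : Ff) = algebraMap K F (πA : K) * f o := by rw [heo, map_mul, L.hπ]
  have h2 : (⟨f (e : Ff), X.le (L.hfB _ e.2)⟩ : c.O) =
      ⟨algebraMap K F (πA : K), c.algebraMap_mem πA⟩ * ⟨f o, hOn o ho⟩ := Subtype.ext h1
  rw [h2, map_mul, c.ρ_algebraMap, (residue_eq_zero_iff _).2 L.πA_mem, map_zero, zero_mul]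

/-- the uniformiser lies in the contraction of the point. -/
theorem pi_mem_levelIdeal {Fb : Type*} [Field Fb] [Algebra (ResidueField A) Fb]
    {c : HalfRed A F Fb} {X : PointChart c} (L : NodeLevel X π Bk f πA) :
    algebraMap R Bk π ∈ levelIdeal X f Bk L.hfB := by
  show X.χ ⟨f ((algebraMap R Bk π : Bk) : Ff), L.hfB _ (algebraMap R Bk π).2⟩ = 0
  have h1 : (⟨f ((algebraMap R Bk π : Bk) : Ff), L.hfB _ (algebraMap R Bk π).2⟩ : X.B₀) =
      ⟨algebraMap K F (πA : K), X.const_mem πA⟩ := Subtype.ext L.hπ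
  rw [h1, X.χ_const, (residue_eq_zero_iff _).2 L.πA_mem]

set_option maxHeartbeats 1000000 in
/-- **the annulus coordinate at a two-branch point of a chart.** -/
theorem exists_annOut_of_reg (H : LHyp K F) {Q₁ : Place (ResidueField A) Fb₁}
    {Q₂ : Place (ResidueField A) Fb₂} (hv₁ : C.Val₁ χ Q₁) (hv₂ : C.Val₂ χ Q₂)
    (hne : ∃ P : Place K F, C.Centred P χ)
    (L : NodeLevel (subPoint C B₀ hle hc χ (C.on₁_of_val₁ hv₁)) π Bk f πA)
    (hmax : (levelIdeal (subPoint C B₀ hle hc χ (C.on₁_of_val₁ hv₁)) f Bk L.hfB).IsMaximal)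
    (O1 O2 : ValuationSubring Ff)
    (hOn₁ : ∀ o ∈ O1, f o ∈ c₁.O) (hOn₂ : ∀ o ∈ O2, f o ∈ c₂.O)
    (pi_nonunit1 : (algebraMap R Ff π)⁻¹ ∉ O1) (pi_nonunit2 : (algebraMap R Ff π)⁻¹ ∉ O2)
    (unif1 : ∀ z ∈ O1, z⁻¹ ∉ O1 → ∃ o ∈ O1, z = algebraMap R Ff π * o)
    (unif2 : ∀ z ∈ O2, z⁻¹ ∉ O2 → ∃ o ∈ O2, z = algebraMap R Ff π * o)
    (arch1 : ∀ z : Ff, ∃ k : ℕ, algebraMap R Ff π ^ k * z ∈ O1)
    (arch2 : ∀ z : Ff, ∃ k : ℕ, algebraMap R Ff π ^ k * z ∈ O2)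
    (fracB : ∀ z : Ff, ∃ a ∈ Bk, ∃ b ∈ Bk, b ≠ 0 ∧ z * b = a)
    (hreg : NodeRegAt π Bk O1 O2)
    (G₁ : Set Fb₁)
    (hG₁ : ∀ g ∈ G₁, ∃ (J : Ff) (hJ : J ∈ O1), J⁻¹ ∈ O1 ∧ J ≠ 0 ∧ c₁.ρ ⟨f J, hOn₁ J hJ⟩ = g)
    (hind₁ : ∀ P : Fb₁ → Prop, (∀ g ∈ G₁, P g) →
      (∀ k : ResidueField A, P (algebraMap (ResidueField A) Fb₁ k)) →
      (∀ g₁ g₂, P g₁ → P g₂ → P (g₁ + g₂)) → (∀ g, P g → P g⁻¹) →
      (∀ g₁ g₂, P g₁ → P g₂ → P (g₁ * g₂)) → ∀ g, P g)
    (G₂ : Set Fb₂)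
    (hG₂ : ∀ g ∈ G₂, ∃ (J : Ff) (hJ : J ∈ O2), J⁻¹ ∈ O2 ∧ J ≠ 0 ∧ c₂.ρ ⟨f J, hOn₂ J hJ⟩ = g)
    (hind₂ : ∀ P : Fb₂ → Prop, (∀ g ∈ G₂, P g) →
      (∀ k : ResidueField A, P (algebraMap (ResidueField A) Fb₂ k)) →
      (∀ g₁ g₂, P g₁ → P g₂ → P (g₁ + g₂)) → (∀ g, P g → P g⁻¹) →
      (∀ g₁ g₂, P g₁ → P g₂ → P (g₁ * g₂)) → ∀ g, P g) :
    Nonempty (AnnOut c₁ c₂ {P | C.Centred P χ} Q₁ Q₂ ((πA : A) : K) (Set.range f)) := by
  have hon₁ := C.on₁_of_val₁ hv₁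
  have hon₂ := C.on₂_of_val₂ hv₂
  have le₂ := subPoint_le₂ C B₀ hle hc χ hon₁
  have hon₂' := subPoint_hon₂ C B₀ hle hc χ hon₁ hon₂
  have L₂ := otherLevel (c₂ := c₂) le₂ hon₂' L
  have hπ𝔪 := pi_mem_levelIdeal L
  have hoff1 := not_offBranch L O1 hOn₁
  have hoff2 : ¬ OffBranch π Bk O2
      (levelIdeal (subPoint C B₀ hle hc χ hon₁) f Bk L.hfB) := not_offBranch L₂ O2 hOn₂
  obtain ⟨x, y, e, hxy, loc1, loc2, hmaxC, -, -, hnxy, hnyx, hdiv2, hdiv1, he⟩ :=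
    hreg _ hmax hπ𝔪 hoff1 hoff2
  have N : NodeCoordsAt L x y e := ⟨hxy, hmaxC, he⟩
  have hπ0 : algebraMap R Ff π ≠ 0 := by
    intro h0
    apply pi_nonunit1
    rw [h0, inv_zero]
    exact O1.zero_mem
  have hxyF : (x : Ff) * (y : Ff) = algebraMap R Ff π * (e : Ff) := by
    have := congrArg (fun b : Bk => (b : Ff)) hxy
    simpa using this
  have he0 : (e : Ff) ≠ 0 := by
    intro h0
    apply he
    have : e = 0 := Subtype.ext h0
    rw [this]
    exact Ideal.zero_mem _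
  have hx0 : (x : Ff) ≠ 0 := left_ne_zero_of_mul (hxyF ▸ mul_ne_zero hπ0 he0)
  have hy0 : (y : Ff) ≠ 0 := right_ne_zero_of_mul (hxyF ▸ mul_ne_zero hπ0 he0)
  have D₁ : OnComp L O1 x y :=
    { locOn := loc1
      hOn := hOn₁
      hdesc := fun o ho h0 => by
        rcases eq_or_ne o 0 with rfl | hne
        · exact ⟨0, O1.zero_mem, by rw [mul_zero]⟩
        by_contra hcon
        have hinv : o⁻¹ ∈ O1 := by
          by_contra hn
          exact hcon (unif1 o ho hn)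
        have h1 : (⟨f o, hOn₁ o ho⟩ : c₁.O) * ⟨f o⁻¹, hOn₁ _ hinv⟩ = 1 := by
          apply Subtype.ext
          show f o * f o⁻¹ = 1
          rw [← map_mul, mul_inv_cancel₀ hne, map_one]
        have h2 := congrArg c₁.ρ h1
        rw [map_mul, h0, zero_mul, map_one] at h2
        exact zero_ne_one h2
      pi_nonunit := pi_nonunit1
      unif := unif1
      arch := arch1
      div := hdiv1
      notdvd := hnyx
      fracB := fracB
      y_ne := hy0 }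
  have D₂ : OnComp (otherLevel (c₂ := c₂) le₂ hon₂' L) O2 y x :=
    { locOn := loc2
      hOn := hOn₂
      hdesc := fun o ho h0 => by
        rcases eq_or_ne o 0 with rfl | hne
        · exact ⟨0, O2.zero_mem, by rw [mul_zero]⟩
        by_contra hcon
        have hinv : o⁻¹ ∈ O2 := by
          by_contra hn
          exact hcon (unif2 o ho hn)
        have h1 : (⟨f o, hOn₂ o ho⟩ : c₂.O) * ⟨f o⁻¹, hOn₂ _ hinv⟩ = 1 := by
          apply Subtype.ext
          show f o * f o⁻¹ = 1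
          rw [← map_mul, mul_inv_cancel₀ hne, map_one]
        have h2 := congrArg c₂.ρ h1
        rw [map_mul, h0, zero_mul, map_one] at h2
        exact zero_ne_one h2
      pi_nonunit := pi_nonunit2
      unif := unif2
      arch := arch2
      div := hdiv2
      notdvd := hnxy
      fracB := fracB
      y_ne := hx0 }
  obtain ⟨P₀, hP₀⟩ := hne
  obtain ⟨out⟩ := exists_annOut H le₂ hon₂' L N D₁ D₂
    (valueCompat₁ C B₀ hle hc χ hon₁ hv₁) (valueCompat₂ C B₀ hle hc χ hon₁ hon₂ hv₂)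
    (exists_frac D₁ G₁ hG₁ hind₁) (exists_frac D₂ G₂ hG₂ hind₂)
    ⟨P₀, mem_S_of_centred C B₀ hle hc χ hon₁ hP₀⟩
  exact ⟨out.mono fun P hP => mem_S_of_centred C B₀ hle hc χ hon₁ hP⟩

end Fermat.Agent.U44.AnnNode6
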