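/-
Programme U44 (target S44), block (TR), instance layer (helper6): **the annulus coordinate at a
two-branch point of a chart of the nodal model of `X₀(M'p)` over `A`, from one finite level with
regular nodes.**

`h : LevelHyp p M' A`, `K` a number field, `π` a uniformiser of `A ∩ K`, `Bk` a finite-level chart
over `A ∩ K` whose base change lies in the chart `C` of the model over `A`, with regular nodes of
thickness `π` (`NodeRegAt π Bk O1 O2`).

* **`exists_annOut_chart`** : for a point `χ` of `C` with branches `Q₁`, `Q₂` and a place centred at it,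
  `AnnCore6.AnnOut (c1 h) (c2 h) {P | C.Centred P χ} Q₁ Q₂ (incl A K π) (range (baseChangeHom _ K))`.
-/
import Mathlib
import Fermat.Agent.U44.AnnNode6
import Fermat.Agent.U44.AnnGen6
import Fermat.Agent.T33.PushLevel5

set_option autoImplicit false
set_option linter.unusedSectionVars false
set_option linter.style.haveILetI false
set_option linter.unusedVariables false
set_option synthInstance.maxHeartbeats 400000

noncomputable section

namespace Fermat.Agent.U44.AnnChart6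

open HahnSeries ModularCurve IntermediateField AlgebraicCurve IsLocalRing
open Fermat.Agent.RED.Interface4 Fermat.Agent.RED.PUR.GaussGen8 Fermat.Agent.RED.DESC
  Fermat.Agent.RED.DESC.PlaceExtend27 Fermat.Agent.RED.DESC.NumberFieldDVR27
  Fermat.Agent.RED.PUR.ChartGeneric22
  Fermat.Agent.ES.RED Fermat.Agent.ES.N34.FrickeFK8 Fermat.Agent.ES.N34.ModelDefs9
  Fermat.Agent.T33.NodalCtx1 Fermat.Agent.T33.NodalHalf4 Fermat.Agent.T33.NodalBase4A
  Fermat.Agent.T33.ChartOK5 Fermat.Agent.T33.PushLoc9 Fermat.Agent.T33.NodalPlaces1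
  Fermat.Agent.ES.P36.NodeRegAt10 Fermat.Agent.U44.AnnLevel6 Fermat.Agent.U44.AnnCore6
  Fermat.Agent.U44.AnnNode6

variable {p M' : ℕ} [NeZero M'] [NeZero p] {A : ValuationSubring Qbar}

/-- shortcut instance. -/
local instance (priority := high) algebraOECh (Kt : Type*) [Field Kt] (O : ValuationSubring Kt)
    (E : IntermediateField Kt (LaurentSeries Kt)) : Algebra ↥O ↥E := inferInstance

/-- shortcut instance. -/
local instance (priority := high) algebraAFbarCh : Algebra ↥A ↥(Fbar (M' * p)) := inferInstance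

/-- shortcut instance. -/
local instance (priority := high) algebraKFbCh : Algebra (Setup8.kA A) (Fb A M') := inferInstance

variable (h : LevelHyp p M' A) (K : IntermediateField ℚ Qbar)
  {π : ↥(AK A K)} (hπ : IsUnif (AK A K) π) (hE : FK (M' * p) K ≤ fracField (AK A K))
  (C : Chart (c1 h) (c2 h)) (Bk : Subalgebra ↥(AK A K) ↥(FK (M' * p) K))
  (hBC : ∀ b ∈ Bk, baseChangeHom (M' * p) K b ∈ C.B)

include hBC in
/-- the ring generated by the constants and the finite level lies in the chart. -/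
theorem B₀_le : AnnGen6.B₀ A K (M' * p) (Bk : Set ↥(FK (M' * p) K)) ≤ C.B := by
  apply Subring.closure_le.2
  rintro z (⟨a, rfl⟩ | ⟨b, hb, rfl⟩)
  · exact C.algebraMap_mem a
  · exact hBC b hb

include hπ in
/-- the finite level at a point of the chart. -/
theorem nodeLevel (χ : C.Pt) (hon : C.On₁ χ)
    (pi_ne : algebraMap ↥(AK A K) ↥(FK (M' * p) K) π ≠ 0)
    (fracB : ∀ z : ↥(FK (M' * p) K), ∃ a ∈ Bk, ∃ b ∈ Bk, b ≠ 0 ∧ z * b = a)
    (fg : ∃ T : Finset ↥(FK (M' * p) K), (∀ z ∈ T, z ∈ Bk) ∧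
      ∀ b ∈ Bk, b ∈ Algebra.adjoin ↥(AK A K) (T : Set ↥(FK (M' * p) K))) :
    NodeLevel (subPoint C (AnnGen6.B₀ A K (M' * p) (Bk : Set ↥(FK (M' * p) K)))
      (B₀_le h K C Bk hBC) (AnnGen6.const_mem_B₀ K (M' * p) _) χ hon) π Bk
      (baseChangeHom (M' * p) K) (incl A K π) where
  hfB := fun b hb => AnnGen6.map_mem_B₀ (A := A) K (M' * p) _ hb
  hgenB₀ := le_rfl
  hπ := Fermat.Agent.T33.PushLevel5.baseChangeHom_unif K π
  πA_mem := Fermat.Agent.T33.PushLevel5.incl_unif_mem K hπ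
  πA_ne := by
    intro h0
    apply pi_ne
    have h1 : π = 0 := by
      apply Subtype.ext
      have := congrArg (fun a : ↥A => (a : Qbar)) h0
      exact Subtype.ext this
    rw [h1, map_zero]
  hconst := fun r => ⟨incl A K r, ChartUnion1.baseChangeHom_algebraMap_AK A (M' * p) K r⟩
  fg := fg
  frac := AnnGen6.frac_closure (A := A) K (M' * p) _ fracB
  hsep := AnnGen6.hsep h

include hBC in
set_option maxHeartbeats 4000000 in
/-- **the annulus coordinate at a two-branch point of a chart.** -/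
theorem exists_annOut_chart
    (leO1 : ∀ x ∈ Bk, x ∈ O1 M' p hπ hE) (leO2 : ∀ x ∈ Bk, x ∈ O2 M' p hπ hE)
    (pi_ne : algebraMap ↥(AK A K) ↥(FK (M' * p) K) π ≠ 0)
    (pi_nonunit1 : (algebraMap ↥(AK A K) ↥(FK (M' * p) K) π)⁻¹ ∉ O1 M' p hπ hE)
    (pi_nonunit2 : (algebraMap ↥(AK A K) ↥(FK (M' * p) K) π)⁻¹ ∉ O2 M' p hπ hE)
    (unif1 : ∀ z ∈ O1 M' p hπ hE, z⁻¹ ∉ O1 M' p hπ hE →
      ∃ o ∈ O1 M' p hπ hE, z = algebraMap ↥(AK A K) ↥(FK (M' * p) K) π * o)
    (unif2 : ∀ z ∈ O2 M' p hπ hE, z⁻¹ ∉ O2 M' p hπ hE →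
      ∃ o ∈ O2 M' p hπ hE, z = algebraMap ↥(AK A K) ↥(FK (M' * p) K) π * o)
    (arch1 : ∀ z : ↥(FK (M' * p) K), ∃ k : ℕ,
      algebraMap ↥(AK A K) ↥(FK (M' * p) K) π ^ k * z ∈ O1 M' p hπ hE)
    (arch2 : ∀ z : ↥(FK (M' * p) K), ∃ k : ℕ,
      algebraMap ↥(AK A K) ↥(FK (M' * p) K) π ^ k * z ∈ O2 M' p hπ hE)
    (fracB : ∀ z : ↥(FK (M' * p) K), ∃ a ∈ Bk, ∃ b ∈ Bk, b ≠ 0 ∧ z * b = a)
    (fg : ∃ T : Finset ↥(FK (M' * p) K), (∀ z ∈ T, z ∈ Bk) ∧
      ∀ b ∈ Bk, b ∈ Algebra.adjoin ↥(AK A K) (T : Set ↥(FK (M' * p) K)))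
    (hreg : NodeRegAt π Bk (O1 M' p hπ hE) (O2 M' p hπ hE))
    (χ : C.Pt) {Q₁ Q₂ : Place (Setup8.kA A) (Fb A M')} (hv₁ : C.Val₁ χ Q₁) (hv₂ : C.Val₂ χ Q₂)
    (hne : ∃ P : Place Qbar ↥(Fbar (M' * p)), C.Centred P χ) :
    Nonempty (AnnOut (c1 h) (c2 h) {P | C.Centred P χ} Q₁ Q₂ ((incl A K π : ↥A) : Qbar)
      (Set.range (baseChangeHom (M' * p) K))) := by
  have H : Fermat.Agent.RR.LSpace.LHyp Qbar ↥(Fbar (M' * p)) :=
    Fermat.Agent.RR.LHypGen.lHyp_of_isGen (isGen_tA h)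
  have L := nodeLevel h K hπ C Bk hBC χ (C.on₁_of_val₁ hv₁) pi_ne fracB fg
  have hOn₁ : ∀ o ∈ O1 M' p hπ hE, baseChangeHom (M' * p) K o ∈ (c1 h).O := fun o ho =>
    mem_O1_of_level h K o ((Fermat.Agent.ES.N34.ModelDefs9.mem_O1_iff M' p hπ hE o).1 ho)
  have hOn₂ : ∀ o ∈ O2 M' p hπ hE, baseChangeHom (M' * p) K o ∈ (c2 h).O := fun o ho =>
    mem_O2_of_level h K o ((Fermat.Agent.ES.N34.ModelDefs9.mem_O2_iff M' p hπ hE o).1 ho)
  exact exists_annOut_of_reg C (AnnGen6.B₀ A K (M' * p) (Bk : Set ↥(FK (M' * p) K)))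
    (B₀_le h K C Bk hBC) (AnnGen6.const_mem_B₀ K (M' * p) _) χ H hv₁ hv₂ hne L
    (Fermat.Agent.ES.RED.LevelMax17.ker_isMaximal h.prime A h.liesOver _)
    (O1 M' p hπ hE) (O2 M' p hπ hE) hOn₁ hOn₂ pi_nonunit1 pi_nonunit2 unif1 unif2 arch1 arch2
    fracB hreg (AnnGen6.G A M') (AnnGen6.gen₁ h K hπ hE hOn₁)
    (fun P => AnnGen6.fb_induction P) (AnnGen6.G A M') (AnnGen6.gen₂ h K hπ hE hOn₂)
    (fun P => AnnGen6.fb_induction P)

end Fermat.Agent.U44.AnnChart6
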