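/-
Programme U44 (target S44), block (TR), instance layer (helper6): **one inertial finite level of
`X₀(M'p)` with regular nodes of thickness `p`.**

For `h : LevelHyp p M' A` there is a finite number field `K ⊂ ℚ̄`, fixed pointwise by the inertia
group of `A` (so that `p` itself is a uniformiser of `A ∩ K`), containing `ζ_{M'}`, at which
* the two charts `B0 A p ht`, `B1 A p ht` of level `M'p` satisfy Program N's MODEL bundle
  (`NumData13.NodalNumData`, from `ModelInert4.nodalNumData_four_inertial`);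
* the two-branch closed points are REGULAR NODES OF THICKNESS `p`
  (`NodeRegAt10.NodeRegAt`, from `EisFinal4.nodeRegItems_four` / `RegDone21.twoGenItems_four`);
* the charts are finitely generated algebras over `A ∩ K` (`fg0`, `fg1`).
-/
import Mathlib
import Fermat.Agent.T33.NodalHalf4
import Fermat.Agent.ES.P36.EisFinal4
import Fermat.Agent.ES.P36.RegDone21
import Fermat.Agent.ES.P36.RegNode21
import Fermat.Agent.ES.P36.ZetaUnr26
import Fermat.Agent.ES.P36.UnrFixed1
import Fermat.Agent.ES.P36.RegGauss21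
import Fermat.Agent.ES.P36.TypeTwoLeaves13
import Fermat.Agent.T33.FrickeRed3B

set_option autoImplicit false
set_option linter.unusedSectionVars false
set_option linter.style.haveILetI false
set_option synthInstance.maxHeartbeats 400000

noncomputable section

namespace Fermat.Agent.U44.AnnField6

open HahnSeries ModularCurve IntermediateField Polynomial
open Fermat.Agent.RED.Interface4 Fermat.Agent.RED.PUR.GaussGen8 Fermat.Agent.RED.PUR.KtGauss8
  Fermat.Agent.RED.PUR.ChartGeneric22 Fermat.Agent.RED.BASE.EtaQuot12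
  Fermat.Agent.RED.ModelTargets4 Fermat.Agent.RED.BASE
  Fermat.Agent.ES.N34.ModelDefs9 Fermat.Agent.ES.N34.NumData13
  Fermat.Agent.ES.P36.InertField27 Fermat.Agent.ES.P36.NodeRegAt10
  Fermat.Agent.T33.NodalHalf4 Fermat.Agent.X0

variable {p M' : ℕ} [NeZero M'] [NeZero p] {A : ValuationSubring Qbar}

/-- generators of an algebra from generators over `R[t]`. -/
theorem fg_of_generators {R E : Type*} [CommRing R] [Field E] [Algebra R E] (B : Subalgebra R E)
    {t : E} (ht : t ∈ B)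
    (hgen : ∃ (r : ℕ) (e : Fin r → E), (∀ i, e i ∈ B) ∧
      ∀ x ∈ B, ∃ P : Fin r → R[X], x = ∑ i, aeval t (P i) * e i) :
    ∃ T : Finset E, (∀ z ∈ T, z ∈ B) ∧ ∀ b ∈ B, b ∈ Algebra.adjoin R (T : Set E) := by
  classical
  obtain ⟨r, e, he, hx⟩ := hgen
  refine ⟨insert t (Finset.univ.image e), ?_, ?_⟩
  · intro z hz
    rcases Finset.mem_insert.1 hz with rfl | hz
    · exact ht
    · obtain ⟨i, -, rfl⟩ := Finset.mem_image.1 hz
      exact he i
  · intro b hb
    obtain ⟨P, rfl⟩ := hx b hb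
    have htT : t ∈ Algebra.adjoin R ((insert t (Finset.univ.image e) : Finset E) : Set E) :=
      Algebra.subset_adjoin (by simp)
    refine Subalgebra.sum_mem _ fun i _ => Subalgebra.mul_mem _ ?_ ?_
    · rw [← Subalgebra.mem_toSubmodule]
      have : aeval t (P i) ∈ Algebra.adjoin R {t} := by
        rw [Algebra.adjoin_singleton_eq_range_aeval]
        exact ⟨P i, rfl⟩
      exact (Algebra.adjoin_le (Set.singleton_subset_iff.2 htT)) this
    · exact Algebra.subset_adjoin (by simp)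

set_option maxHeartbeats 4000000 in
/-- **one inertial finite level with regular nodes of thickness `p`.** -/
theorem exists_level (h : LevelHyp p M' A) :
    ∃ (K : IntermediateField ℚ Qbar) (_ : FiniteDimensional ℚ K) (_ : InertFixed A K)
      (ht : tq (↥K) 4 8 ∈ FK M' K) (hE : FK (M' * p) K ≤ fracField (AK A K))
      (hπ : IsUnif (AK A K) ((p : ℕ) : ↥(AK A K))),
      NodalNumData ↥(AK A K) ↥K ↥(FK (M' * p) K) ((p : ℕ) : ↥(AK A K)) (tN p ht) (B0 A p ht)
        (B1 A p ht) (O1 M' p hπ hE) (O2 M' p hπ hE) ∧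
      NodeRegAt ((p : ℕ) : ↥(AK A K)) (B0 A p ht) (O1 M' p hπ hE) (O2 M' p hπ hE) ∧
      NodeRegAt ((p : ℕ) : ↥(AK A K)) (B1 A p ht) (O1 M' p hπ hE) (O2 M' p hπ hE) ∧
      (∃ T : Finset ↥(FK (M' * p) K), (∀ z ∈ T, z ∈ B0 A p ht) ∧
        ∀ b ∈ B0 A p ht, b ∈ Algebra.adjoin ↥(AK A K) (T : Set ↥(FK (M' * p) K))) ∧
      (∃ T : Finset ↥(FK (M' * p) K), (∀ z ∈ T, z ∈ B1 A p ht) ∧
        ∀ b ∈ B1 A p ht, b ∈ Algebra.adjoin ↥(AK A K) (T : Set ↥(FK (M' * p) K))) := by
  have hq := h.prime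
  have hA := h.liesOver
  obtain ⟨K₀, hK₀fd, hζ₀, hK₀fix, -⟩ :=
    Fermat.Agent.ES.P36.ZetaUnr26.exists_zeta_field_unr hq hA M' h.not_dvd
  haveI := hK₀fd
  obtain ⟨K, hKfd, hK₀K, hKin⟩ := exists_isInertial_ge (A := A) K₀ hK₀fix
  haveI := hKfd
  have hζ : zetaK M' ∈ K := hK₀K hζ₀
  obtain ⟨ht, hE, hD⟩ :=
    Fermat.Agent.ES.P36.ModelInert4.nodalNumData_four_inertial hq h.ne_two h.not_dvd h.four_dvd hA
      hKin hζ
  have hπ : IsUnif (AK A K) ((p : ℕ) : ↥(AK A K)) :=
    Fermat.Agent.ES.P36.UnrFixed1.isUnif_natCast A hq hA K hKin.1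
  have hreg : NodeRegItems 4 8 p M' A K :=
    Fermat.Agent.ES.P36.EisFinal4.nodeRegItems_four hq h.ne_two h.not_dvd h.four_dvd hA hKin hζ
      (Fermat.Agent.ES.P36.RegNode21.twoGenItems10_of
        (Fermat.Agent.ES.P36.RegDone21.twoGenItems_four hq h.ne_two h.not_dvd h.four_dvd hA hζ
          (Fermat.Agent.ES.P36.ModelInert4.frobInvAt_of_isInertial hKin hq hA) hKin.1))
  obtain ⟨hreg0, hreg1⟩ := hreg ht hE _ hπ
  have D := hD _ hπ
  -- finite generation of the two charts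
  haveI hdvr : IsDiscreteValuationRing ↥(AK A K) :=
    Fermat.Agent.RED.DESC.NumberFieldDVR27.isDiscreteValuationRing_AK A K hq.ne_zero hA
  obtain ⟨ϖ, hϖ⟩ := IsDiscreteValuationRing.exists_irreducible ↥(AK A K)
  have htq : ((tN p ht : ↥(FK (M' * p) K)) : LaurentSeries K) = tq (↥K) 4 8 := coe_tN p ht
  have htG : ((tN p ht : ↥(FK (M' * p) K)) : LaurentSeries K) ∈ gaussRing (AK A K) := by
    rw [htq]; exact tq_mem_gaussRing (AK A K) 4 8
  have h1 : (⟨((tN p ht : ↥(FK (M' * p) K)) : LaurentSeries K), htG⟩ :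
      ↥(gaussRing (AK A K))) = ⟨tq (↥K) 4 8, tq_mem_gaussRing (AK A K) 4 8⟩ := Subtype.ext htq
  have htr : Transcendental (Res (AK A K))
      (gaussRed (AK A K) ⟨((tN p ht : ↥(FK (M' * p) K)) : LaurentSeries K), htG⟩) := by
    rw [h1]
    exact transcendental_gaussRed_tq (AK A K) 4 8
  have hjt : jqModC K ∈
      Kt (AK A K) ⟨((tN p ht : ↥(FK (M' * p) K)) : LaurentSeries K), htG⟩ := by
    rw [h1]
    exact Fermat.Agent.ES.P36.CoeffField4.j_mem_adjoin 4 8 Fermat.Agent.T33.FrickeRed3.tGenBase4 K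
  have hNZ : NeZero (M' * p) := ⟨Nat.mul_ne_zero (NeZero.ne M') (NeZero.ne p)⟩
  have hn := Fermat.Agent.RED.ModelMain4.relfinrank_ne_zero (AK A K) (M' * p) _ (tN p ht).2 hjt
  have g0 := Fermat.Agent.ES.P36.RegGauss21.chart_generators_gauss hϖ (tN p ht) htG htr hn
  have g1 := Fermat.Agent.ES.P36.TypeTwoLeaves13.chart_generators_inv_gauss hϖ (tN p ht) htG htr hn
  exact ⟨K, hKfd, hKin.1, ht, hE, hπ, D, hreg0, hreg1,
    fg_of_generators (B0 A p ht) D.model.t_mem g0,
    fg_of_generators (B1 A p ht) D.model.tinv_mem g1⟩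

end Fermat.Agent.U44.AnnField6
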