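/-
Programme U44 (S44), stage 0, block (TR)/instance, SmoothCoord existence, file 2 (helper1):
**(S2) at the good level `M` over `A`, with a lift RATIONAL OVER AN INERTIAL NUMBER FIELD.**

`A ≤ ℚ̄` over `q ∤ M`, `k = ResidueField A`, `F̃ = modularFunctionFieldFullC k M`, `t = tF M hmem` the
Hauptmodul, `t̃ = tq k n e`.  Every `y ∈ F̃` integral over `k[t̃]` (resp. `k[t̃⁻¹]`) is the
coefficientwise reduction of `baseChangeHom M K b` with `K` a finite INERTIAL number field
(`InertField27.IsInertial A K`) and `b ∈ chart (A ∩ K) t_K` (resp. `t_K⁻¹`); in particular the lift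
lies in `chart ↥A t` (resp. `t⁻¹`) and is FIXED by the inertia group of `A`
(`gal_smul_baseChangeHom`).

Same proof as `FF/ChartInst7B.exists_red_eq_of_isIntegral`; the level `K` is produced by
`InertDescent1.exists_inertial_descent` and the smooth charts at `K` come from Program P's
`ES/P36/LevelMAt4.levelItems_at` (valid at EVERY number field containing `ζ_M`).
-/
import Mathlib
import Fermat.Agent.U44.InertDescent1
import Fermat.Agent.FF.ChartInst7B
import Fermat.Agent.ES.P36.LevelMAt4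
import Fermat.Agent.T33.Psi3C

set_option autoImplicit false
set_option linter.unusedSectionVars false
set_option linter.style.haveILetI false
set_option synthInstance.maxHeartbeats 400000

noncomputable section

namespace Fermat.Agent.U44.InertLift1

open Polynomial HahnSeries ModularCurve IntermediateField
open scoped MatrixGroups

open Fermat.Agent.RED.Interface4 Fermat.Agent.RED.DESC Fermat.Agent.RED.DESC.NumberFieldDVR27
open Fermat.Agent.RED.DESC.PlaceExtend27
open Fermat.Agent.RED.PUR.GaussGen8 Fermat.Agent.RED.PUR.KtGauss8 Fermat.Agent.RED.PUR.G1Package8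
  Fermat.Agent.RED.PUR.GaussBridge10 Fermat.Agent.RED.PUR.ChartGeneric22
  Fermat.Agent.ES.RED.FibreSurj17
open Fermat.Agent.RED.BASE.EtaQuot12 Fermat.Agent.RED.BASE.Interface12
  Fermat.Agent.RED.BASE.Hauptmodul12
open Fermat.Agent.RED.ModelIface4 Fermat.Agent.RED.ModelTargets4 Fermat.Agent.RED.ModelAsm4
open Fermat.Agent.X0 Fermat.Agent.ES.RED Fermat.Agent.FF.ChartInst7
open Fermat.Agent.ES.P36.InertField27 Fermat.Agent.ES.N34.LevelM20 Fermat.Agent.ES.N34.ModelDefs9
  Fermat.Agent.U44.InertDescent1 Fermat.Agent.T33.Psi3C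

variable (A : ValuationSubring Qbar) {M : ℕ} [NeZero M]

/-- **a function rational over a field fixed by inertia is fixed by inertia.** -/
theorem gal_smul_baseChangeHom {K : IntermediateField ℚ Qbar} (hK : InertFixed A K)
    {τ : Qbar ≃ₐ[ℚ] Qbar} (hτ : τ ∈ A.inertiaSubgroupIn ℚ) (x : ↥(FK M K)) :
    gal M τ • baseChangeHom M K x = baseChangeHom M K x := by
  apply Subtype.ext
  rw [coe_gal_smul, coe_baseChangeHom, coeffMap_coeffMap]
  refine coeffMap_congr (RingHom.ext fun c => ?_) _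
  exact hK τ hτ (c : Qbar) c.2

variable {n e : ℕ} [NeZero n]

/-- **(S2) at the level of `A`, chart `t`, with an inertial lift.** -/
theorem exists_inertial_lift (hb : BaseHyp n e) (hnM : n ∣ M) {q : ℕ} (hq : q.Prime)
    (hqM : ¬ q ∣ M) (hA : A.LiesOverPrime q) (cv : SL(2, ℤ) → Option Kbar)
    (hcv : Fermat.Agent.RED.BASE.MainCusp12.CuspExports n e M cv) (hmem : TMem n e M)
    {y : LaurentSeries (IsLocalRing.ResidueField ↥A)}
    (hy : y ∈ modularFunctionFieldFullC (IsLocalRing.ResidueField ↥A) M)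
    (hint : IsIntegral ↥(Algebra.adjoin (IsLocalRing.ResidueField ↥A)
      {tq (IsLocalRing.ResidueField ↥A) n e}) y) :
    ∃ (K : IntermediateField ℚ Qbar) (_ : FiniteDimensional ℚ K) (_ : IsInertial A K)
      (b : ↥(FK M K)) (Y : LaurentSeries ↥A),
      baseChangeHom M K b ∈ chart ↥A (tF M hmem) ∧
      coeffMap A.subtype Y = ((baseChangeHom M K b : ↥(Fbar M)) : LaurentSeries Qbar) ∧
      coeffMap (IsLocalRing.residue ↥A) Y = y := by
  haveI : Fact q.Prime := ⟨hq⟩
  obtain ⟨K₀, hK₀fd, hζ₀, hK₀fix, -⟩ :=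
    Fermat.Agent.ES.P36.ZetaUnr26.exists_zeta_field_unr hq hA M hqM
  haveI := hK₀fd
  obtain ⟨K, hKfd, hK₀K, hKin, y₀, hy₀, rfl⟩ :=
    exists_inertial_descent hq hA M K₀ hK₀fix hy
  haveI := hKfd
  have hζ : zetaK M ∈ K := hK₀K hζ₀
  obtain ⟨ht, -, hL⟩ := Fermat.Agent.ES.P36.LevelMAt4.levelItems_at hb hnM hq hqM hA cv hcv hζ
  haveI hdvr : IsDiscreteValuationRing ↥(AK A K) :=
    isDiscreteValuationRing_AK A K hq.ne_zero hA
  obtain ⟨ϖ, hϖ⟩ := IsDiscreteValuationRing.exists_irreducible ↥(AK A K)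
  obtain ⟨L0, -⟩ := hL ϖ hϖ
  obtain ⟨m, hdeg, hirr⟩ := L0.deg_irr
  set t : ↥(FK M K) := tM ht with htdef
  have htq : (t : LaurentSeries K) = tq K n e := rfl
  have hE : FK M K ≤ fracField (AK A K) := L0.hEM
  have hsT : ∃ T : LaurentSeries ↥(AK A K), embK (AK A K) T = (t : LaurentSeries K) :=
    ⟨tq ↥(AK A K) n e, by rw [htq]; exact coeffMap_tq ↥(AK A K) (AK A K).subtype n e⟩
  have hbc : baseChangeHom M K t = tF M hmem :=
    Fermat.Agent.RED.CUSP.RankConcrete16.baseChangeHom_eq_tF M K hmem t htq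
  have hres : y₀ ∈ resField (AK A K) (FK M K) := by
    rw [GaussUnit25.resField_FK_eq A K q hA M hqM]
    exact hy₀
  have hred_t : gaussRed (AK A K) ⟨(t : LaurentSeries K), L0.htM⟩ = tq (Res (AK A K)) n e := by
    have h2 : (⟨(t : LaurentSeries K), L0.htM⟩ : gaussRing (AK A K)) =
        ⟨tq K n e, tq_mem_gaussRing (AK A K) n e⟩ := Subtype.ext htq
    rw [h2, gaussRed_tq]
  have hint₀ : IsIntegral ↥(Algebra.adjoin (Res (AK A K))
      {gaussRed (AK A K) ⟨(t : LaurentSeries K), L0.htM⟩}) y₀ := by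
    rw [hred_t]
    apply isIntegral_descent (κ := Res (AK A K)) (k := IsLocalRing.ResidueField ↥A)
      (coeffMap (resMap A K)) (isIntegral_int_residue A q hA)
    rw [coeffMap_tq]
    exact hint
  obtain ⟨b, hb'⟩ := exists_chartRed_eq hϖ hE t L0.htM L0.htrM L0.hn' hdeg hirr L0.hsm hres hint₀
  obtain ⟨Y₀, hY₀⟩ := IntegralQExp1.exists_embK_of_mem_chart (AK A K) (FK M K) hE hsT b.2
  have h1 : coeffMap A.subtype (coeffMap (incl A K) Y₀) =
      ((baseChangeHom M K (b : ↥(FK M K)) : ↥(Fbar M)) : LaurentSeries Qbar) := by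
    rw [GaussUnit25.coeffMap_subtype_incl, hY₀, coe_baseChangeHom]
  refine ⟨K, hKfd, hKin, (b : ↥(FK M K)), coeffMap (incl A K) Y₀, ?_, h1, ?_⟩
  · rw [← hbc]
    exact ChartUnion1.baseChangeHom_mem_chart A M K t b b.2
  · rw [GaussUnit25.coeffMap_residue_incl, ← hb']
    congr 1
    have h3 : chartRed hϖ hE t L0.htM b =
        gaussRed (AK A K) ⟨embK (AK A K) Y₀, embK_mem (AK A K) Y₀⟩ := by
      rw [chartRed_apply]
      congr 1
      exact Subtype.ext hY₀.symm
    rw [h3, gaussRed_embK]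

/-- **(S2) at the level of `A`, chart `t⁻¹`, with an inertial lift.** -/
theorem exists_inertial_lift_inv (hb : BaseHyp n e) (hnM : n ∣ M) {q : ℕ} (hq : q.Prime)
    (hqM : ¬ q ∣ M) (hA : A.LiesOverPrime q) (cv : SL(2, ℤ) → Option Kbar)
    (hcv : Fermat.Agent.RED.BASE.MainCusp12.CuspExports n e M cv) (hmem : TMem n e M)
    {y : LaurentSeries (IsLocalRing.ResidueField ↥A)}
    (hy : y ∈ modularFunctionFieldFullC (IsLocalRing.ResidueField ↥A) M)
    (hint : IsIntegral ↥(Algebra.adjoin (IsLocalRing.ResidueField ↥A)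
      {(tq (IsLocalRing.ResidueField ↥A) n e)⁻¹}) y) :
    ∃ (K : IntermediateField ℚ Qbar) (_ : FiniteDimensional ℚ K) (_ : IsInertial A K)
      (b : ↥(FK M K)) (Y : LaurentSeries ↥A),
      baseChangeHom M K b ∈ chart ↥A (tF M hmem)⁻¹ ∧
      coeffMap A.subtype Y = ((baseChangeHom M K b : ↥(Fbar M)) : LaurentSeries Qbar) ∧
      coeffMap (IsLocalRing.residue ↥A) Y = y := by
  haveI : Fact q.Prime := ⟨hq⟩
  obtain ⟨K₀, hK₀fd, hζ₀, hK₀fix, -⟩ :=
    Fermat.Agent.ES.P36.ZetaUnr26.exists_zeta_field_unr hq hA M hqM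
  haveI := hK₀fd
  obtain ⟨K, hKfd, hK₀K, hKin, y₀, hy₀, rfl⟩ :=
    exists_inertial_descent hq hA M K₀ hK₀fix hy
  haveI := hKfd
  have hζ : zetaK M ∈ K := hK₀K hζ₀
  obtain ⟨ht, -, hL⟩ := Fermat.Agent.ES.P36.LevelMAt4.levelItems_at hb hnM hq hqM hA cv hcv hζ
  haveI hdvr : IsDiscreteValuationRing ↥(AK A K) :=
    isDiscreteValuationRing_AK A K hq.ne_zero hA
  obtain ⟨ϖ, hϖ⟩ := IsDiscreteValuationRing.exists_irreducible ↥(AK A K)
  obtain ⟨L0, L1⟩ := hL ϖ hϖ
  obtain ⟨m, hdeg, hirr⟩ := L0.deg_irr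
  set t : ↥(FK M K) := tM ht with htdef
  have htq : (t : LaurentSeries K) = tq K n e := rfl
  have hE : FK M K ≤ fracField (AK A K) := L0.hEM
  have hsT : ∃ T : LaurentSeries ↥(AK A K),
      embK (AK A K) T = ((t⁻¹ : ↥(FK M K)) : LaurentSeries K) := by
    obtain ⟨T, hT⟩ := FracRed16.exists_tq_mul_eq_one ↥(AK A K) n e
    refine ⟨T, ?_⟩
    have h1 : tq K n e * embK (AK A K) T = 1 := by
      have := congrArg (embK (AK A K)) hT
      rw [map_mul, map_one] at this
      rw [← this]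
      congr 1
      exact (coeffMap_tq ↥(AK A K) (AK A K).subtype n e).symm
    show embK (AK A K) T = ((t : LaurentSeries K))⁻¹
    rw [htq]
    exact eq_inv_of_mul_eq_one_right h1
  have hbc : baseChangeHom M K t⁻¹ = (tF M hmem)⁻¹ := by
    rw [map_inv₀, Fermat.Agent.RED.CUSP.RankConcrete16.baseChangeHom_eq_tF M K hmem t htq]
  have hres : y₀ ∈ resField (AK A K) (FK M K) := by
    rw [GaussUnit25.resField_FK_eq A K q hA M hqM]
    exact hy₀
  have hred_t : gaussRed (AK A K) ⟨(t : LaurentSeries K), L0.htM⟩ = tq (Res (AK A K)) n e := by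
    have h2 : (⟨(t : LaurentSeries K), L0.htM⟩ : gaussRing (AK A K)) =
        ⟨tq K n e, tq_mem_gaussRing (AK A K) n e⟩ := Subtype.ext htq
    rw [h2, gaussRed_tq]
  have hint₀ : IsIntegral ↥(Algebra.adjoin (Res (AK A K))
      {(gaussRed (AK A K) ⟨(t : LaurentSeries K), L0.htM⟩)⁻¹}) y₀ := by
    rw [hred_t]
    apply isIntegral_descent (κ := Res (AK A K)) (k := IsLocalRing.ResidueField ↥A)
      (coeffMap (resMap A K)) (isIntegral_int_residue A q hA)
    rw [map_inv₀, coeffMap_tq]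
    exact hint
  obtain ⟨b, hb'⟩ :=
    exists_chartRed_inv_eq hϖ hE t L0.htM L0.htrM L0.hn' hdeg hirr L1.hsm hres hint₀
  obtain ⟨Y₀, hY₀⟩ := IntegralQExp1.exists_embK_of_mem_chart (AK A K) (FK M K) hE hsT b.2
  have h1 : coeffMap A.subtype (coeffMap (incl A K) Y₀) =
      ((baseChangeHom M K (b : ↥(FK M K)) : ↥(Fbar M)) : LaurentSeries Qbar) := by
    rw [GaussUnit25.coeffMap_subtype_incl, hY₀, coe_baseChangeHom]
  refine ⟨K, hKfd, hKin, (b : ↥(FK M K)), coeffMap (incl A K) Y₀, ?_, h1, ?_⟩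
  · rw [← hbc]
    exact ChartUnion1.baseChangeHom_mem_chart A M K t⁻¹ b b.2
  · rw [GaussUnit25.coeffMap_residue_incl, ← hb']
    congr 1
    have h3 : chartRed hϖ hE t⁻¹ (tinv_mem_gaussRing t L0.htM L0.htrM) b =
        gaussRed (AK A K) ⟨embK (AK A K) Y₀, embK_mem (AK A K) Y₀⟩ := by
      rw [chartRed_apply]
      congr 1
      exact Subtype.ext hY₀.symm
    rw [h3, gaussRed_embK]

end Fermat.Agent.U44.InertLift1
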