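/-
Programme U44 (target S44), block (TR), instance layer (helper6): **THE ANNULUS COORDINATES AT THE
NODES OF `X₀(M'p)` OVER `A`** — `Annulus3.AnnCoord (NodalInst4G.nodalRed h) k` for every node `k`,
with thickness `ϖ = p`, rational over a field fixed by inertia.

* `exists_out h k` : the data `AnnCore6.AnnOut` at the node `k`, over a number field `K` fixed by the
  inertia group of `A`, with `ϖ = p`;
* **`annCoord h k : AnnCoord (nodalRed h) k`**;
* `annCoord_ϖ : (annCoord h k).ϖ = p`, `annCoord_ord_y₂ : ord_{s2 k} (red (c2 h) y₂) = -1`,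
  `annCoord_gal_smul_zp : gal (M'p) σ • zp = zp` for `σ` in the inertia group,
  `annCoord_smul_ϖ`, `annCoord_ϖ_unit` (the hypotheses `hXzp`, `hXϖ`, `hϖ` of
  `TRInstB3.tr_inst_of_ann`).
-/
import Mathlib
import Fermat.Agent.U44.AnnChart6
import Fermat.Agent.U44.AnnField6
import Fermat.Agent.U44.InertLift1
import Fermat.Agent.U44.Annulus3
import Fermat.Agent.T33.NodalInst4G

set_option autoImplicit false
set_option linter.unusedSectionVars false
set_option linter.style.haveILetI false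
set_option linter.unusedVariables false
set_option synthInstance.maxHeartbeats 400000

noncomputable section

namespace Fermat.Agent.U44.AnnInst6

open HahnSeries ModularCurve IntermediateField AlgebraicCurve IsLocalRing
open Fermat.Agent.RED.Interface4 Fermat.Agent.RED.PUR.GaussGen8 Fermat.Agent.RED.DESC
  Fermat.Agent.RED.DESC.PlaceExtend27 Fermat.Agent.RED.DESC.NumberFieldDVR27
  Fermat.Agent.RED.PUR.ChartGeneric22 Fermat.Agent.RED.BASE.EtaQuot12
  Fermat.Agent.ES.RED Fermat.Agent.ES.N34.ModelDefs9 Fermat.Agent.ES.N34.NumData13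
  Fermat.Agent.ES.P36.InertField27 Fermat.Agent.ES.P36.NodeRegAt10
  Fermat.Agent.T33.NodalCtx1 Fermat.Agent.T33.NodalCurve6 Fermat.Agent.T33.NodalHalf4
  Fermat.Agent.T33.NodalBase4A Fermat.Agent.T33.NodalPlaces1
  Fermat.Agent.T33.Psi3C Fermat.Agent.FF.InertiaWire8
  Fermat.Agent.U44.GaussRed3 Fermat.Agent.U44.Annulus3 Fermat.Agent.U44.AnnCore6

open Fermat.Agent.T33.NodalInst4E (Nd Node T mem_C0_iff mem_C1_iff)

open Fermat.Agent.T33.NodalInst4G (nodalRed)

variable {p M' : ℕ} [NeZero M'] [NeZero p] {A : ValuationSubring Qbar}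

/-- shortcut instance. -/
local instance (priority := high) algebraOEIn (Kt : Type*) [Field Kt] (O : ValuationSubring Kt)
    (E : IntermediateField Kt (LaurentSeries Kt)) : Algebra ↥O ↥E := inferInstance

/-- shortcut instance. -/
local instance (priority := high) algebraAFbarIn : Algebra ↥A ↥(Fbar (M' * p)) := inferInstance

/-- shortcut instance. -/
local instance (priority := high) algebraKFbIn : Algebra (Setup8.kA A) (Fb A M') := inferInstance

variable (h : LevelHyp p M' A)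

theorem coe_incl_natCast (K : IntermediateField ℚ Qbar) :
    ((incl A K ((p : ℕ) : ↥(AK A K)) : ↥A) : Qbar) = ((p : ℕ) : Qbar) := by
  rw [map_natCast]
  rfl

/-! ### the two charts -/

set_option maxHeartbeats 4000000 in
/-- the annulus data at a two-branch point of the chart `0`. -/
theorem exists_out_zero (K : IntermediateField ℚ Qbar) (ht : tq (↥K) 4 8 ∈ FK M' K)
    (hE : FK (M' * p) K ≤ fracField (AK A K))
    (hπ : IsUnif (AK A K) ((p : ℕ) : ↥(AK A K)))
    (D : NodalNumData ↥(AK A K) ↥K ↥(FK (M' * p) K) ((p : ℕ) : ↥(AK A K)) (tN p ht) (B0 A p ht)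
      (B1 A p ht) (O1 M' p hπ hE) (O2 M' p hπ hE))
    (hreg : NodeRegAt ((p : ℕ) : ↥(AK A K)) (B0 A p ht) (O1 M' p hπ hE) (O2 M' p hπ hE))
    (fg : ∃ T : Finset ↥(FK (M' * p) K), (∀ z ∈ T, z ∈ B0 A p ht) ∧
      ∀ b ∈ B0 A p ht, b ∈ Algebra.adjoin ↥(AK A K) (T : Set ↥(FK (M' * p) K)))
    (χ : (T h).C0.Pt) {Q₁ Q₂ : Place (Setup8.kA A) (Fb A M')} (hv₁ : (T h).C0.Val₁ χ Q₁)
    (hv₂ : (T h).C0.Val₂ χ Q₂)
    (hne : ∃ P : Place Qbar ↥(Fbar (M' * p)), (T h).C0.Centred P χ) :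
    Nonempty (AnnOut (c1 h) (c2 h) {P | (T h).C0.Centred P χ} Q₁ Q₂ ((p : ℕ) : Qbar)
      (Set.range (baseChangeHom (M' * p) K))) := by
  rw [← coe_incl_natCast (A := A) K]
  refine Fermat.Agent.U44.AnnChart6.exists_annOut_chart h K hπ hE (T h).C0 (B0 A p ht) ?_
    D.model.le_O1_0 D.model.le_O2_0 D.model.pi_ne D.model.pi_nonunit1 D.model.pi_nonunit2
    D.model.unif1 D.model.unif2 D.model.arch1 D.model.arch2 D.frac0 fg hreg χ hv₁ hv₂ hne
  intro b hb
  rw [mem_C0_iff]
  have := ChartUnion1.baseChangeHom_mem_chart A (M' * p) K (tN p ht) b hb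
  rwa [baseChangeHom_tN h ht] at this

set_option maxHeartbeats 4000000 in
/-- the annulus data at a two-branch point of the chart `1`. -/
theorem exists_out_one (K : IntermediateField ℚ Qbar) (ht : tq (↥K) 4 8 ∈ FK M' K)
    (hE : FK (M' * p) K ≤ fracField (AK A K))
    (hπ : IsUnif (AK A K) ((p : ℕ) : ↥(AK A K)))
    (D : NodalNumData ↥(AK A K) ↥K ↥(FK (M' * p) K) ((p : ℕ) : ↥(AK A K)) (tN p ht) (B0 A p ht)
      (B1 A p ht) (O1 M' p hπ hE) (O2 M' p hπ hE))
    (hreg : NodeRegAt ((p : ℕ) : ↥(AK A K)) (B1 A p ht) (O1 M' p hπ hE) (O2 M' p hπ hE))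
    (fg : ∃ T : Finset ↥(FK (M' * p) K), (∀ z ∈ T, z ∈ B1 A p ht) ∧
      ∀ b ∈ B1 A p ht, b ∈ Algebra.adjoin ↥(AK A K) (T : Set ↥(FK (M' * p) K)))
    (χ : (T h).C1.Pt) {Q₁ Q₂ : Place (Setup8.kA A) (Fb A M')} (hv₁ : (T h).C1.Val₁ χ Q₁)
    (hv₂ : (T h).C1.Val₂ χ Q₂)
    (hne : ∃ P : Place Qbar ↥(Fbar (M' * p)), (T h).C1.Centred P χ) :
    Nonempty (AnnOut (c1 h) (c2 h) {P | (T h).C1.Centred P χ} Q₁ Q₂ ((p : ℕ) : Qbar)
      (Set.range (baseChangeHom (M' * p) K))) := by
  rw [← coe_incl_natCast (A := A) K]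
  refine Fermat.Agent.U44.AnnChart6.exists_annOut_chart h K hπ hE (T h).C1 (B1 A p ht) ?_
    D.model.le_O1_1 D.model.le_O2_1 D.model.pi_ne D.model.pi_nonunit1 D.model.pi_nonunit2
    D.model.unif1 D.model.unif2 D.model.arch1 D.model.arch2 D.frac1 fg hreg χ hv₁ hv₂ hne
  intro b hb
  rw [mem_C1_iff]
  have := ChartUnion1.baseChangeHom_mem_chart A (M' * p) K (tN p ht)⁻¹ b hb
  rwa [map_inv₀, baseChangeHom_tN h ht] at this

/-! ### the nodes -/

set_option maxHeartbeats 4000000 in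
/-- **the annulus data at the node `k`**, over a field fixed by inertia, with `ϖ = p`. -/
theorem exists_out (k : Node h) :
    ∃ K : IntermediateField ℚ Qbar, InertFixed A K ∧
      Nonempty (AnnOut (c1 h) (c2 h) {P | (nodalRed h).RedToNode P k} ((Nd h).s1 k)
        ((Nd h).s2 k) ((p : ℕ) : Qbar) (Set.range (baseChangeHom (M' * p) K))) := by
  obtain ⟨K, hKfd, hK, ht, hE, hπ, D, hreg0, hreg1, fg0, fg1⟩ :=
    Fermat.Agent.U44.AnnField6.exists_level h
  refine ⟨K, hK, ?_⟩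
  obtain ⟨⟨Q₁, Q₂⟩, P₀, h1, h2⟩ := k
  have h1' : (T h).Red₁ P₀ Q₁ := ((T h).r₁_eq_some_iff P₀ Q₁).1 h1
  have h2' : (T h).Red₂ P₀ Q₂ := ((T h).r₂_eq_some_iff P₀ Q₂).1 h2
  by_cases hfin : (T h).Fin0 P₀
  · obtain ⟨χ, hχ⟩ := (T h).centred₀ P₀ hfin
    have hv₁ := ((T h).red₁_iff₀ hfin hχ Q₁).1 h1'
    have hv₂ := ((T h).red₂_iff₀ hfin hχ Q₂).1 h2'
    obtain ⟨out⟩ := exists_out_zero h K ht hE hπ D hreg0 fg0 χ hv₁ hv₂ ⟨P₀, hχ⟩
    refine ⟨out.mono ?_⟩
    intro P hP
    exact (((T h).r₁_eq_some_iff₀ hv₁ P).1 hP).2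
  · obtain ⟨χ, hχ, hs⟩ := (T h).centred₁' P₀ hfin
    have hv₁ := ((T h).red₁_iff₁ hfin hχ hs Q₁).1 h1'
    have hv₂ := ((T h).red₂_iff₁ hfin hχ hs Q₂).1 h2'
    obtain ⟨out⟩ := exists_out_one h K ht hE hπ D hreg1 fg1 χ hv₁ hv₂ ⟨P₀, hχ⟩
    refine ⟨out.mono ?_⟩
    intro P hP
    exact (((T h).r₁_eq_some_iff₁ hs hv₁ P).1 hP).2

/-- the field of definition of the annulus coordinate at `k`. -/
def annField (k : Node h) : IntermediateField ℚ Qbar := (exists_out h k).choose

theorem annField_inertFixed (k : Node h) : InertFixed A (annField h k) :=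
  (exists_out h k).choose_spec.1

/-- the annulus data at `k`. -/
def annOut (k : Node h) :
    AnnOut (c1 h) (c2 h) {P | (nodalRed h).RedToNode P k} ((Nd h).s1 k) ((Nd h).s2 k)
      ((p : ℕ) : Qbar) (Set.range (baseChangeHom (M' * p) (annField h k))) :=
  Classical.choice (exists_out h k).choose_spec.2

/-- **THE ANNULUS COORDINATE AT THE NODE `k` OF `X₀(M'p)` OVER `A`.** -/
def annCoord (k : Node h) : AnnCoord (nodalRed h) k where
  zp := (annOut h k).zp
  ϖ := ((p : ℕ) : Qbar)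
  y₂ := (annOut h k).y₂
  ϖ_small := (annOut h k).ϖ_small
  ϖ_ne := (annOut h k).ϖ_ne
  zp_mem := (annOut h k).zp_mem
  ord_zp := (annOut h k).ord_zp
  zp_eq := (annOut h k).zp_eq
  y₂_gu := (annOut h k).y₂_gu
  value := (annOut h k).value
  value_small := fun P hP => (annOut h k).value_small P hP
  value_ne := fun P hP => (annOut h k).value_ne P hP
  value_big := fun P hP => (annOut h k).value_big P hP
  value_spec := fun P hP => (annOut h k).value_spec P hP
  unique := fun P P' hP hP' hpos => (annOut h k).unique P hP P' hP' hpos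
  simple := fun P hP => (annOut h k).simple P hP

@[simp] theorem annCoord_ϖ (k : Node h) : (annCoord h k).ϖ = ((p : ℕ) : Qbar) := rfl

theorem annCoord_zp (k : Node h) : (annCoord h k).zp = (annOut h k).zp := rfl

theorem annCoord_y₂ (k : Node h) : (annCoord h k).y₂ = (annOut h k).y₂ := rfl

/-- `z' / p` has a simple pole at the second branch. -/
theorem annCoord_ord_y₂ (k : Node h) :
    ((Nd h).s2 k).ord (red (c2 h) (annCoord h k).y₂) = -1 := (annOut h k).ord_y₂

/-- the coordinate is rational over a field fixed by inertia. -/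
theorem annCoord_zp_mem_range (k : Node h) :
    (annCoord h k).zp ∈ Set.range (baseChangeHom (M' * p) (annField h k)) :=
  (annOut h k).zp_range

/-- **the coordinate is fixed by inertia.** -/
theorem annCoord_gal_smul_zp (k : Node h) (σ : Iner A) :
    gal (M' * p) (σ : GQ) • (annCoord h k).zp = (annCoord h k).zp := by
  obtain ⟨x₀, hx₀⟩ := annCoord_zp_mem_range h k
  rw [← hx₀]
  exact Fermat.Agent.U44.InertLift1.gal_smul_baseChangeHom A (annField_inertFixed h k) σ.2 x₀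

/-- the thickness is fixed by inertia. -/
theorem annCoord_smul_ϖ (k : Node h) (σ : Iner A) : σ • (annCoord h k).ϖ = (annCoord h k).ϖ := by
  rw [annCoord_ϖ]
  exact map_natCast (σ : GQ) p

/-- the thickness is `p`, up to a unit. -/
theorem annCoord_ϖ_unit (k : Node h) : AUnit A ((annCoord h k).ϖ / ((p : ℕ) : Qbar)) := by
  rw [annCoord_ϖ, div_self (Nat.cast_ne_zero.2 (NeZero.ne p))]
  exact aunit_one

end Fermat.Agent.U44.AnnInst6
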