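/-
Programme U44 (S44), chapter (WIRE)/(C1), part B (helper7): **Burnside in dimension two over an
arbitrary field, for an irreducible representation with an "odd" element.**

`ρ : G →* End_F V`, `V` of dimension two, irreducible over `F` (not assumed absolutely irreducible),
and an element `c` with `ρ(c)² = 1`, `ρ(c) ≠ ± 1`.  Then `ρ(G)` spans `End_F V`.

The proof is the graph argument of `ES/ALG31/TraceRigid13.burnside_two`; the only use of the
algebraic closure there (an eigenvalue of an endomorphism commuting with `ρ`) is replaced by: an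
endomorphism commuting with `ρ(c)` preserves the line `ker (ρ(c) - 1)`.
-/
import Mathlib

set_option autoImplicit false
set_option linter.unusedSectionVars false

noncomputable section

namespace Fermat.Agent.U44.BurnsideOdd7

open Module

variable {F : Type*} [Field F] {V : Type*} [AddCommGroup V] [Module F V]
  {G : Type*} [Monoid G] (ρ : G →* End F V)

/-- the span of the image of `ρ`. -/
def spanRange : Submodule F (End F V) := Submodule.span F (Set.range ρ)

theorem one_mem_spanRange : (1 : End F V) ∈ spanRange ρ :=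
  Submodule.subset_span ⟨1, map_one ρ⟩

theorem rho_mem_spanRange (g : G) : ρ g ∈ spanRange ρ := Submodule.subset_span ⟨g, rfl⟩

theorem mul_mem_spanRange (g : G) {a : End F V} (ha : a ∈ spanRange ρ) :
    ρ g * a ∈ spanRange ρ := by
  induction ha using Submodule.span_induction with
  | mem x hx =>
    obtain ⟨h, rfl⟩ := hx
    rw [← map_mul]
    exact rho_mem_spanRange ρ (g * h)
  | zero => rw [mul_zero]; exact Submodule.zero_mem _
  | add x y _ _ hx hy => rw [mul_add]; exact Submodule.add_mem _ hx hy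
  | smul c x _ hx => rw [mul_smul_comm]; exact Submodule.smul_mem _ c hx

/-- the orbit `𝒜 x` of a vector under the span of the image. -/
def orbitSub (x : V) : Submodule F V := (spanRange ρ).map (LinearMap.applyₗ x)

theorem mem_orbitSub {x y : V} : y ∈ orbitSub ρ x ↔ ∃ a ∈ spanRange ρ, a x = y := by
  rw [orbitSub, Submodule.mem_map]
  rfl

theorem orbitSub_stable (x : V) (g : G) {y : V} (hy : y ∈ orbitSub ρ x) :
    ρ g y ∈ orbitSub ρ x := by
  obtain ⟨a, ha, rfl⟩ := (mem_orbitSub ρ).mp hy
  exact (mem_orbitSub ρ).mpr ⟨ρ g * a, mul_mem_spanRange ρ g ha, rfl⟩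

variable (hirr : ∀ W : Submodule F V, (∀ g, ∀ w ∈ W, ρ g w ∈ W) → W = ⊥ ∨ W = ⊤)

include hirr in
theorem orbitSub_eq_top {x : V} (hx : x ≠ 0) : orbitSub ρ x = ⊤ := by
  refine (hirr _ fun g w hw => orbitSub_stable ρ x g hw).resolve_left fun h => hx ?_
  have : x ∈ orbitSub ρ x := (mem_orbitSub ρ).mpr ⟨1, one_mem_spanRange ρ, rfl⟩
  rw [h] at this
  exact (Submodule.mem_bot F).mp this

/-- elements of the span killing `x`. -/
def killSub (x : V) : Submodule F (End F V) := spanRange ρ ⊓ LinearMap.ker (LinearMap.applyₗ x)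

theorem mem_killSub {x : V} {a : End F V} : a ∈ killSub ρ x ↔ a ∈ spanRange ρ ∧ a x = 0 := by
  rw [killSub, Submodule.mem_inf, LinearMap.mem_ker]
  rfl

/-- `{a y | a ∈ 𝒜, a x = 0}`. -/
def killOrbit (x y : V) : Submodule F V := (killSub ρ x).map (LinearMap.applyₗ y)

theorem mem_killOrbit {x y z : V} :
    z ∈ killOrbit ρ x y ↔ ∃ a ∈ spanRange ρ, a x = 0 ∧ a y = z := by
  rw [killOrbit, Submodule.mem_map]
  constructor
  · rintro ⟨a, ha, rfl⟩
    exact ⟨a, ((mem_killSub ρ).mp ha).1, ((mem_killSub ρ).mp ha).2, rfl⟩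
  · rintro ⟨a, ha, hax, rfl⟩
    exact ⟨a, (mem_killSub ρ).mpr ⟨ha, hax⟩, rfl⟩

theorem killOrbit_stable (x y : V) (g : G) {z : V} (hz : z ∈ killOrbit ρ x y) :
    ρ g z ∈ killOrbit ρ x y := by
  obtain ⟨a, ha, hax, rfl⟩ := (mem_killOrbit ρ).mp hz
  refine (mem_killOrbit ρ).mpr ⟨ρ g * a, mul_mem_spanRange ρ g ha, ?_, rfl⟩
  rw [Module.End.mul_apply, hax, map_zero]

include hirr in
/-- **Burnside in dimension two**, with a vector `u ≠ 0` which is an eigenvector of every
endomorphism commuting with `ρ`. -/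
theorem span_eq_top_of_eigen (b : Basis (Fin 2) F V) (u : V) (hu : u ≠ 0)
    (hline : ∀ φ : End F V, (∀ g v, φ (ρ g v) = ρ g (φ v)) → ∃ μ : F, φ u = μ • u) :
    spanRange ρ = ⊤ := by
  have hb0 : b 0 ≠ 0 := b.ne_zero 0
  have hext : ∀ X Y : End F V, X (b 0) = Y (b 0) → X (b 1) = Y (b 1) → X = Y := by
    intro X Y h0 h1
    refine b.ext fun i => ?_
    fin_cases i
    · exact h0
    · exact h1
  rcases hirr (killOrbit ρ (b 0) (b 1)) (fun g z hz => killOrbit_stable ρ _ _ g hz) with hN | hN
  · exfalso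
    have hkill : ∀ a ∈ spanRange ρ, a (b 0) = 0 → a = 0 := by
      intro a ha ha0
      have h1 : a (b 1) ∈ killOrbit ρ (b 0) (b 1) := (mem_killOrbit ρ).mpr ⟨a, ha, ha0, rfl⟩
      rw [hN, Submodule.mem_bot] at h1
      exact hext a 0 (by rw [ha0, LinearMap.zero_apply]) (by rw [h1, LinearMap.zero_apply])
    let f : spanRange ρ →ₗ[F] V := (LinearMap.applyₗ (b 0)).comp (spanRange ρ).subtype
    have hf : ∀ a : spanRange ρ, f a = (a : End F V) (b 0) := fun a => rfl
    have hfinj : Function.Injective f := by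
      rw [injective_iff_map_eq_zero]
      intro a ha
      exact Subtype.ext (hkill a a.2 ha)
    have hfsurj : Function.Surjective f := by
      intro v
      have hv : v ∈ orbitSub ρ (b 0) := by rw [orbitSub_eq_top ρ hirr hb0]; exact Submodule.mem_top
      obtain ⟨a, ha, rfl⟩ := (mem_orbitSub ρ).mp hv
      exact ⟨⟨a, ha⟩, rfl⟩
    let Fe : spanRange ρ ≃ₗ[F] V := LinearEquiv.ofBijective f ⟨hfinj, hfsurj⟩
    let φ : End F V := ((LinearMap.applyₗ (b 1)).comp (spanRange ρ).subtype).comp Fe.symm.toLinearMap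
    have hφ : ∀ a : spanRange ρ, φ ((a : End F V) (b 0)) = (a : End F V) (b 1) := by
      intro a
      have h1 : Fe.symm ((a : End F V) (b 0)) = a := by
        rw [← hf a]
        exact Fe.symm_apply_apply a
      show ((Fe.symm ((a : End F V) (b 0)) : spanRange ρ) : End F V) (b 1) = _
      rw [h1]
    have hφcomm : ∀ (g : G) (v : V), φ (ρ g v) = ρ g (φ v) := by
      intro g v
      obtain ⟨a, rfl⟩ := hfsurj v
      rw [hf a]
      have h2 := hφ ⟨ρ g * (a : End F V), mul_mem_spanRange ρ g a.2⟩
      rw [Module.End.mul_apply, Module.End.mul_apply] at h2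
      rw [h2, hφ a]
    obtain ⟨μ, hμ⟩ := hline φ hφcomm
    have hE : Module.End.eigenspace φ μ = ⊤ := by
      refine (hirr _ fun g y hy => ?_).resolve_left ?_
      · rw [Module.End.mem_eigenspace_iff] at hy ⊢
        rw [hφcomm, hy, map_smul]
      · intro h0
        have : u ∈ Module.End.eigenspace φ μ := Module.End.mem_eigenspace_iff.mpr hμ
        rw [h0, Submodule.mem_bot] at this
        exact hu this
    have hφμ : ∀ v, φ v = μ • v := fun v =>
      Module.End.mem_eigenspace_iff.mp (hE ▸ Submodule.mem_top)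
    have h3 := hφ ⟨1, one_mem_spanRange ρ⟩
    rw [Module.End.one_apply, Module.End.one_apply, hφμ] at h3
    have hli := b.linearIndependent
    have h4 := Fintype.linearIndependent_iff.mp hli ![μ, -1] (by
      rw [Fin.sum_univ_two]
      simp only [Matrix.cons_val_zero, Matrix.cons_val_one]
      rw [h3, neg_smul, one_smul, add_neg_cancel]) 1
    simp only [Matrix.cons_val_one] at h4
    exact one_ne_zero (neg_eq_zero.mp h4)
  · rw [eq_top_iff]
    intro X _
    have h0 : X (b 0) ∈ orbitSub ρ (b 0) := by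
      rw [orbitSub_eq_top ρ hirr hb0]; exact Submodule.mem_top
    obtain ⟨c, hc, hc0⟩ := (mem_orbitSub ρ).mp h0
    have h1 : X (b 1) - c (b 1) ∈ killOrbit ρ (b 0) (b 1) := by rw [hN]; exact Submodule.mem_top
    obtain ⟨a, ha, ha0, ha1⟩ := (mem_killOrbit ρ).mp h1
    have hX : X = a + c := by
      refine hext _ _ ?_ ?_
      · rw [LinearMap.add_apply, ha0, zero_add, hc0]
      · rw [LinearMap.add_apply, ha1, sub_add_cancel]
    rw [hX]
    exact Submodule.add_mem _ ha hc

include hirr in
/-- **Burnside in dimension two for an irreducible representation with an odd element**: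
`ρ(c)² = 1`, `ρ(c) ≠ 1`, `ρ(c) ≠ -1`. -/
theorem span_range_eq_top_of_odd (b : Basis (Fin 2) F V) (c : G)
    (hc2 : ρ c * ρ c = 1) (hc1 : ρ c ≠ 1) (hcm1 : ρ c ≠ -1) :
    Submodule.span F (Set.range ρ) = ⊤ := by
  have hfd : FiniteDimensional F V := Module.Finite.of_basis b
  have hrank : finrank F V = 2 := by rw [finrank_eq_card_basis b, Fintype.card_fin]
  -- a vector of the line `L = ker (ρ c - 1)`
  have hex : ∃ v, ρ c v + v ≠ 0 := by
    by_contra hall
    push Not at hall
    apply hcm1
    refine LinearMap.ext fun v => ?_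
    rw [LinearMap.neg_apply, Module.End.one_apply]
    exact eq_neg_of_add_eq_zero_left (hall v)
  obtain ⟨v, hv⟩ := hex
  set u : V := ρ c v + v with hu
  have hcu : ρ c u = u := by
    have h1 : ρ c (ρ c v) = v := by
      have := congrArg (fun f : End F V => f v) hc2
      simpa using this
    rw [hu, map_add, h1, add_comm]
  let L : Submodule F V := LinearMap.ker (ρ c - 1)
  have huL : u ∈ L := by
    rw [LinearMap.mem_ker, LinearMap.sub_apply, Module.End.one_apply, hcu, sub_self]
  have hLtop : L ≠ ⊤ := by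
    intro h
    apply hc1
    refine LinearMap.ext fun w => ?_
    have : w ∈ L := by rw [h]; exact Submodule.mem_top
    rw [LinearMap.mem_ker, LinearMap.sub_apply, Module.End.one_apply, sub_eq_zero] at this
    rw [this, Module.End.one_apply]
  have hL1 : finrank F L = 1 := by
    have h1 : finrank F L < finrank F V := Submodule.finrank_lt hLtop
    have h2 : 0 < finrank F L := by
      rw [Module.finrank_pos_iff_exists_ne_zero]
      exact ⟨⟨u, huL⟩, fun h => hv (congrArg Subtype.val h)⟩
    omega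
  refine span_eq_top_of_eigen ρ hirr b u hv fun φ hφ => ?_
  have hφu : φ u ∈ L := by
    rw [LinearMap.mem_ker, LinearMap.sub_apply, Module.End.one_apply, ← hφ, hcu, sub_self]
  have hne : (⟨u, huL⟩ : L) ≠ 0 := fun h => hv (congrArg Subtype.val h)
  obtain ⟨μ, hμ⟩ := (finrank_eq_one_iff_of_nonzero' (⟨u, huL⟩ : L) hne).mp hL1 ⟨φ u, hφu⟩
  exact ⟨μ, (congrArg Subtype.val hμ).symm⟩

end Fermat.Agent.U44.BurnsideOdd7
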