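/-
Programme U44 (S44), chapter (WIRE)/(C1), part C (helper7): **the eigen-subgroup of
`J₀(N)(ℚ̄)[p]`** for a system of integers `(a_ℓ)_{ℓ ∈ G}`, as an `𝔽_p[G_ℚ]`-module.

* `eigenSub N p a G`        : `{x | p x = 0, T_ℓ x = a_ℓ x (ℓ ∈ G)}`, an additive subgroup of `J₀(N)(ℚ̄)`;
* `Module (ZMod p)`, `rhoX` : its `𝔽_p`-structure and the Galois action `G_ℚ →* End_{𝔽_p}`;
* `finite_eigenSub`, `hasLevel_eigenSub` : finiteness, and the action factors through a number field;
* `frob_rel`                : the Eichler–Shimura relation `σ² − a_ℓ σ + ℓ = 0` for a Frobenius element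
                              `σ` at `ℓ ∈ G`, `ℓ ∤ N p`.
-/
import Mathlib
import Fermat.Agent.U44.Wire7
import Fermat.Agent.ES.TOP.TorsionGalois12
import Fermat.Agent.ES.HECKE.HeckeGalois12
import Fermat.Agent.ES.GAL.OpenStab12
import Fermat.Agent.ES.KUM.FiniteTorsion15

set_option autoImplicit false
set_option linter.unusedSectionVars false
set_option linter.style.haveILetI false

open AlgebraicCurve ModularCurve

noncomputable section

namespace Fermat.Agent.U44.EigenSub7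

open Fermat.Agent.U44.Wire7

variable (N p : ℕ) [NeZero N] (a : ℕ → ℤ) (G : Set ℕ)

theorem smul_nsmul_comm (σ : GQ) (n : ℕ) (x : JZero N) : σ • (n • x) = n • (σ • x) :=
  map_nsmul (DistribSMul.toAddMonoidHom (JZero N) σ) n x

theorem smul_zsmul_comm (σ : GQ) (n : ℤ) (x : JZero N) : σ • (n • x) = n • (σ • x) :=
  map_zsmul (DistribSMul.toAddMonoidHom (JZero N) σ) n x

/-- **the eigen-subgroup of `J₀(N)(ℚ̄)[p]`.** -/
def eigenSub : AddSubgroup (JZero N) where
  carrier := {x | p • x = 0 ∧ ∀ ℓ : Nat.Primes, (ℓ : ℕ) ∈ G → heckeOperatorBar N ℓ x = a ℓ • x}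
  zero_mem' := ⟨nsmul_zero _, fun ℓ _ => by rw [_root_.map_zero, zsmul_zero]⟩
  add_mem' := by
    rintro x y ⟨hx, hxT⟩ ⟨hy, hyT⟩
    refine ⟨by rw [nsmul_add, hx, hy, add_zero], fun ℓ hℓ => ?_⟩
    rw [map_add, hxT ℓ hℓ, hyT ℓ hℓ, zsmul_add]
  neg_mem' := by
    rintro x ⟨hx, hxT⟩
    refine ⟨by rw [neg_nsmul, hx, neg_zero], fun ℓ hℓ => ?_⟩
    rw [map_neg, hxT ℓ hℓ, zsmul_neg]

variable {N p a G}

theorem mem_eigenSub {x : JZero N} : x ∈ eigenSub N p a G ↔
    p • x = 0 ∧ ∀ ℓ : Nat.Primes, (ℓ : ℕ) ∈ G → heckeOperatorBar N ℓ x = a ℓ • x := Iff.rfl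

theorem smul_mem_eigenSub (σ : GQ) {x : JZero N} (hx : x ∈ eigenSub N p a G) :
    σ • x ∈ eigenSub N p a G := by
  obtain ⟨hx, hxT⟩ := hx
  refine ⟨by rw [← smul_nsmul_comm, hx]; exact map_zero (DistribSMul.toAddMonoidHom (JZero N) σ),
    fun ℓ hℓ => ?_⟩
  rw [Fermat.Agent.ES.HECKE.HeckeGalois12.heckeOperatorBar_smul, hxT ℓ hℓ, smul_zsmul_comm]

variable (N p a G)

instance instModule : Module (ZMod p) ↥(eigenSub N p a G) :=
  AddCommGroup.zmodModule fun x => Subtype.ext x.2.1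

/-- the Galois action on the eigen-subgroup, additive form. -/
def actHom (σ : GQ) : ↥(eigenSub N p a G) →+ ↥(eigenSub N p a G) where
  toFun x := ⟨σ • (x : JZero N), smul_mem_eigenSub σ x.2⟩
  map_zero' := Subtype.ext (smul_zero σ)
  map_add' x y := Subtype.ext (smul_add σ (x : JZero N) (y : JZero N))

/-- **the Galois representation on the eigen-subgroup.** -/
def rhoX : GQ →* Module.End (ZMod p) ↥(eigenSub N p a G) where
  toFun σ := (actHom N p a G σ).toZModLinearMap p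
  map_one' := by
    ext x : 1
    exact Subtype.ext (one_smul GQ (x : JZero N))
  map_mul' σ τ := by
    ext x : 1
    exact Subtype.ext (mul_smul σ τ (x : JZero N))

variable {N p a G}

theorem coe_rhoX_apply (σ : GQ) (x : ↥(eigenSub N p a G)) :
    ((rhoX N p a G σ x : ↥(eigenSub N p a G)) : JZero N) = σ • (x : JZero N) := rfl

theorem coe_intCast_smul (n : ℤ) (x : ↥(eigenSub N p a G)) :
    (((n : ZMod p) • x : ↥(eigenSub N p a G)) : JZero N) = n • (x : JZero N) := by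
  rw [Int.cast_smul_eq_zsmul]
  rfl

theorem coe_natCast_smul (n : ℕ) (x : ↥(eigenSub N p a G)) :
    (((n : ZMod p) • x : ↥(eigenSub N p a G)) : JZero N) = n • (x : JZero N) := by
  rw [Nat.cast_smul_eq_nsmul]
  rfl

variable (N p a G)

/-- the eigen-subgroup is finite. -/
theorem finite_eigenSub [NeZero p] : Finite ↥(eigenSub N p a G) := by
  have hfin := Fermat.Agent.ES.KUM.FiniteTorsion15.finite_setOf_nsmul_eq_zero N p
  have : Finite {y : JZero N | p • y = 0} := hfin.to_subtype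
  exact Finite.of_injective (fun x : ↥(eigenSub N p a G) =>
    (⟨(x : JZero N), x.2.1⟩ : {y : JZero N | p • y = 0}))
    (fun x y h => by
      have h1 : (x : JZero N) = (y : JZero N) :=
        congrArg (fun z : {y : JZero N | p • y = 0} => (z : JZero N)) h
      exact Subtype.ext h1)

/-- the Galois action on the eigen-subgroup factors through a number field. -/
theorem hasLevel_eigenSub [NeZero p] : ∃ K : IntermediateField ℚ Qb, FiniteDimensional ℚ K ∧
    ∀ σ : GQ, (∀ x ∈ K, σ x = x) → rhoX N p a G σ = 1 := by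
  obtain ⟨K, hK, H⟩ := Fermat.Agent.ES.GAL.OpenStab12.hasLevel_torsion N p
    (Fermat.Agent.ES.KUM.FiniteTorsion15.finite_setOf_nsmul_eq_zero N p)
  refine ⟨K, hK, fun σ hσ => ?_⟩
  ext x : 1
  exact Subtype.ext (H σ hσ (x : JZero N) x.2.1)

variable {N p a G}

/-- **the Eichler–Shimura relation on the eigen-subgroup.** -/
theorem frob_rel {ℓ : ℕ} (hℓ : ℓ.Prime) (hℓG : ℓ ∈ G) (hℓN : ¬ ℓ ∣ N) (hℓp : ¬ ℓ ∣ p)
    {A : ValuationSubring Qb} (hA : A.LiesOverPrime ℓ) {σ : GQ} (hσ : A.IsFrobeniusAt σ ℓ)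
    (x : ↥(eigenSub N p a G)) :
    rhoX N p a G σ (rhoX N p a G σ x) - ((a ℓ : ℤ) : ZMod p) • rhoX N p a G σ x +
      ((ℓ : ℕ) : ZMod p) • x = 0 := by
  apply Subtype.ext
  have h1 := Fermat.Agent.ES.TOP.TorsionGalois12.frobenius_relation hℓ hℓN hA hℓp x.2.1 hσ
  have h2 := (smul_mem_eigenSub σ x.2).2 ⟨ℓ, hℓ⟩ hℓG
  rw [h2] at h1
  rw [AddSubgroup.coe_add, AddSubgroup.coe_sub, coe_intCast_smul, coe_natCast_smul, coe_rhoX_apply,
    coe_rhoX_apply]
  exact h1

end Fermat.Agent.U44.EigenSub7
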