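/-
Programme U44 (S44), chapter (WIRE)/(C1), part A1–A2 (helper7): **occurrence of the system of
eigenvalues of `W` in `Λ_N / p Λ_N`** (`Λ_N = Lam N`).

* `exists_occurrence_base` : `Occur16.exists_occurrence` without the level-raising hypothesis: a field
  `k` of characteristic `p` and a nonzero `v ∈ k ⊗ Λ_N` with `T_ℓ v = a_ℓ(W) v` for the good `ℓ ∤ N p`;
* `exists_common_kernel_zmod` : descent of a common kernel vector of integer matrices from a field of
  characteristic `p` to `𝔽_p` (finite-dimensional duality, no finiteness of the family);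
* `exists_lattice_eigen` : an element `y ∈ Λ_N`, `y ∉ p Λ_N`, with `T_ℓ y − a_ℓ(W) y ∈ p Λ_N` for all
  good `ℓ ∤ N p`.
-/
import Mathlib
import Fermat.Agent.ES.LR.Occur16

set_option autoImplicit false
set_option linter.unusedSectionVars false

noncomputable section

namespace Fermat.Agent.U44.OccurDesc7

open CongruenceSubgroup CuspForm TensorProduct ModularCurve ModularCurve.Period
open Fermat.Agent.ES.HEQ.FaithFinal26 Fermat.Agent.ES.HEQ.FaithInst26
open Fermat.Agent.ES.LR.Occur16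

/-- **(OCC) without the level-raising hypothesis.** -/
theorem exists_occurrence_base {N p : ℕ} [NeZero N] (hp : p.Prime)
    (W : WeierstrassCurve ℤ)
    (f : CuspForm (Gamma0 N) 2) (𝔪 : Ideal (integralClosure ℤ ℂ))
    (hf : f.IsNormalizedEigenform) (hmax : 𝔪.IsMaximal) (hpm : (p : integralClosure ℤ ℂ) ∈ 𝔪)
    (hcong : ∀ ℓ : ℕ, ℓ.Prime → W.IsGoodPrimeFor ℓ → ¬ ℓ ∣ N → ℓ ≠ p →
      ∃ a : integralClosure ℤ ℂ, (a : ℂ) = ModularFormClass.qCoeff f ℓ ∧
        a - ((W.apOfModel ℓ : ℤ) : integralClosure ℤ ℂ) ∈ 𝔪) :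
    ∃ (k : Type) (_ : Field k) (_ : CharP k p) (v : k ⊗[ℤ] ↥(Lam N)), v ≠ 0 ∧
      (∀ (ℓ : ℕ) (hℓ : ℓ.Prime) (hℓN : ¬ ℓ ∣ N), W.IsGoodPrimeFor ℓ → ℓ ≠ p →
          (dcZ N ℓ hℓ hℓN).baseChange k v = ((W.apOfModel ℓ : ℤ) : k) • v) := by
  classical
  set S : Set ℕ := {ℓ | ℓ.Prime ∧ ℓ ∣ N} with hSdef
  have hS : ∀ r : ℕ, r.Prime → r ∣ N → r ∈ S := fun r hr hrN => ⟨hr, hrN⟩
  obtain ⟨v, hv0, hv⟩ := exists_eigenvector S hS (K := ℂ) (Fermat.Agent.ES.J7.EigenChar1.chiC hf S)
  let A : Subring ℂ := (integralClosure ℤ ℂ).toSubring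
  let I : Ideal ↥A := 𝔪
  have hI : I ≠ ⊤ := hmax.ne_top
  obtain ⟨O, hAO, hIO⟩ := Ideal.image_subset_nonunits_valuationSubring I hI
  let j : ↥(integralClosure ℤ ℂ) →+* ↥O :=
    { toFun := fun a => ⟨(a : ℂ), hAO a.2⟩
      map_one' := rfl
      map_mul' := fun _ _ => rfl
      map_zero' := rfl
      map_add' := fun _ _ => rfl }
  let φ : ↥(integralClosure ℤ ℂ) →+* IsLocalRing.ResidueField ↥O := (IsLocalRing.residue ↥O).comp j
  have hker : ∀ a : ↥(integralClosure ℤ ℂ), a ∈ 𝔪 → φ a = 0 := by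
    intro a ha
    show IsLocalRing.residue ↥O (j a) = 0
    rw [IsLocalRing.residue_eq_zero_iff]
    have h1 : (a : ℂ) ∈ O.nonunits := hIO ⟨a, ha, rfl⟩
    obtain ⟨h2, h3⟩ := (ValuationSubring.mem_nonunits_iff_exists_mem_maximalIdeal).mp h1
    exact h3
  have hφ : ∀ (a : ↥(integralClosure ℤ ℂ)) (n : ℤ), a - (n : ↥(integralClosure ℤ ℂ)) ∈ 𝔪 →
      φ a = (n : IsLocalRing.ResidueField ↥O) := by
    intro a n h
    have := hker _ h
    rw [map_sub, map_intCast, sub_eq_zero] at this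
    exact this
  obtain ⟨w, hw0, hw⟩ := exists_reduction O (IsLocalRing.residue ↥O) v hv0
  refine ⟨IsLocalRing.ResidueField ↥O, inferInstance, ?_, w, hw0, ?_⟩
  · rw [CharP.charP_iff_prime_eq_zero hp]
    have := hker _ hpm
    rwa [map_natCast] at this
  · intro ℓ hℓ hℓN hgood hℓp
    obtain ⟨a, ha, ham⟩ := hcong ℓ hℓ hgood hℓN hℓp
    have hℓS : ℓ ∉ S := fun h => hℓN h.2
    have h1 := hv (heckeAlgebra.T hℓ hℓN hℓS)
    rw [heckeLam_T' S hS ℓ hℓ hℓN hℓS, Fermat.Agent.ES.J7.EigenChar1.chiC_T hf hℓ hℓN hℓS, ← ha] at h1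
    have h2 := hw (dcZ N ℓ hℓ hℓN) (j a) h1
    rw [h2]
    congr 1
    exact hφ a _ ham

/-! ### descent of a common kernel vector from characteristic `p` to `𝔽_p` -/

/-- **descent, matrix form.**  A family of integer row vectors `B j` with a common nonzero kernel
vector over a field of characteristic `p` has a common kernel vector modulo `p` which is nonzero
modulo `p`. -/
theorem exists_common_kernel_zmod {p : ℕ} [hp : Fact p.Prime] {k : Type*} [Field k] [CharP k p]
    {ι : Type*} [Fintype ι] [DecidableEq ι] {J : Type*} (B : J → ι → ℤ)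
    (d : ι → k) (hd : d ≠ 0) (hB : ∀ j, ∑ i, (B j i : k) * d i = 0) :
    ∃ e : ι → ℤ, (∃ i, ¬ (p : ℤ) ∣ e i) ∧ ∀ j, (p : ℤ) ∣ ∑ i, B j i * e i := by
  classical
  let _ : Algebra (ZMod p) k := ZMod.algebra k p
  let V := ι → ZMod p
  let φ : J → Module.Dual (ZMod p) V := fun j => ∑ i, ((B j i : ℤ) : ZMod p) • LinearMap.proj i
  have hφ : ∀ j (e : V), φ j e = ∑ i, ((B j i : ℤ) : ZMod p) * e i := by
    intro j e
    simp only [φ, LinearMap.sum_apply, LinearMap.smul_apply, smul_eq_mul]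
    rfl
  let R : Submodule (ZMod p) (Module.Dual (ZMod p) V) := Submodule.span (ZMod p) (Set.range φ)
  -- the span is not everything
  have hR : R ≠ ⊤ := by
    intro htop
    have key : ∀ ψ ∈ R, ∑ i, algebraMap (ZMod p) k (ψ (Pi.single i 1)) * d i = 0 := by
      intro ψ hψ
      induction hψ using Submodule.span_induction with
      | mem x hx =>
        obtain ⟨j, rfl⟩ := hx
        rw [← hB j]
        refine Finset.sum_congr rfl fun i _ => ?_
        rw [hφ]
        simp only [Pi.single_apply, mul_ite, mul_one, mul_zero, Finset.sum_ite_eq',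
          Finset.mem_univ, if_true, map_intCast]
      | zero => simp
      | add x y _ _ hx hy =>
        simp only [LinearMap.add_apply, map_add, add_mul, Finset.sum_add_distrib, hx, hy, add_zero]
      | smul c x _ hx =>
        simp only [LinearMap.smul_apply, smul_eq_mul, map_mul, mul_assoc]
        rw [← Finset.mul_sum, hx, mul_zero]
    apply hd
    funext i₀
    have h1 := key (LinearMap.proj i₀) (by rw [htop]; exact Submodule.mem_top)
    have h2 : ∀ i, algebraMap (ZMod p) k ((LinearMap.proj i₀ : V →ₗ[ZMod p] ZMod p)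
        (Pi.single i 1)) * d i = if i = i₀ then d i else 0 := by
      intro i
      have h3 : (LinearMap.proj i₀ : V →ₗ[ZMod p] ZMod p) (Pi.single i 1) =
          if i₀ = i then (1 : ZMod p) else 0 := by
        show (Pi.single i (1 : ZMod p) : V) i₀ = _
        rw [Pi.single_apply]
      rw [h3]
      by_cases h : i₀ = i
      · subst h; simp
      · have h' : ¬ i = i₀ := fun hh => h hh.symm
        simp [h, h']
    simp only [h2, Finset.sum_ite_eq', Finset.mem_univ, if_true] at h1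
    exact h1
  -- a nonzero vector killed by the span
  have hco : R.dualCoannihilator ≠ ⊥ := by
    intro h0
    apply hR
    have h1 := Subspace.dualCoannihilator_dualAnnihilator_eq (W := R)
    rw [h0, Submodule.dualAnnihilator_bot] at h1
    exact h1.symm
  obtain ⟨e, heR, he0⟩ := (Submodule.ne_bot_iff _).mp hco
  rw [Submodule.mem_dualCoannihilator] at heR
  refine ⟨fun i => ((e i).val : ℤ), ?_, ?_⟩
  · by_contra hall
    push Not at hall
    apply he0
    funext i
    have := hall i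
    rw [← ZMod.intCast_zmod_eq_zero_iff_dvd] at this
    show e i = 0
    simpa using this
  · intro j
    rw [← ZMod.intCast_zmod_eq_zero_iff_dvd]
    have h1 := heR (φ j) (Submodule.subset_span ⟨j, rfl⟩)
    rw [hφ] at h1
    rw [← h1]
    push_cast
    refine Finset.sum_congr rfl fun i _ => ?_
    simp

/-- **descent, module form.**  `M` finite free over `ℤ`; a family of endomorphisms whose base
changes to a field of characteristic `p` kill a common nonzero vector kills, modulo `p`, an element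
of `M` outside `p M`. -/
theorem exists_kernel_mod_p {p : ℕ} [hp : Fact p.Prime] {M : Type*} [AddCommGroup M]
    [Module.Free ℤ M] [Module.Finite ℤ M] {J : Type*} (S : J → Module.End ℤ M)
    {k : Type*} [Field k] [CharP k p] (v : k ⊗[ℤ] M) (hv : v ≠ 0)
    (hS : ∀ j, (S j).baseChange k v = 0) :
    ∃ y : M, (¬ ∃ z : M, y = (p : ℤ) • z) ∧ ∀ j, ∃ z : M, S j y = (p : ℤ) • z := by
  classical
  let b := Module.Free.chooseBasis ℤ M
  obtain ⟨d, rfl⟩ := exists_vec b k v
  have hd : d ≠ 0 := by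
    intro h0
    apply hv
    rw [h0]
    exact vec_zero b k
  let B : J × Module.Free.ChooseBasisIndex ℤ M → Module.Free.ChooseBasisIndex ℤ M → ℤ :=
    fun jκ i => mat b (S jκ.1) jκ.2 i
  have hB : ∀ jκ, ∑ i, (B jκ i : k) * d i = 0 := by
    rintro ⟨j, κ⟩
    have h1 := hS j
    rw [baseChange_vec, ← vec_zero b k] at h1
    exact congrFun (vec_injective b k h1) κ
  obtain ⟨e, ⟨i₀, hi₀⟩, he⟩ := exists_common_kernel_zmod (p := p) B d hd hB
  refine ⟨∑ i, e i • b i, ?_, ?_⟩
  · rintro ⟨z, hz⟩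
    apply hi₀
    have h1 := congrArg (fun m => b.repr m i₀) hz
    simp only [map_sum, map_smul, Module.Basis.repr_self, Finsupp.smul_single, smul_eq_mul, mul_one,
      Finsupp.coe_finsetSum, Finset.sum_apply, Finsupp.single_apply, Finset.sum_ite_eq',
      Finset.mem_univ, if_true, Finsupp.coe_smul, Pi.smul_apply] at h1
    exact ⟨_, h1⟩
  · intro j
    have hcoord : ∀ κ, (p : ℤ) ∣ b.repr (S j (∑ i, e i • b i)) κ := by
      intro κ
      have h1 := he (j, κ)
      have h2 : b.repr (S j (∑ i, e i • b i)) κ = ∑ i, B (j, κ) i * e i := by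
        simp only [map_sum, map_smul, Finsupp.coe_finsetSum, Finset.sum_apply, Finsupp.coe_smul,
          Pi.smul_apply, smul_eq_mul, B, mat]
        refine Finset.sum_congr rfl fun i _ => ?_
        rw [mul_comm]
      rw [h2]
      exact h1
    choose c hc using hcoord
    refine ⟨∑ κ, c κ • b κ, ?_⟩
    apply b.repr.injective
    ext κ
    rw [hc κ]
    simp only [map_sum, map_smul, Module.Basis.repr_self, Finsupp.smul_single, smul_eq_mul, mul_one,
      Finsupp.coe_finsetSum, Finset.sum_apply, Finsupp.single_apply, Finset.sum_ite_eq',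
      Finset.mem_univ, if_true, Finsupp.coe_smul, Pi.smul_apply]

/-- **the system of eigenvalues of `W` occurs in `Λ_N / p Λ_N`.** -/
theorem exists_lattice_eigen {N p : ℕ} [NeZero N] (hp : p.Prime)
    (W : WeierstrassCurve ℤ)
    (f : CuspForm (Gamma0 N) 2) (𝔪 : Ideal (integralClosure ℤ ℂ))
    (hf : f.IsNormalizedEigenform) (hmax : 𝔪.IsMaximal) (hpm : (p : integralClosure ℤ ℂ) ∈ 𝔪)
    (hcong : ∀ ℓ : ℕ, ℓ.Prime → W.IsGoodPrimeFor ℓ → ¬ ℓ ∣ N → ℓ ≠ p →
      ∃ a : integralClosure ℤ ℂ, (a : ℂ) = ModularFormClass.qCoeff f ℓ ∧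
        a - ((W.apOfModel ℓ : ℤ) : integralClosure ℤ ℂ) ∈ 𝔪) :
    ∃ y : ↥(Lam N), (¬ ∃ z : ↥(Lam N), y = (p : ℤ) • z) ∧
      ∀ (ℓ : ℕ) (hℓ : ℓ.Prime) (hℓN : ¬ ℓ ∣ N), W.IsGoodPrimeFor ℓ → ℓ ≠ p →
        ∃ z : ↥(Lam N), dcZ N ℓ hℓ hℓN y - (W.apOfModel ℓ) • y = (p : ℤ) • z := by
  classical
  have : Fact p.Prime := ⟨hp⟩
  obtain ⟨k, _, _, v, hv, hveig⟩ := exists_occurrence_base hp W f 𝔪 hf hmax hpm hcong
  let J : Type := {ℓ : ℕ // ℓ.Prime ∧ ¬ ℓ ∣ N ∧ W.IsGoodPrimeFor ℓ ∧ ℓ ≠ p}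
  let S : J → Module.End ℤ ↥(Lam N) := fun j =>
    dcZ N j.1 j.2.1 j.2.2.1 - (W.apOfModel j.1) • (1 : Module.End ℤ ↥(Lam N))
  have hS : ∀ j, (S j).baseChange k v = 0 := by
    intro j
    have h1 := hveig j.1 j.2.1 j.2.2.1 j.2.2.2.1 j.2.2.2.2
    show (dcZ N j.1 j.2.1 j.2.2.1 - (W.apOfModel j.1) • (1 : Module.End ℤ ↥(Lam N))).baseChange k v
      = 0
    rw [LinearMap.baseChange_sub, LinearMap.baseChange_smul, LinearMap.sub_apply, h1,
      LinearMap.smul_apply]
    have h2 : (1 : Module.End ℤ ↥(Lam N)).baseChange k v = v := by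
      have : (1 : Module.End ℤ ↥(Lam N)) = LinearMap.id := rfl
      rw [this, LinearMap.baseChange_id]
      rfl
    rw [h2, Int.cast_smul_eq_zsmul, sub_self]
  obtain ⟨y, hy, hyS⟩ := exists_kernel_mod_p (p := p) S v hv hS
  refine ⟨y, hy, fun ℓ hℓ hℓN hgood hℓp => ?_⟩
  obtain ⟨z, hz⟩ := hyS ⟨ℓ, hℓ, hℓN, hgood, hℓp⟩
  exact ⟨z, hz⟩

end Fermat.Agent.U44.OccurDesc7
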