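/-
Programme U44 (S44), chapter (WIRE)/(C1), part A3 (helper7): **from `Λ_N / p` to `J₀(N)(ℚ̄)[p]`**.

* `exists_smul_of_iota_eq_smul` : for a base change `ι₀ : Λ → T` (`ℤ → ℤ_[p]`) of a finite free
  `ℤ`-module, `ι₀ y ∈ p T` implies `y ∈ p Λ`;
* `exists_torsion_eigen` : an element `y ∈ Λ_N`, `y ∉ p Λ_N`, with `T_ℓ y ≡ a_ℓ y mod p` gives a nonzero
  `x ∈ J₀(N)(ℚ̄)[p]` with `T_ℓ x = a_ℓ x` (via `K2Final11.k2` and the projection `T_p J → J[p]`);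
* `occursJ` : under the hypotheses carried by `ModularRepOfLevel N`, the system of eigenvalues of `W`
  occurs in `J₀(N)(ℚ̄)[p]` (`Wire7.OccursJ W p N (Good W N p)`).
-/
import Mathlib
import Fermat.Agent.U44.OccurDesc7
import Fermat.Agent.U44.Wire7
import Fermat.Agent.ES.J.KummerSystemJ8

set_option autoImplicit false
set_option linter.unusedSectionVars false
set_option synthInstance.maxHeartbeats 400000

noncomputable section

namespace Fermat.Agent.U44.EigenTors7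

open CongruenceSubgroup CuspForm ModularCurve ModularCurve.Period AlgebraicCurve
open Fermat.Agent.ES.HEQ.FaithFinal26 Fermat.Agent.ES.HEQ.FaithInst26
open Fermat.Agent.ES.J.TateModule13 Fermat.Agent.ES.J.TateJZero13
open Fermat.Agent.U44.Wire7

/-- divisibility by `p` descends along a base change `ℤ → ℤ_[p]` of a finite free module. -/
theorem exists_smul_of_iota_eq_smul {p : ℕ} [hp : Fact p.Prime] {M : Type*} [AddCommGroup M]
    [Module.Free ℤ M] [Module.Finite ℤ M] {T : Type*} [AddCommGroup T] [Module ℤ_[p] T]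
    (ι₀ : M →ₗ[ℤ] T) (hbc : IsBaseChange ℤ_[p] ι₀) (y : M) (t : T)
    (h : ι₀ y = (p : ℤ_[p]) • t) : ∃ z : M, y = (p : ℤ) • z := by
  classical
  let b := Module.Free.chooseBasis ℤ M
  let B := hbc.basis b
  have hcoord : ∀ i, (p : ℤ) ∣ b.repr y i := by
    intro i
    have h1 := IsBaseChange.basis_repr_comp_apply b hbc y i
    rw [h, map_smul, Finsupp.smul_apply, smul_eq_mul] at h1
    have h2 : (p : ℤ_[p]) ∣ ((b.repr y i : ℤ) : ℤ_[p]) := ⟨_, by rw [h1]; rfl⟩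
    rw [← PadicInt.norm_lt_one_iff_dvd] at h2
    exact (PadicInt.norm_int_lt_one_iff_dvd _).mp h2
  choose c hc using hcoord
  refine ⟨∑ i, c i • b i, ?_⟩
  apply b.repr.injective
  ext i
  rw [hc i]
  simp only [map_sum, map_smul, Module.Basis.repr_self, Finsupp.smul_single, smul_eq_mul, mul_one,
    Finsupp.coe_finsetSum, Finset.sum_apply, Finsupp.single_apply, Finset.sum_ite_eq',
    Finset.mem_univ, if_true, Finsupp.coe_smul, Pi.smul_apply]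

variable {N p : ℕ} [NeZero N] [hp : Fact p.Prime]

/-- **from the lattice to the `p`-torsion of `J₀(N)(ℚ̄)`.** -/
theorem exists_torsion_eigen (a : ℕ → ℤ) (G : Set ℕ) (y : ↥(Lam N))
    (hy : ¬ ∃ z : ↥(Lam N), y = (p : ℤ) • z)
    (hyT : ∀ (ℓ : ℕ) (hℓ : ℓ.Prime) (hℓN : ¬ ℓ ∣ N), ℓ ∈ G →
      ∃ z : ↥(Lam N), dcZ N ℓ hℓ hℓN y - a ℓ • y = (p : ℤ) • z) :
    ∃ x : JZero N, x ≠ 0 ∧ p • x = 0 ∧
      ∀ (ℓ : ℕ) (hℓ : ℓ.Prime), ¬ ℓ ∣ N → ℓ ∈ G →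
        heckeOperatorBar N ⟨ℓ, hℓ⟩ x = a ℓ • x := by
  obtain ⟨ι₀, hbc, hheck⟩ := Fermat.Agent.ES.J.K2Final11.k2
    (Fermat.Agent.ES.J.KummerSystemJ8.kummerSystemJ p N)
    (Fermat.Agent.ES.J.KummerSystemJ8.heckeCompatJ p N)
  have hpx : ∀ t : TJ p N, p • proj 1 t = 0 := by
    intro t
    have := pow_smul_proj 1 t
    rwa [pow_one] at this
  refine ⟨proj 1 (ι₀ y), ?_, hpx _, ?_⟩
  · intro h0
    rw [proj_eq_zero_iff' 1] at h0
    obtain ⟨t, ht⟩ := h0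
    rw [pow_one] at ht
    exact hy (exists_smul_of_iota_eq_smul ι₀ hbc y t ht)
  · intro ℓ hℓ hℓN hℓG
    obtain ⟨z, hz⟩ := hyT ℓ hℓ hℓN hℓG
    have h1 : heckeOperatorBar N ⟨ℓ, hℓ⟩ (proj 1 (ι₀ y)) = proj 1 (tT p N ⟨ℓ, hℓ⟩ (ι₀ y)) := rfl
    have h2 : dcZ N ℓ hℓ hℓN y = a ℓ • y + (p : ℤ) • z := by
      rw [← hz]; abel
    rw [h1, hheck ℓ hℓ hℓN y, h2, map_add, map_add, map_zsmul, map_zsmul, map_zsmul, map_zsmul,
      natCast_zsmul, hpx, add_zero]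

/-- **occurrence in `J₀(N)(ℚ̄)[p]`** under the hypotheses carried by `ModularRepOfLevel N`. -/
theorem occursJ (W : WeierstrassCurve ℤ)
    (f : CuspForm (Gamma0 N) 2) (𝔪 : Ideal (integralClosure ℤ ℂ))
    (hf : f.IsNormalizedEigenform) (hmax : 𝔪.IsMaximal) (hpm : (p : integralClosure ℤ ℂ) ∈ 𝔪)
    (hcong : CongAt W p N f 𝔪) : OccursJ W p N (Good W N p) := by
  obtain ⟨y, hy, hyT⟩ :=
    Fermat.Agent.U44.OccurDesc7.exists_lattice_eigen hp.out W f 𝔪 hf hmax hpm hcong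
  obtain ⟨x, hx0, hpx, hxT⟩ := exists_torsion_eigen (p := p) (fun ℓ => W.apOfModel ℓ)
    (Good W N p) y hy (fun ℓ hℓ hℓN hℓG => hyT ℓ hℓ hℓN hℓG.2.1 hℓG.2.2.2)
  exact ⟨x, hx0, hpx, fun ℓ hℓG => hxT ℓ.1 ℓ.2 hℓG.2.2.1 hℓG⟩

end Fermat.Agent.U44.EigenTors7
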