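/-
Programme U44 (S44), chapter (WIRE)/(C1), part B (helper7): **the determinant of an irreducible
rank-two representation from quadratic relations at a dense set of elements** (no Weil pairing).

`ρ : G →* End_F V`, `dim V = 2`, irreducible; `d : G →* Fˣ`; `Φ φ a` a set of pairs ("Frobenius
elements with their trace") with `ρ(φ)² − a ρ(φ) + d(φ) = 0`, dense in the sense that every `g` acts
on `V` and through `d` like a power of some `φ`.  Then

* `det_eq`     : `det ρ(g) = d(g)` for every `g`;
* `charpoly_eq`: `charpoly ρ(φ) = X² − a X + d(φ)` for every `(φ, a) ∈ Φ` (also when `ρ(φ)` is scalar).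

Idea: a non-scalar endomorphism of a plane killed by `X² − aX + δ` has trace `a` and determinant `δ`
(Cayley–Hamilton); non-scalar elements exist by irreducibility and generate `G`.
-/
import Mathlib

set_option autoImplicit false
set_option linter.unusedSectionVars false
set_option linter.style.haveILetI false

noncomputable section

namespace Fermat.Agent.U44.RankTwoDet7

open Polynomial Module

variable {F : Type*} [Field F] {V : Type*} [AddCommGroup V] [Module F V]

/-- the characteristic polynomial in rank two. -/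
theorem charpoly_eq_of_basis (b : Basis (Fin 2) F V) (f : End F V) :
    haveI : Module.Finite F V := Module.Finite.of_basis b
    haveI : Module.Free F V := Module.Free.of_basis b
    f.charpoly = X ^ 2 - C (LinearMap.trace F V f) * X + C (LinearMap.det f) := by
  haveI : Module.Finite F V := Module.Finite.of_basis b
  haveI : Module.Free F V := Module.Free.of_basis b
  rw [← LinearMap.charpoly_toMatrix f b, Matrix.charpoly_fin_two,
    ← LinearMap.trace_eq_matrix_trace F b, LinearMap.det_toMatrix b]

/-- **Cayley–Hamilton in rank two.** -/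
theorem sq_sub_trace_add_det (b : Basis (Fin 2) F V) (f : End F V) :
    f * f - LinearMap.trace F V f • f + LinearMap.det f • (1 : End F V) = 0 := by
  haveI : Module.Finite F V := Module.Finite.of_basis b
  haveI : Module.Free F V := Module.Free.of_basis b
  have h := LinearMap.aeval_self_charpoly f
  rw [charpoly_eq_of_basis b f] at h
  simpa [sq, Algebra.smul_def] using h

/-- a non-scalar endomorphism of a plane killed by `X² − aX + δ` has trace `a` and
determinant `δ`. -/
theorem trace_det_of_quadratic (b : Basis (Fin 2) F V) (f : End F V) {a δ : F}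
    (h : f * f - a • f + δ • (1 : End F V) = 0) (hns : ∀ c : F, f ≠ c • (1 : End F V)) :
    LinearMap.trace F V f = a ∧ LinearMap.det f = δ := by
  have h1 := sq_sub_trace_add_det b f
  have h2 : (LinearMap.trace F V f - a) • f = (LinearMap.det f - δ) • (1 : End F V) := by
    have e : (LinearMap.trace F V f - a) • f - (LinearMap.det f - δ) • (1 : End F V) =
        (f * f - a • f + δ • (1 : End F V)) -
          (f * f - LinearMap.trace F V f • f + LinearMap.det f • (1 : End F V)) := by
      simp only [sub_smul]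
      abel
    rw [h, h1, sub_zero] at e
    exact sub_eq_zero.mp e
  by_cases ht : LinearMap.trace F V f = a
  · refine ⟨ht, ?_⟩
    rw [ht, sub_self, zero_smul] at h2
    have h3 := congrArg (fun g : End F V => g (b 0)) h2.symm
    simp only [LinearMap.smul_apply, Module.End.one_apply, LinearMap.zero_apply] at h3
    rcases smul_eq_zero.mp h3 with h4 | h4
    · exact sub_eq_zero.mp h4
    · exact absurd h4 (b.ne_zero 0)
  · exfalso
    have hne := sub_ne_zero.mpr ht
    apply hns ((LinearMap.trace F V f - a)⁻¹ * (LinearMap.det f - δ))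
    calc f = (LinearMap.trace F V f - a)⁻¹ • ((LinearMap.trace F V f - a) • f) := by
          rw [smul_smul, inv_mul_cancel₀ hne, one_smul]
      _ = _ := by rw [h2, smul_smul]

variable {G : Type*} [Group G] (ρ : G →* End F V) (d : G →* Fˣ)

/-- `ρ g` is a scalar. -/
def IsScalar (g : G) : Prop := ∃ c : F, ρ g = c • (1 : End F V)

theorem isScalar_mul {g h : G} (hg : IsScalar ρ g) (hh : IsScalar ρ h) : IsScalar ρ (g * h) := by
  obtain ⟨c, hc⟩ := hg
  obtain ⟨c', hc'⟩ := hh
  refine ⟨c * c', ?_⟩
  rw [map_mul, hc, hc', smul_mul_smul_comm, mul_one]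

theorem isScalar_inv {g : G} (hg : IsScalar ρ g) : IsScalar ρ g⁻¹ := by
  obtain ⟨c, hc⟩ := hg
  refine ⟨c⁻¹, ?_⟩
  by_cases hc0 : c = 0
  · -- impossible unless `V` is trivial; then everything is `0`
    have h1 : (1 : End F V) = 0 := by
      have : ρ g * ρ g⁻¹ = 1 := by rw [← map_mul, mul_inv_cancel, map_one]
      rw [← this, hc, hc0, zero_smul, zero_mul]
    have h2 : ∀ f : End F V, f = 0 := fun f => by rw [← mul_one f, h1, mul_zero]
    rw [h2 (ρ g⁻¹), h2 (c⁻¹ • (1 : End F V))]
  · have h1 : ρ g⁻¹ * ρ g = 1 := by rw [← map_mul, inv_mul_cancel, map_one]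
    rw [hc, mul_smul_comm, mul_one] at h1
    calc ρ g⁻¹ = c⁻¹ • (c • ρ g⁻¹) := by rw [smul_smul, inv_mul_cancel₀ hc0, one_smul]
      _ = _ := by rw [h1]

theorem isScalar_pow {g : G} (hg : IsScalar ρ g) (j : ℕ) : IsScalar ρ (g ^ j) := by
  induction j with
  | zero => exact ⟨1, by rw [pow_zero, map_one, one_smul]⟩
  | succ j ih => rw [pow_succ]; exact isScalar_mul ρ ih hg

variable (hirr : ∀ W : Submodule F V, (∀ g, ∀ w ∈ W, ρ g w ∈ W) → W = ⊥ ∨ W = ⊤)

include hirr in
/-- an irreducible representation on a plane has a non-scalar element. -/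
theorem exists_not_isScalar (b : Basis (Fin 2) F V) : ∃ h : G, ¬ IsScalar ρ h := by
  by_contra hall
  push Not at hall
  have hb0 : b 0 ≠ 0 := b.ne_zero 0
  rcases hirr (Submodule.span F {b 0}) (fun g w hw => by
    obtain ⟨c, hc⟩ := hall g
    rw [hc, LinearMap.smul_apply, Module.End.one_apply]
    exact Submodule.smul_mem _ _ hw) with h | h
  · rw [Submodule.span_singleton_eq_bot] at h
    exact hb0 h
  · have h1 : b 1 ∈ Submodule.span F {b 0} := by rw [h]; exact Submodule.mem_top
    obtain ⟨c, hc⟩ := Submodule.mem_span_singleton.mp h1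
    have hli := b.linearIndependent
    have h4 := Fintype.linearIndependent_iff.mp hli ![c, -1] (by
      rw [Fin.sum_univ_two]
      simp only [Matrix.cons_val_zero, Matrix.cons_val_one]
      rw [hc, neg_smul, one_smul, add_neg_cancel]) 1
    simp only [Matrix.cons_val_one] at h4
    exact one_ne_zero (neg_eq_zero.mp h4)

variable (Φ : G → F → Prop)
  (hΦ : ∀ φ a, Φ φ a → ρ φ * ρ φ - a • ρ φ + ((d φ : Fˣ) : F) • (1 : End F V) = 0)
  (hdense : ∀ g : G, ∃ φ a, ∃ j : ℕ, Φ φ a ∧ ρ (g⁻¹ * φ ^ j) = 1 ∧ d (g⁻¹ * φ ^ j) = 1)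

include hΦ hdense in
/-- the determinant of a non-scalar element. -/
theorem det_eq_of_not_isScalar (b : Basis (Fin 2) F V) {g : G} (hg : ¬ IsScalar ρ g) :
    LinearMap.det (ρ g) = ((d g : Fˣ) : F) := by
  obtain ⟨φ, a, j, hφ, h1, h2⟩ := hdense g
  have e1 : ρ g = ρ (φ ^ j) := by
    have : ρ (φ ^ j) = ρ g * ρ (g⁻¹ * φ ^ j) := by rw [← map_mul, mul_inv_cancel_left]
    rw [this, h1, mul_one]
  have e2 : d g = d (φ ^ j) := by
    have : d (φ ^ j) = d g * d (g⁻¹ * φ ^ j) := by rw [← map_mul, mul_inv_cancel_left]
    rw [this, h2, mul_one]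
  have hφns : ¬ IsScalar ρ φ := fun h => hg (by
    obtain ⟨c, hc⟩ := isScalar_pow ρ h j
    exact ⟨c, by rw [e1, hc]⟩)
  have h3 := (trace_det_of_quadratic b (ρ φ) (hΦ φ a hφ) (fun c hc => hφns ⟨c, hc⟩)).2
  rw [e1, e2, map_pow, map_pow, map_pow, h3, Units.val_pow_eq_pow_val]

include hirr hΦ hdense in
/-- **the determinant is `d`.** -/
theorem det_eq (b : Basis (Fin 2) F V) (g : G) : LinearMap.det (ρ g) = ((d g : Fˣ) : F) := by
  by_cases hg : IsScalar ρ g
  · obtain ⟨h, hh⟩ := exists_not_isScalar ρ hirr b
    have hgh : ¬ IsScalar ρ (g * h) := by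
      intro hs
      apply hh
      have := isScalar_mul ρ (isScalar_inv ρ hg) hs
      rwa [inv_mul_cancel_left] at this
    have h1 := det_eq_of_not_isScalar ρ d Φ hΦ hdense b hgh
    have h2 := det_eq_of_not_isScalar ρ d Φ hΦ hdense b hh
    rw [map_mul, map_mul, map_mul, Units.val_mul, h2] at h1
    exact mul_right_cancel₀ (Units.ne_zero (d h)) h1
  · exact det_eq_of_not_isScalar ρ d Φ hΦ hdense b hg

include hirr hΦ hdense in
/-- **the characteristic polynomials at the elements of `Φ`.** -/
theorem charpoly_eq (b : Basis (Fin 2) F V) {φ : G} {a : F} (hφ : Φ φ a) :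
    haveI : Module.Finite F V := Module.Finite.of_basis b
    haveI : Module.Free F V := Module.Free.of_basis b
    (ρ φ).charpoly = X ^ 2 - C a * X + C ((d φ : Fˣ) : F) := by
  haveI : Module.Finite F V := Module.Finite.of_basis b
  haveI : Module.Free F V := Module.Free.of_basis b
  have hdet := det_eq ρ d hirr Φ hΦ hdense b φ
  have htr : LinearMap.trace F V (ρ φ) = a := by
    by_cases hs : IsScalar ρ φ
    · obtain ⟨c, hc⟩ := hs
      have hrel := hΦ φ a hφ
      have hc2 : c * c = ((d φ : Fˣ) : F) := by
        rw [← hdet, hc, LinearMap.det_smul, map_one, mul_one,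
          Module.finrank_eq_card_basis b, Fintype.card_fin, sq]
      have hc0 : c ≠ 0 := by
        intro h0
        rw [h0, mul_zero] at hc2
        exact Units.ne_zero (d φ) hc2.symm
      -- `c² − a c + c² = 0`
      have h3 := congrArg (fun g : End F V => g (b 0)) hrel
      simp only [hc, LinearMap.sub_apply, LinearMap.add_apply, LinearMap.smul_apply,
        Module.End.mul_apply, Module.End.one_apply, LinearMap.zero_apply, smul_smul] at h3
      rw [← sub_smul, ← add_smul] at h3
      have h4 : c * c - a * c + ((d φ : Fˣ) : F) = 0 :=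
        (smul_eq_zero.mp h3).resolve_right (b.ne_zero 0)
      have h5 : a = 2 * c := by
        have : (2 * c - a) * c = 0 := by rw [← h4, ← hc2]; ring
        rcases mul_eq_zero.mp this with h6 | h6
        · exact (sub_eq_zero.mp h6).symm
        · exact absurd h6 hc0
      rw [hc, map_smul, LinearMap.trace_one, Module.finrank_eq_card_basis b, Fintype.card_fin, h5,
        smul_eq_mul, mul_comm]
      norm_num
    · exact (trace_det_of_quadratic b (ρ φ) (hΦ φ a hφ) (fun c hc => hs ⟨c, hc⟩)).1
  rw [charpoly_eq_of_basis b (ρ φ), htr, hdet]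

end Fermat.Agent.U44.RankTwoDet7
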