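/-
Programme U44 (S44), chapter (WIRE)/(C1) (helper7): **the contract (C1) is a theorem.**

`c1 : Wire7.C1Stmt` : under the hypotheses carried by `ModularRepOfLevel N` (a normalised eigenform `f`
of level `N` congruent to the integral model `W` of the Frey curve modulo a maximal ideal over `p`) and
the irreducibility of `E[p]`, the Galois module `E[p]` embeds `G_ℚ`-equivariantly into `J₀(N)(ℚ̄)`,
inside the common eigenspace `T_ℓ = a_ℓ(W)` of the good primes `ℓ ∤ N p`.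

Chain: `EigenTors7.occursJ` (the eigen-subgroup `X ⊆ J₀(N)(ℚ̄)[p]` is nonzero) — Eichler–Shimura on `X`
(`EigenSub7.frob_rel`) and on `E[p]` (`FreyRep7.frob_rel`) — Chebotarev (`ChebQbar23`) —
`det ρ_E = χ_p` and the characteristic polynomials at Frobenius elements (`RankTwoDet7`) — complex
conjugation ⇒ `ρ_E(G_ℚ)` spans `M₂(𝔽_p)` (`BurnsideOdd7`) — Cayley–Hamilton on `X` (`S32x/EigenW5B`) —
Boston–Lenstra–Ribet (`S32x/MoritaA`) — a nonzero component of `E[p] → Xⁿ` is injective.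
-/
import Mathlib
import Fermat.Agent.U44.Wire7
import Fermat.Agent.U44.EigenTors7
import Fermat.Agent.U44.BurnsideOdd7
import Fermat.Agent.U44.RankTwoDet7
import Fermat.Agent.U44.FreyRep7
import Fermat.Agent.U44.EigenSub7
import Fermat.Agent.S32x.EigenW5B
import Fermat.Agent.S32x.MoritaA
import Fermat.Agent.ES.GAL.ChebQbar23

set_option autoImplicit false
set_option linter.unusedSectionVars false
set_option linter.style.haveILetI false
set_option maxHeartbeats 1000000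

open WeierstrassCurve WeierstrassCurve.Affine WeierstrassCurve.Affine.Point
open AlgebraicCurve ModularCurve Polynomial

noncomputable section

namespace Fermat.Agent.U44.C1Main7

open Fermat.Agent.U44.Wire7 Fermat.Agent.U44.FreyRep7 Fermat.Agent.U44.EigenSub7
open Fermat.Agent.ES.ALG.RelDense9

variable (P : FreyPackage) {N : ℕ} [NeZero N] (W : WeierstrassCurve ℤ)

/-- "`φ` is a Frobenius element at a good prime `ℓ ∤ N p` and `t = a_ℓ(W) mod p`". -/
def FrobAt (φ : GQ) (t : ZMod P.p) : Prop :=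
  ∃ (ℓ : ℕ) (A : ValuationSubring Qb), ℓ ∈ Good W N P.p ∧ A.LiesOverPrime ℓ ∧
    A.IsFrobeniusAt φ ℓ ∧ t = ((W.apOfModel ℓ : ℤ) : ZMod P.p)

/-- **Chebotarev**: every `g` acts on `X`, on `E[p]` and through the cyclotomic character like a
power of a Frobenius element at a good prime. -/
theorem dense (hW : W.IsIntegralModelOf P.freyCurve) (g : GQ) :
    haveI : Fact P.p.Prime := ⟨P.pp⟩
    ∃ (φ : GQ) (t : ZMod P.p) (j : ℕ), FrobAt P (N := N) W φ t ∧
      rhoX N P.p (fun ℓ => W.apOfModel ℓ) (Good W N P.p) (g⁻¹ * φ ^ j) = 1 ∧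
      rhoV P (g⁻¹ * φ ^ j) = 1 ∧ dmod P.p (g⁻¹ * φ ^ j) = 1 := by
  classical
  haveI : Fact P.p.Prime := ⟨P.pp⟩
  haveI : NeZero P.p := ⟨P.hp0⟩
  obtain ⟨K₁, hK₁, H₁⟩ := hasLevel_eigenSub N P.p (fun ℓ => W.apOfModel ℓ) (Good W N P.p)
  obtain ⟨K₂, hK₂, H₂⟩ := hasLevel_Ep P
  obtain ⟨K₃, hK₃, H₃⟩ := hasLevel_dmod P.p
  have := hK₁
  have := hK₂
  have := hK₃
  have hΔ : W.Δ ≠ 0 := model_Δ_ne_zero P hW
  set T' : Finset ℕ := {P.p} ∪ N.primeFactors ∪ W.Δ.natAbs.primeFactors with hT'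
  obtain ⟨ℓ, A, φ, j, hℓ, hℓT, hA, hφ, hj⟩ :=
    Fermat.Agent.ES.GAL.ChebQbar23.exists_frobenius_pow_eq_on (K₁ ⊔ K₂ ⊔ K₃) g T'
  have hℓp : ℓ ≠ P.p := fun h => hℓT (by simp [hT', h])
  have hℓN : ¬ ℓ ∣ N := fun h => hℓT (by
    have : ℓ ∈ N.primeFactors := Nat.mem_primeFactors.mpr ⟨hℓ, h, NeZero.ne N⟩
    simp [hT', this])
  have hgood : W.IsGoodPrimeFor ℓ := by
    intro hdvd
    apply hℓT
    have : ℓ ∈ W.Δ.natAbs.primeFactors := by
      rw [Nat.mem_primeFactors]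
      exact ⟨hℓ, Int.natCast_dvd.mp hdvd, Int.natAbs_ne_zero.mpr hΔ⟩
    simp [hT', this]
  set τ : GQ := g⁻¹ * φ ^ j with hτ
  have hτfix : ∀ x ∈ K₁ ⊔ K₂ ⊔ K₃, τ x = x := by
    intro x hx
    rw [hτ, AlgEquiv.mul_apply, hj x hx]
    exact g.symm_apply_apply x
  refine ⟨φ, ((W.apOfModel ℓ : ℤ) : ZMod P.p), j, ⟨ℓ, A, ⟨hℓ, hgood, hℓN, hℓp⟩, hA, hφ, rfl⟩,
    H₁ τ fun x hx => hτfix x ?_, ?_, H₃ τ fun x hx => hτfix x ?_⟩
  · exact (le_sup_left : K₁ ⊔ K₂ ≤ K₁ ⊔ K₂ ⊔ K₃) ((le_sup_left : K₁ ≤ K₁ ⊔ K₂) hx)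
  · refine LinearMap.ext fun v => ?_
    rw [rhoV_apply, Module.End.one_apply]
    exact H₂ τ (fun x hx => hτfix x
      ((le_sup_left : K₁ ⊔ K₂ ≤ K₁ ⊔ K₂ ⊔ K₃) ((le_sup_right : K₂ ≤ K₁ ⊔ K₂) hx))) v
  · exact (le_sup_right : K₃ ≤ K₁ ⊔ K₂ ⊔ K₃) hx

/-- the quadratic relation on `E[p]` at the elements of `FrobAt`. -/
theorem frobAt_rel_V (hW : W.IsIntegralModelOf P.freyCurve) {φ : GQ} {t : ZMod P.p}
    (h : FrobAt P (N := N) W φ t) :
    haveI : Fact P.p.Prime := ⟨P.pp⟩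
    rhoV P φ * rhoV P φ - t • rhoV P φ +
      ((dmod P.p φ : (ZMod P.p)ˣ) : ZMod P.p) • (1 : Module.End (ZMod P.p) (Ep P)) = 0 := by
  haveI : Fact P.p.Prime := ⟨P.pp⟩
  obtain ⟨ℓ, A, ⟨hℓ, hgood, -, hℓp⟩, hA, hφ, rfl⟩ := h
  refine LinearMap.ext fun v => ?_
  have h1 := frob_rel P hW hℓ hgood hℓp A hA φ hφ v
  rw [dmod_frob P.p hℓ hℓp A hA hφ]
  simp only [LinearMap.add_apply, LinearMap.sub_apply, LinearMap.smul_apply, Module.End.mul_apply,
    Module.End.one_apply, rhoV_apply, LinearMap.zero_apply]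
  rw [Int.cast_smul_eq_zsmul, Nat.cast_smul_eq_nsmul]
  exact h1

theorem one_ne_neg_one : (1 : ZMod P.p) ≠ -1 := by
  haveI : Fact P.p.Prime := ⟨P.pp⟩
  intro h
  have h2 : ((2 : ℕ) : ZMod P.p) = 0 := by
    have : (1 : ZMod P.p) + 1 = 0 := by
      nth_rewrite 2 [h]
      exact add_neg_cancel 1
    rw [← this]
    norm_num
  rw [ZMod.natCast_eq_zero_iff] at h2
  have := Nat.le_of_dvd (by norm_num) h2
  have := P.hp5
  omega

/-- **(C1)**: the Frey representation embeds in the eigen-subgroup of `J₀(N)(ℚ̄)[p]`. -/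
theorem freyEmbeds (hirr : GaloisRepIsIrreducible (K := Qb) ℚ P.freyCurve P.p)
    (f : CuspForm (CongruenceSubgroup.Gamma0 N) 2) (𝔪 : Ideal (integralClosure ℤ ℂ))
    (hf : f.IsNormalizedEigenform) (hW : W.IsIntegralModelOf P.freyCurve) (hmax : 𝔪.IsMaximal)
    (hpm : (P.p : integralClosure ℤ ℂ) ∈ 𝔪) (hcong : CongAt W P.p N f 𝔪) :
    FreyEmbeds P W N (Good W N P.p) := by
  classical
  haveI : Fact P.p.Prime := ⟨P.pp⟩
  haveI : NeZero P.p := ⟨P.hp0⟩
  -- the plane `E[p]`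
  have hV2 : Module.finrank (ZMod P.p) (Ep P) = 2 := finrank_Ep P
  haveI : Module.Finite (ZMod P.p) (Ep P) :=
    Module.finite_of_finrank_pos (by rw [hV2]; norm_num)
  let b : Module.Basis (Fin 2) (ZMod P.p) (Ep P) := Module.finBasisOfFinrankEq _ _ hV2
  have hirrV := irr_rhoV P hirr
  have hΦV : ∀ φ t, FrobAt P (N := N) W φ t → rhoV P φ * rhoV P φ - t • rhoV P φ +
      ((dmod P.p φ : (ZMod P.p)ˣ) : ZMod P.p) • (1 : Module.End (ZMod P.p) (Ep P)) = 0 :=
    fun φ t h => frobAt_rel_V P W hW h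
  have hdenseV : ∀ g : GQ, ∃ φ t, ∃ j : ℕ, FrobAt P (N := N) W φ t ∧
      rhoV P (g⁻¹ * φ ^ j) = 1 ∧ dmod P.p (g⁻¹ * φ ^ j) = 1 := by
    intro g
    obtain ⟨φ, t, j, h1, -, h3, h4⟩ := dense P (N := N) W hW g
    exact ⟨φ, t, j, h1, h3, h4⟩
  have hdet := RankTwoDet7.det_eq (rhoV P) (dmod P.p) hirrV (FrobAt P (N := N) W) hΦV hdenseV b
  -- complex conjugation: the image spans `M₂(𝔽_p)`
  have hne := one_ne_neg_one P
  have hspan : Submodule.span (ZMod P.p) (Set.range (rhoV P)) = ⊤ := by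
    refine BurnsideOdd7.span_range_eq_top_of_odd (rhoV P) hirrV b complexConjugation ?_ ?_ ?_
    · rw [← map_mul, complexConjugation_mul_self, map_one]
    · intro h1
      have h2 := hdet complexConjugation
      rw [h1, map_one, dmod_conj] at h2
      exact hne h2
    · intro h1
      have h2 := hdet complexConjugation
      rw [h1, dmod_conj] at h2
      have h3 : LinearMap.det (-1 : Module.End (ZMod P.p) (Ep P)) = 1 := by
        have e : (-1 : Module.End (ZMod P.p) (Ep P)) = (-1 : ZMod P.p) • 1 := by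
          rw [neg_smul, one_smul]
        rw [e, LinearMap.det_smul, hV2, map_one]
        norm_num
      rw [h3] at h2
      exact hne h2
  -- the eigen-subgroup `X`
  obtain ⟨x0, hx0, hpx0, hTx0⟩ :=
    Fermat.Agent.U44.EigenTors7.occursJ (N := N) (p := P.p) W f 𝔪 hf hmax hpm hcong
  set aW : ℕ → ℤ := fun ℓ => W.apOfModel ℓ with haW
  have hx0mem : x0 ∈ eigenSub N P.p aW (Good W N P.p) := ⟨hpx0, hTx0⟩
  haveI : Finite ↥(eigenSub N P.p aW (Good W N P.p)) := finite_eigenSub N P.p aW (Good W N P.p)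
  haveI : Module.Finite (ZMod P.p) ↥(eigenSub N P.p aW (Good W N P.p)) := Module.Finite.of_finite
  -- Cayley–Hamilton on `X`
  have hCH : ∀ g : GQ, rhoX N P.p aW (Good W N P.p) g +
      ((Units.coeHom (ZMod P.p)).comp (dmod P.p)) g • rhoX N P.p aW (Good W N P.p) g⁻¹ =
      LinearMap.trace (ZMod P.p) (Ep P) (rhoV P g) •
        (1 : Module.End (ZMod P.p) ↥(eigenSub N P.p aW (Good W N P.p))) := by
    intro g
    refine LinearMap.ext fun w => ?_
    have key := Fermat.Agent.S32x.EigenW5B.add_smul_inv_apply_eq_trace5 hV2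
      (rhoX N P.p aW (Good W N P.p)) (rhoV P) (dmod P.p) (fun _ => (⊥ : Ideal (ZMod P.p)))
      (fun x hx => by
        have := hx 0
        rwa [Submodule.bot_smul, Submodule.mem_bot] at this)
      ⊤ (fun _ _ _ => Submodule.mem_top) (FrobAt P (N := N) W)
      (fun φ t h w _ => by
        obtain ⟨ℓ, A, ⟨hℓ, hgood, hℓN, hℓp⟩, hA, hφ, rfl⟩ := h
        have hℓp' : ¬ ℓ ∣ P.p := fun hd => hℓp ((Nat.prime_dvd_prime_iff_eq hℓ P.pp).mp hd)
        rw [dmod_frob P.p hℓ hℓp A hA hφ]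
        exact EigenSub7.frob_rel hℓ (show ℓ ∈ Good W N P.p from ⟨hℓ, hgood, hℓN, hℓp⟩) hℓN hℓp'
          hA hφ w)
      (fun φ t h => RankTwoDet7.charpoly_eq (rhoV P) (dmod P.p) hirrV (FrobAt P (N := N) W) hΦV
        hdenseV b h)
      (fun _ g => by
        obtain ⟨φ, t, j, h1, h2, h3, h4⟩ := dense P (N := N) W hW g
        refine ⟨φ, t, j, h1, ?_, ?_, ?_⟩
        · rw [h2]; exact EndCongr.refl _ _
        · rw [h3]; exact EndCongr.refl _ _
        · rw [h4, Units.val_one, sub_self]; exact Submodule.zero_mem _)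
      g (w := w) Submodule.mem_top
    simpa using key
  -- Boston–Lenstra–Ribet
  have h2 : IsUnit (2 : ZMod P.p) := by
    refine isUnit_iff_ne_zero.mpr fun h0 => hne ?_
    have : (1 : ZMod P.p) + 1 = 0 := by rw [one_add_one_eq_two]; exact h0
    exact eq_neg_of_add_eq_zero_left this
  have hfaith : ∀ t : ZMod P.p, (∀ w : ↥(eigenSub N P.p aW (Good W N P.p)), t • w = 0) → t = 0 := by
    intro t ht
    have h1 := ht ⟨x0, hx0mem⟩
    rcases smul_eq_zero.mp h1 with h | h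
    · exact h
    · exact absurd (congrArg Subtype.val h) hx0
  obtain ⟨n, Φ, hΦinj, hΦeq⟩ := Fermat.Agent.S32x.MoritaA.exists_embedding_of_basis
    (W := ↥(eigenSub N P.p aW (Good W N P.p))) (ρW := rhoX N P.p aW (Good W N P.p))
    (d := (Units.coeHom (ZMod P.p)).comp (dmod P.p)) b (rhoV P) hspan hCH h2 hfaith
  -- a nonzero component is injective
  haveI : Nontrivial (Ep P) := hirr.1
  obtain ⟨v0, hv0⟩ := exists_ne (0 : Ep P)
  have hex : ∃ i, Φ v0 i ≠ 0 := by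
    by_contra hall
    push Not at hall
    apply hv0
    apply hΦinj
    rw [_root_.map_zero]
    funext i
    exact hall i
  obtain ⟨i, hi⟩ := hex
  let Φi : Ep P →ₗ[ZMod P.p] ↥(eigenSub N P.p aW (Good W N P.p)) := (LinearMap.proj i).comp Φ
  have hΦi : ∀ v, Φi v = Φ v i := fun v => rfl
  have hker : LinearMap.ker Φi = ⊥ := by
    rcases hirrV (LinearMap.ker Φi) (fun g w hw => by
      rw [LinearMap.mem_ker, hΦi] at hw ⊢
      rw [hΦeq, hw, _root_.map_zero]) with h | h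
    · exact h
    · exfalso
      apply hi
      have : v0 ∈ LinearMap.ker Φi := by rw [h]; exact Submodule.mem_top
      rwa [LinearMap.mem_ker, hΦi] at this
  refine ⟨(eigenSub N P.p aW (Good W N P.p)).subtype.comp Φi.toAddMonoidHom, ?_, ?_, ?_⟩
  · intro v v' hvv'
    have h1 : Φi v = Φi v' := Subtype.ext hvv'
    exact LinearMap.ker_eq_bot.mp hker h1
  · intro σ z
    show ((Φi (σ • z) : ↥(eigenSub N P.p aW (Good W N P.p))) : JZero N) = σ • ((Φi z : _) : JZero N)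
    rw [hΦi, hΦi, ← rhoV_apply, hΦeq]
    rfl
  · intro ℓ hℓ z
    exact (Φi z).2.2 ℓ hℓ

/-- **the contract (C1) holds.** -/
theorem c1 : C1Stmt := by
  intro P N _ hcond hpN hirr f W 𝔪 hf hW hmax hpm hcong
  exact freyEmbeds P W hirr f 𝔪 hf hW hmax hpm hcong

end Fermat.Agent.U44.C1Main7
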