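/-
Programme U44 (target S44), chapter (GAMMA) → (LIFT), the deck-group package in helper5's shape
(lead).  `h : LevelHyp p M' A`, `L = M'` (`4 ∣ M'`, `p ∤ M'`).

* case E (`d = 1`): `phiE : FF (M'/2) →ₐ FF M'` the inclusion, `Γ = Gam2 M' h4 = {1, τ'}`;
* case O (`d = 2`, `M'/4` odd): `phiO : FF (M'/4) →ₐ FF M'`, `x ↦ x(q²)`, `Γ = Gam6 M' h4 = ⟨τ, τ'⟩`;
* for both: `coe_phi` (series of `φ x` is `qExpand d x`), `finiteAlong_phi`, `Finite Γ`, `Nat.card Γ`,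
  `fix_phi` (`Γ`-fixed ⇒ in the range of `φ`), `gam_phi` (`Γ` fixes the range of `φ`);
* the reduction package: every `g ∈ Γ` preserves `Ov0 h` and has a reduction `ḡ` in the group
  generated by `τ̄ = tauB h`, `τ̄' = tauB' h`, with `ρ₀ (g a) = ḡ (ρ₀ a)`; and a class
  `y ∈ Pic⁰(Fb A M')` fixed by (the generators) `τ̄'` (case E) resp. `τ̄, τ̄'` (case O) is fixed by all
  these `ḡ` (`hred_E`, `hred_O`).
-/
import Mathlib
import Fermat.Agent.U44.GammaSix0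
import Fermat.Agent.U44.GammaGauss2
import Fermat.Agent.ES.HECKE.AlongDegree25

set_option autoImplicit false
set_option linter.unusedSectionVars false
set_option linter.style.haveILetI false
set_option synthInstance.maxHeartbeats 400000

noncomputable section

namespace Fermat.Agent.U44.GammaPack0

open HahnSeries ModularCurve IntermediateField AlgebraicCurve
open Fermat.Agent.X0 Fermat.Agent.ES.KRON.KronCong24 Fermat.Agent.ES.N34.FrickeFK8
  Fermat.Agent.U44.GammaTwist2 Fermat.Agent.U44.GammaLevel2 Fermat.Agent.U44.GammaSix0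
  Fermat.Agent.U44.GammaGauss2 Fermat.Agent.ES.HECKE.LevelPullback12
  Fermat.Agent.T33.NodalHalf4 Fermat.Agent.T33.FrickeRed3 Fermat.Agent.ES.RED
  Fermat.Agent.RED.Interface4

/-! ### the two maps `φ` -/

section Maps

variable (L : ℕ) [NeZero L] (h4 : 4 ∣ L)

include h4 in
theorem half_dvd : L / 2 ∣ L := Nat.div_dvd_of_dvd (dvd_trans (by norm_num) h4)

/-- case E: the inclusion `Fbar (L/2) → Fbar L`. -/
def phiE [NeZero (L / 2)] : FF (L / 2) →ₐ[Kbar] FF L := levelIncl (half_dvd L h4)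

theorem coe_phiE [NeZero (L / 2)] (x : FF (L / 2)) :
    ((phiE L h4 x : FF L) : LaurentSeries Kbar) = qExpand Kbar 1 (x : LaurentSeries Kbar) := by
  rw [qExpand_one_apply]
  exact coe_levelIncl _ x

theorem finiteAlong_phiE [NeZero (L / 2)] : FiniteAlong Kbar (phiE L h4) :=
  levelIncl_finiteAlong (half_dvd L h4)

/-- `Γ`-fixed elements come from `Fbar (L/2)`. -/
theorem fix_phiE [NeZero (L / 2)] (a : FF L) (ha : ∀ g ∈ Gam2 L h4, g a = a) :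
    a ∈ (phiE L h4).range := by
  have h1 := (tau'L_eq_self_iff L h4 a).1 ((fixed_Gam2_iff L h4 a).1 ha)
  exact ⟨⟨_, h1⟩, Subtype.ext (coe_levelIncl _ _)⟩

theorem gam_phiE [NeZero (L / 2)] (g : FF L ≃ₐ[Kbar] FF L) (hg : g ∈ Gam2 L h4)
    (a0 : FF (L / 2)) : g (phiE L h4 a0) = phiE L h4 a0 := by
  refine (fixed_Gam2_iff L h4 _).2 ((tau'L_eq_self_iff L h4 _).2 ?_) g hg
  show ((levelIncl (half_dvd L h4) a0 : FF L) : LaurentSeries Kbar) ∈ _
  rw [coe_levelIncl]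
  exact a0.2

/-- case O: `x ↦ x(q²)`, `Fbar (L/4) → Fbar L`. -/
def phiO [NeZero (L / 4)] : FF (L / 4) →ₐ[Kbar] FF L :=
  ((qExpandAlgHomC Kbar 2).comp (modularFunctionFieldBar (L / 4)).val).codRestrict
    (modularFunctionFieldBar L).toSubalgebra (fun x => betaTwo_le_L L h4
      ((mem_betaTwo_iff _ _).2 ⟨(x : LaurentSeries Kbar), x.2, (qExpandAlgHomC_apply _ _ _)⟩))

theorem coe_phiO [NeZero (L / 4)] (x : FF (L / 4)) :
    ((phiO L h4 x : FF L) : LaurentSeries Kbar) = qExpand Kbar 2 (x : LaurentSeries Kbar) :=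
  qExpandAlgHomC_apply _ _ _

theorem finrankAlong_phiO [NeZero (L / 4)] (hodd : ¬ 2 ∣ L / 4) :
    finrankAlong Kbar (phiO L h4) = 6 := by
  rw [Fermat.Agent.ES.HECKE.AlongDegree25.finrankAlong_eq_relfinrank
    (modularFunctionFieldBar (L / 4)) (modularFunctionFieldBar L) (phiO L h4)
    (qExpandAlgHomC Kbar 2) (fun a => by rw [coe_phiO, qExpandAlgHomC_apply])]
  exact relfinrank_betaTwo_L L h4 hodd

theorem finiteAlong_phiO [NeZero (L / 4)] (hodd : ¬ 2 ∣ L / 4) : FiniteAlong Kbar (phiO L h4) :=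
  Fermat.Agent.ES.HECKE.AlongDegree25.finiteAlong_of_finrankAlong_pos _
    (by rw [finrankAlong_phiO L h4 hodd]; norm_num)

theorem fix_phiO [NeZero (L / 4)] (hodd : ¬ 2 ∣ L / 4) (a : FF L)
    (ha : ∀ g ∈ Gam6 L h4, g a = a) : a ∈ (phiO L h4).range := by
  obtain ⟨c, hc, hac⟩ := (fixed_both_iff L h4 hodd a).1 ((fixed_Gam6_iff L h4 a).1 ha)
  refine ⟨⟨c, hc⟩, Subtype.ext ?_⟩
  rw [hac]
  exact coe_phiO L h4 ⟨c, hc⟩

theorem gam_phiO [NeZero (L / 4)] (hodd : ¬ 2 ∣ L / 4) (g : FF L ≃ₐ[Kbar] FF L)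
    (hg : g ∈ Gam6 L h4) (a0 : FF (L / 4)) : g (phiO L h4 a0) = phiO L h4 a0 := by
  refine (fixed_Gam6_iff L h4 _).2 ((fixed_both_iff L h4 hodd _).2 ?_) g hg
  exact ⟨(a0 : LaurentSeries Kbar), a0.2, coe_phiO L h4 a0⟩

end Maps

/-! ### the reduction package -/

section Red

variable {p M' : ℕ} [NeZero M'] [NeZero p] {A : ValuationSubring Qbar} (h : LevelHyp p M' A)

/-- `g` preserves `Ov0 h` and reduces to `gb`. -/
def RedAut (g : ↥(Fbar M') ≃ₐ[Qbar] ↥(Fbar M')) (gb : Fb A M' ≃ₐ[Setup8.kA A] Fb A M') : Prop :=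
  ∀ (a : ↥(Fbar M')) (ha : a ∈ Ov0 h), ∃ hga : g a ∈ Ov0 h, rho0 h ⟨g a, hga⟩ = gb (rho0 h ⟨a, ha⟩)

theorem redAut_one : RedAut h 1 1 := fun a ha => ⟨ha, rfl⟩

theorem redAut_tauL : RedAut h (tauL M' h.four_dvd) (tauB h) := fun a ha =>
  ⟨tauL_mem_Ov0 h ha, rho0_tauL h ⟨a, ha⟩⟩

theorem redAut_tau'L : RedAut h (tau'L M' h.four_dvd) (tauB' h) := fun a ha =>
  ⟨tau'L_mem_Ov0 h ha, rho0_tau'L h ⟨a, ha⟩⟩

theorem RedAut.mul {g g' : ↥(Fbar M') ≃ₐ[Qbar] ↥(Fbar M')}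
    {gb gb' : Fb A M' ≃ₐ[Setup8.kA A] Fb A M'} (H : RedAut h g gb) (H' : RedAut h g' gb') :
    RedAut h (g * g') (gb * gb') := by
  intro a ha
  obtain ⟨h1, e1⟩ := H' a ha
  obtain ⟨h2, e2⟩ := H (g' a) h1
  refine ⟨h2, ?_⟩
  show rho0 h ⟨g (g' a), h2⟩ = gb (gb' (rho0 h ⟨a, ha⟩))
  rw [e2, e1]

/-- **case O: the reduction package for `Γ = ⟨τ, τ'⟩`.** -/
theorem hred_O (y : JZeroC (Setup8.kA A) M')
    (hy : SemilinearAut.ofAlgAut (tauB h) • y = y)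
    (hy' : SemilinearAut.ofAlgAut (tauB' h) • y = y) :
    ∀ g ∈ Gam6 M' h.four_dvd, ∃ gb : Fb A M' ≃ₐ[Setup8.kA A] Fb A M',
      RedAut h g gb ∧ SemilinearAut.ofAlgAut gb • y = y := by
  refine Gam6_induction M' h.four_dvd ⟨1, redAut_one h, ?_⟩ ⟨_, redAut_tauL h, hy⟩
    ⟨_, redAut_tau'L h, hy'⟩ ?_
  · rw [map_one, one_smul]
  · rintro g g' ⟨gb, H, e⟩ ⟨gb', H', e'⟩
    exact ⟨gb * gb', H.mul h H', by rw [map_mul, mul_smul, e', e]⟩

/-- **case E: the reduction package for `Γ = {1, τ'}`.** -/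
theorem hred_E (y : JZeroC (Setup8.kA A) M')
    (hy' : SemilinearAut.ofAlgAut (tauB' h) • y = y) :
    ∀ g ∈ Gam2 M' h.four_dvd, ∃ gb : Fb A M' ≃ₐ[Setup8.kA A] Fb A M',
      RedAut h g gb ∧ SemilinearAut.ofAlgAut gb • y = y := by
  refine Gam2_induction M' h.four_dvd ⟨1, redAut_one h, ?_⟩ ⟨_, redAut_tau'L h, hy'⟩
  rw [map_one, one_smul]

end Red

end Fermat.Agent.U44.GammaPack0
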