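/-
Programme U44 (target S44), chapter (LIFT), blocks Om-C1 + Om-C2 (lead): **the INSTANCE at the special
fibre of `X₀(M')`**, `h : LevelHyp p M' A` (`4 ∣ M'`, `p ∤ M'`, `A` over `p`), `κ = ResidueField A`,
`Fb A M' = κ·F̃_{M'}`.

Inputs (programme T / FF): `NodalInst6.x1 h = t̃` is a separating generator (`isGen_x1`,
`isSeparable_x1`), `NodalInst6.lHyp_component h : LHyp κ (Fb A M')`.  Outputs: everything of
`U44/SepDiff0`, `CanonSep0`, `ResidueSep0`, `RRSep0` at `Fb A M'`, with no hypothesis left.
-/
import Mathlib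
import Fermat.Agent.U44.RRSep0
import Fermat.Agent.T33.NodalInst6G

set_option autoImplicit false
set_option linter.style.haveILetI false
set_option linter.unusedSectionVars false
set_option synthInstance.maxHeartbeats 400000

namespace Fermat.Agent.U44.RRFb0

open KaehlerDifferential IntermediateField AlgebraicCurve IsLocalRing
open Fermat.Agent.X0.FF Fermat.Agent.RR.LSpace Fermat.Agent.RR.Duality Fermat.Agent.RR.Final
open Fermat.Agent.T33.NodalHalf4 Fermat.Agent.T33.NodalInst6 Fermat.Agent.RED.Interface4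

variable {p M' : ℕ} [NeZero M'] [NeZero p] {A : ValuationSubring Qbar}

/-- the residue field of `A` is algebraically closed. -/
theorem isAlgClosed_res (A : ValuationSubring Qbar) : IsAlgClosed (ResidueField ↥A) :=
  Fermat.Agent.ES.KRON.KronInst10.isAlgClosed_residueField A

section

variable (h : LevelHyp p M' A)

include h

/-- `Ω[Fb⁄κ] = Fb · d t̃`. -/
theorem span_D_x1 :
    Submodule.span (Fb A M') {D (ResidueField ↥A) (Fb A M') (x1 h)} = ⊤ :=
  SepDiff0.span_D_sep (x1 h) (isGen_x1 h).transcendental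

theorem D_x1_ne_zero : D (ResidueField ↥A) (Fb A M') (x1 h) ≠ 0 :=
  SepDiff0.D_ne_zero_sep (x1 h) (isGen_x1 h).transcendental

/-- every place of the special fibre has a generating coordinate differential. -/
theorem dCoordGenerates (v : Place (ResidueField ↥A) (Fb A M')) : v.DCoordGenerates :=
  haveI := isAlgClosed_res A
  SepDiff0.dCoordGenerates (isGen_x1 h) v

theorem nontrivial_kaehler : Nontrivial Ω[Fb A M'⁄ResidueField ↥A] :=
  haveI := isAlgClosed_res A
  SepDiff0.nontrivial_kaehler (isGen_x1 h)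

theorem ordDifferential_smul' (v : Place (ResidueField ↥A) (Fb A M')) {g : Fb A M'} (hg : g ≠ 0)
    {ω : Ω[Fb A M'⁄ResidueField ↥A]} (hω : ω ≠ 0) :
    v.ordDifferential (g • ω) = v.ord g + v.ordDifferential ω :=
  haveI := isAlgClosed_res A
  SepDiff0.ordDifferential_smul' (isGen_x1 h) v hg hω

/-- the derivative lemma on the special fibre. -/
theorem differentialCoeff_D_mem (v : Place (ResidueField ↥A) (Fb A M')) {a : Fb A M'}
    (ha : a ∈ v.toValuationSubring) :
    v.differentialCoeff (D (ResidueField ↥A) (Fb A M') a) ∈ v.toValuationSubring :=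
  haveI := isAlgClosed_res A
  SepDiff0.differentialCoeff_D_mem (isGen_x1 h) v ha

theorem ordDifferential_D_nonneg (v : Place (ResidueField ↥A) (Fb A M')) {a : Fb A M'}
    (ha : 0 ≤ v.ord a) : 0 ≤ v.ordDifferential (D (ResidueField ↥A) (Fb A M') a) :=
  haveI := isAlgClosed_res A
  SepDiff0.ordDifferential_D_nonneg (isGen_x1 h) v ha

theorem ordDifferential_D_of_ord_eq_one (v : Place (ResidueField ↥A) (Fb A M')) {y : Fb A M'}
    (hy : v.ord y = 1) : v.ordDifferential (D (ResidueField ↥A) (Fb A M') y) = 0 :=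
  haveI := isAlgClosed_res A
  SepDiff0.ordDifferential_D_of_ord_eq_one (isGen_x1 h) v hy

/-- **`HasCanonicalDivisor` on the special fibre.** -/
theorem hasCanonicalDivisor :
    HasCanonicalDivisor (K := ResidueField ↥A) (F := Fb A M') :=
  haveI := isAlgClosed_res A
  CanonSep0.hasCanonicalDivisor (isGen_x1 h) (lHyp_component h)

theorem diffHyp : DiffHyp (ResidueField ↥A) (Fb A M') :=
  haveI := isAlgClosed_res A
  CanonSep0.diffHyp (isGen_x1 h) (lHyp_component h)

/-- **the residue data on the special fibre** (local residues + the residue theorem). -/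
noncomputable def residueData : ResidueData (ResidueField ↥A) (Fb A M') :=
  haveI := isAlgClosed_res A
  ResidueSep0.residueData (isGen_x1 h) (lHyp_component h)

/-- **all the inputs of Riemann–Roch on the special fibre.** -/
noncomputable def rrData : RRData (ResidueField ↥A) (Fb A M') :=
  haveI := isAlgClosed_res A
  RRSep0.rrData (isGen_x1 h) (lHyp_component h)

/-- **Riemann–Roch on the special fibre.** -/
theorem riemann_roch {ω₀ : Ω[Fb A M'⁄ResidueField ↥A]} (hω₀ : ω₀ ≠ 0)
    {W : Divisor (ResidueField ↥A) (Fb A M')}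
    (hW : ∀ v : Place (ResidueField ↥A) (Fb A M'), W v = v.ordDifferential ω₀)
    (D : Divisor (ResidueField ↥A) (Fb A M')) :
    (Module.finrank (ResidueField ↥A) (riemannRochSpace D) : ℤ) -
        Module.finrank (ResidueField ↥A) (riemannRochSpace (W - D)) =
      Divisor.degree D + 1 - genusFF (ResidueField ↥A) (Fb A M') :=
  Fermat.Agent.RR.Final.riemann_roch (rrData h) hω₀ hW D

/-- `l(div ω₀) = genusFF`: the space of regular differentials of the special fibre has dimension
`genusFF κ (Fb A M')`. -/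
theorem finrank_L_canonical {ω₀ : Ω[Fb A M'⁄ResidueField ↥A]} (hω₀ : ω₀ ≠ 0)
    {W : Divisor (ResidueField ↥A) (Fb A M')}
    (hW : ∀ v : Place (ResidueField ↥A) (Fb A M'), W v = v.ordDifferential ω₀) :
    Module.finrank (ResidueField ↥A) (riemannRochSpace W) =
      genusFF (ResidueField ↥A) (Fb A M') :=
  Fermat.Agent.RR.Final.finrank_L_canonical (rrData h) hω₀ hW

theorem degree_canonical {ω₀ : Ω[Fb A M'⁄ResidueField ↥A]} (hω₀ : ω₀ ≠ 0)
    {W : Divisor (ResidueField ↥A) (Fb A M')}
    (hW : ∀ v : Place (ResidueField ↥A) (Fb A M'), W v = v.ordDifferential ω₀) :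
    Divisor.degree W = 2 * (genusFF (ResidueField ↥A) (Fb A M') : ℤ) - 2 :=
  Fermat.Agent.RR.Final.degree_canonical (rrData h) hω₀ hW

/-- membership in `L(div ω)`: `g • ω` is regular. -/
theorem mem_L_canonical_iff {ω : Ω[Fb A M'⁄ResidueField ↥A]} (hω : ω ≠ 0)
    (W : Divisor (ResidueField ↥A) (Fb A M'))
    (hW : ∀ v : Place (ResidueField ↥A) (Fb A M'), W v = v.ordDifferential ω) {g : Fb A M'}
    (hg : g ≠ 0) :
    g ∈ riemannRochSpace W ↔
      ∀ v : Place (ResidueField ↥A) (Fb A M'), 0 ≤ v.ordDifferential (g • ω) :=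
  haveI := isAlgClosed_res A
  CanonSep0.mem_L_canonical_iff (isGen_x1 h) hω W hW hg

end

end Fermat.Agent.U44.RRFb0
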