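/-
Programme U44 (target S44), chapter (LIFT), block Om-C4 (helper8): **an integral basis of the
regular differentials of `X₀(N)` over `ℚ̄`**, with reductions modulo `p` linearly independent.

`N` any level, `F = FF N`, `W = div (dj)`, `L(W) = {h : h dj regular}`.

* `exists_mem_L_of_cuspForm` : every cusp form of weight two on `Γ₀(N)` whose `q`-coefficients are
  `ι (s n)`, `s : ℕ → ℚ̄`, is the form of some `h ∈ L(W)`: `(h θ_j).coeff n = s n`
  (dimension count: `dim S₂ ≤ dim L(W)` and the dictionary (LOW));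
* `exists_integral_family` : there are `h_i ∈ L(W)`, `i ∈ ι` (`#ι ≥ dim L(W)`), such that `h_i θ_j` has
  INTEGER coefficients `Z i n` (no negative exponents), and the sequences `Z i mod p` are linearly
  independent over `𝔽_p` (a `ℤ`-basis of the saturated lattice `CuspForm.intLattice N 2`).
-/
import Mathlib
import Fermat.Agent.S20.LowerBound
import Fermat.Agent.S23
import Fermat.Agent.S23.GaloisReg
import Fermat.Agent.S49.H25QCoeff
import Fermat.Agent.S20.IndepBaseChange
import Fermat.Prelude.Def_CuspForm_HeckeLocal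

set_option autoImplicit false
set_option synthInstance.maxHeartbeats 400000
set_option linter.style.haveILetI false
set_option linter.unusedSectionVars false

noncomputable section

open AlgebraicCurve KaehlerDifferential Module CongruenceSubgroup ModularFormClass

namespace Fermat.Agent.U44.RegBasis8

open Fermat.Agent.X0 Fermat.Agent.X0.FF Fermat.Agent.S20.LowDJ Fermat.Agent.S20.LowerBound
  Fermat.Agent.S49

variable {N : ℕ} [NeZero N]

/-- the cusp form of an element of `L(W)`. -/
theorem exists_cuspForm_of_mem_L (W : Divisor Kbar (FF N))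
    (hW : ∀ v : Place Kbar (FF N), W v = v.ordDifferential (D Kbar (FF N) (jF N)))
    {h : FF N} (hh : h ∈ riemannRochSpace W) :
    (∃ f : CuspForm (Gamma0 N) 2, ∀ n : ℕ, qCoeff f n = iotaK (coeffL N h n)) ∧
      ∀ k : ℤ, k < 0 → ((h : LaurentSeries Kbar) * thetaJ).coeff k = 0 := by
  have hx : IsGen Kbar (jF N) := HasCanDivInst.isGen N
  have hreg := (Fermat.Agent.S23.GaloisReg.mem_riemannRochSpace_iff_regular hx W hW h).mp hh
  obtain ⟨f, hf, hneg⟩ := Fermat.Agent.S20.Low.exists_cuspForm_of_regular_full N h hreg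
  exact ⟨⟨f, hf⟩, hneg⟩

/-- **Every cusp form with `ℚ̄`-coefficients comes from a regular differential.** -/
theorem exists_mem_L_of_cuspForm (W : Divisor Kbar (FF N))
    (hW : ∀ v : Place Kbar (FF N), W v = v.ordDifferential (D Kbar (FF N) (jF N)))
    [FiniteDimensional Kbar (riemannRochSpace W)]
    [Module.Finite ℂ (CuspForm (Gamma0 N) 2)]
    (hdim : finrank ℂ (CuspForm (Gamma0 N) 2) ≤ finrank Kbar (riemannRochSpace W))
    (f : CuspForm (Gamma0 N) 2) (s : ℕ → Kbar) (hs : ∀ n, qCoeff f n = iotaK (s n)) :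
    ∃ h ∈ riemannRochSpace W, coeffL N h = s := by
  classical
  set E := riemannRochSpace W with hE
  let c : E →ₗ[Kbar] (ℕ → Kbar) := (coeffL N).comp E.subtype
  have hc_apply : ∀ h : E, c h = coeffL N (h : FF N) := fun h => rfl
  have hc : Function.Injective c := by
    rw [← LinearMap.ker_eq_bot, LinearMap.ker_eq_bot']
    intro h hh
    have hneg := (exists_cuspForm_of_mem_L W hW h.2).2
    have hzero : (((h : FF N) : LaurentSeries Kbar)) * thetaJ = 0 := by
      ext k
      rcases lt_or_ge k 0 with hk | hk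
      · rw [hneg k hk]
        rfl
      · obtain ⟨n, rfl⟩ := Int.eq_ofNat_of_zero_le hk
        have := congrFun hh n
        rw [hc_apply, coeffL_apply] at this
        rw [this]
        rfl
    have h1 : ((h : FF N) : LaurentSeries Kbar) = 0 :=
      (mul_eq_zero.mp hzero).resolve_right thetaJ_ne_zero
    exact Subtype.ext (Subtype.ext h1)
  set V : Submodule Kbar (ℕ → Kbar) := LinearMap.range c with hV
  by_contra hcon
  have hsV : s ∉ V := by
    rintro ⟨e, he⟩
    exact hcon ⟨(e : FF N), e.2, he⟩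
  set V' : Submodule Kbar (ℕ → Kbar) := V ⊔ Submodule.span Kbar {s} with hV'
  have hlt : V < V' := by
    refine lt_of_le_of_ne le_sup_left ?_
    intro heq
    apply hsV
    rw [heq]
    exact Submodule.mem_sup_right (Submodule.mem_span_singleton_self s)
  have hVdim : finrank Kbar V = finrank Kbar E := LinearMap.finrank_range_of_inj hc
  have h1 : finrank Kbar V < finrank Kbar V' := Submodule.finrank_lt_finrank_of_lt hlt
  have h2 := Fermat.Agent.S20.IndepBaseChange.finrank_span_map iotaK V'
  set S' : Submodule ℂ (ℕ → ℂ) :=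
    Submodule.span ℂ (Set.range fun x : V' => fun k => iotaK ((x : ℕ → Kbar) k)) with hS'
  have h3 : S' ≤ LinearMap.range (qCoeffLin N) := by
    rw [hS', Submodule.span_le]
    rintro _ ⟨x, rfl⟩
    obtain ⟨v, hv, w, hw, hvw⟩ := Submodule.mem_sup.mp x.2
    obtain ⟨e, rfl⟩ := hv
    obtain ⟨a, rfl⟩ := Submodule.mem_span_singleton.mp hw
    obtain ⟨fe, hfe⟩ := (exists_cuspForm_of_mem_L W hW e.2).1
    refine ⟨fe + iotaK a • f, ?_⟩
    funext k
    show qCoeffLin N (fe + iotaK a • f) k = iotaK ((x : ℕ → Kbar) k)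
    rw [map_add, map_smul, Pi.add_apply, Pi.smul_apply, qCoeffLin_apply, qCoeffLin_apply, hfe k,
      hs k, ← hvw, Pi.add_apply, Pi.smul_apply, map_add, smul_eq_mul, smul_eq_mul, map_mul]
    rfl
  have h4 : finrank ℂ S' ≤ finrank ℂ (LinearMap.range (qCoeffLin N)) :=
    Submodule.finrank_mono h3
  have h5 : finrank ℂ (LinearMap.range (qCoeffLin N)) = finrank ℂ (CuspForm (Gamma0 N) 2) :=
    LinearMap.finrank_range_of_inj (qCoeffLin_injective N)
  omega

/-- `dim S₂(Γ₀(N)) ≤ dim L(div dj)` (S20 + S24 + Riemann–Roch, as in `S23.result`). -/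
theorem finrank_cusp_le_finrank_L (N : ℕ) [NeZero N] (W : Divisor Kbar (FF N))
    (hW : ∀ v : Place Kbar (FF N), W v = v.ordDifferential (D Kbar (FF N) (jF N))) :
    finrank ℂ (CuspForm (Gamma0 N) 2) ≤ finrank Kbar (riemannRochSpace W) := by
  have hx : IsGen Kbar (jF N) := HasCanDivInst.isGen N
  haveI : HasCanonicalDivisor (K := Kbar) (F := FF N) := HasCanDivInst.hasCanonicalDivisor N
  have hWeq : W = canonicalDivisorOf (FF.D_ne_zero hx) :=
    Finsupp.ext fun v => by rw [hW, canonicalDivisorOf_apply]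
  have hgenus := Fermat.Agent.RR.InstPrep.finrank_L_dx_eq_genus hx
    (Fermat.Agent.RR.GlobAdele.dualityResidueData hx)
  have hS24 := Fermat.Agent.S24.result N
  have hup := Fermat.Agent.S21.Assembly.finrank_le_genusFormula N
  rw [hWeq, hgenus]
  have : (finrank ℂ (CuspForm (Gamma0 N) 2) : ℚ) ≤ (genus Kbar (FF N) : ℚ) := by
    rw [hS24]; exact hup
  exact_mod_cast this

/-- **An integral family of regular differentials with independent reductions.** -/
theorem exists_integral_family (N : ℕ) [NeZero N] (p : ℕ) [Fact p.Prime]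
    (W : Divisor Kbar (FF N))
    (hW : ∀ v : Place Kbar (FF N), W v = v.ordDifferential (D Kbar (FF N) (jF N))) :
    ∃ (ι : Type) (_ : Fintype ι) (hs : ι → FF N) (Z : ι → ℕ → ℤ),
      (∀ i, hs i ∈ riemannRochSpace W) ∧
      (∀ i (n : ℕ), ((hs i : LaurentSeries Kbar) * thetaJ).coeff (n : ℤ) = ((Z i n : ℤ) : Kbar)) ∧
      (∀ i (k : ℤ), k < 0 → ((hs i : LaurentSeries Kbar) * thetaJ).coeff k = 0) ∧
      LinearIndependent (ZMod p) (fun i => fun n => ((Z i n : ℤ) : ZMod p)) ∧
      finrank Kbar (riemannRochSpace W) ≤ Fintype.card ι := by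
  classical
  have hx : IsGen Kbar (jF N) := HasCanDivInst.isGen N
  haveI : HasCanonicalDivisor (K := Kbar) (F := FF N) := HasCanDivInst.hasCanonicalDivisor N
  haveI : FiniteDimensional ℂ (CuspForm (Gamma0 N) 2) := Fermat.Agent.S21.Assembly.finite_cusp N
  haveI : FiniteDimensional Kbar (riemannRochSpace W) :=
    Fermat.Agent.RR.InstPrep.finiteDimensional_L_isGen hx W
  have hdim := finrank_cusp_le_finrank_L N W hW
  haveI := CuspForm.intLattice.moduleFinite N
  haveI := CuspForm.intLattice.moduleFree N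
  let b := Module.Free.chooseBasis ℤ ↥(CuspForm.intLattice N 2)
  have hZ : ∀ i, ∃ Z : ℕ → ℤ, ∀ n : ℕ,
      qCoeff ((b i : ↥(CuspForm.intLattice N 2)) : CuspForm (Gamma0 N) 2) n = ((Z n : ℤ) : ℂ) := by
    intro i
    choose Z hZ using Fermat.Agent.S49.H25.intCoeff_of_mem_intLattice (b i).2
    exact ⟨Z, hZ⟩
  choose Z hZ using hZ
  have hh : ∀ i, ∃ h ∈ riemannRochSpace W, coeffL N h = fun n => ((Z i n : ℤ) : Kbar) := fun i =>
    exists_mem_L_of_cuspForm W hW hdim (b i) _ (fun n => by rw [hZ i n, map_intCast])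
  choose hs hsmem hscoeff using hh
  refine ⟨Module.Free.ChooseBasisIndex ℤ ↥(CuspForm.intLattice N 2), inferInstance, hs, Z, hsmem,
    fun i n => congrFun (hscoeff i) n,
    fun i k hk => (exists_cuspForm_of_mem_L W hW (hsmem i)).2 k hk, ?_, ?_⟩
  · -- independence modulo `p`
    rw [Fintype.linearIndependent_iff]
    intro a ha i
    set fL : ↥(CuspForm.intLattice N 2) := ∑ j, ((a j).val : ℤ) • b j with hfL
    have hcoeff : ∀ n : ℕ, qCoeff ((fL : ↥(CuspForm.intLattice N 2)) : CuspForm (Gamma0 N) 2) n =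
        ((∑ j, ((a j).val : ℤ) * Z j n : ℤ) : ℂ) := by
      intro n
      have h1 : ((fL : ↥(CuspForm.intLattice N 2)) : CuspForm (Gamma0 N) 2) =
          ∑ j, ((a j).val : ℤ) • ((b j : ↥(CuspForm.intLattice N 2)) : CuspForm (Gamma0 N) 2) := by
        rw [hfL, Submodule.coe_sum]
        rfl
      have h2 := congrFun (congrArg (qCoeffLin N) h1) n
      rw [map_sum, Finset.sum_apply] at h2
      rw [qCoeffLin_apply] at h2
      rw [h2]
      push_cast
      refine Finset.sum_congr rfl fun j _ => ?_
      rw [map_zsmul, Pi.smul_apply, qCoeffLin_apply, hZ j n, zsmul_eq_mul]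
      push_cast
      rfl
    have hdvd : ∀ n : ℕ, (p : ℤ) ∣ ∑ j, ((a j).val : ℤ) * Z j n := by
      intro n
      rw [← ZMod.intCast_zmod_eq_zero_iff_dvd]
      have h1 := congrFun ha n
      rw [Finset.sum_apply, Pi.zero_apply] at h1
      push_cast
      rw [← h1]
      refine Finset.sum_congr rfl fun j _ => ?_
      rw [Pi.smul_apply, smul_eq_mul, ZMod.natCast_zmod_val]
    have hp0 : (p : ℤ) ≠ 0 := by exact_mod_cast (Fact.out : p.Prime).ne_zero
    obtain ⟨g, hg, hfg⟩ := exists_eq_zsmul_of_forall_dvd (d := (p : ℤ)) hp0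
      (f := ((fL : ↥(CuspForm.intLattice N 2)) : CuspForm (Gamma0 N) 2)) (fun n => by
        obtain ⟨m, hm⟩ := hdvd n
        exact ⟨m, by rw [hcoeff n, hm]; push_cast; rfl⟩)
    have hgL : g ∈ CuspForm.intLattice N 2 :=
      Fermat.Agent.S49.H25.qIntegralSet_subset_intLattice hg
    have hfgL : fL = (p : ℤ) • (⟨g, hgL⟩ : ↥(CuspForm.intLattice N 2)) := Subtype.ext hfg
    have h3 := congrArg (fun x => b.repr x i) hfgL
    simp only [hfL, map_sum, map_zsmul, Finsupp.coe_finsetSum, Finsupp.coe_smul, Finset.sum_apply,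
      Pi.smul_apply, Module.Basis.repr_self, Finsupp.single_apply, smul_eq_mul] at h3
    rw [Finset.sum_eq_single i (fun j _ hj => by rw [if_neg hj, mul_zero])
      (fun hi => absurd (Finset.mem_univ i) hi), if_pos rfl, mul_one] at h3
    have h4 : (((a i).val : ℤ) : ZMod p) = 0 := by
      rw [h3]; push_cast; simp
    rw [← ZMod.natCast_zmod_val (a i)]
    exact_mod_cast h4
  · -- the count
    have h1 : finrank Kbar (riemannRochSpace W) ≤ finrank ℂ (CuspForm (Gamma0 N) 2) :=
      finrank_L_le (lowStatement N) (FF.D_ne_zero hx)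
        (fun v g hg ω hω => ordDifferential_smul' hx v hg hω) hW
    have h2 : Submodule.span ℂ (Set.range fun i =>
        ((b i : ↥(CuspForm.intLattice N 2)) : CuspForm (Gamma0 N) 2)) = ⊤ := by
      have h3 : Submodule.span ℤ (Set.range fun i =>
          ((b i : ↥(CuspForm.intLattice N 2)) : CuspForm (Gamma0 N) 2)) =
          CuspForm.intLattice N 2 := by
        have h4 := congrArg (Submodule.map (CuspForm.intLattice N 2).subtype) b.span_eq
        rw [Submodule.map_span, Submodule.map_subtype_top, ← Set.range_comp] at h4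
        exact h4
      have h5 := Fermat.Agent.S23.result N
      unfold CuspForm.HasIntegralStructure at h5
      rw [← h5]
      calc Submodule.span ℂ (Set.range fun i =>
            ((b i : ↥(CuspForm.intLattice N 2)) : CuspForm (Gamma0 N) 2))
          = Submodule.span ℂ ((Submodule.span ℤ (Set.range fun i =>
            ((b i : ↥(CuspForm.intLattice N 2)) : CuspForm (Gamma0 N) 2)) :
              Submodule ℤ (CuspForm (Gamma0 N) 2)) : Set (CuspForm (Gamma0 N) 2)) :=
            (Submodule.span_span_of_tower ℤ ℂ _).symm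
        _ = _ := by rw [h3]
    have h6 := finrank_range_le_card (R := ℂ) (fun i =>
      ((b i : ↥(CuspForm.intLattice N 2)) : CuspForm (Gamma0 N) 2))
    rw [Set.finrank, h2, finrank_top] at h6
    exact h1.trans h6

end Fermat.Agent.U44.RegBasis8
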