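/-
Programme U44 (target S44), chapter (LIFT), block Om-C4 (helper8): series-level preliminaries for the
lifting of regular differentials.

* `theta_laurentOf_one`, `thetaJ_eq_theta` : `θ_j` of `S20/LowDJ` is `θ (j)`, `θ = q d/dq`;
* `exists_theta_jqModC_mul_eq_one` : `θ j` is a unit of `R((q))` for every commutative ring `R`;
* `seriesOf`, integrality transfer: if `h θ_j = Y` with `Y ∈ A((q))` then `h ∈ A((q))`.
-/
import Mathlib
import Fermat.Agent.IG.PR.Theta20
import Fermat.Agent.S20.LowDJ
import Fermat.Agent.X0.LevelOneRational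
import Fermat.Agent.X0.RootsK

set_option autoImplicit false

noncomputable section

open HahnSeries ModularCurve

namespace Fermat.Agent.U44.RegLiftAux8

open Fermat.Agent.IG.PR.Theta20 Fermat.Agent.X0

section General

variable {R : Type*} [CommRing R]

/-- the numerator of `θ (q⁻¹ P)`. -/
def thNum (P : PowerSeries R) : PowerSeries R :=
  PowerSeries.mk fun n => ((n : R) - 1) * PowerSeries.coeff n P

theorem theta_laurentOf_one (P : PowerSeries R) :
    theta (laurentOf 1 P) = laurentOf 1 (thNum P) := by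
  ext k
  rw [theta_coeff, lor_laurentOf_coeff, lor_laurentOf_coeff]
  split_ifs with h
  · obtain ⟨n, hn⟩ := Int.eq_ofNat_of_zero_le h
    have hk : k = (n : ℤ) - 1 := by
      have : k + ((1 : ℕ) : ℤ) = n := hn
      push_cast at this
      omega
    rw [hn, Int.toNat_natCast, thNum, PowerSeries.coeff_mk, hk]
    push_cast
    ring
  · rw [mul_zero]

theorem jqModC_eq_laurentOf : jqModC R = laurentOf 1 (jNum.map (Int.castRingHom R)) := by
  unfold jqModC laurentOf
  norm_num

theorem constantCoeff_thNum_jNum :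
    PowerSeries.constantCoeff (thNum (jNum.map (Int.castRingHom R))) = -1 := by
  rw [← PowerSeries.coeff_zero_eq_constantCoeff, thNum, PowerSeries.coeff_mk,
    PowerSeries.coeff_map, PowerSeries.coeff_zero_eq_constantCoeff, constantCoeff_jNum]
  simp

/-- `θ j` is a unit of `R((q))`. -/
theorem exists_theta_jqModC_mul_eq_one :
    ∃ U : LaurentSeries R, theta (jqModC R) * U = 1 := by
  rw [jqModC_eq_laurentOf, theta_laurentOf_one]
  set P := thNum (jNum.map (Int.castRingHom R)) with hP
  refine ⟨HahnSeries.single (1 : ℤ) (1 : R) *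
    HahnSeries.ofPowerSeries ℤ R (PowerSeries.invOfUnit P (-1)), ?_⟩
  have h1 : P * PowerSeries.invOfUnit P (-1) = 1 :=
    PowerSeries.mul_invOfUnit _ _ (by rw [hP, constantCoeff_thNum_jNum]; rfl)
  have h2 : (HahnSeries.single (-(1 : ℕ) : ℤ) (1 : R)) * HahnSeries.single (1 : ℤ) (1 : R) = 1 := by
    rw [HahnSeries.single_mul_single]
    simp
  unfold laurentOf
  calc HahnSeries.single (-(1 : ℕ) : ℤ) (1 : R) * HahnSeries.ofPowerSeries ℤ R P *
        (HahnSeries.single (1 : ℤ) (1 : R) *
          HahnSeries.ofPowerSeries ℤ R (PowerSeries.invOfUnit P (-1)))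
      = (HahnSeries.single (-(1 : ℕ) : ℤ) (1 : R) * HahnSeries.single (1 : ℤ) (1 : R)) *
        (HahnSeries.ofPowerSeries ℤ R P *
          HahnSeries.ofPowerSeries ℤ R (PowerSeries.invOfUnit P (-1))) := by ring
    _ = 1 := by rw [h2, ← map_mul, h1, map_one, one_mul]

end General

/-- `θ_j` of `S20/LowDJ` is `θ (j)`. -/
theorem thetaJ_eq_theta : Fermat.Agent.S20.LowDJ.thetaJ = theta (jqModC Kbar) := by
  rw [← jqK_eq_jqModC, Fermat.Agent.X0.jqK_eq_laurentOf, theta_laurentOf_one]
  rfl

end Fermat.Agent.U44.RegLiftAux8
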