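/-
Programme U44 (target S44), chapter (LIFT), block Om-C4 (helper8): **lifting of regular
differentials**, part (b).

Setting of `U44/RegRed8`.  `W = div (dj)` on `F = Fbar M`, `W̃ = r_* W = div (dj̃)` on the special
fibre, `L(W)`, `L(W̃)` the spaces of regular differentials.

* `exists_family` : a finite family `a_i ∈ OV ∩ L(W)` with `a_i θ_j ∈ A[[q]]` and `κ`-linearly
  independent reductions, of cardinality `≥ dim L(W)`;
* `coeff_mem_A_of_sum_mem_OV`, `linearIndependent_coe` : orthonormality of such a family;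
* `exists_lift_regular` (C4-b) : if `dim L(W̃) ≤ dim L(W)` then every `h̃ ∈ L(W̃)` is the reduction of
  some `h ∈ OV ∩ L(W)`, with `h θ_j ∈ A[[q]]` reducing to `h̃ θ_j̃`;
* `integral_of_regular` (C4-c) : EVERY `h ∈ OV ∩ L(W)` has `h θ_j ∈ A[[q]]`, reducing to `h̃ θ_j̃`.
-/
import Mathlib
import Fermat.Agent.U44.RegRed8
import Fermat.Agent.U44.RegBasis8
import Fermat.Agent.U44.RegLiftAux8

set_option autoImplicit false
set_option synthInstance.maxHeartbeats 400000
set_option linter.style.haveILetI false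
set_option linter.unusedSectionVars false

noncomputable section

open AlgebraicCurve ModularCurve IntermediateField HahnSeries KaehlerDifferential Module

namespace Fermat.Agent.U44.RegLift8

open Fermat.Agent.X0 Fermat.Agent.X0.FF Fermat.Agent.RED.Interface4
  Fermat.Agent.ES.RED Fermat.Agent.ES.RED.Contract8 Fermat.Agent.FF.RedIface9
  Fermat.Agent.FF.RedGauss9 Fermat.Agent.FF.RedDiv9
  Fermat.Agent.FF.GeomIface8 Fermat.Agent.IG.PR.Theta20 Fermat.Agent.U44.RegRedAux8
  Fermat.Agent.U44.RegRed8 Fermat.Agent.U44.RegLiftAux8 Fermat.Agent.RED.TOP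

/-! ### series with integer coefficients -/

section IntSeries

variable (R : Type*) [CommRing R]

/-- the power series `∑ Z n qⁿ` over `R`, as a Laurent series. -/
def intSeries (Z : ℕ → ℤ) : LaurentSeries R :=
  HahnSeries.ofPowerSeries ℤ R (PowerSeries.mk fun n => ((Z n : ℤ) : R))

theorem intSeries_coeff_nat (Z : ℕ → ℤ) (n : ℕ) : (intSeries R Z).coeff (n : ℤ) = ((Z n : ℤ) : R) := by
  rw [intSeries, HahnSeries.ofPowerSeries_apply_coeff, PowerSeries.coeff_mk]

theorem intSeries_coeff_neg (Z : ℕ → ℤ) {k : ℤ} (hk : k < 0) : (intSeries R Z).coeff k = 0 :=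
  ofPowerSeries_coeff_of_neg _ hk

variable {R}

theorem coeffMap_intSeries {S : Type*} [CommRing S] (f : R →+* S) (Z : ℕ → ℤ) :
    coeffMap f (intSeries R Z) = intSeries S Z := by
  rw [intSeries, coeffMap_ofPowerSeries, intSeries]
  congr 1
  ext n
  rw [PowerSeries.coeff_map, PowerSeries.coeff_mk, PowerSeries.coeff_mk, map_intCast]

/-- a Laurent series without negative terms and with integer coefficients `Z` is `intSeries`. -/
theorem eq_intSeries {x : LaurentSeries R} {Z : ℕ → ℤ}
    (h1 : ∀ n : ℕ, x.coeff (n : ℤ) = ((Z n : ℤ) : R)) (h2 : ∀ k : ℤ, k < 0 → x.coeff k = 0) :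
    x = intSeries R Z := by
  ext k
  rcases lt_or_ge k 0 with hk | hk
  · rw [h2 k hk, intSeries_coeff_neg R Z hk]
  · obtain ⟨n, rfl⟩ := Int.eq_ofNat_of_zero_le hk
    rw [h1 n, intSeries_coeff_nat]

end IntSeries

variable {ℓ : ℕ} [Fact ℓ.Prime] {A : ValuationSubring Qbar} {M : ℕ} [NeZero M]
  (m : RedModel ℓ A M) (hA : A.LiesOverPrime ℓ)

/-! ### integrality transfer -/

/-- if `h θ_j = Y ∈ A((q))` then `h ∈ A((q))`, and `h̃ θ_j̃ = Ỹ`. -/
theorem mem_calO_of_mul_theta {h : ↥(Fbar M)} {Y : LaurentSeries ↥A}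
    (hY : (h : LaurentSeries Qbar) * theta (jqModC Qbar) = coeffMap A.subtype Y) :
    ∃ hmem : h ∈ calO A M,
      redQ A M ⟨h, hmem⟩ * theta (jqModC (kA A)) = coeffMap (Setup8.resA A) Y := by
  obtain ⟨U, hU⟩ := exists_theta_jqModC_mul_eq_one (R := ↥A)
  have hsub : theta (jqModC Qbar) * coeffMap A.subtype U = 1 := by
    rw [← coeffMap_jqModC A.subtype, ← coeffMap_theta, ← map_mul, hU, map_one]
  have hh : coeffMap A.subtype (Y * U) = (h : LaurentSeries Qbar) := by
    rw [map_mul, ← hY, mul_assoc, hsub, mul_one]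
  refine ⟨⟨Y * U, hh⟩, ?_⟩
  have h1 : redQ A M ⟨h, ⟨Y * U, hh⟩⟩ = coeffMap (Setup8.resA A) (Y * U) :=
    Setup8.redA_eq A (Fbar M) _ hh
  rw [h1, ← coeffMap_jqModC (Setup8.resA A), ← coeffMap_theta, ← map_mul]
  congr 1
  rw [mul_assoc, mul_comm U, hU, mul_one]

/-! ### an integral family with independent reductions -/

theorem coe_smul_Ft (c : kA A) (x : ↥(Ft A M)) :
    ((c • x : ↥(Ft A M)) : LaurentSeries (kA A)) =
      HahnSeries.C c * (x : LaurentSeries (kA A)) := by
  rw [Algebra.smul_def]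
  show algebraMap (kA A) (LaurentSeries (kA A)) c * (x : LaurentSeries (kA A)) = _
  rw [algebraMap_laurentSeries_eq_single]
  rfl

theorem coe_sum_Ft {ι : Type*} (s : Finset ι) (f : ι → ↥(Ft A M)) :
    ((∑ i ∈ s, f i : ↥(Ft A M)) : LaurentSeries (kA A)) =
      ∑ i ∈ s, (f i : LaurentSeries (kA A)) :=
  map_sum (Ft A M).val f s

include hA in
/-- **An integral family of regular differentials with `κ`-independent reductions.** -/
theorem exists_family (W : Divisor Qbar ↥(Fbar M))
    (hW : ∀ P : Place Qbar ↥(Fbar M), W P = P.ordDifferential (D Qbar ↥(Fbar M) (jF M))) :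
    ∃ (ι : Type) (_ : Fintype ι) (a : ι → ↥(OV A M)) (Y : ι → LaurentSeries ↥A),
      (∀ i, ((a i : ↥(OV A M)) : ↥(Fbar M)) ∈ riemannRochSpace W) ∧
      (∀ i, (((a i : ↥(OV A M)) : ↥(Fbar M)) : LaurentSeries Qbar) * theta (jqModC Qbar) =
        coeffMap A.subtype (Y i)) ∧
      (∀ i, redV A M (a i) * theta (jqModC (kA A)) = coeffMap (Setup8.resA A) (Y i)) ∧
      (∀ i (k : ℤ), k < 0 → (Y i).coeff k = 0) ∧
      LinearIndependent (kA A) (fun i => redVt m hA (a i)) ∧
      finrank Qbar (riemannRochSpace W) ≤ Fintype.card ι := by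
  classical
  haveI : CharP (kA A) ℓ := RedModel.charP_kA (ℓ := ℓ) hA
  obtain ⟨ι, hι, hs, Z, hmem, hco, hneg, hind, hcard⟩ :=
    Fermat.Agent.U44.RegBasis8.exists_integral_family M ℓ W hW
  have hY : ∀ i, ((hs i : ↥(Fbar M)) : LaurentSeries Qbar) * theta (jqModC Qbar) =
      coeffMap A.subtype (intSeries ↥A (Z i)) := by
    intro i
    rw [← thetaJ_eq_theta, coeffMap_intSeries]
    exact eq_intSeries (hco i) (hneg i)
  have hex : ∀ i, ∃ hmem : hs i ∈ calO A M,
      redQ A M ⟨hs i, hmem⟩ * theta (jqModC (kA A)) =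
        coeffMap (Setup8.resA A) (intSeries ↥A (Z i)) := fun i => mem_calO_of_mul_theta (hY i)
  choose hcal hred using hex
  refine ⟨ι, hι, fun i => ⟨hs i, calO_le_OV A M (hcal i)⟩, fun i => intSeries ↥A (Z i), hmem, hY,
    ?_, fun i k hk => intSeries_coeff_neg _ _ hk, ?_, hcard⟩
  · intro i
    have h1 : redV A M ⟨hs i, calO_le_OV A M (hcal i)⟩ = redQ A M ⟨hs i, hcal i⟩ :=
      redV_of_calO A M ⟨hs i, hcal i⟩
    rw [h1]
    exact hred i
  · -- independence
    have hindκ : LinearIndependent (kA A) (fun i => fun n => ((Z i n : ℤ) : kA A)) := by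
      have h1 := Fermat.Agent.S20.IndepBaseChange.linearIndependent_map
        (ZMod.castHom (dvd_refl ℓ) (kA A)) hind
      simpa only [map_intCast] using h1
    rw [Fintype.linearIndependent_iff] at hindκ ⊢
    intro c hc
    apply hindκ c
    funext n
    have h2 := congrArg (fun x : ↥(Ft A M) => (x : LaurentSeries (kA A))) hc
    simp only [coe_sum_Ft, coe_smul_Ft] at h2
    have h3 : ∑ i, HahnSeries.C (c i) * coeffMap (Setup8.resA A) (intSeries ↥A (Z i)) = 0 := by
      have h4 : (∑ i, HahnSeries.C (c i) *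
          ((redVt m hA ⟨hs i, calO_le_OV A M (hcal i)⟩ : ↥(Ft A M)) : LaurentSeries (kA A))) *
          theta (jqModC (kA A)) = 0 := by
        rw [h2]; exact zero_mul _
      rw [Finset.sum_mul] at h4
      rw [← h4]
      refine Finset.sum_congr rfl fun i _ => ?_
      rw [mul_assoc]
      congr 1
      rw [coe_redVt, redV_of_calO A M ⟨hs i, hcal i⟩]
      exact (hred i).symm
    have h5 := congrArg (fun x : LaurentSeries (kA A) => x.coeff (n : ℤ)) h3
    simp only [HahnSeries.coeff_sum, coeff_C_mul, coeffMap_intSeries, intSeries_coeff_nat,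
      HahnSeries.coeff_zero] at h5
    rw [Finset.sum_apply]
    simp only [Pi.smul_apply, smul_eq_mul, Pi.zero_apply]
    exact h5

/-! ### orthonormality of a family with independent reductions -/

section Ortho

variable {ι : Type} [Fintype ι] (a : ι → ↥(OV A M))

/-- the linear combination `∑ d_i a_i`, `d_i ∈ A`, in the Gauss valuation ring. -/
def comb (d : ι → ↥A) : ↥(OV A M) := ∑ i, cO (d i) * a i

theorem coe_comb (d : ι → ↥A) :
    ((comb a d : ↥(OV A M)) : ↥(Fbar M)) =
      ∑ i, algebraMap Qbar ↥(Fbar M) (d i : Qbar) * ((a i : ↥(OV A M)) : ↥(Fbar M)) := by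
  unfold comb
  exact map_sum (OV A M).subtype _ _

theorem redVt_comb (d : ι → ↥A) :
    redVt m hA (comb a d) = ∑ i, Setup8.resA A (d i) • redVt m hA (a i) := by
  unfold comb
  rw [map_sum]
  refine Finset.sum_congr rfl fun i _ => ?_
  rw [map_mul, redVt_cO, Algebra.smul_def]

/-- **Lemma O.** a combination with one coefficient equal to `1` has non-zero reduction. -/
theorem redVt_comb_ne_zero (hind : LinearIndependent (kA A) (fun i => redVt m hA (a i)))
    (d : ι → ↥A) (k : ι) (hk : d k = 1) : redVt m hA (comb a d) ≠ 0 := by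
  intro h0
  rw [redVt_comb] at h0
  have h1 := (Fintype.linearIndependent_iff.mp hind) (fun i => Setup8.resA A (d i)) h0 k
  rw [hk, map_one] at h1
  exact one_ne_zero h1

/-- normalisation of a non-zero coefficient vector by an entry of maximal absolute value. -/
theorem exists_normalised (c : ι → Qbar) (hc : ∃ i, c i ≠ 0) :
    ∃ (k : ι) (d : ι → ↥A), c k ≠ 0 ∧ d k = 1 ∧ (∀ i, c i = c k * (d i : Qbar)) ∧
      ∀ i, A.valuation (c i) ≤ A.valuation (c k) := by
  classical
  obtain ⟨i₀, hi₀⟩ := hc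
  haveI : Nonempty ι := ⟨i₀⟩
  obtain ⟨k, -, hk⟩ := Finset.exists_max_image Finset.univ (fun i => A.valuation (c i))
    Finset.univ_nonempty
  have hck : c k ≠ 0 := by
    intro h0
    have h1 := hk i₀ (Finset.mem_univ _)
    rw [h0, map_zero] at h1
    exact hi₀ ((map_eq_zero _).mp (le_antisymm h1 zero_le))
  have hpos : 0 < A.valuation (c k) := by
    rw [pos_iff_ne_zero, Ne, map_eq_zero]; exact hck
  have hmem : ∀ i, c i / c k ∈ A := by
    intro i
    rw [← A.valuation_le_one_iff, map_div₀, div_le_one₀ hpos]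
    exact hk i (Finset.mem_univ _)
  refine ⟨k, fun i => ⟨c i / c k, hmem i⟩, hck, ?_, ?_, fun i => hk i (Finset.mem_univ _)⟩
  · apply Subtype.ext
    show c k / c k = 1
    exact div_self hck
  · intro i
    show c i = c k * (c i / c k)
    field_simp

include hA in
/-- **Orthonormality, integrality form**: if `∑ c_i a_i ∈ OV` then all `c_i ∈ A`. -/
theorem coeff_mem_A_of_sum_mem_OV (hind : LinearIndependent (kA A) (fun i => redVt m hA (a i)))
    (c : ι → Qbar)
    (hmem : ∑ i, algebraMap Qbar ↥(Fbar M) (c i) * ((a i : ↥(OV A M)) : ↥(Fbar M)) ∈ OV A M)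
    (i : ι) : c i ∈ A := by
  by_contra hci
  have hci0 : c i ≠ 0 := fun h0 => hci (h0 ▸ A.zero_mem)
  obtain ⟨k, d, hck, hdk, hcd, hmax⟩ := exists_normalised (A := A) c ⟨i, hci0⟩
  have hckA : c k ∉ A := by
    intro hk
    apply hci
    rw [← A.valuation_le_one_iff] at hk ⊢
    exact (hmax i).trans hk
  obtain ⟨e, he, hem⟩ := exists_inv_mem_maximalIdeal hckA
  have h1 : comb a d = cO e * ⟨_, hmem⟩ := by
    apply Subtype.ext
    rw [coe_comb]
    show _ = algebraMap Qbar ↥(Fbar M) (e : Qbar) *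
      ∑ i, algebraMap Qbar ↥(Fbar M) (c i) * ((a i : ↥(OV A M)) : ↥(Fbar M))
    rw [Finset.mul_sum]
    refine Finset.sum_congr rfl fun j _ => ?_
    rw [← mul_assoc, ← map_mul, he, hcd j, ← mul_assoc, inv_mul_cancel₀ hck, one_mul]
  apply redVt_comb_ne_zero m hA a hind d k hdk
  rw [h1, map_mul, redVt_cO_of_mem m hA hem, zero_mul]

/-- **Orthonormality, independence form**: the `a_i` are linearly independent over `ℚ̄`. -/
theorem linearIndependent_coe (hind : LinearIndependent (kA A) (fun i => redVt m hA (a i))) :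
    LinearIndependent Qbar (fun i => ((a i : ↥(OV A M)) : ↥(Fbar M))) := by
  rw [Fintype.linearIndependent_iff]
  intro c hc
  by_contra hcon
  push Not at hcon
  obtain ⟨k, d, hck, hdk, hcd, -⟩ := exists_normalised (A := A) c hcon
  have h1 : comb a d = 0 := by
    apply Subtype.ext
    rw [coe_comb]
    show _ = (0 : ↥(Fbar M))
    have h2 : ∑ i, algebraMap Qbar ↥(Fbar M) (c i) * ((a i : ↥(OV A M)) : ↥(Fbar M)) = 0 := by
      rw [← hc]
      refine Finset.sum_congr rfl fun j _ => ?_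
      rw [Algebra.smul_def]
    have h3 : ∑ i, algebraMap Qbar ↥(Fbar M) (c i) * ((a i : ↥(OV A M)) : ↥(Fbar M)) =
        algebraMap Qbar ↥(Fbar M) (c k) *
          ∑ i, algebraMap Qbar ↥(Fbar M) (d i : Qbar) * ((a i : ↥(OV A M)) : ↥(Fbar M)) := by
      rw [Finset.mul_sum]
      refine Finset.sum_congr rfl fun j _ => ?_
      rw [← mul_assoc, ← map_mul, ← hcd j]
    rw [h3] at h2
    rcases mul_eq_zero.mp h2 with h4 | h4
    · exact absurd ((map_eq_zero _).mp h4) hck
    · exact h4
  apply redVt_comb_ne_zero m hA a hind d k hdk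
  rw [h1, map_zero]

end Ortho

/-! ### the series of a combination -/

section Series

variable {ι : Type} [Fintype ι] (a : ι → ↥(OV A M)) (Y : ι → LaurentSeries ↥A)

theorem coe_coe_comb (α : ι → ↥A) :
    (((comb a α : ↥(OV A M)) : ↥(Fbar M)) : LaurentSeries Qbar) =
      ∑ i, HahnSeries.C ((α i : ↥A) : Qbar) *
        (((a i : ↥(OV A M)) : ↥(Fbar M)) : LaurentSeries Qbar) := by
  rw [coe_comb]
  show (Fbar M).val (∑ i, algebraMap Qbar ↥(Fbar M) (α i : Qbar) *
    ((a i : ↥(OV A M)) : ↥(Fbar M))) = _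
  rw [map_sum]
  refine Finset.sum_congr rfl fun i _ => ?_
  rw [map_mul]
  congr 1
  exact algebraMap_coe_eq_C (M := M) _

include m hA in
theorem redV_comb (α : ι → ↥A) :
    redV A M (comb a α) = ∑ i, HahnSeries.C (Setup8.resA A (α i)) * redV A M (a i) := by
  have h1 := congrArg (fun x : ↥(Ft A M) => (x : LaurentSeries (kA A))) (redVt_comb m hA a α)
  simp only [coe_sum_Ft, coe_smul_Ft, coe_redVt] at h1
  exact h1

include m hA in
theorem comb_series
    (hY1 : ∀ i, (((a i : ↥(OV A M)) : ↥(Fbar M)) : LaurentSeries Qbar) * theta (jqModC Qbar) =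
      coeffMap A.subtype (Y i))
    (hY2 : ∀ i, redV A M (a i) * theta (jqModC (kA A)) = coeffMap (Setup8.resA A) (Y i))
    (hY3 : ∀ i (k : ℤ), k < 0 → (Y i).coeff k = 0) (α : ι → ↥A) :
    ((((comb a α : ↥(OV A M)) : ↥(Fbar M)) : LaurentSeries Qbar) * theta (jqModC Qbar) =
      coeffMap A.subtype (∑ i, HahnSeries.C (α i) * Y i)) ∧
    (redV A M (comb a α) * theta (jqModC (kA A)) =
      coeffMap (Setup8.resA A) (∑ i, HahnSeries.C (α i) * Y i)) ∧
    ∀ k : ℤ, k < 0 → (∑ i, HahnSeries.C (α i) * Y i).coeff k = 0 := by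
  refine ⟨?_, ?_, ?_⟩
  · rw [coe_coe_comb, Finset.sum_mul, map_sum]
    refine Finset.sum_congr rfl fun i _ => ?_
    rw [mul_assoc, hY1 i, map_mul, Fermat.Agent.RED.PUR.GaussGen8.coeffMap_C]
    rfl
  · rw [redV_comb m hA a α, Finset.sum_mul, map_sum]
    refine Finset.sum_congr rfl fun i _ => ?_
    rw [mul_assoc, hY2 i, map_mul, Fermat.Agent.RED.PUR.GaussGen8.coeffMap_C]
  · intro k hk
    rw [HahnSeries.coeff_sum]
    refine Finset.sum_eq_zero fun i _ => ?_
    rw [coeff_C_mul, hY3 i k hk, mul_zero]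

end Series

/-! ### the main theorems -/

section Main

variable (hgen : ∀ Pb : Place (kA A) ↥(Ft A M), Pb.DCoordGenerates)
  (W : Divisor Qbar ↥(Fbar M))
  (hW : ∀ P : Place Qbar ↥(Fbar M), W P = P.ordDifferential (D Qbar ↥(Fbar M) (jF M)))

include hA hgen hW in
/-- on the special fibre: `h̃ ∈ L(r_* W)` iff `h̃ dj̃` is regular everywhere. -/
theorem mem_L_Wb_iff (hb : ↥(Ft A M)) :
    hb ∈ riemannRochSpace (Finsupp.mapDomain m.rPl W) ↔
      ∀ Pb : Place (kA A) ↥(Ft A M),
        0 ≤ Pb.ordDifferential (hb • D (kA A) ↥(Ft A M) (jb A M)) := by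
  haveI : Nontrivial Ω[↥(Ft A M)⁄kA A] := nontrivial_kaehler_Ft
  rw [mem_riemannRochSpace_iff]
  constructor
  · intro h Pb
    haveI := hgen Pb
    rcases h Pb with h0 | h1
    · rw [h0, zero_smul, Place.ordDifferential, Place.differentialCoeff_zero, Place.ord_zero]
    · by_cases hb0 : hb = 0
      · rw [hb0, zero_smul, Place.ordDifferential, Place.differentialCoeff_zero, Place.ord_zero]
      · rw [Place.ordDifferential_smul Pb hb0 (differentialCoeff_D_jb_ne_zero m hA hgen Pb),
          ordDifferential_jb m hA hgen W hW Pb]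
        linarith
  · intro h Pb
    haveI := hgen Pb
    by_cases hb0 : hb = 0
    · exact Or.inl hb0
    · right
      have h1 := h Pb
      rw [Place.ordDifferential_smul Pb hb0 (differentialCoeff_D_jb_ne_zero m hA hgen Pb),
        ordDifferential_jb m hA hgen W hW Pb] at h1
      linarith

include hA hgen hW in
/-- (C4-a), membership form. -/
theorem redVt_mem_L_Wb (h : ↥(OV A M)) (hh : (h : ↥(Fbar M)) ∈ riemannRochSpace W) :
    redVt m hA h ∈ riemannRochSpace (Finsupp.mapDomain m.rPl W) := by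
  rw [mem_L_Wb_iff m hA hgen W hW]
  have hx : IsGen Qbar (jF M) := FbarFacts20.isGen_j M
  exact regular_red m hA hgen h
    ((Fermat.Agent.S23.GaloisReg.mem_riemannRochSpace_iff_regular hx W hW _).mp hh)

theorem comb_mem_L {ι : Type} [Fintype ι] (a : ι → ↥(OV A M))
    (ha : ∀ i, ((a i : ↥(OV A M)) : ↥(Fbar M)) ∈ riemannRochSpace W) (α : ι → ↥A) :
    ((comb a α : ↥(OV A M)) : ↥(Fbar M)) ∈ riemannRochSpace W := by
  rw [coe_comb]
  refine Submodule.sum_mem _ fun i _ => ?_
  rw [← Algebra.smul_def]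
  exact Submodule.smul_mem _ _ (ha i)

include hA hgen hW in
/-- **(C4-b) lifting of regular differentials.**  If `dim L(r_* W) ≤ dim L(W)` then every
`h̃ ∈ L(r_* W)` is the reduction of some `h ∈ OV ∩ L(W)`; moreover `h θ_j` is a power series with
coefficients in `A` whose reduction is `h̃ θ_j̃`. -/
theorem exists_lift_mem
    [FiniteDimensional (kA A) (riemannRochSpace (Finsupp.mapDomain m.rPl W))]
    (hbound : finrank (kA A) (riemannRochSpace (Finsupp.mapDomain m.rPl W)) ≤
      finrank Qbar (riemannRochSpace W))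
    (hb : ↥(Ft A M)) (hbmem : hb ∈ riemannRochSpace (Finsupp.mapDomain m.rPl W)) :
    ∃ (h : ↥(OV A M)) (Y : LaurentSeries ↥A),
      (h : ↥(Fbar M)) ∈ riemannRochSpace W ∧ redVt m hA h = hb ∧
      (((h : ↥(OV A M)) : ↥(Fbar M)) : LaurentSeries Qbar) * theta (jqModC Qbar) =
        coeffMap A.subtype Y ∧
      (hb : LaurentSeries (kA A)) * theta (jqModC (kA A)) = coeffMap (Setup8.resA A) Y ∧
      ∀ k : ℤ, k < 0 → Y.coeff k = 0 := by
  classical
  obtain ⟨ι, hι, a, Y, ha, hY1, hY2, hY3, hind, hcard⟩ := exists_family m hA W hW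
  set Rb := riemannRochSpace (Finsupp.mapDomain m.rPl W) with hRb
  let vR : ι → ↥Rb := fun i => ⟨redVt m hA (a i), redVt_mem_L_Wb m hA hgen W hW (a i) (ha i)⟩
  have hindR : LinearIndependent (kA A) vR := by
    apply LinearIndependent.of_comp Rb.subtype
    exact hind
  have h1 := hindR.fintype_card_le_finrank
  have hspan : Submodule.span (kA A) (Set.range vR) = ⊤ :=
    hindR.span_eq_top_of_card_eq_finrank' (by omega)
  have hmem : (⟨hb, hbmem⟩ : ↥Rb) ∈ Submodule.span (kA A) (Set.range vR) := by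
    rw [hspan]; exact Submodule.mem_top
  obtain ⟨c, hc⟩ := (Submodule.mem_span_range_iff_exists_fun (kA A)).mp hmem
  have hlift : ∀ i, ∃ α : ↥A, Setup8.resA A α = c i := fun i =>
    IsLocalRing.residue_surjective (c i)
  choose α hα using hlift
  obtain ⟨hs1, hs2, hs3⟩ := comb_series m hA a Y hY1 hY2 hY3 α
  have hred : redVt m hA (comb a α) = hb := by
    rw [redVt_comb]
    have h2 := congrArg (fun x : ↥Rb => (x : ↥(Ft A M))) hc
    simp only [Submodule.coe_sum, Submodule.coe_smul] at h2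
    rw [← h2]
    refine Finset.sum_congr rfl fun i _ => ?_
    rw [hα i]
  refine ⟨comb a α, ∑ i, HahnSeries.C (α i) * Y i, comb_mem_L W a ha α, hred, hs1, ?_, hs3⟩
  rw [← hs2, ← hred]
  rfl

include m hA hW in
/-- **(C4-c) integrality of regular differentials.**  For EVERY `h ∈ OV` with `h dj` regular, `h θ_j`
is a power series with coefficients in `A`, and its reduction is `h̃ θ_j̃`. -/
theorem integral_of_regular (h : ↥(OV A M)) (hh : (h : ↥(Fbar M)) ∈ riemannRochSpace W) :
    ∃ Y : LaurentSeries ↥A,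
      (((h : ↥(OV A M)) : ↥(Fbar M)) : LaurentSeries Qbar) * theta (jqModC Qbar) =
        coeffMap A.subtype Y ∧
      redV A M h * theta (jqModC (kA A)) = coeffMap (Setup8.resA A) Y ∧
      ∀ k : ℤ, k < 0 → Y.coeff k = 0 := by
  classical
  have hx : IsGen Qbar (jF M) := FbarFacts20.isGen_j M
  haveI : HasCanonicalDivisor (K := Qbar) (F := ↥(Fbar M)) := HasCanDivInst.hasCanonicalDivisor M
  haveI : FiniteDimensional Qbar (riemannRochSpace W) :=
    Fermat.Agent.RR.InstPrep.finiteDimensional_L_isGen hx W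
  obtain ⟨ι, hι, a, Y, ha, hY1, hY2, hY3, hind, hcard⟩ := exists_family m hA W hW
  let aR : ι → ↥(riemannRochSpace W) := fun i => ⟨(a i : ↥(Fbar M)), ha i⟩
  have hindR : LinearIndependent Qbar aR := by
    apply LinearIndependent.of_comp (riemannRochSpace W).subtype
    exact linearIndependent_coe m hA a hind
  have h1 := hindR.fintype_card_le_finrank
  have hspan : Submodule.span Qbar (Set.range aR) = ⊤ :=
    hindR.span_eq_top_of_card_eq_finrank' (by omega)
  have hmem : (⟨(h : ↥(Fbar M)), hh⟩ : ↥(riemannRochSpace W)) ∈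
      Submodule.span Qbar (Set.range aR) := by
    rw [hspan]; exact Submodule.mem_top
  obtain ⟨c, hc⟩ := (Submodule.mem_span_range_iff_exists_fun Qbar).mp hmem
  have hsum : ∑ i, algebraMap Qbar ↥(Fbar M) (c i) * ((a i : ↥(OV A M)) : ↥(Fbar M)) =
      (h : ↥(Fbar M)) := by
    have h2 := congrArg (fun x : ↥(riemannRochSpace W) => (x : ↥(Fbar M))) hc
    simp only [Submodule.coe_sum, Submodule.coe_smul] at h2
    rw [← h2]
    refine Finset.sum_congr rfl fun i _ => ?_
    rw [Algebra.smul_def]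
  have hcA : ∀ i, c i ∈ A := coeff_mem_A_of_sum_mem_OV m hA a hind c (by rw [hsum]; exact h.2)
  set α : ι → ↥A := fun i => ⟨c i, hcA i⟩ with hαdef
  have hcomb : comb a α = h := by
    apply Subtype.ext
    rw [coe_comb]
    exact hsum
  obtain ⟨hs1, hs2, hs3⟩ := comb_series m hA a Y hY1 hY2 hY3 α
  rw [hcomb] at hs1 hs2
  exact ⟨_, hs1, hs2, hs3⟩

end Main

end Fermat.Agent.U44.RegLift8
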