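/-
Programme U44 (target S44), chapter (LIFT), block Om-C4 (helper8): **the instance at the good level
`M'`** (`h : LevelHyp p M' A`: `p` odd prime, `p ∤ M'`, `4 ∣ M'`, `A` over `p`), with every
hypothesis discharged.

`model h : RedModel p A M'` is the concrete reduction model, `W h = div (dj)` on `Fbar M'`,
`Wb h = r_* (W h) = div (dj̃)` on the special fibre (`Wb_apply`).

* `finrank_L_Wb_eq : l(div dj̃) = l(div dj)` (from `RRFb0.finrank_L_canonical`, helper5's
  `GenusEq5.genusFF_special` (`genusFF_eq`, **Om-C3**) and `RRMain.finrank_L_canonical`);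
* `red h : OV A M' →+* F̃_{M'}` (`RedDiv9.redVt` at the good level), and the bridge to
  `FrickeRed3.Ov0 h`, `rho0 h`: `mem_Ov0_iff_mem_OV`, `toOV`, `ofOV`, `coe_rho0_eq_redV`,
  `rho0_eq_red`, `red_eq_rho0`;
* `regular_red'` (**C4-a**), `exists_lift_regular` (**C4-b**), `integral_of_regular'` (**C4-c** =
  (SAT)) for the Gauss valuation ring `RedGauss9.OV A M'`, and the same three statements for
  `Ov0 h`, `rho0 h`: `regular_rho0`, `exists_lift_regular_rho0`, `integral_of_regular_rho0`.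
-/
import Mathlib
import Fermat.Agent.U44.RegLift8
import Fermat.Agent.U44.RRFb0
import Fermat.Agent.T33.FrickeRed3B
import Fermat.Agent.RR.RRMain
import Fermat.Agent.U44.GenusEq5
import Fermat.Agent.S23.GaloisReg

set_option autoImplicit false
set_option synthInstance.maxHeartbeats 400000
set_option linter.style.haveILetI false
set_option linter.unusedSectionVars false

noncomputable section

open AlgebraicCurve ModularCurve IntermediateField HahnSeries KaehlerDifferential Module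

namespace Fermat.Agent.U44.RegLiftInst8

open Fermat.Agent.X0 Fermat.Agent.X0.FF Fermat.Agent.RED.Interface4
  Fermat.Agent.ES.RED Fermat.Agent.ES.RED.Contract8 Fermat.Agent.FF.RedIface9
  Fermat.Agent.FF.RedGauss9 Fermat.Agent.FF.RedDiv9
  Fermat.Agent.IG.PR.Theta20 Fermat.Agent.U44.RegRed8 Fermat.Agent.U44.RegLift8
  Fermat.Agent.RED.TOP Fermat.Agent.T33.NodalHalf4

variable {p M' : ℕ} [NeZero M'] [NeZero p] {A : ValuationSubring Qbar} (h : LevelHyp p M' A)

/-- the concrete reduction model at the good level. -/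
def model : RedModel p A M' :=
  redModel p h.prime A h.liesOver M' (hauptLevel_of_four_dvd h.four_dvd h.not_dvd)

theorem isGen_j : IsGen Qbar (jF M') := FbarFacts20.isGen_j M'

/-- `div (dj)` on `Fbar M'`. -/
def W : Divisor Qbar ↥(Fbar M') :=
  haveI := HasCanDivInst.hasCanonicalDivisor M'
  canonicalDivisorOf (D_ne_zero (isGen_j (M' := M')))

theorem W_apply (P : Place Qbar ↥(Fbar M')) :
    W (M' := M') P = P.ordDifferential (D Qbar ↥(Fbar M') (jF M')) :=
  haveI := HasCanDivInst.hasCanonicalDivisor M'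
  canonicalDivisorOf_apply (D_ne_zero (isGen_j (M' := M'))) P

/-- `r_* div (dj)`, a divisor of `dj̃` on the special fibre. -/
def Wb : Divisor (kA A) ↥(Ft A M') := Finsupp.mapDomain (model h).rPl (W (M' := M'))

include h in
theorem hgen (Pb : Place (kA A) ↥(Ft A M')) : Pb.DCoordGenerates :=
  Fermat.Agent.U44.RRFb0.dCoordGenerates h Pb

theorem Wb_apply (Pb : Place (kA A) ↥(Ft A M')) :
    Wb h Pb = Pb.ordDifferential (D (kA A) ↥(Ft A M') (jb A M')) :=
  haveI : Fact p.Prime := ⟨h.prime⟩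
  (ordDifferential_jb (model h) h.liesOver (hgen h) (W (M' := M')) W_apply Pb).symm

/-! ### dimensions: `l(div dj̃) = l(div dj)` (through the genus equality, Om-C3) -/

include h in
theorem lHypFb : Fermat.Agent.RR.LSpace.LHyp (kA A) ↥(Ft A M') :=
  Fermat.Agent.T33.NodalInst6.lHyp_component h

include h in
theorem finiteDimensional_L (Db : Divisor (kA A) ↥(Ft A M')) :
    FiniteDimensional (kA A) (riemannRochSpace Db) :=
  Fermat.Agent.RR.LSpace.finiteDimensional_L (lHypFb h) Db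

theorem finrank_L_Wb :
    finrank (kA A) (riemannRochSpace (Wb h)) = genusFF (kA A) ↥(Ft A M') :=
  Fermat.Agent.U44.RRFb0.finrank_L_canonical h D_jb_ne_zero (Wb_apply h)

theorem finrank_L_W :
    finrank Qbar (riemannRochSpace (W (M' := M'))) = genusFF Qbar ↥(Fbar M') := by
  haveI := HasCanDivInst.hasCanonicalDivisor M'
  rw [Fermat.Agent.RR.RRMain.finrank_L_canonical isGen_j (D_ne_zero isGen_j) W_apply,
    Fermat.Agent.RR.RRMain.genus_eq_genusFF isGen_j]

include h in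
/-- **(Om-C3)** at the good level (helper5's `GenusEq5.genusFF_special`). -/
theorem genusFF_eq : genusFF (kA A) ↥(Ft A M') = genusFF Qbar ↥(Fbar M') :=
  haveI : Fact p.Prime := ⟨h.prime⟩
  Fermat.Agent.U44.GenusEq5.genusFF_special (model h) h.liesOver

theorem finrank_L_Wb_eq :
    finrank (kA A) (riemannRochSpace (Wb h)) = finrank Qbar (riemannRochSpace (W (M' := M'))) := by
  rw [finrank_L_Wb, finrank_L_W, genusFF_eq h]

/-! ### the reduction map and the bridge to `FrickeRed3.Ov0`, `rho0` -/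

/-- the reduction `OV → F̃_{M'}` at the good level. -/
def red : ↥(OV A M') →+* ↥(Ft A M') :=
  haveI : Fact p.Prime := ⟨h.prime⟩
  redVt (model h) h.liesOver

@[simp] theorem coe_red (f : ↥(OV A M')) :
    ((red h f : ↥(Ft A M')) : LaurentSeries (kA A)) = redV A M' f := rfl

include h in
theorem mem_Ov0_iff_mem_OV (y : ↥(Fbar M')) :
    y ∈ Fermat.Agent.T33.FrickeRed3.Ov0 h ↔ y ∈ OV A M' :=
  Fermat.Agent.T33.FrickeRed3.mem_Ov0_iff h y

/-- an element of `Ov0 h` as an element of `OV A M'`. -/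
def toOV (y : ↥(Fermat.Agent.T33.FrickeRed3.Ov0 h)) : ↥(OV A M') :=
  ⟨(y : ↥(Fbar M')), (mem_Ov0_iff_mem_OV h _).1 y.2⟩

/-- an element of `OV A M'` as an element of `Ov0 h`. -/
def ofOV (y : ↥(OV A M')) : ↥(Fermat.Agent.T33.FrickeRed3.Ov0 h) :=
  ⟨(y : ↥(Fbar M')), (mem_Ov0_iff_mem_OV h _).2 y.2⟩

@[simp] theorem coe_toOV (y : ↥(Fermat.Agent.T33.FrickeRed3.Ov0 h)) :
    ((toOV h y : ↥(OV A M')) : ↥(Fbar M')) = y := rfl

@[simp] theorem coe_ofOV (y : ↥(OV A M')) :
    ((ofOV h y : ↥(Fermat.Agent.T33.FrickeRed3.Ov0 h)) : ↥(Fbar M')) = y := rfl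

theorem coe_rho0_eq_redV (y : ↥(Fermat.Agent.T33.FrickeRed3.Ov0 h)) :
    ((Fermat.Agent.T33.FrickeRed3.rho0 h y : Fb A M') : LaurentSeries (kA A)) =
      redV A M' (toOV h y) := by
  obtain ⟨a, b, hb, hab⟩ := (Fermat.Agent.T33.FrickeRed3.mem_Ov0_iff h (y : ↥(Fbar M'))).1 y.2
  rw [Fermat.Agent.T33.FrickeRed3.coe_rho0_eq h y a b hb hab]
  exact (redV_eq A M' (toOV h y) hb hab).symm

theorem rho0_eq_red (y : ↥(Fermat.Agent.T33.FrickeRed3.Ov0 h)) :
    Fermat.Agent.T33.FrickeRed3.rho0 h y = red h (toOV h y) :=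
  Subtype.ext (coe_rho0_eq_redV h y)

theorem red_eq_rho0 (y : ↥(OV A M')) :
    red h y = Fermat.Agent.T33.FrickeRed3.rho0 h (ofOV h y) := by
  rw [rho0_eq_red]
  rfl

/-! ### the three statements of (Om-C4) at the good level -/

theorem mem_L_W_iff (f : ↥(Fbar M')) :
    f ∈ riemannRochSpace (W (M' := M')) ↔
      ∀ P : Place Qbar ↥(Fbar M'), 0 ≤ P.ordDifferential (f • D Qbar ↥(Fbar M') (jF M')) :=
  Fermat.Agent.S23.GaloisReg.mem_riemannRochSpace_iff_regular isGen_j W W_apply f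

theorem mem_L_Wb_iff' (hb : ↥(Ft A M')) :
    hb ∈ riemannRochSpace (Wb h) ↔
      ∀ Pb : Place (kA A) ↥(Ft A M'),
        0 ≤ Pb.ordDifferential (hb • D (kA A) ↥(Ft A M') (jb A M')) :=
  haveI : Fact p.Prime := ⟨h.prime⟩
  mem_L_Wb_iff (model h) h.liesOver (hgen h) W W_apply hb

/-- **(C4-a)**: the reduction of a regular differential `h' dj`, `h' ∈ OV`, is the regular
differential `h̃' dj̃` of the special fibre. -/
theorem regular_red' (h' : ↥(OV A M'))
    (hreg : ∀ P : Place Qbar ↥(Fbar M'),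
      0 ≤ P.ordDifferential ((h' : ↥(Fbar M')) • D Qbar ↥(Fbar M') (jF M')))
    (Pb : Place (kA A) ↥(Ft A M')) :
    0 ≤ Pb.ordDifferential (red h h' • D (kA A) ↥(Ft A M') (jb A M')) :=
  haveI : Fact p.Prime := ⟨h.prime⟩
  regular_red (model h) h.liesOver (hgen h) h' hreg Pb

/-- **(C4-b)**: every regular differential `h̃ dj̃` of the special fibre lifts to a regular
differential `h' dj` of `Fbar M'` with `h' ∈ OV`, whose `q`-expansion (against `θ j`) is
`A`-integral, without polar part, and reduces coefficientwise to that of `h̃ dj̃`. -/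
theorem exists_lift_regular (hb : ↥(Ft A M'))
    (hreg : ∀ Pb : Place (kA A) ↥(Ft A M'),
      0 ≤ Pb.ordDifferential (hb • D (kA A) ↥(Ft A M') (jb A M'))) :
    ∃ (h' : ↥(OV A M')) (Y : LaurentSeries ↥A),
      (∀ P : Place Qbar ↥(Fbar M'),
        0 ≤ P.ordDifferential ((h' : ↥(Fbar M')) • D Qbar ↥(Fbar M') (jF M'))) ∧
      red h h' = hb ∧
      (((h' : ↥(OV A M')) : ↥(Fbar M')) : LaurentSeries Qbar) * theta (jqModC Qbar) =
        coeffMap A.subtype Y ∧
      (hb : LaurentSeries (kA A)) * theta (jqModC (kA A)) = coeffMap (Setup8.resA A) Y ∧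
      ∀ k : ℤ, k < 0 → Y.coeff k = 0 := by
  haveI : Fact p.Prime := ⟨h.prime⟩
  haveI : FiniteDimensional (kA A)
      (riemannRochSpace (Finsupp.mapDomain (model h).rPl (W (M' := M')))) :=
    finiteDimensional_L h _
  obtain ⟨h', Y, hmem, hred, hY1, hY2, hY3⟩ :=
    exists_lift_mem (model h) h.liesOver (hgen h) W W_apply (finrank_L_Wb_eq h).le hb
      ((mem_L_Wb_iff' h hb).2 hreg)
  exact ⟨h', Y, (mem_L_W_iff _).1 hmem, hred, hY1, hY2, hY3⟩

/-- **(C4-c) = (SAT)**: a regular differential `h'' dj` with `h''` in the Gauss valuation ring has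
`A`-integral `q`-expansion, which reduces coefficientwise to that of `h̃'' dj̃`. -/
theorem integral_of_regular' (h'' : ↥(OV A M'))
    (hreg : ∀ P : Place Qbar ↥(Fbar M'),
      0 ≤ P.ordDifferential ((h'' : ↥(Fbar M')) • D Qbar ↥(Fbar M') (jF M'))) :
    ∃ Y : LaurentSeries ↥A,
      (((h'' : ↥(OV A M')) : ↥(Fbar M')) : LaurentSeries Qbar) * theta (jqModC Qbar) =
        coeffMap A.subtype Y ∧
      ((red h h'' : ↥(Ft A M')) : LaurentSeries (kA A)) * theta (jqModC (kA A)) =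
        coeffMap (Setup8.resA A) Y ∧
      ∀ k : ℤ, k < 0 → Y.coeff k = 0 :=
  haveI : Fact p.Prime := ⟨h.prime⟩
  integral_of_regular (model h) h.liesOver W W_apply h'' ((mem_L_W_iff _).2 hreg)

/-! ### the same, for `FrickeRed3.Ov0 h` and `rho0 h` -/

theorem regular_rho0 (y : ↥(Fermat.Agent.T33.FrickeRed3.Ov0 h))
    (hreg : ∀ P : Place Qbar ↥(Fbar M'),
      0 ≤ P.ordDifferential ((y : ↥(Fbar M')) • D Qbar ↥(Fbar M') (jF M')))
    (Pb : Place (kA A) ↥(Ft A M')) :
    0 ≤ Pb.ordDifferential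
      (Fermat.Agent.T33.FrickeRed3.rho0 h y • D (kA A) ↥(Ft A M') (jb A M')) := by
  rw [rho0_eq_red]
  exact regular_red' h (toOV h y) hreg Pb

theorem exists_lift_regular_rho0 (hb : ↥(Ft A M'))
    (hreg : ∀ Pb : Place (kA A) ↥(Ft A M'),
      0 ≤ Pb.ordDifferential (hb • D (kA A) ↥(Ft A M') (jb A M'))) :
    ∃ (y : ↥(Fermat.Agent.T33.FrickeRed3.Ov0 h)) (Y : LaurentSeries ↥A),
      (∀ P : Place Qbar ↥(Fbar M'),
        0 ≤ P.ordDifferential ((y : ↥(Fbar M')) • D Qbar ↥(Fbar M') (jF M'))) ∧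
      Fermat.Agent.T33.FrickeRed3.rho0 h y = hb ∧
      ((y : ↥(Fbar M')) : LaurentSeries Qbar) * theta (jqModC Qbar) = coeffMap A.subtype Y ∧
      (hb : LaurentSeries (kA A)) * theta (jqModC (kA A)) = coeffMap (Setup8.resA A) Y ∧
      ∀ k : ℤ, k < 0 → Y.coeff k = 0 := by
  obtain ⟨h', Y, hr, hred, hY1, hY2, hY3⟩ := exists_lift_regular h hb hreg
  refine ⟨ofOV h h', Y, hr, ?_, hY1, hY2, hY3⟩
  rw [← red_eq_rho0, hred]

theorem integral_of_regular_rho0 (y : ↥(Fermat.Agent.T33.FrickeRed3.Ov0 h))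
    (hreg : ∀ P : Place Qbar ↥(Fbar M'),
      0 ≤ P.ordDifferential ((y : ↥(Fbar M')) • D Qbar ↥(Fbar M') (jF M'))) :
    ∃ Y : LaurentSeries ↥A,
      ((y : ↥(Fbar M')) : LaurentSeries Qbar) * theta (jqModC Qbar) = coeffMap A.subtype Y ∧
      ((Fermat.Agent.T33.FrickeRed3.rho0 h y : Fb A M') : LaurentSeries (kA A)) *
          theta (jqModC (kA A)) = coeffMap (Setup8.resA A) Y ∧
      ∀ k : ℤ, k < 0 → Y.coeff k = 0 := by
  obtain ⟨Y, hY1, hY2, hY3⟩ := integral_of_regular' h (toOV h y) hreg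
  refine ⟨Y, hY1, ?_, hY3⟩
  rw [rho0_eq_red]
  exact hY2

end Fermat.Agent.U44.RegLiftInst8
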