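/-
Programme U44, chapter (HECKE), file 9 (helper4): **(N-RED) along homomorphisms.**

`H : HalfRed A F Fb`, `H' : HalfRed A F' Fb'`, `φ : F →ₐ[K] F'`, `φb : Fb →ₐ[κ] Fb'` with
`φ (H.O) ⊆ H'.O`, `H'.ρ ∘ φ = φb ∘ H.ρ`, `H'.ρ` onto and `[Fb' : φb Fb] = [F' : φ F]`.  Then for
`f : F'` and a constant `c` with `c • f ∈ H'.O`:  `c ^ n • N_φ f ∈ H.O` (`n = [F' : φ F]`) and
`H.ρ (c ^ n • N_φ f) = N_φb (H'.ρ (c • f))`, where `N_φ = PointFormula28.normAlong φ`.
-/
import Mathlib
import Fermat.Agent.U44.HalfRedOver4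
import Fermat.Agent.ES.HECKE.PointFormula28

set_option autoImplicit false
set_option linter.unusedSectionVars false
set_option linter.style.haveILetI false

noncomputable section

namespace Fermat.Agent.U44.NormAlong4

open IsLocalRing Module AlgebraicCurve Fermat.Agent.T33.NodalCtx1
  Fermat.Agent.ES.HECKE.PointFormula28

variable {K : Type*} [Field K] {A : ValuationSubring K} {F F' : Type*} [Field F] [Field F']
  [Algebra K F] [Algebra K F'] {Fb Fb' : Type*} [Field Fb] [Field Fb']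
  [Algebra (ResidueField A) Fb] [Algebra (ResidueField A) Fb']

/-- **(N-RED) along a pair of homomorphisms.** -/
theorem normalise_normAlong (H : HalfRed A F Fb) (H' : HalfRed A F' Fb')
    (φ : F →ₐ[K] F') (φb : Fb →ₐ[ResidueField A] Fb')
    (hle : ∀ y : F, y ∈ H.O → φ y ∈ H'.O)
    (hcomm : ∀ (y : F) (hy : y ∈ H.O), H'.ρ ⟨φ y, hle y hy⟩ = φb (H.ρ ⟨y, hy⟩))
    (hsurj : Function.Surjective H'.ρ)
    (hdeg : finrankAlong (ResidueField A) φb = finrankAlong K φ)
    (hpos : 0 < finrankAlong K φ)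
    (c : K) (f : F') (hm : algebraMap K F' c * f ∈ H'.O) :
    ∃ hN : algebraMap K F (c ^ finrankAlong K φ) * normAlong φ f ∈ H.O,
      H.ρ ⟨_, hN⟩ = normAlong φb (H'.ρ ⟨_, hm⟩) := by
  letI := algebraAlong φ
  haveI := isScalarTower_along φ
  letI : Algebra Fb Fb' := algebraAlong φb
  haveI : FiniteDimensional F F' := Module.finite_of_finrank_pos hpos
  haveI : FiniteDimensional Fb Fb' := Module.finite_of_finrank_pos (by
    have h1 : finrank Fb Fb' = finrankAlong (ResidueField A) φb := rfl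
    rw [h1, hdeg]; exact hpos)
  exact Fermat.Agent.U44.HalfRedOver4.normalise_norm H H' hle hcomm hsurj hdeg c f hm

/-- the reduction of a Gauss unit is nonzero after taking norms. -/
theorem normAlong_ne_zero {κ : Type*} [Field κ] [Algebra κ Fb] [Algebra κ Fb']
    (φb : Fb →ₐ[κ] Fb') (hpos : 0 < finrankAlong κ φb) {u : Fb'} (hu : u ≠ 0) :
    normAlong φb u ≠ 0 := by
  letI := algebraAlong φb
  haveI : FiniteDimensional Fb Fb' := Module.finite_of_finrank_pos hpos
  exact Algebra.norm_ne_zero_iff.mpr hu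

end Fermat.Agent.U44.NormAlong4
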