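/-
Programme U44, chapter (HECKE), file 10 (helper4): **(H1) — the Hecke correspondence `T_ℓ` of
`X₀(M'p)` on Gauss-normalised functions.**

`h : LevelHyp p M' A`, `ℓ ≠ p` a prime, `ℓ ∤ M'`; `α = heckeAlphaBar Qbar (M'p) ℓ`,
`β = heckeBetaBar Qbar (M'p) ℓ`; `ᾱ = alphaC`, `β̄ = betaC` (`DegreeC4`).  If `pD = div f` then
`p (T_ℓ D) = div (N_α (β f))` (`hecke_kummer`), and:

* `red_hecke₁` : `c • f ∈ O₁` ⟹ `c^(ℓ+1) • N_α (β f) ∈ O₁` and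
  `ρ₁ (c^(ℓ+1) • N_α (β f)) = N_ᾱ (β̄ (ρ₁ (c • f)))`;
* `red_hecke₂` : `c • f ∈ O₂` ⟹ `c^(ℓ+1) • N_α (β f) ∈ O₂` and
  `ρ₂ (c^(ℓ+1) • N_α (β f)) = N_β̄ (ᾱ (ρ₂ (c • f)))`  (the TRANSPOSE on the second component).
-/
import Mathlib
import Fermat.Agent.U44.LevelEll4
import Fermat.Agent.U44.NormAlong4
import Fermat.Agent.U44.HeckeC4
import Fermat.Agent.ES.HECKE.InputsFinal15
import Fermat.Prelude.Def_ModularCurve_HeckeOperatorTotal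
import Fermat.Prelude.Def_ModularCurve_HeckeModule

set_option autoImplicit false
set_option linter.unusedSectionVars false
set_option linter.style.haveILetI false
set_option linter.unusedVariables false
set_option synthInstance.maxHeartbeats 400000

noncomputable section

namespace Fermat.Agent.U44.HeckePsi4

open HahnSeries ModularCurve IntermediateField IsLocalRing AlgebraicCurve
open Fermat.Agent.RED.Interface4 Fermat.Agent.ES.RED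
  Fermat.Agent.T33.NodalCtx1 Fermat.Agent.T33.NodalHalf4
  Fermat.Agent.T33.NodalBase4A Fermat.Agent.T33.FrickeRed3 Fermat.Agent.U44.DegreeC4
  Fermat.Agent.U44.LevelEll4 Fermat.Agent.U44.HeckeC4
  Fermat.Agent.ES.HECKE.PointFormula28 Fermat.Agent.ES.HECKE

variable {p M' : ℕ} [NeZero M'] [NeZero p] {A : ValuationSubring Qbar}
  (h : LevelHyp p M' A) {ℓ : ℕ} [NeZero ℓ] (hℓ : ℓ.Prime) (hℓp : ℓ ≠ p) (hℓM : ¬ ℓ ∣ M')

/-- shortcut instance. -/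
local instance (priority := high) algebraKFbP (M : ℕ) [NeZero M] :
    Algebra (ResidueField ↥A) (Fb A M) := inferInstance

theorem ρ_congr {K : Type*} [Field K] {A' : ValuationSubring K} {F : Type*} [Field F]
    [Algebra K F] {Fb' : Type*} [Field Fb'] [Algebra (ResidueField A') Fb']
    (H : HalfRed A' F Fb') {x x' : F} (e : x = x') (hx : x ∈ H.O) (hx' : x' ∈ H.O) :
    H.ρ ⟨x, hx⟩ = H.ρ ⟨x', hx'⟩ := by
  subst e; rfl

include h hℓ hℓp hℓM in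
theorem not_dvd_level : ¬ ℓ ∣ M' * p := by
  intro hd
  rcases (Nat.Prime.dvd_mul hℓ).1 hd with h1 | h1
  · exact hℓM h1
  · exact hℓp ((Nat.prime_dvd_prime_iff_eq hℓ h.prime).1 h1)

include h hℓ hℓp hℓM in
theorem finrankAlong_alphaL :
    finrankAlong Qbar (heckeAlphaBar Qbar (M' * p) ℓ) = ℓ + 1 :=
  AlongDegree25.finrankAlong_alpha Qbar (M' * p) ℓ hℓ (not_dvd_level h hℓ hℓp hℓM)

include hℓ hℓp hℓM in
/-- **(H1), first component.** -/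
theorem red_hecke₁ (c : Qbar) (f : ↥(Fbar (M' * p)))
    (hm : algebraMap Qbar ↥(Fbar (M' * p)) c * f ∈ (c1 h).O) :
    ∃ hN : algebraMap Qbar ↥(Fbar (M' * p)) (c ^ (ℓ + 1)) *
        normAlong (heckeAlphaBar Qbar (M' * p) ℓ) (heckeBetaBar Qbar (M' * p) ℓ f) ∈ (c1 h).O,
      (c1 h).ρ ⟨_, hN⟩ =
        normAlong (alphaC (Setup8.kA A) M' ℓ) (betaC (Setup8.kA A) M' ℓ ((c1 h).ρ ⟨_, hm⟩)) := by
  have hdegA := finrankAlong_alphaL h hℓ hℓp hℓM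
  -- `β (c • f) = c • β f` is a Gauss unit of `c1L`
  have hm' : algebraMap Qbar ↥(Fbar ((M' * p) * ℓ)) c * betaL M' p ℓ f ∈ (c1L h hℓ hℓp).O := by
    have := betaL_mem₁ h hℓ hℓp hm
    rwa [map_mul, AlgHom.commutes] at this
  have hρ' : (c1L h hℓ hℓp).ρ ⟨_, hm'⟩ = betaC (Setup8.kA A) M' ℓ ((c1 h).ρ ⟨_, hm⟩) := by
    rw [← rho_betaL₁ h hℓ hℓp _ hm]
    exact ρ_congr _ (by rw [map_mul, AlgHom.commutes]) _ _
  have hdegA' : finrankAlong Qbar (alphaL M' p ℓ) = ℓ + 1 := hdegA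
  have hdeg : finrankAlong (ResidueField ↥A) (alphaC (Setup8.kA A) M' ℓ) =
      finrankAlong Qbar (alphaL M' p ℓ) :=
    (HeckeC4.finrankAlong_alpha h hℓ hℓp hℓM).trans hdegA'.symm
  have hpos : 0 < finrankAlong Qbar (alphaL M' p ℓ) := by rw [hdegA']; exact Nat.succ_pos ℓ
  have hle : ∀ y : ↥(Fbar (M' * p)), y ∈ (c1 h).O → alphaL M' p ℓ y ∈ (c1L h hℓ hℓp).O :=
    fun y hy => alphaL_mem₁ h hℓ hℓp hy
  have hcomm : ∀ (y : ↥(Fbar (M' * p))) (hy : y ∈ (c1 h).O),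
      (c1L h hℓ hℓp).ρ ⟨alphaL M' p ℓ y, hle y hy⟩ =
        alphaC (Setup8.kA A) M' ℓ ((c1 h).ρ ⟨y, hy⟩) :=
    fun y hy => rho_alphaL₁ h hℓ hℓp y hy
  obtain ⟨hN, hρN⟩ := Fermat.Agent.U44.NormAlong4.normalise_normAlong (c1 h) (c1L h hℓ hℓp)
    (alphaL M' p ℓ) (alphaC (Setup8.kA A) M' ℓ) hle hcomm (c1L_ρ_surjective h hℓ hℓp) hdeg hpos
    c (betaL M' p ℓ f) hm'
  have e : algebraMap Qbar ↥(Fbar (M' * p)) (c ^ finrankAlong Qbar (alphaL M' p ℓ)) *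
      normAlong (alphaL M' p ℓ) (betaL M' p ℓ f) =
      algebraMap Qbar ↥(Fbar (M' * p)) (c ^ (ℓ + 1)) *
        normAlong (heckeAlphaBar Qbar (M' * p) ℓ) (heckeBetaBar Qbar (M' * p) ℓ f) := by
    rw [hdegA']; rfl
  refine ⟨e ▸ hN, ?_⟩
  rw [← hρ', ← hρN]
  exact ρ_congr _ e.symm _ _

include hℓ hℓp hℓM in
/-- **(H1), second component** (the roles of `ᾱ`, `β̄` are exchanged). -/
theorem red_hecke₂ (c : Qbar) (f : ↥(Fbar (M' * p)))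
    (hm : algebraMap Qbar ↥(Fbar (M' * p)) c * f ∈ (c2 h).O) :
    ∃ hN : algebraMap Qbar ↥(Fbar (M' * p)) (c ^ (ℓ + 1)) *
        normAlong (heckeAlphaBar Qbar (M' * p) ℓ) (heckeBetaBar Qbar (M' * p) ℓ f) ∈ (c2 h).O,
      (c2 h).ρ ⟨_, hN⟩ =
        normAlong (betaC (Setup8.kA A) M' ℓ) (alphaC (Setup8.kA A) M' ℓ ((c2 h).ρ ⟨_, hm⟩)) := by
  have hdegA := finrankAlong_alphaL h hℓ hℓp hℓM
  have hm' : algebraMap Qbar ↥(Fbar ((M' * p) * ℓ)) c * betaL M' p ℓ f ∈ (c2L h hℓ hℓp).O := by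
    have := betaL_mem₂ h hℓ hℓp hm
    rwa [map_mul, AlgHom.commutes] at this
  have hρ' : (c2L h hℓ hℓp).ρ ⟨_, hm'⟩ = alphaC (Setup8.kA A) M' ℓ ((c2 h).ρ ⟨_, hm⟩) := by
    rw [← rho_betaL₂ h hℓ hℓp _ hm]
    exact ρ_congr _ (by rw [map_mul, AlgHom.commutes]) _ _
  have hdegA' : finrankAlong Qbar (alphaL M' p ℓ) = ℓ + 1 := hdegA
  have hdeg : finrankAlong (ResidueField ↥A) (betaC (Setup8.kA A) M' ℓ) =
      finrankAlong Qbar (alphaL M' p ℓ) :=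
    (HeckeC4.finrankAlong_beta h hℓ hℓp hℓM).trans hdegA'.symm
  have hpos : 0 < finrankAlong Qbar (alphaL M' p ℓ) := by rw [hdegA']; exact Nat.succ_pos ℓ
  have hle : ∀ y : ↥(Fbar (M' * p)), y ∈ (c2 h).O → alphaL M' p ℓ y ∈ (c2L h hℓ hℓp).O :=
    fun y hy => alphaL_mem₂ h hℓ hℓp hy
  have hcomm : ∀ (y : ↥(Fbar (M' * p))) (hy : y ∈ (c2 h).O),
      (c2L h hℓ hℓp).ρ ⟨alphaL M' p ℓ y, hle y hy⟩ =
        betaC (Setup8.kA A) M' ℓ ((c2 h).ρ ⟨y, hy⟩) :=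
    fun y hy => rho_alphaL₂ h hℓ hℓp y hy
  obtain ⟨hN, hρN⟩ := Fermat.Agent.U44.NormAlong4.normalise_normAlong (c2 h) (c2L h hℓ hℓp)
    (alphaL M' p ℓ) (betaC (Setup8.kA A) M' ℓ) hle hcomm (c2L_ρ_surjective h hℓ hℓp) hdeg hpos
    c (betaL M' p ℓ f) hm'
  have e : algebraMap Qbar ↥(Fbar (M' * p)) (c ^ finrankAlong Qbar (alphaL M' p ℓ)) *
      normAlong (alphaL M' p ℓ) (betaL M' p ℓ f) =
      algebraMap Qbar ↥(Fbar (M' * p)) (c ^ (ℓ + 1)) *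
        normAlong (heckeAlphaBar Qbar (M' * p) ℓ) (heckeBetaBar Qbar (M' * p) ℓ f) := by
    rw [hdegA']; rfl
  refine ⟨e ▸ hN, ?_⟩
  rw [← hρ', ← hρN]
  exact ρ_congr _ e.symm _ _

/-! ### the divisor side (characteristic `0`) -/

section Kummer

variable (N : ℕ) [NeZero N] (ℓ : ℕ) [NeZero ℓ]

/-- **`T_ℓ` on Kummer data**: if `n D = div f` then `T_ℓ [D] = [D']` with
`n D' = div (N_α (β f))`. -/
theorem hecke_kummer (hℓ : ℓ.Prime) (hℓN : ¬ ℓ ∣ N) (n : ℕ)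
    (D : Divisor.degZero (K := Qbar) (F := ↥(Fbar N))) (f : ↥(Fbar N)) (hf : f ≠ 0)
    (hD : ∀ v : Place Qbar ↥(Fbar N), (n : ℤ) * (D : Divisor Qbar ↥(Fbar N)) v = v.ord f) :
    ∃ DT : Divisor.degZero (K := Qbar) (F := ↥(Fbar N)),
      heckeOperatorAlong Qbar N ℓ (Pic0.mk D) = Pic0.mk DT ∧
      normAlong (heckeAlphaBar Qbar N ℓ) (heckeBetaBar Qbar N ℓ f) ≠ 0 ∧
      ∀ v : Place Qbar ↥(Fbar N), (n : ℤ) * (DT : Divisor Qbar ↥(Fbar N)) v =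
        v.ord (normAlong (heckeAlphaBar Qbar N ℓ) (heckeBetaBar Qbar N ℓ f)) := by
  obtain ⟨hα, hβ, hP, hfin, hFI, hN⟩ := InputsFinal15.heckeInputsAlong_bar N ℓ hℓ hℓN
  haveI := hP
  refine ⟨Pic0.degZeroCorrespondence (heckeBetaBar Qbar N ℓ) (heckeAlphaBar Qbar N ℓ) hβ hα hFI D,
    ?_, ?_, fun v => ?_⟩
  · rw [heckeOperatorAlong_eq hα hβ hFI hfin hN]
    rfl
  · letI := algebraAlong (heckeAlphaBar Qbar N ℓ)
    haveI : Module.Finite ↥(Fbar N) ↥(Fbar (N * ℓ)) := hfin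
    exact Algebra.norm_ne_zero_iff.mpr ((map_ne_zero _).mpr hf)
  · have h1 : (n : ℤ) * (Pic0.degZeroCorrespondence (heckeBetaBar Qbar N ℓ)
        (heckeAlphaBar Qbar N ℓ) hβ hα hFI D : Divisor Qbar ↥(Fbar N)) v =
        Divisor.correspondence (heckeBetaBar Qbar N ℓ) (heckeAlphaBar Qbar N ℓ) hβ hα
          ((n : ℤ) • (D : Divisor Qbar ↥(Fbar N))) v := by
      rw [map_zsmul, Finsupp.smul_apply, smul_eq_mul]
      rfl
    rw [h1]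
    exact correspondence_eq_ord_norm _ _ hβ hα hfin hN hf (fun w => by simpa using hD w) v

/-- the same for the Prelude's `heckeOperatorBar`. -/
theorem heckeBar_kummer (hℓ : ℓ.Prime) (hℓN : ¬ ℓ ∣ N) (n : ℕ)
    (D : Divisor.degZero (K := Qbar) (F := ↥(Fbar N))) (f : ↥(Fbar N)) (hf : f ≠ 0)
    (hD : ∀ v : Place Qbar ↥(Fbar N), (n : ℤ) * (D : Divisor Qbar ↥(Fbar N)) v = v.ord f) :
    ∃ DT : Divisor.degZero (K := Qbar) (F := ↥(Fbar N)),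
      heckeOperatorBar N ⟨ℓ, hℓ⟩ (Pic0.mk D) = Pic0.mk DT ∧
      normAlong (heckeAlphaBar Qbar N ℓ) (heckeBetaBar Qbar N ℓ f) ≠ 0 ∧
      ∀ v : Place Qbar ↥(Fbar N), (n : ℤ) * (DT : Divisor Qbar ↥(Fbar N)) v =
        v.ord (normAlong (heckeAlphaBar Qbar N ℓ) (heckeBetaBar Qbar N ℓ f)) :=
  hecke_kummer N ℓ hℓ hℓN n D f hf hD

end Kummer

end Fermat.Agent.U44.HeckePsi4
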