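/-
Programme U44 (target S44), block (TR), abstract layer (helper3): **the slopes modulo `p` depend
only on the divisor class.**

`R : HalfRed A F Fb` one component of a reduction context, `Q` a place of `Fb`.  For `f ≠ 0` and a
normalising constant `c` (`IsGU R (c f)`), the slope of `f` at `Q` is `ord_Q (red R (c f))`.

* `exists_isGU` : every `f ≠ 0` has a normalising constant (the field `gauss` of `HalfRed`);
* `slope_const_indep` : the slope does not depend on the normalising constant;
* `slope_mul`, `slope_pow` : the slope is additive;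
* `slope_congr` : if `f' = u · f · h ^ p` (`u` a constant) then
  `slope f' = slope f + p · slope h`;
* `slope_indep` : if `[D] = [D']` in `Pic⁰`, `div f = p D`, `div f' = p D'`, then the slopes of `f`
  and `f'` at `Q` are congruent modulo `p` — so `v ↦ (slope of f_v at Q) mod p` is well defined on
  `Pic⁰[p]`.
-/
import Mathlib
import Fermat.Agent.U44.GaussRed3
import Fermat.Agent.RR.LSpace
import Fermat.Agent.X0.FFDict

set_option autoImplicit false

open AlgebraicCurve IsLocalRing

namespace Fermat.Agent.U44.SlopeIndep3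

open Fermat.Agent.T33.NodalCtx1 Fermat.Agent.U44.GaussRed3 Fermat.Agent.RR.LSpace
  Fermat.Agent.X0.FF

variable {K : Type*} [Field K] {A : ValuationSubring K}
variable {F : Type*} [Field F] [Algebra K F]
variable {Fb : Type*} [Field Fb] [Algebra (ResidueField A) Fb] (R : HalfRed A F Fb)

/-- every nonzero function has a normalising constant. -/
theorem exists_isGU {f : F} (hf : f ≠ 0) : ∃ c : K, c ≠ 0 ∧ IsGU R (algebraMap K F c * f) := by
  obtain ⟨c, hc, h, hρ⟩ := R.gauss f hf
  exact ⟨c, hc, isGU_of_ρ_ne h hρ⟩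

variable (Q : Place (ResidueField A) Fb)

theorem ord_red_mul {x y : F} (hx : IsGU R x) (hy : IsGU R y) :
    Q.ord (red R (x * y)) = Q.ord (red R x) + Q.ord (red R y) := by
  rw [red_mul R hx.mem hy.mem, Q.ord_mul hx.2 hy.2]

theorem ord_red_pow {x : F} (hx : IsGU R x) (n : ℕ) :
    Q.ord (red R (x ^ n)) = n * Q.ord (red R x) := by
  rw [red_pow R hx.mem, ord_pow]

theorem ord_red_const {a : K} (ha : AUnit A a) : Q.ord (red R (algebraMap K F a)) = 0 := by
  rw [red_const R ha.1, ord_algebraMap]

/-- the slope does not depend on the normalising constant. -/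
theorem slope_const_indep {f : F} {c c' : K} (hc : IsGU R (algebraMap K F c * f))
    (hc' : IsGU R (algebraMap K F c' * f)) :
    Q.ord (red R (algebraMap K F c' * f)) = Q.ord (red R (algebraMap K F c * f)) := by
  have hu : AUnit A (c' / c) := aunit_div_of_isGU hc' hc
  have hc0 : c ≠ 0 := fun h0 => hc.ne_zero (by rw [h0, map_zero, zero_mul])
  have hcF : algebraMap K F c ≠ 0 := by rwa [ne_eq, _root_.map_eq_zero]
  have h1 : algebraMap K F c' * f = algebraMap K F (c' / c) * (algebraMap K F c * f) := by
    rw [map_div₀]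
    field_simp
  rw [h1, ord_red_mul R Q (isGU_const hu) hc, ord_red_const R Q hu, zero_add]

/-- **the slope of `u · f · h ^ p`.** -/
theorem slope_congr {p : ℕ} {f f' h : F} {u c c' e : K} (hrel : f' = algebraMap K F u * f * h ^ p)
    (hc : IsGU R (algebraMap K F c * f)) (hc' : IsGU R (algebraMap K F c' * f'))
    (he : IsGU R (algebraMap K F e * h)) :
    Q.ord (red R (algebraMap K F c' * f')) =
      Q.ord (red R (algebraMap K F c * f)) + p * Q.ord (red R (algebraMap K F e * h)) := by
  have hc0 : c ≠ 0 := fun h0 => hc.ne_zero (by rw [h0, map_zero, zero_mul])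
  have he0 : e ≠ 0 := fun h0 => he.ne_zero (by rw [h0, map_zero, zero_mul])
  have hf0 : f ≠ 0 := fun h0 => hc.ne_zero (by rw [h0, mul_zero])
  have hh0 : h ≠ 0 := fun h0 => he.ne_zero (by rw [h0, mul_zero])
  have hcF : algebraMap K F c ≠ 0 := by rwa [ne_eq, _root_.map_eq_zero]
  have heF : algebraMap K F e ≠ 0 := by rwa [ne_eq, _root_.map_eq_zero]
  set w : K := c' * u / (c * e ^ p) with hw
  have hG : IsGU R ((algebraMap K F c * f) * (algebraMap K F e * h) ^ p) := hc.mul (he.pow p)
  have h1 : algebraMap K F c' * f' =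
      algebraMap K F w * ((algebraMap K F c * f) * (algebraMap K F e * h) ^ p) := by
    rw [hrel, hw, map_div₀, map_mul, map_mul, map_pow]
    field_simp
    ring
  have h2 : algebraMap K F w =
      (algebraMap K F c' * f') * ((algebraMap K F c * f) * (algebraMap K F e * h) ^ p)⁻¹ := by
    rw [h1, mul_assoc, mul_inv_cancel₀ hG.ne_zero, mul_one]
  have hwu : AUnit A w := by
    apply aunit_of_isGU_const (R := R)
    rw [h2]
    exact hc'.mul hG.inv
  rw [h1, ord_red_mul R Q (isGU_const hwu) hG, ord_red_const R Q hwu, zero_add,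
    ord_red_mul R Q hc (he.pow p), ord_red_pow R Q he]

/-- **the slopes modulo `p` depend only on the class**: `[D] = [D']`, `div f = p D`,
`div f' = p D'`. -/
theorem slope_indep (H : LHyp K F) {p : ℕ} (D D' : Divisor.degZero (K := K) (F := F))
    (hDD' : Pic0.mk D = Pic0.mk D') {f f' : F} (hf0 : f ≠ 0) (hf'0 : f' ≠ 0)
    (hf : ∀ P : Place K F, P.ord f = p * (D : Divisor K F) P)
    (hf' : ∀ P : Place K F, P.ord f' = p * (D' : Divisor K F) P)
    {c c' : K} (hc : IsGU R (algebraMap K F c * f)) (hc' : IsGU R (algebraMap K F c' * f')) :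
    (p : ℤ) ∣ Q.ord (red R (algebraMap K F c' * f')) - Q.ord (red R (algebraMap K F c * f)) := by
  have h2 := (QuotientAddGroup.eq).1 hDD'
  rw [AddSubgroup.mem_addSubgroupOf] at h2
  obtain ⟨h, hh0, hh⟩ := h2
  -- `div h = D' − D`
  have hord : ∀ P : Place K F, P.ord h = (D' : Divisor K F) P - (D : Divisor K F) P := by
    intro P
    rw [← hh P]
    simp only [AddSubgroup.coe_add, AddSubgroup.coe_neg, Finsupp.add_apply, Finsupp.neg_apply]
    ring
  have hq0 : f' / (f * h ^ p) ≠ 0 := div_ne_zero hf'0 (mul_ne_zero hf0 (pow_ne_zero _ hh0))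
  obtain ⟨u, hu⟩ := eq_algebraMap_of_forall_ord_nonneg H (f := f' / (f * h ^ p)) (fun P => by
    rw [div_eq_mul_inv, P.ord_mul hf'0 (inv_ne_zero (mul_ne_zero hf0 (pow_ne_zero _ hh0))),
      Place.ord_inv, P.ord_mul hf0 (pow_ne_zero _ hh0), ord_pow, hf' P, hf P, hord P]
    apply le_of_eq
    ring)
  have hrel : f' = algebraMap K F u * f * h ^ p := by
    rw [← hu]
    field_simp
  obtain ⟨e, -, he⟩ := exists_isGU R hh0
  rw [slope_congr R Q hrel hc hc' he]
  exact ⟨Q.ord (red R (algebraMap K F e * h)), by ring⟩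

end Fermat.Agent.U44.SlopeIndep3
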