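/-
Programme U44 (S44), chapter (HECKE), block (H3), ABSTRACT layer, file 1 (helper1):
**the étale map `E : Jf → Pic⁰(Fb)[p]` of one component of a reduction context.**

`R : HalfRed A F Fb` one component (Gauss ring `R.O ⊆ F`, reduction `R.ρ : R.O → Fb`),
`H : LHyp K F`, `Hb : LHyp κ Fb` (`κ` the residue field of `A`), `p ≠ 0`.

For a class `x = [D] ∈ Pic⁰(F)` with `p D = div f` and a normalising constant `c`
(`IsGU R (c f)`), put `u = red R (c f) ∈ Fbˣ`.  If `p ∣ ord_Q u` for every place `Q` of `Fb`,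
then `E x := [(1/p) div u] ∈ Pic⁰(Fb)`.

* `KData R p D f c` : the Kummer data; `KData.mul`, `KData.inv`, `kdata_zero`;
* `exists_compare` : two Kummer data of the same class differ by `u · h ^ p`;
* `Rel R p x e` : "`e` is the étale image of `x`"; `Rel.unique`, `Rel.add`, `Rel.neg`, `rel_zero`,
  `Rel.p_smul_left`, `Rel.p_smul_right`, `Rel.nsmul`, `Rel.zsmul`;
* **`Rel.map`** : functoriality of `Rel` under a correspondence `T` on `Pic⁰(F)` lifting a
  correspondence `Tb` on `Pic⁰(Fb)` (the abstract form of (H1));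
* `Jf R p : AddSubgroup (Pic0 K F)` (the classes having an étale image),
  `E R H Hb hp : Jf R p →+ Pic0 κ Fb`, `E_spec`, `E_eq_of_rel`, `p_smul_E`;
* `mem_Jf_of_dvd`, `dvd_of_mem_Jf` : `x ∈ Jf ↔` the slopes of (one, hence every) Kummer datum are
  all divisible by `p`;
* `mem_RC_of_eq`, `exists_of_mem_RC` : the residue condition `f ∈ Kˣ (Fˣ)ⁿ pu(R)` of `T33/Psi3B`
  in field form;
* **`rel_zero_iff`** : `E x = 0 ↔ x = [D]`, `p D = div f` with `f ∈ Kˣ (Fˣ)ᵖ pu(R)`
  (needs `R.ρ` surjective).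
-/
import Mathlib
import Fermat.Agent.U44.SlopeIndep3
import Fermat.Agent.T33.Psi3F
import Fermat.Agent.T33.Psi3B

set_option autoImplicit false
set_option linter.unusedSectionVars false
set_option linter.unusedVariables false

open AlgebraicCurve IsLocalRing

noncomputable section

namespace Fermat.Agent.U44.EtaleAbs1

open Fermat.Agent.T33.NodalCtx1 Fermat.Agent.U44.GaussRed3 Fermat.Agent.RR.LSpace
  Fermat.Agent.X0.FF Fermat.Agent.U44.SlopeIndep3 Fermat.Agent.T33.Psi3B Fermat.Agent.T33.Psi3F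

variable {K : Type*} [Field K] {A : ValuationSubring K}
variable {F : Type*} [Field F] [Algebra K F]
variable {Fb : Type*} [Field Fb] [Algebra (ResidueField A) Fb] (R : HalfRed A F Fb)

/-! ### Kummer data -/

/-- **Kummer datum**: `p D = div f`, and `c f` is a Gauss unit of the component. -/
structure KData (p : ℕ) (D : Divisor.degZero (K := K) (F := F)) (f : F) (c : K) : Prop where
  f_ne : f ≠ 0
  ord_f : ∀ P : Place K F, P.ord f = p * (D : Divisor K F) P
  gu : IsGU R (algebraMap K F c * f)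

variable {R}

theorem KData.c_ne {p : ℕ} {D : Divisor.degZero (K := K) (F := F)} {f : F} {c : K}
    (h : KData R p D f c) : c ≠ 0 :=
  fun h0 => h.gu.ne_zero (by rw [h0, map_zero, zero_mul])

theorem KData.red_ne {p : ℕ} {D : Divisor.degZero (K := K) (F := F)} {f : F} {c : K}
    (h : KData R p D f c) : red R (algebraMap K F c * f) ≠ 0 := h.gu.2

theorem KData.mul {p : ℕ} {D D' : Divisor.degZero (K := K) (F := F)} {f f' : F} {c c' : K}
    (h : KData R p D f c) (h' : KData R p D' f' c') : KData R p (D + D') (f * f') (c * c') := by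
  refine ⟨mul_ne_zero h.f_ne h'.f_ne, fun P => ?_, ?_⟩
  · rw [P.ord_mul h.f_ne h'.f_ne, h.ord_f P, h'.ord_f P]
    simp only [AddSubgroup.coe_add, Finsupp.coe_add, Pi.add_apply]
    ring
  · have e : algebraMap K F (c * c') * (f * f') =
        (algebraMap K F c * f) * (algebraMap K F c' * f') := by
      rw [map_mul]; ring
    rw [e]
    exact h.gu.mul h'.gu

theorem KData.red_mul {p : ℕ} {D D' : Divisor.degZero (K := K) (F := F)} {f f' : F} {c c' : K}
    (h : KData R p D f c) (h' : KData R p D' f' c') :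
    red R (algebraMap K F (c * c') * (f * f')) =
      red R (algebraMap K F c * f) * red R (algebraMap K F c' * f') := by
  have e : algebraMap K F (c * c') * (f * f') =
      (algebraMap K F c * f) * (algebraMap K F c' * f') := by
    rw [map_mul]; ring
  rw [e, GaussRed3.red_mul R h.gu.mem h'.gu.mem]

theorem KData.inv {p : ℕ} {D : Divisor.degZero (K := K) (F := F)} {f : F} {c : K}
    (h : KData R p D f c) : KData R p (-D) f⁻¹ c⁻¹ := by
  refine ⟨inv_ne_zero h.f_ne, fun P => ?_, ?_⟩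
  · rw [P.ord_inv, h.ord_f P]
    simp only [AddSubgroup.coe_neg, Finsupp.coe_neg, Pi.neg_apply]
    ring
  · have e : algebraMap K F c⁻¹ * f⁻¹ = (algebraMap K F c * f)⁻¹ := by
      rw [map_inv₀, mul_inv]
    rw [e]
    exact h.gu.inv

theorem KData.red_inv {p : ℕ} {D : Divisor.degZero (K := K) (F := F)} {f : F} {c : K}
    (h : KData R p D f c) :
    red R (algebraMap K F c⁻¹ * f⁻¹) = (red R (algebraMap K F c * f))⁻¹ := by
  have e : algebraMap K F c⁻¹ * f⁻¹ = (algebraMap K F c * f)⁻¹ := by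
    rw [map_inv₀, mul_inv]
  rw [e, h.gu.red_inv]

theorem kdata_zero (p : ℕ) : KData R p 0 1 1 := by
  refine ⟨one_ne_zero, fun P => ?_, ?_⟩
  · rw [Place.ord_one]
    simp
  · rw [map_one, mul_one]
    exact isGU_one

/-- **two Kummer data of the same class differ by `u · g ^ p`.** -/
theorem exists_compare (H : LHyp K F) {p : ℕ} {D D' : Divisor.degZero (K := K) (F := F)}
    (hDD' : Pic0.mk D = Pic0.mk D') {f f' : F} {c c' : K}
    (h : KData R p D f c) (h' : KData R p D' f' c') :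
    ∃ (r : Fb), r ≠ 0 ∧ ∀ Q : Place (ResidueField A) Fb,
      Q.ord (red R (algebraMap K F c' * f')) =
        Q.ord (red R (algebraMap K F c * f)) + p * Q.ord r := by
  have h2 := (QuotientAddGroup.eq).1 hDD'
  rw [AddSubgroup.mem_addSubgroupOf] at h2
  obtain ⟨g, hg0, hg⟩ := h2
  have hord : ∀ P : Place K F, P.ord g = (D' : Divisor K F) P - (D : Divisor K F) P := by
    intro P
    rw [← hg P]
    simp only [AddSubgroup.coe_add, AddSubgroup.coe_neg, Finsupp.add_apply, Finsupp.neg_apply]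
    ring
  have hf0 := h.f_ne
  have hf'0 := h'.f_ne
  obtain ⟨u, hu⟩ := eq_algebraMap_of_forall_ord_nonneg H (f := f' / (f * g ^ p)) (fun P => by
    rw [div_eq_mul_inv, P.ord_mul hf'0 (inv_ne_zero (mul_ne_zero hf0 (pow_ne_zero _ hg0))),
      Place.ord_inv, P.ord_mul hf0 (pow_ne_zero _ hg0), ord_pow, h'.ord_f P, h.ord_f P, hord P]
    apply le_of_eq
    ring)
  have hrel : f' = algebraMap K F u * f * g ^ p := by
    rw [← hu]
    field_simp
  obtain ⟨e, -, he⟩ := exists_isGU R hg0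
  exact ⟨red R (algebraMap K F e * g), he.2, fun Q => slope_congr R Q hrel h.gu h'.gu he⟩

/-! ### the relation "`e` is the étale image of `x`" -/

variable (R)

/-- **`e` is the étale image of `x`.** -/
def Rel (p : ℕ) (x : Pic0 K F) (e : Pic0 (ResidueField A) Fb) : Prop :=
  ∃ (D : Divisor.degZero (K := K) (F := F)) (f : F) (c : K)
    (Db : Divisor.degZero (K := ResidueField A) (F := Fb)),
    KData R p D f c ∧ x = Pic0.mk D ∧
    (∀ Q : Place (ResidueField A) Fb,
      Q.ord (red R (algebraMap K F c * f)) = p * (Db : Divisor (ResidueField A) Fb) Q) ∧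
    e = Pic0.mk Db

variable {R}

/-- two divisors of degree zero differing by a principal divisor have the same class. -/
theorem mk_eq_mk_of_ord {Fb' : Type*} [Field Fb'] {κ : Type*} [Field κ] [Algebra κ Fb']
    {D D' : Divisor.degZero (K := κ) (F := Fb')} {r : Fb'} (hr : r ≠ 0)
    (h : ∀ Q : Place κ Fb', (D' : Divisor κ Fb') Q = (D : Divisor κ Fb') Q + Q.ord r) :
    Pic0.mk D = Pic0.mk D' := by
  apply (QuotientAddGroup.eq).2
  rw [AddSubgroup.mem_addSubgroupOf]
  refine ⟨r, hr, fun Q => ?_⟩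
  simp only [AddSubgroup.coe_add, AddSubgroup.coe_neg, Finsupp.add_apply, Finsupp.neg_apply]
  rw [h Q]
  ring

/-- a principal divisor of degree zero has trivial class. -/
theorem mk_eq_zero_of_ord {Fb' : Type*} [Field Fb'] {κ : Type*} [Field κ] [Algebra κ Fb']
    {D : Divisor.degZero (K := κ) (F := Fb')} {r : Fb'} (hr : r ≠ 0)
    (h : ∀ Q : Place κ Fb', (D : Divisor κ Fb') Q = Q.ord r) :
    Pic0.mk D = 0 := by
  have : Pic0.mk (0 : Divisor.degZero (K := κ) (F := Fb')) = Pic0.mk D :=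
    mk_eq_mk_of_ord hr fun Q => by
      rw [h Q]
      simp
  rw [← this]
  rfl

/-- converse: a class is trivial iff the divisor is principal. -/
theorem exists_ord_of_mk_eq_zero {Fb' : Type*} [Field Fb'] {κ : Type*} [Field κ] [Algebra κ Fb']
    {D : Divisor.degZero (K := κ) (F := Fb')} (h : Pic0.mk D = 0) :
    ∃ r : Fb', r ≠ 0 ∧ ∀ Q : Place κ Fb', (D : Divisor κ Fb') Q = Q.ord r := by
  have h2 := (QuotientAddGroup.eq_zero_iff _).1 h
  rw [AddSubgroup.mem_addSubgroupOf] at h2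
  exact h2

theorem Rel.unique (H : LHyp K F) {p : ℕ} (hp : p ≠ 0) {x : Pic0 K F}
    {e e' : Pic0 (ResidueField A) Fb} (h : Rel R p x e) (h' : Rel R p x e') : e = e' := by
  obtain ⟨D, f, c, Db, hk, hx, hQ, rfl⟩ := h
  obtain ⟨D', f', c', Db', hk', hx', hQ', rfl⟩ := h'
  obtain ⟨r, hr, hcmp⟩ := exists_compare H (hx.symm.trans hx') hk hk'
  refine mk_eq_mk_of_ord hr fun Q => ?_
  have h1 := hcmp Q
  rw [hQ Q, hQ' Q] at h1
  have hp' : (p : ℤ) ≠ 0 := by exact_mod_cast hp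
  have h2 : (p : ℤ) * (Db' : Divisor (ResidueField A) Fb) Q =
      p * ((Db : Divisor (ResidueField A) Fb) Q + Q.ord r) := by rw [h1]; ring
  exact mul_left_cancel₀ hp' h2

theorem Rel.add {p : ℕ} {x y : Pic0 K F} {e e' : Pic0 (ResidueField A) Fb}
    (h : Rel R p x e) (h' : Rel R p y e') : Rel R p (x + y) (e + e') := by
  obtain ⟨D, f, c, Db, hk, rfl, hQ, rfl⟩ := h
  obtain ⟨D', f', c', Db', hk', rfl, hQ', rfl⟩ := h'
  refine ⟨D + D', f * f', c * c', Db + Db', hk.mul hk', rfl, fun Q => ?_, rfl⟩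
  rw [hk.red_mul hk', Q.ord_mul hk.red_ne hk'.red_ne, hQ Q, hQ' Q]
  simp only [AddSubgroup.coe_add, Finsupp.coe_add, Pi.add_apply]
  ring

theorem Rel.neg {p : ℕ} {x : Pic0 K F} {e : Pic0 (ResidueField A) Fb}
    (h : Rel R p x e) : Rel R p (-x) (-e) := by
  obtain ⟨D, f, c, Db, hk, rfl, hQ, rfl⟩ := h
  refine ⟨-D, f⁻¹, c⁻¹, -Db, hk.inv, rfl, fun Q => ?_, rfl⟩
  rw [hk.red_inv, Q.ord_inv, hQ Q]
  simp only [AddSubgroup.coe_neg, Finsupp.coe_neg, Pi.neg_apply]
  ring

theorem rel_zero (p : ℕ) : Rel R p (0 : Pic0 K F) 0 := by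
  refine ⟨0, 1, 1, 0, kdata_zero p, rfl, fun Q => ?_, rfl⟩
  rw [map_one, mul_one, red_one, Place.ord_one]
  simp

/-- `p x = 0`. -/
theorem Rel.p_smul_left {p : ℕ} {x : Pic0 K F} {e : Pic0 (ResidueField A) Fb}
    (h : Rel R p x e) : p • x = 0 := by
  obtain ⟨D, f, c, Db, hk, rfl, hQ, rfl⟩ := h
  have : p • Pic0.mk D = Pic0.mk (p • D) := rfl
  rw [this]
  refine mk_eq_zero_of_ord hk.f_ne fun P => ?_
  rw [hk.ord_f P]
  simp

/-- `p e = 0`. -/
theorem Rel.p_smul_right {p : ℕ} {x : Pic0 K F} {e : Pic0 (ResidueField A) Fb}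
    (h : Rel R p x e) : p • e = 0 := by
  obtain ⟨D, f, c, Db, hk, rfl, hQ, rfl⟩ := h
  have : p • Pic0.mk Db = Pic0.mk (p • Db) := rfl
  rw [this]
  refine mk_eq_zero_of_ord hk.red_ne fun Q => ?_
  rw [hQ Q]
  simp

/-! ### functoriality -/

theorem Rel.nsmul {p : ℕ} {x : Pic0 K F} {e : Pic0 (ResidueField A) Fb} (h : Rel R p x e)
    (n : ℕ) : Rel R p (n • x) (n • e) := by
  induction n with
  | zero => rw [zero_nsmul, zero_nsmul]; exact rel_zero p
  | succ n ih => rw [succ_nsmul, succ_nsmul]; exact ih.add h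

theorem Rel.zsmul {p : ℕ} {x : Pic0 K F} {e : Pic0 (ResidueField A) Fb} (h : Rel R p x e)
    (n : ℤ) : Rel R p (n • x) (n • e) := by
  cases n with
  | ofNat n =>
    rw [Int.ofNat_eq_natCast, natCast_zsmul, natCast_zsmul]
    exact h.nsmul n
  | negSucc n =>
    rw [negSucc_zsmul, negSucc_zsmul]
    exact (h.nsmul (n + 1)).neg

/-- **functoriality of the étale image** under a correspondence `T` of `Pic⁰(F)` which, on Kummer
data, induces the correspondence `TD` on the divisors of the reductions (abstract (H1)). -/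
theorem Rel.map {p : ℕ} (T : Pic0 K F →+ Pic0 K F)
    (Tb : Pic0 (ResidueField A) Fb →+ Pic0 (ResidueField A) Fb)
    (TD : Divisor (ResidueField A) Fb →+ Divisor (ResidueField A) Fb)
    (hTD : ∀ Db : Divisor.degZero (K := ResidueField A) (F := Fb),
      ∃ hm : TD (Db : Divisor (ResidueField A) Fb) ∈ Divisor.degZero (K := ResidueField A) (F := Fb),
        Tb (Pic0.mk Db) = Pic0.mk ⟨TD (Db : Divisor (ResidueField A) Fb), hm⟩)
    (hH1 : ∀ (D : Divisor.degZero (K := K) (F := F)) (f : F) (c : K), KData R p D f c →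
      ∃ (D' : Divisor.degZero (K := K) (F := F)) (f' : F) (c' : K), KData R p D' f' c' ∧
        T (Pic0.mk D) = Pic0.mk D' ∧
        ∀ Du : Divisor (ResidueField A) Fb,
          (∀ Q : Place (ResidueField A) Fb, Du Q = Q.ord (red R (algebraMap K F c * f))) →
          ∀ Q : Place (ResidueField A) Fb, TD Du Q = Q.ord (red R (algebraMap K F c' * f')))
    {x : Pic0 K F} {e : Pic0 (ResidueField A) Fb} (h : Rel R p x e) :
    Rel R p (T x) (Tb e) := by
  obtain ⟨D, f, c, Db, hk, rfl, hQ, rfl⟩ := h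
  obtain ⟨D', f', c', hk', hT, hdiv⟩ := hH1 D f c hk
  obtain ⟨hm, hTb⟩ := hTD Db
  refine ⟨D', f', c', ⟨TD (Db : Divisor (ResidueField A) Fb), hm⟩, hk', hT, fun Q => ?_, hTb⟩
  have h1 := hdiv ((p : ℤ) • (Db : Divisor (ResidueField A) Fb)) (fun Q => by
    rw [Finsupp.smul_apply, smul_eq_mul, hQ Q]) Q
  rw [← h1, map_zsmul, Finsupp.smul_apply, smul_eq_mul]

/-! ### the domain and the map -/

variable (R)

/-- **the classes having an étale image on the component `R`.** -/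
def Jf (p : ℕ) : AddSubgroup (Pic0 K F) where
  carrier := {x | ∃ e, Rel R p x e}
  zero_mem' := ⟨0, rel_zero p⟩
  add_mem' := by
    rintro x y ⟨e, he⟩ ⟨e', he'⟩
    exact ⟨e + e', he.add he'⟩
  neg_mem' := by
    rintro x ⟨e, he⟩
    exact ⟨-e, he.neg⟩

theorem mem_Jf_iff {p : ℕ} {x : Pic0 K F} : x ∈ Jf R p ↔ ∃ e, Rel R p x e := Iff.rfl

/-- **the étale map of the component `R`.** -/
def E (H : LHyp K F) {p : ℕ} (hp : p ≠ 0) : Jf R p →+ Pic0 (ResidueField A) Fb :=
  AddMonoidHom.mk' (fun x => x.2.choose) fun x y =>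
    Rel.unique H hp (x + y).2.choose_spec (x.2.choose_spec.add y.2.choose_spec)

variable {R}

theorem E_spec (H : LHyp K F) {p : ℕ} (hp : p ≠ 0) (x : Jf R p) :
    Rel R p (x : Pic0 K F) (E R H hp x) := x.2.choose_spec

theorem E_eq_of_rel (H : LHyp K F) {p : ℕ} (hp : p ≠ 0) (x : Jf R p)
    {e : Pic0 (ResidueField A) Fb} (h : Rel R p (x : Pic0 K F) e) : E R H hp x = e :=
  Rel.unique H hp (E_spec H hp x) h

theorem p_smul_E (H : LHyp K F) {p : ℕ} (hp : p ≠ 0) (x : Jf R p) : p • E R H hp x = 0 :=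
  (E_spec H hp x).p_smul_right

theorem p_smul_of_mem_Jf {p : ℕ} {x : Pic0 K F} (hx : x ∈ Jf R p) : p • x = 0 := by
  obtain ⟨e, he⟩ := hx
  exact he.p_smul_left

/-! ### membership through the slopes -/

/-- the divisor `(1/p) div u`. -/
theorem exists_div_p (Hb : LHyp (ResidueField A) Fb) {p : ℕ} (hp : p ≠ 0) {u : Fb} (hu : u ≠ 0)
    (hdvd : ∀ Q : Place (ResidueField A) Fb, (p : ℤ) ∣ Q.ord u) :
    ∃ Db : Divisor.degZero (K := ResidueField A) (F := Fb),
      ∀ Q : Place (ResidueField A) Fb, Q.ord u = p * (Db : Divisor (ResidueField A) Fb) Q := by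
  have hp' : (p : ℤ) ≠ 0 := by exact_mod_cast hp
  set Du := divOf Hb hu with hDu
  set Db : Divisor (ResidueField A) Fb :=
    Finsupp.mapRange (fun n : ℤ => n / (p : ℤ)) (Int.zero_ediv _) Du with hDb
  have hval : ∀ Q : Place (ResidueField A) Fb, Q.ord u = p * Db Q := by
    intro Q
    rw [hDb, Finsupp.mapRange_apply, hDu, divOf_apply]
    exact (Int.mul_ediv_cancel' (hdvd Q)).symm
  have hsm : (p : ℤ) • Db = Du := by
    ext Q
    rw [Finsupp.smul_apply, smul_eq_mul, ← hval Q, hDu, divOf_apply]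
  have hdeg : Divisor.degree Db = 0 := by
    have h1 : Divisor.degree ((p : ℤ) • Db) = 0 := by
      rw [hsm, hDu]
      exact degree_divOf Hb hu
    rw [map_zsmul, smul_eq_mul] at h1
    exact (mul_eq_zero.1 h1).resolve_left hp'
  exact ⟨⟨Db, hdeg⟩, hval⟩

/-- a class with a Kummer datum all of whose slopes are divisible by `p` has an étale image. -/
theorem mem_Jf_of_dvd (Hb : LHyp (ResidueField A) Fb) {p : ℕ} (hp : p ≠ 0)
    {D : Divisor.degZero (K := K) (F := F)} {f : F} {c : K} (hk : KData R p D f c)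
    (hdvd : ∀ Q : Place (ResidueField A) Fb, (p : ℤ) ∣ Q.ord (red R (algebraMap K F c * f))) :
    Pic0.mk D ∈ Jf R p := by
  obtain ⟨Db, hDb⟩ := exists_div_p Hb hp hk.red_ne hdvd
  exact ⟨Pic0.mk Db, D, f, c, Db, hk, rfl, hDb, rfl⟩

/-- every Kummer datum of a class with an étale image has all its slopes divisible by `p`. -/
theorem dvd_of_mem_Jf (H : LHyp K F) {p : ℕ}
    {D : Divisor.degZero (K := K) (F := F)} {f : F} {c : K} (hk : KData R p D f c)
    (hx : Pic0.mk D ∈ Jf R p) (Q : Place (ResidueField A) Fb) :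
    (p : ℤ) ∣ Q.ord (red R (algebraMap K F c * f)) := by
  obtain ⟨e, D₀, f₀, c₀, Db₀, hk₀, hx₀, hQ₀, -⟩ := hx
  obtain ⟨r, hr, hcmp⟩ := exists_compare H hx₀.symm hk₀ hk
  rw [hcmp Q, hQ₀ Q]
  exact ⟨(Db₀ : Divisor (ResidueField A) Fb) Q + Q.ord r, by ring⟩

/-! ### the residue condition in field form -/

theorem mem_RC_of_eq {n : ℕ} {f : Fˣ} {c : K} {w g : F} (hc : c ≠ 0) (hw : w ≠ 0)
    (hg : IsGU R g) (hred : red R g = 1) (h : (f : F) = algebraMap K F c * w ^ n * g) :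
    f ∈ RC K (pu R) n := by
  refine ⟨Units.mk0 c hc, Units.mk0 w hw, Units.mk0 g hg.ne_zero, ⟨hg.mem, ?_⟩, ?_⟩
  · show R.ρ ⟨g, hg.mem⟩ = 1
    rw [← red_of_mem R hg.mem]
    exact hred
  · apply Units.ext
    rw [h]
    simp

theorem exists_of_mem_RC {n : ℕ} {f : Fˣ} (hf : f ∈ RC K (pu R) n) :
    ∃ (c : K) (w g : F), c ≠ 0 ∧ w ≠ 0 ∧ IsGU R g ∧ red R g = 1 ∧
      (f : F) = algebraMap K F c * w ^ n * g := by
  obtain ⟨c, w, u, ⟨hu, hρ⟩, rfl⟩ := hf
  have hred : red R (u : F) = 1 := by rw [red_of_mem R hu]; exact hρ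
  refine ⟨(c : K), (w : F), (u : F), c.ne_zero, w.ne_zero, ⟨hu, ?_⟩, hred, ?_⟩
  · rw [hred]; exact one_ne_zero
  · simp

/-! ### the kernel -/

/-- lifting a nonzero constant of the residue field to a unit of `A`. -/
theorem exists_aunit_residue (a : ResidueField A) (ha : a ≠ 0) :
    ∃ a' : K, AUnit A a' ∧ ∃ h : a' ∈ A, residue A ⟨a', h⟩ = a := by
  obtain ⟨b, rfl⟩ := residue_surjective a
  have hb : IsUnit b := by
    by_contra hnu
    exact ha ((residue_eq_zero_iff b).2 ((mem_maximalIdeal b).2 hnu))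
  obtain ⟨ub, rfl⟩ := hb
  refine ⟨((ub : A) : K), ⟨(ub : A).2, ?_, ?_⟩, (ub : A).2, rfl⟩
  · have h1 : (((ub⁻¹ : Aˣ) : A) : K) = ((ub : A) : K)⁻¹ := by
      apply eq_inv_of_mul_eq_one_left
      have h2 : ((ub⁻¹ : Aˣ) : A) * (ub : A) = 1 := Units.inv_mul ub
      have h3 : ((((ub⁻¹ : Aˣ) : A) * (ub : A) : A) : K) = 1 := by rw [h2]; rfl
      exact h3
    rw [← h1]
    exact ((ub⁻¹ : Aˣ) : A).2
  · intro h0
    have : ((ub : A)) = 0 := Subtype.ext h0
    exact ub.ne_zero this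

/-- **`Rel x 0` ⟹ the residue condition.** -/
theorem exists_RC_of_rel_zero (Hb : LHyp (ResidueField A) Fb)
    (hsurj : Function.Surjective R.ρ) {p : ℕ} {x : Pic0 K F} (h : Rel R p x 0) :
    ∃ (f : Fˣ) (D : Divisor.degZero (K := K) (F := F)), f ∈ RC K (pu R) p ∧
      (∀ v : Place K F, (p : ℤ) * (D : Divisor K F) v = v.ord (f : F)) ∧ x = Pic0.mk D := by
  obtain ⟨D, f, c, Db, hk, rfl, hQ, h0⟩ := h
  obtain ⟨wb, hwb0, hwb⟩ := exists_ord_of_mk_eq_zero h0.symm
  set u : Fb := red R (algebraMap K F c * f) with hu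
  have hu0 : u ≠ 0 := hk.red_ne
  -- `u / wb ^ p` is constant
  have hq0 : u / wb ^ p ≠ 0 := div_ne_zero hu0 (pow_ne_zero _ hwb0)
  obtain ⟨a, ha⟩ := eq_algebraMap_of_forall_ord_nonneg Hb (f := u / wb ^ p) (fun Q => by
    rw [div_eq_mul_inv, Q.ord_mul hu0 (inv_ne_zero (pow_ne_zero _ hwb0)), Place.ord_inv,
      ord_pow, hQ Q, hwb Q]
    apply le_of_eq
    ring)
  have ha0 : a ≠ 0 := by
    rintro rfl
    rw [map_zero] at ha
    exact hq0 ha
  have hua : u = algebraMap (ResidueField A) Fb a * wb ^ p := by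
    rw [← ha]
    field_simp
  -- lifts
  obtain ⟨w, hw⟩ := hsurj wb
  have hwGU : IsGU R (w : F) := isGU_of_ρ_ne w.2 (by
    have : (⟨(w : F), w.2⟩ : R.O) = w := rfl
    rw [this, hw]; exact hwb0)
  have hwred : red R (w : F) = wb := by
    rw [red_of_mem R w.2]
    exact hw
  obtain ⟨a', ha'u, ha'm, ha'r⟩ := exists_aunit_residue a ha0
  have haGU : IsGU R (algebraMap K F a') := isGU_const ha'u
  have hared : red R (algebraMap K F a') = algebraMap (ResidueField A) Fb a := by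
    rw [red_const R ha'm, ha'r]
  -- the principal unit
  set g : F := (algebraMap K F c * f) * (algebraMap K F a' * (w : F) ^ p)⁻¹ with hg
  have hdenGU : IsGU R (algebraMap K F a' * (w : F) ^ p) := haGU.mul (hwGU.pow p)
  have hgGU : IsGU R g := hk.gu.mul hdenGU.inv
  have hgred : red R g = 1 := by
    rw [hg, GaussRed3.red_mul R hk.gu.mem hdenGU.inv.mem, hdenGU.red_inv,
      GaussRed3.red_mul R haGU.mem (hwGU.pow p).mem, red_pow R hwGU.mem, hared, hwred, ← hu, hua]
    exact mul_inv_cancel₀ (mul_ne_zero (by rwa [ne_eq, _root_.map_eq_zero])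
      (pow_ne_zero _ hwb0))
  have hc0 := hk.c_ne
  have hcF : algebraMap K F c ≠ 0 := by rwa [ne_eq, _root_.map_eq_zero]
  have ha'0 : a' ≠ 0 := ha'u.2.2
  refine ⟨Units.mk0 f hk.f_ne, D, ?_, fun v => (hk.ord_f v).symm, rfl⟩
  refine mem_RC_of_eq (c := a' / c) (w := (w : F)) (g := g) (div_ne_zero ha'0 hc0) hwGU.ne_zero
    hgGU hgred ?_
  show f = algebraMap K F (a' / c) * (w : F) ^ p * g
  rw [hg, map_div₀]
  have hden0 := hdenGU.ne_zero
  have ha'F : algebraMap K F a' ≠ 0 := by rwa [ne_eq, _root_.map_eq_zero]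
  have hwp0 : (w : F) ^ p ≠ 0 := pow_ne_zero _ hwGU.ne_zero
  field_simp

/-- **the residue condition ⟹ `Rel x 0`.** -/
theorem rel_zero_of_RC (Hb : LHyp (ResidueField A) Fb) {p : ℕ} {f : Fˣ}
    {D : Divisor.degZero (K := K) (F := F)} (hf : f ∈ RC K (pu R) p)
    (hD : ∀ v : Place K F, (p : ℤ) * (D : Divisor K F) v = v.ord (f : F)) :
    Rel R p (Pic0.mk D) 0 := by
  obtain ⟨c₀, w, g, hc₀, hw, hgGU, hgred, hfe⟩ := exists_of_mem_RC hf
  obtain ⟨e₀, he₀, hwGU⟩ := exists_isGU R hw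
  set r : Fb := red R (algebraMap K F e₀ * w) with hr
  have hr0 : r ≠ 0 := hwGU.2
  have hGU : IsGU R ((algebraMap K F e₀ * w) ^ p * g) := (hwGU.pow p).mul hgGU
  have hceq : algebraMap K F (e₀ ^ p / c₀) * (f : F) = (algebraMap K F e₀ * w) ^ p * g := by
    rw [hfe, map_div₀, map_pow]
    have : algebraMap K F c₀ ≠ 0 := by rwa [ne_eq, _root_.map_eq_zero]
    field_simp
    ring
  have hk : KData R p D (f : F) (e₀ ^ p / c₀) :=
    ⟨f.ne_zero, fun v => (hD v).symm, by rw [hceq]; exact hGU⟩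
  have hredc : red R (algebraMap K F (e₀ ^ p / c₀) * (f : F)) = r ^ p := by
    rw [hceq, GaussRed3.red_mul R (hwGU.pow p).mem hgGU.mem, red_pow R hwGU.mem, hgred, mul_one]
  set Dr : Divisor.degZero (K := ResidueField A) (F := Fb) :=
    ⟨divOf Hb hr0, degree_divOf Hb hr0⟩ with hDr
  have hDr0 : Pic0.mk Dr = 0 := mk_eq_zero_of_ord hr0 fun Q => divOf_apply Hb hr0 Q
  refine ⟨D, (f : F), e₀ ^ p / c₀, Dr, hk, rfl, fun Q => ?_, hDr0.symm⟩
  rw [hredc, ord_pow]
  show (p : ℤ) * Q.ord r = p * divOf Hb hr0 Q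
  rw [divOf_apply]

/-- **the kernel of the étale map.** -/
theorem rel_zero_iff (Hb : LHyp (ResidueField A) Fb) (hsurj : Function.Surjective R.ρ) {p : ℕ}
    {x : Pic0 K F} :
    Rel R p x 0 ↔ ∃ (f : Fˣ) (D : Divisor.degZero (K := K) (F := F)), f ∈ RC K (pu R) p ∧
      (∀ v : Place K F, (p : ℤ) * (D : Divisor K F) v = v.ord (f : F)) ∧ x = Pic0.mk D := by
  refine ⟨exists_RC_of_rel_zero Hb hsurj, ?_⟩
  rintro ⟨f, D, hf, hD, rfl⟩
  exact rel_zero_of_RC Hb hf hD

end Fermat.Agent.U44.EtaleAbs1
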