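/-
Programme U44 (S44), chapter (HECKE), block (H3), ABSTRACT layer, file 3 (helper1):
**the domain of the étale maps of a nodal reduction context, through the slopes at the nodes.**

`N : NodalRed A F Nd`, `KData N.c_i p D f c_i` Kummer data on the two components.

* `dvd_of_smooth₁`, `dvd_of_smooth₂` : at a smooth point `Q` of a component the slope
  `ord_Q (red (c f))` is divisible by `p` (push-forward `N.push_i`: it is `p · Σ_{P ↦ Q} D(P)`);
* `dvd_node₂_of_node₁` : at a node with an annulus coordinate of thickness exactly `ϖ`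
  (`Annulus3.node_push`), `p ∣ slope at s1 k ⟹ p ∣ slope at s2 k`;
* **`mem_Jf₁_of_nodes`, `mem_Jf₂_of_nodes`, `mem_Jf_of_nodes`** : if the slopes at all the branches
  `s1 k` are divisible by `p` then `[D]` has étale images on both components;
* `dvd_nodes_of_mem_Jf₁` : conversely.
-/
import Mathlib
import Fermat.Agent.U44.EtaleAbs1
import Fermat.Agent.U44.Annulus3

set_option autoImplicit false
set_option linter.unusedSectionVars false
set_option linter.unusedVariables false

open AlgebraicCurve IsLocalRing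

noncomputable section

namespace Fermat.Agent.U44.EtaleNodal1

open Fermat.Agent.T33.NodalCtx1 Fermat.Agent.T33.NodalCurve6 Fermat.Agent.U44.GaussRed3
  Fermat.Agent.RR.LSpace Fermat.Agent.X0.FF Fermat.Agent.U44.SlopeIndep3
  Fermat.Agent.U44.EtaleAbs1 Fermat.Agent.U44.Annulus3

variable {K : Type*} [Field K] {A : ValuationSubring K}
variable {F : Type*} [Field F] [Algebra K F]
variable {Fb₁ Fb₂ : Type*} [Field Fb₁] [Field Fb₂]
  [Algebra (ResidueField A) Fb₁] [Algebra (ResidueField A) Fb₂]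
variable {ι : Type*} {Nd : NodalData (ResidueField A) Fb₁ Fb₂ ι} (N : NodalRed A F Nd)

/-- the divisor of `c f`, as `p D`. -/
theorem smul_apply_eq_ord {Fb : Type*} [Field Fb] [Algebra (ResidueField A) Fb]
    {R : HalfRed A F Fb} {p : ℕ} {D : Divisor.degZero (K := K) (F := F)} {f : F} {c : K}
    (hk : KData R p D f c) (P : Place K F) :
    ((p : ℤ) • (D : Divisor K F)) P = P.ord (algebraMap K F c * f) := by
  have hcF : algebraMap K F c ≠ 0 := by
    rw [ne_eq, _root_.map_eq_zero]; exact hk.c_ne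
  rw [P.ord_mul hcF hk.f_ne, ord_algebraMap, zero_add, hk.ord_f P, Finsupp.smul_apply, smul_eq_mul]

/-- **the slope at a smooth point of the first component is divisible by `p`.** -/
theorem dvd_of_smooth₁ {p : ℕ} {D : Divisor.degZero (K := K) (F := F)} {f : F} {c : K}
    (hk : KData N.c₁ p D f c) {Q : Place (ResidueField A) Fb₁} (hQ : Nd.Smooth1 Q) :
    (p : ℤ) ∣ Q.ord (red N.c₁ (algebraMap K F c * f)) := by
  classical
  rw [red_of_mem N.c₁ hk.gu.mem]
  set Dy : Divisor K F := (p : ℤ) • (D : Divisor K F) with hDy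
  have h := N.push₁ ⟨algebraMap K F c * f, hk.gu.mem⟩ hk.gu.ρ_ne Q hQ Dy
    (fun P => smul_apply_eq_ord hk P)
    (Dy.support.filter fun P => N.r₁ P = some Q) (fun P => by rw [Finset.mem_filter])
  rw [← h]
  refine Finset.dvd_sum fun P _ => ?_
  rw [hDy, Finsupp.smul_apply, smul_eq_mul]
  exact dvd_mul_right _ _

/-- **the slope at a smooth point of the second component is divisible by `p`.** -/
theorem dvd_of_smooth₂ {p : ℕ} {D : Divisor.degZero (K := K) (F := F)} {f : F} {c : K}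
    (hk : KData N.c₂ p D f c) {Q : Place (ResidueField A) Fb₂} (hQ : Nd.Smooth2 Q) :
    (p : ℤ) ∣ Q.ord (red N.c₂ (algebraMap K F c * f)) := by
  classical
  rw [red_of_mem N.c₂ hk.gu.mem]
  set Dy : Divisor K F := (p : ℤ) • (D : Divisor K F) with hDy
  have h := N.push₂ ⟨algebraMap K F c * f, hk.gu.mem⟩ hk.gu.ρ_ne Q hQ Dy
    (fun P => smul_apply_eq_ord hk P)
    (Dy.support.filter fun P => N.r₂ P = some Q) (fun P => by rw [Finset.mem_filter])
  rw [← h]
  refine Finset.dvd_sum fun P _ => ?_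
  rw [hDy, Finsupp.smul_apply, smul_eq_mul]
  exact dvd_mul_right _ _

variable {N}

/-- **at a node of thickness exactly `ϖ`, the slope at the second branch is divisible by `p` as
soon as the slope at the first branch is.** -/
theorem dvd_node₂_of_node₁ {k : ι} (X : AnnCoord N k)
    (hy₂ : (Nd.s2 k).ord (red N.c₂ X.y₂) = -1) {p : ℕ}
    {D : Divisor.degZero (K := K) (F := F)} {f : F} {c₁ c₂ : K}
    (hk₁ : KData N.c₁ p D f c₁) (hk₂ : KData N.c₂ p D f c₂)
    (h : (p : ℤ) ∣ (Nd.s1 k).ord (red N.c₁ (algebraMap K F c₁ * f))) :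
    (p : ℤ) ∣ (Nd.s2 k).ord (red N.c₂ (algebraMap K F c₂ * f)) := by
  classical
  set T : Finset (Place K F) :=
    (D : Divisor K F).support.filter fun P => N.RedToNode P k with hT
  have hnp := node_push X hy₂ hk₁.f_ne T (fun P hP => (Finset.mem_filter.1 hP).2)
    (fun P hP hne => by
      rw [hT, Finset.mem_filter, Finsupp.mem_support_iff]
      refine ⟨fun h0 => hne ?_, hP⟩
      rw [hk₁.ord_f P, h0, mul_zero]) hk₁.gu hk₂.gu
  have hsum : (p : ℤ) ∣ ∑ P ∈ T, P.ord f := by
    refine Finset.dvd_sum fun P _ => ?_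
    rw [hk₁.ord_f P]
    exact dvd_mul_right _ _
  rw [← hnp] at hsum
  exact (Int.dvd_add_right h).1 hsum

/-- **étale image on the first component from the slopes at the nodes.** -/
theorem mem_Jf₁_of_nodes (Hb₁ : LHyp (ResidueField A) Fb₁) {p : ℕ} (hp : p ≠ 0)
    {D : Divisor.degZero (K := K) (F := F)} {f : F} {c : K} (hk : KData N.c₁ p D f c)
    (hnode : ∀ k, (p : ℤ) ∣ (Nd.s1 k).ord (red N.c₁ (algebraMap K F c * f))) :
    Pic0.mk D ∈ Jf N.c₁ p := by
  classical
  refine mem_Jf_of_dvd Hb₁ hp hk fun Q => ?_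
  by_cases hQ : ∃ k, Q = Nd.s1 k
  · obtain ⟨k, rfl⟩ := hQ
    exact hnode k
  · push Not at hQ
    exact dvd_of_smooth₁ N hk hQ

/-- **étale image on the second component from the slopes at the nodes.** -/
theorem mem_Jf₂_of_nodes (Hb₂ : LHyp (ResidueField A) Fb₂) {p : ℕ} (hp : p ≠ 0)
    {D : Divisor.degZero (K := K) (F := F)} {f : F} {c : K} (hk : KData N.c₂ p D f c)
    (hnode : ∀ k, (p : ℤ) ∣ (Nd.s2 k).ord (red N.c₂ (algebraMap K F c * f))) :
    Pic0.mk D ∈ Jf N.c₂ p := by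
  classical
  refine mem_Jf_of_dvd Hb₂ hp hk fun Q => ?_
  by_cases hQ : ∃ k, Q = Nd.s2 k
  · obtain ⟨k, rfl⟩ := hQ
    exact hnode k
  · push Not at hQ
    exact dvd_of_smooth₂ N hk hQ

/-- **étale images on both components from the slopes at the first branches of the nodes**
(nodes of thickness exactly `ϖ_k`). -/
theorem mem_Jf_of_nodes (Hb₁ : LHyp (ResidueField A) Fb₁) (Hb₂ : LHyp (ResidueField A) Fb₂)
    (X : ∀ k, AnnCoord N k) (hy₂ : ∀ k, (Nd.s2 k).ord (red N.c₂ (X k).y₂) = -1)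
    {p : ℕ} (hp : p ≠ 0) {D : Divisor.degZero (K := K) (F := F)} {f : F} {c₁ c₂ : K}
    (hk₁ : KData N.c₁ p D f c₁) (hk₂ : KData N.c₂ p D f c₂)
    (hnode : ∀ k, (p : ℤ) ∣ (Nd.s1 k).ord (red N.c₁ (algebraMap K F c₁ * f))) :
    Pic0.mk D ∈ Jf N.c₁ p ∧ Pic0.mk D ∈ Jf N.c₂ p :=
  ⟨mem_Jf₁_of_nodes Hb₁ hp hk₁ hnode,
    mem_Jf₂_of_nodes Hb₂ hp hk₂ fun k => dvd_node₂_of_node₁ (X k) (hy₂ k) hk₁ hk₂ (hnode k)⟩

/-- conversely, the slopes at the nodes of a class with an étale image are divisible by `p`. -/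
theorem dvd_nodes_of_mem_Jf₁ (H : LHyp K F) {p : ℕ}
    {D : Divisor.degZero (K := K) (F := F)} {f : F} {c : K} (hk : KData N.c₁ p D f c)
    (hx : Pic0.mk D ∈ Jf N.c₁ p) (k : ι) :
    (p : ℤ) ∣ (Nd.s1 k).ord (red N.c₁ (algebraMap K F c * f)) :=
  dvd_of_mem_Jf H hk hx _

end Fermat.Agent.U44.EtaleNodal1
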