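/-
Programme U44 (S44), chapter (HECKE), block (H3), ABSTRACT layer, file 2 (helper1):
**the two étale maps of a two-component reduction context: common kernel = the formal part,
and the eigenvector.**

`R₁ : HalfRed A F Fb₁`, `R₂ : HalfRed A F Fb₂`, `H : LHyp K F`, `Hb_i : LHyp κ Fb_i`.

* `RC_of_same_class` : the residue condition `f ∈ Kˣ (Fˣ)ᵖ U` depends only on the class of `D`
  (`p D = div f`);
* `RC_saturate` : if `a g ^ (p ^ k) ∈ Kˣ (Fˣ)^(p^(k+1)) pu(R)` then `g ∈ Kˣ (Fˣ)ᵖ pu(R)`;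
* `InG R₁ R₂ p x` : `x = [D]`, `p D = div f`, `f ∈ Kˣ (Fˣ)ᵖ pu(R_i)` for `i = 1, 2`;
* **`rel_zero_both_iff`** : `Rel R₁ p x 0 ∧ Rel R₂ p x 0 ↔ InG R₁ R₂ p x` (the common kernel of
  the two étale maps);
* **`inG_iff_formal`** : `InG R₁ R₂ p x ↔ x ∈ Psi3B.formal p U ∧ p • x = 0`, `U = (pu R₁, pu R₂)`
  (the formal part of `T33/Psi3B`, all exponents `p ^ m` at once);
* **`exists_eigen_abs`** : a subgroup `V` of classes having étale images on both components,
  not contained in the common kernel, on which the `T i` act through `a i`, produces a nonzero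
  `p`-torsion class of `Pic⁰(Fb₁)` or of `Pic⁰(Fb₂)` on which the `Tb i` act through `a i`.
-/
import Mathlib
import Fermat.Agent.U44.EtaleAbs1

set_option autoImplicit false
set_option linter.unusedSectionVars false
set_option linter.unusedVariables false

open AlgebraicCurve IsLocalRing

noncomputable section

namespace Fermat.Agent.U44.EtaleTwo1

open Fermat.Agent.T33.NodalCtx1 Fermat.Agent.U44.GaussRed3 Fermat.Agent.RR.LSpace
  Fermat.Agent.X0.FF Fermat.Agent.U44.SlopeIndep3 Fermat.Agent.T33.Psi3B Fermat.Agent.T33.Psi3F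
  Fermat.Agent.U44.EtaleAbs1

variable {K : Type*} [Field K] {A : ValuationSubring K}
variable {F : Type*} [Field F] [Algebra K F]

/-! ### the residue condition and the class -/

/-- the residue condition depends only on the class. -/
theorem RC_of_same_class (H : LHyp K F) {p : ℕ} {U : Subgroup Fˣ}
    {D D' : Divisor.degZero (K := K) (F := F)} (hDD' : Pic0.mk D = Pic0.mk D') {f f' : Fˣ}
    (hD : ∀ v : Place K F, (p : ℤ) * (D : Divisor K F) v = v.ord (f : F))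
    (hD' : ∀ v : Place K F, (p : ℤ) * (D' : Divisor K F) v = v.ord (f' : F))
    (hf : f ∈ RC K U p) : f' ∈ RC K U p := by
  have h2 := (QuotientAddGroup.eq).1 hDD'
  rw [AddSubgroup.mem_addSubgroupOf] at h2
  obtain ⟨g, hg0, hg⟩ := h2
  have hord : ∀ P : Place K F, P.ord g = (D' : Divisor K F) P - (D : Divisor K F) P := by
    intro P
    rw [← hg P]
    simp only [AddSubgroup.coe_add, AddSubgroup.coe_neg, Finsupp.add_apply, Finsupp.neg_apply]
    ring
  have hf0 : (f : F) ≠ 0 := f.ne_zero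
  have hf'0 : (f' : F) ≠ 0 := f'.ne_zero
  obtain ⟨u, hu⟩ := eq_algebraMap_of_forall_ord_nonneg H (f := (f' : F) / ((f : F) * g ^ p))
    (fun P => by
      rw [div_eq_mul_inv, P.ord_mul hf'0 (inv_ne_zero (mul_ne_zero hf0 (pow_ne_zero _ hg0))),
        Place.ord_inv, P.ord_mul hf0 (pow_ne_zero _ hg0), ord_pow, ← hD' P, ← hD P, hord P]
      apply le_of_eq
      ring)
  have hu0 : u ≠ 0 := by
    rintro rfl
    rw [map_zero] at hu
    exact div_ne_zero hf'0 (mul_ne_zero hf0 (pow_ne_zero _ hg0)) hu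
  have hrel : (f' : F) = algebraMap K F u * (f : F) * g ^ p := by
    rw [← hu]
    field_simp
  have he : f' = constUnit K (Units.mk0 u hu0) * (Units.mk0 g hg0) ^ p * f := by
    apply Units.ext
    rw [hrel]
    simp only [Units.val_mul, coe_constUnit, Units.val_mk0, Units.val_pow_eq_pow_val]
    ring
  rw [he]
  exact (RC K U p).mul_mem ((RC K U p).mul_mem (constUnit_mem_RC p _) (pow_mem_RC' p _)) hf

variable {Fb : Type*} [Field Fb] [Algebra (ResidueField A) Fb] {R : HalfRed A F Fb}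

/-- **saturation of the residue condition.** -/
theorem RC_saturate (Hb : LHyp (ResidueField A) Fb) {p : ℕ} (hp : p ≠ 0) {k : ℕ} {f g : Fˣ}
    {a : K} (ha : a ≠ 0) (hf : f ∈ RC K (pu R) (p ^ (k + 1)))
    (hfg : (f : F) = algebraMap K F a * (g : F) ^ (p ^ k)) : g ∈ RC K (pu R) p := by
  obtain ⟨c, w, u, hc, hw, huGU, hured, hfe⟩ := exists_of_mem_RC hf
  have hg0 : (g : F) ≠ 0 := g.ne_zero
  have hwp0 : w ^ p ≠ 0 := pow_ne_zero _ hw
  set t : F := (g : F) / w ^ p with ht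
  have ht0 : t ≠ 0 := div_ne_zero hg0 hwp0
  obtain ⟨e, he0, hetGU⟩ := exists_isGU R ht0
  set r : Fb := red R (algebraMap K F e * t) with hr
  have hr0 : r ≠ 0 := hetGU.2
  have haF : algebraMap K F a ≠ 0 := by rwa [ne_eq, _root_.map_eq_zero]
  have hcF : algebraMap K F c ≠ 0 := by rwa [ne_eq, _root_.map_eq_zero]
  have heF : algebraMap K F e ≠ 0 := by rwa [ne_eq, _root_.map_eq_zero]
  -- `(e t) ^ (p ^ k) = b u`
  set b : K := e ^ (p ^ k) * c / a with hb
  have hkey : (algebraMap K F e * t) ^ (p ^ k) = algebraMap K F b * u := by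
    have h1 : algebraMap K F a * (g : F) ^ (p ^ k) = algebraMap K F c * w ^ (p ^ (k + 1)) * u := by
      rw [← hfg, hfe]
    have h2 : (g : F) ^ (p ^ k) = algebraMap K F c * w ^ (p ^ (k + 1)) * u / algebraMap K F a := by
      rw [← h1]
      field_simp
    rw [mul_pow, ht, div_pow, h2, hb, map_div₀, map_mul, map_pow, ← pow_mul, pow_succ,
      mul_comm p (p ^ k)]
    have : w ^ (p ^ k * p) ≠ 0 := pow_ne_zero _ hw
    field_simp
  have hbGU : IsGU R (algebraMap K F b) := by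
    have : algebraMap K F b = (algebraMap K F e * t) ^ (p ^ k) * u⁻¹ := by
      rw [hkey, mul_assoc, mul_inv_cancel₀ huGU.ne_zero, mul_one]
    rw [this]
    exact (hetGU.pow _).mul huGU.inv
  have hbu : AUnit A b := aunit_of_isGU_const hbGU
  have hrpow : r ^ (p ^ k) = algebraMap (ResidueField A) Fb (residue A ⟨b, hbu.1⟩) := by
    rw [hr, ← red_pow R hetGU.mem, hkey, GaussRed3.red_mul R hbGU.mem huGU.mem, hured, mul_one,
      red_const R hbu.1]
  -- `r` is constant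
  have hpk : ((p ^ k : ℕ) : ℤ) ≠ 0 := by exact_mod_cast pow_ne_zero k hp
  obtain ⟨a₁, ha₁⟩ := eq_algebraMap_of_forall_ord_nonneg Hb (f := r) (fun Q => by
    have h1 : Q.ord (r ^ (p ^ k)) = 0 := by rw [hrpow, ord_algebraMap]
    rw [ord_pow] at h1
    exact le_of_eq ((mul_eq_zero.1 h1).resolve_left hpk).symm)
  have ha₁0 : a₁ ≠ 0 := by
    rintro rfl
    rw [map_zero] at ha₁
    exact hr0 ha₁
  obtain ⟨a', ha'u, ha'm, ha'r⟩ := exists_aunit_residue a₁ ha₁0
  have haGU : IsGU R (algebraMap K F a') := isGU_const ha'u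
  have hared : red R (algebraMap K F a') = algebraMap (ResidueField A) Fb a₁ := by
    rw [red_const R ha'm, ha'r]
  set g₀ : F := (algebraMap K F e * t) * (algebraMap K F a')⁻¹ with hg₀
  have hg₀GU : IsGU R g₀ := hetGU.mul haGU.inv
  have hg₀red : red R g₀ = 1 := by
    rw [hg₀, GaussRed3.red_mul R hetGU.mem haGU.inv.mem, haGU.red_inv, hared, ← hr, ha₁]
    exact mul_inv_cancel₀ (by rwa [ne_eq, _root_.map_eq_zero])
  have ha'0 : a' ≠ 0 := ha'u.2.2
  have ha'F : algebraMap K F a' ≠ 0 := by rwa [ne_eq, _root_.map_eq_zero]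
  refine mem_RC_of_eq (c := a' / e) (w := w) (g := g₀) (div_ne_zero ha'0 he0) hw hg₀GU hg₀red ?_
  rw [hg₀, ht, map_div₀]
  field_simp

/-! ### the common kernel -/

variable {Fb₁ Fb₂ : Type*} [Field Fb₁] [Field Fb₂]
  [Algebra (ResidueField A) Fb₁] [Algebra (ResidueField A) Fb₂]
variable (R₁ : HalfRed A F Fb₁) (R₂ : HalfRed A F Fb₂)

/-- **the Kummer-trivial classes of exponent `p`**: `x = [D]`, `p D = div f`,
`f ∈ Kˣ (Fˣ)ᵖ pu(R_i)` for both components. -/
def InG (p : ℕ) (x : Pic0 K F) : Prop :=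
  ∃ (f : Fˣ) (D : Divisor.degZero (K := K) (F := F)), f ∈ RC K (pu R₁) p ∧ f ∈ RC K (pu R₂) p ∧
    (∀ v : Place K F, (p : ℤ) * (D : Divisor K F) v = v.ord (f : F)) ∧ x = Pic0.mk D

variable {R₁ R₂}

/-- **the common kernel of the two étale maps.** -/
theorem rel_zero_both_iff (H : LHyp K F) (Hb₁ : LHyp (ResidueField A) Fb₁)
    (Hb₂ : LHyp (ResidueField A) Fb₂) (hsurj₁ : Function.Surjective R₁.ρ)
    (hsurj₂ : Function.Surjective R₂.ρ) {p : ℕ} {x : Pic0 K F} :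
    (Rel R₁ p x 0 ∧ Rel R₂ p x 0) ↔ InG R₁ R₂ p x := by
  constructor
  · rintro ⟨h1, h2⟩
    obtain ⟨f₁, D₁, hf₁, hD₁, hx₁⟩ := exists_RC_of_rel_zero Hb₁ hsurj₁ h1
    obtain ⟨f₂, D₂, hf₂, hD₂, hx₂⟩ := exists_RC_of_rel_zero Hb₂ hsurj₂ h2
    exact ⟨f₁, D₁, hf₁, RC_of_same_class H (hx₂.symm.trans hx₁) hD₂ hD₁ hf₂, hD₁, hx₁⟩
  · rintro ⟨f, D, hf₁, hf₂, hD, rfl⟩
    exact ⟨rel_zero_of_RC Hb₁ hf₁ hD, rel_zero_of_RC Hb₂ hf₂ hD⟩

variable (R₁ R₂)

/-- the two families of principal units, indexed as in `T33/Psi3D.Utwo`. -/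
def Upair : Bool → Subgroup Fˣ := fun b => bif b then pu R₂ else pu R₁

variable {R₁ R₂}

/-- **the Kummer-trivial classes of exponent `p` are the `p`-torsion of the formal part.** -/
theorem inG_iff_formal (H : LHyp K F) (Hb₁ : LHyp (ResidueField A) Fb₁)
    (Hb₂ : LHyp (ResidueField A) Fb₂) {p : ℕ} (hp : p ≠ 0) {x : Pic0 K F} :
    InG R₁ R₂ p x ↔ x ∈ formal (K := K) p (Upair R₁ R₂) ∧ p • x = 0 := by
  constructor
  · rintro ⟨f, D, hf₁, hf₂, hD, rfl⟩
    refine ⟨⟨1, f, D, fun i => ?_, fun v => ?_, rfl⟩, ?_⟩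
    · cases i
      · rw [pow_one]; exact hf₁
      · rw [pow_one]; exact hf₂
    · rw [pow_one]; exact hD v
    · have : p • Pic0.mk D = Pic0.mk (p • D) := rfl
      rw [this]
      refine mk_eq_zero_of_ord f.ne_zero fun P => ?_
      rw [← hD P]
      simp
  · rintro ⟨⟨m, f, D, hf, hD, rfl⟩, hpx⟩
    have hpx' : Pic0.mk (p • D) = 0 := hpx
    obtain ⟨g, hg0, hg⟩ := exists_ord_of_mk_eq_zero hpx'
    have hg' : ∀ v : Place K F, (p : ℤ) * (D : Divisor K F) v = v.ord g := by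
      intro v
      rw [← hg v]
      simp
    cases m with
    | zero =>
      -- `D` is principal
      have hx0 : Pic0.mk D = 0 := mk_eq_zero_of_ord f.ne_zero fun P => by
        rw [← hD P]
        simp
      rw [hx0]
      exact ⟨1, 0, (RC K (pu R₁) p).one_mem, (RC K (pu R₂) p).one_mem, fun v => by simp, rfl⟩
    | succ k =>
      have hf0 : (f : F) ≠ 0 := f.ne_zero
      have hgk0 : g ^ (p ^ k) ≠ 0 := pow_ne_zero _ hg0
      obtain ⟨a, ha⟩ := eq_algebraMap_of_forall_ord_nonneg H (f := (f : F) / g ^ (p ^ k))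
        (fun P => by
          rw [div_eq_mul_inv, P.ord_mul hf0 (inv_ne_zero hgk0), Place.ord_inv, ord_pow, ← hD P,
            ← hg' P]
          apply le_of_eq
          push_cast
          ring)
      have ha0 : a ≠ 0 := by
        rintro rfl
        rw [map_zero] at ha
        exact div_ne_zero hf0 hgk0 ha
      have hfg : (f : F) = algebraMap K F a * ((Units.mk0 g hg0 : Fˣ) : F) ^ (p ^ k) := by
        rw [← ha, Units.val_mk0]
        field_simp
      refine ⟨Units.mk0 g hg0, D, ?_, ?_, hg', rfl⟩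
      · exact RC_saturate Hb₁ hp ha0 (hf false) hfg
      · exact RC_saturate Hb₂ hp ha0 (hf true) hfg

/-! ### the eigenvector -/

/-- **the eigenvector** (abstract form of `exists_eigen`). -/
theorem exists_eigen_abs (H : LHyp K F) {p : ℕ} (hp : p ≠ 0)
    (V : AddSubgroup (Pic0 K F)) (hV₁ : V ≤ Jf R₁ p) (hV₂ : V ≤ Jf R₂ p)
    {v : Pic0 K F} (hv : v ∈ V) (hvG : ¬ (Rel R₁ p v 0 ∧ Rel R₂ p v 0))
    {ι : Type*} (S : Set ι) (T : ι → Pic0 K F →+ Pic0 K F) (a : ι → ℤ)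
    (hT : ∀ i ∈ S, ∀ w ∈ V, T i w = a i • w)
    (Tb₁ : ι → Pic0 (ResidueField A) Fb₁ →+ Pic0 (ResidueField A) Fb₁)
    (Tb₂ : ι → Pic0 (ResidueField A) Fb₂ →+ Pic0 (ResidueField A) Fb₂)
    (hmap₁ : ∀ i ∈ S, ∀ (x : Pic0 K F) (e : Pic0 (ResidueField A) Fb₁),
      Rel R₁ p x e → Rel R₁ p (T i x) (Tb₁ i e))
    (hmap₂ : ∀ i ∈ S, ∀ (x : Pic0 K F) (e : Pic0 (ResidueField A) Fb₂),
      Rel R₂ p x e → Rel R₂ p (T i x) (Tb₂ i e)) :
    (∃ e : Pic0 (ResidueField A) Fb₁, Rel R₁ p v e ∧ e ≠ 0 ∧ p • e = 0 ∧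
        ∀ i ∈ S, Tb₁ i e = a i • e) ∨
      (∃ e : Pic0 (ResidueField A) Fb₂, Rel R₂ p v e ∧ e ≠ 0 ∧ p • e = 0 ∧
        ∀ i ∈ S, Tb₂ i e = a i • e) := by
  obtain ⟨e₁, he₁⟩ := hV₁ hv
  obtain ⟨e₂, he₂⟩ := hV₂ hv
  by_cases h1 : e₁ = 0
  · right
    have h2 : e₂ ≠ 0 := by
      rintro rfl
      exact hvG ⟨h1 ▸ he₁, he₂⟩
    refine ⟨e₂, he₂, h2, he₂.p_smul_right, fun i hi => ?_⟩
    have h3 := hmap₂ i hi v e₂ he₂
    rw [hT i hi v hv] at h3
    exact Rel.unique H hp h3 (he₂.zsmul (a i))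
  · left
    refine ⟨e₁, he₁, h1, he₁.p_smul_right, fun i hi => ?_⟩
    have h3 := hmap₁ i hi v e₁ he₁
    rw [hT i hi v hv] at h3
    exact Rel.unique H hp h3 (he₁.zsmul (a i))

end Fermat.Agent.U44.EtaleTwo1
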