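/-
Programme U44, chapter (HECKE), file 11 (helper4): **the two degeneracy maps INTO the level
`(M' ℓ) p`** (the index used by chapter (e) at the level `M' ℓ`), with their compatibilities with
the two Gauss rings `c1 h', c2 h'` (`h' = hEll h : LevelHyp p (M' ℓ) A`) — the form consumed by
`RedCompat9` / `SlopeHecke`.

* `alphaE`, `betaE : Fbar (M' p) →ₐ[ℚ̄] Fbar ((M' ℓ) p)` (identity / `q ↦ q^ℓ` on `q`-expansions);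
  `alphaE_eq`, `betaE_eq` : they are `castN ∘ heckeAlphaBar`, `castN ∘ heckeBetaBar`;
* `frickeBar_alphaE`, `frickeBar_betaE`;
* `alphaE_mem₁`, `rho_alphaE₁ : ρ₁' (α y) = ᾱ (ρ₁ y)`, `betaE_mem₁`, `rho_betaE₁ : ρ₁' (β y) = β̄ (ρ₁ y)`,
  `alphaE_mem₂`, `rho_alphaE₂ : ρ₂' (α y) = β̄ (ρ₂ y)`, `betaE_mem₂`, `rho_betaE₂ : ρ₂' (β y) = ᾱ (ρ₂ y)`;
* `finrankAlong_alphaE/_betaE = ℓ + 1`, `isIntegral_alphaE/_betaE`.
-/
import Mathlib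
import Fermat.Agent.U44.LevelEll4

set_option autoImplicit false
set_option linter.unusedSectionVars false
set_option linter.style.haveILetI false
set_option linter.unusedVariables false
set_option synthInstance.maxHeartbeats 400000

noncomputable section

namespace Fermat.Agent.U44.LevelEllB4

open HahnSeries ModularCurve IntermediateField IsLocalRing AlgebraicCurve
open Fermat.Agent.RED.Interface4 Fermat.Agent.ES.RED Fermat.Agent.ES.N34.FrickeFK8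
  Fermat.Agent.T33.NodalCtx1 Fermat.Agent.T33.NodalHalf4
  Fermat.Agent.T33.NodalBase4A Fermat.Agent.T33.FrickeRed3 Fermat.Agent.U44.DegreeC4
  Fermat.Agent.U44.LevelEll4 Fermat.Agent.ES.HECKE

variable {p M' : ℕ} [NeZero M'] [NeZero p] {A : ValuationSubring Qbar}

/-- shortcut instance. -/
local instance (priority := high) algebraKFbE (M : ℕ) [NeZero M] :
    Algebra (ResidueField ↥A) (Fb A M) := inferInstance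

/-! ### the maps -/

/-- `α` : the inclusion `Fbar (M' p) → Fbar ((M' ℓ) p)`. -/
def alphaE (M' p ℓ : ℕ) [NeZero M'] [NeZero p] [NeZero ℓ] :
    ↥(Fbar (M' * p)) →ₐ[Qbar] ↥(Fbar ((M' * ℓ) * p)) :=
  ((castN (level_eq M' p ℓ) : ↥(Fbar ((M' * p) * ℓ)) ≃ₐ[Qbar] ↥(Fbar ((M' * ℓ) * p))) :
    ↥(Fbar ((M' * p) * ℓ)) →ₐ[Qbar] ↥(Fbar ((M' * ℓ) * p))).comp (alphaA (M' * p) ℓ)

/-- `β` : `q ↦ q^ℓ`, `Fbar (M' p) → Fbar ((M' ℓ) p)`. -/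
def betaE (M' p ℓ : ℕ) [NeZero M'] [NeZero p] [NeZero ℓ] :
    ↥(Fbar (M' * p)) →ₐ[Qbar] ↥(Fbar ((M' * ℓ) * p)) :=
  ((castN (level_eq M' p ℓ) : ↥(Fbar ((M' * p) * ℓ)) ≃ₐ[Qbar] ↥(Fbar ((M' * ℓ) * p))) :
    ↥(Fbar ((M' * p) * ℓ)) →ₐ[Qbar] ↥(Fbar ((M' * ℓ) * p))).comp (betaA (M' * p) ℓ)

variable {ℓ : ℕ} [NeZero ℓ]

theorem alphaE_apply (x : ↥(Fbar (M' * p))) :
    alphaE M' p ℓ x = castN (level_eq M' p ℓ) (heckeAlphaBar Qbar (M' * p) ℓ x) := rfl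

theorem betaE_apply (x : ↥(Fbar (M' * p))) :
    betaE M' p ℓ x = castN (level_eq M' p ℓ) (heckeBetaBar Qbar (M' * p) ℓ x) := rfl

@[simp] theorem coe_alphaE (x : ↥(Fbar (M' * p))) :
    ((alphaE M' p ℓ x : ↥(Fbar ((M' * ℓ) * p))) : LaurentSeries Qbar) =
      (x : LaurentSeries Qbar) := by
  rw [alphaE_apply, coe_castN, coe_heckeAlphaBar]

@[simp] theorem coe_betaE (x : ↥(Fbar (M' * p))) :
    ((betaE M' p ℓ x : ↥(Fbar ((M' * ℓ) * p))) : LaurentSeries Qbar) =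
      qExpand Qbar ℓ (x : LaurentSeries Qbar) := by
  rw [betaE_apply, coe_castN, coe_heckeBetaBar]

theorem isIncl_alphaE : IsIncl (alphaE M' p ℓ) := fun x => coe_alphaE x

theorem isExpand_betaE : IsExpand ℓ (betaE M' p ℓ) := fun x => coe_betaE x

theorem frickeBar_alphaE (x : ↥(Fbar (M' * p))) :
    frickeBar ((M' * ℓ) * p) (alphaE M' p ℓ x) = betaE M' p ℓ (frickeBar (M' * p) x) := by
  rw [alphaE_apply, frickeBar_castN, betaE_apply]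
  exact congrArg (castN (level_eq M' p ℓ)) (frickeBar_alphaA (M' := M' * p) (p := ℓ) x)

theorem frickeBar_betaE (x : ↥(Fbar (M' * p))) :
    frickeBar ((M' * ℓ) * p) (betaE M' p ℓ x) = alphaE M' p ℓ (frickeBar (M' * p) x) := by
  rw [betaE_apply, frickeBar_castN, alphaE_apply]
  exact congrArg (castN (level_eq M' p ℓ)) (frickeBar_betaA (M' := M' * p) (p := ℓ) x)

/-! ### `c1G rfl = c1 h'`, `c2G rfl = c2 h'` -/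

variable (h : LevelHyp p M' A) (hℓ : ℓ.Prime) (hℓp : ℓ ≠ p)

theorem mem_c1G_rfl (f : ↥(Fbar ((M' * ℓ) * p))) :
    f ∈ (c1G h hℓ hℓp rfl).O ↔ f ∈ (c1 (hEll h hℓ hℓp)).O := by
  have h1 : f ∈ (c1G h hℓ hℓp rfl).O ↔ castN rfl f ∈ (c1 (hEll h hℓ hℓp)).O :=
    mem_comapEquiv (c1 (hEll h hℓ hℓp)) (castN rfl) f
  rw [h1, castN_self]

theorem mem_c2G_rfl (f : ↥(Fbar ((M' * ℓ) * p))) :
    f ∈ (c2G h hℓ hℓp rfl).O ↔ f ∈ (c2 (hEll h hℓ hℓp)).O := by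
  have h1 : f ∈ (c2G h hℓ hℓp rfl).O ↔ castN rfl f ∈ (c2 (hEll h hℓ hℓp)).O :=
    mem_comapEquiv (c2 (hEll h hℓ hℓp)) (castN rfl) f
  rw [h1, castN_self]

theorem c1G_rfl_ρ (f : ↥(Fbar ((M' * ℓ) * p))) (hf : f ∈ (c1G h hℓ hℓp rfl).O) :
    (c1G h hℓ hℓp rfl).ρ ⟨f, hf⟩ =
      (c1 (hEll h hℓ hℓp)).ρ ⟨f, (mem_c1G_rfl h hℓ hℓp f).1 hf⟩ := by
  refine (comapEquiv_ρ (c1 (hEll h hℓ hℓp)) (castN rfl) ⟨f, hf⟩).trans ?_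
  congr 1

theorem c2G_rfl_ρ (f : ↥(Fbar ((M' * ℓ) * p))) (hf : f ∈ (c2G h hℓ hℓp rfl).O) :
    (c2G h hℓ hℓp rfl).ρ ⟨f, hf⟩ =
      (c2 (hEll h hℓ hℓp)).ρ ⟨f, (mem_c2G_rfl h hℓ hℓp f).1 hf⟩ := by
  refine (comapEquiv_ρ (c2 (hEll h hℓ hℓp)) (castN rfl) ⟨f, hf⟩).trans ?_
  congr 1

/-! ### the eight compatibilities at the level `(M' ℓ) p` -/

theorem alphaE_mem₁ {y : ↥(Fbar (M' * p))} (hy : y ∈ (c1 h).O) :
    alphaE M' p ℓ y ∈ (c1 (hEll h hℓ hℓp)).O :=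
  (mem_c1G_rfl h hℓ hℓp _).1 (alpha_mem₁ h hℓ hℓp _ rfl isIncl_alphaE hy)

/-- **`ρ₁' (α y) = ᾱ (ρ₁ y)`.** -/
theorem rho_alphaE₁ (y : ↥(Fbar (M' * p))) (hy : y ∈ (c1 h).O) :
    (c1 (hEll h hℓ hℓp)).ρ ⟨alphaE M' p ℓ y, alphaE_mem₁ h hℓ hℓp hy⟩ =
      alphaC (Setup8.kA A) M' ℓ ((c1 h).ρ ⟨y, hy⟩) :=
  (c1G_rfl_ρ h hℓ hℓp _ _).symm.trans (rho_alpha₁ h hℓ hℓp _ rfl isIncl_alphaE ⟨y, hy⟩)

theorem betaE_mem₁ {y : ↥(Fbar (M' * p))} (hy : y ∈ (c1 h).O) :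
    betaE M' p ℓ y ∈ (c1 (hEll h hℓ hℓp)).O :=
  (mem_c1G_rfl h hℓ hℓp _).1 (beta_mem₁ h hℓ hℓp _ rfl isExpand_betaE hy)

/-- **`ρ₁' (β y) = β̄ (ρ₁ y)`.** -/
theorem rho_betaE₁ (y : ↥(Fbar (M' * p))) (hy : y ∈ (c1 h).O) :
    (c1 (hEll h hℓ hℓp)).ρ ⟨betaE M' p ℓ y, betaE_mem₁ h hℓ hℓp hy⟩ =
      betaC (Setup8.kA A) M' ℓ ((c1 h).ρ ⟨y, hy⟩) :=
  (c1G_rfl_ρ h hℓ hℓp _ _).symm.trans (rho_beta₁ h hℓ hℓp _ rfl isExpand_betaE ⟨y, hy⟩)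

theorem alphaE_mem₂ {y : ↥(Fbar (M' * p))} (hy : y ∈ (c2 h).O) :
    alphaE M' p ℓ y ∈ (c2 (hEll h hℓ hℓp)).O :=
  (mem_c2G_rfl h hℓ hℓp _).1
    (alpha_mem₂ h hℓ hℓp _ _ rfl isExpand_betaE frickeBar_alphaE hy)

/-- **`ρ₂' (α y) = β̄ (ρ₂ y)`.** -/
theorem rho_alphaE₂ (y : ↥(Fbar (M' * p))) (hy : y ∈ (c2 h).O) :
    (c2 (hEll h hℓ hℓp)).ρ ⟨alphaE M' p ℓ y, alphaE_mem₂ h hℓ hℓp hy⟩ =
      betaC (Setup8.kA A) M' ℓ ((c2 h).ρ ⟨y, hy⟩) :=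
  (c2G_rfl_ρ h hℓ hℓp _ _).symm.trans
    (rho_alpha₂ h hℓ hℓp _ _ rfl isExpand_betaE frickeBar_alphaE ⟨y, hy⟩)

theorem betaE_mem₂ {y : ↥(Fbar (M' * p))} (hy : y ∈ (c2 h).O) :
    betaE M' p ℓ y ∈ (c2 (hEll h hℓ hℓp)).O :=
  (mem_c2G_rfl h hℓ hℓp _).1
    (beta_mem₂ h hℓ hℓp _ _ rfl isIncl_alphaE frickeBar_betaE hy)

/-- **`ρ₂' (β y) = ᾱ (ρ₂ y)`.** -/
theorem rho_betaE₂ (y : ↥(Fbar (M' * p))) (hy : y ∈ (c2 h).O) :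
    (c2 (hEll h hℓ hℓp)).ρ ⟨betaE M' p ℓ y, betaE_mem₂ h hℓ hℓp hy⟩ =
      alphaC (Setup8.kA A) M' ℓ ((c2 h).ρ ⟨y, hy⟩) :=
  (c2G_rfl_ρ h hℓ hℓp _ _).symm.trans
    (rho_beta₂ h hℓ hℓp _ _ rfl isIncl_alphaE frickeBar_betaE ⟨y, hy⟩)

/-! ### degrees -/

include h hℓ hℓp in
theorem not_dvd_level (hℓM : ¬ ℓ ∣ M') : ¬ ℓ ∣ M' * p := by
  intro hd
  rcases (Nat.Prime.dvd_mul hℓ).1 hd with h1 | h1
  · exact hℓM h1
  · exact hℓp ((Nat.prime_dvd_prime_iff_eq hℓ h.prime).1 h1)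

include h hℓ hℓp in
theorem finrankAlong_alphaE (hℓM : ¬ ℓ ∣ M') : finrankAlong Qbar (alphaE M' p ℓ) = ℓ + 1 := by
  have h1 := AlongDegree25.finrankAlong_alpha Qbar (M' * p) ℓ hℓ (not_dvd_level h hℓ hℓp hℓM)
  rw [AlongDegree25.finrankAlong_eq_relfinrank _ _ (heckeAlphaBar Qbar (M' * p) ℓ)
    (AlgHom.id Qbar (LaurentSeries Qbar)) (fun a => by rw [coe_heckeAlphaBar]; rfl),
    IntermediateField.map_id] at h1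
  rw [AlongDegree25.finrankAlong_eq_relfinrank _ _ (alphaE M' p ℓ)
    (AlgHom.id Qbar (LaurentSeries Qbar)) (fun a => by rw [coe_alphaE]; rfl),
    IntermediateField.map_id, ← level_eq M' p ℓ]
  exact h1

include h hℓ hℓp in
theorem finrankAlong_betaE (hℓM : ¬ ℓ ∣ M') : finrankAlong Qbar (betaE M' p ℓ) = ℓ + 1 := by
  have h1 := AlongDegree25.finrankAlong_beta Qbar (M' * p) ℓ hℓ (not_dvd_level h hℓ hℓp hℓM)
  rw [AlongDegree25.finrankAlong_eq_relfinrank _ _ (heckeBetaBar Qbar (M' * p) ℓ)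
    (qExpandAlgHomC Qbar ℓ) (fun a => by rw [coe_heckeBetaBar, qExpandAlgHomC_apply])] at h1
  rw [AlongDegree25.finrankAlong_eq_relfinrank _ _ (betaE M' p ℓ) (qExpandAlgHomC Qbar ℓ)
    (fun a => by rw [coe_betaE, qExpandAlgHomC_apply]), ← level_eq M' p ℓ]
  exact h1

include h hℓ hℓp in
theorem finiteAlong_alphaE (hℓM : ¬ ℓ ∣ M') : FiniteAlong Qbar (alphaE M' p ℓ) :=
  AlongDegree25.finiteAlong_of_finrankAlong_pos _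
    (by rw [finrankAlong_alphaE h hℓ hℓp hℓM]; exact Nat.succ_pos ℓ)

include h hℓ hℓp in
theorem finiteAlong_betaE (hℓM : ¬ ℓ ∣ M') : FiniteAlong Qbar (betaE M' p ℓ) :=
  AlongDegree25.finiteAlong_of_finrankAlong_pos _
    (by rw [finrankAlong_betaE h hℓ hℓp hℓM]; exact Nat.succ_pos ℓ)

include h hℓ hℓp in
theorem isIntegral_alphaE (hℓM : ¬ ℓ ∣ M') : (alphaE M' p ℓ).toRingHom.IsIntegral :=
  AlongDegree25.isIntegral_of_finiteAlong _ (finiteAlong_alphaE h hℓ hℓp hℓM)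

include h hℓ hℓp in
theorem isIntegral_betaE (hℓM : ¬ ℓ ∣ M') : (betaE M' p ℓ).toRingHom.IsIntegral :=
  AlongDegree25.isIntegral_of_finiteAlong _ (finiteAlong_betaE h hℓ hℓp hℓM)

end Fermat.Agent.U44.LevelEllB4
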