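/-
Programme U44 (stage 0), chapter (HECKE), block (H2) input (helper9): **reduction of places is
compatible with a morphism of two-chart models** — abstract half of (C-α) and (C-β weak) of
helper4's design (report 118, section 6).

Vocabulary of `T33/NodalPlaces1B` (`Chart`, `TwoCharts`, `HasValue`, `Centred`, `Val_j`, `On_j`,
`Red_j`, `r_j`).  `φ : F →ₐ[K] F'` is an integral embedding of function fields (the degeneracy map
`α` or `β`), `ψ_j : Fb_j →ₐ[κ] Fb_j'` the induced embeddings of the function fields of the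
components, `c_j`, `c_j'` the Gauss rings, `T`, `T'` the two-chart models.

* ring theory: `isIntegrallyClosed_of_closed` (a subring of a field which is integrally closed in
  it is an integrally closed domain), `ker_le_of_goingDown` (**going-down** for the two vertical
  primes: a point of the upper chart whose image lies on the first component lies on the first
  component; Mathlib's `Algebra.HasGoingDown` for integral extensions of integrally closed
  domains);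
* places along a map: `ord_restrictAlong_pos_iff`, `mem_vanishing_restrictAlong`,
  `hasValue_restrictAlong`;
* `HalfMap c c' φ ψ` : `φ (O) ⊆ O'` and `ρ' ∘ φ = ψ ∘ ρ`;
* `pullHom`, `pull : C'.Pt → C.Pt` (the image of a closed point), `centred_pull`, `val₁_pull`,
  `val₂_pull`, `on₁_pull`, `on₂_pull`, and the going-down statements `on₁_of_pull`, `on₂_of_pull`
  under `StrongHyp` (the lower chart is integrally closed, the upper chart is integral over it,
  separating elements);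
* `Hyp T T' φ ψ₁ ψ₂` : the morphism maps both charts into the corresponding charts;
* **weak direction** (any morphism, e.g. `β`): `red₁_restrict`, `red₂_restrict`,
  `r₁_restrict_of_some`, `r₂_restrict_of_some` :
  `r_j' P' = some Q' → r_j (P'|φ) = some (Q'|ψ_j)`;
* **strong direction** (`φ t = t'`, going-down on both charts, e.g. `α`): `r₁_restrict`,
  `r₂_restrict` : `r_j (P'|φ) = (r_j' P').map (·|ψ_j)`.
-/
import Mathlib
import Fermat.Agent.T33.NodalInst6E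
import Fermat.Prelude.Def_AlgebraicCurve_Correspondence

set_option autoImplicit false
set_option linter.unusedSectionVars false
set_option linter.unusedVariables false
set_option linter.style.haveILetI false

open AlgebraicCurve IsLocalRing Polynomial

noncomputable section

namespace Fermat.Agent.U44.RedCompat9

open Fermat.Agent.T33.NodalCtx1 Fermat.Agent.T33.NodalCurve6 Fermat.Agent.T33.NodalPlaces1
  Fermat.Agent.T33.NodalInst6 Fermat.Agent.X0.FF Fermat.Agent.T33.NodalLift6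

/-! ### ring theory -/

section Ring

/-- a subring of a field which is integrally closed in it (polynomial form) is an integrally
closed domain. -/
theorem isIntegrallyClosed_of_closed {F : Type*} [Field F] (B : Subring F)
    (hcl : ∀ P : F[X], P.Monic → (∀ i, P.coeff i ∈ B) → ∀ x : F, P.eval x = 0 → x ∈ B) :
    IsIntegrallyClosed ↥B := by
  have h1 : IsIntegrallyClosedIn ↥B F := by
    rw [isIntegrallyClosedIn_iff]
    refine ⟨Subtype.val_injective, fun {x} hx => ?_⟩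
    obtain ⟨q, hq, hx⟩ := hx
    refine ⟨⟨x, hcl (q.map (algebraMap ↥B F)) (hq.map _) (fun i => ?_) x ?_⟩, rfl⟩
    · rw [coeff_map]; exact (q.coeff i).2
    · rwa [eval_map]
  have hinj : Function.Injective (Algebra.ofId ↥B F) := Subtype.val_injective
  exact AlgHom.isIntegrallyClosedIn (IsFractionRing.liftAlgHom (K := FractionRing ↥B) hinj)
    (IsFractionRing.liftAlgHom (K := FractionRing ↥B) hinj).toRingHom.injective h1

/-- **going-down for the two vertical primes.**  `g : R → S` an integral extension of domains, `R`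
integrally closed; `ρ₁, ρ₂` on `R`, `ρ₁', ρ₂'` on `S` with `ker ρ₁' ∩ ker ρ₂' ⊆ g (ker ρ₁) S`
(saturation: both are `𝔪_A S`) and an element of `R` killed by `ρ₂' ∘ g` but not by `ρ₁`.  A point
`χ'` of `S` whose restriction to `R` kills `ker ρ₁` kills `ker ρ₁'`. -/
theorem ker_le_of_goingDown {R S k L₁ L₁' L₂' : Type*} [CommRing R] [IsDomain R]
    [IsIntegrallyClosed R] [CommRing S] [IsDomain S] [Field k]
    [CommRing L₁] [IsDomain L₁] [CommRing L₁'] [CommRing L₂']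
    (g : R →+* S) (hg : Function.Injective g) (hint : g.IsIntegral)
    (ρ₁ : R →+* L₁) (ρ₁' : S →+* L₁') (ρ₂' : S →+* L₂')
    (sep : ∃ b : R, ρ₂' (g b) = 0 ∧ ρ₁ b ≠ 0)
    (sat : ∀ s : S, ρ₁' s = 0 → ρ₂' s = 0 → ∃ r : R, ρ₁ r = 0 ∧ ∃ s' : S, s = g r * s')
    (χ' : S →+* k) (hχ : ∀ r, ρ₁ r = 0 → χ' (g r) = 0) (s : S) (hs : ρ₁' s = 0) : χ' s = 0 := by
  letI : Algebra R S := g.toAlgebra
  haveI : FaithfulSMul R S := (faithfulSMul_iff_algebraMap_injective R S).2 hg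
  haveI : Algebra.IsIntegral R S := ⟨fun x => hint x⟩
  haveI hp : (RingHom.ker ρ₁).IsPrime := RingHom.ker_isPrime ρ₁
  haveI hQ : (RingHom.ker χ').IsPrime := RingHom.ker_isPrime χ'
  haveI hq : ((RingHom.ker χ').under R).IsPrime := inferInstance
  haveI : (RingHom.ker χ').LiesOver ((RingHom.ker χ').under R) := ⟨rfl⟩
  have hle : RingHom.ker ρ₁ ≤ (RingHom.ker χ').under R := by
    intro r hr
    rw [Ideal.under_def, Ideal.mem_comap, RingHom.mem_ker]
    exact hχ r ((RingHom.mem_ker).1 hr)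
  obtain ⟨P, hPQ, hPprime, hPover⟩ :=
    Ideal.exists_ideal_le_liesOver_of_le (RingHom.ker χ') (p := RingHom.ker ρ₁)
      (q := (RingHom.ker χ').under R) hle
  have hcomap : ∀ r : R, g r ∈ P ↔ ρ₁ r = 0 := by
    intro r
    have h1 : RingHom.ker ρ₁ = P.under R := hPover.over
    have h2 : r ∈ RingHom.ker ρ₁ ↔ r ∈ P.under R := by rw [← h1]
    rw [RingHom.mem_ker, Ideal.under_def, Ideal.mem_comap] at h2
    exact h2.symm
  have hker : ∀ s : S, ρ₁' s = 0 → s ∈ P := by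
    by_contra hno
    push Not at hno
    obtain ⟨s₁, hs₁, hs₁P⟩ := hno
    -- then `ker ρ₂' ≤ P`
    have h2 : ∀ s₂ : S, ρ₂' s₂ = 0 → s₂ ∈ P := by
      intro s₂ hs₂
      obtain ⟨r, hr, s', hs'⟩ := sat (s₁ * s₂) (by rw [map_mul, hs₁, zero_mul])
        (by rw [map_mul, hs₂, mul_zero])
      have h3 : s₁ * s₂ ∈ P := by
        rw [hs']
        exact P.mul_mem_right _ ((hcomap r).2 hr)
      exact (hPprime.mem_or_mem h3).resolve_left hs₁P
    obtain ⟨b, hb2, hb1⟩ := sep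
    exact hb1 ((hcomap b).1 (h2 _ hb2))
  exact (RingHom.mem_ker).1 (hPQ (hker s hs))

end Ring

/-! ### places along a map -/

section Along

variable {K F F' : Type*} [Field K] [Field F] [Field F'] [Algebra K F] [Algebra K F']
variable (φ : F →ₐ[K] F') (hφ : φ.toRingHom.IsIntegral) (w : Place K F')

include hφ in
theorem ramificationIndexAlong_pos : 0 < Place.ramificationIndexAlong φ w := by
  letI := algebraAlong φ
  haveI := isScalarTower_along φ
  haveI := isIntegral_along φ hφ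
  exact Place.ramificationIndex_pos (w := w) (F := F)

theorem ord_restrictAlong_pos_iff (f : F) :
    0 < (w.restrictAlong φ hφ).ord f ↔ 0 < w.ord (φ f) := by
  rw [Place.ord_restrictAlong φ hφ w f]
  have he : (0 : ℤ) < (Place.ramificationIndexAlong φ w : ℤ) := by
    exact_mod_cast ramificationIndexAlong_pos φ hφ w
  constructor
  · intro h
    exact mul_pos he h
  · intro h
    exact (mul_pos_iff_of_pos_left he).1 h

theorem mem_vanishing_restrictAlong (f : F) :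
    f ∈ vanishing (w.restrictAlong φ hφ) ↔ φ f ∈ vanishing w := by
  rw [mem_vanishing, mem_vanishing, ord_restrictAlong_pos_iff, map_eq_zero]

theorem hasValue_restrictAlong (f : F) (a : K) :
    HasValue (w.restrictAlong φ hφ) f a ↔ HasValue w (φ f) a := by
  rw [hasValue_iff_vanishing, hasValue_iff_vanishing, mem_vanishing_restrictAlong, map_sub,
    φ.commutes]

end Along

/-! ### values of inverse functions -/

section Values

variable {K : Type*} [Field K] {A : ValuationSubring K} {F : Type*} [Field F] [Algebra K F]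

/-- if `f` and `f⁻¹` have integral values at `P`, these values are units. -/
theorem residue_ne_zero_of_hasValue_inv {P : Place K F} {f : F} (hf : f ≠ 0) {a a' : A}
    (h : HasValue P f (a : K)) (h' : HasValue P f⁻¹ (a' : K)) : residue A a' ≠ 0 := by
  rw [hasValue_iff_vanishing] at h h'
  have h1 := mul_sub_mem_vanishing h h'
  rw [mul_inv_cancel₀ hf, ← hasValue_iff_vanishing] at h1
  have h2 : HasValue P (1 : F) (1 : K) := by
    have := hasValue_algebraMap (F := F) P (1 : K)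
    rwa [map_one] at this
  have h3 : (a : K) * (a' : K) = 1 := h1.unique h2
  have h4 : a * a' = 1 := Subtype.ext (by simpa using h3)
  intro h0
  rw [IsLocalRing.residue_eq_zero_iff] at h0
  exact (IsLocalRing.mem_maximalIdeal _).1 h0 (IsUnit.of_mul_eq_one a (by rw [mul_comm]; exact h4))

end Values

/-! ### morphisms of Gauss rings and of charts -/

variable {K : Type*} [Field K] {A : ValuationSubring K}
variable {F F' : Type*} [Field F] [Field F'] [Algebra K F] [Algebra K F']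

/-- **a morphism of Gauss rings**: `φ (O) ⊆ O'` and `ρ' ∘ φ = ψ ∘ ρ`. -/
structure HalfMap {Fb Fb' : Type*} [Field Fb] [Field Fb'] [Algebra (ResidueField A) Fb]
    [Algebra (ResidueField A) Fb'] (c : HalfRed A F Fb) (c' : HalfRed A F' Fb')
    (φ : F →ₐ[K] F') (ψ : Fb →ₐ[ResidueField A] Fb') : Prop where
  map_mem : ∀ y ∈ c.O, φ y ∈ c'.O
  ρ_map : ∀ (y : F) (hy : y ∈ c.O) (hy' : φ y ∈ c'.O), c'.ρ ⟨φ y, hy'⟩ = ψ (c.ρ ⟨y, hy⟩)

variable {Fb₁ Fb₂ Fb₁' Fb₂' : Type*} [Field Fb₁] [Field Fb₂] [Field Fb₁'] [Field Fb₂']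
  [Algebra (ResidueField A) Fb₁] [Algebra (ResidueField A) Fb₂]
  [Algebra (ResidueField A) Fb₁'] [Algebra (ResidueField A) Fb₂']
variable {c₁ : HalfRed A F Fb₁} {c₂ : HalfRed A F Fb₂}
  {c₁' : HalfRed A F' Fb₁'} {c₂' : HalfRed A F' Fb₂'}
variable {φ : F →ₐ[K] F'} {ψ₁ : Fb₁ →ₐ[ResidueField A] Fb₁'} {ψ₂ : Fb₂ →ₐ[ResidueField A] Fb₂'}

section OneChart

variable {C : Chart c₁ c₂} {C' : Chart c₁' c₂'}

/-- the restriction of `φ` to the charts. -/
def pullHom (hB : ∀ b ∈ C.B, φ b ∈ C'.B) : C.B →+* C'.B where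
  toFun b := ⟨φ (b : F), hB _ b.2⟩
  map_one' := Subtype.ext (map_one φ)
  map_mul' a b := Subtype.ext (map_mul φ _ _)
  map_zero' := Subtype.ext (map_zero φ)
  map_add' a b := Subtype.ext (map_add φ _ _)

@[simp] theorem coe_pullHom (hB : ∀ b ∈ C.B, φ b ∈ C'.B) (b : C.B) :
    ((pullHom hB b : C'.B) : F') = φ (b : F) := rfl

theorem pullHom_injective (hB : ∀ b ∈ C.B, φ b ∈ C'.B) : Function.Injective (pullHom hB) := by
  intro a b hab
  apply Subtype.ext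
  apply φ.toRingHom.injective
  exact congrArg Subtype.val hab

theorem pullHom_const (hB : ∀ b ∈ C.B, φ b ∈ C'.B) (a : A) :
    pullHom hB (C.const a) = C'.const a :=
  Subtype.ext (φ.commutes _)

/-- **the image of a closed point of the upper chart.** -/
def pull (hB : ∀ b ∈ C.B, φ b ∈ C'.B) (χ' : C'.Pt) : C.Pt :=
  ⟨χ'.1.comp (pullHom hB), fun a => by
    rw [RingHom.comp_apply, pullHom_const]
    exact χ'.2 a⟩

@[simp] theorem pull_apply (hB : ∀ b ∈ C.B, φ b ∈ C'.B) (χ' : C'.Pt) (b : C.B) :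
    pull hB χ' b = χ' (pullHom hB b) := rfl

theorem ρ₁_pullHom (h₁ : HalfMap c₁ c₁' φ ψ₁) (hB : ∀ b ∈ C.B, φ b ∈ C'.B) (b : C.B) :
    C'.ρ₁ (pullHom hB b) = ψ₁ (C.ρ₁ b) := by
  rw [Chart.ρ₁_apply, Chart.ρ₁_apply]
  exact h₁.ρ_map _ _ _

theorem ρ₂_pullHom (h₂ : HalfMap c₂ c₂' φ ψ₂) (hB : ∀ b ∈ C.B, φ b ∈ C'.B) (b : C.B) :
    C'.ρ₂ (pullHom hB b) = ψ₂ (C.ρ₂ b) := by
  rw [Chart.ρ₂_apply, Chart.ρ₂_apply]
  exact h₂.ρ_map _ _ _

theorem on₁_pull (h₁ : HalfMap c₁ c₁' φ ψ₁) (hB : ∀ b ∈ C.B, φ b ∈ C'.B) {χ' : C'.Pt}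
    (h : C'.On₁ χ') : C.On₁ (pull hB χ') := by
  intro b hb
  rw [pull_apply]
  apply h
  rw [ρ₁_pullHom h₁, hb, map_zero]

theorem on₂_pull (h₂ : HalfMap c₂ c₂' φ ψ₂) (hB : ∀ b ∈ C.B, φ b ∈ C'.B) {χ' : C'.Pt}
    (h : C'.On₂ χ') : C.On₂ (pull hB χ') := by
  intro b hb
  rw [pull_apply]
  apply h
  rw [ρ₂_pullHom h₂, hb, map_zero]

theorem centred_pull (hφ : φ.toRingHom.IsIntegral) (hB : ∀ b ∈ C.B, φ b ∈ C'.B)
    {P' : Place K F'} {χ' : C'.Pt} (h : C'.Centred P' χ') :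
    C.Centred (P'.restrictAlong φ hφ) (pull hB χ') := by
  intro b
  obtain ⟨a, ha, hχ⟩ := h (pullHom hB b)
  exact ⟨a, (hasValue_restrictAlong φ hφ P' _ _).2 ha, hχ⟩

theorem val₁_pull (h₁ : HalfMap c₁ c₁' φ ψ₁) (hψ₁ : ψ₁.toRingHom.IsIntegral)
    (hB : ∀ b ∈ C.B, φ b ∈ C'.B) {χ' : C'.Pt} {Q' : Place (ResidueField A) Fb₁'}
    (h : C'.Val₁ χ' Q') : C.Val₁ (pull hB χ') (Q'.restrictAlong ψ₁ hψ₁) := by
  intro b
  rw [mem_vanishing_restrictAlong, map_sub, ψ₁.commutes, ← ρ₁_pullHom h₁ hB, pull_apply]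
  exact h (pullHom hB b)

theorem val₂_pull (h₂ : HalfMap c₂ c₂' φ ψ₂) (hψ₂ : ψ₂.toRingHom.IsIntegral)
    (hB : ∀ b ∈ C.B, φ b ∈ C'.B) {χ' : C'.Pt} {Q' : Place (ResidueField A) Fb₂'}
    (h : C'.Val₂ χ' Q') : C.Val₂ (pull hB χ') (Q'.restrictAlong ψ₂ hψ₂) := by
  intro b
  rw [mem_vanishing_restrictAlong, map_sub, ψ₂.commutes, ← ρ₂_pullHom h₂ hB, pull_apply]
  exact h (pullHom hB b)

/-- **the hypotheses of going-down on one chart**: the lower chart is integrally closed in `F`, the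
upper chart is integral over its image, and the two vertical primes of the lower chart are
incomparable. -/
structure StrongHyp (C : Chart c₁ c₂) (C' : Chart c₁' c₂') (φ : F →ₐ[K] F') : Prop where
  closed : ∀ P : F[X], P.Monic → (∀ i, P.coeff i ∈ C.B) → ∀ x : F, P.eval x = 0 → x ∈ C.B
  integral : ∀ b' ∈ C'.B, ∃ P : F'[X], P.Monic ∧ (∀ i, ∃ b ∈ C.B, φ b = P.coeff i) ∧
    P.eval b' = 0
  sep₁ : ∃ b : C.B, C.ρ₂ b = 0 ∧ C.ρ₁ b ≠ 0
  sep₂ : ∃ b : C.B, C.ρ₁ b = 0 ∧ C.ρ₂ b ≠ 0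

theorem StrongHyp.isIntegral (S : StrongHyp C C' φ) (hB : ∀ b ∈ C.B, φ b ∈ C'.B) :
    (pullHom hB : C.B →+* C'.B).IsIntegral := by
  intro b'
  obtain ⟨P, hP, hcoeff, hev⟩ := S.integral (b' : F') b'.2
  -- `P` lifts to a polynomial over `C.B`
  let f : C.B →+* F' := (C'.B.subtype).comp (pullHom hB)
  have hl : P ∈ lifts f := by
    rw [lifts_iff_coeff_lifts]
    intro n
    obtain ⟨b, hb, hbn⟩ := hcoeff n
    exact ⟨⟨b, hb⟩, hbn⟩
  obtain ⟨q, hq, -, hqm⟩ := lifts_and_natDegree_eq_and_monic hl hP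
  refine ⟨q, hqm, ?_⟩
  apply Subtype.val_injective
  have h1 : (C'.B.subtype) (eval₂ (pullHom hB) b' q) = eval₂ f (b' : F') q := by
    rw [hom_eval₂]
    rfl
  show (C'.B.subtype) (eval₂ (pullHom hB) b' q) = ((0 : C'.B) : F')
  rw [h1, ← eval_map, hq, hev]
  rfl

/-- **going-down, first component**: a point of the upper chart whose image lies on the first
component lies on the first component. -/
theorem on₁_of_pull (S : StrongHyp C C' φ) (h₂ : HalfMap c₂ c₂' φ ψ₂)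
    (hB : ∀ b ∈ C.B, φ b ∈ C'.B) {χ' : C'.Pt} (h : C.On₁ (pull hB χ')) : C'.On₁ χ' := by
  haveI : IsIntegrallyClosed ↥C.B := isIntegrallyClosed_of_closed C.B S.closed
  obtain ⟨b₀, hb₀2, hb₀1⟩ := S.sep₁
  intro s hs
  refine ker_le_of_goingDown (pullHom hB) (pullHom_injective hB) (S.isIntegral hB) C.ρ₁ C'.ρ₁ C'.ρ₂
    ⟨b₀, by rw [ρ₂_pullHom h₂, hb₀2, map_zero], hb₀1⟩ ?_ χ'.1 (fun r hr => h r hr) s hs
  intro s hs1 hs2
  obtain ⟨c, hc, b', hb', hsb⟩ := C'.sat (s : F') s.2 hs1 hs2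
  refine ⟨C.const c, ?_, ⟨b', hb'⟩, ?_⟩
  · rw [Chart.ρ₁_apply]
    have h1 := c₁.ρ_algebraMap c
    have h2 : (⟨((C.const c : C.B) : F), C.le₁ (C.const c).2⟩ : c₁.O) =
        ⟨algebraMap K F (c : K), c₁.algebraMap_mem c⟩ := rfl
    rw [h2, h1, (IsLocalRing.residue_eq_zero_iff c).2 hc, map_zero]
  · apply Subtype.ext
    rw [pullHom_const]
    exact hsb

/-- **going-down, second component.** -/
theorem on₂_of_pull (S : StrongHyp C C' φ) (h₁ : HalfMap c₁ c₁' φ ψ₁)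
    (hB : ∀ b ∈ C.B, φ b ∈ C'.B) {χ' : C'.Pt} (h : C.On₂ (pull hB χ')) : C'.On₂ χ' := by
  haveI : IsIntegrallyClosed ↥C.B := isIntegrallyClosed_of_closed C.B S.closed
  obtain ⟨b₀, hb₀1, hb₀2⟩ := S.sep₂
  intro s hs
  refine ker_le_of_goingDown (pullHom hB) (pullHom_injective hB) (S.isIntegral hB) C.ρ₂ C'.ρ₂ C'.ρ₁
    ⟨b₀, by rw [ρ₁_pullHom h₁, hb₀1, map_zero], hb₀2⟩ ?_ χ'.1 (fun r hr => h r hr) s hs
  intro s hs2 hs1
  obtain ⟨c, hc, b', hb', hsb⟩ := C'.sat (s : F') s.2 hs1 hs2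
  refine ⟨C.const c, ?_, ⟨b', hb'⟩, ?_⟩
  · rw [Chart.ρ₂_apply]
    have h1 := c₂.ρ_algebraMap c
    have h2 : (⟨((C.const c : C.B) : F), C.le₂ (C.const c).2⟩ : c₂.O) =
        ⟨algebraMap K F (c : K), c₂.algebraMap_mem c⟩ := rfl
    rw [h2, h1, (IsLocalRing.residue_eq_zero_iff c).2 hc, map_zero]
  · apply Subtype.ext
    rw [pullHom_const]
    exact hsb

end OneChart

/-! ### two charts -/

/-- **a morphism of two-chart models.** -/
structure Hyp (T : TwoCharts c₁ c₂) (T' : TwoCharts c₁' c₂') (φ : F →ₐ[K] F')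
    (ψ₁ : Fb₁ →ₐ[ResidueField A] Fb₁') (ψ₂ : Fb₂ →ₐ[ResidueField A] Fb₂') : Prop where
  h₁ : HalfMap c₁ c₁' φ ψ₁
  h₂ : HalfMap c₂ c₂' φ ψ₂
  hB0 : ∀ b ∈ T.C0.B, φ b ∈ T'.C0.B
  hB1 : ∀ b ∈ T.C1.B, φ b ∈ T'.C1.B
  /-- the overlap of the lower charts: `B0 ⊆ B1[t]`. -/
  hE : ∀ b ∈ T.C0.B, ∃ n : ℕ, T.t⁻¹ ^ n * b ∈ T.C1.B

section TwoCharts

variable {T : TwoCharts c₁ c₂} {T' : TwoCharts c₁' c₂'}

/-- the value of `t⁻¹` at a place of the chart `0` is a unit. -/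
theorem pt_s1_ne_zero {P : Place K F} (hP : T.Fin0 P) {χ : T.C1.Pt} (hχ : T.C1.Centred P χ) :
    χ T.s1 ≠ 0 := by
  obtain ⟨a, ha⟩ := hP
  obtain ⟨a', ha', hχa⟩ := hχ T.s1
  rw [hχa]
  exact residue_ne_zero_of_hasValue_inv T.t_ne ha ha'

/-- **weak direction, first component**: if `P'` reduces to `Q'`, then `P'|φ` reduces to
`Q'|ψ₁`. -/
theorem red₁_restrict (H : Hyp T T' φ ψ₁ ψ₂) (hφ : φ.toRingHom.IsIntegral)
    (hψ₁ : ψ₁.toRingHom.IsIntegral) {P' : Place K F'} {Q' : Place (ResidueField A) Fb₁'}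
    (h : T'.Red₁ P' Q') : T.Red₁ (P'.restrictAlong φ hφ) (Q'.restrictAlong ψ₁ hψ₁) := by
  rcases h with ⟨hP', χ', hχ', hv'⟩ | ⟨hP', χ', hχ', hs', hv'⟩
  · -- chart `0`
    have hχ := centred_pull hφ H.hB0 hχ'
    have hP : T.Fin0 (P'.restrictAlong φ hφ) := by
      obtain ⟨a, ha, -⟩ := hχ T.t0
      exact ⟨a, ha⟩
    exact Or.inl ⟨hP, pull H.hB0 χ', hχ, val₁_pull H.h₁ hψ₁ H.hB0 hv'⟩
  · -- chart `1`
    have hχ := centred_pull hφ H.hB1 hχ'
    have hv := val₁_pull H.h₁ hψ₁ H.hB1 hv'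
    by_cases hP : T.Fin0 (P'.restrictAlong φ hφ)
    · obtain ⟨χ₀, hχ₀⟩ := T.centred₀ _ hP
      refine Or.inl ⟨hP, χ₀, hχ₀, ?_⟩
      exact val₁_transfer T.C1 T.C0 hχ hχ₀ T.s1 (pt_s1_ne_zero hP hχ) H.hE hv
    · obtain ⟨χ₁, hχ₁, hs₁⟩ := T.centred₁' _ hP
      have he : pull H.hB1 χ' = χ₁ := T.C1.centred_unique hχ hχ₁
      refine Or.inr ⟨hP, pull H.hB1 χ', hχ, ?_, hv⟩
      rw [he]; exact hs₁

/-- **weak direction, second component.** -/
theorem red₂_restrict (H : Hyp T T' φ ψ₁ ψ₂) (hφ : φ.toRingHom.IsIntegral)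
    (hψ₂ : ψ₂.toRingHom.IsIntegral) {P' : Place K F'} {Q' : Place (ResidueField A) Fb₂'}
    (h : T'.Red₂ P' Q') : T.Red₂ (P'.restrictAlong φ hφ) (Q'.restrictAlong ψ₂ hψ₂) := by
  rcases h with ⟨hP', χ', hχ', hv'⟩ | ⟨hP', χ', hχ', hs', hv'⟩
  · have hχ := centred_pull hφ H.hB0 hχ'
    have hP : T.Fin0 (P'.restrictAlong φ hφ) := by
      obtain ⟨a, ha, -⟩ := hχ T.t0
      exact ⟨a, ha⟩
    exact Or.inl ⟨hP, pull H.hB0 χ', hχ, val₂_pull H.h₂ hψ₂ H.hB0 hv'⟩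
  · have hχ := centred_pull hφ H.hB1 hχ'
    have hv := val₂_pull H.h₂ hψ₂ H.hB1 hv'
    by_cases hP : T.Fin0 (P'.restrictAlong φ hφ)
    · obtain ⟨χ₀, hχ₀⟩ := T.centred₀ _ hP
      refine Or.inl ⟨hP, χ₀, hχ₀, ?_⟩
      exact val₂_transfer T.C1 T.C0 hχ hχ₀ T.s1 (pt_s1_ne_zero hP hχ) H.hE hv
    · obtain ⟨χ₁, hχ₁, hs₁⟩ := T.centred₁' _ hP
      have he : pull H.hB1 χ' = χ₁ := T.C1.centred_unique hχ hχ₁
      refine Or.inr ⟨hP, pull H.hB1 χ', hχ, ?_, hv⟩
      rw [he]; exact hs₁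

/-- **(C-weak), first component**: `r₁' P' = some Q' → r₁ (P'|φ) = some (Q'|ψ₁)`. -/
theorem r₁_restrict_of_some (H : Hyp T T' φ ψ₁ ψ₂) (hφ : φ.toRingHom.IsIntegral)
    (hψ₁ : ψ₁.toRingHom.IsIntegral) {P' : Place K F'} {Q' : Place (ResidueField A) Fb₁'}
    (h : T'.r₁ P' = some Q') :
    T.r₁ (P'.restrictAlong φ hφ) = some (Q'.restrictAlong ψ₁ hψ₁) :=
  (T.r₁_eq_some_iff _ _).2 (red₁_restrict H hφ hψ₁ ((T'.r₁_eq_some_iff _ _).1 h))

/-- **(C-weak), second component**: `r₂' P' = some Q' → r₂ (P'|φ) = some (Q'|ψ₂)`. -/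
theorem r₂_restrict_of_some (H : Hyp T T' φ ψ₁ ψ₂) (hφ : φ.toRingHom.IsIntegral)
    (hψ₂ : ψ₂.toRingHom.IsIntegral) {P' : Place K F'} {Q' : Place (ResidueField A) Fb₂'}
    (h : T'.r₂ P' = some Q') :
    T.r₂ (P'.restrictAlong φ hφ) = some (Q'.restrictAlong ψ₂ hψ₂) :=
  (T.r₂_eq_some_iff _ _).2 (red₂_restrict H hφ hψ₂ ((T'.r₂_eq_some_iff _ _).1 h))

/-! ### the strong direction -/

theorem fin0_restrict_iff (ht : φ T.t = T'.t) (hφ : φ.toRingHom.IsIntegral) (P' : Place K F') :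
    T.Fin0 (P'.restrictAlong φ hφ) ↔ T'.Fin0 P' := by
  unfold TwoCharts.Fin0
  constructor
  · rintro ⟨a, ha⟩
    refine ⟨a, ?_⟩
    rw [← ht]
    exact (hasValue_restrictAlong φ hφ P' _ _).1 ha
  · rintro ⟨a, ha⟩
    refine ⟨a, (hasValue_restrictAlong φ hφ P' _ _).2 ?_⟩
    rw [ht]
    exact ha

theorem pullHom_s1 (H : Hyp T T' φ ψ₁ ψ₂) (ht : φ T.t = T'.t) : pullHom H.hB1 T.s1 = T'.s1 := by
  apply Subtype.ext
  show φ (T.t⁻¹) = T'.t⁻¹
  rw [map_inv₀, ht]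

/-- **(C-strong), first component**: `r₁ (P'|φ) = (r₁' P').map (·|ψ₁)` when `φ t = t'` and
going-down holds on both charts. -/
theorem r₁_restrict (H : Hyp T T' φ ψ₁ ψ₂) (ht : φ T.t = T'.t)
    (S0 : StrongHyp T.C0 T'.C0 φ) (S1 : StrongHyp T.C1 T'.C1 φ)
    (hφ : φ.toRingHom.IsIntegral) (hψ₁ : ψ₁.toRingHom.IsIntegral) (P' : Place K F') :
    T.r₁ (P'.restrictAlong φ hφ) = (T'.r₁ P').map (fun Q' => Q'.restrictAlong ψ₁ hψ₁) := by
  cases hr : T'.r₁ P' with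
  | some Q' =>
    rw [Option.map_some]
    exact r₁_restrict_of_some H hφ hψ₁ hr
  | none =>
    rw [Option.map_none]
    by_contra hne
    obtain ⟨Q, hQ⟩ := Option.ne_none_iff_exists'.1 hne
    have hred := (T.r₁_eq_some_iff _ _).1 hQ
    by_cases hP' : T'.Fin0 P'
    · obtain ⟨χ', hχ'⟩ := T'.centred₀ P' hP'
      have hP := (fin0_restrict_iff ht hφ P').2 hP'
      have hχ := centred_pull hφ H.hB0 hχ'
      have hv := (T.red₁_iff₀ hP hχ Q).1 hred
      have hon' : T'.C0.On₁ χ' := on₁_of_pull S0 H.h₂ H.hB0 (T.C0.on₁_of_val₁ hv)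
      obtain ⟨Q', hQ'⟩ := T'.val₁_exists₀ χ' hon'
      have h1 := (T'.r₁_eq_some_iff P' Q').2 ((T'.red₁_iff₀ hP' hχ' Q').2 hQ')
      rw [hr] at h1
      exact absurd h1 (by simp)
    · obtain ⟨χ', hχ', hs'⟩ := T'.centred₁' P' hP'
      have hP : ¬ T.Fin0 (P'.restrictAlong φ hφ) := fun h => hP' ((fin0_restrict_iff ht hφ P').1 h)
      have hχ := centred_pull hφ H.hB1 hχ'
      have hs : pull H.hB1 χ' T.s1 = 0 := by rw [pull_apply, pullHom_s1 H ht]; exact hs'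
      have hv := (T.red₁_iff₁ hP hχ hs Q).1 hred
      have hon' : T'.C1.On₁ χ' := on₁_of_pull S1 H.h₂ H.hB1 (T.C1.on₁_of_val₁ hv)
      obtain ⟨Q', hQ'⟩ := T'.val₁_exists₁ χ' hon'
      have h1 := (T'.r₁_eq_some_iff P' Q').2 ((T'.red₁_iff₁ hP' hχ' hs' Q').2 hQ')
      rw [hr] at h1
      exact absurd h1 (by simp)

/-- **(C-strong), second component.** -/
theorem r₂_restrict (H : Hyp T T' φ ψ₁ ψ₂) (ht : φ T.t = T'.t)
    (S0 : StrongHyp T.C0 T'.C0 φ) (S1 : StrongHyp T.C1 T'.C1 φ)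
    (hφ : φ.toRingHom.IsIntegral) (hψ₂ : ψ₂.toRingHom.IsIntegral) (P' : Place K F') :
    T.r₂ (P'.restrictAlong φ hφ) = (T'.r₂ P').map (fun Q' => Q'.restrictAlong ψ₂ hψ₂) := by
  cases hr : T'.r₂ P' with
  | some Q' =>
    rw [Option.map_some]
    exact r₂_restrict_of_some H hφ hψ₂ hr
  | none =>
    rw [Option.map_none]
    by_contra hne
    obtain ⟨Q, hQ⟩ := Option.ne_none_iff_exists'.1 hne
    have hred := (T.r₂_eq_some_iff _ _).1 hQ
    by_cases hP' : T'.Fin0 P'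
    · obtain ⟨χ', hχ'⟩ := T'.centred₀ P' hP'
      have hP := (fin0_restrict_iff ht hφ P').2 hP'
      have hχ := centred_pull hφ H.hB0 hχ'
      have hv := (T.red₂_iff₀ hP hχ Q).1 hred
      have hon' : T'.C0.On₂ χ' := on₂_of_pull S0 H.h₁ H.hB0 (T.C0.on₂_of_val₂ hv)
      obtain ⟨Q', hQ'⟩ := T'.val₂_exists₀ χ' hon'
      have h1 := (T'.r₂_eq_some_iff P' Q').2 ((T'.red₂_iff₀ hP' hχ' Q').2 hQ')
      rw [hr] at h1
      exact absurd h1 (by simp)
    · obtain ⟨χ', hχ', hs'⟩ := T'.centred₁' P' hP'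
      have hP : ¬ T.Fin0 (P'.restrictAlong φ hφ) := fun h => hP' ((fin0_restrict_iff ht hφ P').1 h)
      have hχ := centred_pull hφ H.hB1 hχ'
      have hs : pull H.hB1 χ' T.s1 = 0 := by rw [pull_apply, pullHom_s1 H ht]; exact hs'
      have hv := (T.red₂_iff₁ hP hχ hs Q).1 hred
      have hon' : T'.C1.On₂ χ' := on₂_of_pull S1 H.h₁ H.hB1 (T.C1.on₂_of_val₂ hv)
      obtain ⟨Q', hQ'⟩ := T'.val₂_exists₁ χ' hon'
      have h1 := (T'.r₂_eq_some_iff P' Q').2 ((T'.red₂_iff₁ hP' hχ' hs' Q').2 hQ')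
      rw [hr] at h1
      exact absurd h1 (by simp)

end TwoCharts

end Fermat.Agent.U44.RedCompat9
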