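/-
Programme U44 (stage 0), chapter (HECKE), block (H2) input (helper9): **(C-α) — reduction of places
commutes with the degeneracy map `α : X₀(M'ℓp) → X₀(M'p)`**, instance of `U44/RedCompat9`.

`h : LevelHyp p M' A`, `ℓ` a prime `≠ p`, `h' = LevelEll4.hEll h hℓ hℓp : LevelHyp p (M' ℓ) A`,
`T h`, `T h'` the two-chart models of chapter (e) (`T33/NodalInst4E`), `Nr = NodalInst4G.nodalRed h`,
`Nr' = nodalRed h'`, `αE = LevelEllB4.alphaE M' p ℓ : Fbar (M'p) → Fbar ((M'ℓ)p)`,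
`ᾱ = alphaC κ M' ℓ`, `β̄ = betaC κ M' ℓ`.

* functoriality of charts (`chart R t` = integral closure of `R[t]`): `map_mem_chart`,
  `chart_integral_over_image`, `chart_closed`, `map_mem_chart_of_mem`;
* `halfMap_alpha₁/₂`, `halfMap_beta₁/₂` (helper4's eight compatibilities, packaged);
* `alphaE_tA : αE (tA h) = tA h'`, `hyp_alpha : Hyp (T h) (T h') αE ᾱ β̄`,
  `strong_alpha₀`, `strong_alpha₁ : StrongHyp` (integrally closed, integral, separating elements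
  `t - y^p`, `y - t^p`, `s - z^p`, `z - s^p`);
* **`r₁_alpha`** : `Nr.r₁ (P'|αE) = (Nr'.r₁ P').map (·|ᾱ)`, **`r₂_alpha`** :
  `Nr.r₂ (P'|αE) = (Nr'.r₂ P').map (·|β̄)` (the roles of `ᾱ`, `β̄` are swapped on component 2);
* in helper4's shapes: `cα_1a`, `cα_1b` (weak), `cα_2` (going-down: a place over a node of level
  `M'p` is over a node of level `M'ℓp`).
-/
import Mathlib
import Fermat.Agent.U44.RedCompat9
import Fermat.Agent.U44.LevelEllB4
import Fermat.Agent.T33.NodalInst4G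

set_option autoImplicit false
set_option linter.unusedSectionVars false
set_option linter.unusedVariables false
set_option linter.style.haveILetI false
set_option synthInstance.maxHeartbeats 400000

open AlgebraicCurve IsLocalRing Polynomial

noncomputable section

namespace Fermat.Agent.U44.RedCompat9B

open HahnSeries ModularCurve IntermediateField
open Fermat.Agent.RED.Interface4 Fermat.Agent.ES.RED
  Fermat.Agent.RED.PUR.ChartGeneric22
  Fermat.Agent.T33.NodalCtx1 Fermat.Agent.T33.NodalCurve6 Fermat.Agent.T33.NodalPlaces1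
  Fermat.Agent.T33.NodalHalf4 Fermat.Agent.T33.NodalBase4A
  Fermat.Agent.T33.NodalInst4A Fermat.Agent.T33.NodalInst4C Fermat.Agent.T33.NodalInst4E
  Fermat.Agent.U44.DegreeC4 Fermat.Agent.U44.LevelEll4 Fermat.Agent.U44.LevelEllB4
  Fermat.Agent.U44.RedCompat9 Fermat.Agent.T33

/-! ### functoriality of charts -/

section ChartFunct

variable {R K F F' : Type*} [CommRing R] [Field K] [Field F] [Field F'] [Algebra R K]
  [Algebra K F] [Algebra K F'] [Algebra R F] [Algebra R F'] [IsScalarTower R K F]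
  [IsScalarTower R K F'] (φ : F →ₐ[K] F')

theorem map_algebraMap (r : R) : φ (algebraMap R F r) = algebraMap R F' r := by
  rw [IsScalarTower.algebraMap_apply R K F, φ.commutes, ← IsScalarTower.algebraMap_apply]

theorem map_mem_adjoin (t : F) {x : F} (hx : x ∈ Algebra.adjoin R {t}) :
    φ x ∈ Algebra.adjoin R {φ t} := by
  induction hx using Algebra.adjoin_induction with
  | mem y hy =>
    rw [Set.mem_singleton_iff] at hy
    subst hy
    exact Algebra.self_mem_adjoin_singleton R _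
  | algebraMap r =>
    rw [map_algebraMap]
    exact Subalgebra.algebraMap_mem _ r
  | add x y _ _ hx hy =>
    rw [map_add]
    exact add_mem hx hy
  | mul x y _ _ hx hy =>
    rw [map_mul]
    exact mul_mem hx hy

theorem exists_of_mem_adjoin (t : F) {y : F'} (hy : y ∈ Algebra.adjoin R {φ t}) :
    ∃ x ∈ Algebra.adjoin R {t}, φ x = y := by
  induction hy using Algebra.adjoin_induction with
  | mem y hy =>
    rw [Set.mem_singleton_iff] at hy
    subst hy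
    exact ⟨t, Algebra.self_mem_adjoin_singleton R t, rfl⟩
  | algebraMap r =>
    exact ⟨algebraMap R F r, Subalgebra.algebraMap_mem _ r, map_algebraMap φ r⟩
  | add x y _ _ hx hy =>
    obtain ⟨a, ha, rfl⟩ := hx
    obtain ⟨b, hb, rfl⟩ := hy
    exact ⟨a + b, add_mem ha hb, map_add φ a b⟩
  | mul x y _ _ hx hy =>
    obtain ⟨a, ha, rfl⟩ := hx
    obtain ⟨b, hb, rfl⟩ := hy
    exact ⟨a * b, mul_mem ha hb, map_mul φ a b⟩

/-- `φ` maps the chart of `t` into the chart of `φ t`. -/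
theorem map_mem_chart (t : F) {x : F} (hx : x ∈ chart R t) : φ x ∈ chart R (φ t) := by
  rw [mem_chart_iff, isIntegral_subalgebra_iff] at hx ⊢
  obtain ⟨P, hP, hcoeff, hPx⟩ := hx
  refine ⟨P.map (φ : F →+* F'), hP.map _, fun i => ?_, ?_⟩
  · rw [coeff_map]
    exact map_mem_adjoin φ t (hcoeff i)
  · have h2 : eval₂ (φ : F →+* F') ((φ : F →+* F') x) P = (φ : F →+* F') (eval x P) :=
      eval₂_at_apply _ _
    rw [eval_map]
    exact h2.trans (by rw [hPx, map_zero])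

/-- the chart of `φ t` is integral over the image of the chart of `t` (polynomial form). -/
theorem chart_integral_over_image (t : F) {y : F'} (hy : y ∈ chart R (φ t)) :
    ∃ P : F'[X], P.Monic ∧ (∀ i, ∃ b ∈ chart R t, φ b = P.coeff i) ∧ P.eval y = 0 := by
  rw [mem_chart_iff, isIntegral_subalgebra_iff] at hy
  obtain ⟨P, hP, hcoeff, hPy⟩ := hy
  refine ⟨P, hP, fun i => ?_, hPy⟩
  obtain ⟨x, hx, hxe⟩ := exists_of_mem_adjoin φ t (hcoeff i)
  exact ⟨x, adjoin_le_chart t hx, hxe⟩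

omit [Algebra R K] [Algebra K F] [IsScalarTower R K F] in
/-- a chart is integrally closed (polynomial form). -/
theorem chart_closed (t : F) (P : F[X]) (hP : P.Monic) (hc : ∀ i, P.coeff i ∈ chart R t) (x : F)
    (hx : P.eval x = 0) : x ∈ chart R t :=
  chart_intcl t x ((isIntegral_subalgebra_iff (chart R t) x).2 ⟨P, hP, hc, hx⟩)

/-- `φ` maps the chart of `t` into the chart of `t'` as soon as `φ t` lies in it. -/
theorem map_mem_chart_of_mem (t : F) (t' : F') (ht : φ t ∈ chart R t') {x : F}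
    (hx : x ∈ chart R t) : φ x ∈ chart R t' := by
  have h1 := map_mem_chart φ t hx
  rw [mem_chart_iff, isIntegral_subalgebra_iff] at h1
  obtain ⟨P, hP, hcoeff, hPx⟩ := h1
  refine chart_closed t' P hP (fun i => ?_) _ hPx
  have hle : Algebra.adjoin R {φ t} ≤ chart R t' :=
    Algebra.adjoin_le (Set.singleton_subset_iff.2 ht)
  exact hle (hcoeff i)

end ChartFunct

/-! ### the instance -/

variable {p M' : ℕ} [NeZero M'] [NeZero p] {A : ValuationSubring Qbar}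

/-- shortcut instance. -/
local instance (priority := high) algebraKFb9 (M : ℕ) [NeZero M] :
    Algebra (ResidueField ↥A) (Fb A M) := inferInstance

/-- shortcut instance. -/
local instance (priority := high) algebraAFbar9 (n : ℕ) [NeZero n] :
    Algebra ↥A ↥(Fbar n) := inferInstance

variable (h : LevelHyp p M' A) {ℓ : ℕ} [NeZero ℓ] (hℓ : ℓ.Prime) (hℓp : ℓ ≠ p)

/-! #### the four morphisms of Gauss rings -/

theorem halfMap_alpha₁ :
    HalfMap (c1 h) (c1 (hEll h hℓ hℓp)) (alphaE M' p ℓ) (alphaC (Setup8.kA A) M' ℓ) where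
  map_mem y hy := alphaE_mem₁ h hℓ hℓp hy
  ρ_map y hy hy' := rho_alphaE₁ h hℓ hℓp y hy

theorem halfMap_alpha₂ :
    HalfMap (c2 h) (c2 (hEll h hℓ hℓp)) (alphaE M' p ℓ) (betaC (Setup8.kA A) M' ℓ) where
  map_mem y hy := alphaE_mem₂ h hℓ hℓp hy
  ρ_map y hy hy' := rho_alphaE₂ h hℓ hℓp y hy

theorem halfMap_beta₁ :
    HalfMap (c1 h) (c1 (hEll h hℓ hℓp)) (betaE M' p ℓ) (betaC (Setup8.kA A) M' ℓ) where
  map_mem y hy := betaE_mem₁ h hℓ hℓp hy
  ρ_map y hy hy' := rho_betaE₁ h hℓ hℓp y hy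

theorem halfMap_beta₂ :
    HalfMap (c2 h) (c2 (hEll h hℓ hℓp)) (betaE M' p ℓ) (alphaC (Setup8.kA A) M' ℓ) where
  map_mem y hy := betaE_mem₂ h hℓ hℓp hy
  ρ_map y hy hy' := rho_betaE₂ h hℓ hℓp y hy

/-! #### the overlap of the charts of level `M' p` -/

theorem overlap (b : ↥(Fbar (M' * p))) (hb : b ∈ (T h).C0.B) :
    ∃ n : ℕ, (T h).t⁻¹ ^ n * b ∈ (T h).C1.B := by
  have hb' : b ∈ chart ↥A ((tA h)⁻¹)⁻¹ := by
    rw [inv_inv]
    exact (mem_C0_iff h b).1 hb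
  obtain ⟨n, hn⟩ := exists_pow_mul_mem_chart (R := ↥A) (inv_ne_zero (tA_ne_zero h)) hb'
  exact ⟨n, (mem_C1_iff h _).2 hn⟩

/-! #### `α` -/

theorem alphaE_tA : alphaE M' p ℓ (tA h) = tA (hEll h hℓ hℓp) :=
  Subtype.ext (by rw [coe_alphaE, coe_tA, coe_tA])

theorem alphaE_mem_C0 (b : ↥(Fbar (M' * p))) (hb : b ∈ (T h).C0.B) :
    alphaE M' p ℓ b ∈ (T (hEll h hℓ hℓp)).C0.B := by
  rw [mem_C0_iff, ← alphaE_tA h hℓ hℓp]
  exact map_mem_chart (R := ↥A) (alphaE M' p ℓ) (tA h) ((mem_C0_iff h b).1 hb)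

theorem alphaE_mem_C1 (b : ↥(Fbar (M' * p))) (hb : b ∈ (T h).C1.B) :
    alphaE M' p ℓ b ∈ (T (hEll h hℓ hℓp)).C1.B := by
  rw [mem_C1_iff, ← alphaE_tA h hℓ hℓp, ← map_inv₀]
  exact map_mem_chart (R := ↥A) (alphaE M' p ℓ) (tA h)⁻¹ ((mem_C1_iff h b).1 hb)

/-- **`α` is a morphism of the two-chart models.** -/
theorem hyp_alpha : Hyp (T h) (T (hEll h hℓ hℓp)) (alphaE M' p ℓ) (alphaC (Setup8.kA A) M' ℓ)
    (betaC (Setup8.kA A) M' ℓ) where
  h₁ := halfMap_alpha₁ h hℓ hℓp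
  h₂ := halfMap_alpha₂ h hℓ hℓp
  hB0 := alphaE_mem_C0 h hℓ hℓp
  hB1 := alphaE_mem_C1 h hℓ hℓp
  hE := overlap h

/-! #### separating elements -/

include h in
theorem two_le_pp : 2 ≤ p * p := by
  have := h.prime.two_le
  nlinarith

theorem sep₁_C0 : ∃ b : (T h).C0.B, (T h).C0.ρ₂ b = 0 ∧ (T h).C0.ρ₁ b ≠ 0 := by
  have V := rhoVals h
  refine ⟨(tB (inp h)) - (yB (inp h)) ^ p, ?_, ?_⟩
  · show (inp h).C0.ρ₂ ((tB (inp h)) - (yB (inp h)) ^ p) = 0
    rw [map_sub, map_pow, ρ₂_tB V, ρ₂_yB V, sub_self]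
  · show (inp h).C0.ρ₁ ((tB (inp h)) - (yB (inp h)) ^ p) ≠ 0
    rw [map_sub, map_pow, ρ₁_tB V, ρ₁_yB V, ← pow_mul]
    exact sub_pow_ne_zero (inp h).gen₁.transcendental (two_le_pp h)

theorem sep₂_C0 : ∃ b : (T h).C0.B, (T h).C0.ρ₁ b = 0 ∧ (T h).C0.ρ₂ b ≠ 0 := by
  have V := rhoVals h
  refine ⟨(yB (inp h)) - (tB (inp h)) ^ p, ?_, ?_⟩
  · show (inp h).C0.ρ₁ ((yB (inp h)) - (tB (inp h)) ^ p) = 0
    rw [map_sub, map_pow, ρ₁_tB V, ρ₁_yB V, sub_self]
  · show (inp h).C0.ρ₂ ((yB (inp h)) - (tB (inp h)) ^ p) ≠ 0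
    rw [map_sub, map_pow, ρ₂_tB V, ρ₂_yB V, ← pow_mul]
    exact sub_pow_ne_zero (inp h).gen₂.transcendental (two_le_pp h)

theorem sep₁_C1 : ∃ b : (T h).C1.B, (T h).C1.ρ₂ b = 0 ∧ (T h).C1.ρ₁ b ≠ 0 := by
  have V := rhoVals h
  refine ⟨(sB (inp h)) - (zB (inp h)) ^ p, ?_, ?_⟩
  · show (inp h).C1.ρ₂ ((sB (inp h)) - (zB (inp h)) ^ p) = 0
    rw [map_sub, map_pow, ρ₂_sB V, ρ₂_zB V, inv_pow, sub_self]
  · show (inp h).C1.ρ₁ ((sB (inp h)) - (zB (inp h)) ^ p) ≠ 0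
    rw [map_sub, map_pow, ρ₁_sB V, ρ₁_zB V, ← inv_pow, ← pow_mul]
    exact sub_pow_ne_zero
      (Fermat.Agent.ES.RED.SpecialFibre13.isGen_inv (inp h).gen₁).transcendental (two_le_pp h)

theorem sep₂_C1 : ∃ b : (T h).C1.B, (T h).C1.ρ₁ b = 0 ∧ (T h).C1.ρ₂ b ≠ 0 := by
  have V := rhoVals h
  refine ⟨(zB (inp h)) - (sB (inp h)) ^ p, ?_, ?_⟩
  · show (inp h).C1.ρ₁ ((zB (inp h)) - (sB (inp h)) ^ p) = 0
    rw [map_sub, map_pow, ρ₁_sB V, ρ₁_zB V, inv_pow, sub_self]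
  · show (inp h).C1.ρ₂ ((zB (inp h)) - (sB (inp h)) ^ p) ≠ 0
    rw [map_sub, map_pow, ρ₂_sB V, ρ₂_zB V, ← inv_pow, ← pow_mul]
    exact sub_pow_ne_zero
      (Fermat.Agent.ES.RED.SpecialFibre13.isGen_inv (inp h).gen₂).transcendental (two_le_pp h)

/-! #### going-down data -/

theorem strong_alpha₀ : StrongHyp (T h).C0 (T (hEll h hℓ hℓp)).C0 (alphaE M' p ℓ) where
  closed P hP hc x hx :=
    (mem_C0_iff h x).2 (chart_closed (R := ↥A) (tA h) P hP (fun i => (mem_C0_iff h _).1 (hc i)) x hx)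
  integral b' hb' := by
    have h1 : b' ∈ chart ↥A (alphaE M' p ℓ (tA h)) := by
      rw [alphaE_tA h hℓ hℓp]
      exact (mem_C0_iff (hEll h hℓ hℓp) b').1 hb'
    obtain ⟨P, hP, hc, hev⟩ := chart_integral_over_image (R := ↥A) (alphaE M' p ℓ) (tA h) h1
    refine ⟨P, hP, fun i => ?_, hev⟩
    obtain ⟨b, hb, hbe⟩ := hc i
    exact ⟨b, (mem_C0_iff h b).2 hb, hbe⟩
  sep₁ := sep₁_C0 h
  sep₂ := sep₂_C0 h

theorem strong_alpha₁ : StrongHyp (T h).C1 (T (hEll h hℓ hℓp)).C1 (alphaE M' p ℓ) where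
  closed P hP hc x hx :=
    (mem_C1_iff h x).2
      (chart_closed (R := ↥A) (tA h)⁻¹ P hP (fun i => (mem_C1_iff h _).1 (hc i)) x hx)
  integral b' hb' := by
    have h1 : b' ∈ chart ↥A (alphaE M' p ℓ (tA h)⁻¹) := by
      rw [map_inv₀, alphaE_tA h hℓ hℓp]
      exact (mem_C1_iff (hEll h hℓ hℓp) b').1 hb'
    obtain ⟨P, hP, hc, hev⟩ := chart_integral_over_image (R := ↥A) (alphaE M' p ℓ) (tA h)⁻¹ h1
    refine ⟨P, hP, fun i => ?_, hev⟩
    obtain ⟨b, hb, hbe⟩ := hc i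
    exact ⟨b, (mem_C1_iff h b).2 hb, hbe⟩
  sep₁ := sep₁_C1 h
  sep₂ := sep₂_C1 h

/-! #### (C-α) -/


/-- **(C-α), first component**: `r₁ (P'|α) = (r₁' P').map (·|ᾱ)`. -/
theorem r₁_alpha (hα : (alphaE M' p ℓ).toRingHom.IsIntegral)
    (hαb : (alphaC (Setup8.kA A) M' ℓ).toRingHom.IsIntegral)
    (P' : Place Qbar ↥(Fbar ((M' * ℓ) * p))) :
    (NodalInst4G.nodalRed h).r₁ (P'.restrictAlong (alphaE M' p ℓ) hα) =
      ((NodalInst4G.nodalRed (hEll h hℓ hℓp)).r₁ P').map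
        (fun Q' => Q'.restrictAlong (alphaC (Setup8.kA A) M' ℓ) hαb) :=
  r₁_restrict (hyp_alpha h hℓ hℓp) (alphaE_tA h hℓ hℓp) (strong_alpha₀ h hℓ hℓp)
    (strong_alpha₁ h hℓ hℓp) hα hαb P'

/-- **(C-α), second component** (the roles of `ᾱ`, `β̄` are swapped):
`r₂ (P'|α) = (r₂' P').map (·|β̄)`. -/
theorem r₂_alpha (hα : (alphaE M' p ℓ).toRingHom.IsIntegral)
    (hβb : (betaC (Setup8.kA A) M' ℓ).toRingHom.IsIntegral)
    (P' : Place Qbar ↥(Fbar ((M' * ℓ) * p))) :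
    (NodalInst4G.nodalRed h).r₂ (P'.restrictAlong (alphaE M' p ℓ) hα) =
      ((NodalInst4G.nodalRed (hEll h hℓ hℓp)).r₂ P').map
        (fun Q' => Q'.restrictAlong (betaC (Setup8.kA A) M' ℓ) hβb) :=
  r₂_restrict (hyp_alpha h hℓ hℓp) (alphaE_tA h hℓ hℓp) (strong_alpha₀ h hℓ hℓp)
    (strong_alpha₁ h hℓ hℓp) hα hβb P'

/-- (Cα-1a) in helper4's shape. -/
theorem cα_1a (hα : (alphaE M' p ℓ).toRingHom.IsIntegral)
    (hαb : (alphaC (Setup8.kA A) M' ℓ).toRingHom.IsIntegral)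
    (P' : Place Qbar ↥(Fbar ((M' * ℓ) * p))) (Q' : Place (Setup8.kA A) (Fb A (M' * ℓ)))
    (hQ' : (NodalInst4G.nodalRed (hEll h hℓ hℓp)).r₁ P' = some Q') :
    (NodalInst4G.nodalRed h).r₁ (P'.restrictAlong (alphaE M' p ℓ) hα) =
      some (Q'.restrictAlong (alphaC (Setup8.kA A) M' ℓ) hαb) := by
  rw [r₁_alpha h hℓ hℓp hα hαb P', hQ', Option.map_some]

/-- (Cα-1b) in helper4's shape. -/
theorem cα_1b (hα : (alphaE M' p ℓ).toRingHom.IsIntegral)
    (hβb : (betaC (Setup8.kA A) M' ℓ).toRingHom.IsIntegral)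
    (P' : Place Qbar ↥(Fbar ((M' * ℓ) * p))) (Q' : Place (Setup8.kA A) (Fb A (M' * ℓ)))
    (hQ' : (NodalInst4G.nodalRed (hEll h hℓ hℓp)).r₂ P' = some Q') :
    (NodalInst4G.nodalRed h).r₂ (P'.restrictAlong (alphaE M' p ℓ) hα) =
      some (Q'.restrictAlong (betaC (Setup8.kA A) M' ℓ) hβb) := by
  rw [r₂_alpha h hℓ hℓp hα hβb P', hQ', Option.map_some]

/-- **(Cα-2), going-down**: a place of level `M'ℓp` lying over a place which reduces to the second
component reduces to the second component. -/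
theorem cα_2 (hα : (alphaE M' p ℓ).toRingHom.IsIntegral)
    (hβb : (betaC (Setup8.kA A) M' ℓ).toRingHom.IsIntegral)
    (P' : Place Qbar ↥(Fbar ((M' * ℓ) * p)))
    (hP : (NodalInst4G.nodalRed h).r₂ (P'.restrictAlong (alphaE M' p ℓ) hα) ≠ none) :
    (NodalInst4G.nodalRed (hEll h hℓ hℓp)).r₂ P' ≠ none := by
  intro h0
  apply hP
  rw [r₂_alpha h hℓ hℓp hα hβb P', h0, Option.map_none]

/-- the twin of (Cα-2) on the first component. -/
theorem cα_2' (hα : (alphaE M' p ℓ).toRingHom.IsIntegral)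
    (hαb : (alphaC (Setup8.kA A) M' ℓ).toRingHom.IsIntegral)
    (P' : Place Qbar ↥(Fbar ((M' * ℓ) * p)))
    (hP : (NodalInst4G.nodalRed h).r₁ (P'.restrictAlong (alphaE M' p ℓ) hα) ≠ none) :
    (NodalInst4G.nodalRed (hEll h hℓ hℓp)).r₁ P' ≠ none := by
  intro h0
  apply hP
  rw [r₁_alpha h hℓ hℓp hα hαb P', h0, Option.map_none]

end Fermat.Agent.U44.RedCompat9B
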