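/-
Programme U44, chapter (HECKE), file 16 (helper4): **membership in the charts of the nodal model by
integrality** (input of the `β` half of the RedCompat instance).

`h : LevelHyp p M' A`, `s ∈ Fbar (M' p)` with finite-level chart models (`ChartModelAt`).  An element
`x` which is integral over `ℚ̄[s]` and lies in both Gauss rings `O₁`, `O₂` lies in the chart
`chart A s` (the integral closure of `A[s]`): descend to a number field `K` where `A ∩ K` is a
discrete valuation ring, clear the denominator and divide by the uniformiser using the saturation of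
the finite-level chart (`SatIntegral18.mem_of_isIntegral_field`).

* `mem_chart_of_isIntegral`, `mem_B0A_of_isIntegral`, `mem_B1A_of_isIntegral`.
-/
import Mathlib
import Fermat.Agent.T33.ChartOK5
import Fermat.Agent.ES.N34.ModEq23

set_option autoImplicit false
set_option linter.unusedSectionVars false
set_option linter.style.haveILetI false
set_option linter.unusedVariables false
set_option synthInstance.maxHeartbeats 400000

noncomputable section

namespace Fermat.Agent.U44.ChartInt4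

open HahnSeries ModularCurve IntermediateField AlgebraicCurve IsLocalRing
open Fermat.Agent.RED.Interface4 Fermat.Agent.RED.PUR.GaussGen8 Fermat.Agent.RED.DESC
  Fermat.Agent.RED.DESC.PlaceExtend27 Fermat.Agent.RED.DESC.NumberFieldDVR27
  Fermat.Agent.RED.PUR.ChartGeneric22 Fermat.Agent.RED.BASE.EtaQuot12
  Fermat.Agent.ES.RED Fermat.Agent.ES.N34.ModelN4 Fermat.Agent.ES.N34.FrickeFK8
  Fermat.Agent.ES.N34.NodalCore13 Fermat.Agent.ES.N34.NumData13 Fermat.Agent.ES.N34.ModelDefs9
  Fermat.Agent.T33.NodalCtx1 Fermat.Agent.T33.NodalHalf4 Fermat.Agent.T33.NodalBase4A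
  Fermat.Agent.T33.LocalReg5 Fermat.Agent.T33.LocalReg5B Fermat.Agent.T33.LocalReg5C
  Fermat.Agent.T33.ChartOK5

variable {p M' : ℕ} [NeZero M'] [NeZero p] {A : ValuationSubring Qbar}

/-- integrality over `R[s]` is preserved by `R`-algebra maps. -/
theorem isIntegral_adjoin_map {R F F' : Type*} [CommRing R] [CommRing F] [CommRing F']
    [Algebra R F] [Algebra R F'] (φ : F →ₐ[R] F') {s z : F}
    (h : IsIntegral (Algebra.adjoin R {s}) z) : IsIntegral (Algebra.adjoin R {φ s}) (φ z) := by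
  have hmem : ∀ a : Algebra.adjoin R {s}, φ (a : F) ∈ Algebra.adjoin R {φ s} := by
    intro a
    have h1 : φ (a : F) ∈ (Algebra.adjoin R {s}).map φ := ⟨a, a.2, rfl⟩
    rwa [AlgHom.map_adjoin, Set.image_singleton] at h1
  let θ : Algebra.adjoin R {s} →+* Algebra.adjoin R {φ s} :=
    { toFun := fun a => ⟨φ (a : F), hmem a⟩
      map_one' := Subtype.ext (map_one φ)
      map_mul' := fun a b => Subtype.ext (map_mul φ _ _)
      map_zero' := Subtype.ext (map_zero φ)
      map_add' := fun a b => Subtype.ext (map_add φ _ _) }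
  exact IsIntegral.map_of_comp_eq θ φ.toRingHom (by ext a; rfl) h

/-- integrality over `ℚ̄[s]` descends along the base change `K·F_N → ℚ̄·F_N`. -/
theorem isIntegral_descend (N : ℕ) (K : IntermediateField ℚ Qbar) (sK xK : FK N K)
    (hx : IsIntegral (Algebra.adjoin Qbar {baseChangeHom N K sK}) (baseChangeHom N K xK)) :
    IsIntegral (Algebra.adjoin ↥K {sK}) xK := by
  have hA := isIntegral_adjoin_map (Fbar N).val hx
  have e1 : (Fbar N).val (baseChangeHom N K sK) =
      coeffMap (algebraMap ↥K Qbar) (sK : LaurentSeries ↥K) := coe_baseChangeHom N K sK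
  have e2 : (Fbar N).val (baseChangeHom N K xK) =
      coeffMap (algebraMap ↥K Qbar) (xK : LaurentSeries ↥K) := coe_baseChangeHom N K xK
  rw [e1, e2] at hA
  exact Fermat.Agent.ES.N34.ModEq23.isIntegral_of_coe K (FK N K)
    (Fermat.Agent.ES.N34.ModEq23.descend K hA)

set_option maxHeartbeats 4000000 in
/-- **integral over `ℚ̄[s]` and in both Gauss rings ⟹ in the chart.** -/
theorem mem_chart_of_isIntegral (h : LevelHyp p M' A) (s : Fbar (M' * p))
    (hmodel : Large (ChartModelAt p M' A s)) (x : Fbar (M' * p))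
    (hx : IsIntegral (Algebra.adjoin Qbar {s}) x) (h1 : x ∈ (c1 h).O) (h2 : x ∈ (c2 h).O) :
    x ∈ chart ↥A s := by
  obtain ⟨K, hnor, hfd, ⟨⟨⟨hM, ⟨xK, hxK⟩⟩, hx1K⟩, hx2K⟩⟩ :=
    Large.exists_field (((hmodel.and (large_descent (M' * p) x)).and
      (large_mem_gauss A (M' * p) x ((mem_O1_iff_redA h x).1 h1))).and
      (large_mem_gauss_fricke A (M' * p) x
        ((mem_O1_iff_redA h _).1 ((Fermat.Agent.T33.NodalHalf4.mem_O2_iff h x).1 h2))))
  obtain ⟨sK, hE, hsK, hC⟩ := hM
  haveI := hfd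
  obtain ⟨π, hπ⟩ := exists_unif h K
  have C := hC π hπ
  have hx1' : xK ∈ Fermat.Agent.ES.N34.ModelDefs9.O1 M' p hπ hE :=
    (Fermat.Agent.ES.N34.ModelDefs9.mem_O1_iff M' p hπ hE xK).2 (hx1K xK hxK)
  have hx2' : xK ∈ Fermat.Agent.ES.N34.ModelDefs9.O2 M' p hπ hE :=
    (Fermat.Agent.ES.N34.ModelDefs9.mem_O2_iff M' p hπ hE xK).2 (hx2K xK hxK)
  have hint : IsIntegral (Algebra.adjoin ↥K {sK}) xK := by
    apply isIntegral_descend (M' * p) K sK xK
    rw [hsK, hxK]
    exact hx
  have hB : ∀ y : ↥(FK (M' * p) K), IsIntegral (Algebra.adjoin ↥(AK A K) {sK}) y →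
      y ∈ chart ↥(AK A K) sK := fun y hy => mem_chart_iff.2 hy
  have hdvr := C.dvrR
  have hπ1 := C.leO1 _ (Subalgebra.algebraMap_mem (chart ↥(AK A K) sK) π)
  have hπ2 := C.leO2 _ (Subalgebra.algebraMap_mem (chart ↥(AK A K) sK) π)
  have hsat := C.sat
  have hmem : xK ∈ chart ↥(AK A K) sK :=
    Fermat.Agent.ES.N34.SatIntegral18.mem_of_isIntegral_field (R := ↥(AK A K)) (K := ↥K)
      (F := ↥(FK (M' * p) K)) π hdvr sK (chart ↥(AK A K) sK) hB
      (Fermat.Agent.ES.N34.ModelDefs9.O1 M' p hπ hE) (Fermat.Agent.ES.N34.ModelDefs9.O2 M' p hπ hE)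
      hπ1 hπ2 hsat hint hx1' hx2'
  have h4 := ChartUnion1.baseChangeHom_mem_chart A (M' * p) K sK xK hmem
  rwa [hsK, hxK] at h4

/-- the chart `0`. -/
theorem mem_B0A_of_isIntegral (h : LevelHyp p M' A) (x : Fbar (M' * p))
    (hx : IsIntegral (Algebra.adjoin Qbar {tA h}) x) (h1 : x ∈ (c1 h).O) (h2 : x ∈ (c2 h).O) :
    x ∈ B0A h :=
  mem_chart_of_isIntegral h (tA h) (large_chartModel_zero h (tA h) (coe_tA h)) x hx h1 h2

/-- the chart `1`. -/
theorem mem_B1A_of_isIntegral (h : LevelHyp p M' A) (x : Fbar (M' * p))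
    (hx : IsIntegral (Algebra.adjoin Qbar {(tA h)⁻¹}) x) (h1 : x ∈ (c1 h).O)
    (h2 : x ∈ (c2 h).O) : x ∈ B1A h :=
  mem_chart_of_isIntegral h (tA h)⁻¹ (large_chartModel_one h (tA h) (coe_tA h)) x hx h1 h2

end Fermat.Agent.U44.ChartInt4
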