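/-
Programme U44 (S44), chapter (HECKE), block (H3), INSTANCE layer (helper1):
**the two étale maps `E₁, E₂ : Jf → J₀(M')_κ [p]` of `X₀(M'p)` over `A`** (non-Hecke half of (H3)).

`h : LevelHyp p M' A`, `J = JZero (M' * p) = Pic⁰(Fbar (M'p))`, `κ = Setup8.kA A`,
`JZeroC κ M' = Pic⁰(Fb A M')`, `c1 h`, `c2 h` the two components, `nodalRed h` the nodal context.

* `Rel₁ h x e`, `Rel₂ h x e` : "`e` is the étale image of `x` on the component `i`"
  (`EtaleAbs1.Rel (c_i h) p`);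
* `Jf₁ h`, `Jf₂ h`, `Jf h = Jf₁ h ⊓ Jf₂ h : AddSubgroup (JZero (M' * p))`;
  `E₁ h : Jf₁ h →+ JZeroC κ M'`, `E₂ h : Jf₂ h →+ JZeroC κ M'`; `E₁_spec`, `E₂_spec`, `p_smul_E₁`,
  `p_smul_E₂`, `p_smul_of_mem_Jf`;
* **`rel_zero_both_iff`** : `Rel₁ h x 0 ∧ Rel₂ h x 0 ↔ x ∈ Psi3D.formalTwo A (M' * p) p ∧ p • x = 0`
  — the common kernel of `E₁, E₂` is `G = formalTwo ∩ J[p]` (the kernel of `Ψ` of programme T);
* **`E_eq_zero_iff`** : for `x ∈ Jf h`: `E₁ x = 0 ∧ E₂ x = 0 ↔ x ∈ formalTwo A (M' * p) p`;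
* `mem_Jf_of_nodes` : `[D] ∈ Jf h` as soon as the slopes of a Kummer datum at the branches `s1 k`
  of all the nodes are divisible by `p` (given annulus coordinates of thickness one);
* **`exists_eigen_of_rel`** : the eigenvector, from functoriality of `Rel₁`, `Rel₂` (to be supplied
  by (H1)): `V ≤ Jf h`, `V ⊄ formalTwo`, `T i = a i` on `V` ⟹ a nonzero `e ∈ JZeroC κ M'`,
  `p e = 0`, with `Tb₁ i e = a i • e` for all `i`, or the same with `Tb₂`.
-/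
import Mathlib
import Fermat.Agent.U44.EtaleTwo1
import Fermat.Agent.U44.EtaleNodal1
import Fermat.Agent.T33.NodalBridge0
import Fermat.Agent.T33.NodalInst4G
import Fermat.Agent.T33.FrickeRed3B

set_option autoImplicit false
set_option linter.unusedSectionVars false
set_option linter.style.haveILetI false
set_option linter.unusedVariables false
set_option synthInstance.maxHeartbeats 400000

noncomputable section

namespace Fermat.Agent.U44.EtaleInst1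

open HahnSeries ModularCurve AlgebraicCurve IsLocalRing
open Fermat.Agent.RED.Interface4 Fermat.Agent.ES.RED
open Fermat.Agent.T33.Psi3B Fermat.Agent.T33.Psi3C Fermat.Agent.T33.Psi3D Fermat.Agent.T33.Psi3F
open Fermat.Agent.T33.NodalCtx1 Fermat.Agent.T33.NodalCurve6 Fermat.Agent.T33.NodalHalf4
  Fermat.Agent.T33.NodalInst4A Fermat.Agent.T33.NodalInst4C Fermat.Agent.T33.NodalInst4E
  Fermat.Agent.T33.FrickeRed3 Fermat.Agent.T33.NodalBridge0
  Fermat.Agent.RR.LSpace Fermat.Agent.X0.FF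
  Fermat.Agent.U44.GaussRed3 Fermat.Agent.U44.EtaleAbs1 Fermat.Agent.U44.EtaleTwo1
  Fermat.Agent.U44.Annulus3

variable {p M' : ℕ} [NeZero M'] [NeZero p] {A : ValuationSubring Qbar}

/-- shortcut instance. -/
local instance (priority := high) algebraAFbarN1e : Algebra ↥A ↥(Fbar (M' * p)) := inferInstance

/-- shortcut instance. -/
local instance (priority := high) algebraKFb1e : Algebra (Setup8.kA A) (Fb A M') := inferInstance

variable (h : LevelHyp p M' A)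

/-! ### the relations, the domains, the maps -/

/-- "`e` is the étale image of `x` on the first component". -/
abbrev Rel₁ (x : JZero (M' * p)) (e : JZeroC (Setup8.kA A) M') : Prop := Rel (c1 h) p x e

/-- "`e` is the étale image of `x` on the second component". -/
abbrev Rel₂ (x : JZero (M' * p)) (e : JZeroC (Setup8.kA A) M') : Prop := Rel (c2 h) p x e

/-- the classes having an étale image on the first component. -/
def Jf₁ : AddSubgroup (JZero (M' * p)) := EtaleAbs1.Jf (c1 h) p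

/-- the classes having an étale image on the second component. -/
def Jf₂ : AddSubgroup (JZero (M' * p)) := EtaleAbs1.Jf (c2 h) p

/-- **the classes having étale images on both components.** -/
def Jf : AddSubgroup (JZero (M' * p)) := Jf₁ h ⊓ Jf₂ h

theorem Jf_le₁ : Jf h ≤ Jf₁ h := inf_le_left

theorem Jf_le₂ : Jf h ≤ Jf₂ h := inf_le_right

/-- **the étale map of the first component.** -/
def E₁ : Jf₁ h →+ JZeroC (Setup8.kA A) M' := EtaleAbs1.E (c1 h) (lHyp h) (NeZero.ne p)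

/-- **the étale map of the second component.** -/
def E₂ : Jf₂ h →+ JZeroC (Setup8.kA A) M' := EtaleAbs1.E (c2 h) (lHyp h) (NeZero.ne p)

theorem E₁_spec (x : Jf₁ h) : Rel₁ h (x : JZero (M' * p)) (E₁ h x) :=
  E_spec (lHyp h) (NeZero.ne p) x

theorem E₂_spec (x : Jf₂ h) : Rel₂ h (x : JZero (M' * p)) (E₂ h x) :=
  E_spec (lHyp h) (NeZero.ne p) x

theorem E₁_eq_of_rel (x : Jf₁ h) {e : JZeroC (Setup8.kA A) M'}
    (he : Rel₁ h (x : JZero (M' * p)) e) : E₁ h x = e :=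
  E_eq_of_rel (lHyp h) (NeZero.ne p) x he

theorem E₂_eq_of_rel (x : Jf₂ h) {e : JZeroC (Setup8.kA A) M'}
    (he : Rel₂ h (x : JZero (M' * p)) e) : E₂ h x = e :=
  E_eq_of_rel (lHyp h) (NeZero.ne p) x he

theorem p_smul_E₁ (x : Jf₁ h) : p • E₁ h x = 0 := (E₁_spec h x).p_smul_right

theorem p_smul_E₂ (x : Jf₂ h) : p • E₂ h x = 0 := (E₂_spec h x).p_smul_right

theorem p_smul_of_mem_Jf₁ {x : JZero (M' * p)} (hx : x ∈ Jf₁ h) : p • x = 0 :=
  EtaleAbs1.p_smul_of_mem_Jf hx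

theorem p_smul_of_mem_Jf {x : JZero (M' * p)} (hx : x ∈ Jf h) : p • x = 0 :=
  p_smul_of_mem_Jf₁ h hx.1

/-! ### the common kernel is the formal part -/

theorem upair_eq : Upair (c1 h) (c2 h) = Utwo A (M' * p) := by
  funext b
  cases b
  · show pu (c1 h) = puOne A (M' * p)
    exact pu_c1 h
  · show pu (c2 h) = puTwo A (M' * p)
    exact pu_c2 h

/-- **the common kernel of the two étale maps is `formalTwo ∩ J[p]`.** -/
theorem rel_zero_both_iff {x : JZero (M' * p)} :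
    (Rel₁ h x 0 ∧ Rel₂ h x 0) ↔ x ∈ formalTwo A (M' * p) p ∧ p • x = 0 := by
  rw [EtaleTwo1.rel_zero_both_iff (lHyp h) (lHypFb h) (lHypFb h) (c1_ρ_surjective h)
    (c2_ρ_surjective h), inG_iff_formal (lHyp h) (lHypFb h) (lHypFb h) (NeZero.ne p), upair_eq h]
  rfl

/-- **`E₁ x = 0 ∧ E₂ x = 0 ↔ x ∈ formalTwo`.** -/
theorem E_eq_zero_iff {x : JZero (M' * p)} (hx : x ∈ Jf h) :
    (E₁ h ⟨x, hx.1⟩ = 0 ∧ E₂ h ⟨x, hx.2⟩ = 0) ↔ x ∈ formalTwo A (M' * p) p := by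
  constructor
  · rintro ⟨h1, h2⟩
    have r1 : Rel₁ h x 0 := h1 ▸ E₁_spec h ⟨x, hx.1⟩
    have r2 : Rel₂ h x 0 := h2 ▸ E₂_spec h ⟨x, hx.2⟩
    exact ((rel_zero_both_iff h).1 ⟨r1, r2⟩).1
  · intro hf
    obtain ⟨r1, r2⟩ := (rel_zero_both_iff h).2 ⟨hf, p_smul_of_mem_Jf h hx⟩
    exact ⟨E₁_eq_of_rel h ⟨x, hx.1⟩ r1, E₂_eq_of_rel h ⟨x, hx.2⟩ r2⟩

/-! ### the domain, through the slopes at the nodes -/

/-- **`[D] ∈ Jf h` from the slopes at the nodes.** -/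
theorem mem_Jf_of_nodes
    (X : ∀ k, AnnCoord (Fermat.Agent.T33.NodalInst4G.nodalRed h) k)
    (hy₂ : ∀ k, ((Nd h).s2 k).ord (red (c2 h) (X k).y₂) = -1)
    {D : Divisor.degZero (K := Qbar) (F := ↥(Fbar (M' * p)))} {f : ↥(Fbar (M' * p))}
    {c₁ c₂ : Qbar} (hk₁ : KData (c1 h) p D f c₁) (hk₂ : KData (c2 h) p D f c₂)
    (hnode : ∀ k, (p : ℤ) ∣
      ((Nd h).s1 k).ord (red (c1 h) (algebraMap Qbar ↥(Fbar (M' * p)) c₁ * f))) :
    Pic0.mk D ∈ Jf h :=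
  EtaleNodal1.mem_Jf_of_nodes (N := Fermat.Agent.T33.NodalInst4G.nodalRed h) (lHypFb h) (lHypFb h)
    X hy₂ (NeZero.ne p) hk₁ hk₂ hnode

/-- Kummer data exist for every `p`-torsion class. -/
theorem exists_kdata {x : JZero (M' * p)} (hx : p • x = 0) :
    ∃ (D : Divisor.degZero (K := Qbar) (F := ↥(Fbar (M' * p)))) (f : ↥(Fbar (M' * p)))
      (c₁ c₂ : Qbar), x = Pic0.mk D ∧ KData (c1 h) p D f c₁ ∧ KData (c2 h) p D f c₂ := by
  obtain ⟨D, rfl⟩ := Pic0.mk_surjective x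
  have hx' : Pic0.mk (p • D) = 0 := hx
  obtain ⟨f, hf0, hf⟩ := exists_ord_of_mk_eq_zero hx'
  have hf' : ∀ P : Place Qbar ↥(Fbar (M' * p)),
      P.ord f = p * (D : Divisor Qbar ↥(Fbar (M' * p))) P := by
    intro P
    rw [← hf P]
    simp
  obtain ⟨c₁, -, h₁⟩ := Fermat.Agent.U44.SlopeIndep3.exists_isGU (c1 h) hf0
  obtain ⟨c₂, -, h₂⟩ := Fermat.Agent.U44.SlopeIndep3.exists_isGU (c2 h) hf0
  exact ⟨D, f, c₁, c₂, rfl, ⟨hf0, hf', h₁⟩, ⟨hf0, hf', h₂⟩⟩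

/-! ### the eigenvector -/

/-- **the eigenvector**, from functoriality of `Rel₁`, `Rel₂` under the operators. -/
theorem exists_eigen_of_rel (V : AddSubgroup (JZero (M' * p))) (hV : V ≤ Jf h)
    (hVG : ¬ V ≤ formalTwo A (M' * p) p)
    {ι : Type*} (S : Set ι) (T : ι → JZero (M' * p) →+ JZero (M' * p)) (a : ι → ℤ)
    (hT : ∀ i ∈ S, ∀ w ∈ V, T i w = a i • w)
    (Tb₁ Tb₂ : ι → JZeroC (Setup8.kA A) M' →+ JZeroC (Setup8.kA A) M')
    (hmap₁ : ∀ i ∈ S, ∀ (x : JZero (M' * p)) (e : JZeroC (Setup8.kA A) M'),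
      Rel₁ h x e → Rel₁ h (T i x) (Tb₁ i e))
    (hmap₂ : ∀ i ∈ S, ∀ (x : JZero (M' * p)) (e : JZeroC (Setup8.kA A) M'),
      Rel₂ h x e → Rel₂ h (T i x) (Tb₂ i e)) :
    ∃ v ∈ V,
      (∃ e : JZeroC (Setup8.kA A) M', Rel₁ h v e ∧ e ≠ 0 ∧ p • e = 0 ∧
        ∀ i ∈ S, Tb₁ i e = a i • e) ∨
      (∃ e : JZeroC (Setup8.kA A) M', Rel₂ h v e ∧ e ≠ 0 ∧ p • e = 0 ∧
        ∀ i ∈ S, Tb₂ i e = a i • e) := by
  obtain ⟨v, hv, hvG⟩ := SetLike.not_le_iff_exists.1 hVG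
  refine ⟨v, hv, ?_⟩
  have hvG' : ¬ (Rel₁ h v 0 ∧ Rel₂ h v 0) := fun hh => hvG ((rel_zero_both_iff h).1 hh).1
  exact exists_eigen_abs (lHyp h) (NeZero.ne p) V (fun w hw => (hV hw).1) (fun w hw => (hV hw).2)
    hv hvG' S T a hT Tb₁ Tb₂ hmap₁ hmap₂

end Fermat.Agent.U44.EtaleInst1
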