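/-
Programme U44, chapter (HECKE), file 13 (helper4): **twisting a one-sided reduction context by an
automorphism of the residue function field** (abstract layer for the second component).

`R : HalfRed A F Fb`, `σ : Fb ≃ₐ[κ] Fb`.  `twist R σ` has the same Gauss ring and the reduction
`σ ∘ R.ρ`.  It has the same Gauss units, the same principal units, the same Kummer data, and
`red (twist R σ) y = σ (red R y)`.  Consequences for the étale relation of `EtaleAbs1`:

* `rel_zero_twist_iff` : `Rel (twist R σ) p x 0 ↔ Rel R p x 0` (same kernel);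
* `Jf_le_twist` : `Jf R p ≤ Jf (twist R σ) p`.

For `X₀(M'p)` the second component twisted by `W̄` turns the transposed Hecke correspondence
`β̄_* ᾱ^*` into `ᾱ_* β̄^*` (file `EtaleHecke4`).
-/
import Mathlib
import Fermat.Agent.U44.EtaleAbs1
import Fermat.Prelude.Def_AlgebraicCurve_Correspondence

set_option autoImplicit false
set_option linter.unusedSectionVars false
set_option linter.unusedVariables false

open AlgebraicCurve IsLocalRing

noncomputable section

namespace Fermat.Agent.U44.TwistRed4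

open Fermat.Agent.T33.NodalCtx1 Fermat.Agent.U44.GaussRed3 Fermat.Agent.RR.LSpace
  Fermat.Agent.X0.FF Fermat.Agent.U44.SlopeIndep3 Fermat.Agent.T33.Psi3B Fermat.Agent.T33.Psi3F
  Fermat.Agent.U44.EtaleAbs1

variable {K : Type*} [Field K] {A : ValuationSubring K}
variable {F : Type*} [Field F] [Algebra K F]
variable {Fb : Type*} [Field Fb] [Algebra (ResidueField A) Fb] (R : HalfRed A F Fb)
variable (σ : Fb ≃ₐ[ResidueField A] Fb)

/-- **the reduction context twisted by an automorphism of the residue function field.** -/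
def twist : HalfRed A F Fb where
  O := R.O
  ρ := (σ : Fb →+* Fb).comp R.ρ
  algebraMap_mem := R.algebraMap_mem
  ρ_algebraMap a := by
    show σ (R.ρ ⟨algebraMap K F (a : K), R.algebraMap_mem a⟩) = _
    rw [R.ρ_algebraMap a]
    exact σ.commutes _
  ρ_ker y hy := R.ρ_ker y (by
    have h1 : σ (R.ρ y) = 0 := hy
    exact (map_eq_zero_iff σ σ.injective).1 h1)
  gauss f hf := by
    obtain ⟨c, hc, h, hne⟩ := R.gauss f hf
    refine ⟨c, hc, h, ?_⟩
    show σ (R.ρ ⟨algebraMap K F c * f, h⟩) ≠ 0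
    rw [Ne, map_eq_zero_iff σ σ.injective]
    exact hne

theorem twist_O : (twist R σ).O = R.O := rfl

theorem twist_ρ (y : R.O) : (twist R σ).ρ y = σ (R.ρ y) := rfl

theorem red_twist (y : F) : red (twist R σ) y = σ (red R y) := by
  by_cases hy : y ∈ R.O
  · rw [red_of_mem (twist R σ) (show y ∈ (twist R σ).O from hy), red_of_mem R hy]
    rfl
  · classical
    unfold red
    rw [dif_neg (show ¬ y ∈ (twist R σ).O from hy), dif_neg hy, map_zero]

theorem isGU_twist_iff {y : F} : IsGU (twist R σ) y ↔ IsGU R y := by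
  constructor
  · rintro ⟨h1, h2⟩
    refine ⟨h1, ?_⟩
    rw [red_twist] at h2
    intro h0
    exact h2 (by rw [h0, map_zero])
  · rintro ⟨h1, h2⟩
    refine ⟨h1, ?_⟩
    rw [red_twist, Ne, map_eq_zero_iff σ σ.injective]
    exact h2

theorem pu_twist : pu (twist R σ) = pu R := by
  ext u
  rw [mem_pu_iff, mem_pu_iff]
  constructor
  · rintro ⟨h, h1⟩
    refine ⟨h, ?_⟩
    have h2 : σ (R.ρ ⟨(u : F), h⟩) = 1 := h1
    rw [← map_one σ] at h2
    exact σ.injective h2
  · rintro ⟨h, h1⟩
    refine ⟨h, ?_⟩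
    show σ (R.ρ ⟨(u : F), h⟩) = 1
    rw [h1, map_one]

theorem kdata_twist_iff {p : ℕ} {D : Divisor.degZero (K := K) (F := F)} {f : F} {c : K} :
    KData (twist R σ) p D f c ↔ KData R p D f c := by
  constructor
  · rintro ⟨h1, h2, h3⟩
    exact ⟨h1, h2, (isGU_twist_iff R σ).1 h3⟩
  · rintro ⟨h1, h2, h3⟩
    exact ⟨h1, h2, (isGU_twist_iff R σ).2 h3⟩

theorem twist_ρ_surjective (hs : Function.Surjective R.ρ) :
    Function.Surjective (twist R σ).ρ := by
  intro z
  obtain ⟨y, hy⟩ := hs (σ.symm z)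
  refine ⟨y, ?_⟩
  show σ (R.ρ y) = z
  rw [hy, AlgEquiv.apply_symm_apply]

/-- **the twisted context has the same kernel.** -/
theorem rel_zero_twist_iff (Hb : LHyp (ResidueField A) Fb) (hsurj : Function.Surjective R.ρ)
    {p : ℕ} {x : Pic0 K F} : Rel (twist R σ) p x 0 ↔ Rel R p x 0 := by
  rw [rel_zero_iff Hb (twist_ρ_surjective R σ hsurj), rel_zero_iff Hb hsurj, pu_twist]

/-- **the twisted context has a larger domain**, as soon as `σ` preserves divisibility of divisors
by `p`. -/
theorem Jf_le_twist (H : LHyp K F) (Hb : LHyp (ResidueField A) Fb) {p : ℕ} (hp : p ≠ 0)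
    (hσ : ∀ u : Fb, (∀ Q : Place (ResidueField A) Fb, (p : ℤ) ∣ Q.ord u) →
      ∀ Q : Place (ResidueField A) Fb, (p : ℤ) ∣ Q.ord (σ u)) :
    Jf R p ≤ Jf (twist R σ) p := by
  intro x hx
  obtain ⟨e, D, f, c, Db, hk, rfl, hQ, -⟩ := id hx
  have hk' : KData (twist R σ) p D f c := (kdata_twist_iff R σ).2 hk
  refine mem_Jf_of_dvd Hb hp hk' (fun Q => ?_)
  rw [red_twist]
  exact hσ _ (fun Q' => dvd_of_mem_Jf H hk hx Q') Q

/-- an automorphism of a function field preserves divisibility of divisors. -/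
theorem dvd_ord_map {κ : Type*} [Field κ] {E : Type*} [Field E] [Algebra κ E] (τ : E ≃ₐ[κ] E)
    (n : ℤ) (u : E) (hu : ∀ Q : Place κ E, n ∣ Q.ord u) (Q : Place κ E) :
    n ∣ Q.ord (τ u) := by
  have hτ : (τ : E →ₐ[κ] E).toRingHom.IsIntegral := by
    intro z
    refine ⟨Polynomial.X - Polynomial.C (τ.symm z), Polynomial.monic_X_sub_C _, ?_⟩
    simp
  have h1 := Place.ord_restrictAlong (τ : E →ₐ[κ] E) hτ Q u
  have h2 : Q.ord (τ u) = Q.ord ((τ : E →ₐ[κ] E) u) := rfl
  rw [h2, h1]
  exact Dvd.dvd.mul_left (hu _) _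

end Fermat.Agent.U44.TwistRed4
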