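/-
Programme U44, chapter (HECKE), file 14 (helper4): **the étale maps are Hecke-equivariant; the
eigenvector on the special fibre** (Hecke half of (H3)).

`h : LevelHyp p M' A`, `ℓ ≠ p` prime, `ℓ ∤ M'`, `T_ℓ = heckeOperatorBar (M' p) ℓ` on
`J₀(M'p) = JZero (M' * p)`, `T̄_ℓ = HeckeC4.heckeC` (`= ᾱ_* β̄^*`) on `JZeroC κ M'`, `T̄_ℓᵗ = heckeCt`.
`Rel₁ h`, `Rel₂ h` are the étale relations of helper1's `EtaleInst1`.

* `normAlong_equiv` : transport of the norm along automorphisms intertwining two embeddings;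
* `rel_hecke₁ : Rel₁ h x e → Rel₁ h (T_ℓ x) (T̄_ℓ e)`;
* `rel_hecke₂ : Rel₂ h x e → Rel₂ h (T_ℓ x) (T̄_ℓᵗ e)` (the correspondence is transposed on the
  second component);
* `c2W h := twist (c2 h) W̄`, `Rel₂W h := Rel (c2W h) p` : the second component read through the
  reduced Fricke involution; `rel_hecke₂W : Rel₂W h x e → Rel₂W h (T_ℓ x) (T̄_ℓ e)` (untransposed);
* **`exists_eigen_of_Jf`** : `V ≤ Jf h`, `V ⊄ formalTwo`, `T_l = a_l` on `V` for `l ∈ G` ⟹ a nonzero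
  `y ∈ JZeroC κ M'` with `p y = 0` and `T̄_l y = a_l y` for all `l ∈ G` (and `y` is the étale image
  of some `v ∈ V` on the first component, or on the `W̄`-twisted second component);
* **`exists_eigen`** : the same from the slope condition at the nodes (given annulus coordinates).
-/
import Mathlib
import Fermat.Agent.U44.DatumHecke4
import Fermat.Agent.U44.TwistRed4
import Fermat.Agent.U44.EtaleInst1

set_option autoImplicit false
set_option linter.unusedSectionVars false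
set_option linter.style.haveILetI false
set_option linter.unusedVariables false
set_option synthInstance.maxHeartbeats 400000

noncomputable section

namespace Fermat.Agent.U44.EtaleHecke4

open HahnSeries ModularCurve IntermediateField IsLocalRing AlgebraicCurve
open Fermat.Agent.RED.Interface4 Fermat.Agent.ES.RED
  Fermat.Agent.T33.NodalCtx1 Fermat.Agent.T33.NodalHalf4
  Fermat.Agent.T33.NodalBase4A Fermat.Agent.T33.FrickeRed3 Fermat.Agent.U44.DegreeC4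
  Fermat.Agent.U44.LevelEll4 Fermat.Agent.U44.HeckeC4 Fermat.Agent.U44.HeckePsi4
  Fermat.Agent.ES.HECKE.PointFormula28 Fermat.Agent.ES.HECKE Fermat.Agent.U44.GaussRed3
  Fermat.Agent.U44.DatumHecke4 Fermat.Agent.U44.TwistRed4 Fermat.Agent.U44.EtaleAbs1
  Fermat.Agent.U44.EtaleInst1 Fermat.Agent.T33.NodalInst4C Fermat.Agent.T33.Psi3D
  Fermat.Agent.U44.Annulus3 Fermat.Agent.T33.NodalCurve6 Fermat.Agent.T33.NodalInst4E
  Fermat.Agent.T33.NodalInst4A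

/-! ### transport of the norm -/

section Generic

variable {K F F' : Type*} [Field K] [Field F] [Field F'] [Algebra K F] [Algebra K F']

/-- **transport of the norm**: if `w' ∘ ψ = φ ∘ w` for automorphisms `w` of `F` and `w'` of `F'`
then `N_φ (w' z) = w (N_ψ z)`. -/
theorem normAlong_equiv (φ ψ : F →ₐ[K] F') (w : F ≃ₐ[K] F) (w' : F' ≃ₐ[K] F')
    (hw : ∀ x : F, w' (ψ x) = φ (w x)) (z : F') :
    normAlong φ (w' z) = w (normAlong ψ z) := by
  have he : RingHom.comp (@algebraMap F F' _ _ (algebraAlong φ)) (w.toRingEquiv : F →+* F) =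
      RingHom.comp (w'.toRingEquiv : F' →+* F') (@algebraMap F F' _ _ (algebraAlong ψ)) := by
    ext x
    exact (hw x).symm
  have h1 := @Algebra.norm_eq_of_equiv_equiv F F' F F' _ _ _ _ (algebraAlong ψ) (algebraAlong φ)
    w.toRingEquiv w'.toRingEquiv he z
  have h2 : normAlong ψ z = w.symm (normAlong φ (w' z)) := h1
  rw [h2, AlgEquiv.apply_symm_apply]

end Generic

variable {p M' : ℕ} [NeZero M'] [NeZero p] {A : ValuationSubring Qbar}
  (h : LevelHyp p M' A) {ℓ : ℕ} [NeZero ℓ] (hℓ : ℓ.Prime) (hℓp : ℓ ≠ p) (hℓM : ¬ ℓ ∣ M')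

/-- shortcut instance. -/
local instance (priority := high) algebraKFbH (M : ℕ) [NeZero M] :
    Algebra (ResidueField ↥A) (Fb A M) := inferInstance

/-- shortcut instance. -/
local instance (priority := high) algebraAFbarH : Algebra ↥A ↥(Fbar (M' * p)) := inferInstance

/-- `T_ℓ` of `J₀(M'p)` as an additive map. -/
def heckeJ : JZero (M' * p) →+ JZero (M' * p) :=
  (heckeOperatorBar (M' * p) ⟨ℓ, hℓ⟩).toAddMonoidHom

theorem heckeJ_apply (x : JZero (M' * p)) :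
    heckeJ (p := p) (M' := M') hℓ x = heckeOperatorBar (M' * p) ⟨ℓ, hℓ⟩ x := rfl

/-! ### the first component -/

/-- **`E₁ ∘ T_ℓ = T̄_ℓ ∘ E₁`**, in relational form. -/
theorem rel_hecke₁ {x : JZero (M' * p)} {e : JZeroC (Setup8.kA A) M'} (hr : Rel₁ h x e) :
    Rel₁ h (heckeOperatorBar (M' * p) ⟨ℓ, hℓ⟩ x) (heckeC h hℓ hℓp hℓM e) := by
  refine Rel.map (R := c1 h) (heckeJ (p := p) (M' := M') hℓ) (heckeC h hℓ hℓp hℓM)
    (heckeDivC h hℓ hℓp hℓM)
    (fun Db => ⟨heckeDivC_mem_degZero h hℓ hℓp hℓM Db.2, heckeC_mk h hℓ hℓp hℓM Db⟩) ?_ hr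
  intro D f c hk
  obtain ⟨DT, hT, hN0, hDT, hGU, hred⟩ := datum_hecke₁ h hℓ hℓp hℓM D hk.f_ne hk.ord_f hk.gu
  refine ⟨DT, _, _, ⟨hN0, hDT, hGU⟩, hT, fun Du hDu Q => ?_⟩
  rw [hred]
  exact heckeDivC_principal h hℓ hℓp hℓM hk.red_ne hDu Q

/-! ### the second component -/

/-- **`E₂ ∘ T_ℓ = T̄_ℓᵗ ∘ E₂`**, in relational form. -/
theorem rel_hecke₂ {x : JZero (M' * p)} {e : JZeroC (Setup8.kA A) M'} (hr : Rel₂ h x e) :
    Rel₂ h (heckeOperatorBar (M' * p) ⟨ℓ, hℓ⟩ x) (heckeCt h hℓ hℓp hℓM e) := by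
  refine Rel.map (R := c2 h) (heckeJ (p := p) (M' := M') hℓ) (heckeCt h hℓ hℓp hℓM)
    (heckeDivCt h hℓ hℓp hℓM)
    (fun Db => ⟨heckeDivCt_mem_degZero h hℓ hℓp hℓM Db.2, heckeCt_mk h hℓ hℓp hℓM Db⟩) ?_ hr
  intro D f c hk
  obtain ⟨DT, hT, hN0, hDT, hGU, hred⟩ := datum_hecke₂ h hℓ hℓp hℓM D hk.f_ne hk.ord_f hk.gu
  refine ⟨DT, _, _, ⟨hN0, hDT, hGU⟩, hT, fun Du hDu Q => ?_⟩
  rw [hred]
  exact heckeDivCt_principal h hℓ hℓp hℓM hk.red_ne hDu Q

/-! ### the second component through `W̄` -/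

/-- **the second component read through the reduced Fricke involution.** -/
def c2W : HalfRed A ↥(Fbar (M' * p)) (Fb A M') := twist (c2 h) (Wb h)

/-- "`e` is the étale image of `x` on the `W̄`-twisted second component". -/
abbrev Rel₂W (x : JZero (M' * p)) (e : JZeroC (Setup8.kA A) M') : Prop := Rel (c2W h) p x e

include hℓ hℓp in
/-- `N_ᾱ (β̄ (W̄ u)) = W̄ (N_β̄ (ᾱ u))`. -/
theorem norm_Wb (u : Fb A M') :
    normAlong (alphaC (Setup8.kA A) M' ℓ) (betaC (Setup8.kA A) M' ℓ (Wb h u)) =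
      Wb h (normAlong (betaC (Setup8.kA A) M' ℓ) (alphaC (Setup8.kA A) M' ℓ u)) := by
  rw [← Fermat.Agent.U44.WbEll4.Wb_alphaC h hℓ hℓp u]
  exact normAlong_equiv (alphaC (Setup8.kA A) M' ℓ) (betaC (Setup8.kA A) M' ℓ) (Wb h)
    (Wb (hEll h hℓ hℓp)) (fun x => Fermat.Agent.U44.WbEll4.Wb_betaC h hℓ hℓp x) _

/-- **`E₂ᵂ ∘ T_ℓ = T̄_ℓ ∘ E₂ᵂ`**, in relational form. -/
theorem rel_hecke₂W {x : JZero (M' * p)} {e : JZeroC (Setup8.kA A) M'} (hr : Rel₂W h x e) :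
    Rel₂W h (heckeOperatorBar (M' * p) ⟨ℓ, hℓ⟩ x) (heckeC h hℓ hℓp hℓM e) := by
  refine Rel.map (R := c2W h) (heckeJ (p := p) (M' := M') hℓ) (heckeC h hℓ hℓp hℓM)
    (heckeDivC h hℓ hℓp hℓM)
    (fun Db => ⟨heckeDivC_mem_degZero h hℓ hℓp hℓM Db.2, heckeC_mk h hℓ hℓp hℓM Db⟩) ?_ hr
  intro D f c hk
  have hk2 : KData (c2 h) p D f c := (kdata_twist_iff (c2 h) (Wb h)).1 hk
  obtain ⟨DT, hT, hN0, hDT, hGU, hred⟩ := datum_hecke₂ h hℓ hℓp hℓM D hk2.f_ne hk2.ord_f hk2.gu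
  refine ⟨DT, _, _, (kdata_twist_iff (c2 h) (Wb h)).2 ⟨hN0, hDT, hGU⟩, hT, fun Du hDu Q => ?_⟩
  have e1 : red (c2W h) (algebraMap Qbar ↥(Fbar (M' * p)) (c ^ (ℓ + 1)) *
      normAlong (heckeAlphaBar Qbar (M' * p) ℓ) (heckeBetaBar Qbar (M' * p) ℓ f)) =
      normAlong (alphaC (Setup8.kA A) M' ℓ) (betaC (Setup8.kA A) M' ℓ
        (red (c2W h) (algebraMap Qbar ↥(Fbar (M' * p)) c * f))) := by
    rw [show red (c2W h) (algebraMap Qbar ↥(Fbar (M' * p)) c * f) =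
      Wb h (red (c2 h) (algebraMap Qbar ↥(Fbar (M' * p)) c * f)) from red_twist _ _ _,
      norm_Wb h hℓ hℓp, ← hred]
    exact red_twist _ _ _
  rw [e1]
  exact heckeDivC_principal h hℓ hℓp hℓM hk.red_ne hDu Q

/-- the twisted second component has the same kernel. -/
theorem rel₂W_zero_iff {x : JZero (M' * p)} : Rel₂W h x 0 ↔ Rel₂ h x 0 :=
  rel_zero_twist_iff (c2 h) (Wb h) (lHypFb h) (c2_ρ_surjective h)

/-- the twisted second component has a larger domain. -/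
theorem Jf₂_le : Jf₂ h ≤ EtaleAbs1.Jf (c2W h) p :=
  Jf_le_twist (c2 h) (Wb h) (lHyp h) (lHypFb h) (NeZero.ne p)
    (fun u hu Q => dvd_ord_map (Wb h) (p : ℤ) u hu Q)

/-! ### the eigenvector -/

/-- the index type of the good primes. -/
abbrev GoodPrime (p M' : ℕ) : Type := {l : ℕ // l.Prime ∧ l ≠ p ∧ ¬ l ∣ M'}

/-- `T̄_l` indexed by the good primes. -/
def heckeCi (i : GoodPrime p M') : JZeroC (Setup8.kA A) M' →+ JZeroC (Setup8.kA A) M' :=
  haveI : NeZero i.1 := ⟨i.2.1.ne_zero⟩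
  heckeC h i.2.1 i.2.2.1 i.2.2.2

theorem heckeCi_mk {l : ℕ} [NeZero l] (hl : l.Prime) (hlp : l ≠ p) (hlM : ¬ l ∣ M') :
    heckeCi h ⟨l, hl, hlp, hlM⟩ = heckeC h hl hlp hlM := rfl

/-- **the eigenvector on the special fibre** (domain given as `V ≤ Jf h`): a subgroup `V` of
`J₀(M'p)` inside the domain of the étale maps, not contained in the formal part, on which `T_l` acts
as `a_l` for `l ∈ G`, produces a nonzero `p`-torsion class `y` of the special fibre of `X₀(M')` with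
`T̄_l y = a_l y` for all `l ∈ G`; `y` is the étale image of some `v ∈ V`, on the first component or on
the `W̄`-twisted second component. -/
theorem exists_eigen_of_Jf (G : Set ℕ) (a : ℕ → ℤ)
    (V : AddSubgroup (JZero (M' * p))) (hV : V ≤ EtaleInst1.Jf h)
    (hVT : ∀ (l : ℕ) (hl : l.Prime), l ∈ G → ∀ v ∈ V,
      heckeOperatorBar (M' * p) ⟨l, hl⟩ v = a l • v)
    (hform : ∃ v ∈ V, v ∉ formalTwo A (M' * p) p) :
    ∃ (v : JZero (M' * p)) (y : JZeroC (Setup8.kA A) M'), v ∈ V ∧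
      (Rel₁ h v y ∨ Rel₂W h v y) ∧ y ≠ 0 ∧ p • y = 0 ∧
      ∀ (l : ℕ) [NeZero l] (hl : l.Prime) (hlp : l ≠ p) (hlM : ¬ l ∣ M'), l ∈ G →
        heckeC h hl hlp hlM y = a l • y := by
  obtain ⟨v, hv, hvG⟩ := hform
  have hvG' : ¬ (Rel (c1 h) p v 0 ∧ Rel (c2W h) p v 0) := fun hh =>
    hvG ((EtaleInst1.rel_zero_both_iff h).1 ⟨hh.1, (rel₂W_zero_iff h).1 hh.2⟩).1
  have key := Fermat.Agent.U44.EtaleTwo1.exists_eigen_abs (R₁ := c1 h) (R₂ := c2W h) (lHyp h)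
    (NeZero.ne p) V (fun w hw => (hV hw).1) (fun w hw => Jf₂_le h (hV hw).2) hv hvG'
    (ι := GoodPrime p M') {i | i.1 ∈ G} (fun i => heckeJ (p := p) (M' := M') i.2.1)
    (fun i => a i.1) (fun i hi w hw => hVT i.1 i.2.1 hi w hw) (heckeCi h) (heckeCi h)
    (fun i hi x e hr => by
      haveI : NeZero i.1 := ⟨i.2.1.ne_zero⟩
      exact rel_hecke₁ h i.2.1 i.2.2.1 i.2.2.2 hr)
    (fun i hi x e hr => by
      haveI : NeZero i.1 := ⟨i.2.1.ne_zero⟩
      exact rel_hecke₂W h i.2.1 i.2.2.1 i.2.2.2 hr)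
  rcases key with ⟨e, he, he0, hpe, hT⟩ | ⟨e, he, he0, hpe, hT⟩
  · refine ⟨v, e, hv, Or.inl he, he0, hpe, ?_⟩
    intro l _ hl hlp hlM hlG
    exact hT ⟨l, hl, hlp, hlM⟩ hlG
  · refine ⟨v, e, hv, Or.inr he, he0, hpe, ?_⟩
    intro l _ hl hlp hlM hlG
    exact hT ⟨l, hl, hlp, hlM⟩ hlG

/-- **the eigenvector on the special fibre** (domain given through the slopes at the nodes): the
same conclusion when `V ⊆ J₀(M'p)[p]` and the slopes at the branches `s1 k` of the Kummer data of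
the elements of `V` are all divisible by `p`, given annulus coordinates of thickness one. -/
theorem exists_eigen
    (X : ∀ k, AnnCoord (Fermat.Agent.T33.NodalInst4G.nodalRed h) k)
    (hy₂ : ∀ k, ((Nd h).s2 k).ord (red (c2 h) (X k).y₂) = -1)
    (G : Set ℕ) (a : ℕ → ℤ)
    (V : AddSubgroup (JZero (M' * p))) (hVp : ∀ v ∈ V, p • v = 0)
    (hVT : ∀ (l : ℕ) (hl : l.Prime), l ∈ G → ∀ v ∈ V,
      heckeOperatorBar (M' * p) ⟨l, hl⟩ v = a l • v)
    (hslope : ∀ v ∈ V, ∀ (D : Divisor.degZero (K := Qbar) (F := ↥(Fbar (M' * p))))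
      (f : ↥(Fbar (M' * p))) (c₁ : Qbar), v = Pic0.mk D → KData (c1 h) p D f c₁ →
      ∀ k, (p : ℤ) ∣ ((Nd h).s1 k).ord (red (c1 h) (algebraMap Qbar ↥(Fbar (M' * p)) c₁ * f)))
    (hform : ∃ v ∈ V, v ∉ formalTwo A (M' * p) p) :
    ∃ (v : JZero (M' * p)) (y : JZeroC (Setup8.kA A) M'), v ∈ V ∧
      (Rel₁ h v y ∨ Rel₂W h v y) ∧ y ≠ 0 ∧ p • y = 0 ∧
      ∀ (l : ℕ) [NeZero l] (hl : l.Prime) (hlp : l ≠ p) (hlM : ¬ l ∣ M'), l ∈ G →
        heckeC h hl hlp hlM y = a l • y := by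
  refine exists_eigen_of_Jf h G a V (fun v hv => ?_) hVT hform
  obtain ⟨D, f, c₁, c₂, rfl, hk₁, hk₂⟩ := exists_kdata h (hVp v hv)
  exact EtaleInst1.mem_Jf_of_nodes h X hy₂ hk₁ hk₂ (hslope _ hv D f c₁ rfl hk₁)

end Fermat.Agent.U44.EtaleHecke4
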