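/-
Programme U44 (target S44), stage 0, block (LOC), lemma (L1) (helper9):
**how far a Kummer automorphism of degree `p` moves an element whose value is new.**

Abstract setting, no discreteness, no completeness, no henselian hypothesis: `L` a field with a
valuation `v : Valuation L Γ₀` (multiplicative notation), `K` a subfield, `σ` a ring automorphism
of `L` fixing `K` pointwise and preserving `v`, `p` a prime, `ζ ∈ K` a nontrivial `p`-th root of
unity, `α ∈ L` with `σ α = ζ α` (a Kummer generator).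

* `Off v K p z` : the value of `z` has order at least `p` modulo the values of `K` (`z` is
  "off `K`"): `z ≠ 0` and `v z ^ j ∉ v (K \ {0})` for `0 < j < p`.
* `exists_dominant` : a finite sum of elements with pairwise distinct nonzero values has the value
  of its unique dominant term.
* `Off.dominant` : the same for `∑_{j < p} d j * z ^ j`, `d j ∈ K`, `z` off `K`.
* `map_sigma_sub_eq`, `map_sigma_sub_lt` (the core (G)) : if `σ (z ^ j) = z ^ j * (1 + c j)` with
  `v (c j) = ρ` for `0 < j < p` then for `b = ∑_{j < p} d j * z ^ j`: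
  `v (σ b - b) = ρ * v b` if `v b` is not a value of `K`, and `v (σ b - b) < ρ * v b` if it is.
* `map_pow_sub_one` : `v (x - 1) < 1`, `v (j : L) = 1` ⟹ `v (x ^ j - 1) = v (x - 1)`.
* `map_zeta_pow_sub_one` : `v (ζ ^ j - 1) = v (ζ - 1)` for `0 < j < p`.
* `tres` (A) : `α` off `K`, `b ∈ ∑ K α^j` with a new value ⟹ `v (σ b - b) = v (ζ - 1) * v b`
  (the lower ramification break is maximal).
* `peu` (B) : `α` a UNIT (`v α = 1`), `b` off `K` with `α ∈ ∑ K b^j` ⟹
  `v (ζ - 1) * v b < v (σ b - b)`: additively `ord (σ b / b - 1) < ord (ζ - 1)`, the break is NOT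
  maximal. This is the form consumed by (TR).
-/
import Mathlib

set_option autoImplicit false

namespace Fermat.Agent.U44.KummerBreak9

open Finset

variable {L : Type*} [Field L] {Γ₀ : Type*} [LinearOrderedCommGroupWithZero Γ₀]

/-- `z` is off `K`: `z ≠ 0` and `v z ^ j` is not the value of a nonzero element of `K`
for `0 < j < p`. -/
def Off (v : Valuation L Γ₀) (K : Subfield L) (p : ℕ) (z : L) : Prop :=
  z ≠ 0 ∧ ∀ j : ℕ, 0 < j → j < p → ∀ d ∈ K, d ≠ 0 → v z ^ j ≠ v d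

variable {v : Valuation L Γ₀} {K : Subfield L} {p : ℕ}

/-- A finite sum of elements with pairwise distinct nonzero values has the value of its unique
dominant term. -/
theorem exists_dominant {ι : Type*} [DecidableEq ι] (s : Finset ι) (f : ι → L)
    (hne : ∃ i ∈ s, f i ≠ 0)
    (hdist : ∀ i ∈ s, ∀ j ∈ s, i ≠ j → f i ≠ 0 → f j ≠ 0 → v (f i) ≠ v (f j)) :
    ∃ i0 ∈ s, f i0 ≠ 0 ∧ (∀ j ∈ s, j ≠ i0 → v (f j) < v (f i0)) ∧
      v (∑ i ∈ s, f i) = v (f i0) := by
  obtain ⟨i1, hi1, hfi1⟩ := hne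
  obtain ⟨i0, hi0, hmax⟩ := Finset.exists_max_image s (fun i => v (f i)) ⟨i1, hi1⟩
  have hpos : v (f i0) ≠ 0 := by
    intro h0
    have := hmax i1 hi1
    rw [h0] at this
    exact hfi1 ((Valuation.zero_iff v).1 (le_antisymm this zero_le))
  have hf0 : f i0 ≠ 0 := fun h => hpos (by rw [h, map_zero])
  have hlt : ∀ j ∈ s, j ≠ i0 → v (f j) < v (f i0) := by
    intro j hj hji
    rcases eq_or_ne (f j) 0 with h0 | h0
    · rw [h0, map_zero]; exact zero_lt_iff.2 hpos
    · exact lt_of_le_of_ne (hmax j hj) (hdist j hj i0 hi0 hji h0 hf0)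
  refine ⟨i0, hi0, hf0, hlt, ?_⟩
  refine Valuation.map_sum_eq_of_lt v hi0 ?_
  intro i hi
  rw [Finset.mem_sdiff, Finset.mem_singleton] at hi
  exact hlt i hi.1 hi.2

theorem Off.ne_zero {z : L} (hz : Off v K p z) : z ≠ 0 := hz.1

theorem Off.map_ne_zero {z : L} (hz : Off v K p z) : v z ≠ 0 :=
  fun h => hz.1 ((Valuation.zero_iff v).1 h)

/-- distinct exponents below `p` give distinct value classes. -/
theorem Off.term_ne {z : L} (hz : Off v K p z) {i j : ℕ} (hj : j < p) (hij : i < j)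
    {d e : L} (hd : d ∈ K) (he : e ∈ K) (hd0 : d ≠ 0) (he0 : e ≠ 0) :
    v (d * z ^ i) ≠ v (e * z ^ j) := by
  intro h
  have hvz : v z ≠ 0 := hz.map_ne_zero
  have hve : v e ≠ 0 := fun h0 => he0 ((Valuation.zero_iff v).1 h0)
  have hji : j = i + (j - i) := by omega
  rw [map_mul, map_mul, map_pow, map_pow, hji, pow_add, ← mul_assoc, mul_comm (v e) (v z ^ i),
    mul_comm (v d) (v z ^ i), mul_assoc] at h
  have h2 : v d = v e * v z ^ (j - i) := mul_left_cancel₀ (pow_ne_zero _ hvz) h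
  have h3 : v z ^ (j - i) = v (d * e⁻¹) := by
    rw [map_mul, map_inv₀, h2, mul_comm (v e), mul_assoc, mul_inv_cancel₀ hve, mul_one]
  exact hz.2 (j - i) (by omega) (by omega) (d * e⁻¹) (K.mul_mem hd (K.inv_mem he))
    (mul_ne_zero hd0 (inv_ne_zero he0)) h3

theorem Off.term_ne' {z : L} (hz : Off v K p z) {i j : ℕ} (hi : i < p) (hj : j < p) (hij : i ≠ j)
    {d e : L} (hd : d ∈ K) (he : e ∈ K) (hd0 : d ≠ 0) (he0 : e ≠ 0) :
    v (d * z ^ i) ≠ v (e * z ^ j) := by
  rcases lt_or_gt_of_ne hij with h | h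
  · exact hz.term_ne hj h hd he hd0 he0
  · exact fun h' => hz.term_ne hi h he hd he0 hd0 h'.symm

/-- The value of `∑_{j < p} d j * z ^ j` for `z` off `K`. -/
theorem Off.dominant {z : L} (hz : Off v K p z) (d : ℕ → L) (hd : ∀ j, d j ∈ K)
    (hne : ∃ j ∈ range p, d j ≠ 0) :
    ∃ j0 ∈ range p, d j0 ≠ 0 ∧ (∀ j ∈ range p, j ≠ j0 → v (d j * z ^ j) < v (d j0 * z ^ j0)) ∧
      v (∑ j ∈ range p, d j * z ^ j) = v (d j0 * z ^ j0) := by
  have hzp : ∀ j, z ^ j ≠ 0 := fun j => pow_ne_zero _ hz.1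
  obtain ⟨j0, hj0, hf0, hlt, hv⟩ := exists_dominant (v := v) (range p) (fun j => d j * z ^ j)
    (by obtain ⟨j, hj, hdj⟩ := hne; exact ⟨j, hj, mul_ne_zero hdj (hzp j)⟩)
    (by
      intro i hi j hj hij hfi hfj
      exact hz.term_ne' (mem_range.1 hi) (mem_range.1 hj) hij (hd i) (hd j)
        (left_ne_zero_of_mul hfi) (left_ne_zero_of_mul hfj))
  exact ⟨j0, hj0, left_ne_zero_of_mul hf0, hlt, hv⟩

/-- linear independence of `1, z, …, z^(p-1)` over `K` in elementary form. -/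
theorem Off.sum_ne_zero {z : L} (hz : Off v K p z) (d : ℕ → L) (hd : ∀ j, d j ∈ K)
    (hne : ∃ j ∈ range p, d j ≠ 0) : ∑ j ∈ range p, d j * z ^ j ≠ 0 := by
  obtain ⟨j0, -, hd0, -, hv⟩ := hz.dominant d hd hne
  intro h
  rw [h, map_zero] at hv
  exact mul_ne_zero hd0 (pow_ne_zero _ hz.1) ((Valuation.zero_iff v).1 hv.symm)

section core

variable (σ : L ≃+* L) (hσK : ∀ x ∈ K, σ x = x)
include hσK

/-- `σ b - b` for `b = ∑ d j z^j` when `σ (z^j) = z^j (1 + c j)`. -/
theorem sigma_sub_eq {z : L} (c : ℕ → L)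
    (hc : ∀ j, j < p → σ (z ^ j) = z ^ j * (1 + c j)) (d : ℕ → L) (hd : ∀ j, d j ∈ K) :
    σ (∑ j ∈ range p, d j * z ^ j) - ∑ j ∈ range p, d j * z ^ j =
      ∑ j ∈ range p, d j * z ^ j * c j := by
  rw [map_sum, ← Finset.sum_sub_distrib]
  refine Finset.sum_congr rfl fun j hj => ?_
  rw [map_mul, hσK _ (hd j), hc j (mem_range.1 hj)]
  ring

omit hσK in
/-- the constant term does not move. -/
theorem c_zero_eq {z : L} (c : ℕ → L) (hp0 : 0 < p)
    (hc : ∀ j, j < p → σ (z ^ j) = z ^ j * (1 + c j)) : c 0 = 0 := by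
  have := hc 0 hp0
  simpa using this

/-- **(G), new value.** If `σ (z^j) = z^j (1 + c j)` with `v (c j) = ρ` for `0 < j < p` and
`b = ∑_{j<p} d j z^j` has a value which is not a value of `K`, then `v (σ b - b) = ρ * v b`. -/
theorem map_sigma_sub_eq {z : L} (hz : Off v K p z) (c : ℕ → L) (ρ : Γ₀)
    (hc : ∀ j, j < p → σ (z ^ j) = z ^ j * (1 + c j)) (hρ : ∀ j, 0 < j → j < p → v (c j) = ρ)
    (d : ℕ → L) (hd : ∀ j, d j ∈ K)
    (hnew : ∀ e ∈ K, v (∑ j ∈ range p, d j * z ^ j) ≠ v e) :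
    v (σ (∑ j ∈ range p, d j * z ^ j) - ∑ j ∈ range p, d j * z ^ j) =
      ρ * v (∑ j ∈ range p, d j * z ^ j) := by
  classical
  have hne : ∃ j ∈ range p, d j ≠ 0 := by
    by_contra hcon
    have hall : ∀ j ∈ range p, d j = 0 := fun j hj => by
      by_contra h; exact hcon ⟨j, hj, h⟩
    apply hnew 0 K.zero_mem
    rw [Finset.sum_eq_zero (fun j hj => by rw [hall j hj, zero_mul])]
  obtain ⟨j0, hj0, hd0, hlt, hv⟩ := hz.dominant d hd hne
  have hp0 : 0 < p := lt_of_le_of_lt (Nat.zero_le _) (mem_range.1 hj0)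
  have hc0 : c 0 = 0 := c_zero_eq σ c hp0 hc
  have hj0pos : 0 < j0 := by
    rcases Nat.eq_zero_or_pos j0 with h | h
    · exfalso
      apply hnew (d 0) (hd 0)
      rw [hv, h, pow_zero, mul_one]
    · exact h
  rw [sigma_sub_eq σ hσK c hc d hd, hv]
  rcases eq_or_ne ρ 0 with hρ0 | hρ0
  · -- nothing moves
    rw [hρ0, zero_mul, Finset.sum_eq_zero, map_zero]
    intro i hi
    rcases Nat.eq_zero_or_pos i with h0 | hpos
    · rw [h0, hc0, mul_zero]
    · have : c i = 0 := (Valuation.zero_iff v).1 (by rw [hρ i hpos (mem_range.1 hi), hρ0])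
      rw [this, mul_zero]
  have hvj0 : v (d j0 * z ^ j0) ≠ 0 := by
    rw [Valuation.ne_zero_iff]
    exact mul_ne_zero hd0 (pow_ne_zero _ hz.1)
  have hlt' : ∀ i ∈ range p \ {j0}, v (d i * z ^ i * c i) < v (d j0 * z ^ j0 * c j0) := by
    intro i hi
    rw [Finset.mem_sdiff, Finset.mem_singleton] at hi
    rw [v.map_mul (d j0 * z ^ j0) (c j0), hρ j0 hj0pos (mem_range.1 hj0)]
    rcases Nat.eq_zero_or_pos i with h0 | hpos
    · rw [h0, hc0, mul_zero, map_zero]
      exact zero_lt_iff.2 (mul_ne_zero hvj0 hρ0)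
    · rw [map_mul, hρ i hpos (mem_range.1 hi.1)]
      exact mul_lt_mul_of_pos_right (hlt i hi.1 hi.2) (zero_lt_iff.2 hρ0)
  rw [Valuation.map_sum_eq_of_lt v hj0 hlt', map_mul, hρ j0 hj0pos (mem_range.1 hj0), mul_comm]

/-- **(G), old value.** Same situation, but the value of `b ≠ 0` is a value of `K` (e.g. `b` is a
unit and `v` is trivial on units of `K`): then `σ` moves `b` strictly less:
`v (σ b - b) < ρ * v b` (for `ρ ≠ 0`). -/
theorem map_sigma_sub_lt {z : L} (hz : Off v K p z) (c : ℕ → L) (ρ : Γ₀) (hρ0 : ρ ≠ 0)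
    (hc : ∀ j, j < p → σ (z ^ j) = z ^ j * (1 + c j)) (hρ : ∀ j, 0 < j → j < p → v (c j) = ρ)
    (d : ℕ → L) (hd : ∀ j, d j ∈ K) (e : L) (he : e ∈ K) (he0 : e ≠ 0)
    (hold : v (∑ j ∈ range p, d j * z ^ j) = v e) :
    v (σ (∑ j ∈ range p, d j * z ^ j) - ∑ j ∈ range p, d j * z ^ j) <
      ρ * v (∑ j ∈ range p, d j * z ^ j) := by
  classical
  have hve : v e ≠ 0 := (Valuation.ne_zero_iff v).2 he0
  have hne : ∃ j ∈ range p, d j ≠ 0 := by
    by_contra hcon
    have hall : ∀ j ∈ range p, d j = 0 := fun j hj => by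
      by_contra h; exact hcon ⟨j, hj, h⟩
    rw [Finset.sum_eq_zero (fun j hj => by rw [hall j hj, zero_mul]), map_zero] at hold
    exact hve hold.symm
  obtain ⟨j0, hj0, hd0, hlt, hv⟩ := hz.dominant d hd hne
  have hp0 : 0 < p := lt_of_le_of_lt (Nat.zero_le _) (mem_range.1 hj0)
  have hc0 : c 0 = 0 := c_zero_eq σ c hp0 hc
  have hj00 : j0 = 0 := by
    by_contra hj
    have hpos : 0 < j0 := Nat.pos_of_ne_zero hj
    refine hz.2 j0 hpos (mem_range.1 hj0) (e * (d j0)⁻¹) (K.mul_mem he (K.inv_mem (hd j0)))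
      (mul_ne_zero he0 (inv_ne_zero hd0)) ?_
    have hvd : v (d j0) ≠ 0 := (Valuation.ne_zero_iff v).2 hd0
    rw [map_mul, map_inv₀, ← hold, hv, map_mul, map_pow, mul_comm (v (d j0)), mul_assoc,
      mul_inv_cancel₀ hvd, mul_one]
  rw [sigma_sub_eq σ hσK c hc d hd]
  have hb0 : v (∑ j ∈ range p, d j * z ^ j) ≠ 0 := by rw [hold]; exact hve
  refine Valuation.map_sum_lt v (mul_ne_zero hρ0 hb0) ?_
  intro i hi
  rcases Nat.eq_zero_or_pos i with h0 | hpos
  · rw [h0, hc0, mul_zero, map_zero]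
    exact zero_lt_iff.2 (mul_ne_zero hρ0 hb0)
  · rw [map_mul, hρ i hpos (mem_range.1 hi), mul_comm, hv]
    refine mul_lt_mul_of_pos_left (hlt i hi ?_) (zero_lt_iff.2 hρ0)
    rw [hj00]; exact Nat.pos_iff_ne_zero.1 hpos

end core

section pow

/-- a natural number has value at most one. -/
theorem map_natCast_le_one (n : ℕ) : v (n : L) ≤ 1 := by
  induction n with
  | zero => simp
  | succ n ih =>
    rw [Nat.cast_succ]
    exact (v.map_add _ _).trans (max_le ih (le_of_eq v.map_one))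

/-- `v x = 1` and `v (x - 1) < 1` pass to powers: `v (x ^ j - 1) ≤ v (x - 1)`. -/
theorem map_pow_sub_one_le {x : L} (hx : v x = 1) (j : ℕ) : v (x ^ j - 1) ≤ v (x - 1) := by
  rw [← geom_sum_mul, map_mul]
  have h1 : v (∑ i ∈ range j, x ^ i) ≤ 1 :=
    Valuation.map_sum_le v (fun i _ => by rw [map_pow, hx, one_pow])
  calc v (∑ i ∈ range j, x ^ i) * v (x - 1) ≤ 1 * v (x - 1) := mul_le_mul_left h1 _
    _ = v (x - 1) := one_mul _

/-- `v (x - 1) < 1`, `v (j : L) = 1` ⟹ `v (x ^ j - 1) = v (x - 1)`. -/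
theorem map_pow_sub_one {x : L} (hx : v (x - 1) < 1) {j : ℕ} (hj : v (j : L) = 1) :
    v (x ^ j - 1) = v (x - 1) := by
  have hx1 : v x = 1 := by
    have : x = 1 + (x - 1) := by ring
    rw [this]; exact Valuation.map_one_add_of_lt v hx
  rw [← geom_sum_mul, map_mul]
  have hsum : ∑ i ∈ range j, x ^ i = (j : L) + ∑ i ∈ range j, (x ^ i - 1) := by
    rw [Finset.sum_sub_distrib]; simp
  have h2 : v (∑ i ∈ range j, (x ^ i - 1)) < 1 :=
    Valuation.map_sum_lt v one_ne_zero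
      (fun i _ => lt_of_le_of_lt (map_pow_sub_one_le hx1 i) hx)
  have h3 : v (∑ i ∈ range j, x ^ i) = 1 := by
    rw [hsum, ← hj]
    exact Valuation.map_add_eq_of_lt_left v (by rw [hj]; exact h2)
  rw [h3, one_mul]

/-- If `x` is a unit whose `p`-th power is `≡ 1` and `v p < 1` then `x ≡ 1`. -/
theorem map_sub_one_lt_one_of_pow {x : L} (hp : p.Prime) (hvp : v (p : L) < 1) (hx : v x = 1)
    (hxp : v (x ^ p - 1) < 1) : v (x - 1) < 1 := by
  by_contra hcon
  have hge : 1 ≤ v (x - 1) := not_lt.1 hcon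
  -- `(x - 1)^p = x^p - 1 + p * r` with `v r ≤ 1`
  have hle1 : v (x - 1) ≤ 1 := by
    refine (Valuation.map_sub v _ _).trans (max_le (le_of_eq hx) (le_of_eq v.map_one))
  have h1 : v (x - 1) = 1 := le_antisymm hle1 hge
  -- work with `y = x - 1`, `x = 1 + y`
  set y := x - 1 with hy
  have hxy : x = y + 1 := by rw [hy]; ring
  have hexp : x ^ p - 1 = y ^ p + ∑ m ∈ range p \ {0}, y ^ m * (p.choose m : L) := by
    rw [hxy, add_pow]
    simp only [one_pow, mul_one]
    rw [Finset.sum_range_succ, Nat.choose_self, Nat.cast_one, mul_one]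
    have h0 : (0 : ℕ) ∈ range p := mem_range.2 hp.pos
    rw [Finset.sum_eq_add_sum_sdiff_singleton_of_mem h0]
    simp only [pow_zero, Nat.choose_zero_right, Nat.cast_one, mul_one]
    ring
  have hmid : v (∑ m ∈ range p \ {0}, y ^ m * (p.choose m : L)) < 1 := by
    refine Valuation.map_sum_lt v one_ne_zero (fun m hm => ?_)
    rw [Finset.mem_sdiff, Finset.mem_singleton, mem_range] at hm
    have hdvd : p ∣ p.choose m := hp.dvd_choose_self hm.2 hm.1
    obtain ⟨k, hk⟩ := hdvd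
    rw [map_mul, map_pow, h1, one_pow, one_mul, hk, Nat.cast_mul, map_mul]
    calc v (p : L) * v (k : L) ≤ v (p : L) * 1 := mul_le_mul_right (map_natCast_le_one k) _
      _ = v (p : L) := mul_one _
      _ < 1 := hvp
  have hyp : v (y ^ p) = 1 := by rw [map_pow, h1, one_pow]
  have : v (x ^ p - 1) = 1 := by
    rw [hexp, ← hyp]
    exact Valuation.map_add_eq_of_lt_left v (by rw [hyp]; exact hmid)
  rw [this] at hxp
  exact lt_irrefl _ hxp

/-- the value of a root of unity is one. -/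
theorem map_eq_one_of_pow_eq_one {ζ : L} {n : ℕ} (hn : n ≠ 0) (hζ : ζ ^ n = 1) : v ζ = 1 := by
  have h : v ζ ^ n = 1 := by rw [← map_pow, hζ, map_one]
  exact (pow_eq_one_iff_of_nonneg zero_le hn).1 h

/-- `v (ζ ^ j - 1) = v (ζ - 1)` for `0 < j < p`, `ζ ^ p = 1`, `p` prime. -/
theorem map_zeta_pow_sub_one {ζ : L} (hp : p.Prime) (hζ : ζ ^ p = 1) {j : ℕ} (hj0 : 0 < j)
    (hjp : j < p) : v (ζ ^ j - 1) = v (ζ - 1) := by
  have hvζ : v ζ = 1 := map_eq_one_of_pow_eq_one hp.ne_zero hζ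
  refine le_antisymm (map_pow_sub_one_le hvζ j) ?_
  have hcop : Nat.Coprime j p :=
    Nat.Coprime.symm ((Nat.Prime.coprime_iff_not_dvd hp).2 (Nat.not_dvd_of_pos_of_lt hj0 hjp))
  obtain ⟨m, -, hm⟩ := Nat.exists_mul_mod_eq_one_of_coprime hcop hp.one_lt
  have hpow : (ζ ^ j) ^ m = ζ := by
    rw [← pow_mul, ← Nat.div_add_mod (j * m) p, hm, pow_add, pow_mul, hζ, one_pow, one_mul,
      pow_one]
  have hvζj : v (ζ ^ j) = 1 := by rw [map_pow, hvζ, one_pow]
  calc v (ζ - 1) = v ((ζ ^ j) ^ m - 1) := by rw [hpow]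
    _ ≤ v (ζ ^ j - 1) := map_pow_sub_one_le hvζj m

end pow

section kummer

variable (σ : L ≃+* L) (hσK : ∀ x ∈ K, σ x = x)
include hσK

/-- **(A), très ramifiée.** `α` off `K` with `σ α = ζ α`: every `b = ∑_{j<p} d j α^j` whose value
is not a value of `K` is moved by exactly `v (ζ - 1)`: `v (σ b - b) = v (ζ - 1) * v b`. -/
theorem tres (hp : p.Prime) {ζ α : L} (hζ : ζ ^ p = 1) (hα : Off v K p α) (hσα : σ α = ζ * α)
    (d : ℕ → L) (hd : ∀ j, d j ∈ K)
    (hnew : ∀ e ∈ K, v (∑ j ∈ range p, d j * α ^ j) ≠ v e) :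
    v (σ (∑ j ∈ range p, d j * α ^ j) - ∑ j ∈ range p, d j * α ^ j) =
      v (ζ - 1) * v (∑ j ∈ range p, d j * α ^ j) := by
  refine map_sigma_sub_eq σ hσK hα (fun j => ζ ^ j - 1) (v (ζ - 1)) ?_ ?_ d hd hnew
  · intro j _
    rw [map_pow, hσα, mul_pow]; ring
  · intro j hj0 hjp
    exact map_zeta_pow_sub_one hp hζ hj0 hjp

/-- **(B), peu ramifiée.** `α` a UNIT with `σ α = ζ α`, `ζ ≠ 1`, `v (ζ - 1) < 1`; `b` off `K` with
`α ∈ ∑_{j<p} K b^j` (automatic when `b ∈ K(α)` and `α ^ p ∈ K`). Then `σ` moves `b` strictly more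
than a `p`-th root of unity would: `v (ζ - 1) * v b < v (σ b - b)`; additively
`ord (σ b / b - 1) < ord (ζ - 1)`: the lower ramification break is not maximal. -/
theorem peu (hnat : ∀ j : ℕ, 0 < j → j < p → v (j : L) = 1) {ζ α b : L} (hζ0 : ζ ≠ 1)
    (hζ1 : v (ζ - 1) < 1) (hα : v α = 1) (hσα : σ α = ζ * α) (hb : Off v K p b)
    (d : ℕ → L) (hd : ∀ j, d j ∈ K) (hspan : α = ∑ j ∈ range p, d j * b ^ j) :
    v (ζ - 1) * v b < v (σ b - b) := by
  have hb0 : b ≠ 0 := hb.1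
  have hvb : v b ≠ 0 := hb.map_ne_zero
  have hα0 : α ≠ 0 := fun h => by rw [h, map_zero] at hα; exact zero_ne_one hα
  set x : L := σ b / b with hx
  have hσb : σ b = b * x := by rw [hx]; field_simp
  have hθ : σ b - b = b * (x - 1) := by rw [hσb]; ring
  rw [hθ, map_mul, mul_comm (v b)]
  refine mul_lt_mul_of_pos_right ?_ (zero_lt_iff.2 hvb)
  rcases lt_or_ge (v (x - 1)) 1 with hlt | hge
  swap
  · exact lt_of_lt_of_le hζ1 hge
  -- the main case: `v (x - 1) < 1`
  have hc : ∀ j, j < p → σ (b ^ j) = b ^ j * (1 + (x ^ j - 1)) := by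
    intro j _
    rw [map_pow, hσb, mul_pow]; ring
  have hρ : ∀ j, 0 < j → j < p → v (x ^ j - 1) = v (x - 1) := fun j hj0 hjp =>
    map_pow_sub_one hlt (hnat j hj0 hjp)
  have hmove : σ α - α = (ζ - 1) * α := by rw [hσα]; ring
  have hρ0 : v (x - 1) ≠ 0 := by
    intro h0
    have hx1 : x = 1 := by
      have := (Valuation.zero_iff v).1 h0
      exact sub_eq_zero.1 this
    have hfix : σ α = α := by
      rw [hspan, map_sum]
      refine Finset.sum_congr rfl fun j _ => ?_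
      rw [map_mul, hσK _ (hd j), map_pow, hσb, hx1, mul_one]
    have : (ζ - 1) * α = 0 := by rw [← hmove, hfix, sub_self]
    rcases mul_eq_zero.1 this with h | h
    · exact hζ0 (sub_eq_zero.1 h)
    · exact hα0 h
  have hlt2 := map_sigma_sub_lt σ hσK hb (fun j => x ^ j - 1) (v (x - 1)) hρ0 hc hρ d hd 1
    K.one_mem one_ne_zero (by rw [← hspan, hα, map_one])
  rw [← hspan, hmove, map_mul, hα, mul_one, mul_one] at hlt2
  exact hlt2

omit hσK in
/-- positivity of the break under an inertia-type hypothesis: if `σ` preserves `v`, moves units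
by less than one, `v p < 1` and `v b ^ p` is a value of `K`, then `v (σ b - b) < v b`. -/
theorem map_sigma_sub_lt_self (hσv : ∀ x, v (σ x) = v x)
    (hin : ∀ x, v x = 1 → v (σ x - x) < 1) (hp : p.Prime) (hvp : v (p : L) < 1) {b e : L}
    (hb0 : b ≠ 0) (he0 : e ≠ 0) (hσe : σ e = e) (hbe : v b ^ p = v e) : v (σ b - b) < v b := by
  have hvb : v b ≠ 0 := (Valuation.ne_zero_iff v).2 hb0
  set x : L := σ b / b with hx
  have hσb : σ b = b * x := by rw [hx]; field_simp
  have hvx : v x = 1 := by rw [hx, map_div₀, hσv, div_self hvb]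
  -- the unit `u = b^p / e`
  set u : L := b ^ p / e with hu
  have hvu : v u = 1 := by
    rw [hu, map_div₀, map_pow, hbe, div_self ((Valuation.ne_zero_iff v).2 he0)]
  have hσu : σ u = u * x ^ p := by
    rw [hu, map_div₀, map_pow, hσb, hσe, mul_pow]; field_simp
  have hxp : v (x ^ p - 1) < 1 := by
    have h1 : σ u - u = u * (x ^ p - 1) := by rw [hσu]; ring
    have h2 := hin u hvu
    rwa [h1, map_mul, hvu, one_mul] at h2
  have hx1 : v (x - 1) < 1 := map_sub_one_lt_one_of_pow hp hvp hvx hxp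
  have hθ : σ b - b = b * (x - 1) := by rw [hσb]; ring
  rw [hθ, map_mul]
  calc v b * v (x - 1) < v b * 1 := mul_lt_mul_of_pos_left hx1 (zero_lt_iff.2 hvb)
    _ = v b := mul_one _

end kummer

end Fermat.Agent.U44.KummerBreak9
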