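/-
Programme U44 (target S44), stage 0, block (LOC), the span fact (I6) (helper9):
if `α ^ p ∈ K`, `b ∈ ∑_{i<p} K α^i` and `b` is off `K` (its value has order `≥ p` modulo the values
of `K`), then `1, b, …, b^(p-1)` is a `K`-basis of `∑_{i<p} K α^i`; in particular
`α = ∑_{j<p} d j * b^j` with `d j ∈ K` — the hypothesis `hspan` of `KummerBreak9.peu`.

* `powSpan K α p` : the `K`-submodule `∑_{i<p} K α^i` of `L`;
* `powSpan_mul_mem` : it is closed under multiplication when `α ^ p ∈ K`;
* `exists_coeff_of_off` : the span fact;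
* `peu_of_mem` : `KummerBreak9.peu` with `b ∈ powSpan K α p` instead of `hspan`.
-/
import Mathlib
import Fermat.Agent.U44.KummerBreak9

set_option autoImplicit false

namespace Fermat.Agent.U44.KummerSpan9

open Finset Module Fermat.Agent.U44.KummerBreak9

variable {L : Type*} [Field L] {Γ₀ : Type*} [LinearOrderedCommGroupWithZero Γ₀]
  {v : Valuation L Γ₀} {K : Subfield L} {p : ℕ}

/-- the `K`-span of `1, α, …, α^(p-1)`. -/
def powSpan (K : Subfield L) (α : L) (p : ℕ) : Submodule K L :=
  Submodule.span K (Set.range fun i : Fin p => α ^ (i : ℕ))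

theorem pow_mem_powSpan (α : L) {i : ℕ} (hi : i < p) : α ^ i ∈ powSpan K α p :=
  Submodule.subset_span ⟨⟨i, hi⟩, rfl⟩

theorem coe_smul' (k : K) (x : L) : k • x = (k : L) * x := rfl

theorem mem_powSpan_of_mem (α : L) (hp : 0 < p) {x : L} (hx : x ∈ K) : x ∈ powSpan K α p := by
  have h1 : (1 : L) ∈ powSpan K α p := by
    have := pow_mem_powSpan (K := K) α hp
    simpa using this
  have := (powSpan K α p).smul_mem (⟨x, hx⟩ : K) h1
  rwa [coe_smul', mul_one] at this

/-- multiplication by `α` preserves `powSpan` when `α ^ p ∈ K`. -/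
theorem mul_alpha_mem {α : L} (hp : 0 < p) (hα : α ^ p ∈ K) {x : L} (hx : x ∈ powSpan K α p) :
    α * x ∈ powSpan K α p := by
  induction hx using Submodule.span_induction with
  | mem x hx =>
    obtain ⟨i, rfl⟩ := hx
    show α * α ^ (i : ℕ) ∈ powSpan K α p
    rw [← pow_succ']
    rcases Nat.lt_or_ge ((i : ℕ) + 1) p with h | h
    · exact pow_mem_powSpan α h
    · have : (i : ℕ) + 1 = p := le_antisymm (Nat.succ_le_of_lt i.2) h
      rw [this]
      exact mem_powSpan_of_mem α hp hα
  | zero => rw [mul_zero]; exact Submodule.zero_mem _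
  | add x y _ _ hx hy => rw [mul_add]; exact Submodule.add_mem _ hx hy
  | smul k x _ hx =>
    rw [coe_smul', mul_left_comm, ← coe_smul']
    exact Submodule.smul_mem _ _ hx

theorem pow_alpha_mul_mem {α : L} (hp : 0 < p) (hα : α ^ p ∈ K) (i : ℕ) {x : L}
    (hx : x ∈ powSpan K α p) : α ^ i * x ∈ powSpan K α p := by
  induction i with
  | zero => simpa using hx
  | succ i ih => rw [pow_succ', mul_assoc]; exact mul_alpha_mem hp hα ih

/-- `powSpan` is closed under multiplication when `α ^ p ∈ K`. -/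
theorem powSpan_mul_mem {α : L} (hp : 0 < p) (hα : α ^ p ∈ K) {x y : L}
    (hx : x ∈ powSpan K α p) (hy : y ∈ powSpan K α p) : x * y ∈ powSpan K α p := by
  induction hx using Submodule.span_induction with
  | mem x hx =>
    obtain ⟨i, rfl⟩ := hx
    exact pow_alpha_mul_mem hp hα _ hy
  | zero => rw [zero_mul]; exact Submodule.zero_mem _
  | add x z _ _ hx hz => rw [add_mul]; exact Submodule.add_mem _ hx hz
  | smul k x _ hx =>
    rw [coe_smul', mul_assoc, ← coe_smul']
    exact Submodule.smul_mem _ _ hx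

theorem pow_mem_of_mem {α : L} (hp : 0 < p) (hα : α ^ p ∈ K) {b : L}
    (hb : b ∈ powSpan K α p) (j : ℕ) : b ^ j ∈ powSpan K α p := by
  induction j with
  | zero =>
    have := pow_mem_powSpan (K := K) α hp
    simpa using this
  | succ j ih => rw [pow_succ]; exact powSpan_mul_mem hp hα ih hb

/-- `1, b, …, b^(p-1)` are linearly independent over `K` when `b` is off `K`. -/
theorem linearIndependent_pow {b : L} (hb : Off v K p b) :
    LinearIndependent K (fun j : Fin p => b ^ (j : ℕ)) := by
  rw [Fintype.linearIndependent_iff]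
  intro g hg
  by_contra hcon
  obtain ⟨i0, hi0⟩ := not_forall.1 hcon
  let d : ℕ → L := fun j => if h : j < p then ((g ⟨j, h⟩ : K) : L) else 0
  have hd : ∀ j, d j ∈ K := by
    intro j
    by_cases h : j < p
    · simp only [d, dif_pos h]; exact (g ⟨j, h⟩).2
    · simp only [d, dif_neg h]; exact K.zero_mem
  have hsum : ∑ j ∈ range p, d j * b ^ j = 0 := by
    rw [Finset.sum_range (fun j => d j * b ^ j), ← hg]
    refine Finset.sum_congr rfl fun j _ => ?_
    simp only [d, dif_pos j.2]
    rfl
  refine hb.sum_ne_zero d hd ⟨(i0 : ℕ), mem_range.2 i0.2, ?_⟩ hsum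
  simp only [d, dif_pos i0.2]
  intro h
  exact hi0 (Subtype.ext h)

/-- **The span fact.** -/
theorem exists_coeff_of_off {α b : L} (hp : 1 < p) (hα : α ^ p ∈ K) (hb : Off v K p b)
    (hbmem : b ∈ powSpan K α p) :
    ∃ d : ℕ → L, (∀ j, d j ∈ K) ∧ α = ∑ j ∈ range p, d j * b ^ j := by
  classical
  have hp0 : 0 < p := lt_trans Nat.zero_lt_one hp
  set W : Submodule K L := Submodule.span K (Set.range fun j : Fin p => b ^ (j : ℕ)) with hW
  have hle : W ≤ powSpan K α p := by
    rw [hW, Submodule.span_le]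
    rintro _ ⟨j, rfl⟩
    exact pow_mem_of_mem hp0 hα hbmem _
  have hfinW : finrank K W = p := by
    rw [hW, finrank_span_eq_card (linearIndependent_pow hb), Fintype.card_fin]
  have hfinV : finrank K (powSpan K α p) ≤ p := by
    have := finrank_range_le_card (R := K) (fun i : Fin p => α ^ (i : ℕ))
    rwa [Fintype.card_fin] at this
  have : Module.Finite K (powSpan K α p) := by
    unfold powSpan
    exact FiniteDimensional.span_of_finite K (Set.finite_range _)
  have hEq : W = powSpan K α p :=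
    Submodule.eq_of_le_of_finrank_le hle (by rw [hfinW]; exact hfinV)
  have hαmem : α ∈ W := by
    rw [hEq]
    have := pow_mem_powSpan (K := K) α hp
    simpa using this
  rw [hW, Submodule.mem_span_range_iff_exists_fun] at hαmem
  obtain ⟨g, hg⟩ := hαmem
  refine ⟨fun j => if h : j < p then ((g ⟨j, h⟩ : K) : L) else 0, ?_, ?_⟩
  · intro j
    by_cases h : j < p
    · simp only [dif_pos h]; exact (g ⟨j, h⟩).2
    · simp only [dif_neg h]; exact K.zero_mem
  · rw [Finset.sum_range (fun j => (if h : j < p then ((g ⟨j, h⟩ : K) : L) else 0) * b ^ j), ← hg]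
    refine Finset.sum_congr rfl fun j _ => ?_
    simp only [dif_pos j.2]
    rfl

/-- `KummerBreak9.peu` with membership instead of an explicit expansion. -/
theorem peu_of_mem (σ : L ≃+* L) (hσK : ∀ x ∈ K, σ x = x) (hp : 1 < p)
    (hnat : ∀ j : ℕ, 0 < j → j < p → v (j : L) = 1) {ζ α b : L} (hζ0 : ζ ≠ 1)
    (hζ1 : v (ζ - 1) < 1) (hα : v α = 1) (hαp : α ^ p ∈ K) (hσα : σ α = ζ * α)
    (hb : Off v K p b) (hbmem : b ∈ powSpan K α p) :
    v (ζ - 1) * v b < v (σ b - b) := by
  obtain ⟨d, hd, hspan⟩ := exists_coeff_of_off hp hαp hb hbmem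
  exact peu σ hσK hnat hζ0 hζ1 hα hσα hb d hd hspan

end Fermat.Agent.U44.KummerSpan9
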