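/-
Programme U44 (target S44), stage 0, block (LOC) (helper9): **the main local lemma (L1) of (TR)**:
a PEU RAMIFIEE Kummer extension `L = K1(ρ)`, `ρ ^ p = u` a principal unit of `K1`, has a
uniformiser `πL` whose displacement `ε = τ πL / πL - 1` under a generator `τ` of the Galois group
satisfies `0 < ord ε < ord (ζ - 1)`, and every element of `L` is `πL ^ n * a0` with `a0` a unit moved
by less than `ε`.

Valuation form (the instance takes `v := A.valuation`): `K` a field, `v : Valuation K Γ₀`,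
`K1 : Subfield K` whose value group is generated by `v (ζ - 1)`, `τ` a ring automorphism of `K` fixing
`K1`, preserving `v` and inertial (`v x ≤ 1 → v (τ x - x) < 1`), `ζ ∈ K1` a nontrivial `p`-th root of
unity, `ρ` with `ρ ^ p ∈ K1`, `v (ρ ^ p - 1) < 1`, `τ ρ ≠ ρ`. See `Setup`.

No replacement process `u ↦ u c^p`, no Hensel, no Artin–Schreier: the bad case `ord (ρ - 1) ≥ ord (ζ - 1)`
is excluded by inertiality of `τ` alone (`not_le_pi`).
-/
import Mathlib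
import Fermat.Agent.U44.KummerBreak9
import Fermat.Agent.U44.KummerSpan9

set_option autoImplicit false

namespace Fermat.Agent.U44.LocMain9

open Finset Fermat.Agent.U44.KummerBreak9 Fermat.Agent.U44.KummerSpan9

variable {K : Type*} [Field K] {Γ₀ : Type*} [LinearOrderedCommGroupWithZero Γ₀]

section general

variable {v : Valuation K Γ₀} {K1 : Subfield K} {p : ℕ}

/-- general span fact: if `b ∈ powSpan K1 α p` is off `K1` and `α ^ p ∈ K1` then every element of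
`powSpan K1 α p` is `∑_{j<p} d j * b^j` with `d j ∈ K1`. -/
theorem exists_coeff_of_mem_powSpan {α b x : K} (hp : 0 < p) (hα : α ^ p ∈ K1)
    (hb : Off v K1 p b) (hbmem : b ∈ powSpan K1 α p) (hx : x ∈ powSpan K1 α p) :
    ∃ d : ℕ → K, (∀ j, d j ∈ K1) ∧ x = ∑ j ∈ range p, d j * b ^ j := by
  classical
  set W : Submodule K1 K := Submodule.span K1 (Set.range fun j : Fin p => b ^ (j : ℕ)) with hW
  have hle : W ≤ powSpan K1 α p := by
    rw [hW, Submodule.span_le]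
    rintro _ ⟨j, rfl⟩
    exact pow_mem_of_mem hp hα hbmem _
  have hfinW : Module.finrank K1 W = p := by
    rw [hW, finrank_span_eq_card (linearIndependent_pow hb), Fintype.card_fin]
  have hfinV : Module.finrank K1 (powSpan K1 α p) ≤ p := by
    have := finrank_range_le_card (R := K1) (fun i : Fin p => α ^ (i : ℕ))
    rwa [Fintype.card_fin] at this
  have : Module.Finite K1 (powSpan K1 α p) := by
    unfold powSpan
    exact FiniteDimensional.span_of_finite K1 (Set.finite_range _)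
  have hEq : W = powSpan K1 α p :=
    Submodule.eq_of_le_of_finrank_le hle (by rw [hfinW]; exact hfinV)
  have hxmem : x ∈ W := by rw [hEq]; exact hx
  rw [hW, Submodule.mem_span_range_iff_exists_fun] at hxmem
  obtain ⟨g, hg⟩ := hxmem
  refine ⟨fun j => if h : j < p then ((g ⟨j, h⟩ : K1) : K) else 0, ?_, ?_⟩
  · intro j
    by_cases h : j < p
    · simp only [dif_pos h]; exact (g ⟨j, h⟩).2
    · simp only [dif_neg h]; exact K1.zero_mem
  · rw [Finset.sum_range (fun j => (if h : j < p then ((g ⟨j, h⟩ : K1) : K) else 0) * b ^ j), ← hg]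
    refine Finset.sum_congr rfl fun j _ => ?_
    simp only [dif_pos j.2]
    rfl

/-- `(1 + ε)^n = 1 + n ε` up to `ε²`, natural exponents. -/
theorem map_one_add_pow_sub {ε : K} (hε : v ε < 1) (n : ℕ) :
    v ((1 + ε) ^ n - 1 - (n : K) * ε) ≤ v ε ^ 2 := by
  have h1 : v (1 + ε) = 1 := Valuation.map_one_add_of_lt v hε
  induction n with
  | zero => simp
  | succ n ih =>
    have : (1 + ε) ^ (n + 1) - 1 - ((n + 1 : ℕ) : K) * ε =
        (1 + ε) * ((1 + ε) ^ n - 1 - (n : K) * ε) + (n : K) * ε ^ 2 := by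
      push_cast; ring
    rw [this]
    refine (v.map_add _ _).trans (max_le ?_ ?_)
    · rw [map_mul, h1, one_mul]; exact ih
    · rw [map_mul, map_pow]
      calc v (n : K) * v ε ^ 2 ≤ 1 * v ε ^ 2 := mul_le_mul_left (map_natCast_le_one n) _
        _ = v ε ^ 2 := one_mul _

/-- `(1 + ε)^n = 1 + n ε` up to `ε²`, integer exponents. -/
theorem map_one_add_zpow_sub {ε : K} (hε : v ε < 1) (n : ℤ) :
    v ((1 + ε) ^ n - 1 - (n : K) * ε) ≤ v ε ^ 2 := by
  have h1 : v (1 + ε) = 1 := Valuation.map_one_add_of_lt v hε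
  have h10 : (1 + ε) ≠ 0 := fun h => by rw [h, map_zero] at h1; exact zero_ne_one h1
  obtain ⟨m, rfl | rfl⟩ := n.eq_nat_or_neg
  · simpa using map_one_add_pow_sub hε m
  · have hR := map_one_add_pow_sub hε m
    set R := (1 + ε) ^ m - 1 - (m : K) * ε with hRdef
    have hpow : (1 + ε) ^ m = 1 + (m : K) * ε + R := by rw [hRdef]; ring
    have hm0 : (1 + ε) ^ m ≠ 0 := pow_ne_zero _ h10
    have : (1 + ε) ^ (-(m : ℤ)) - 1 - ((-(m : ℤ) : ℤ) : K) * ε =
        ((1 + ε) ^ m)⁻¹ * (-R + (m : K) ^ 2 * ε ^ 2 + (m : K) * ε * R) := by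
      rw [zpow_neg, zpow_natCast]
      push_cast
      field_simp
      rw [hpow]; ring
    rw [this, map_mul, map_inv₀, map_pow, h1, one_pow, inv_one, one_mul]
    have hm1 : v (m : K) ≤ 1 := map_natCast_le_one m
    refine (v.map_add _ _).trans (max_le ((v.map_add _ _).trans (max_le ?_ ?_)) ?_)
    · rw [Valuation.map_neg]; exact hR
    · rw [map_mul, map_pow, map_pow]
      calc v (m : K) ^ 2 * v ε ^ 2 ≤ 1 * v ε ^ 2 :=
            mul_le_mul_left (pow_le_one₀ zero_le hm1) _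
        _ = v ε ^ 2 := one_mul _
    · rw [map_mul, map_mul]
      calc v (m : K) * v ε * v R ≤ 1 * 1 * v ε ^ 2 :=
            mul_le_mul' (mul_le_mul' hm1 (le_of_lt hε)) hR
        _ = v ε ^ 2 := by rw [one_mul, one_mul]

end general

/-- The local situation of (L1). -/
structure Setup (v : Valuation K Γ₀) (K1 : Subfield K) (τ : K ≃+* K) (p : ℕ) (ζ ρ : K) : Prop where
  hp : p.Prime
  hτK1 : ∀ x ∈ K1, τ x = x
  hτv : ∀ x, v (τ x) = v x
  hτin : ∀ x, v x ≤ 1 → v (τ x - x) < 1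
  hζ : ζ ^ p = 1
  hζ1 : ζ ≠ 1
  hζK1 : ζ ∈ K1
  hval : ∀ x ∈ K1, x ≠ 0 → ∃ n : ℤ, v x = v (ζ - 1) ^ n
  hπp : v (ζ - 1) ^ (p - 1) = v (p : K)
  hvp : v (p : K) < 1
  hu : ρ ^ p ∈ K1
  hu1 : v (ρ ^ p - 1) < 1
  hτρ : τ ρ ≠ ρ

/-- `πL` is a uniformiser of `L` adapted to `τ` (conclusions (i)–(iii), (L2b) of (L1)). -/
structure IsUnif (v : Valuation K Γ₀) (τ : K ≃+* K) (p : ℕ) (ζ : K) (L : Subfield K) (πL : K) :
    Prop where
  mem : πL ∈ L
  ne_zero : πL ≠ 0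
  lt_one : v πL < 1
  pow_p : v πL ^ p = v (ζ - 1)
  pow_eq : v πL ^ (p * (p - 1)) = v (p : K)
  eps_ne : τ πL / πL - 1 ≠ 0
  eps_lt : v (τ πL / πL - 1) < 1
  pi_lt : v (ζ - 1) < v (τ πL / πL - 1)
  decomp : ∀ a ∈ L, a ≠ 0 → ∃ n : ℤ, ∃ a0 ∈ L, v a0 = 1 ∧ a = πL ^ n * a0 ∧
    v (τ a0 - a0) < v (τ πL / πL - 1)
  move_le : ∀ c ∈ L, v (τ c - c) ≤ v (τ πL / πL - 1) * v c

namespace Setup

variable {v : Valuation K Γ₀} {K1 : Subfield K} {τ : K ≃+* K} {p : ℕ} {ζ ρ : K}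
variable (S : Setup v K1 τ p ζ ρ)
include S

theorem two_le : 2 ≤ p := S.hp.two_le

theorem pi_ne_zero : ζ - 1 ≠ 0 := sub_ne_zero.2 S.hζ1

theorem vpi_ne_zero : v (ζ - 1) ≠ 0 := (Valuation.ne_zero_iff v).2 S.pi_ne_zero

/-- `v (ζ - 1) < 1`. -/
theorem vpi_lt_one : v (ζ - 1) < 1 := by
  by_contra h
  have h1 : 1 ≤ v (ζ - 1) := not_lt.1 h
  have h2 : 1 ≤ v (ζ - 1) ^ (p - 1) := one_le_pow₀ h1
  rw [S.hπp] at h2
  exact absurd S.hvp (not_lt.2 h2)

/-- natural numbers below `p` are units. -/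
theorem hnat : ∀ j : ℕ, 0 < j → j < p → v (j : K) = 1 := by
  intro j hj0 hjp
  refine le_antisymm (map_natCast_le_one j) ?_
  by_contra hlt
  have hlt' : v (j : K) < 1 := not_le.1 hlt
  have hcop : Nat.Coprime j p :=
    Nat.Coprime.symm ((Nat.Prime.coprime_iff_not_dvd S.hp).2 (Nat.not_dvd_of_pos_of_lt hj0 hjp))
  obtain ⟨m, -, hm⟩ := Nat.exists_mul_mod_eq_one_of_coprime hcop S.hp.one_lt
  -- `j * m = p * t + 1`
  have hdiv : j * m = p * (j * m / p) + 1 := by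
    have := Nat.div_add_mod (j * m) p
    rw [hm] at this; exact this.symm
  have hcast : (1 : K) = (j : K) * (m : K) - (p : K) * ((j * m / p : ℕ) : K) := by
    have : ((j * m : ℕ) : K) = ((p * (j * m / p) + 1 : ℕ) : K) := by rw [← hdiv]
    push_cast at this
    rw [this]; ring
  have h1 : v ((j : K) * (m : K)) < 1 := by
    rw [map_mul]
    calc v (j : K) * v (m : K) ≤ v (j : K) * 1 := mul_le_mul_right (map_natCast_le_one m) _
      _ = v (j : K) := mul_one _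
      _ < 1 := hlt'
  have h2 : v ((p : K) * ((j * m / p : ℕ) : K)) < 1 := by
    rw [map_mul]
    calc v (p : K) * v ((j * m / p : ℕ) : K) ≤ v (p : K) * 1 :=
          mul_le_mul_right (map_natCast_le_one _) _
      _ = v (p : K) := mul_one _
      _ < 1 := S.hvp
  have : v (1 : K) < 1 := by
    rw [hcast]
    exact lt_of_le_of_lt (Valuation.map_sub v _ _) (max_lt h1 h2)
  rw [map_one] at this
  exact lt_irrefl _ this

/-- `ρ` is a unit. -/
theorem vrho : v ρ = 1 := by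
  have h1 : v (ρ ^ p) = 1 := by
    have : ρ ^ p = 1 + (ρ ^ p - 1) := by ring
    rw [this]; exact Valuation.map_one_add_of_lt v S.hu1
  rw [map_pow] at h1
  exact (pow_eq_one_iff_of_nonneg zero_le S.hp.ne_zero).1 h1

theorem rho_ne_zero : ρ ≠ 0 := fun h => by
  have := S.vrho; rw [h, map_zero] at this; exact zero_ne_one this

/-- `τ ρ = η ρ` with `η` a nontrivial `p`-th root of unity. -/
theorem exists_eta : ∃ η : K, η ^ p = 1 ∧ η ≠ 1 ∧ τ ρ = η * ρ := by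
  refine ⟨τ ρ / ρ, ?_, ?_, ?_⟩
  · rw [div_pow, ← map_pow, S.hτK1 _ S.hu, div_self (pow_ne_zero _ S.rho_ne_zero)]
  · intro h
    apply S.hτρ
    have := div_eq_one_iff_eq S.rho_ne_zero |>.1 h
    exact this
  · field_simp [S.rho_ne_zero]

/-- a nontrivial `p`-th root of unity `η` has `v (η - 1) = v (ζ - 1)`. -/
theorem v_eta_sub_one {η : K} (hη : η ^ p = 1) (hη1 : η ≠ 1) : v (η - 1) = v (ζ - 1) := by
  have hprim : IsPrimitiveRoot ζ p :=
    isPrimitiveRoot_of_mem_nthRootsFinset S.hp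
      ((Polynomial.mem_nthRootsFinset S.hp.pos (1 : K)).2 S.hζ) S.hζ1
  have : NeZero p := ⟨S.hp.ne_zero⟩
  obtain ⟨i, hi, rfl⟩ := hprim.eq_pow_of_pow_eq_one hη
  have hi0 : 0 < i := by
    rcases Nat.eq_zero_or_pos i with h | h
    · exact absurd (by rw [h, pow_zero]) hη1
    · exact h
  exact map_zeta_pow_sub_one S.hp S.hζ hi0 hi

/-- the element `a = ρ - 1`. -/
theorem va_lt_one : v (ρ - 1) < 1 :=
  map_sub_one_lt_one_of_pow S.hp S.hvp S.vrho S.hu1

/-- `τ` moves `a = ρ - 1` by exactly `v (ζ - 1)`. -/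
theorem v_tau_a_sub : v (τ (ρ - 1) - (ρ - 1)) = v (ζ - 1) := by
  obtain ⟨η, hη, hη1, hτη⟩ := S.exists_eta
  have : τ (ρ - 1) - (ρ - 1) = (η - 1) * ρ := by
    rw [map_sub, map_one, hτη]; ring
  rw [this, map_mul, S.vrho, mul_one, S.v_eta_sub_one hη hη1]

/-- **The bad case is impossible**: `v (ζ - 1) < v (ρ - 1)`, i.e. `ord (ρ - 1) < ord (ζ - 1)`,
because `τ` is inertial and moves `ρ`. -/
theorem vpi_lt_va : v (ζ - 1) < v (ρ - 1) := by
  by_contra hcon
  have hle : v (ρ - 1) ≤ v (ζ - 1) := not_lt.1 hcon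
  have hmove := S.v_tau_a_sub
  -- `v (τ a - a) ≤ v a`
  have h1 : v (τ (ρ - 1) - (ρ - 1)) ≤ v (ρ - 1) :=
    (Valuation.map_sub v _ _).trans (max_le (le_of_eq (S.hτv _)) le_rfl)
  have heq : v (ρ - 1) = v (ζ - 1) := le_antisymm hle (hmove ▸ h1)
  -- `y = a / π` is a unit moved by a unit: contradiction with inertiality
  have hπ0 := S.pi_ne_zero
  have hτπ : τ (ζ - 1) = ζ - 1 := S.hτK1 _ (K1.sub_mem S.hζK1 K1.one_mem)
  have hy : v ((ρ - 1) / (ζ - 1)) ≤ 1 := by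
    rw [map_div₀, heq, div_self S.vpi_ne_zero]
  have h2 := S.hτin _ hy
  have h3 : τ ((ρ - 1) / (ζ - 1)) - (ρ - 1) / (ζ - 1) = (τ (ρ - 1) - (ρ - 1)) / (ζ - 1) := by
    rw [map_div₀, hτπ]; field_simp
  rw [h3, map_div₀, hmove, div_self S.vpi_ne_zero] at h2
  exact lt_irrefl _ h2

theorem a_ne_zero : ρ - 1 ≠ 0 := fun h => by
  have := S.vpi_lt_va
  rw [h, map_zero] at this
  exact not_lt.2 zero_le this

theorem va_ne_zero : v (ρ - 1) ≠ 0 := (Valuation.ne_zero_iff v).2 S.a_ne_zero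

/-- `v (ρ ^ p - 1) = v (ρ - 1) ^ p`. -/
theorem vb_eq : v (ρ ^ p - 1) = v (ρ - 1) ^ p := by
  set y := ρ - 1 with hy
  have hxy : ρ = y + 1 := by rw [hy]; ring
  have hexp : ρ ^ p - 1 = y ^ p + ∑ m ∈ range p \ {0}, y ^ m * (p.choose m : K) := by
    rw [hxy, add_pow]
    simp only [one_pow, mul_one]
    rw [Finset.sum_range_succ, Nat.choose_self, Nat.cast_one, mul_one]
    have h0 : (0 : ℕ) ∈ range p := mem_range.2 S.hp.pos
    rw [Finset.sum_eq_add_sum_sdiff_singleton_of_mem h0]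
    simp only [pow_zero, Nat.choose_zero_right, Nat.cast_one, mul_one]
    ring
  have hva : v y < 1 := S.va_lt_one
  have hva0 : v y ≠ 0 := S.va_ne_zero
  -- `v p < v y ^ (p-1)`
  have hkey : v (p : K) < v y ^ (p - 1) := by
    rw [← S.hπp]
    exact (pow_lt_pow_iff_left₀ zero_le zero_le (by have := S.two_le; omega)).2 S.vpi_lt_va
  have hmid : v (∑ m ∈ range p \ {0}, y ^ m * (p.choose m : K)) < v (y ^ p) := by
    refine Valuation.map_sum_lt v (by rw [map_pow]; exact pow_ne_zero _ hva0) (fun m hm => ?_)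
    rw [Finset.mem_sdiff, Finset.mem_singleton, mem_range] at hm
    have hdvd : p ∣ p.choose m := S.hp.dvd_choose_self hm.2 hm.1
    obtain ⟨k, hk⟩ := hdvd
    have hm1 : 1 ≤ m := Nat.one_le_iff_ne_zero.2 hm.2
    rw [map_mul, map_pow, hk, Nat.cast_mul, map_mul, map_pow]
    have h1 : v y ^ m ≤ v y := by
      calc v y ^ m ≤ v y ^ 1 := pow_le_pow_of_le_one zero_le (le_of_lt hva) hm1
        _ = v y := pow_one _
    have hpp : p = (p - 1) + 1 := by have := S.two_le; omega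
    calc v y ^ m * (v (p : K) * v (k : K)) ≤ v y * (v (p : K) * 1) :=
          mul_le_mul' h1 (mul_le_mul_right (map_natCast_le_one k) _)
      _ = v (p : K) * v y := by rw [mul_one, mul_comm]
      _ < v y ^ (p - 1) * v y := mul_lt_mul_of_pos_right hkey (zero_lt_iff.2 hva0)
      _ = v y ^ p := by rw [← pow_succ, ← hpp]
  rw [hexp, ← map_pow]
  exact Valuation.map_add_eq_of_lt_left v hmid

/-- `ρ ^ p - 1 ∈ K1` has value `v (ζ - 1) ^ k` with `0 < k < p`. -/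
theorem exists_k : ∃ k : ℕ, 0 < k ∧ k < p ∧ v (ρ - 1) ^ p = v (ζ - 1) ^ k := by
  have hb0 : ρ ^ p - 1 ≠ 0 := by
    intro h
    have := S.vb_eq
    rw [h, map_zero] at this
    exact pow_ne_zero _ S.va_ne_zero this.symm
  obtain ⟨n, hn⟩ := S.hval (ρ ^ p - 1) (K1.sub_mem S.hu K1.one_mem) hb0
  rw [S.vb_eq] at hn
  have hπpos : 0 < v (ζ - 1) := zero_lt_iff.2 S.vpi_ne_zero
  have hπ1 := S.vpi_lt_one
  -- `n > 0` since `v a ^ p < 1`
  have hlt1 : v (ρ - 1) ^ p < 1 := pow_lt_one₀ zero_le S.va_lt_one S.hp.ne_zero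
  have hn0 : 0 < n := by
    have : v (ζ - 1) ^ n < v (ζ - 1) ^ (0 : ℤ) := by rw [← hn, zpow_zero]; exact hlt1
    exact (zpow_lt_zpow_iff_right_of_lt_one₀ hπpos hπ1).1 this
  -- `n < p` since `v π ^ p < v a ^ p`
  have hlt2 : v (ζ - 1) ^ p < v (ρ - 1) ^ p :=
    (pow_lt_pow_iff_left₀ zero_le zero_le S.hp.ne_zero).2 S.vpi_lt_va
  have hnp : n < (p : ℤ) := by
    have : v (ζ - 1) ^ ((p : ℕ) : ℤ) < v (ζ - 1) ^ n := by
      rw [zpow_natCast, ← hn]; exact hlt2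
    exact (zpow_lt_zpow_iff_right_of_lt_one₀ hπpos hπ1).1 this
  refine ⟨n.toNat, by omega, by omega, ?_⟩
  rw [hn, ← zpow_natCast, Int.toNat_of_nonneg (le_of_lt hn0)]

/-- `a = ρ - 1` is off `K1`. -/
theorem off_a : Off v K1 p (ρ - 1) := by
  refine ⟨S.a_ne_zero, ?_⟩
  intro j hj0 hjp d hd hd0 heq
  obtain ⟨k, hk0, hkp, hk⟩ := S.exists_k
  obtain ⟨n, hn⟩ := S.hval d hd hd0
  have hπpos : 0 < v (ζ - 1) := zero_lt_iff.2 S.vpi_ne_zero
  have hπne1 : v (ζ - 1) ≠ 1 := ne_of_lt S.vpi_lt_one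
  -- raise `v a ^ j = v π ^ n` to the `p`-th power
  have h1 : v (ζ - 1) ^ (((k * j : ℕ) : ℤ)) = v (ζ - 1) ^ (n * (p : ℤ)) := by
    rw [zpow_natCast, pow_mul, ← hk, ← pow_mul, mul_comm p j, pow_mul, heq, hn, zpow_mul,
      zpow_natCast]
  have h2 : ((k * j : ℕ) : ℤ) = n * (p : ℤ) := zpow_right_injective₀ hπpos hπne1 h1
  have h3 : (p : ℤ) ∣ ((k * j : ℕ) : ℤ) := ⟨n, by rw [h2, mul_comm]⟩
  have h4 : p ∣ k * j := Int.natCast_dvd_natCast.1 h3
  rcases (Nat.Prime.dvd_mul S.hp).1 h4 with h | h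
  · exact absurd (Nat.le_of_dvd hk0 h) (not_le.2 hkp)
  · exact absurd (Nat.le_of_dvd hj0 h) (not_le.2 hjp)

/-- the displacement `θ = τ a / a - 1` of `a = ρ - 1`: `v θ * v a = v (ζ - 1)`. -/
theorem vtheta_mul : v (τ (ρ - 1) / (ρ - 1) - 1) * v (ρ - 1) = v (ζ - 1) := by
  have h : τ (ρ - 1) / (ρ - 1) - 1 = (τ (ρ - 1) - (ρ - 1)) / (ρ - 1) := by
    have := S.a_ne_zero
    field_simp
  rw [h, map_div₀, S.v_tau_a_sub, div_mul_cancel₀ _ S.va_ne_zero]

theorem vtheta_lt_one : v (τ (ρ - 1) / (ρ - 1) - 1) < 1 := by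
  by_contra h
  have h1 : 1 ≤ v (τ (ρ - 1) / (ρ - 1) - 1) := not_lt.1 h
  have : v (ρ - 1) ≤ v (ζ - 1) := by
    calc v (ρ - 1) = 1 * v (ρ - 1) := (one_mul _).symm
      _ ≤ v (τ (ρ - 1) / (ρ - 1) - 1) * v (ρ - 1) := mul_le_mul_left h1 _
      _ = v (ζ - 1) := S.vtheta_mul
  exact absurd S.vpi_lt_va (not_lt.2 this)

theorem vpi_lt_vtheta : v (ζ - 1) < v (τ (ρ - 1) / (ρ - 1) - 1) := by
  have hθ0 : v (τ (ρ - 1) / (ρ - 1) - 1) ≠ 0 := by
    intro h
    have := S.vtheta_mul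
    rw [h, zero_mul] at this
    exact S.vpi_ne_zero this.symm
  calc v (ζ - 1) = v (τ (ρ - 1) / (ρ - 1) - 1) * v (ρ - 1) := S.vtheta_mul.symm
    _ < v (τ (ρ - 1) / (ρ - 1) - 1) * 1 := mul_lt_mul_of_pos_left S.va_lt_one (zero_lt_iff.2 hθ0)
    _ = _ := mul_one _

theorem vtheta_ne_zero : v (τ (ρ - 1) / (ρ - 1) - 1) ≠ 0 := fun h => by
  have := S.vpi_lt_vtheta
  rw [h] at this
  exact not_lt.2 zero_le this

/-- the data `τ (a^j) = a^j (1 + c j)` for the core (G). -/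
theorem tau_pow_a (j : ℕ) :
    τ ((ρ - 1) ^ j) = (ρ - 1) ^ j * (1 + ((τ (ρ - 1) / (ρ - 1)) ^ j - 1)) := by
  have h0 := S.a_ne_zero
  rw [map_pow, div_pow]
  have : (ρ - 1) ^ j ≠ 0 := pow_ne_zero _ h0
  field_simp
  ring

theorem v_c (j : ℕ) (hj0 : 0 < j) (hjp : j < p) :
    v ((τ (ρ - 1) / (ρ - 1)) ^ j - 1) = v (τ (ρ - 1) / (ρ - 1) - 1) :=
  map_pow_sub_one S.vtheta_lt_one (S.hnat j hj0 hjp)

/-- expansion of the elements of `L` in powers of `a = ρ - 1`. -/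
theorem exists_expansion (L : Subfield K) (hL : ∀ x, x ∈ L ↔ x ∈ powSpan K1 ρ p) {x : K}
    (hx : x ∈ L) : ∃ d : ℕ → K, (∀ j, d j ∈ K1) ∧ x = ∑ j ∈ range p, d j * (ρ - 1) ^ j := by
  have hamem : ρ - 1 ∈ powSpan K1 ρ p :=
    Submodule.sub_mem _ (by simpa using pow_mem_powSpan (K := K1) ρ S.hp.one_lt)
      (mem_powSpan_of_mem ρ S.hp.pos K1.one_mem)
  exact exists_coeff_of_mem_powSpan S.hp.pos S.hu S.off_a hamem ((hL x).1 hx)

theorem K1_le (L : Subfield K) (hL : ∀ x, x ∈ L ↔ x ∈ powSpan K1 ρ p) {x : K} (hx : x ∈ K1) :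
    x ∈ L := (hL x).2 (mem_powSpan_of_mem ρ S.hp.pos hx)

theorem rho_mem (L : Subfield K) (hL : ∀ x, x ∈ L ↔ x ∈ powSpan K1 ρ p) : ρ ∈ L :=
  (hL ρ).2 (by simpa using pow_mem_powSpan (K := K1) ρ S.hp.one_lt)

/-- `τ` moves `c ∈ L` by at most `v θ * v c`. -/
theorem move_le_theta (L : Subfield K) (hL : ∀ x, x ∈ L ↔ x ∈ powSpan K1 ρ p) {c : K}
    (hc : c ∈ L) : v (τ c - c) ≤ v (τ (ρ - 1) / (ρ - 1) - 1) * v c := by
  classical
  obtain ⟨d, hd, rfl⟩ := S.exists_expansion L hL hc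
  rw [sigma_sub_eq τ S.hτK1 (fun j => (τ (ρ - 1) / (ρ - 1)) ^ j - 1)
    (fun j _ => S.tau_pow_a j) d hd]
  by_cases hne : ∃ j ∈ range p, d j ≠ 0
  · obtain ⟨j0, hj0, hd0, hlt, hv⟩ := S.off_a.dominant d hd hne
    rw [hv]
    refine Valuation.map_sum_le v (fun j hj => ?_)
    rw [map_mul, mul_comm]
    rcases Nat.eq_zero_or_pos j with h0 | hpos
    · rw [h0, pow_zero, sub_self, map_zero, zero_mul]; exact zero_le
    · rw [S.v_c j hpos (mem_range.1 hj)]
      refine mul_le_mul_right ?_ _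
      rcases eq_or_ne j j0 with h | h
      · rw [h]
      · exact le_of_lt (hlt j hj h)
  · have hall : ∀ j ∈ range p, d j = 0 := fun j hj => by
      by_contra h; exact hne ⟨j, hj, h⟩
    rw [Finset.sum_eq_zero (fun j hj => by rw [hall j hj, zero_mul, zero_mul]), map_zero]
    exact zero_le

/-- units of `L` are moved by strictly less than `v θ`. -/
theorem move_unit_lt (L : Subfield K) (hL : ∀ x, x ∈ L ↔ x ∈ powSpan K1 ρ p) {c : K}
    (hc : c ∈ L) (hvc : v c = 1) : v (τ c - c) < v (τ (ρ - 1) / (ρ - 1) - 1) := by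
  obtain ⟨d, hd, rfl⟩ := S.exists_expansion L hL hc
  have := map_sigma_sub_lt τ S.hτK1 S.off_a (fun j => (τ (ρ - 1) / (ρ - 1)) ^ j - 1)
    (v (τ (ρ - 1) / (ρ - 1) - 1)) S.vtheta_ne_zero (fun j _ => S.tau_pow_a j)
    (fun j hj0 hjp => S.v_c j hj0 hjp) d hd 1 K1.one_mem one_ne_zero (by rw [hvc, map_one])
  rwa [hvc, mul_one] at this

/-- **(L1)**: existence of an adapted uniformiser of `L = K1(ρ)`. -/
theorem exists_isUnif (L : Subfield K) (hL : ∀ x, x ∈ L ↔ x ∈ powSpan K1 ρ p) :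
    ∃ πL : K, IsUnif v τ p ζ L πL := by
  classical
  obtain ⟨k, hk0, hkp, hk⟩ := S.exists_k
  have hcop : Nat.Coprime k p :=
    Nat.Coprime.symm ((Nat.Prime.coprime_iff_not_dvd S.hp).2 (Nat.not_dvd_of_pos_of_lt hk0 hkp))
  obtain ⟨m, hmp, hm⟩ := Nat.exists_mul_mod_eq_one_of_coprime hcop S.hp.one_lt
  have hm0 : 0 < m := by
    rcases Nat.eq_zero_or_pos m with h | h
    · rw [h, mul_zero, Nat.zero_mod] at hm; exact absurd hm (by norm_num)
    · exact h
  set t := k * m / p with ht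
  have hkm : k * m = p * t + 1 := by
    have := Nat.div_add_mod (k * m) p
    rw [hm] at this; exact this.symm
  set a := ρ - 1 with ha
  set π := ζ - 1 with hπ
  have ha0 : a ≠ 0 := S.a_ne_zero
  have hπ0 : π ≠ 0 := S.pi_ne_zero
  have hva0 : v a ≠ 0 := S.va_ne_zero
  have hvπ0 : v π ≠ 0 := S.vpi_ne_zero
  have hτπ : τ π = π := S.hτK1 _ (K1.sub_mem S.hζK1 K1.one_mem)
  set x := τ a / a with hx
  have hτa : τ a = a * x := by rw [hx]; field_simp
  set πL := a ^ m / π ^ t with hπL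
  have hπL0 : πL ≠ 0 := div_ne_zero (pow_ne_zero _ ha0) (pow_ne_zero _ hπ0)
  have hamem : a ∈ L := L.sub_mem (S.rho_mem L hL) L.one_mem
  have hπmem : π ∈ L := S.K1_le L hL (K1.sub_mem S.hζK1 K1.one_mem)
  have hπLmem : πL ∈ L := L.div_mem (L.pow_mem hamem _) (L.pow_mem hπmem _)
  -- `v πL ^ p = v π`
  have hpowp : v πL ^ p = v π := by
    rw [hπL, map_div₀, map_pow, map_pow, div_pow, ← pow_mul, ← pow_mul, mul_comm m p, pow_mul, hk,
      ← pow_mul, hkm, pow_succ, mul_comm t p]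
    exact mul_div_cancel_left₀ _ (pow_ne_zero _ hvπ0)
  have hπLlt : v πL < 1 := by
    by_contra h
    have h1 : 1 ≤ v πL := not_lt.1 h
    have : 1 ≤ v πL ^ p := one_le_pow₀ h1
    rw [hpowp] at this
    exact absurd S.vpi_lt_one (not_lt.2 this)
  have hpoweq : v πL ^ (p * (p - 1)) = v (p : K) := by
    rw [pow_mul, hpowp, S.hπp]
  -- the displacement of `πL`
  have hτπL : τ πL / πL - 1 = x ^ m - 1 := by
    rw [hπL, map_div₀, map_pow, map_pow, hτπ, hτa, mul_pow]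
    have h1 : a ^ m ≠ 0 := pow_ne_zero _ ha0
    have h2 : π ^ t ≠ 0 := pow_ne_zero _ hπ0
    field_simp
  have hvε : v (τ πL / πL - 1) = v (x - 1) := by
    rw [hτπL]; exact S.v_c m hm0 hmp
  have hθlt : v (x - 1) < 1 := S.vtheta_lt_one
  have hθ0 : v (x - 1) ≠ 0 := S.vtheta_ne_zero
  -- `v a = v πL ^ k`
  have hva : v a = v πL ^ k := by
    have h1 : v a ^ p = (v πL ^ k) ^ p := by rw [hk, ← pow_mul, mul_comm k p, pow_mul, hpowp]
    exact le_antisymm ((pow_le_pow_iff_left₀ zero_le zero_le S.hp.ne_zero).1 (le_of_eq h1))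
      ((pow_le_pow_iff_left₀ zero_le zero_le S.hp.ne_zero).1 (le_of_eq h1.symm))
  refine ⟨πL, hπLmem, hπL0, hπLlt, hpowp, hpoweq, ?_, ?_, ?_, ?_, ?_⟩
  · intro h
    rw [h, map_zero] at hvε
    exact hθ0 hvε.symm
  · rw [hvε]; exact hθlt
  · rw [hvε]; exact S.vpi_lt_vtheta
  · -- decomposition
    intro a' ha' ha'0
    obtain ⟨d, hd, hexp⟩ := S.exists_expansion L hL ha'
    have hne : ∃ j ∈ range p, d j ≠ 0 := by
      by_contra hcon
      have hall : ∀ j ∈ range p, d j = 0 := fun j hj => by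
        by_contra h; exact hcon ⟨j, hj, h⟩
      apply ha'0
      rw [hexp, Finset.sum_eq_zero (fun j hj => by rw [hall j hj, zero_mul])]
    obtain ⟨j0, hj0, hd0, -, hv⟩ := S.off_a.dominant d hd hne
    obtain ⟨n0, hn0⟩ := S.hval (d j0) (hd j0) hd0
    -- `v a' = v πL ^ (p n0 + k j0)`
    have hva' : v a' = v πL ^ ((p : ℤ) * n0 + (k : ℤ) * (j0 : ℤ)) := by
      have hvπL0 : v πL ≠ 0 := (Valuation.ne_zero_iff v).2 hπL0
      rw [hexp, hv, map_mul, map_pow, hn0, ← ha, hva, ← hπ, ← hpowp, zpow_add₀ hvπL0,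
        ← zpow_natCast (v πL) p, ← zpow_mul, ← pow_mul, ← zpow_natCast (v πL) (k * j0)]
      push_cast
      rfl
    set n : ℤ := (p : ℤ) * n0 + (k : ℤ) * (j0 : ℤ) with hn
    have hπLn0 : πL ^ n ≠ 0 := zpow_ne_zero _ hπL0
    refine ⟨n, a' / πL ^ n, L.div_mem ha' (L.zpow_mem hπLmem n), ?_, ?_, ?_⟩
    · rw [map_div₀, map_zpow₀, hva', div_self]
      exact zpow_ne_zero _ ((Valuation.ne_zero_iff v).2 hπL0)
    · field_simp
    · rw [hvε]
      refine S.move_unit_lt L hL (L.div_mem ha' (L.zpow_mem hπLmem n)) ?_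
      rw [map_div₀, map_zpow₀, hva', div_self]
      exact zpow_ne_zero _ ((Valuation.ne_zero_iff v).2 hπL0)
  · intro c hc
    rw [hvε]
    exact S.move_le_theta L hL hc

omit S in
/-- integers have value at most one. -/
theorem map_intCast_le_one (n : ℤ) : v (n : K) ≤ 1 := by
  obtain ⟨m, rfl | rfl⟩ := n.eq_nat_or_neg
  · simpa using map_natCast_le_one (v := v) m
  · simpa using map_natCast_le_one (v := v) m

omit S in
/-- (L2c): non-units of `L` are moved by less than `ε`. -/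
theorem IsUnif_move_lt {L : Subfield K} {πL : K} (U : IsUnif v τ p ζ L πL) {c : K} (hc : c ∈ L)
    (hvc : v c < 1) : v (τ c - c) < v (τ πL / πL - 1) := by
  have hε0 : v (τ πL / πL - 1) ≠ 0 := (Valuation.ne_zero_iff v).2 U.eps_ne
  calc v (τ c - c) ≤ v (τ πL / πL - 1) * v c := U.move_le c hc
    _ < v (τ πL / πL - 1) * 1 := mul_lt_mul_of_pos_left hvc (zero_lt_iff.2 hε0)
    _ = _ := mul_one _

/-- the refined form of (ii): `τ a / a ≡ 1 + n ε` modulo `ε 𝔪`, `n = ord_L a`. -/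
theorem IsUnif_refined {L : Subfield K} {πL : K} (U : IsUnif v τ p ζ L πL) {a : K} (ha : a ∈ L)
    (ha0 : a ≠ 0) : ∃ n : ℤ, v a = v πL ^ n ∧
      v (τ a - a - (n : K) * (τ πL / πL - 1) * a) < v (τ πL / πL - 1) * v a := by
  obtain ⟨n, a0, -, hva0, hdec, hmove⟩ := U.decomp a ha ha0
  set ε := τ πL / πL - 1 with hε
  have hπL0 := U.ne_zero
  have hvε0 : v ε ≠ 0 := (Valuation.ne_zero_iff v).2 U.eps_ne
  have hvεlt : v ε < 1 := U.eps_lt
  have hτπL : τ πL = πL * (1 + ε) := by rw [hε]; field_simp; ring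
  have hvan : v a = v πL ^ n := by rw [hdec, map_mul, hva0, mul_one, map_zpow₀]
  refine ⟨n, hvan, ?_⟩
  have hkey : τ a - a - (n : K) * ε * a =
      πL ^ n * (((1 + ε) ^ n - 1 - (n : K) * ε) * τ a0 + (1 + (n : K) * ε) * (τ a0 - a0)) := by
    rw [hdec, map_mul, map_zpow₀, hτπL, mul_zpow]; ring
  rw [hkey, map_mul, map_zpow₀, ← hvan, mul_comm]
  have hva_ne : v a ≠ 0 := (Valuation.ne_zero_iff v).2 ha0
  refine mul_lt_mul_of_pos_right ?_ (zero_lt_iff.2 hva_ne)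
  refine lt_of_le_of_lt (v.map_add _ _) (max_lt ?_ ?_)
  · rw [map_mul, S.hτv, hva0, mul_one]
    refine lt_of_le_of_lt (map_one_add_zpow_sub hvεlt n) ?_
    calc v ε ^ 2 = v ε * v ε := sq _
      _ < v ε * 1 := mul_lt_mul_of_pos_left hvεlt (zero_lt_iff.2 hvε0)
      _ = v ε := mul_one _
  · rw [map_mul]
    have h1 : v (1 + (n : K) * ε) ≤ 1 := by
      refine (v.map_add _ _).trans (max_le (le_of_eq v.map_one) ?_)
      rw [map_mul]
      calc v (n : K) * v ε ≤ 1 * 1 := mul_le_mul' (map_intCast_le_one n) (le_of_lt hvεlt)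
        _ = 1 := one_mul _
    calc v (1 + (n : K) * ε) * v (τ a0 - a0) ≤ 1 * v (τ a0 - a0) := mul_le_mul_left h1 _
      _ = v (τ a0 - a0) := one_mul _
      _ < v ε := hmove

end Setup

end Fermat.Agent.U44.LocMain9
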