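/-
Programme U44 (target S44), chapter (LOC), file 4 (helper1): **distinguished polynomials**.

`v` a valuation on a field `F`. A product `∏ (X - r)` over a multiset of elements with `v r < 1`
has all non-leading coefficients of valuation `< 1` (`coeff_prod_lt_one`); hence a monic split
polynomial all of whose roots have `v r < 1` has non-leading coefficients with `v < 1`
(`coeff_lt_one_of_roots`), and over an algebraically closed field every monic polynomial does
(`coeff_lt_one_of_roots_of_isAlgClosed`).  [(L2c), roots ↦ coefficients.]
-/
import Mathlib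

set_option autoImplicit false

namespace Fermat.Agent.U44.LocPoly1

open Polynomial

variable {F : Type*} [Field F] {Γ₀ : Type*} [LinearOrderedCommGroupWithZero Γ₀]
  (v : Valuation F Γ₀)

/-- all coefficients of `∏ (X - r)`, `v r ≤ 1`, have valuation `≤ 1`. -/
theorem coeff_prod_le_one (s : Multiset F) (hs : ∀ r ∈ s, v r ≤ 1) (k : ℕ) :
    v (((s.map fun r => X - C r).prod).coeff k) ≤ 1 := by
  induction s using Multiset.induction_on generalizing k with
  | empty =>
      simp only [Multiset.map_zero, Multiset.prod_zero, coeff_one]
      split_ifs <;> simp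
  | cons a s ih =>
      have ha : v a ≤ 1 := hs a (Multiset.mem_cons_self a s)
      have ih' := ih fun r hr => hs r (Multiset.mem_cons_of_mem hr)
      rw [Multiset.map_cons, Multiset.prod_cons, mul_comm]
      cases k with
      | zero =>
          rw [mul_coeff_zero, map_mul]
          have : v ((X - C a).coeff 0) ≤ 1 := by simpa using ha
          exact mul_le_one' (ih' 0) this
      | succ k =>
          rw [coeff_mul_X_sub_C]
          refine (v.map_sub _ _).trans (max_le (ih' k) ?_)
          rw [map_mul]
          exact mul_le_one' (ih' (k + 1)) ha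

/-- the non-leading coefficients of `∏ (X - r)`, `v r < 1`, have valuation `< 1`. -/
theorem coeff_prod_lt_one (s : Multiset F) (hs : ∀ r ∈ s, v r < 1) {k : ℕ}
    (hk : k < Multiset.card s) : v (((s.map fun r => X - C r).prod).coeff k) < 1 := by
  induction s using Multiset.induction_on generalizing k with
  | empty => simp at hk
  | cons a s ih =>
      have ha : v a < 1 := hs a (Multiset.mem_cons_self a s)
      have hs' : ∀ r ∈ s, v r < 1 := fun r hr => hs r (Multiset.mem_cons_of_mem hr)
      have hle := coeff_prod_le_one v s fun r hr => (hs' r hr).le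
      rw [Multiset.map_cons, Multiset.prod_cons, mul_comm]
      rw [Multiset.card_cons] at hk
      cases k with
      | zero =>
          rw [mul_coeff_zero, map_mul]
          have : v ((X - C a).coeff 0) < 1 := by simpa using ha
          exact Right.mul_lt_one_of_le_of_lt (hle 0) this
      | succ k =>
          rw [coeff_mul_X_sub_C]
          refine lt_of_le_of_lt (v.map_sub _ _) (max_lt (ih hs' (by omega)) ?_)
          rw [map_mul]
          exact Right.mul_lt_one_of_le_of_lt (hle (k + 1)) ha

/-- a monic split polynomial whose roots have `v < 1` has non-leading coefficients with `v < 1`. -/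
theorem coeff_lt_one_of_roots {B : F[X]} (hB : B.Monic) (hsplit : B.Splits)
    (hr : ∀ r ∈ B.roots, v r < 1) {k : ℕ} (hk : k < B.natDegree) : v (B.coeff k) < 1 := by
  have hcard : Multiset.card B.roots = B.natDegree := hsplit.natDegree_eq_card_roots.symm
  rw [hsplit.eq_prod_roots_of_monic hB]
  exact coeff_prod_lt_one v B.roots hr (by rw [hcard]; exact hk)

theorem coeff_lt_one_of_roots_of_isAlgClosed [IsAlgClosed F] {B : F[X]} (hB : B.Monic)
    (hr : ∀ r ∈ B.roots, v r < 1) {k : ℕ} (hk : k < B.natDegree) : v (B.coeff k) < 1 :=
  coeff_lt_one_of_roots v hB (IsAlgClosed.splits B) hr hk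

/-- all coefficients have valuation `≤ 1` (monic split, roots with `v ≤ 1`). -/
theorem coeff_le_one_of_roots {B : F[X]} (hB : B.Monic) (hsplit : B.Splits)
    (hr : ∀ r ∈ B.roots, v r ≤ 1) (k : ℕ) : v (B.coeff k) ≤ 1 := by
  rw [hsplit.eq_prod_roots_of_monic hB]
  exact coeff_prod_le_one v B.roots hr k


/-! ### the reversed form `∏ (1 - b X)` -/

/-- all coefficients of `∏ (1 - b X)`, `v b ≤ 1`, have valuation `≤ 1`. -/
theorem coeff_prod_one_sub_le_one (s : Multiset F) (hs : ∀ b ∈ s, v b ≤ 1) (k : ℕ) :
    v (((s.map fun b => 1 - C b * X).prod).coeff k) ≤ 1 := by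
  induction s using Multiset.induction_on generalizing k with
  | empty =>
      simp only [Multiset.map_zero, Multiset.prod_zero, coeff_one]
      split_ifs <;> simp
  | cons a s ih =>
      have ha : v a ≤ 1 := hs a (Multiset.mem_cons_self a s)
      have ih' := ih fun r hr => hs r (Multiset.mem_cons_of_mem hr)
      rw [Multiset.map_cons, Multiset.prod_cons, sub_mul, one_mul, mul_assoc]
      cases k with
      | zero => simpa using ih' 0
      | succ k =>
          rw [coeff_sub, coeff_C_mul, coeff_X_mul]
          refine (v.map_sub _ _).trans (max_le (ih' (k + 1)) ?_)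
          rw [map_mul]
          exact mul_le_one' ha (ih' k)

/-- the constant coefficient of `∏ (1 - b X)` is `1`. -/
theorem coeff_zero_prod_one_sub (s : Multiset F) :
    ((s.map fun b => 1 - C b * X).prod).coeff 0 = 1 := by
  induction s using Multiset.induction_on with
  | empty => simp
  | cons a s ih =>
      rw [Multiset.map_cons, Multiset.prod_cons, mul_coeff_zero, ih]
      simp

/-- the coefficients of positive degree of `∏ (1 - b X)`, `v b < 1`, have valuation `< 1`. -/
theorem coeff_prod_one_sub_lt_one (s : Multiset F) (hs : ∀ b ∈ s, v b < 1) {k : ℕ}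
    (hk : 0 < k) : v (((s.map fun b => 1 - C b * X).prod).coeff k) < 1 := by
  induction s using Multiset.induction_on generalizing k with
  | empty =>
      simp only [Multiset.map_zero, Multiset.prod_zero, coeff_one]
      rw [if_neg hk.ne']
      simp
  | cons a s ih =>
      have ha : v a < 1 := hs a (Multiset.mem_cons_self a s)
      have hs' : ∀ r ∈ s, v r < 1 := fun r hr => hs r (Multiset.mem_cons_of_mem hr)
      have hle := coeff_prod_one_sub_le_one v s fun r hr => (hs' r hr).le
      rw [Multiset.map_cons, Multiset.prod_cons, sub_mul, one_mul, mul_assoc]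
      obtain ⟨k, rfl⟩ := Nat.exists_eq_succ_of_ne_zero hk.ne'
      rw [coeff_sub, coeff_C_mul, coeff_X_mul]
      refine lt_of_le_of_lt (v.map_sub _ _) (max_lt (ih hs' (Nat.succ_pos k)) ?_)
      rw [map_mul, mul_comm]
      exact Right.mul_lt_one_of_le_of_lt (hle k) ha

/-! ### Galois-stable root multisets -/

/-- if a ring automorphism `σ` of `F` permutes the roots (with multiplicity) of a monic split
polynomial, it fixes the coefficients. -/
theorem coeff_fixed_of_roots_stable {B : F[X]} (hB : B.Monic) (hsplit : B.Splits) (σ : F →+* F)
    (hσ : B.roots.map σ = B.roots) (k : ℕ) : σ (B.coeff k) = B.coeff k := by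
  have h1 : B.map σ = B := by
    conv_lhs => rw [hsplit.eq_prod_roots_of_monic hB]
    conv_rhs => rw [hsplit.eq_prod_roots_of_monic hB, ← hσ]
    rw [Polynomial.map_multiset_prod, Multiset.map_map, Multiset.map_map]
    congr 1
    refine Multiset.map_congr rfl fun r _ => ?_
    simp
  conv_rhs => rw [← h1]
  rw [coeff_map]

end Fermat.Agent.U44.LocPoly1
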