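/-
Programme U44 (target S44), stage 0, block (LOC), hypothesis (h6) (helper9): **Lagrange resolvents**.
A group `G` acts on a field `K` by ring automorphisms with fixed field `K1`; `η ∈ K1` is a primitive
`p`-th root of unity (`p` prime, invertible in `K`), `ρ ≠ 0` with `ρ ^ p ∈ K1`, `τ ∈ G` with
`τ ρ = η ρ`. Then every `x ∈ K` fixed by the stabiliser of `ρ` lies in `∑_{j<p} K1 ρ^j`
(`mem_powSpan_of_fixed`), i.e. the fixed field of the stabiliser is `K1(ρ)` — without Galois theory,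
without finiteness of `G`.
-/
import Mathlib
import Fermat.Agent.U44.KummerSpan9

set_option autoImplicit false

namespace Fermat.Agent.U44.Resolvent9

open Finset Fermat.Agent.U44.KummerSpan9

variable {K : Type*} [Field K] {G : Type*} [Group G] [MulSemiringAction G K]
  {K1 : Subfield K} {p : ℕ} {η ρ : K} {τ : G}

section

variable (hK1fix : ∀ g : G, ∀ x ∈ K1, g • x = x) (hηK1 : η ∈ K1) (hτ : τ • ρ = η * ρ)
include hK1fix hηK1 hτ

theorem tau_pow_rho (i : ℕ) : τ ^ i • ρ = η ^ i * ρ := by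
  induction i with
  | zero => simp
  | succ i ih =>
    rw [pow_succ', mul_smul, ih, smul_mul', hτ, smul_pow', hK1fix τ η hηK1]
    ring

theorem tau_pow_inv_rho (hη0 : η ≠ 0) (i : ℕ) : (τ ^ i)⁻¹ • ρ = (η ^ i)⁻¹ * ρ := by
  have h1 : τ ^ i • ((η ^ i)⁻¹ * ρ) = ρ := by
    rw [smul_mul', tau_pow_rho hK1fix hηK1 hτ i, smul_inv'', smul_pow',
      hK1fix _ η hηK1]
    field_simp
  calc (τ ^ i)⁻¹ • ρ = (τ ^ i)⁻¹ • (τ ^ i • ((η ^ i)⁻¹ * ρ)) := by rw [h1]
    _ = (η ^ i)⁻¹ * ρ := inv_smul_smul _ _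

end

/-- the `j`-th Lagrange resolvent of `x`. -/
noncomputable def resolvent (τ : G) (η : K) (p : ℕ) (x : K) (j : ℕ) : K :=
  (p : K)⁻¹ * ∑ i ∈ range p, (η⁻¹) ^ (i * j) * (τ ^ i • x)

section

variable (hK1fix : ∀ g : G, ∀ x ∈ K1, g • x = x) (hηK1 : η ∈ K1)
include hK1fix hηK1

omit hK1fix hηK1 in
theorem eta_ne_zero (hp : 0 < p) (hη : η ^ p = 1) : η ≠ 0 := fun h => by
  rw [h, zero_pow (Nat.pos_iff_ne_zero.1 hp)] at hη; exact zero_ne_one hη

/-- `τ` multiplies the `j`-th resolvent by `η ^ j` when `τ ^ p` fixes `x`. -/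
theorem tau_resolvent (hp : 0 < p) (hη : η ^ p = 1) {x : K} (hxp : τ ^ p • x = x)
    (j : ℕ) : τ • resolvent τ η p x j = η ^ j * resolvent τ η p x j := by
  have hη0 : η ≠ 0 := eta_ne_zero hp hη
  have hinvK1 : ∀ n : ℕ, (η⁻¹) ^ n ∈ K1 := fun n => K1.pow_mem (K1.inv_mem hηK1) n
  set f : ℕ → K := fun i => (η⁻¹) ^ (i * j) * (τ ^ i • x) with hf
  have hfp : f p = f 0 := by
    simp only [hf]
    rw [hxp, pow_zero, one_smul, zero_mul, pow_zero, pow_mul, inv_pow, hη, inv_one, one_pow]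
  have hshift : ∑ i ∈ range p, f (i + 1) = ∑ i ∈ range p, f i := by
    have h1 := Finset.sum_range_succ' f p
    have h2 := Finset.sum_range_succ f p
    rw [h2, hfp] at h1
    exact add_right_cancel h1.symm
  unfold resolvent
  rw [smul_mul', smul_inv'', hK1fix τ _ (natCast_mem K1 p), Finset.smul_sum, mul_left_comm]
  congr 1
  rw [← hshift, Finset.mul_sum]
  refine Finset.sum_congr rfl fun i _ => ?_
  simp only [hf]
  have e1 : τ • (τ ^ i • x) = τ ^ (i + 1) • x := by rw [pow_succ', mul_smul]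
  have e2 : (η⁻¹) ^ ((i + 1) * j) = (η⁻¹) ^ (i * j) * (η⁻¹) ^ j := by
    rw [add_mul, one_mul, pow_add]
  have h3 : η ^ j * ((η⁻¹) ^ (i * j) * (η⁻¹) ^ j) = (η⁻¹) ^ (i * j) := by
    rw [mul_left_comm, ← mul_pow, mul_inv_cancel₀ hη0, one_pow, mul_one]
  rw [smul_mul', hK1fix τ _ (hinvK1 _), e1, e2, ← mul_assoc, h3]

omit hK1fix hηK1 in
/-- the resolvents sum to `x`. -/
theorem sum_resolvent (hp : p.Prime) (hpK : (p : K) ≠ 0) (hη : η ^ p = 1) (hη1 : η ≠ 1) (x : K) :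
    ∑ j ∈ range p, resolvent τ η p x j = x := by
  have hη0 : η ≠ 0 := eta_ne_zero hp.pos hη
  have hprim : IsPrimitiveRoot η p :=
    isPrimitiveRoot_of_mem_nthRootsFinset hp
      ((Polynomial.mem_nthRootsFinset hp.pos (1 : K)).2 hη) hη1
  have hprim' : IsPrimitiveRoot η⁻¹ p := hprim.inv
  unfold resolvent
  rw [← Finset.mul_sum, Finset.sum_comm]
  -- inner sums
  have hinner : ∀ i ∈ range p, ∑ j ∈ range p, (η⁻¹) ^ (i * j) * (τ ^ i • x) =
      if i = 0 then (p : K) * x else 0 := by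
    intro i hi
    rw [← Finset.sum_mul]
    by_cases h0 : i = 0
    · subst h0
      simp
    · rw [if_neg h0]
      have hcop : Nat.Coprime i p :=
        Nat.Coprime.symm ((Nat.Prime.coprime_iff_not_dvd hp).2
          (Nat.not_dvd_of_pos_of_lt (Nat.pos_of_ne_zero h0) (mem_range.1 hi)))
      have hpi : IsPrimitiveRoot ((η⁻¹) ^ i) p := hprim'.pow_of_coprime i hcop
      have := hpi.geom_sum_eq_zero hp.one_lt
      simp only [pow_mul]
      rw [this, zero_mul]
  rw [Finset.sum_congr rfl hinner, Finset.sum_ite_eq' (range p) 0 (fun _ => (p : K) * x),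
    if_pos (mem_range.2 hp.pos), ← mul_assoc, inv_mul_cancel₀ hpK, one_mul]

end

/-- **Lagrange resolvents**: an element fixed by the stabiliser of `ρ` lies in `∑_{j<p} K1 ρ^j`. -/
theorem mem_powSpan_of_fixed (hK1fix : ∀ g : G, ∀ x ∈ K1, g • x = x)
    (hK1 : ∀ x : K, (∀ g : G, g • x = x) → x ∈ K1) (hp : p.Prime) (hpK : (p : K) ≠ 0)
    (hη : η ^ p = 1) (hη1 : η ≠ 1) (hηK1 : η ∈ K1) (hρ0 : ρ ≠ 0) (hρp : ρ ^ p ∈ K1)
    (hτ : τ • ρ = η * ρ) {x : K} (hx : ∀ g : G, g • ρ = ρ → g • x = x) :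
    x ∈ powSpan K1 ρ p := by
  have hη0 : η ≠ 0 := eta_ne_zero hp.pos hη
  have hprim : IsPrimitiveRoot η p :=
    isPrimitiveRoot_of_mem_nthRootsFinset hp
      ((Polynomial.mem_nthRootsFinset hp.pos (1 : K)).2 hη) hη1
  have : NeZero p := ⟨hp.ne_zero⟩
  -- `τ ^ p` fixes `ρ`, hence `x`
  have hτp : τ ^ p • ρ = ρ := by rw [tau_pow_rho hK1fix hηK1 hτ p, hη, one_mul]
  have hxp : τ ^ p • x = x := hx _ hτp
  -- every `g` moves `ρ` by a power of `η`
  have hgρ : ∀ g : G, ∃ i : ℕ, g • ρ = η ^ i * ρ := by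
    intro g
    have h1 : (g • ρ / ρ) ^ p = 1 := by
      rw [div_pow, ← smul_pow', hK1fix g _ hρp, div_self (pow_ne_zero _ hρ0)]
    obtain ⟨i, -, hi⟩ := hprim.eq_pow_of_pow_eq_one h1
    exact ⟨i, by rw [hi]; field_simp⟩
  -- elements of the stabiliser fix `τ ^ i • x`
  have hstab : ∀ h : G, h • ρ = ρ → ∀ i : ℕ, h • (τ ^ i • x) = τ ^ i • x := by
    intro h hh i
    have hconj : ((τ ^ i)⁻¹ * h * τ ^ i) • ρ = ρ := by
      rw [mul_smul, mul_smul, tau_pow_rho hK1fix hηK1 hτ i, smul_mul', hh,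
        hK1fix h _ (K1.pow_mem hηK1 i), smul_mul', tau_pow_inv_rho hK1fix hηK1 hτ hη0 i,
        hK1fix _ _ (K1.pow_mem hηK1 i)]
      field_simp
    have := hx _ hconj
    calc h • (τ ^ i • x) = τ ^ i • (((τ ^ i)⁻¹ * h * τ ^ i) • x) := by
          rw [← mul_smul, ← mul_smul, ← mul_assoc, ← mul_assoc, mul_inv_cancel, one_mul]
      _ = τ ^ i • x := by rw [this]
  have hstabres : ∀ h : G, h • ρ = ρ → ∀ j : ℕ, h • resolvent τ η p x j = resolvent τ η p x j := by
    intro h hh j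
    unfold resolvent
    rw [smul_mul', smul_inv'', hK1fix h _ (natCast_mem K1 p), Finset.smul_sum]
    congr 1
    refine Finset.sum_congr rfl fun i _ => ?_
    rw [smul_mul', hK1fix h _ (K1.pow_mem (K1.inv_mem hηK1) _), hstab h hh i]
  -- the coefficients `y j = x_j / ρ ^ j` are fixed by `G`
  have hy : ∀ j : ℕ, resolvent τ η p x j / ρ ^ j ∈ K1 := by
    intro j
    apply hK1
    have hτy : τ • (resolvent τ η p x j / ρ ^ j) = resolvent τ η p x j / ρ ^ j := by
      rw [div_eq_mul_inv, smul_mul', smul_inv'', tau_resolvent hK1fix hηK1 hp.pos hη hxp j,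
        smul_pow', hτ, mul_pow]
      have := pow_ne_zero j hρ0
      have := pow_ne_zero j hη0
      field_simp
    have hτiy : ∀ i : ℕ, τ ^ i • (resolvent τ η p x j / ρ ^ j) = resolvent τ η p x j / ρ ^ j := by
      intro i
      induction i with
      | zero => simp
      | succ i ih => rw [pow_succ, mul_smul, hτy, ih]
    intro g
    obtain ⟨i, hi⟩ := hgρ g
    -- `g = τ^i * h`, `h` in the stabiliser
    set h := (τ ^ i)⁻¹ * g with hh
    have hhρ : h • ρ = ρ := by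
      rw [hh, mul_smul, hi, smul_mul', tau_pow_inv_rho hK1fix hηK1 hτ hη0 i,
        hK1fix _ _ (K1.pow_mem hηK1 i)]
      field_simp
    have hg : g = τ ^ i * h := by rw [hh, ← mul_assoc, mul_inv_cancel, one_mul]
    have hhy : h • (resolvent τ η p x j / ρ ^ j) = resolvent τ η p x j / ρ ^ j := by
      rw [div_eq_mul_inv, smul_mul', smul_inv'', hstabres h hhρ j, smul_pow', hhρ]
    rw [hg, mul_smul, hhy, hτiy i]
  -- assemble
  have hsum := sum_resolvent (τ := τ) hp hpK hη hη1 x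
  rw [← hsum]
  refine Submodule.sum_mem _ fun j hj => ?_
  have : resolvent τ η p x j = (⟨_, hy j⟩ : K1) • ρ ^ j := by
    rw [coe_smul']
    have := pow_ne_zero j hρ0
    field_simp
  rw [this]
  exact Submodule.smul_mem _ _ (pow_mem_powSpan ρ (mem_range.1 hj))

end Fermat.Agent.U44.Resolvent9
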