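/-
Programme U44 (target S44), chapter (LOC), file 5 (helper1): **the local lemma (L1)/(L2) at `ℚ̄`**.

`A` a valuation subring of `ℚ̄` over the odd or even prime `p`, `v = A.valuation`, `I = Iner A`,
`ζ` a primitive `p`-th root of unity, `I1 = Stab_I(ζ)` (`LocInst1B.I1`).
* `KOne A ζ`  : the fixed field of `I1` (`K₁` of the (TR) text);
* `LFix A ζ ρ` : the fixed field of `I_L = Stab_{I1}(ρ)` (`L` of the (TR) text);
* `tauEquiv τ` : the ring automorphism of `ℚ̄` given by `τ ∈ I1`;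
* `setup` : helper9's `LocMain9.Setup` holds for `(A.valuation, KOne A ζ, τ, p, ζ, ρ)` as soon as
  `ρ^p ∈ KOne A ζ` is a principal unit and `τ ρ ≠ ρ`;
* `mem_LFix_iff` (h6) : `LFix A ζ ρ = ∑_{j<p} K₁ ρ^j` (Lagrange resolvents, `Resolvent9`);
* `exists_isUnif` : **(L1)(i)–(iii), (L2b)** — there is `πL ∈ L` with `ε = τ πL / πL - 1`,
  `v (ζ - 1) < v ε < 1` (peu ramifiée: the break is not maximal), every `a ∈ Lˣ` is `πL^n a0` with
  `v a0 = 1`, `v (τ a0 - a0) < v ε`, and `v πL ^ (p (p-1)) = v p`;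
* `val_of_fixed` (L2a), `coeff_of_roots` (L2c) : a monic `B ∈ ℚ̄[T]` whose multiset of roots is
  `I_L`-stable and contained in `𝔪_A` has non-leading coefficients `c ∈ L`, `v c < 1`,
  `v (τ c - c) < v ε`.
-/
import Mathlib
import Fermat.Agent.U44.LocInst1B
import Fermat.Agent.U44.LocMain9
import Fermat.Agent.U44.Resolvent9
import Fermat.Agent.U44.LocPoly1

set_option autoImplicit false

open scoped Pointwise

namespace Fermat.Agent.U44.LocQb1

open Fermat.Agent.FF.InertiaWire8 Fermat.Agent.U44.LocInst1 Fermat.Agent.U44.LocInst1B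
  Fermat.Agent.U44.KummerSpan9 Fermat.Agent.U44.LocMain9
open Finset Polynomial

variable {A : ValuationSubring Qb} {p : ℕ}

variable (A) in
/-- `K₁`: the fixed field of `I1 = Stab_I(ζ)`. -/
noncomputable def KOne (ζ : Qb) : Subfield Qb := FixedPoints.subfield (I1 A ζ) Qb

theorem mem_KOne {ζ x : Qb} : x ∈ KOne A ζ ↔ ∀ σ : I1 A ζ, σ • x = x := Iff.rfl

theorem zeta_mem_KOne (ζ : Qb) : ζ ∈ KOne A ζ := fun σ => σ.2

variable (A) in
/-- `I_L`: the stabiliser of `ρ` in `I1`. -/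
noncomputable def IL (ζ ρ : Qb) : Subgroup (I1 A ζ) := MulAction.stabilizer (I1 A ζ) ρ

variable (A) in
/-- `L`: the fixed field of `I_L`. -/
noncomputable def LFix (ζ ρ : Qb) : Subfield Qb := FixedPoints.subfield (IL A ζ ρ) Qb

theorem mem_LFix {ζ ρ x : Qb} :
    x ∈ LFix A ζ ρ ↔ ∀ g : I1 A ζ, g • ρ = ρ → g • x = x := by
  constructor
  · intro h g hg
    exact h ⟨g, hg⟩
  · intro h g
    exact h g.1 g.2

/-- the ring automorphism of `ℚ̄` attached to `τ ∈ I1`. -/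
noncomputable def tauEquiv {ζ : Qb} (τ : I1 A ζ) : Qb ≃+* Qb :=
  MulSemiringAction.toRingEquiv (I1 A ζ) Qb τ

@[simp] theorem tauEquiv_apply {ζ : Qb} (τ : I1 A ζ) (x : Qb) : tauEquiv τ x = τ • x := rfl

theorem smul_def_I1 {ζ : Qb} (τ : I1 A ζ) (x : Qb) : τ • x = (τ : Iner A) • x := rfl

/-- **helper9's `Setup` at `ℚ̄`.** -/
theorem setup (hp : p.Prime) (hA : A.LiesOverPrime p) {ζ : Qb} (hζ : IsPrimitiveRoot ζ p)
    {ρ : Qb} (hu : ρ ^ p ∈ KOne A ζ) (hu1 : A.valuation (ρ ^ p - 1) < 1) (τ : I1 A ζ)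
    (hτρ : τ • ρ ≠ ρ) : Setup A.valuation (KOne A ζ) (tauEquiv τ) p ζ ρ where
  hp := hp
  hτK1 := fun _ hx => hx τ
  hτv := valuation_smul_eq (τ : Iner A)
  hτin := fun x hx => val_smul_sub_lt_one (τ : Iner A) hx
  hζ := hζ.pow_eq_one
  hζ1 := hζ.ne_one hp.one_lt
  hζK1 := zeta_mem_KOne ζ
  hval := fun _ hx hx0 => val_of_fixed_I1 hp hA hζ hx0 fun σ hσ => hx ⟨σ, hσ⟩
  hπp := val_zeta_sub_one_pow hp hζ
  hvp := val_natCast_lt_one hA
  hu := hu
  hu1 := hu1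
  hτρ := hτρ


/-! ### (h6) `L = K₁(ρ)` -/

section

variable {ζ ρ : Qb}

/-- `τ ρ / ρ` is a `p`-th root of unity in `K₁`. -/
theorem eta_spec (hp : p.Prime) (hζ : IsPrimitiveRoot ζ p) (hu : ρ ^ p ∈ KOne A ζ)
    (hρ0 : ρ ≠ 0) (τ : I1 A ζ) (hτρ : τ • ρ ≠ ρ) :
    ∃ η : Qb, η ^ p = 1 ∧ η ≠ 1 ∧ η ∈ KOne A ζ ∧ τ • ρ = η * ρ := by
  refine ⟨τ • ρ / ρ, ?_, ?_, ?_, ?_⟩
  · rw [div_pow, ← smul_pow', hu τ, div_self (pow_ne_zero _ hρ0)]
  · intro h1
    apply hτρ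
    rw [div_eq_one_iff_eq hρ0] at h1
    exact h1
  · have h1 : (τ • ρ / ρ) ^ p = 1 := by
      rw [div_pow, ← smul_pow', hu τ, div_self (pow_ne_zero _ hρ0)]
    have : NeZero p := ⟨hp.ne_zero⟩
    obtain ⟨i, -, hi⟩ := hζ.eq_pow_of_pow_eq_one h1
    rw [← hi]
    exact (KOne A ζ).pow_mem (zeta_mem_KOne ζ) i
  · field_simp

/-- **(h6)**: the fixed field of `I_L` is the `K₁`-span of `1, ρ, …, ρ^(p-1)`. -/
theorem mem_LFix_iff (hp : p.Prime) (hζ : IsPrimitiveRoot ζ p) (hu : ρ ^ p ∈ KOne A ζ)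
    (hρ0 : ρ ≠ 0) (τ : I1 A ζ) (hτρ : τ • ρ ≠ ρ) (x : Qb) :
    x ∈ LFix A ζ ρ ↔ x ∈ powSpan (KOne A ζ) ρ p := by
  constructor
  · intro hx
    obtain ⟨η, hη, hη1, hηK1, hτ⟩ := eta_spec hp hζ hu hρ0 τ hτρ
    have hpK : ((p : ℕ) : Qb) ≠ 0 := Nat.cast_ne_zero.mpr hp.ne_zero
    exact Fermat.Agent.U44.Resolvent9.mem_powSpan_of_fixed (G := I1 A ζ) (K1 := KOne A ζ)
      (τ := τ) (fun g y hy => hy g) (fun y hy => hy) hp hpK hη hη1 hηK1 hρ0 hu hτ
      (mem_LFix.mp hx)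
  · intro hx
    rw [mem_LFix]
    intro g hg
    have key : ∀ y ∈ Submodule.span (KOne A ζ) (Set.range fun i : Fin p => ρ ^ (i : ℕ)),
        g • y = y := by
      intro y hy
      induction hy using Submodule.span_induction with
      | mem y hy =>
          obtain ⟨i, rfl⟩ := hy
          rw [smul_pow', hg]
      | zero => exact smul_zero g
      | add y z _ _ hy hz => rw [smul_add, hy, hz]
      | smul c y _ hy =>
          rw [coe_smul', smul_mul', hy, c.2 g]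
    exact key x hx

end

/-! ### the main local lemma at `ℚ̄` -/

/-- **(L1)(i)–(iii) + (L2b) at `ℚ̄`**. -/
theorem exists_isUnif (hp : p.Prime) (hA : A.LiesOverPrime p) {ζ : Qb}
    (hζ : IsPrimitiveRoot ζ p) {ρ : Qb} (hu : ρ ^ p ∈ KOne A ζ)
    (hu1 : A.valuation (ρ ^ p - 1) < 1) (τ : I1 A ζ) (hτρ : τ • ρ ≠ ρ) :
    ∃ πL : Qb, IsUnif A.valuation (tauEquiv τ) p ζ (LFix A ζ ρ) πL := by
  have S := setup hp hA hζ hu hu1 τ hτρ
  exact S.exists_isUnif (LFix A ζ ρ) (mem_LFix_iff hp hζ hu S.rho_ne_zero τ hτρ)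


/-! ### (L2a), (L2c) at `ℚ̄` -/

theorem zpow_natCast_toNat_helper {Γ₀ : Type*} [LinearOrderedCommGroupWithZero Γ₀] {g : Γ₀} {n : ℤ}
    (hn : 1 ≤ n) : g ^ (n - 1).toNat = g ^ (n - 1) := by
  rw [← zpow_natCast, Int.toNat_of_nonneg (by omega)]

/-- **(L2a)**: an element fixed by `I1` has valuation in `(v (ζ - 1))^ℤ`; in particular, if it lies in
`𝔪_A` it is divisible by `ζ - 1` in `A`. -/
theorem val_of_fixed (hp : p.Prime) (hA : A.LiesOverPrime p) {ζ : Qb}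
    (hζ : IsPrimitiveRoot ζ p) {x : Qb} (hx : x ∈ KOne A ζ) (hx0 : x ≠ 0) :
    ∃ n : ℤ, A.valuation x = A.valuation (ζ - 1) ^ n :=
  val_of_fixed_I1 hp hA hζ hx0 fun σ hσ => hx ⟨σ, hσ⟩

theorem val_le_of_fixed_of_lt_one (hp : p.Prime) (hA : A.LiesOverPrime p) {ζ : Qb}
    (hζ : IsPrimitiveRoot ζ p) {x : Qb} (hx : x ∈ KOne A ζ) (hx1 : A.valuation x < 1) :
    A.valuation x ≤ A.valuation (ζ - 1) := by
  by_cases hx0 : x = 0
  · simp [hx0]
  obtain ⟨n, hn⟩ := val_of_fixed hp hA hζ hx hx0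
  have hlam1 := val_zeta_sub_one_lt_one hp hA hζ
  have hlam0 : A.valuation (ζ - 1) ≠ 0 :=
    (Valuation.ne_zero_iff _).mpr (zeta_sub_one_ne_zero hp hζ)
  have hpos : 0 < A.valuation (ζ - 1) := zero_lt_iff.mpr hlam0
  rw [hn] at hx1 ⊢
  -- `(v π)^n < 1` forces `n ≥ 1`
  have hn1 : 1 ≤ n := by
    by_contra hcon
    have hn0 : n ≤ 0 := by omega
    have : 1 ≤ A.valuation (ζ - 1) ^ n := by
      have h1 : A.valuation (ζ - 1) ^ n = (A.valuation (ζ - 1) ^ (-n).toNat)⁻¹ := by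
        rw [← zpow_natCast, Int.toNat_of_nonneg (by omega), zpow_neg, inv_inv]
      rw [h1]
      exact (one_le_inv₀ (pow_pos hpos _)).mpr (pow_le_one₀ zero_le hlam1.le)
    exact absurd hx1 (not_lt.mpr this)
  calc A.valuation (ζ - 1) ^ n = A.valuation (ζ - 1) ^ (1 : ℤ) * A.valuation (ζ - 1) ^ (n - 1) := by
        rw [← zpow_add₀ hlam0]; congr 1; ring
    _ ≤ A.valuation (ζ - 1) ^ (1 : ℤ) * 1 := by
        refine mul_le_mul_right ?_ _
        rw [← zpow_natCast_toNat_helper hn1]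
        exact pow_le_one₀ zero_le hlam1.le
    _ = A.valuation (ζ - 1) := by rw [mul_one, zpow_one]


section L2c

variable {ζ ρ πL : Qb} {τ : I1 A ζ}

/-- **(L2c)**: a monic `B ∈ ℚ̄[T]` whose multiset of roots is `I_L`-stable and contained in `𝔪_A`
has non-leading coefficients `c ∈ L` with `v c < 1` and `v (τ c - c) < v ε`. -/
theorem coeff_of_roots (U : IsUnif A.valuation (tauEquiv τ) p ζ (LFix A ζ ρ) πL) {B : Qb[X]}
    (hB : B.Monic)
    (hstab : ∀ g : I1 A ζ, g • ρ = ρ → B.roots.map (fun r => g • r) = B.roots)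
    (hroots : ∀ r ∈ B.roots, A.valuation r < 1) {k : ℕ} (hk : k < B.natDegree) :
    B.coeff k ∈ LFix A ζ ρ ∧ A.valuation (B.coeff k) < 1 ∧
      A.valuation (τ • B.coeff k - B.coeff k) < A.valuation (tauEquiv τ πL / πL - 1) := by
  have hmem : B.coeff k ∈ LFix A ζ ρ := by
    rw [mem_LFix]
    intro g hg
    exact Fermat.Agent.U44.LocPoly1.coeff_fixed_of_roots_stable hB (IsAlgClosed.splits B)
      (MulSemiringAction.toRingHom (I1 A ζ) Qb g) (hstab g hg) k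
  have hlt : A.valuation (B.coeff k) < 1 :=
    Fermat.Agent.U44.LocPoly1.coeff_lt_one_of_roots_of_isAlgClosed A.valuation hB hroots hk
  exact ⟨hmem, hlt, Setup.IsUnif_move_lt U hmem hlt⟩

/-- the same for the reversed products `∏ (1 - b T)` over an `I_L`-stable multiset in `𝔪_A`. -/
theorem coeff_one_sub_of_stable (U : IsUnif A.valuation (tauEquiv τ) p ζ (LFix A ζ ρ) πL)
    (s : Multiset Qb)
    (hstab : ∀ g : I1 A ζ, g • ρ = ρ → s.map (fun r => g • r) = s)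
    (hs : ∀ b ∈ s, A.valuation b < 1) {k : ℕ} (hk : 0 < k) :
    ((s.map fun b => 1 - C b * X).prod).coeff k ∈ LFix A ζ ρ ∧
      A.valuation (((s.map fun b => 1 - C b * X).prod).coeff k) < 1 ∧
      A.valuation (τ • ((s.map fun b => 1 - C b * X).prod).coeff k -
        ((s.map fun b => 1 - C b * X).prod).coeff k) < A.valuation (tauEquiv τ πL / πL - 1) := by
  set P : Qb[X] := (s.map fun b => 1 - C b * X).prod with hP
  have hmem : P.coeff k ∈ LFix A ζ ρ := by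
    rw [mem_LFix]
    intro g hg
    set σ : Qb →+* Qb := MulSemiringAction.toRingHom (I1 A ζ) Qb g with hσ
    have h1 : P.map σ = P := by
      conv_rhs => rw [hP, ← hstab g hg]
      rw [hP, Polynomial.map_multiset_prod, Multiset.map_map, Multiset.map_map]
      congr 1
      refine Multiset.map_congr rfl fun r _ => ?_
      simp [hσ]
    show σ (P.coeff k) = P.coeff k
    conv_rhs => rw [← h1]
    rw [coeff_map]
  have hlt : A.valuation (P.coeff k) < 1 :=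
    Fermat.Agent.U44.LocPoly1.coeff_prod_one_sub_lt_one A.valuation s hs hk
  exact ⟨hmem, hlt, Setup.IsUnif_move_lt U hmem hlt⟩

end L2c

end Fermat.Agent.U44.LocQb1
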