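/-
Programme U44 (target S44), block (TR) (helper3): **bridge between the field language of the
(TR) layer (`GaussRed3.Small`, `GaussRed3.AUnit`) and the valuation language of the (LOC) layer
(`A.valuation`).**
-/
import Mathlib
import Fermat.Agent.U44.GaussRed3

set_option autoImplicit false

open IsLocalRing

namespace Fermat.Agent.U44.ValBridge3

open Fermat.Agent.U44.GaussRed3

variable {K : Type*} [Field K] {A : ValuationSubring K}

theorem small_iff_val_lt_one {a : K} : Small A a ↔ A.valuation a < 1 := by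
  constructor
  · intro h
    have := (A.valuation_lt_one_iff ⟨a, h.1⟩).1 h.mem_max
    exact this
  · intro h
    have hA : a ∈ A := (A.valuation_le_one_iff a).1 h.le
    have := (A.valuation_lt_one_iff ⟨a, hA⟩).2 h
    exact small_of_mem_max this

theorem aunit_iff_val_eq_one {a : K} : AUnit A a ↔ A.valuation a = 1 := by
  constructor
  · rintro ⟨h1, h2, h0⟩
    have e1 : A.valuation a ≤ 1 := (A.valuation_le_one_iff a).2 h1
    have e2 : A.valuation a⁻¹ ≤ 1 := (A.valuation_le_one_iff a⁻¹).2 h2
    rw [map_inv₀] at e2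
    have hne : A.valuation a ≠ 0 := (Valuation.ne_zero_iff _).2 h0
    have e3 : 1 ≤ A.valuation a := by
      have := (inv_le_one₀ (zero_lt_iff.2 hne)).1 e2
      exact this
    exact le_antisymm e1 e3
  · intro h
    have h0 : a ≠ 0 := by
      rintro rfl
      rw [map_zero] at h
      exact zero_ne_one h
    refine ⟨(A.valuation_le_one_iff a).1 h.le, (A.valuation_le_one_iff a⁻¹).1 ?_, h0⟩
    rw [map_inv₀, h, inv_one]

theorem small_div_iff {a b : K} (hb : b ≠ 0) :
    Small A (a / b) ↔ A.valuation a < A.valuation b := by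
  have hvb : 0 < A.valuation b := zero_lt_iff.2 ((Valuation.ne_zero_iff _).2 hb)
  rw [small_iff_val_lt_one, map_div₀, div_lt_one₀ hvb]

theorem aunit_div_iff {a b : K} (hb : b ≠ 0) :
    AUnit A (a / b) ↔ A.valuation a = A.valuation b := by
  have hvb : A.valuation b ≠ 0 := (Valuation.ne_zero_iff _).2 hb
  rw [aunit_iff_val_eq_one, map_div₀, div_eq_one_iff_eq hvb]

theorem mem_div_iff {a b : K} (hb : b ≠ 0) :
    a / b ∈ A ↔ A.valuation a ≤ A.valuation b := by
  have hvb : 0 < A.valuation b := zero_lt_iff.2 ((Valuation.ne_zero_iff _).2 hb)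
  rw [← A.valuation_le_one_iff, map_div₀, div_le_one₀ hvb]

/-- `v x < v ε` means `x = ε s` with `s ∈ 𝔪_A`. -/
theorem exists_small_of_val_lt {x ε : K} (h : A.valuation x < A.valuation ε) :
    ∃ s : K, Small A s ∧ x = ε * s := by
  have hε : ε ≠ 0 := by
    rintro rfl
    rw [map_zero] at h
    exact not_lt_zero h
  exact ⟨x / ε, (small_div_iff hε).2 h, by field_simp⟩

/-- `v x ≤ v ε` means `x = ε s` with `s ∈ A`. -/
theorem exists_mem_of_val_le {x ε : K} (hε : ε ≠ 0) (h : A.valuation x ≤ A.valuation ε) :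
    ∃ s : K, s ∈ A ∧ x = ε * s :=
  ⟨x / ε, (mem_div_iff hε).2 h, by field_simp⟩

/-- a power of a nonzero element of `𝔪_A` is a unit only for the exponent `0`. -/
theorem zpow_eq_zero_of_aunit {a : K} (ha : Small A a) (ha0 : a ≠ 0) {n : ℤ}
    (h : AUnit A (a ^ n)) : n = 0 := by
  rw [aunit_iff_val_eq_one, map_zpow₀] at h
  have h1 : A.valuation a < 1 := small_iff_val_lt_one.1 ha
  have h0 : 0 < A.valuation a := zero_lt_iff.2 ((Valuation.ne_zero_iff _).2 ha0)
  by_contra hn
  rcases lt_or_gt_of_ne hn with hneg | hpos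
  · have : 1 < A.valuation a ^ n := by
      have h2 : A.valuation a ^ n = (A.valuation a ^ (-n))⁻¹ := by rw [zpow_neg, inv_inv]
      rw [h2]
      have h3 : A.valuation a ^ (-n) < 1 := by
        obtain ⟨k, hk⟩ := Int.eq_ofNat_of_zero_le (neg_pos.2 hneg).le
        rw [hk, zpow_natCast]
        have hk0 : k ≠ 0 := by
          rintro rfl
          simp at hk
          omega
        exact pow_lt_one₀ h0.le h1 hk0
      have h4 : 0 < A.valuation a ^ (-n) := zpow_pos h0 _
      exact (one_lt_inv₀ h4).2 h3
    rw [h] at this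
    exact lt_irrefl _ this
  · have : A.valuation a ^ n < 1 := by
      obtain ⟨k, hk⟩ := Int.eq_ofNat_of_zero_le hpos.le
      rw [hk, zpow_natCast]
      have hk0 : k ≠ 0 := by
        rintro rfl
        simp at hk
        omega
      exact pow_lt_one₀ h0.le h1 hk0
    rw [h] at this
    exact lt_irrefl _ this

end Fermat.Agent.U44.ValBridge3
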