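/-
Programme U44 (target S44), block (LOC) → (TR) (helper9): **the local algebra at `ℚ̄` in FIELD FORM**,
in the exact shapes consumed by `U44/TRFinal3`.

`A` a valuation subring of `ℚ̄` over the prime `p`, `ζ` a primitive `p`-th root of unity,
`I1 = Stab_{Iner A}(ζ)`, `ρ ∈ ℚ̄` with `ρ^p` an `I1`-fixed principal unit, `I_L = Stab_{I1}(ρ)`
(written as the predicate `g • ρ = ρ` on `g : I1 A ζ`).

* `wild` : if `τ ∈ I1` moves `ρ` there are `ε, πL` with `ε ∈ 𝔪_A ∖ {0}`, `πL^(p(p-1)) / p ∈ Aˣ`,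
  **(move)** every `I_L`-fixed `c ∈ 𝔪_A` has `τ c − c ∈ ε 𝔪_A`,
  **(unif)** every `I_L`-fixed `b ≠ 0` is `πL^n · unit` with `τ b = b (1 + ε (n + s))`, `s ∈ 𝔪_A`,
  **(L2a)** every `I1`-fixed `x ∈ 𝔪_A` lies in `ε 𝔪_A`.
* `tame` : an `I1`-fixed `b ≠ 0` has `b^(p-1) = p^n · unit`.
* `small_p`, `p_ne_zero`.
-/
import Mathlib
import Fermat.Agent.U44.LocQb1
import Fermat.Agent.U44.ValBridge3

set_option autoImplicit false

open scoped Pointwise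

namespace Fermat.Agent.U44.LocField9

open Fermat.Agent.FF.InertiaWire8 Fermat.Agent.U44.LocInst1 Fermat.Agent.U44.LocInst1B
  Fermat.Agent.U44.LocMain9 Fermat.Agent.U44.LocQb1 Fermat.Agent.U44.GaussRed3
  Fermat.Agent.U44.ValBridge3

variable {A : ValuationSubring Qb} {p : ℕ}

theorem p_ne_zero (hp : p.Prime) : (p : Qb) ≠ 0 := Nat.cast_ne_zero.mpr hp.ne_zero

theorem small_p (hA : A.LiesOverPrime p) : Small A (p : Qb) :=
  small_iff_val_lt_one.2 (val_natCast_lt_one hA)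

/-- **the wild case.** -/
theorem wild (hp : p.Prime) (hA : A.LiesOverPrime p) {ζ : Qb} (hζ : IsPrimitiveRoot ζ p)
    {ρ : Qb} (hu : ∀ σ : I1 A ζ, σ • ρ ^ p = ρ ^ p) (hu1 : Small A (ρ ^ p - 1)) (τ : I1 A ζ)
    (hτρ : τ • ρ ≠ ρ) :
    ∃ ε πL : Qb, Small A ε ∧ ε ≠ 0 ∧ πL ≠ 0 ∧ AUnit A (πL ^ (p * (p - 1)) / (p : Qb)) ∧
      (∀ c : Qb, (∀ g : I1 A ζ, g • ρ = ρ → g • c = c) → Small A c →
        ∃ s : Qb, Small A s ∧ τ • c - c = ε * s) ∧
      (∀ b : Qb, b ≠ 0 → (∀ g : I1 A ζ, g • ρ = ρ → g • b = b) →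
        ∃ (n : ℤ) (s : Qb), AUnit A (b / πL ^ n) ∧ Small A s ∧
          τ • b = b * (1 + ε * ((n : Qb) + s))) ∧
      (∀ x : Qb, (∀ σ : I1 A ζ, σ • x = x) → Small A x → ∃ s : Qb, Small A s ∧ x = ε * s) := by
  have hu' : ρ ^ p ∈ KOne A ζ := hu
  have hu1' : A.valuation (ρ ^ p - 1) < 1 := small_iff_val_lt_one.1 hu1
  have S := setup hp hA hζ hu' hu1' τ hτρ
  obtain ⟨πL, U⟩ := exists_isUnif hp hA hζ hu' hu1' τ hτρ
  set ε : Qb := tauEquiv τ πL / πL - 1 with hε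
  have hε0 : ε ≠ 0 := U.eps_ne
  refine ⟨ε, πL, small_iff_val_lt_one.2 U.eps_lt, hε0, U.ne_zero, ?_, ?_, ?_, ?_⟩
  · rw [aunit_div_iff (p_ne_zero hp), map_pow]
    exact U.pow_eq
  · intro c hc hcs
    have hcL : c ∈ LFix A ζ ρ := mem_LFix.2 hc
    have h1 := Setup.IsUnif_move_lt U hcL (small_iff_val_lt_one.1 hcs)
    exact exists_small_of_val_lt h1
  · intro b hb0 hb
    have hbL : b ∈ LFix A ζ ρ := mem_LFix.2 hb
    obtain ⟨n, hvn, hlt⟩ := S.IsUnif_refined U hbL hb0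
    refine ⟨n, ?_⟩
    have hlt' : A.valuation (tauEquiv τ b - b - (n : Qb) * ε * b) < A.valuation (ε * b) := by
      rw [map_mul]
      exact hlt
    obtain ⟨s, hs, hx⟩ := exists_small_of_val_lt hlt'
    refine ⟨s, ?_, hs, ?_⟩
    · rw [aunit_div_iff (zpow_ne_zero _ U.ne_zero), map_zpow₀]
      exact hvn
    · have h2 : tauEquiv τ b = b + (n : Qb) * ε * b + ε * b * s := by
        rw [← hx]; ring
      show tauEquiv τ b = _
      rw [h2]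
      ring
  · intro x hx hxs
    have hxK : x ∈ KOne A ζ := hx
    have h1 := val_le_of_fixed_of_lt_one hp hA hζ hxK (small_iff_val_lt_one.1 hxs)
    exact exists_small_of_val_lt (lt_of_le_of_lt h1 U.pi_lt)

/-- **the tame case**: an `I1`-fixed `b ≠ 0` has `b^(p-1) = p^n · unit`. -/
theorem tame (hp : p.Prime) (hA : A.LiesOverPrime p) {ζ : Qb} (hζ : IsPrimitiveRoot ζ p)
    {b : Qb} (hb : ∀ σ : I1 A ζ, σ • b = b) (hb0 : b ≠ 0) :
    ∃ n : ℤ, AUnit A (b ^ (p - 1) / (p : Qb) ^ n) := by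
  have hbK : b ∈ KOne A ζ := hb
  obtain ⟨n, hn⟩ := val_of_fixed hp hA hζ hbK hb0
  refine ⟨n, ?_⟩
  rw [aunit_div_iff (zpow_ne_zero _ (p_ne_zero hp)), map_pow, map_zpow₀, hn,
    ← val_zeta_sub_one_pow (A := A) hp hζ, ← zpow_natCast, ← zpow_natCast, ← zpow_mul, ← zpow_mul,
    mul_comm]

end Fermat.Agent.U44.LocField9
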