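/-
Programme U44 (S44), chapter (HECKE), block (H2), ABSTRACT layer (helper1):
**"the constant slope vector is Eisenstein"** — the bookkeeping of (H2) for nodes of thickness
one at both levels.

Part A (function fields over `κ`, all places of degree one; the correspondence `ψ_* φ^*`):
* `correspondence_apply_eq_sum` : `(ψ_* φ^* D)(Q) = Σ_{w ∈ ψ⁻¹(Q)} e_φ(w) · D(w|φ)`;
* **`rowSum`** : families of "node points" `s : ι → Place κ Fb`, `s' : ι' → Place κ Fb'` such that
  the `ψ`-fibre of a node consists of nodes, `e_ψ = e_φ = 1` at the nodes `s' k'`, and `φ` maps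
  nodes to nodes; if `D ≡ γ (mod p)` at all the nodes then
  `(ψ_* φ^* D)(s k) ≡ [Fb' : ψ Fb] · γ (mod p)`.

Part B (two nodal reduction contexts `N`, `N'` and a `LevelMap N N'` = a map `φ : F → F'` with its
reductions `φ₁, φ₂` on the two components, compatible with the Gauss rings, the reductions and the
reduction of places):
* **`LevelMap.ramificationIndex_eq_one`** : annulus coordinates at `k'` and at its image `k`, both
  of thickness `π · unit` ⟹ `e_{φ₁}(s1' k') = 1` (quantitative slope formula `Annulus3.quant_slope`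
  applied to `φ (z'_k)`);
* `LevelMap.exists_node_of_fibre` : (given "going-down") a point over a node is a node;
* `LevelMap.exists_node_of_image` : the image of a node is a node.

Part C:
* `KData.zpow`; **`hecke_slope_congr`** : if the divisor of the reduction of the Kummer datum
  `(D', f', c')` is `ψ_* φ^*` of that of `(D, f, c)` and the slopes of `(D, f, c)` at the nodes are
  all `≡ γ`, then the slopes of `(D', f', c')` at the nodes are all `≡ [Fb' : ψ Fb] · γ`;
* **`eisenstein_abs`** : if moreover `[D'] = a • [D]` then `p ∣ (a − [Fb' : ψ Fb]) · slope_k` for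
  every node `k`.
-/
import Mathlib
import Fermat.Agent.U44.EtaleAbs1
import Fermat.Agent.U44.Annulus3
import Fermat.Agent.ES.HECKE.PointFormula28

set_option autoImplicit false
set_option linter.unusedSectionVars false
set_option linter.style.haveILetI false
set_option linter.unusedVariables false

open AlgebraicCurve IsLocalRing

noncomputable section

namespace Fermat.Agent.U44.SlopeHecke1

open Fermat.Agent.T33.NodalCtx1 Fermat.Agent.T33.NodalCurve6 Fermat.Agent.U44.GaussRed3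
  Fermat.Agent.RR.LSpace Fermat.Agent.X0.FF Fermat.Agent.U44.SlopeIndep3
  Fermat.Agent.U44.EtaleAbs1 Fermat.Agent.U44.Annulus3 Fermat.Agent.ES.HECKE.PointFormula28

/-! ### Part A: the row sums of a correspondence at unramified nodes -/

section RowSum

variable {κ Fb Fb' : Type*} [Field κ] [Field Fb] [Field Fb'] [Algebra κ Fb] [Algebra κ Fb']
variable [HasPrincipalDivisors κ Fb']
variable (φ ψ : Fb →ₐ[κ] Fb') (hφ : φ.toRingHom.IsIntegral) (hψ : ψ.toRingHom.IsIntegral)

/-- push-forward at a point, as a sum over the fibre (all places of degree one). -/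
theorem pushforwardAlong_apply_eq_sum (hdeg' : ∀ w : Place κ Fb', w.deg = 1)
    (D' : Divisor κ Fb') (Q : Place κ Fb) :
    Divisor.pushforwardAlong ψ hψ D' Q = ∑ w ∈ Place.fiberAlong ψ hψ Q, D' w := by
  classical
  have h1 : Divisor.pushforwardAlong ψ hψ D' Q =
      ∑ w ∈ D'.support, if w.restrictAlong ψ hψ = Q then
        D' w * (w.inertiaDegAlong ψ hψ : ℤ) else 0 := by
    letI := algebraAlong ψ
    haveI := isScalarTower_along ψ
    haveI := isIntegral_along ψ hψ
    exact Divisor.pushforward_apply D' Q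
  rw [h1]
  have h2 : ∀ w ∈ D'.support, (if w.restrictAlong ψ hψ = Q then
      D' w * (w.inertiaDegAlong ψ hψ : ℤ) else 0) =
      if w ∈ Place.fiberAlong ψ hψ Q then D' w else 0 := by
    intro w _
    rw [inertiaDegAlong_eq_one ψ hψ w (hdeg' w), Nat.cast_one, mul_one]
    simp only [Place.mem_fiberAlong]
  rw [Finset.sum_congr rfl h2, Finset.sum_ite_mem]
  refine Finset.sum_subset Finset.inter_subset_right fun w hw hnot => ?_
  by_contra hne
  exact hnot (Finset.mem_inter.2 ⟨Finsupp.mem_support_iff.2 hne, hw⟩)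

/-- **the correspondence at a point, as a sum over the fibre.** -/
theorem correspondence_apply_eq_sum (hdeg' : ∀ w : Place κ Fb', w.deg = 1)
    (D : Divisor κ Fb) (Q : Place κ Fb) :
    Divisor.correspondence φ ψ hφ hψ D Q =
      ∑ w ∈ Place.fiberAlong ψ hψ Q,
        (w.ramificationIndexAlong φ : ℤ) * D (w.restrictAlong φ hφ) := by
  rw [Divisor.correspondence_apply, pushforwardAlong_apply_eq_sum ψ hψ hdeg']
  refine Finset.sum_congr rfl fun w _ => ?_
  rw [Divisor.pullbackAlong_apply]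

/-- **the row sums at unramified nodes.** -/
theorem rowSum (hdeg' : ∀ w : Place κ Fb', w.deg = 1) (hdeg : ∀ v : Place κ Fb, v.deg = 1)
    (hFI : FundamentalIdentityAlong κ ψ hψ)
    {ι ι' : Type*} (s : ι → Place κ Fb) (s' : ι' → Place κ Fb')
    (hfib : ∀ k, ∀ w ∈ Place.fiberAlong ψ hψ (s k), ∃ k', w = s' k')
    (heψ : ∀ k', (s' k').ramificationIndexAlong ψ = 1)
    (heφ : ∀ k', (s' k').ramificationIndexAlong φ = 1)
    (himg : ∀ k', ∃ k, (s' k').restrictAlong φ hφ = s k)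
    {p : ℕ} (D : Divisor κ Fb) (γ : ℤ) (hD : ∀ k, (p : ℤ) ∣ D (s k) - γ) (k : ι) :
    (p : ℤ) ∣ Divisor.correspondence φ ψ hφ hψ D (s k) - (finrankAlong κ ψ : ℤ) * γ := by
  rw [correspondence_apply_eq_sum φ ψ hφ hψ hdeg',
    ← sum_ramificationIndexAlong ψ hψ hFI hdeg' (s k) (hdeg (s k)), Finset.sum_mul,
    ← Finset.sum_sub_distrib]
  refine Finset.dvd_sum fun w hw => ?_
  obtain ⟨k', rfl⟩ := hfib k w hw
  obtain ⟨k₂, hk₂⟩ := himg k'
  rw [heψ k', heφ k', hk₂, Nat.cast_one, one_mul, one_mul]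
  exact hD k₂

end RowSum

/-! ### Part B: level maps between nodal reduction contexts -/

section LevelMaps

variable {K : Type*} [Field K] {A : ValuationSubring K}
variable {F F' : Type*} [Field F] [Field F'] [Algebra K F] [Algebra K F']
variable {Fb₁ Fb₂ Fb₁' Fb₂' : Type*} [Field Fb₁] [Field Fb₂] [Field Fb₁'] [Field Fb₂']
  [Algebra (ResidueField A) Fb₁] [Algebra (ResidueField A) Fb₂]
  [Algebra (ResidueField A) Fb₁'] [Algebra (ResidueField A) Fb₂']
variable {ι ι' : Type*} {Nd : NodalData (ResidueField A) Fb₁ Fb₂ ι}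
  {Nd' : NodalData (ResidueField A) Fb₁' Fb₂' ι'}

/-- **a level map** between two nodal reduction contexts: `φ : F → F'` with its reductions on the
two components, compatible with the Gauss rings, the reductions and the reduction of places. -/
structure LevelMap (N : NodalRed A F Nd) (N' : NodalRed A F' Nd') where
  /-- the map of function fields (generic fibre). -/
  φ : F →ₐ[K] F'
  hφ : φ.toRingHom.IsIntegral
  /-- its reduction on the first component. -/
  φ₁ : Fb₁ →ₐ[ResidueField A] Fb₁'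
  hφ₁ : φ₁.toRingHom.IsIntegral
  /-- its reduction on the second component. -/
  φ₂ : Fb₂ →ₐ[ResidueField A] Fb₂'
  hφ₂ : φ₂.toRingHom.IsIntegral
  mem₁ : ∀ y : F, y ∈ N.c₁.O → φ y ∈ N'.c₁.O
  ρ₁ : ∀ (y : F) (hy : y ∈ N.c₁.O), N'.c₁.ρ ⟨φ y, mem₁ y hy⟩ = φ₁ (N.c₁.ρ ⟨y, hy⟩)
  mem₂ : ∀ y : F, y ∈ N.c₂.O → φ y ∈ N'.c₂.O
  ρ₂ : ∀ (y : F) (hy : y ∈ N.c₂.O), N'.c₂.ρ ⟨φ y, mem₂ y hy⟩ = φ₂ (N.c₂.ρ ⟨y, hy⟩)
  r₁ : ∀ (P' : Place K F') (Q' : Place (ResidueField A) Fb₁'), N'.r₁ P' = some Q' →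
    N.r₁ (P'.restrictAlong φ hφ) = some (Q'.restrictAlong φ₁ hφ₁)
  r₂ : ∀ (P' : Place K F') (Q' : Place (ResidueField A) Fb₂'), N'.r₂ P' = some Q' →
    N.r₂ (P'.restrictAlong φ hφ) = some (Q'.restrictAlong φ₂ hφ₂)

namespace LevelMap

variable {N : NodalRed A F Nd} {N' : NodalRed A F' Nd'} (L : LevelMap N N')

theorem isGU₁ {y : F} (hy : IsGU N.c₁ y) : IsGU N'.c₁ (L.φ y) := by
  refine ⟨L.mem₁ y hy.mem, ?_⟩
  rw [red_of_mem N'.c₁ (L.mem₁ y hy.mem), L.ρ₁ y hy.mem]
  exact (map_ne_zero L.φ₁).2 hy.ρ_ne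

theorem red₁ {y : F} (hy : y ∈ N.c₁.O) : red N'.c₁ (L.φ y) = L.φ₁ (red N.c₁ y) := by
  rw [red_of_mem N'.c₁ (L.mem₁ y hy), red_of_mem N.c₁ hy, L.ρ₁ y hy]

theorem isGU₂ {y : F} (hy : IsGU N.c₂ y) : IsGU N'.c₂ (L.φ y) := by
  refine ⟨L.mem₂ y hy.mem, ?_⟩
  rw [red_of_mem N'.c₂ (L.mem₂ y hy.mem), L.ρ₂ y hy.mem]
  exact (map_ne_zero L.φ₂).2 hy.ρ_ne

/-- `Small π`, `π ≠ 0` ⟹ no positive power of `π` is a unit. -/
theorem not_aunit_pow {π : K} (hπS : Small A π) {m : ℕ} (hm : 0 < m) : ¬ AUnit A (π ^ m) := by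
  intro hu
  apply hu.not_small
  obtain ⟨n, rfl⟩ : ∃ n, m = n + 1 := ⟨m - 1, by omega⟩
  rw [pow_succ, mul_comm]
  exact hπS.mul_mem (A.pow_mem hπS.1 n)

/-- **thickness one at both levels ⟹ the reduction of the level map is unramified at the
node.** -/
theorem ramificationIndex_eq_one {k : ι} {k' : ι'}
    (hk : (Nd'.s1 k').restrictAlong L.φ₁ L.hφ₁ = Nd.s1 k)
    (X : AnnCoord N k) (X' : AnnCoord N' k') {π : K} (hπS : Small A π) (hπ0 : π ≠ 0)
    (hX : AUnit A (X.ϖ / π)) (hX' : AUnit A (X'.ϖ / π)) :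
    (Nd'.s1 k').ramificationIndexAlong L.φ₁ = 1 := by
  set e : ℕ := (Nd'.s1 k').ramificationIndexAlong L.φ₁ with he
  have hepos : 0 < e := by
    letI := algebraAlong L.φ₁
    haveI := isScalarTower_along L.φ₁
    haveI := isIntegral_along L.φ₁ L.hφ₁
    exact (Nd'.s1 k').ramificationIndex_pos (F := Fb₁)
  set g : F' := L.φ X.zp with hg
  have hg0 : g ≠ 0 := (map_ne_zero L.φ).2 X.zp_ne
  -- normalisations
  have hGU₁ : IsGU N'.c₁ (algebraMap K F' 1 * g) := by
    rw [map_one, one_mul]; exact L.isGU₁ X.zp_gu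
  have hϖF : algebraMap K F' X.ϖ ≠ 0 := by
    rw [ne_eq, _root_.map_eq_zero]; exact X.ϖ_ne
  have hgy : algebraMap K F' X.ϖ⁻¹ * g = L.φ X.y₂ := by
    rw [hg, X.zp_eq, map_mul, AlgHom.commutes, map_inv₀, ← mul_assoc, inv_mul_cancel₀ hϖF,
      one_mul]
  have hGU₂ : IsGU N'.c₂ (algebraMap K F' X.ϖ⁻¹ * g) := by
    rw [hgy]; exact L.isGU₂ X.y₂_gu
  -- no zero or pole over the node
  have hno : ∀ P' : Place K F', N'.RedToNode P' k' → P'.ord g = 0 := by
    intro P' hP'
    have h1 : N.RedToNode (P'.restrictAlong L.φ L.hφ) k := by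
      have := L.r₁ P' _ hP'
      rwa [hk] at this
    rw [hg, Place.ord_restrictAlong L.φ L.hφ P' X.zp, X.ord_zp_eq_zero _ h1, mul_zero]
  have hqs := quant_slope X' hg0 hno hGU₁ hGU₂
  -- the slope
  have hs : (Nd'.s1 k').ord (red N'.c₁ (algebraMap K F' 1 * g)) = (e : ℤ) := by
    rw [map_one, one_mul, hg, L.red₁ X.zp_mem, Place.ord_restrictAlong L.φ₁ L.hφ₁, hk, X.ord_zp,
      mul_one]
  rw [hs, zpow_natCast] at hqs
  -- `π ^ (e - 1)` is a unit
  by_contra hne
  have he2 : 0 < e - 1 := by omega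
  apply not_aunit_pow hπS he2
  have hϖ0 := X.ϖ_ne
  have hϖ'0 := X'.ϖ_ne
  have h1 : AUnit A (X.ϖ⁻¹ * X'.ϖ ^ e) := by
    have := hqs.inv
    rwa [one_div, inv_inv] at this
  have h2 : AUnit A (X'.ϖ ^ e / π) := by
    have := h1.mul hX
    have e1 : X.ϖ⁻¹ * X'.ϖ ^ e * (X.ϖ / π) = X'.ϖ ^ e / π := by
      field_simp
    rwa [e1] at this
  have h3 : AUnit A ((X'.ϖ / π) ^ e)⁻¹ := (hX'.pow e).inv
  have h4 := h2.mul h3
  have e2 : X'.ϖ ^ e / π * ((X'.ϖ / π) ^ e)⁻¹ = π ^ (e - 1) := by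
    obtain ⟨n, hn⟩ : ∃ n, e = n + 1 := ⟨e - 1, by omega⟩
    rw [hn, Nat.add_sub_cancel, div_pow]
    have : X'.ϖ ^ (n + 1) ≠ 0 := pow_ne_zero _ hϖ'0
    field_simp
    ring
  rwa [e2] at h4

/-- **a point over a node is a node** (given going-down for the level map). -/
theorem exists_node_of_fibre
    (hdown : ∀ P' : Place K F', N'.r₁ P' ≠ none →
      N.r₂ (P'.restrictAlong L.φ L.hφ) ≠ none → N'.r₂ P' ≠ none)
    (hex : ∀ Q' : Place (ResidueField A) Fb₁', ∃ P' : Place K F', N'.r₁ P' = some Q')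
    {k : ι} {Q' : Place (ResidueField A) Fb₁'}
    (hQ' : Q'.restrictAlong L.φ₁ L.hφ₁ = Nd.s1 k) : ∃ k', Q' = Nd'.s1 k' := by
  obtain ⟨P', hP'⟩ := hex Q'
  have h1 : N.r₁ (P'.restrictAlong L.φ L.hφ) = some (Nd.s1 k) := by
    rw [← hQ']; exact L.r₁ P' Q' hP'
  have h2 : N.r₂ (P'.restrictAlong L.φ L.hφ) = some (Nd.s2 k) := (N.node_iff _ k).1 h1
  have h3 : N'.r₂ P' ≠ none := hdown P' (by rw [hP']; simp) (by rw [h2]; simp)
  by_contra hne
  push Not at hne
  exact h3 (N'.smooth₁ P' Q' hP' hne)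

/-- **the image of a node is a node.** -/
theorem exists_node_of_image
    (hex : ∀ k' : ι', ∃ P' : Place K F', N'.r₁ P' = some (Nd'.s1 k')) (k' : ι') :
    ∃ k, (Nd'.s1 k').restrictAlong L.φ₁ L.hφ₁ = Nd.s1 k := by
  obtain ⟨P', hP'⟩ := hex k'
  have h2 : N'.r₂ P' = some (Nd'.s2 k') := (N'.node_iff _ k').1 hP'
  have h3 := L.r₁ P' _ hP'
  have h4 := L.r₂ P' _ h2
  by_contra hne
  push Not at hne
  have := N.smooth₁ _ _ h3 hne
  rw [h4] at this
  exact absurd this (by simp)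

end LevelMap

end LevelMaps

/-! ### Part C: the Hecke operator on the slopes -/

section Slopes

variable {K : Type*} [Field K] {A : ValuationSubring K}
variable {F : Type*} [Field F] [Algebra K F]
variable {Fb : Type*} [Field Fb] [Algebra (ResidueField A) Fb] {R : HalfRed A F Fb}

theorem KData.zpow {p : ℕ} {D : Divisor.degZero (K := K) (F := F)} {f : F} {c : K}
    (h : KData R p D f c) (n : ℤ) : KData R p (n • D) (f ^ n) (c ^ n) := by
  refine ⟨zpow_ne_zero _ h.f_ne, fun P => ?_, ?_⟩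
  · rw [Place.ord_zpow, h.ord_f P]
    simp only [AddSubgroup.coe_zsmul, Finsupp.coe_smul, Pi.smul_apply, smul_eq_mul]
    ring
  · have e : algebraMap K F (c ^ n) * f ^ n = (algebraMap K F c * f) ^ n := by
      rw [map_zpow₀, mul_zpow]
    rw [e]
    exact h.gu.zpow n

theorem KData.red_zpow {p : ℕ} {D : Divisor.degZero (K := K) (F := F)} {f : F} {c : K}
    (h : KData R p D f c) (n : ℤ) :
    red R (algebraMap K F (c ^ n) * f ^ n) = red R (algebraMap K F c * f) ^ n := by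
  have e : algebraMap K F (c ^ n) * f ^ n = (algebraMap K F c * f) ^ n := by
    rw [map_zpow₀, mul_zpow]
  rw [e, h.gu.red_zpow]

variable {Fb' : Type*} [Field Fb'] [Algebra (ResidueField A) Fb']
  [HasPrincipalDivisors (ResidueField A) Fb']
variable (φ ψ : Fb →ₐ[ResidueField A] Fb') (hφ : φ.toRingHom.IsIntegral)
  (hψ : ψ.toRingHom.IsIntegral)

/-- **the slopes of the Hecke transform.** -/
theorem hecke_slope_congr (Hb : LHyp (ResidueField A) Fb)
    (hdeg' : ∀ w : Place (ResidueField A) Fb', w.deg = 1)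
    (hFI : FundamentalIdentityAlong (ResidueField A) ψ hψ)
    {ι ι' : Type*} (s : ι → Place (ResidueField A) Fb) (s' : ι' → Place (ResidueField A) Fb')
    (hfib : ∀ k, ∀ w ∈ Place.fiberAlong ψ hψ (s k), ∃ k', w = s' k')
    (heψ : ∀ k', (s' k').ramificationIndexAlong ψ = 1)
    (heφ : ∀ k', (s' k').ramificationIndexAlong φ = 1)
    (himg : ∀ k', ∃ k, (s' k').restrictAlong φ hφ = s k)
    {p : ℕ} {D D' : Divisor.degZero (K := K) (F := F)} {f f' : F} {c c' : K}
    (hk : KData R p D f c) (hk' : KData R p D' f' c')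
    (hdiv : ∀ Du : Divisor (ResidueField A) Fb,
      (∀ Q : Place (ResidueField A) Fb, Du Q = Q.ord (red R (algebraMap K F c * f))) →
      ∀ Q : Place (ResidueField A) Fb,
        Divisor.correspondence φ ψ hφ hψ Du Q = Q.ord (red R (algebraMap K F c' * f')))
    (γ : ℤ) (hγ : ∀ k, (p : ℤ) ∣ (s k).ord (red R (algebraMap K F c * f)) - γ) (k : ι) :
    (p : ℤ) ∣ (s k).ord (red R (algebraMap K F c' * f')) -
      (finrankAlong (ResidueField A) ψ : ℤ) * γ := by
  set Du := divOf Hb hk.red_ne with hDu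
  have hDu' : ∀ Q : Place (ResidueField A) Fb, Du Q = Q.ord (red R (algebraMap K F c * f)) :=
    fun Q => divOf_apply Hb hk.red_ne Q
  rw [← hdiv Du hDu' (s k)]
  exact rowSum φ ψ hφ hψ hdeg' Hb.deg_eq_one hFI s s' hfib heψ heφ himg Du γ
    (fun k => by rw [hDu' (s k)]; exact hγ k) k

omit [HasPrincipalDivisors (ResidueField A) Fb'] in
/-- **(H2), abstract form**: `[D'] = a • [D]`, the slopes of `(D, f, c)` at the nodes are
`≡ γ` and those of `(D', f', c')` are `≡ n γ` ⟹ `p ∣ (a − n) · slope_k`. -/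
theorem eisenstein_abs (H : LHyp K F) {p : ℕ}
    {D D' : Divisor.degZero (K := K) (F := F)} {f f' : F} {c c' : K}
    (hk : KData R p D f c) (hk' : KData R p D' f' c') (a : ℤ)
    (hT : Pic0.mk D' = a • Pic0.mk D) (n : ℤ) (γ : ℤ)
    {ι : Type*} (s : ι → Place (ResidueField A) Fb)
    (hγ : ∀ k, (p : ℤ) ∣ (s k).ord (red R (algebraMap K F c * f)) - γ)
    (hrow : ∀ k, (p : ℤ) ∣ (s k).ord (red R (algebraMap K F c' * f')) - n * γ) (k : ι) :
    (p : ℤ) ∣ (a - n) * (s k).ord (red R (algebraMap K F c * f)) := by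
  have hka := KData.zpow hk a
  have hmk : Pic0.mk (a • D) = Pic0.mk D' := by
    rw [hT]; rfl
  obtain ⟨r, hr, hcmp⟩ := exists_compare H hmk hka hk'
  have h1 := hcmp (s k)
  rw [KData.red_zpow hk a, Place.ord_zpow] at h1
  obtain ⟨u, hu⟩ := hγ k
  obtain ⟨v, hv⟩ := hrow k
  refine ⟨v - (s k).ord r - n * u, ?_⟩
  have e1 : (s k).ord (red R (algebraMap K F c * f)) = γ + p * u := by linarith
  have e2 : (s k).ord (red R (algebraMap K F c' * f')) = n * γ + p * v := by linarith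
  rw [e2, e1] at h1
  rw [e1]
  linear_combination (-1 : ℤ) * h1

end Slopes

end Fermat.Agent.U44.SlopeHecke1
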