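/-
Programme U44, chapter (HECKE), file 15 (helper4): **(H2) at `X₀(M'p)`: the constant slope vector is
Eisenstein** — instance of helper1's `SlopeHecke1` for the two degeneracy maps
`α, β : X₀((M'ℓ)p) → X₀(M'p)` (`LevelEllB4.alphaE`, `betaE`).

`h : LevelHyp p M' A`, `h' = hEll h hℓ hℓp : LevelHyp p (M'ℓ) A`, `N = nodalRed h`,
`N' = nodalRed h'`, `ᾱ = alphaC`, `β̄ = betaC`.

* `RedCompat h hℓ hℓp hℓM` : the five place-level facts (compatibility of the reduction of places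
  with `α` and `β`, going-down for `α`) — to be supplied by helper9's `RedCompat9` instance;
* `exists_r₁` : every point of the first component is the reduction of a place;
* `levelMapα`, `levelMapβ : LevelMap N N'` (`α` reduces to `(ᾱ, β̄)`, `β` to `(β̄, ᾱ)`);
* `fibre_node`, `image_node_α`, `image_node_β`, `ramification_α`, `ramification_β`;
* **`hecke_slope`** : the slopes at the nodes of `T_ℓ` of a Kummer datum with slopes `≡ γ` are
  `≡ (ℓ + 1) γ`;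
* **`eisenstein`** : `T_ℓ [D] = a [D]` and slopes `≡ γ` at all the nodes ⟹
  `p ∣ (a − (ℓ + 1)) · slope_k`.
-/
import Mathlib
import Fermat.Agent.U44.SlopeHecke1
import Fermat.Agent.U44.EtaleHecke4
import Fermat.Agent.U44.LevelEllB4
import Fermat.Agent.U44.LocField9
import Fermat.Agent.T33.NodalMany2

set_option autoImplicit false
set_option linter.unusedSectionVars false
set_option linter.style.haveILetI false
set_option linter.unusedVariables false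
set_option synthInstance.maxHeartbeats 400000

noncomputable section

namespace Fermat.Agent.U44.SlopeHeckeInst4

open HahnSeries ModularCurve IntermediateField IsLocalRing AlgebraicCurve
open Fermat.Agent.RED.Interface4 Fermat.Agent.ES.RED
  Fermat.Agent.T33.NodalCtx1 Fermat.Agent.T33.NodalHalf4
  Fermat.Agent.T33.NodalBase4A Fermat.Agent.T33.FrickeRed3 Fermat.Agent.U44.DegreeC4
  Fermat.Agent.U44.LevelEll4 Fermat.Agent.U44.LevelEllB4 Fermat.Agent.U44.HeckeC4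
  Fermat.Agent.U44.HeckePsi4
  Fermat.Agent.ES.HECKE.PointFormula28 Fermat.Agent.ES.HECKE Fermat.Agent.U44.GaussRed3
  Fermat.Agent.U44.DatumHecke4 Fermat.Agent.U44.EtaleAbs1
  Fermat.Agent.U44.EtaleInst1 Fermat.Agent.T33.NodalInst4C Fermat.Agent.T33.Psi3D
  Fermat.Agent.U44.Annulus3 Fermat.Agent.T33.NodalCurve6 Fermat.Agent.T33.NodalInst4E
  Fermat.Agent.T33.NodalInst4A Fermat.Agent.U44.SlopeHecke1

local notation "nodalRedG" => Fermat.Agent.T33.NodalInst4G.nodalRed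

variable {p M' : ℕ} [NeZero M'] [NeZero p] {A : ValuationSubring Qbar}
  (h : LevelHyp p M' A) {ℓ : ℕ} [NeZero ℓ] (hℓ : ℓ.Prime) (hℓp : ℓ ≠ p) (hℓM : ¬ ℓ ∣ M')

/-- shortcut instance. -/
local instance (priority := high) algebraKFbS (M : ℕ) [NeZero M] :
    Algebra (ResidueField ↥A) (Fb A M) := inferInstance

/-- shortcut instance. -/
local instance (priority := high) algebraAFbarS : Algebra ↥A ↥(Fbar (M' * p)) := inferInstance

/-! ### the place-level hypotheses -/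

/-- **compatibility of the reduction of places with the two degeneracy maps** (the five facts
(Cα-1a), (Cα-1b), (Cα-2), (Cβ-a), (Cβ-b)). -/
structure RedCompat : Prop where
  α₁ : ∀ (P' : Place Qbar ↥(Fbar ((M' * ℓ) * p))) (Q' : Place (Setup8.kA A) (Fb A (M' * ℓ))),
    (nodalRedG (hEll h hℓ hℓp)).r₁ P' = some Q' →
    (nodalRedG h).r₁ (P'.restrictAlong (alphaE M' p ℓ) (isIntegral_alphaE h hℓ hℓp hℓM)) =
      some (Q'.restrictAlong (alphaC (Setup8.kA A) M' ℓ) (isIntegral_alpha h hℓ hℓp hℓM))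
  α₂ : ∀ (P' : Place Qbar ↥(Fbar ((M' * ℓ) * p))) (Q' : Place (Setup8.kA A) (Fb A (M' * ℓ))),
    (nodalRedG (hEll h hℓ hℓp)).r₂ P' = some Q' →
    (nodalRedG h).r₂ (P'.restrictAlong (alphaE M' p ℓ) (isIntegral_alphaE h hℓ hℓp hℓM)) =
      some (Q'.restrictAlong (betaC (Setup8.kA A) M' ℓ) (isIntegral_beta h hℓ hℓp hℓM))
  down : ∀ P' : Place Qbar ↥(Fbar ((M' * ℓ) * p)),
    (nodalRedG (hEll h hℓ hℓp)).r₁ P' ≠ none →
    (nodalRedG h).r₂ (P'.restrictAlong (alphaE M' p ℓ) (isIntegral_alphaE h hℓ hℓp hℓM)) ≠ none →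
    (nodalRedG (hEll h hℓ hℓp)).r₂ P' ≠ none
  β₁ : ∀ (P' : Place Qbar ↥(Fbar ((M' * ℓ) * p))) (Q' : Place (Setup8.kA A) (Fb A (M' * ℓ))),
    (nodalRedG (hEll h hℓ hℓp)).r₁ P' = some Q' →
    (nodalRedG h).r₁ (P'.restrictAlong (betaE M' p ℓ) (isIntegral_betaE h hℓ hℓp hℓM)) =
      some (Q'.restrictAlong (betaC (Setup8.kA A) M' ℓ) (isIntegral_beta h hℓ hℓp hℓM))
  β₂ : ∀ (P' : Place Qbar ↥(Fbar ((M' * ℓ) * p))) (Q' : Place (Setup8.kA A) (Fb A (M' * ℓ))),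
    (nodalRedG (hEll h hℓ hℓp)).r₂ P' = some Q' →
    (nodalRedG h).r₂ (P'.restrictAlong (betaE M' p ℓ) (isIntegral_betaE h hℓ hℓp hℓM)) =
      some (Q'.restrictAlong (alphaC (Setup8.kA A) M' ℓ) (isIntegral_alpha h hℓ hℓp hℓM))

/-- **every point of the first component is the reduction of a place.** -/
theorem exists_r₁ (Q : Place (Setup8.kA A) (Fb A M')) :
    ∃ P : Place Qbar ↥(Fbar (M' * p)), (nodalRedG h).r₁ P = some Q := by
  by_cases hQ : (Nd h).Smooth1 Q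
  · exact Fermat.Agent.T33.NodalLat2.exists_lift₁_of_surjective (nodalRedG h) (lHyp h)
      (c1_ρ_surjective h) Q hQ
  · unfold NodalData.Smooth1 at hQ
    push Not at hQ
    obtain ⟨k, rfl⟩ := hQ
    obtain ⟨P, h1, -⟩ := k.2
    exact ⟨P, h1⟩

/-! ### the two level maps -/

variable {h hℓ hℓp hℓM}

/-- **the level map `α`**, with reductions `ᾱ` on the first and `β̄` on the second component. -/
def levelMapα (hC : RedCompat h hℓ hℓp hℓM) :
    LevelMap (nodalRedG h) (nodalRedG (hEll h hℓ hℓp)) where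
  φ := alphaE M' p ℓ
  hφ := isIntegral_alphaE h hℓ hℓp hℓM
  φ₁ := alphaC (Setup8.kA A) M' ℓ
  hφ₁ := isIntegral_alpha h hℓ hℓp hℓM
  φ₂ := betaC (Setup8.kA A) M' ℓ
  hφ₂ := isIntegral_beta h hℓ hℓp hℓM
  mem₁ y hy := alphaE_mem₁ h hℓ hℓp hy
  ρ₁ y hy := rho_alphaE₁ h hℓ hℓp y hy
  mem₂ y hy := alphaE_mem₂ h hℓ hℓp hy
  ρ₂ y hy := rho_alphaE₂ h hℓ hℓp y hy
  r₁ := hC.α₁
  r₂ := hC.α₂

/-- **the level map `β`**, with reductions `β̄` on the first and `ᾱ` on the second component. -/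
def levelMapβ (hC : RedCompat h hℓ hℓp hℓM) :
    LevelMap (nodalRedG h) (nodalRedG (hEll h hℓ hℓp)) where
  φ := betaE M' p ℓ
  hφ := isIntegral_betaE h hℓ hℓp hℓM
  φ₁ := betaC (Setup8.kA A) M' ℓ
  hφ₁ := isIntegral_beta h hℓ hℓp hℓM
  φ₂ := alphaC (Setup8.kA A) M' ℓ
  hφ₂ := isIntegral_alpha h hℓ hℓp hℓM
  mem₁ y hy := betaE_mem₁ h hℓ hℓp hy
  ρ₁ y hy := rho_betaE₁ h hℓ hℓp y hy
  mem₂ y hy := betaE_mem₂ h hℓ hℓp hy
  ρ₂ y hy := rho_betaE₂ h hℓ hℓp y hy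
  r₁ := hC.β₁
  r₂ := hC.β₂

/-- **a point of `C₁'` over a node (along `ᾱ`) is a node.** -/
theorem fibre_node (hC : RedCompat h hℓ hℓp hℓM) {k : Node h}
    {Q' : Place (Setup8.kA A) (Fb A (M' * ℓ))}
    (hQ' : Q'.restrictAlong (alphaC (Setup8.kA A) M' ℓ) (isIntegral_alpha h hℓ hℓp hℓM) =
      (Nd h).s1 k) : ∃ k', Q' = (Nd (hEll h hℓ hℓp)).s1 k' :=
  (levelMapα hC).exists_node_of_fibre hC.down (exists_r₁ (hEll h hℓ hℓp)) hQ'

/-- the `ᾱ`-image of a node is a node. -/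
theorem image_node_α (hC : RedCompat h hℓ hℓp hℓM) (k' : Node (hEll h hℓ hℓp)) :
    ∃ k, ((Nd (hEll h hℓ hℓp)).s1 k').restrictAlong (alphaC (Setup8.kA A) M' ℓ)
      (isIntegral_alpha h hℓ hℓp hℓM) = (Nd h).s1 k :=
  (levelMapα hC).exists_node_of_image (fun k' => exists_r₁ (hEll h hℓ hℓp) _) k'

/-- the `β̄`-image of a node is a node. -/
theorem image_node_β (hC : RedCompat h hℓ hℓp hℓM) (k' : Node (hEll h hℓ hℓp)) :
    ∃ k, ((Nd (hEll h hℓ hℓp)).s1 k').restrictAlong (betaC (Setup8.kA A) M' ℓ)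
      (isIntegral_beta h hℓ hℓp hℓM) = (Nd h).s1 k :=
  (levelMapβ hC).exists_node_of_image (fun k' => exists_r₁ (hEll h hℓ hℓp) _) k'

/-- **`ᾱ` is unramified at the nodes** (thickness `p` at both levels). -/
theorem ramification_α (hC : RedCompat h hℓ hℓp hℓM)
    (X : ∀ k, AnnCoord (nodalRedG h) k) (X' : ∀ k', AnnCoord (nodalRedG (hEll h hℓ hℓp)) k')
    (hX : ∀ k, AUnit A ((X k).ϖ / (p : Qbar))) (hX' : ∀ k', AUnit A ((X' k').ϖ / (p : Qbar)))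
    (k' : Node (hEll h hℓ hℓp)) :
    ((Nd (hEll h hℓ hℓp)).s1 k').ramificationIndexAlong (alphaC (Setup8.kA A) M' ℓ) = 1 := by
  obtain ⟨k, hk⟩ := image_node_α hC k'
  exact (levelMapα hC).ramificationIndex_eq_one hk (X k) (X' k')
    (Fermat.Agent.U44.LocField9.small_p h.liesOver)
    (Fermat.Agent.U44.LocField9.p_ne_zero h.prime) (hX k) (hX' k')

/-- **`β̄` is unramified at the nodes** (thickness `p` at both levels). -/
theorem ramification_β (hC : RedCompat h hℓ hℓp hℓM)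
    (X : ∀ k, AnnCoord (nodalRedG h) k) (X' : ∀ k', AnnCoord (nodalRedG (hEll h hℓ hℓp)) k')
    (hX : ∀ k, AUnit A ((X k).ϖ / (p : Qbar))) (hX' : ∀ k', AUnit A ((X' k').ϖ / (p : Qbar)))
    (k' : Node (hEll h hℓ hℓp)) :
    ((Nd (hEll h hℓ hℓp)).s1 k').ramificationIndexAlong (betaC (Setup8.kA A) M' ℓ) = 1 := by
  obtain ⟨k, hk⟩ := image_node_β hC k'
  exact (levelMapβ hC).ramificationIndex_eq_one hk (X k) (X' k')
    (Fermat.Agent.U44.LocField9.small_p h.liesOver)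
    (Fermat.Agent.U44.LocField9.p_ne_zero h.prime) (hX k) (hX' k')

/-! ### the slopes of `T_ℓ` -/

/-- **the slopes of `T_ℓ` of a Kummer datum**: if the slopes of `(D, f, c)` at the nodes are all
`≡ γ (mod p)` then those of `(T_ℓ D, N_α(β f), c^(ℓ+1))` are all `≡ (ℓ + 1) γ`. -/
theorem hecke_slope (hC : RedCompat h hℓ hℓp hℓM)
    (X : ∀ k, AnnCoord (nodalRedG h) k) (X' : ∀ k', AnnCoord (nodalRedG (hEll h hℓ hℓp)) k')
    (hX : ∀ k, AUnit A ((X k).ϖ / (p : Qbar))) (hX' : ∀ k', AUnit A ((X' k').ϖ / (p : Qbar)))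
    {D : Divisor.degZero (K := Qbar) (F := ↥(Fbar (M' * p)))} {f : ↥(Fbar (M' * p))} {c : Qbar}
    (hk : KData (c1 h) p D f c) (γ : ℤ)
    (hγ : ∀ k, (p : ℤ) ∣ ((Nd h).s1 k).ord
      (red (c1 h) (algebraMap Qbar ↥(Fbar (M' * p)) c * f)) - γ) :
    ∃ (D' : Divisor.degZero (K := Qbar) (F := ↥(Fbar (M' * p)))) (f' : ↥(Fbar (M' * p))),
      KData (c1 h) p D' f' (c ^ (ℓ + 1)) ∧
      heckeOperatorBar (M' * p) ⟨ℓ, hℓ⟩ (Pic0.mk D) = Pic0.mk D' ∧
      ∀ k, (p : ℤ) ∣ ((Nd h).s1 k).ord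
        (red (c1 h) (algebraMap Qbar ↥(Fbar (M' * p)) (c ^ (ℓ + 1)) * f')) - ((ℓ : ℤ) + 1) * γ := by
  obtain ⟨DT, hT, hN0, hDT, hGU, hred⟩ := datum_hecke₁ h hℓ hℓp hℓM D hk.f_ne hk.ord_f hk.gu
  have hk' : KData (c1 h) p DT _ (c ^ (ℓ + 1)) := ⟨hN0, hDT, hGU⟩
  refine ⟨DT, _, hk', hT, fun k => ?_⟩
  haveI := HeckeC4.hasPrincipalDivisors h hℓ hℓp
  have key := hecke_slope_congr (R := c1 h) (betaC (Setup8.kA A) M' ℓ) (alphaC (Setup8.kA A) M' ℓ)
    (isIntegral_beta h hℓ hℓp hℓM) (isIntegral_alpha h hℓ hℓp hℓM) (lHypFb h)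
    (lHypFb (hEll h hℓ hℓp)).deg_eq_one (fundId_alpha h hℓ hℓp hℓM)
    (Nd h).s1 (Nd (hEll h hℓ hℓp)).s1
    (fun k w hw => fibre_node hC (Place.mem_fiberAlong.1 hw))
    (ramification_α hC X X' hX hX') (ramification_β hC X X' hX hX') (image_node_β hC)
    hk hk'
    (fun Du hDu Q => by
      rw [hred]
      exact heckeDivC_principal h hℓ hℓp hℓM hk.red_ne hDu Q)
    γ hγ k
  rw [HeckeC4.finrankAlong_alpha h hℓ hℓp hℓM] at key
  have e1 : ((ℓ + 1 : ℕ) : ℤ) = (ℓ : ℤ) + 1 := by push_cast; ring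
  rw [e1] at key
  exact key

/-- **(H2): the constant slope vector is Eisenstein.**  If `T_ℓ [D] = a [D]` and the slopes of the
Kummer datum `(D, f, c)` at the nodes are all `≡ γ (mod p)` then
`p ∣ (a − (ℓ + 1)) · slope_k` for every node `k`. -/
theorem eisenstein (hC : RedCompat h hℓ hℓp hℓM)
    (X : ∀ k, AnnCoord (nodalRedG h) k) (X' : ∀ k', AnnCoord (nodalRedG (hEll h hℓ hℓp)) k')
    (hX : ∀ k, AUnit A ((X k).ϖ / (p : Qbar))) (hX' : ∀ k', AUnit A ((X' k').ϖ / (p : Qbar)))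
    {D : Divisor.degZero (K := Qbar) (F := ↥(Fbar (M' * p)))} {f : ↥(Fbar (M' * p))} {c : Qbar}
    (hk : KData (c1 h) p D f c) (a : ℤ)
    (hT : heckeOperatorBar (M' * p) ⟨ℓ, hℓ⟩ (Pic0.mk D) = a • Pic0.mk D) (γ : ℤ)
    (hγ : ∀ k, (p : ℤ) ∣ ((Nd h).s1 k).ord
      (red (c1 h) (algebraMap Qbar ↥(Fbar (M' * p)) c * f)) - γ) (k : Node h) :
    (p : ℤ) ∣ (a - ((ℓ : ℤ) + 1)) * ((Nd h).s1 k).ord
      (red (c1 h) (algebraMap Qbar ↥(Fbar (M' * p)) c * f)) := by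
  obtain ⟨D', f', hk', hT', hrow⟩ := hecke_slope hC X X' hX hX' hk γ hγ
  exact eisenstein_abs (lHyp h) hk hk' a (by rw [← hT', hT]) ((ℓ : ℤ) + 1) γ (Nd h).s1 hγ hrow k

/-- the same with the constancy of the slope vector given as pairwise congruences. -/
theorem eisenstein' (hC : RedCompat h hℓ hℓp hℓM)
    (X : ∀ k, AnnCoord (nodalRedG h) k) (X' : ∀ k', AnnCoord (nodalRedG (hEll h hℓ hℓp)) k')
    (hX : ∀ k, AUnit A ((X k).ϖ / (p : Qbar))) (hX' : ∀ k', AUnit A ((X' k').ϖ / (p : Qbar)))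
    {D : Divisor.degZero (K := Qbar) (F := ↥(Fbar (M' * p)))} {f : ↥(Fbar (M' * p))} {c : Qbar}
    (hk : KData (c1 h) p D f c) (a : ℤ)
    (hT : heckeOperatorBar (M' * p) ⟨ℓ, hℓ⟩ (Pic0.mk D) = a • Pic0.mk D)
    (hconst : ∀ k k', (p : ℤ) ∣ ((Nd h).s1 k).ord
      (red (c1 h) (algebraMap Qbar ↥(Fbar (M' * p)) c * f)) - ((Nd h).s1 k').ord
      (red (c1 h) (algebraMap Qbar ↥(Fbar (M' * p)) c * f))) (k : Node h) :
    (p : ℤ) ∣ (a - ((ℓ : ℤ) + 1)) * ((Nd h).s1 k).ord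
      (red (c1 h) (algebraMap Qbar ↥(Fbar (M' * p)) c * f)) :=
  eisenstein hC X X' hX hX' hk a hT _ (fun k' => hconst k' k) k

end Fermat.Agent.U44.SlopeHeckeInst4
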