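/-
Programme U44, chapter (HECKE), file 17 (helper4): **the `β` half of the RedCompat instance**:
the degeneracy map `β : X₀((M'ℓ)p) → X₀(M'p)` (`q ↦ q^ℓ`) is a morphism of the two-chart models, hence
compatible with the reduction of places (weak direction of helper9's `RedCompat9`).

`h : LevelHyp p M' A`, `h' = hEll h hℓ hℓp`, `t = tA h`, `t' = tA h'`, `βE = LevelEllB4.betaE M' p ℓ`.

* `map_mem_chart` (generic): an algebra map with `φ t ∈ chart R t'` maps `chart R t` into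
  `chart R t'`;
* `betaE_tA_mem_B0A : βE t = t(q^ℓ) ∈ B0A h'`, `betaE_tA_inv_mem_B1A : (βE t)⁻¹ ∈ B1A h'` (modular
  equation of level `ℓ` over `ℚ̄` + both Gauss rings + saturation, `ChartInt4`);
* `hypβ : RedCompat9.Hyp (T h) (T h') βE β̄ ᾱ`;
* **`r₁_betaE`, `r₂_betaE`** : `r_j' P' = some Q' → r_j (P'|βE) = some (Q'|β̄ resp. ᾱ)` — the fields
  `β₁`, `β₂` of `SlopeHeckeInst4.RedCompat`.
-/
import Mathlib
import Fermat.Agent.U44.ChartInt4
import Fermat.Agent.U44.RedCompat9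
import Fermat.Agent.U44.SlopeHeckeInst4
import Fermat.Agent.ES.N34.ModEqBar23

set_option autoImplicit false
set_option linter.unusedSectionVars false
set_option linter.style.haveILetI false
set_option linter.unusedVariables false
set_option synthInstance.maxHeartbeats 400000

noncomputable section

namespace Fermat.Agent.U44.RedCompatBeta4

open HahnSeries ModularCurve IntermediateField IsLocalRing AlgebraicCurve
open Fermat.Agent.RED.Interface4 Fermat.Agent.ES.RED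
  Fermat.Agent.RED.PUR.ChartGeneric22
  Fermat.Agent.T33.NodalCtx1 Fermat.Agent.T33.NodalHalf4
  Fermat.Agent.T33.NodalBase4A Fermat.Agent.T33.FrickeRed3 Fermat.Agent.U44.DegreeC4
  Fermat.Agent.U44.LevelEll4 Fermat.Agent.U44.LevelEllB4 Fermat.Agent.U44.HeckeC4
  Fermat.Agent.U44.GaussRed3 Fermat.Agent.T33.NodalInst4C Fermat.Agent.T33.NodalCurve6
  Fermat.Agent.T33.NodalInst4E Fermat.Agent.T33.NodalInst4A Fermat.Agent.U44.ChartInt4
  Fermat.Agent.U44.RedCompat9 Fermat.Agent.T33.NodalPlaces1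

/-! ### generic -/

section Generic

variable {R F F' : Type*} [CommRing R] [Field F] [Field F'] [Algebra R F] [Algebra R F']

/-- integrality over a larger subalgebra. -/
theorem isIntegral_of_le {S S' : Subalgebra R F} (hle : S ≤ S') {x : F} (h : IsIntegral S x) :
    IsIntegral S' x := by
  rw [isIntegral_subalgebra_iff] at h ⊢
  obtain ⟨P, hP, hc, hx⟩ := h
  exact ⟨P, hP, fun i => hle (hc i), hx⟩

/-- an algebra map with `φ t ∈ chart R t'` maps `chart R t` into `chart R t'`. -/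
theorem map_mem_chart (φ : F →ₐ[R] F') {t : F} {t' : F'} (ht : φ t ∈ chart R t') {b : F}
    (hb : b ∈ chart R t) : φ b ∈ chart R t' := by
  rw [mem_chart_iff] at hb
  have h1 : IsIntegral (Algebra.adjoin R {φ t}) (φ b) := isIntegral_adjoin_map φ hb
  have hle : Algebra.adjoin R {φ t} ≤ chart R t' :=
    Algebra.adjoin_le (by
      intro x hx
      rw [Set.mem_singleton_iff] at hx
      rw [hx]
      exact ht)
  exact chart_intcl t' _ (isIntegral_of_le hle h1)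

end Generic

variable {p M' : ℕ} [NeZero M'] [NeZero p] {A : ValuationSubring Qbar}
  (h : LevelHyp p M' A) {ℓ : ℕ} [NeZero ℓ] (hℓ : ℓ.Prime) (hℓp : ℓ ≠ p) (hℓM : ¬ ℓ ∣ M')

/-- shortcut instance. -/
local instance (priority := high) algebraKFbR (M : ℕ) [NeZero M] :
    Algebra (ResidueField ↥A) (Fb A M) := inferInstance

/-- shortcut instance. -/
local instance (priority := high) algebraAFbarR (M : ℕ) [NeZero M] :
    Algebra ↥A ↥(Fbar M) := inferInstance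

local notation "nodalRedG" => Fermat.Agent.T33.NodalInst4G.nodalRed

/-! ### the Hauptmodul is a Gauss unit on both components -/

theorem xOne_ne_zero : xOne h ≠ 0 := by
  intro h0
  have := (isGen_xOne h).transcendental
  rw [h0] at this
  exact this isAlgebraic_zero

theorem xTwo_ne_zero : xTwo h ≠ 0 := by
  unfold xTwo
  rw [Ne, map_eq_zero_iff _ (Wb h).injective]
  exact xOne_ne_zero h

theorem isGU_tA₁ : IsGU (c1 h) (tA h) := by
  refine isGU_of_ρ_ne (tA_mem_O1 h) ?_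
  have := rho1_tA h
  show rho1 h ⟨tA h, tA_mem_O1 h⟩ ≠ 0
  rw [this]
  exact xOne_ne_zero h

theorem isGU_tA₂ : IsGU (c2 h) (tA h) := by
  refine isGU_of_ρ_ne (tA_mem_O2 h) ?_
  have := rho2_tA h
  show rho2 h ⟨tA h, tA_mem_O2 h⟩ ≠ 0
  rw [this]
  exact pow_ne_zero _ (xTwo_ne_zero h)

/-! ### `t(q^ℓ)` lies in the charts of the level `(M'ℓ)p` -/

include h hℓ hℓM in
theorem not_dvd_four : ¬ ℓ ∣ 4 := fun h4 => hℓM (dvd_trans h4 h.four_dvd)

include hℓ hℓM in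
/-- `t(q^ℓ)` is integral over `ℚ̄[t]` at the level `(M'ℓ)p`. -/
theorem isIntegral_betaE_tA :
    IsIntegral (Algebra.adjoin Qbar {tA (hEll h hℓ hℓp)}) (betaE M' p ℓ (tA h)) := by
  apply Fermat.Agent.RED.PUR.PlaceIntegral3.isIntegral_polyRing_of_map (K := Qbar)
    (F' := LaurentSeries Qbar)
  show IsIntegral (Algebra.adjoin Qbar
    {((tA (hEll h hℓ hℓp) : ↥(Fbar ((M' * ℓ) * p))) : LaurentSeries Qbar)})
    ((betaE M' p ℓ (tA h) : ↥(Fbar ((M' * ℓ) * p))) : LaurentSeries Qbar)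
  rw [coe_tA, coe_betaE, coe_tA]
  exact Fermat.Agent.ES.N34.ModEqBar23.isIntegral_qExpand_tK ℓ
    Fermat.Agent.RED.BASE.Hauptmodul12.baseHyp_four hℓ (not_dvd_four h hℓ hℓM)

include hℓ hℓM in
/-- `t(q^ℓ)⁻¹` is integral over `ℚ̄[t⁻¹]` at the level `(M'ℓ)p`. -/
theorem isIntegral_betaE_tA_inv :
    IsIntegral (Algebra.adjoin Qbar {(tA (hEll h hℓ hℓp))⁻¹}) (betaE M' p ℓ (tA h))⁻¹ := by
  apply Fermat.Agent.RED.PUR.PlaceIntegral3.isIntegral_polyRing_of_map (K := Qbar)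
    (F' := LaurentSeries Qbar)
  show IsIntegral (Algebra.adjoin Qbar
    {(((tA (hEll h hℓ hℓp))⁻¹ : ↥(Fbar ((M' * ℓ) * p))) : LaurentSeries Qbar)})
    (((betaE M' p ℓ (tA h))⁻¹ : ↥(Fbar ((M' * ℓ) * p))) : LaurentSeries Qbar)
  rw [IntermediateField.coe_inv, IntermediateField.coe_inv, coe_tA, coe_betaE, coe_tA]
  exact Fermat.Agent.ES.N34.ModEqBar23.isIntegral_inv_qExpand_tK ℓ
    Fermat.Agent.RED.BASE.Hauptmodul12.baseHyp_four hℓ (not_dvd_four h hℓ hℓM)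

theorem isGU_betaE_tA₁ : IsGU (c1 (hEll h hℓ hℓp)) (betaE M' p ℓ (tA h)) := by
  refine isGU_of_ρ_ne (betaE_mem₁ h hℓ hℓp (isGU_tA₁ h).mem) ?_
  rw [rho_betaE₁ h hℓ hℓp _ (isGU_tA₁ h).mem, Ne, map_eq_zero]
  exact (isGU_tA₁ h).ρ_ne

theorem isGU_betaE_tA₂ : IsGU (c2 (hEll h hℓ hℓp)) (betaE M' p ℓ (tA h)) := by
  refine isGU_of_ρ_ne (betaE_mem₂ h hℓ hℓp (isGU_tA₂ h).mem) ?_
  rw [rho_betaE₂ h hℓ hℓp _ (isGU_tA₂ h).mem, Ne, map_eq_zero]
  exact (isGU_tA₂ h).ρ_ne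

include hℓM in
/-- **`t(q^ℓ)` lies in the chart `0` of the level `(M'ℓ)p`.** -/
theorem betaE_tA_mem_B0A : betaE M' p ℓ (tA h) ∈ B0A (hEll h hℓ hℓp) :=
  mem_B0A_of_isIntegral (hEll h hℓ hℓp) _ (isIntegral_betaE_tA h hℓ hℓp hℓM)
    (isGU_betaE_tA₁ h hℓ hℓp).mem (isGU_betaE_tA₂ h hℓ hℓp).mem

include hℓM in
/-- **`t(q^ℓ)⁻¹` lies in the chart `1` of the level `(M'ℓ)p`.** -/
theorem betaE_tA_inv_mem_B1A : (betaE M' p ℓ (tA h))⁻¹ ∈ B1A (hEll h hℓ hℓp) :=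
  mem_B1A_of_isIntegral (hEll h hℓ hℓp) _ (isIntegral_betaE_tA_inv h hℓ hℓp hℓM)
    (isGU_betaE_tA₁ h hℓ hℓp).inv_mem (isGU_betaE_tA₂ h hℓ hℓp).inv_mem

/-! ### `β` is a morphism of the two-chart models -/

/-- `βE`, as an `A`-algebra map. -/
def betaEA : ↥(Fbar (M' * p)) →ₐ[↥A] ↥(Fbar ((M' * ℓ) * p)) :=
  (betaE M' p ℓ).restrictScalars ↥A

theorem betaEA_apply (x : ↥(Fbar (M' * p))) :
    betaEA (A := A) (p := p) (M' := M') (ℓ := ℓ) x = betaE M' p ℓ x := rfl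

include hℓM in
theorem betaE_mem_C0 {b : ↥(Fbar (M' * p))} (hb : b ∈ (T h).C0.B) :
    betaE M' p ℓ b ∈ (T (hEll h hℓ hℓp)).C0.B := by
  have h1 : b ∈ chart ↥A (tA h) := hb
  show betaE M' p ℓ b ∈ chart ↥A (tA (hEll h hℓ hℓp))
  exact map_mem_chart (betaEA (A := A) (p := p) (M' := M') (ℓ := ℓ))
    (betaE_tA_mem_B0A h hℓ hℓp hℓM) h1

include hℓM in
theorem betaE_mem_C1 {b : ↥(Fbar (M' * p))} (hb : b ∈ (T h).C1.B) :
    betaE M' p ℓ b ∈ (T (hEll h hℓ hℓp)).C1.B := by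
  have h1 : b ∈ chart ↥A (tA h)⁻¹ := hb
  show betaE M' p ℓ b ∈ chart ↥A (tA (hEll h hℓ hℓp))⁻¹
  refine map_mem_chart (betaEA (A := A) (p := p) (M' := M') (ℓ := ℓ)) ?_ h1
  rw [betaEA_apply, map_inv₀]
  exact betaE_tA_inv_mem_B1A h hℓ hℓp hℓM

/-- the overlap of the charts. -/
theorem overlap {b : ↥(Fbar (M' * p))} (hb : b ∈ (T h).C0.B) :
    ∃ n : ℕ, (T h).t⁻¹ ^ n * b ∈ (T h).C1.B := by
  have h1 : b ∈ chart ↥A ((tA h)⁻¹)⁻¹ := by rw [inv_inv]; exact hb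
  have ht : (tA h)⁻¹ ≠ 0 := inv_ne_zero (isGU_tA₁ h).ne_zero
  obtain ⟨k, hk⟩ := exists_pow_mul_mem_chart (R := ↥A) ht h1
  exact ⟨k, hk⟩

include hℓM in
/-- **`β` is a morphism of the two-chart models.** -/
theorem hypβ : Hyp (T h) (T (hEll h hℓ hℓp)) (betaE M' p ℓ) (betaC (Setup8.kA A) M' ℓ)
    (alphaC (Setup8.kA A) M' ℓ) where
  h₁ := ⟨fun y hy => betaE_mem₁ h hℓ hℓp hy, fun y hy hy' => rho_betaE₁ h hℓ hℓp y hy⟩
  h₂ := ⟨fun y hy => betaE_mem₂ h hℓ hℓp hy, fun y hy hy' => rho_betaE₂ h hℓ hℓp y hy⟩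
  hB0 := fun b hb => betaE_mem_C0 h hℓ hℓp hℓM hb
  hB1 := fun b hb => betaE_mem_C1 h hℓ hℓp hℓM hb
  hE := fun b hb => overlap h hb

/-- **(Cβ-a)** : `r₁' P' = some Q' → r₁ (P'|β) = some (Q'|β̄)`. -/
theorem r₁_betaE (P' : Place Qbar ↥(Fbar ((M' * ℓ) * p)))
    (Q' : Place (Setup8.kA A) (Fb A (M' * ℓ)))
    (hP' : (nodalRedG (hEll h hℓ hℓp)).r₁ P' = some Q') :
    (nodalRedG h).r₁ (P'.restrictAlong (betaE M' p ℓ) (isIntegral_betaE h hℓ hℓp hℓM)) =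
      some (Q'.restrictAlong (betaC (Setup8.kA A) M' ℓ) (isIntegral_beta h hℓ hℓp hℓM)) :=
  r₁_restrict_of_some (hypβ h hℓ hℓp hℓM) (isIntegral_betaE h hℓ hℓp hℓM)
    (isIntegral_beta h hℓ hℓp hℓM) hP'

/-- **(Cβ-b)** : `r₂' P' = some Q' → r₂ (P'|β) = some (Q'|ᾱ)`. -/
theorem r₂_betaE (P' : Place Qbar ↥(Fbar ((M' * ℓ) * p)))
    (Q' : Place (Setup8.kA A) (Fb A (M' * ℓ)))
    (hP' : (nodalRedG (hEll h hℓ hℓp)).r₂ P' = some Q') :
    (nodalRedG h).r₂ (P'.restrictAlong (betaE M' p ℓ) (isIntegral_betaE h hℓ hℓp hℓM)) =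
      some (Q'.restrictAlong (alphaC (Setup8.kA A) M' ℓ) (isIntegral_alpha h hℓ hℓp hℓM)) :=
  r₂_restrict_of_some (hypβ h hℓ hℓp hℓM) (isIntegral_betaE h hℓ hℓp hℓM)
    (isIntegral_alpha h hℓ hℓp hℓM) hP'

end Fermat.Agent.U44.RedCompatBeta4
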