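/-
Programme U44, chapter (HECKE), file 18 (helper4): **the RedCompat instance, hypothesis-free**, and
the resulting form of (H2).

`redCompat h hℓ hℓp hℓM : SlopeHeckeInst4.RedCompat h hℓ hℓp hℓM` from helper9's `RedCompat9B`
(the `α` half: strong direction by going-down) and `RedCompatBeta4` (the `β` half).

`eisenstein`, `eisenstein'` : (H2) with the only remaining hypotheses being the annulus coordinates
of thickness `p` at the nodes of the two levels `M'p`, `(M'ℓ)p` (helper6's `AnnInst6`).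
-/
import Mathlib
import Fermat.Agent.U44.RedCompatBeta4
import Fermat.Agent.U44.RedCompat9B

set_option autoImplicit false
set_option linter.unusedSectionVars false
set_option linter.style.haveILetI false
set_option linter.unusedVariables false
set_option synthInstance.maxHeartbeats 400000

noncomputable section

namespace Fermat.Agent.U44.RedCompatInst4

open HahnSeries ModularCurve IntermediateField IsLocalRing AlgebraicCurve
open Fermat.Agent.RED.Interface4 Fermat.Agent.ES.RED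
  Fermat.Agent.T33.NodalCtx1 Fermat.Agent.T33.NodalHalf4
  Fermat.Agent.T33.NodalBase4A Fermat.Agent.T33.FrickeRed3 Fermat.Agent.U44.DegreeC4
  Fermat.Agent.U44.LevelEll4 Fermat.Agent.U44.LevelEllB4 Fermat.Agent.U44.HeckeC4
  Fermat.Agent.U44.GaussRed3 Fermat.Agent.T33.NodalInst4C Fermat.Agent.T33.NodalCurve6
  Fermat.Agent.T33.NodalInst4E Fermat.Agent.T33.NodalInst4A Fermat.Agent.U44.EtaleAbs1
  Fermat.Agent.U44.Annulus3 Fermat.Agent.U44.SlopeHeckeInst4

variable {p M' : ℕ} [NeZero M'] [NeZero p] {A : ValuationSubring Qbar}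
  (h : LevelHyp p M' A) {ℓ : ℕ} [NeZero ℓ] (hℓ : ℓ.Prime) (hℓp : ℓ ≠ p) (hℓM : ¬ ℓ ∣ M')

/-- shortcut instance. -/
local instance (priority := high) algebraKFbI (M : ℕ) [NeZero M] :
    Algebra (ResidueField ↥A) (Fb A M) := inferInstance

/-- shortcut instance. -/
local instance (priority := high) algebraAFbarI : Algebra ↥A ↥(Fbar (M' * p)) := inferInstance

local notation "nodalRedG" => Fermat.Agent.T33.NodalInst4G.nodalRed

/-- **the reduction of places is compatible with the two degeneracy maps `α`, `β`.** -/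
theorem redCompat : RedCompat h hℓ hℓp hℓM where
  α₁ := fun P' Q' hQ' => Fermat.Agent.U44.RedCompat9B.cα_1a h hℓ hℓp
    (isIntegral_alphaE h hℓ hℓp hℓM) (isIntegral_alpha h hℓ hℓp hℓM) P' Q' hQ'
  α₂ := fun P' Q' hQ' => Fermat.Agent.U44.RedCompat9B.cα_1b h hℓ hℓp
    (isIntegral_alphaE h hℓ hℓp hℓM) (isIntegral_beta h hℓ hℓp hℓM) P' Q' hQ'
  down := fun P' _ hP => Fermat.Agent.U44.RedCompat9B.cα_2 h hℓ hℓp
    (isIntegral_alphaE h hℓ hℓp hℓM) (isIntegral_beta h hℓ hℓp hℓM) P' hP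
  β₁ := fun P' Q' hQ' => Fermat.Agent.U44.RedCompatBeta4.r₁_betaE h hℓ hℓp hℓM P' Q' hQ'
  β₂ := fun P' Q' hQ' => Fermat.Agent.U44.RedCompatBeta4.r₂_betaE h hℓ hℓp hℓM P' Q' hQ'

include hℓM in
/-- **(H2): the constant slope vector is Eisenstein** — only the annulus coordinates at the nodes of
the two levels remain as hypotheses. -/
theorem eisenstein
    (X : ∀ k, AnnCoord (nodalRedG h) k) (X' : ∀ k', AnnCoord (nodalRedG (hEll h hℓ hℓp)) k')
    (hX : ∀ k, AUnit A ((X k).ϖ / (p : Qbar))) (hX' : ∀ k', AUnit A ((X' k').ϖ / (p : Qbar)))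
    {D : Divisor.degZero (K := Qbar) (F := ↥(Fbar (M' * p)))} {f : ↥(Fbar (M' * p))} {c : Qbar}
    (hk : KData (c1 h) p D f c) (a : ℤ)
    (hT : heckeOperatorBar (M' * p) ⟨ℓ, hℓ⟩ (Pic0.mk D) = a • Pic0.mk D) (γ : ℤ)
    (hγ : ∀ k, (p : ℤ) ∣ ((Nd h).s1 k).ord
      (red (c1 h) (algebraMap Qbar ↥(Fbar (M' * p)) c * f)) - γ) (k : Node h) :
    (p : ℤ) ∣ (a - ((ℓ : ℤ) + 1)) * ((Nd h).s1 k).ord
      (red (c1 h) (algebraMap Qbar ↥(Fbar (M' * p)) c * f)) :=
  SlopeHeckeInst4.eisenstein (redCompat h hℓ hℓp hℓM) X X' hX hX' hk a hT γ hγ k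

include hℓM in
/-- the same with the constancy of the slope vector given as pairwise congruences. -/
theorem eisenstein'
    (X : ∀ k, AnnCoord (nodalRedG h) k) (X' : ∀ k', AnnCoord (nodalRedG (hEll h hℓ hℓp)) k')
    (hX : ∀ k, AUnit A ((X k).ϖ / (p : Qbar))) (hX' : ∀ k', AUnit A ((X' k').ϖ / (p : Qbar)))
    {D : Divisor.degZero (K := Qbar) (F := ↥(Fbar (M' * p)))} {f : ↥(Fbar (M' * p))} {c : Qbar}
    (hk : KData (c1 h) p D f c) (a : ℤ)
    (hT : heckeOperatorBar (M' * p) ⟨ℓ, hℓ⟩ (Pic0.mk D) = a • Pic0.mk D)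
    (hconst : ∀ k k', (p : ℤ) ∣ ((Nd h).s1 k).ord
      (red (c1 h) (algebraMap Qbar ↥(Fbar (M' * p)) c * f)) - ((Nd h).s1 k').ord
      (red (c1 h) (algebraMap Qbar ↥(Fbar (M' * p)) c * f))) (k : Node h) :
    (p : ℤ) ∣ (a - ((ℓ : ℤ) + 1)) * ((Nd h).s1 k).ord
      (red (c1 h) (algebraMap Qbar ↥(Fbar (M' * p)) c * f)) :=
  SlopeHeckeInst4.eisenstein' (redCompat h hℓ hℓp hℓM) X X' hX hX' hk a hT hconst k

end Fermat.Agent.U44.RedCompatInst4
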