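/-
Programme U44 (target S44), chapter (FREY), helper8: **the nearest `p`-th root of unity**.

`K` a field with a valuation `v`, `p` a prime, `ζ ∈ K` a primitive `p`-th root of unity,
`l := v (ζ - 1)`.

* `val_pow_sub_one`   : `v (ζ ^ k - 1) = l` for `p ∤ k`;
* `val_sub_one_pow`   : `l ^ (p - 1) = v p`;
* `val_pow_sub_pow`   : `v (ζ ^ i - ζ ^ j) = l` for `i ≠ j` below `p`;
* `exists_near_root`  : `v (τ ^ p - 1) ≤ β  ⇒  ∃ k < p, v (τ - ζ ^ k) * v p ≤ β`
                        (the closest root; the other `p - 1` factors of `∏ (τ - ζ ^ i)` have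
                        product at least `l ^ (p - 1) = v p`);
* `val_sub_one_lt_one`: if moreover `v p < 1` and `β < v p`, then `v (τ - 1) < 1`.
-/
import Mathlib

set_option autoImplicit false

namespace Fermat.Agent.U44.RootsBook8

open Finset Polynomial

variable {K : Type*} [Field K] {Γ₀ : Type*} [LinearOrderedCommGroupWithZero Γ₀]
  (v : Valuation K Γ₀) {p : ℕ} {ζ : K}

theorem val_eq_one_of_pow_eq_one {x : K} {n : ℕ} (hn : n ≠ 0) (hx : x ^ n = 1) : v x = 1 := by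
  have h1 : v x ^ n = 1 := by rw [← map_pow, hx, map_one]
  exact (pow_eq_one_iff_of_nonneg zero_le hn).mp h1

theorem val_zeta_pow (hp : p.Prime) (hζ : IsPrimitiveRoot ζ p) (k : ℕ) : v (ζ ^ k) = 1 := by
  rw [map_pow, val_eq_one_of_pow_eq_one v hp.ne_zero hζ.pow_eq_one, one_pow]

theorem val_geom_sum_le_one {x : K} (hx : v x = 1) (n : ℕ) :
    v (∑ i ∈ range n, x ^ i) ≤ 1 := by
  refine v.map_sum_le fun i _ => ?_
  rw [map_pow, hx, one_pow]

/-- `v (x ^ n - 1) ≤ v (x - 1)` for a unit `x`. -/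
theorem val_pow_sub_one_le {x : K} (hx : v x = 1) (n : ℕ) : v (x ^ n - 1) ≤ v (x - 1) := by
  rw [← geom_sum_mul, map_mul]
  calc v (∑ i ∈ range n, x ^ i) * v (x - 1) ≤ 1 * v (x - 1) :=
        mul_le_mul' (val_geom_sum_le_one v hx n) le_rfl
    _ = v (x - 1) := one_mul _

/-- `v (ζ ^ k - 1) = v (ζ - 1)` for `p ∤ k`. -/
theorem val_pow_sub_one (hp : p.Prime) (hζ : IsPrimitiveRoot ζ p) {k : ℕ} (hk : ¬ p ∣ k) :
    v (ζ ^ k - 1) = v (ζ - 1) := by
  have hζ1 : v ζ = 1 := val_eq_one_of_pow_eq_one v hp.ne_zero hζ.pow_eq_one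
  refine le_antisymm (val_pow_sub_one_le v hζ1 k) ?_
  have hcop : Nat.Coprime k p := (Nat.Coprime.symm ((Nat.Prime.coprime_iff_not_dvd hp).mpr hk))
  obtain ⟨m, -, hm⟩ := Nat.exists_mul_mod_eq_one_of_coprime hcop hp.one_lt
  have e : (ζ ^ k) ^ m = ζ := by
    rw [← pow_mul, ← Nat.div_add_mod (k * m) p, hm, pow_add, pow_mul, hζ.pow_eq_one, one_pow,
      one_mul, pow_one]
  have := val_pow_sub_one_le v (val_zeta_pow v hp hζ k) m
  rwa [e] at this

/-- `v (ζ - 1) ^ (p - 1) = v p`. -/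
theorem val_sub_one_pow (hp : p.Prime) (hζ : IsPrimitiveRoot ζ p) :
    v (ζ - 1) ^ (p - 1) = v (p : K) := by
  obtain ⟨n, rfl⟩ := Nat.exists_eq_succ_of_ne_zero hp.ne_zero
  have h := hζ.prod_one_sub_pow_eq_order
  have h2 : v (∏ k ∈ range n, (1 - ζ ^ (k + 1))) = v (ζ - 1) ^ n := by
    rw [map_prod]
    rw [Finset.prod_congr rfl (g := fun _ => v (ζ - 1))]
    · rw [prod_const, card_range]
    · intro k hk
      rw [mem_range] at hk
      rw [← Valuation.map_neg, neg_sub]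
      refine val_pow_sub_one v hp hζ ?_
      intro hdvd
      have := Nat.le_of_dvd (Nat.succ_pos k) hdvd
      omega
  rw [h] at h2
  rw [Nat.succ_sub_one, ← h2]
  push_cast
  rfl

/-- distinct `p`-th roots of unity are at distance `v (ζ - 1)`. -/
theorem val_pow_sub_pow (hp : p.Prime) (hζ : IsPrimitiveRoot ζ p) {i j : ℕ} (hi : i < p)
    (hj : j < p) (hij : i ≠ j) : v (ζ ^ i - ζ ^ j) = v (ζ - 1) := by
  have key : ∀ {i j : ℕ}, i < j → j < p → v (ζ ^ j - ζ ^ i) = v (ζ - 1) := by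
    intro i j hlt hj
    have e : ζ ^ j - ζ ^ i = ζ ^ i * (ζ ^ (j - i) - 1) := by
      rw [mul_sub, mul_one, ← pow_add, Nat.add_sub_cancel' hlt.le]
    rw [e, map_mul, val_zeta_pow v hp hζ, one_mul]
    refine val_pow_sub_one v hp hζ ?_
    intro hdvd
    have := Nat.le_of_dvd (Nat.sub_pos_of_lt hlt) hdvd
    omega
  rcases lt_or_gt_of_ne hij with h | h
  · rw [← Valuation.map_neg, neg_sub]; exact key h hj
  · exact key h hi

/-- `τ ^ p - 1 = ∏_{i < p} (τ - ζ ^ i)`. -/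
theorem pow_sub_one_eq_prod (hp : p.Prime) (hζ : IsPrimitiveRoot ζ p) (τ : K) :
    τ ^ p - 1 = ∏ i ∈ range p, (τ - ζ ^ i) := by
  have h := X_pow_sub_C_eq_prod hζ hp.pos (one_pow p)
  have h2 := congrArg (Polynomial.eval τ) h
  simpa [eval_prod] using h2

/-- **The nearest root of unity.** -/
theorem exists_near_root (hp : p.Prime) (hζ : IsPrimitiveRoot ζ p) {τ : K} {β : Γ₀}
    (hτ : v (τ ^ p - 1) ≤ β) : ∃ k < p, v (τ - ζ ^ k) * v (p : K) ≤ β := by
  obtain ⟨k, hk, hmin⟩ := Finset.exists_min_image (range p) (fun i => v (τ - ζ ^ i))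
    ⟨0, mem_range.mpr hp.pos⟩
  rw [mem_range] at hk
  refine ⟨k, hk, le_trans ?_ hτ⟩
  rw [pow_sub_one_eq_prod hp hζ τ, map_prod, ← Finset.mul_prod_erase (range p) _ (mem_range.mpr hk)]
  refine mul_le_mul' le_rfl ?_
  rw [← val_sub_one_pow v hp hζ]
  have hcard : ((range p).erase k).card = p - 1 := by
    rw [card_erase_of_mem (mem_range.mpr hk), card_range]
  rw [← hcard]
  refine Finset.pow_card_le_prod _ _ _ fun i hi => ?_
  rw [mem_erase, mem_range] at hi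
  rw [← val_pow_sub_pow v hp hζ hk hi.2 (Ne.symm hi.1)]
  have e : ζ ^ k - ζ ^ i = (τ - ζ ^ i) - (τ - ζ ^ k) := by ring
  rw [e]
  exact le_trans (Valuation.map_sub v _ _) (max_le le_rfl (hmin i (mem_range.mpr hi.2)))

theorem val_zeta_sub_one_lt_one (hp : p.Prime) (hζ : IsPrimitiveRoot ζ p) (hvp : v (p : K) < 1) :
    v (ζ - 1) < 1 := by
  by_contra hge
  rw [not_lt] at hge
  have : 1 ≤ v (ζ - 1) ^ (p - 1) := one_le_pow₀ hge
  rw [val_sub_one_pow v hp hζ] at this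
  exact absurd hvp (not_lt.mpr this)

/-- if `τ ^ p ≡ 1` modulo something smaller than `p`, then `τ ≡ 1` modulo the maximal ideal. -/
theorem val_sub_one_lt_one (hp : p.Prime) (hζ : IsPrimitiveRoot ζ p) (hvp : v (p : K) < 1)
    {τ : K} {β : Γ₀} (hβ : β < v (p : K)) (hτ : v (τ ^ p - 1) ≤ β) :
    v (τ - 1) < 1 := by
  obtain ⟨k, hk, hle⟩ := exists_near_root v hp hζ hτ
  have h1 : v (τ - ζ ^ k) < 1 := by
    by_contra hge
    rw [not_lt] at hge
    have : v (p : K) ≤ β := by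
      calc v (p : K) = 1 * v (p : K) := (one_mul _).symm
        _ ≤ v (τ - ζ ^ k) * v (p : K) := mul_le_mul' hge le_rfl
        _ ≤ β := hle
    exact absurd hβ (not_lt.mpr this)
  have h2 : v (ζ ^ k - 1) < 1 :=
    lt_of_le_of_lt (val_pow_sub_one_le v
      (val_eq_one_of_pow_eq_one v hp.ne_zero hζ.pow_eq_one) k)
      (val_zeta_sub_one_lt_one v hp hζ hvp)
  have e : τ - 1 = (τ - ζ ^ k) + (ζ ^ k - 1) := by ring
  rw [e]
  exact lt_of_le_of_lt (v.map_add _ _) (max_lt h1 h2)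

end Fermat.Agent.U44.RootsBook8
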