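/-
Programme U44 (target S44), chapter (FREY), helper8: **the Tate parameter modulo `b`**.

Model curve `Wab a b : Y² = X³ + a X² + b X` over a valued field `(K, v)`, multiplicative case
`a = α²`, `v α = 1`, `v 2 = 1`, `v b < 1`.  Put `tval α P = (y - α x) / (y + α x)` (`1` at the
origin); in the coordinates `(x, s)`, `s = y / x`, this is `(s - α) / (s + α)`.

* `tval_neg`   : `tval α (-P) = (tval α P)⁻¹` (exact);
* `tval_unit`  : on `E₀` (`1 ≤ v x`) the value is a unit;
* `tval_add`   : on `E₀` the map is a homomorphism modulo `b`: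
                 `v (tval α (P + Q) - tval α P * tval α Q) ≤ v b`;
* `tval_nsmul` : `v (tval α (n • P) - tval α P ^ n) ≤ v b`;
* `tval_sub_one`, `inE1_of_tval` : `t - 1 = -2 α / (s + α)`; on `E₀`, `v (t - 1) < 1` iff the
                 point lies in the kernel of reduction `E₁`, and there `v (t - 1) = v (x / y)`;
* `tval_map`   : compatibility with a ring homomorphism fixing `α`.

The whole file rests on the exact identity (`key_identity`)
`t₃ - t₁ t₂ = 2 α b (1/x₁ + 1/x₂ + S²/(x₁x₂ - b)) / ((s₁+α)(s₂+α)(s₃+α))`, `S = s₁ + s₂`,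
read off from the master addition formula `S05.add_xs`.
-/
import Fermat.Agent.S05.Components

set_option autoImplicit false
set_option linter.unusedSectionVars false

namespace Fermat.Agent.U44.TvalNearHom8

open WeierstrassCurve WeierstrassCurve.Affine
open Fermat.Agent.S05

variable {K : Type*} [Field K] [DecidableEq K] {Γ₀ : Type*} [LinearOrderedCommGroupWithZero Γ₀]
  {v : Valuation K Γ₀} {a b : K}

/-- The Tate parameter modulo `b`: `(y - α x) / (y + α x)`, and `1` at the origin. -/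
def tval (α : K) : (Wab a b).toAffine.Point → K
  | .zero => 1
  | .some x y _ => (y - α * x) / (y + α * x)

@[simp] theorem tval_zero (α : K) : tval α (0 : (Wab a b).toAffine.Point) = 1 := rfl

theorem tval_some (α : K) {x y : K} (h : (Wab a b).toAffine.Nonsingular x y) :
    tval α (Point.some x y h) = (y - α * x) / (y + α * x) := rfl

/-- In `(x, s)`-coordinates. -/
theorem tval_xs (α : K) {x s : K} (h : (Wab a b).toAffine.Nonsingular x (x * s)) (hx : x ≠ 0) :
    tval α (Point.some x (x * s) h) = (s - α) / (s + α) := by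
  rw [tval_some]
  have e1 : x * s - α * x = x * (s - α) := by ring
  have e2 : x * s + α * x = x * (s + α) := by ring
  rw [e1, e2, mul_div_mul_left _ _ hx]

/-- `tval (-P) = (tval P)⁻¹`, exactly. -/
theorem tval_neg (α : K) (P : (Wab a b).toAffine.Point) : tval α (-P) = (tval α P)⁻¹ := by
  rcases P with _ | ⟨x, y, h⟩
  · show tval α (0 : (Wab a b).toAffine.Point) = (tval α (0 : (Wab a b).toAffine.Point))⁻¹
    simp
  · rw [Point.neg_some, tval_some, tval_some, Wab_negY, inv_div]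
    have e1 : -y - α * x = -(y + α * x) := by ring
    have e2 : -y + α * x = -(y - α * x) := by ring
    rw [e1, e2, neg_div_neg_eq]

/-! ### Valuations of `s ± α` on `E₀` -/

section Val

variable {α : K}

/-- `(s - α)(s + α) = x + b / x`. -/
theorem s_sub_mul_s_add (hα : a = α ^ 2) {x s : K}
    (h : (Wab a b).toAffine.Nonsingular x (x * s)) (hx : x ≠ 0) :
    (s - α) * (s + α) = x + b / x := by
  have e := s_sq h hx
  have : (s - α) * (s + α) = s ^ 2 - α ^ 2 := by ring
  rw [this, e, hα]; ring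

theorem div_le_self_of_one_le' {u w : Γ₀} (hw : 1 ≤ w) : u / w ≤ u := by
  have hw0 : 0 < w := lt_of_lt_of_le zero_lt_one hw
  rw [div_le_iff₀ hw0]
  exact le_mul_of_one_le_right' hw

/-- On `E₀`: `v (x + b / x) = v x`. -/
theorem val_x_add (hb : v b < 1) {x : K} (hx : 1 ≤ v x) : v (x + b / x) = v x := by
  have hx0 : v x ≠ 0 := fun h0 => by rw [h0] at hx; exact absurd hx (by simp)
  have h1 : v (b / x) < v x := by
    rw [map_div₀]
    calc v b / v x ≤ v b := div_le_self_of_one_le' hx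
      _ < 1 := hb
      _ ≤ v x := hx
  exact Valuation.map_add_eq_of_lt_left v h1

/-- On `E₀` both `s + α` and `s - α` have the same valuation `≥ 1`, with square `v x`. -/
theorem val_s_pm (h2 : v (2 : K) = 1) (hα : a = α ^ 2) (hαv : v α = 1) (hb : v b < 1) {x s : K}
    (h : (Wab a b).toAffine.Nonsingular x (x * s)) (hx : 1 ≤ v x) :
    1 ≤ v (s + α) ∧ v (s - α) = v (s + α) ∧ v (s + α) * v (s + α) = v x := by
  have hx0 : x ≠ 0 := by
    rintro rfl
    simp at hx
  have hprod : v (s - α) * v (s + α) = v x := by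
    rw [← map_mul, s_sub_mul_s_add hα h hx0, val_x_add hb hx]
  have h2α : v (2 * α) = 1 := by rw [map_mul, h2, hαv, one_mul]
  have hdiff : (s + α) - (s - α) = 2 * α := by ring
  -- `1 ≤ v (s + α)`
  have hplus : 1 ≤ v (s + α) := by
    by_contra hlt
    rw [not_le] at hlt
    have e : s - α = (s + α) - 2 * α := by ring
    have hm : v (s - α) = 1 := by
      rw [e, Valuation.map_sub_eq_of_lt_right v (by rw [h2α]; exact hlt), h2α]
    rw [hm, one_mul] at hprod
    rw [hprod] at hlt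
    exact absurd hx (not_le.mpr hlt)
  have hminus : 1 ≤ v (s - α) := by
    by_contra hlt
    rw [not_le] at hlt
    have e : s + α = (s - α) + 2 * α := by ring
    have hm : v (s + α) = 1 := by
      rw [e, Valuation.map_add_eq_of_lt_right v (by rw [h2α]; exact hlt), h2α]
    rw [hm, mul_one] at hprod
    rw [hprod] at hlt
    exact absurd hx (not_le.mpr hlt)
  have heq : v (s - α) = v (s + α) := by
    rcases eq_or_lt_of_le hplus with h1 | h1
    · -- `v (s + α) = 1`
      rcases eq_or_lt_of_le hminus with h1' | h1'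
      · rw [← h1, ← h1']
      · exfalso
        have e : s + α = (s - α) + 2 * α := by ring
        have : v (s + α) = v (s - α) := by
          rw [e, Valuation.map_add_eq_of_lt_left v (by rw [h2α]; exact h1')]
        rw [this] at h1
        exact absurd h1 (ne_of_lt h1')
    · have e : s - α = (s + α) - 2 * α := by ring
      rw [e, Valuation.map_sub_eq_of_lt_left v (by rw [h2α]; exact h1)]
  refine ⟨hplus, heq, ?_⟩
  rw [← heq] at hprod ⊢
  rw [← hprod, heq]

/-- `v s ^ 2 ≤ v x` on `E₀`. -/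
theorem val_s_sq_le (hα : a = α ^ 2) (hαv : v α = 1) (hb : v b < 1) {x s : K}
    (h : (Wab a b).toAffine.Nonsingular x (x * s)) (hx : 1 ≤ v x) : v s * v s ≤ v x := by
  have hx0 : x ≠ 0 := by
    rintro rfl
    simp at hx
  have e := s_sq h hx0
  have e' : s * s = (x + b / x) + a := by rw [← sq, e]; ring
  rw [← map_mul, e']
  have ha1 : v a = 1 := by rw [hα, map_pow, hαv, one_pow]
  refine v.map_add_le (le_of_eq (val_x_add hb hx)) ?_
  rw [ha1]; exact hx

end Val

/-! ### The key identity -/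

/-- The algebra behind the near-homomorphism property. -/
theorem key_aux {α b s₁ s₂ S3 E : K} (hS : s₁ + s₂ ≠ 0) (h₁ : s₁ + α ≠ 0) (h₂ : s₂ + α ≠ 0)
    (h₃ : S3 + α ≠ 0)
    (hS3 : S3 = (s₁ * s₂ + α ^ 2) / (s₁ + s₂) + b * E / (s₁ + s₂)) :
    (S3 - α) / (S3 + α) - (s₁ - α) / (s₁ + α) * ((s₂ - α) / (s₂ + α)) =
      2 * α * b * E / ((s₁ + α) * (s₂ + α) * (S3 + α)) := by
  have hp' : (s₁ + α) * (s₂ + α) + b * E = (S3 + α) * (s₁ + s₂) := by
    rw [hS3]; field_simp; ring
  have hm' : (s₁ - α) * (s₂ - α) + b * E = (S3 - α) * (s₁ + s₂) := by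
    rw [hS3]; field_simp; ring
  have hN : (S3 - α) * ((s₁ + α) * (s₂ + α)) - (S3 + α) * ((s₁ - α) * (s₂ - α)) =
      2 * α * b * E := by
    linear_combination (S3 - α) * hp' - (S3 + α) * hm'
  rw [div_mul_div_comm, div_sub_div _ _ h₃ (mul_ne_zero h₁ h₂), hN, mul_comm (S3 + α)]

/-- The `s`-coordinate of a sum, separated into the nodal part and the `b`-part. -/
theorem addSs_eq {α x₁ s₁ x₂ s₂ : K} (hS : s₁ + s₂ ≠ 0) :
    addSs (α ^ 2) b x₁ s₁ x₂ s₂ = (s₁ * s₂ + α ^ 2) / (s₁ + s₂) +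
      b * (1 / x₁ + 1 / x₂ + (s₁ + s₂) ^ 2 / (x₁ * x₂ - b)) / (s₁ + s₂) := by
  unfold addSs
  field_simp
  ring

/-! ### The near-homomorphism on `E₀` -/

section Main

open Fermat.Agent.S05.CompH12

variable {α : K}

theorem x_ne_zero_of_one_le {x : K} (hx : 1 ≤ v x) : x ≠ 0 := by
  rintro rfl
  rw [map_zero] at hx
  exact absurd hx (not_le.mpr zero_lt_one)

/-- **(T1)** On `E₀` the Tate parameter is a unit. -/
theorem tval_unit (h2 : v (2 : K) = 1) (hα : a = α ^ 2) (hαv : v α = 1) (hb : v b < 1)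
    {P : (Wab a b).toAffine.Point} (hP : InE0 v P) : v (tval α P) = 1 := by
  rcases P with _ | ⟨x, y, h⟩
  · show v (tval α (0 : (Wab a b).toAffine.Point)) = 1
    rw [tval_zero, map_one]
  · have hx : 1 ≤ v x := hP
    have hx0 : x ≠ 0 := x_ne_zero_of_one_le hx
    obtain ⟨h', e⟩ := some_eq_xs h hx0
    rw [e, tval_xs α h' hx0, map_div₀]
    obtain ⟨h1, h2', -⟩ := val_s_pm h2 hα hαv hb h' hx
    rw [h2', div_self (ne_of_gt (lt_of_lt_of_le zero_lt_one h1))]

theorem tval_ne_zero (h2 : v (2 : K) = 1) (hα : a = α ^ 2) (hαv : v α = 1) (hb : v b < 1)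
    {P : (Wab a b).toAffine.Point} (hP : InE0 v P) : tval α P ≠ 0 := by
  intro h0
  have := tval_unit h2 hα hαv hb hP
  rw [h0, map_zero] at this
  exact zero_ne_one this

/-- **(T3)** On `E₀` the Tate parameter is a homomorphism modulo `b`. -/
theorem tval_add (h2 : v (2 : K) = 1) (hα : a = α ^ 2) (hαv : v α = 1) (hb : v b < 1)
    (hb0 : b ≠ 0) {P Q : (Wab a b).toAffine.Point} (hP : InE0 v P) (hQ : InE0 v Q) :
    v (tval α (P + Q) - tval α P * tval α Q) ≤ v b := by
  have ha1 : v a ≤ 1 := by rw [hα, map_pow, hαv, one_pow]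
  have hPQ : InE0 v (P + Q) := inE0_add hb hb0 ha1 hP hQ
  rcases point_cases hb0 P with rfl | rfl | ⟨x₁, s₁, h₁, hx₁, rfl⟩
  · rw [zero_add, tval_zero, one_mul, sub_self, map_zero]; exact zero_le
  · exfalso
    have : (1 : Γ₀) ≤ v (0 : K) := hP
    simp at this
  rcases point_cases hb0 Q with rfl | rfl | ⟨x₂, s₂, h₂, hx₂, rfl⟩
  · rw [add_zero, tval_zero, mul_one, sub_self, map_zero]; exact zero_le
  · exfalso
    have : (1 : Γ₀) ≤ v (0 : K) := hQ
    simp at this
  have hv₁ : 1 ≤ v x₁ := hP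
  have hv₂ : 1 ≤ v x₂ := hQ
  by_cases hS : s₁ + s₂ = 0
  · rcases add_xs_of_S_eq_zero hb0 h₁ h₂ hx₁ hx₂ hS with ⟨-, h0⟩ | ⟨hxb, -⟩
    · have hQ' : Point.some _ _ h₂ = -Point.some _ _ h₁ := eq_neg_of_add_eq_zero_right h0
      rw [h0, hQ', tval_neg, tval_zero,
        mul_inv_cancel₀ (tval_ne_zero h2 hα hαv hb hP), sub_self, map_zero]
      exact zero_le
    · exact absurd (sub_eq_zero.mpr hxb) (mul_sub_ne_zero_of_one_le hb hv₁ hv₂)
  · have hxb : x₁ * x₂ - b ≠ 0 := mul_sub_ne_zero_of_one_le hb hv₁ hv₂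
    obtain ⟨h₃, e⟩ := add_xs h₁ h₂ hx₁ hx₂ hS (sub_ne_zero.mp hxb)
    rw [e] at hPQ ⊢
    have hv₃ : 1 ≤ v (addXs b x₁ s₁ x₂ s₂) := hPQ
    have hx₃ : addXs b x₁ s₁ x₂ s₂ ≠ 0 := x_ne_zero_of_one_le hv₃
    obtain ⟨p1, -, q1⟩ := val_s_pm h2 hα hαv hb h₁ hv₁
    obtain ⟨p2, -, q2⟩ := val_s_pm h2 hα hαv hb h₂ hv₂
    obtain ⟨p3, -, -⟩ := val_s_pm h2 hα hαv hb h₃ hv₃
    rw [tval_xs α h₃ hx₃, tval_xs α h₁ hx₁, tval_xs α h₂ hx₂]
    subst hα
    have n1 : s₁ + α ≠ 0 := x_ne_zero_of_one_le p1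
    have n2 : s₂ + α ≠ 0 := x_ne_zero_of_one_le p2
    have n3 : addSs (α ^ 2) b x₁ s₁ x₂ s₂ + α ≠ 0 := x_ne_zero_of_one_le p3
    rw [key_aux hS n1 n2 n3 (addSs_eq hS)]
    -- valuation of the right-hand side
    have hE : v (1 / x₁ + 1 / x₂ + (s₁ + s₂) ^ 2 / (x₁ * x₂ - b)) ≤ 1 := by
      have i1 : v (1 / x₁) ≤ 1 := by
        rw [map_div₀, map_one]
        exact (div_le_one₀ (lt_of_lt_of_le zero_lt_one hv₁)).mpr hv₁
      have i2 : v (1 / x₂) ≤ 1 := by
        rw [map_div₀, map_one]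
        exact (div_le_one₀ (lt_of_lt_of_le zero_lt_one hv₂)).mpr hv₂
      have i3 : v ((s₁ + s₂) ^ 2 / (x₁ * x₂ - b)) ≤ 1 := by
        rw [map_div₀, v_mul_sub_of_one_le hb hv₁ hv₂, map_pow]
        have hpos : 0 < v x₁ * v x₂ :=
          mul_pos (lt_of_lt_of_le zero_lt_one hv₁) (lt_of_lt_of_le zero_lt_one hv₂)
        rw [div_le_one₀ hpos]
        have hs1 : v s₁ ^ 2 ≤ v x₁ := by
          rw [sq]; exact val_s_sq_le rfl hαv hb h₁ hv₁
        have hs2 : v s₂ ^ 2 ≤ v x₂ := by
          rw [sq]; exact val_s_sq_le rfl hαv hb h₂ hv₂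
        have hmax : v (s₁ + s₂) ≤ max (v s₁) (v s₂) := v.map_add _ _
        have h12 : v x₁ ≤ v x₁ * v x₂ := le_mul_of_one_le_right' hv₂
        have h21 : v x₂ ≤ v x₁ * v x₂ := le_mul_of_one_le_left' hv₁
        rcases le_total (v s₁) (v s₂) with hle | hle
        · rw [max_eq_right hle] at hmax
          exact le_trans (pow_le_pow_left' hmax 2) (le_trans hs2 h21)
        · rw [max_eq_left hle] at hmax
          exact le_trans (pow_le_pow_left' hmax 2) (le_trans hs1 h12)
      exact v.map_add_le (v.map_add_le i1 i2) i3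
    have h2αb : v (2 * α * b) = v b := by
      rw [map_mul, map_mul, h2, hαv, one_mul, one_mul]
    have hden : 1 ≤ v ((s₁ + α) * (s₂ + α) * (addSs (α ^ 2) b x₁ s₁ x₂ s₂ + α)) := by
      rw [map_mul, map_mul]
      calc (1 : Γ₀) = 1 * 1 * 1 := by simp
        _ ≤ _ := mul_le_mul' (mul_le_mul' p1 p2) p3
    rw [map_div₀, map_mul, h2αb]
    have hdpos : 0 < v ((s₁ + α) * (s₂ + α) * (addSs (α ^ 2) b x₁ s₁ x₂ s₂ + α)) :=
      lt_of_lt_of_le zero_lt_one hden
    rw [div_le_iff₀ hdpos]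
    calc v b * v (1 / x₁ + 1 / x₂ + (s₁ + s₂) ^ 2 / (x₁ * x₂ - b)) ≤ v b * 1 :=
          mul_le_mul' le_rfl hE
      _ = v b * 1 := rfl
      _ ≤ v b * v ((s₁ + α) * (s₂ + α) * (addSs (α ^ 2) b x₁ s₁ x₂ s₂ + α)) :=
          mul_le_mul' le_rfl hden

theorem inE0_neg' {P : (Wab a b).toAffine.Point} (hP : InE0 v P) : InE0 v (-P) := by
  rcases P with _ | ⟨x, y, h⟩
  · exact hP
  · rw [Point.neg_some]; exact hP

theorem inE0_nsmul' (hα : a = α ^ 2) (hαv : v α = 1) (hb : v b < 1) (hb0 : b ≠ 0)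
    {P : (Wab a b).toAffine.Point} (hP : InE0 v P) (n : ℕ) : InE0 v (n • P) := by
  have ha1 : v a ≤ 1 := by rw [hα, map_pow, hαv, one_pow]
  induction n with
  | zero => rw [zero_smul]; trivial
  | succ n ih => rw [succ_nsmul]; exact inE0_add hb hb0 ha1 ih hP

/-- **(T3')** the version for differences. -/
theorem tval_sub (h2 : v (2 : K) = 1) (hα : a = α ^ 2) (hαv : v α = 1) (hb : v b < 1)
    (hb0 : b ≠ 0) {P Q : (Wab a b).toAffine.Point} (hP : InE0 v P) (hQ : InE0 v Q) :
    v (tval α (P - Q) - tval α P / tval α Q) ≤ v b := by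
  have := tval_add h2 hα hαv hb hb0 hP (inE0_neg' hQ)
  rwa [tval_neg, ← sub_eq_add_neg, ← div_eq_mul_inv] at this

/-- **(T4)** multiples. -/
theorem tval_nsmul (h2 : v (2 : K) = 1) (hα : a = α ^ 2) (hαv : v α = 1) (hb : v b < 1)
    (hb0 : b ≠ 0) {P : (Wab a b).toAffine.Point} (hP : InE0 v P) (n : ℕ) :
    v (tval α (n • P) - tval α P ^ n) ≤ v b := by
  induction n with
  | zero => rw [zero_smul, pow_zero, tval_zero, sub_self, map_zero]; exact zero_le
  | succ n ih =>
    have h1 := tval_add h2 hα hαv hb hb0 (inE0_nsmul' hα hαv hb hb0 hP n) hP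
    have e : tval α ((n + 1) • P) - tval α P ^ (n + 1) =
        (tval α (n • P + P) - tval α (n • P) * tval α P) +
          (tval α (n • P) - tval α P ^ n) * tval α P := by
      rw [succ_nsmul, pow_succ]; ring
    rw [e]
    refine v.map_add_le h1 ?_
    rw [map_mul, tval_unit h2 hα hαv hb hP, mul_one]
    exact ih

theorem sub_one_eq {w : K} (hw : w + α ≠ 0) : (w - α) / (w + α) - 1 = -(2 * α) / (w + α) := by
  rw [div_sub_one hw]; congr 1; ring

/-- `t - 1 = -2α / (s + α)`, so `v (t - 1) ^ 2 * v x = 1` on `E₀`. -/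
theorem val_tval_sub_one (h2 : v (2 : K) = 1) (hα : a = α ^ 2) (hαv : v α = 1) (hb : v b < 1)
    {x y : K} (h : (Wab a b).toAffine.Nonsingular x y) (hx : 1 ≤ v x) :
    v (tval α (Point.some x y h) - 1) * v (tval α (Point.some x y h) - 1) * v x = 1 := by
  have hx0 : x ≠ 0 := x_ne_zero_of_one_le hx
  obtain ⟨h', e⟩ := some_eq_xs h hx0
  obtain ⟨p1, -, q1⟩ := val_s_pm h2 hα hαv hb h' hx
  have n1 : y / x + α ≠ 0 := x_ne_zero_of_one_le p1
  have e1 : (y / x - α) / (y / x + α) - 1 = -(2 * α) / (y / x + α) := sub_one_eq n1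
  have hv : v (-(2 * α) / (y / x + α)) = (v (y / x + α))⁻¹ := by
    rw [map_div₀, Valuation.map_neg, map_mul, h2, hαv, one_mul, one_div]
  rw [e, tval_xs α h' hx0, e1, hv, ← q1]
  have hne : v (y / x + α) ≠ 0 := ne_of_gt (lt_of_lt_of_le zero_lt_one p1)
  rw [← mul_inv, inv_mul_cancel₀ (mul_ne_zero hne hne)]

/-- **(T6)** a point of `E₀` lies in `E₁` iff its Tate parameter is `≡ 1`. -/
theorem inE1_iff_tval (h2 : v (2 : K) = 1) (hα : a = α ^ 2) (hαv : v α = 1) (hb : v b < 1)
    {P : (Wab a b).toAffine.Point} (hP : InE0 v P) : InE1 v P ↔ v (tval α P - 1) < 1 := by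
  rcases P with _ | ⟨x, y, h⟩
  · constructor
    · intro _
      show v (tval α (0 : (Wab a b).toAffine.Point) - 1) < 1
      rw [tval_zero, sub_self, map_zero]; exact zero_lt_one
    · intro _; trivial
  · have hx : 1 ≤ v x := hP
    have key := val_tval_sub_one h2 hα hαv hb h hx
    show 1 < v x ↔ _
    set w := v (tval α (Point.some x y h) - 1) with hw
    constructor
    · intro hlt
      by_contra hge
      rw [not_lt] at hge
      have hww : 1 ≤ w * w := by
        calc (1 : Γ₀) = 1 * 1 := (mul_one 1).symm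
          _ ≤ w * w := mul_le_mul' hge hge
      have : 1 < w * w * v x := by
        calc (1 : Γ₀) < v x := hlt
          _ = 1 * v x := (one_mul _).symm
          _ ≤ w * w * v x := mul_le_mul' hww le_rfl
      rw [key] at this
      exact lt_irrefl _ this
    · intro hlt
      by_contra hge
      rw [not_lt] at hge
      have hx1 : v x = 1 := le_antisymm hge hx
      rw [hx1, mul_one] at key
      have : w * w < 1 := by
        calc w * w ≤ w * 1 := mul_le_mul' le_rfl hlt.le
          _ = w := mul_one w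
          _ < 1 := hlt
      rw [key] at this
      exact lt_irrefl _ this

/-- On `E₁`: `v (t - 1) = v (x / y)` (the valuation of the parameter `z = -x/y`). -/
theorem val_tval_sub_one_E1 (h2 : v (2 : K) = 1) (hα : a = α ^ 2) (hαv : v α = 1)
    (hb : v b < 1) {x y : K} (h : (Wab a b).toAffine.Nonsingular x y) (hx : 1 < v x) :
    v (tval α (Point.some x y h) - 1) = v (x / y) := by
  have hx0 : x ≠ 0 := x_ne_zero_of_one_le hx.le
  obtain ⟨h', e⟩ := some_eq_xs h hx0
  obtain ⟨p1, -, q1⟩ := val_s_pm h2 hα hαv hb h' hx.le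
  have n1 : y / x + α ≠ 0 := x_ne_zero_of_one_le p1
  have e1 : (y / x - α) / (y / x + α) - 1 = -(2 * α) / (y / x + α) := sub_one_eq n1
  have hv : v (-(2 * α) / (y / x + α)) = (v (y / x + α))⁻¹ := by
    rw [map_div₀, Valuation.map_neg, map_mul, h2, hαv, one_mul, one_div]
  -- `1 < v (s + α)`, hence `v s = v (s + α)`
  have hgt : 1 < v (y / x + α) := by
    by_contra hle
    rw [not_lt] at hle
    have h1 : v (y / x + α) = 1 := le_antisymm hle p1
    rw [h1, mul_one] at q1
    rw [← q1] at hx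
    exact lt_irrefl _ hx
  have hs : v (y / x) = v (y / x + α) := by
    have e2 : y / x = (y / x + α) - α := by ring
    rw [e2, Valuation.map_sub_eq_of_lt_left v (by rw [hαv]; exact hgt)]
    congr 1; ring
  rw [e, tval_xs α h' hx0, e1, hv, ← hs, ← map_inv₀, inv_div]

/-- **(T7)** compatibility with a ring homomorphism fixing `α`. -/
theorem tval_map (σ : K →+* K) (hσα : σ α = α) {x y : K}
    (h : (Wab a b).toAffine.Nonsingular x y)
    (h' : (Wab a b).toAffine.Nonsingular (σ x) (σ y)) :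
    tval α (Point.some (σ x) (σ y) h') = σ (tval α (Point.some x y h)) := by
  rw [tval_some, tval_some, map_div₀, map_sub, map_add, map_mul, hσα]

end Main

end Fermat.Agent.U44.TvalNearHom8
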