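/-
Programme U44 (target S44), chapter (FREY), helper8: **the `p`-torsion of the model curve
`Wab a b : Y² = X³ + a X² + b X` at the residue characteristic `p`**, multiplicative case.

Standing hypotheses (`Setting`): `v 2 = 1`, `a = α²`, `v α = 1`, `v b = v h₀ ^ p` with
`v h₀ ≤ v p < 1`, `p ≥ 3` prime, `ζ` a primitive `p`-th root of unity.  Notation: `E₀` the points
with `1 ≤ v x`, `E₁` the kernel of reduction, `t = tval α` the Tate parameter modulo `b`.

* `eq_zero_of_tval_close` (M0): `δ ∈ E₁[p]`, `v (t δ - 1) · v p ≤ v b` ⟹ `δ = 0`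
  (the formal-group estimate `z(pδ) ≡ p z(δ)` gives `v p ≤ v (z δ) = v (t δ - 1)`);
* `inE1_of_inE0_torsion` (M1): `E₀ ∩ E[p] = E₁[p]`;
* `exists_root_index`, `eq_of_root_index`: `E₁[p]` embeds into `μ_p` (nearest root of unity);
* `tau_eq_nsmul` (M2): if `σ ζ = ζ ^ m` then the Galois action on `E₁[p]` is multiplication by `m`;
* `tau_eq_self` (M4): if `T - R ∈ E₀`, `R` is Galois-fixed and `σ` fixes the `p`-th roots of the
  unit `t (p • (T - R))`, then `σ` fixes `T`.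
-/
import Fermat.Agent.U44.TvalNearHom8
import Fermat.Agent.U44.RootsBook8
import Fermat.Agent.S05.Kernel

set_option autoImplicit false
set_option linter.unusedSectionVars false

namespace Fermat.Agent.U44.FreyAtPModel8

open WeierstrassCurve WeierstrassCurve.Affine
open Fermat.Agent.S05 Fermat.Agent.U44.TvalNearHom8 Fermat.Agent.U44.RootsBook8

variable {K : Type*} [Field K] [DecidableEq K] {Γ₀ : Type*} [LinearOrderedCommGroupWithZero Γ₀]
  {v : Valuation K Γ₀} {a b α h₀ : K} {p : ℕ} {ζ : K}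

/-- The standing hypotheses. -/
structure Setting (v : Valuation K Γ₀) (a b α h₀ : K) (p : ℕ) (ζ : K) : Prop where
  h2 : v (2 : K) = 1
  hα : a = α ^ 2
  hαv : v α = 1
  hb0 : b ≠ 0
  hbh : v b = v h₀ ^ p
  hh₀ : v h₀ ≤ v (p : K)
  hvp : v (p : K) < 1
  hp0 : (p : K) ≠ 0
  hp : p.Prime
  hp3 : 3 ≤ p
  hζ : IsPrimitiveRoot ζ p

namespace Setting

variable (S : Setting v a b α h₀ p ζ)
include S

theorem vp_pos : 0 < v (p : K) := (Valuation.pos_iff v).mpr S.hp0

theorem vb_le : v b ≤ v (p : K) ^ 3 := by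
  rw [S.hbh]
  calc v h₀ ^ p ≤ v (p : K) ^ p := pow_le_pow_left' S.hh₀ p
    _ ≤ v (p : K) ^ 3 := pow_le_pow_right_of_le_one' S.hvp.le S.hp3

theorem vb_lt_sq : v b < v (p : K) * v (p : K) := by
  refine lt_of_le_of_lt S.vb_le ?_
  have h0 := S.vp_pos
  calc v (p : K) ^ 3 = v (p : K) * v (p : K) * v (p : K) := by rw [pow_succ, sq]
    _ < v (p : K) * v (p : K) * 1 :=
        mul_lt_mul_of_pos_left S.hvp (mul_pos h0 h0)
    _ = v (p : K) * v (p : K) := mul_one _

theorem vb_lt_vp : v b < v (p : K) := by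
  refine lt_of_lt_of_le S.vb_lt_sq ?_
  calc v (p : K) * v (p : K) ≤ v (p : K) * 1 := mul_le_mul' le_rfl S.hvp.le
    _ = v (p : K) := mul_one _

theorem vb_lt_one : v b < 1 := lt_trans S.vb_lt_vp S.hvp

theorem va_le : v a ≤ 1 := by rw [S.hα, map_pow, S.hαv, one_pow]

theorem integralCoeffs : Kernel.IntegralCoeffs v (Wab a b).toAffine := by
  refine ⟨?_, ?_, ?_, ?_, ?_⟩
  · show v (0 : K) ≤ 1
    rw [map_zero]; exact zero_le
  · exact S.va_le
  · show v (0 : K) ≤ 1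
    rw [map_zero]; exact zero_le
  · exact S.vb_lt_one.le
  · show v (0 : K) ≤ 1
    rw [map_zero]; exact zero_le

/-- **(M0)** a point of `E₁[p]` whose Tate parameter is `≡ 1` modulo `b / p` is zero. -/
theorem eq_zero_of_tval_close {δ : (Wab a b).toAffine.Point} (h1 : InE1 v δ) (hpδ : p • δ = 0)
    (hc : v (tval α δ - 1) * v (p : K) ≤ v b) : δ = 0 := by
  by_contra hne
  rcases δ with _ | ⟨x, y, h⟩
  · exact hne rfl
  have hx : 1 < v x := h1
  have hW := S.integralCoeffs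
  have hK : Kernel.InE1 v (Point.some x y h) := Or.inr ⟨x, y, h, rfl, hx⟩
  have hlt := hK.zc_lt_one hW
  have hpos := hK.zc_pos hW hne
  obtain ⟨-, h₂⟩ := Kernel.nsmul_estimate hW hlt hK le_rfl p
  rw [hpδ, Kernel.zc_zero, zero_sub, Valuation.map_neg, map_mul, sq] at h₂
  have hle : v (p : K) ≤ v (Kernel.zc (Point.some x y h)) :=
    le_of_mul_le_mul_right h₂ hpos
  have hz : v (Kernel.zc (Point.some x y h)) = v (tval α (Point.some x y h) - 1) := by
    rw [Kernel.zc_some, val_tval_sub_one_E1 S.h2 S.hα S.hαv S.vb_lt_one h hx, neg_div,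
      Valuation.map_neg]
  rw [hz] at hle
  have : v (p : K) * v (p : K) ≤ v b :=
    le_trans (mul_le_mul' hle le_rfl) hc
  exact absurd S.vb_lt_sq (not_lt.mpr this)

/-- `t ^ p ≡ 1` modulo `b` for a `p`-torsion point of `E₀`. -/
theorem tval_pow_sub_one {T : (Wab a b).toAffine.Point} (h0 : InE0 v T) (hpT : p • T = 0) :
    v (tval α T ^ p - 1) ≤ v b := by
  have := tval_nsmul S.h2 S.hα S.hαv S.vb_lt_one S.hb0 h0 p
  rwa [hpT, tval_zero, ← Valuation.map_neg, neg_sub] at this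

/-- **(M1)** `E₀ ∩ E[p] = E₁[p]`. -/
theorem inE1_of_inE0_torsion {T : (Wab a b).toAffine.Point} (h0 : InE0 v T) (hpT : p • T = 0) :
    InE1 v T := by
  rw [inE1_iff_tval S.h2 S.hα S.hαv S.vb_lt_one h0]
  exact val_sub_one_lt_one v S.hp S.hζ S.hvp S.vb_lt_vp (S.tval_pow_sub_one h0 hpT)

/-! ### Closeness modulo `b / p` -/

/-- `x ≡ 0` modulo `b / p`. -/
def Cl (_S : Setting v a b α h₀ p ζ) (x : K) : Prop := v x * v (p : K) ≤ v b

theorem Cl.add {x y : K} (hx : S.Cl x) (hy : S.Cl y) : S.Cl (x + y) := by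
  unfold Cl at *
  rcases le_total (v x) (v y) with h | h
  · exact le_trans (mul_le_mul' (le_trans (v.map_add _ _) (max_le h le_rfl)) le_rfl) hy
  · exact le_trans (mul_le_mul' (le_trans (v.map_add _ _) (max_le le_rfl h)) le_rfl) hx

theorem Cl.neg {x : K} (hx : S.Cl x) : S.Cl (-x) := by
  unfold Cl at *; rwa [Valuation.map_neg]

theorem Cl.sub {x y : K} (hx : S.Cl x) (hy : S.Cl y) : S.Cl (x - y) := by
  rw [sub_eq_add_neg]; exact Cl.add S hx (Cl.neg S hy)

theorem Cl.mul_left {x : K} (hx : S.Cl x) {c : K} (hc : v c ≤ 1) : S.Cl (c * x) := by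
  unfold Cl at *
  rw [map_mul, mul_assoc]
  calc v c * (v x * v (p : K)) ≤ 1 * (v x * v (p : K)) := mul_le_mul' hc le_rfl
    _ = v x * v (p : K) := one_mul _
    _ ≤ v b := hx

theorem Cl.of_le {x : K} (hx : v x ≤ v b) : S.Cl x := by
  unfold Cl
  calc v x * v (p : K) ≤ v b * 1 := mul_le_mul' hx S.hvp.le
    _ = v b := mul_one _

theorem Cl.of_val_eq {x y : K} (hx : S.Cl x) (h : v y = v x) : S.Cl y := by
  unfold Cl at *; rwa [h]

theorem Cl.pow_sub_pow {x y : K} (hx : v x ≤ 1) (hy : v y ≤ 1) (h : S.Cl (x - y)) (m : ℕ) :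
    S.Cl (x ^ m - y ^ m) := by
  rw [← geom_sum₂_mul]
  refine Cl.mul_left S h ?_
  refine v.map_sum_le fun i _ => ?_
  rw [map_mul, map_pow, map_pow]
  calc v x ^ i * v y ^ (m - 1 - i) ≤ 1 * 1 :=
        mul_le_mul' (pow_le_one' hx i) (pow_le_one' hy _)
    _ = 1 := one_mul 1

/-- The basic closeness criterion: if `t D ≡ A / B` modulo `b` and `A ≡ B`, then `t D ≡ 1`. -/
theorem cl_tval_sub_one {D : (Wab a b).toAffine.Point} {A B : K} (hB : v B = 1)
    (h : v (tval α D - A / B) ≤ v b) (hAB : S.Cl (A - B)) : S.Cl (tval α D - 1) := by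
  have hB0 : B ≠ 0 := by
    rintro rfl
    rw [map_zero] at hB
    exact zero_ne_one hB
  have e : tval α D - 1 = (tval α D - A / B) + (A - B) / B := by
    field_simp; ring
  rw [e]
  refine Cl.add S (Cl.of_le S h) (Cl.of_val_eq S hAB ?_)
  rw [map_div₀, hB, div_one]

/-! ### `E₁[p]` embeds into `μ_p` -/

theorem inE0_sub {P Q : (Wab a b).toAffine.Point} (hP : InE0 v P) (hQ : InE0 v Q) :
    InE0 v (P - Q) := by
  rw [sub_eq_add_neg]
  exact inE0_add S.vb_lt_one S.hb0 S.va_le hP (inE0_neg' hQ)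

theorem inE0_nsmul {P : (Wab a b).toAffine.Point} (hP : InE0 v P) (n : ℕ) : InE0 v (n • P) :=
  inE0_nsmul' S.hα S.hαv S.vb_lt_one S.hb0 hP n

theorem tval_unit' {P : (Wab a b).toAffine.Point} (hP : InE0 v P) : v (tval α P) = 1 :=
  tval_unit S.h2 S.hα S.hαv S.vb_lt_one hP

/-- the index of the nearest root of unity. -/
theorem exists_root_index {δ : (Wab a b).toAffine.Point} (h0 : InE0 v δ) (hpδ : p • δ = 0) :
    ∃ k < p, S.Cl (tval α δ - ζ ^ k) :=
  exists_near_root v S.hp S.hζ (S.tval_pow_sub_one h0 hpδ)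

/-- two `p`-torsion points of `E₀` near the same root of unity are equal. -/
theorem eq_of_root_index {δ₁ δ₂ : (Wab a b).toAffine.Point} (h₁ : InE0 v δ₁) (h₂ : InE0 v δ₂)
    (hp₁ : p • δ₁ = 0) (hp₂ : p • δ₂ = 0) {c : K} (hc₁ : S.Cl (tval α δ₁ - c))
    (hc₂ : S.Cl (tval α δ₂ - c)) : δ₁ = δ₂ := by
  have hD0 : InE0 v (δ₁ - δ₂) := S.inE0_sub h₁ h₂
  have hDp : p • (δ₁ - δ₂) = 0 := by rw [smul_sub, hp₁, hp₂, sub_zero]
  have hD1 : InE1 v (δ₁ - δ₂) := S.inE1_of_inE0_torsion hD0 hDp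
  have hsub := tval_sub S.h2 S.hα S.hαv S.vb_lt_one S.hb0 h₁ h₂
  have hAB : S.Cl (tval α δ₁ - tval α δ₂) := by
    have e : tval α δ₁ - tval α δ₂ = (tval α δ₁ - c) - (tval α δ₂ - c) := by ring
    rw [e]; exact Cl.sub S hc₁ hc₂
  have := S.cl_tval_sub_one (S.tval_unit' h₂) hsub hAB
  exact sub_eq_zero.mp (S.eq_zero_of_tval_close hD1 hDp this)

end Setting

/-! ### The Galois action -/

/-- An automorphism `σ` of `K` together with its action `τ` on the points of `Wab a b`. -/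
structure GalAct (v : Valuation K Γ₀) (a b α : K) (σ : K →+* K)
    (τ : (Wab a b).toAffine.Point →+ (Wab a b).toAffine.Point) : Prop where
  hσv : ∀ x, v (σ x) = v x
  hσα : σ α = α
  hτ : ∀ (x y : K) (h : (Wab a b).toAffine.Nonsingular x y),
    ∃ h' : (Wab a b).toAffine.Nonsingular (σ x) (σ y), τ (Point.some x y h) = Point.some _ _ h'

namespace GalAct

variable {σ : K →+* K} {τ : (Wab a b).toAffine.Point →+ (Wab a b).toAffine.Point}
  (G : GalAct v a b α σ τ)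
include G

theorem tval_tau (P : (Wab a b).toAffine.Point) : tval α (τ P) = σ (tval α P) := by
  rcases P with _ | ⟨x, y, h⟩
  · show tval α (τ 0) = σ (tval α (0 : (Wab a b).toAffine.Point))
    rw [map_zero, tval_zero, map_one]
  · obtain ⟨h', e⟩ := G.hτ x y h
    rw [e, tval_map σ G.hσα h h']

theorem inE0_tau {P : (Wab a b).toAffine.Point} (hP : InE0 v P) : InE0 v (τ P) := by
  rcases P with _ | ⟨x, y, h⟩
  · show InE0 v (τ 0)
    rw [map_zero]; trivial
  · obtain ⟨h', e⟩ := G.hτ x y h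
    rw [e]
    show 1 ≤ v (σ x)
    rw [G.hσv]; exact hP

end GalAct

namespace Setting

variable (S : Setting v a b α h₀ p ζ) {σ : K →+* K}
  {τ : (Wab a b).toAffine.Point →+ (Wab a b).toAffine.Point} (G : GalAct v a b α σ τ)
include S G

theorem Cl.map {x : K} (hx : S.Cl x) : S.Cl (σ x) := by
  unfold Cl at *; rwa [G.hσv]

/-- **(M2)** if `σ ζ = ζ ^ m` then the Galois action on `E₁[p]` is multiplication by `m`. -/
theorem tau_eq_nsmul {m : ℕ} (hm : σ ζ = ζ ^ m) {δ : (Wab a b).toAffine.Point}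
    (h0 : InE0 v δ) (hpδ : p • δ = 0) : τ δ = m • δ := by
  have hτ0 : InE0 v (τ δ) := G.inE0_tau h0
  have hm0 : InE0 v (m • δ) := S.inE0_nsmul h0 m
  have hD0 : InE0 v (τ δ - m • δ) := S.inE0_sub hτ0 hm0
  have hDp : p • (τ δ - m • δ) = 0 := by
    rw [smul_sub, ← map_nsmul, hpδ, map_zero, smul_comm, hpδ, smul_zero, sub_zero]
  have hD1 : InE1 v (τ δ - m • δ) := S.inE1_of_inE0_torsion hD0 hDp
  obtain ⟨k, -, hk⟩ := S.exists_root_index h0 hpδ
  have hsub := tval_sub S.h2 S.hα S.hαv S.vb_lt_one S.hb0 hτ0 hm0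
  have ht1 : v (tval α δ) ≤ 1 := (S.tval_unit' h0).le
  have hζk : v (ζ ^ k) ≤ 1 := (val_zeta_pow v S.hp S.hζ k).le
  have hAB : S.Cl (tval α (τ δ) - tval α (m • δ)) := by
    have e : tval α (τ δ) - tval α (m • δ) =
        σ (tval α δ - ζ ^ k) - ((tval α δ) ^ m - (ζ ^ k) ^ m) -
          (tval α (m • δ) - tval α δ ^ m) := by
      rw [G.tval_tau, map_sub, map_pow, hm, ← pow_mul, ← pow_mul, mul_comm m k]; ring
    rw [e]
    refine Cl.sub S (Cl.sub S (Cl.map S G hk) (Cl.pow_sub_pow S ht1 hζk hk m)) ?_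
    exact Cl.of_le S (tval_nsmul S.h2 S.hα S.hαv S.vb_lt_one S.hb0 h0 m)
  have := S.cl_tval_sub_one (S.tval_unit' hm0) hsub hAB
  exact sub_eq_zero.mp (S.eq_zero_of_tval_close hD1 hDp this)

/-- **(M4)** if `T - R ∈ E₀`, `R` is fixed and `σ` fixes all `p`-th roots of the unit
`u = t (p • (T - R))`, then `σ` fixes the `p`-torsion point `T`. -/
theorem tau_eq_self {T R : (Wab a b).toAffine.Point} (hpT : p • T = 0)
    (hZ : InE0 v (T - R)) (hτR : τ R = R)
    (hroot : ∃ θ : K, θ ^ p = tval α (p • (T - R)))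
    (hθ : ∀ θ : K, θ ^ p = tval α (p • (T - R)) → σ θ = θ) : τ T = T := by
  set Z := T - R with hZdef
  have hTZ : T = Z + R := by rw [hZdef, sub_add_cancel]
  have hτZ : InE0 v (τ Z) := G.inE0_tau hZ
  have hδ : τ T - T = τ Z - Z := by
    rw [hTZ, map_add, hτR]; abel
  have hD0 : InE0 v (τ T - T) := by rw [hδ]; exact S.inE0_sub hτZ hZ
  have hDp : p • (τ T - T) = 0 := by
    rw [smul_sub, ← map_nsmul, hpT, map_zero, sub_zero]
  have hD1 : InE1 v (τ T - T) := S.inE1_of_inE0_torsion hD0 hDp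
  -- the unit `u` and a `p`-th root close to `t Z`
  obtain ⟨θ₀, hθ₀⟩ := hroot
  have hpZ : InE0 v (p • Z) := S.inE0_nsmul hZ p
  have hu : v (tval α (p • Z)) = 1 := S.tval_unit' hpZ
  have htZ : v (tval α Z) = 1 := S.tval_unit' hZ
  have hθ₀v : v θ₀ = 1 := by
    have h1 : v θ₀ ^ p = 1 := by rw [← map_pow, hθ₀, hu]
    exact (pow_eq_one_iff_of_nonneg zero_le S.hp.ne_zero).mp h1
  have hθ₀0 : θ₀ ≠ 0 := by
    rintro rfl
    rw [map_zero] at hθ₀v
    exact zero_ne_one hθ₀v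
  have hu0 : tval α (p • Z) ≠ 0 := by
    intro h0
    rw [h0, map_zero] at hu
    exact zero_ne_one hu
  have hw : v ((tval α Z / θ₀) ^ p - 1) ≤ v b := by
    have e : (tval α Z / θ₀) ^ p - 1 = (tval α Z ^ p - tval α (p • Z)) / tval α (p • Z) := by
      rw [div_pow, hθ₀]; field_simp
    rw [e, map_div₀, hu, div_one, ← Valuation.map_neg, neg_sub]
    exact tval_nsmul S.h2 S.hα S.hαv S.vb_lt_one S.hb0 hZ p
  obtain ⟨k, -, hk⟩ := exists_near_root v S.hp S.hζ hw
  have hθ' : (θ₀ * ζ ^ k) ^ p = tval α (p • Z) := by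
    rw [mul_pow, hθ₀, ← pow_mul, mul_comm k p, pow_mul, S.hζ.pow_eq_one, one_pow, mul_one]
  have hcl : S.Cl (tval α Z - θ₀ * ζ ^ k) := by
    have e : tval α Z - θ₀ * ζ ^ k = θ₀ * (tval α Z / θ₀ - ζ ^ k) := by
      field_simp
    rw [e]
    exact Cl.mul_left S hk hθ₀v.le
  have hσθ := hθ _ hθ'
  have hAB : S.Cl (tval α (τ Z) - tval α Z) := by
    have e : tval α (τ Z) - tval α Z =
        σ (tval α Z - θ₀ * ζ ^ k) - (tval α Z - θ₀ * ζ ^ k) := by
      rw [G.tval_tau, map_sub, hσθ]; ring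
    rw [e]
    exact Cl.sub S (Cl.map S G hcl) hcl
  have hsub := tval_sub S.h2 S.hα S.hαv S.vb_lt_one S.hb0 hτZ hZ
  rw [← hδ] at hsub
  have := S.cl_tval_sub_one htZ hsub hAB
  exact sub_eq_zero.mp (S.eq_zero_of_tval_close hD1 hDp this)

end Setting

end Fermat.Agent.U44.FreyAtPModel8
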