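/-
Programme U44 (target S44), chapter (FREY), helper8: **components of the `p`-torsion of the model
curve `Wab a b` at the residue characteristic `p`**, multiplicative case (continuation of
`FreyAtPModel8`, same `Setting`).  `cval` is the component map of `S05.Components`.

* `cval_mem`, `inE0_of_crel` : `cval` takes values in `(v b ^ 2, 1]`, and `cval P ≡ 1` modulo
  `v b ^ (2ℤ)` forces `P ∈ E₀`;
* `exists_comp_index` : a `p`-torsion point has `cval T = v h₀ ^ (2 k)` for some `k < p`;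
* `inE1_sub_of_cval_eq` : two `p`-torsion points with the same `cval` differ by a point of `E₁`;
* `exists_R` : a `p`-torsion point `T ∉ E₀` is congruent modulo `E₀` to a point
  `R = (h₀ ^ n, h₀ ^ n * s)`, `s² = h₀ ^ n + a + b / h₀ ^ n`, `v s = 1`;
* `sigma_sqrt_fixed`, `tau_R` : such an `R` is fixed by every inertia-like automorphism;
* `model_main` : the unit `u` attached to `T ∉ E₀`.
-/
import Fermat.Agent.U44.FreyAtPModel8

set_option autoImplicit false
set_option linter.unusedSectionVars false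

namespace Fermat.Agent.U44.FreyCompModel8

open WeierstrassCurve WeierstrassCurve.Affine
open Fermat.Agent.S05 Fermat.Agent.U44.TvalNearHom8 Fermat.Agent.U44.RootsBook8
open Fermat.Agent.U44.FreyAtPModel8

variable {K : Type*} [Field K] [DecidableEq K] {Γ₀ : Type*} [LinearOrderedCommGroupWithZero Γ₀]
  {v : Valuation K Γ₀} {a b α h₀ : K} {p : ℕ} {ζ : K}

/-! ### The range of `cval` -/

theorem cval_some (α : K) {x y : K} (h : (Wab a b).toAffine.Nonsingular x y) :
    cval v α (Point.some x y h) =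
      if 1 ≤ v x then 1 else if v x ≤ v b then v b
        else if v (y / x - α) < 1 then v x else v b ^ 2 / v x := by
  simp only [cval]

theorem cval_mem (hb : v b < 1) (hb0 : b ≠ 0) (α : K) (P : (Wab a b).toAffine.Point) :
    v b ^ 2 < cval v α P ∧ cval v α P ≤ 1 := by
  have hbpos : 0 < v b := (Valuation.pos_iff v).mpr hb0
  have hsq : v b ^ 2 < v b := by
    calc v b ^ 2 = v b * v b := sq _
      _ < v b * 1 := mul_lt_mul_of_pos_left hb hbpos
      _ = v b := mul_one _
  rcases P with _ | ⟨x, y, h⟩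
  · show v b ^ 2 < cval v α (0 : (Wab a b).toAffine.Point) ∧ _
    rw [cval_zero]
    exact ⟨lt_trans hsq hb, le_rfl⟩
  · rw [cval_some]
    split_ifs with h1 h2 h3
    · exact ⟨lt_trans hsq hb, le_rfl⟩
    · exact ⟨hsq, hb.le⟩
    · rw [not_le] at h1 h2
      exact ⟨lt_trans hsq h2, h1.le⟩
    · rw [not_le] at h1 h2
      have hxpos : 0 < v x := lt_trans hbpos h2
      constructor
      · rw [lt_div_iff₀ hxpos]
        calc v b ^ 2 * v x < v b ^ 2 * 1 := mul_lt_mul_of_pos_left h1 (pow_pos hbpos 2)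
          _ = v b ^ 2 := mul_one _
      · rw [div_le_iff₀ hxpos, one_mul]
        exact le_trans hsq.le h2.le

theorem inE0_of_cval_eq_one (hb : v b < 1) (hb0 : b ≠ 0) {P : (Wab a b).toAffine.Point}
    (h : cval v α P = 1) : InE0 v P := by
  have hbpos : 0 < v b := (Valuation.pos_iff v).mpr hb0
  rcases P with _ | ⟨x, y, hxy⟩
  · trivial
  · show 1 ≤ v x
    by_contra h1
    rw [cval_some, if_neg h1] at h
    rw [not_le] at h1
    split_ifs at h with h2 h3
    · rw [h] at hb; exact lt_irrefl _ hb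
    · rw [h] at h1; exact lt_irrefl _ h1
    · rw [not_le] at h2
      have hxpos : 0 < v x := lt_trans hbpos h2
      rw [div_eq_one_iff_eq hxpos.ne'] at h
      have : v b ^ 2 < v x := by
        calc v b ^ 2 = v b * v b := sq _
          _ < v b * 1 := mul_lt_mul_of_pos_left hb hbpos
          _ = v b := mul_one _
          _ < v x := h2
      rw [h] at this
      exact lt_irrefl _ this

/-- `cval P ≡ 1` modulo `v b ^ (2ℤ)` forces `P ∈ E₀`. -/
theorem inE0_of_crel (hb : v b < 1) (hb0 : b ≠ 0) {P : (Wab a b).toAffine.Point}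
    (h : CRel (v b) (cval v α P) 1) : InE0 v P := by
  have hbpos : 0 < v b := (Valuation.pos_iff v).mpr hb0
  obtain ⟨k, hk⟩ := h
  rw [one_mul] at hk
  obtain ⟨h1, h2⟩ := cval_mem hb hb0 α P
  rw [hk] at h1 h2
  have e2 : v b ^ 2 = v b ^ ((2 : ℕ) : ℤ) := (zpow_natCast _ _).symm
  rw [e2, zpow_lt_zpow_iff_right_of_lt_one₀ hbpos hb] at h1
  rw [← zpow_zero (v b), zpow_le_zpow_iff_right_of_lt_one₀ hbpos hb] at h2
  have hk0 : k = 0 := by push_cast at h1; omega
  rw [hk0, mul_zero, zpow_zero] at hk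
  exact inE0_of_cval_eq_one hb hb0 hk

namespace Comp

variable (S : Setting v a b α h₀ p ζ)
include S

theorem vb_pos : 0 < v b := (Valuation.pos_iff v).mpr S.hb0

theorem vh_pos : 0 < v h₀ := by
  by_contra h
  have h0 : v h₀ = 0 := le_antisymm (not_lt.mp h) zero_le
  have := vb_pos S
  rw [S.hbh, h0, zero_pow S.hp.ne_zero] at this
  exact lt_irrefl _ this

theorem vh_lt_one : v h₀ < 1 := lt_of_le_of_lt S.hh₀ S.hvp

theorem crel_sub {T R : (Wab a b).toAffine.Point} (h : cval v α T = cval v α R) :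
    CRel (v b) (cval v α (T - R)) 1 := by
  have ht : v b ≠ 0 := (vb_pos S).ne'
  have c1 := cval_add S.h2 S.vb_lt_one S.hb0 S.hα.symm S.hαv T (-R)
  have c2 := cval_add S.h2 S.vb_lt_one S.hb0 S.hα.symm S.hαv R (-R)
  rw [add_neg_cancel, cval_zero] at c2
  rw [← sub_eq_add_neg, h] at c1
  exact c1.trans ht (c2.symm ht)

/-- two points with the same `cval` differ by a point of `E₀`. -/
theorem inE0_sub_of_cval_eq {T R : (Wab a b).toAffine.Point} (h : cval v α T = cval v α R) :
    InE0 v (T - R) :=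
  inE0_of_crel S.vb_lt_one S.hb0 (crel_sub S h)

/-- two `p`-torsion points with the same `cval` differ by a point of `E₁`. -/
theorem inE1_sub_of_cval_eq {T R : (Wab a b).toAffine.Point} (hpT : p • T = 0) (hpR : p • R = 0)
    (h : cval v α T = cval v α R) : InE1 v (T - R) :=
  S.inE1_of_inE0_torsion (inE0_sub_of_cval_eq S h) (by rw [smul_sub, hpT, hpR, sub_zero])

/-- the component index of a `p`-torsion point. -/
theorem exists_comp_index {T : (Wab a b).toAffine.Point} (hpT : p • T = 0) :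
    ∃ k < p, cval v α T = v h₀ ^ (2 * k) := by
  have hg0 := vh_pos S
  have hg1 := vh_lt_one S
  obtain ⟨l, hl⟩ := cval_nsmul S.h2 S.vb_lt_one S.hb0 S.hα.symm S.hαv T p
  rw [hpT, cval_zero, S.hbh] at hl
  have e1 : (v h₀ ^ p) ^ (2 * l) = (v h₀ ^ (2 * l)) ^ p := by
    rw [← zpow_natCast, ← zpow_mul, ← zpow_natCast, ← zpow_mul, mul_comm]
  rw [e1, ← mul_pow] at hl
  have h1 : cval v α T * v h₀ ^ (2 * l) = 1 :=
    (pow_eq_one_iff_of_nonneg zero_le S.hp.ne_zero).mp hl.symm
  have h2 : cval v α T = v h₀ ^ (-(2 * l)) := by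
    rw [zpow_neg]
    exact eq_inv_of_mul_eq_one_left h1
  obtain ⟨m1, m2⟩ := cval_mem S.vb_lt_one S.hb0 α T
  rw [h2] at m1 m2
  rw [S.hbh, ← pow_mul, ← zpow_natCast, zpow_lt_zpow_iff_right_of_lt_one₀ hg0 hg1] at m1
  rw [← zpow_zero (v h₀), zpow_le_zpow_iff_right_of_lt_one₀ hg0 hg1] at m2
  push_cast at m1
  refine ⟨(-l).toNat, by omega, ?_⟩
  rw [h2, ← zpow_natCast]
  congr 1
  push_cast
  rw [Int.toNat_of_nonneg (by omega)]
  ring

theorem p_odd : ¬ 2 ∣ p := by
  intro h2
  rcases (Nat.dvd_prime S.hp).mp h2 with h | h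
  · omega
  · have := S.hp3; omega

theorem two_ne_zero' : (2 : K) ≠ 0 := by
  intro h
  have := S.h2
  rw [h, map_zero] at this
  exact zero_ne_one this

/-- **(M3)** a `p`-torsion point outside `E₀` is congruent modulo `E₀` to a point
`R = (h₀ ^ n, h₀ ^ n * s)` with `s ^ 2 = h₀ ^ n + a + b / h₀ ^ n`, `v s = 1`. -/
theorem exists_R (hsq : ∀ c : K, ∃ s : K, s ^ 2 = c) {x y : K}
    (h : (Wab a b).toAffine.Nonsingular x y) (hx : ¬ 1 ≤ v x)
    (hpT : p • Point.some x y h = 0) :
    ∃ (n : ℕ) (sR : K) (hR : (Wab a b).toAffine.Nonsingular (h₀ ^ n) (h₀ ^ n * sR)),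
      v sR = 1 ∧ sR ^ 2 = h₀ ^ n + a + b / h₀ ^ n ∧
        InE0 v (Point.some x y h - Point.some (h₀ ^ n) (h₀ ^ n * sR) hR) := by
  have hg0 := vh_pos S
  have hg1 := vh_lt_one S
  have hbpos := vb_pos S
  have hb1 := S.vb_lt_one
  obtain ⟨k, hk, hc⟩ := exists_comp_index S hpT
  rw [cval_some, if_neg hx] at hc
  -- the far case is impossible
  have hfar : ¬ v x ≤ v b := by
    intro hf
    rw [if_pos hf, S.hbh] at hc
    have h1 : p ≤ 2 * k := (pow_le_pow_iff_right_of_lt_one₀ hg0 hg1).mp hc.ge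
    have h2 : 2 * k ≤ p := (pow_le_pow_iff_right_of_lt_one₀ hg0 hg1).mp hc.le
    exact p_odd S ⟨k, le_antisymm h1 h2⟩
  rw [if_neg hfar] at hc
  rw [not_le] at hx hfar
  have hxpos : 0 < v x := lt_trans hbpos hfar
  -- `v x = v h₀ ^ n`
  obtain ⟨n, hn⟩ : ∃ n : ℕ, v x = v h₀ ^ n := by
    by_cases h3 : v (y / x - α) < 1
    · rw [if_pos h3] at hc
      exact ⟨2 * k, hc⟩
    · rw [if_neg h3, div_eq_iff hxpos.ne', S.hbh, ← pow_mul] at hc
      refine ⟨p * 2 - 2 * k, ?_⟩
      have hpk : 2 * k ≤ p * 2 := by omega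
      have e : v h₀ ^ (p * 2) = v h₀ ^ (2 * k) * v h₀ ^ (p * 2 - 2 * k) := by
        rw [← pow_add, Nat.add_sub_cancel' hpk]
      rw [e] at hc
      exact (mul_left_cancel₀ (pow_ne_zero _ hg0.ne') hc).symm
  set xR : K := h₀ ^ n with hxR
  have hvxR : v xR = v x := by rw [hxR, map_pow, hn]
  have hxR0 : xR ≠ 0 := by
    intro h0
    rw [h0, map_zero] at hvxR
    exact hxpos.ne' hvxR.symm
  -- the small quantity `c = xR + b / xR`
  have hcs : v (xR + b / xR) < 1 := by
    refine lt_of_le_of_lt (v.map_add _ _) (max_lt (by rw [hvxR]; exact hx) ?_)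
    rw [map_div₀, hvxR, div_lt_one₀ hxpos]
    exact hfar
  obtain ⟨s, hs⟩ := hsq (xR + a + b / xR)
  have hprod : (s - α) * (s + α) = xR + b / xR := by
    have : (s - α) * (s + α) = s ^ 2 - α ^ 2 := by ring
    rw [this, hs, S.hα]; ring
  have hor : v (s - α) < 1 ∨ v (s + α) < 1 := by
    by_contra hcon
    rw [not_or, not_lt, not_lt] at hcon
    have : 1 ≤ v ((s - α) * (s + α)) := by
      rw [map_mul]
      calc (1 : Γ₀) = 1 * 1 := (mul_one 1).symm
        _ ≤ _ := mul_le_mul' hcon.1 hcon.2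
    rw [hprod] at this
    exact absurd hcs (not_lt.mpr this)
  have h2α : v (2 * α) = 1 := by rw [map_mul, S.h2, S.hαv, one_mul]
  -- choose the sign of the square root on the branch of `T`
  obtain ⟨sR, hsR, hbr, hv1⟩ : ∃ sR : K, sR ^ 2 = xR + a + b / xR ∧
      (v (sR - α) < 1 ↔ v (y / x - α) < 1) ∧ v sR = 1 := by
    have hminus : ∀ w : K, v (w - α) < 1 → v w = 1 ∧ ¬ v (w + α) < 1 := by
      intro w hw
      constructor
      · have e : w = (w - α) + α := by ring
        rw [e, Valuation.map_add_eq_of_lt_right v (by rw [S.hαv]; exact hw), S.hαv]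
      · have e : w + α = (w - α) + 2 * α := by ring
        rw [e, Valuation.map_add_eq_of_lt_right v (by rw [h2α]; exact hw), h2α]
        exact lt_irrefl _
    have hplus : ∀ w : K, v (w + α) < 1 → v w = 1 ∧ ¬ v (w - α) < 1 := by
      intro w hw
      constructor
      · have e : w = (w + α) - α := by ring
        rw [e, Valuation.map_sub_eq_of_lt_right v (by rw [S.hαv]; exact hw), S.hαv]
      · have e : w - α = (w + α) - 2 * α := by ring
        rw [e, Valuation.map_sub_eq_of_lt_right v (by rw [h2α]; exact hw), h2α]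
        exact lt_irrefl _
    have hneg1 : (-s) ^ 2 = xR + a + b / xR := by rw [neg_sq, hs]
    by_cases h3 : v (y / x - α) < 1
    · rcases hor with h4 | h4
      · exact ⟨s, hs, ⟨fun _ => h3, fun _ => h4⟩, (hminus s h4).1⟩
      · have h5 : v (-s - α) < 1 := by
          have e : -s - α = -(s + α) := by ring
          rw [e, Valuation.map_neg]; exact h4
        exact ⟨-s, hneg1, ⟨fun _ => h3, fun _ => h5⟩, (hminus _ h5).1⟩
    · rcases hor with h4 | h4
      · have h5 : v (-s + α) < 1 := by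
          have e : -s + α = -(s - α) := by ring
          rw [e, Valuation.map_neg]; exact h4
        exact ⟨-s, hneg1, ⟨fun h6 => absurd h6 (hplus _ h5).2, fun h6 => absurd h6 h3⟩,
          (hplus _ h5).1⟩
      · exact ⟨s, hs, ⟨fun h6 => absurd h6 (hplus _ h4).2, fun h6 => absurd h6 h3⟩,
          (hplus _ h4).1⟩
  have hsR0 : sR ≠ 0 := by
    rintro rfl
    rw [map_zero] at hv1
    exact zero_ne_one hv1
  have hR : (Wab a b).toAffine.Nonsingular xR (xR * sR) := by
    rw [Wab_nonsingular_iff]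
    refine ⟨?_, Or.inr ?_⟩
    · rw [mul_pow, hsR]; field_simp
    · intro he
      have : 2 * (xR * sR) = 0 := by linear_combination he
      rcases mul_eq_zero.mp this with h0 | h0
      · exact two_ne_zero' S h0
      · exact mul_ne_zero hxR0 hsR0 h0
  refine ⟨n, sR, hR, hv1, hsR, ?_⟩
  refine inE0_sub_of_cval_eq S ?_
  have hx' : ¬ 1 ≤ v xR := by rw [hvxR]; exact not_le.mpr hx
  have hfar' : ¬ v xR ≤ v b := by rw [hvxR]; exact not_le.mpr hfar
  rw [cval_some, cval_some, if_neg (not_le.mpr hx), if_neg (not_le.mpr hfar), if_neg hx',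
    if_neg hfar', mul_div_cancel_left₀ _ hxR0, hvxR]
  by_cases h3 : v (y / x - α) < 1
  · rw [if_pos h3, if_pos (hbr.mpr h3)]
  · rw [if_neg h3, if_neg (fun h6 => h3 (hbr.mp h6))]

end Comp

/-! ### Galois-fixed square roots -/

/-- an inertia-like automorphism fixes a unit whose square it fixes. -/
theorem sigma_sqrt_fixed (h2 : v (2 : K) = 1) {σ : K →+* K}
    (hσr : ∀ x, v x ≤ 1 → v (σ x - x) < 1) {s : K} (hs1 : v s = 1) (hs : σ (s ^ 2) = s ^ 2) :
    σ s = s := by
  have h0 : (σ s - s) * (σ s + s) = 0 := by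
    have : (σ s - s) * (σ s + s) = σ (s ^ 2) - s ^ 2 := by rw [map_pow]; ring
    rw [this, hs, sub_self]
  rcases mul_eq_zero.mp h0 with h | h
  · exact sub_eq_zero.mp h
  · exfalso
    have e : σ s - s = -(2 * s) := by linear_combination h
    have := hσr s hs1.le
    rw [e, Valuation.map_neg, map_mul, h2, hs1, one_mul] at this
    exact lt_irrefl _ this

/-- the point `R = (h₀ ^ n, h₀ ^ n * s)` is fixed by every inertia-like automorphism. -/
theorem tau_R (h2 : v (2 : K) = 1) {σ : K →+* K}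
    {τ : (Wab a b).toAffine.Point →+ (Wab a b).toAffine.Point} (G : GalAct v a b α σ τ)
    (hσr : ∀ x, v x ≤ 1 → v (σ x - x) < 1) (hσh : σ h₀ = h₀) (hσa : σ a = a) (hσb : σ b = b)
    {n : ℕ} {sR : K} (hR : (Wab a b).toAffine.Nonsingular (h₀ ^ n) (h₀ ^ n * sR))
    (hs1 : v sR = 1) (hs : sR ^ 2 = h₀ ^ n + a + b / h₀ ^ n) :
    τ (Point.some _ _ hR) = Point.some _ _ hR := by
  have hσs : σ sR = sR := by
    refine sigma_sqrt_fixed h2 hσr hs1 ?_
    rw [hs, map_add, map_add, map_div₀, map_pow, hσh, hσa, hσb]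
  obtain ⟨h', e⟩ := G.hτ _ _ hR
  rw [e]
  obtain ⟨h'', e'⟩ := some_congr h' (show σ (h₀ ^ n) = h₀ ^ n by rw [map_pow, hσh])
    (show σ (h₀ ^ n * sR) = h₀ ^ n * sR by rw [map_mul, map_pow, hσh, hσs])
  exact e'

/-- **The unit attached to a `p`-torsion point outside `E₀`.**  There is a unit `u`, fixed by
every inertia-like automorphism, such that an inertia-like automorphism fixing all `p`-th roots
of `u` fixes `T`. -/
theorem model_main (S : Setting v a b α h₀ p ζ) (hsq : ∀ c : K, ∃ s : K, s ^ 2 = c)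
    {T : (Wab a b).toAffine.Point} (hpT : p • T = 0) (hT : ¬ InE0 v T) :
    ∃ u : K, v u = 1 ∧
      (∀ (σ : K →+* K) (τ : (Wab a b).toAffine.Point →+ (Wab a b).toAffine.Point),
        GalAct v a b α σ τ → (∀ x, v x ≤ 1 → v (σ x - x) < 1) → σ h₀ = h₀ → σ a = a → σ b = b →
          σ u = u) ∧
      (∀ (σ : K →+* K) (τ : (Wab a b).toAffine.Point →+ (Wab a b).toAffine.Point),
        GalAct v a b α σ τ → (∀ x, v x ≤ 1 → v (σ x - x) < 1) → σ h₀ = h₀ → σ a = a → σ b = b →
          (∃ θ : K, θ ^ p = u) → (∀ θ : K, θ ^ p = u → σ θ = θ) → τ T = T) := by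
  rcases T with _ | ⟨x, y, h⟩
  · exact absurd trivial hT
  have hx : ¬ 1 ≤ v x := hT
  obtain ⟨n, sR, hR, hs1, hs, hZ⟩ := Comp.exists_R S hsq h hx hpT
  refine ⟨tval α (p • (Point.some x y h - Point.some _ _ hR)),
    S.tval_unit' (S.inE0_nsmul hZ p), ?_, ?_⟩
  · intro σ τ G hσr hσh hσa hσb
    have hτR := tau_R S.h2 G hσr hσh hσa hσb hR hs1 hs
    have e : p • (Point.some x y h - Point.some _ _ hR) = -(p • Point.some _ _ hR) := by
      rw [smul_sub, hpT, zero_sub]
    have hfix : τ (p • (Point.some x y h - Point.some _ _ hR)) =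
        p • (Point.some x y h - Point.some _ _ hR) := by
      rw [e, map_neg, map_nsmul, hτR]
    rw [← G.tval_tau, hfix]
  · intro σ τ G hσr hσh hσa hσb hroot hθ
    have hτR := tau_R S.h2 G hσr hσh hσa hσb hR hs1 hs
    exact S.tau_eq_self G hpT hZ hτR hroot hθ

end Fermat.Agent.U44.FreyCompModel8
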