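/-
Programme U44 (target S44), chapter (FREY), helper8: **the Frey curve at `p ∣ abc`**.

`P : FreyPackage`, `p = P.p` divides `abc`, `A` a valuation subring of `ℚ̄` over `p`, `V = E[p]`
the `p`-torsion of the Frey curve, `V1 = S13.FreyE1.V1 P A` the `p`-torsion points in the kernel of
reduction.  Main theorem `frey_at_p`: there is a unit `u` of `A`, fixed by the inertia group, with

* (F1) `V1` is a line;
* (F2) `σ x - x ∈ V1` for `σ` in the inertia group (`S13.FreyE1.close_at_p`);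
* (F3) if `σ ζ = ζ ^ m` on `μ_p` then `σ` acts on `V1` as multiplication by `m`;
* (F4) if `σ` (in the inertia group) fixes all `p`-th roots of `u`, then `σ` fixes `E[p]`
  pointwise: the representation is "peu ramifiée".

The work is done on the model curves `Wab a b` (`FreyAtPModel8`, `FreyCompModel8`) and transported
through `S05.FreyTransport.freyEquiv`.
-/
import Fermat.Agent.U44.FreyCompModel8
import Fermat.Agent.S13.FreyE1
import Fermat.Agent.S13.FreyDelta
import Fermat.Agent.DivPoly.CardEq29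

set_option autoImplicit false
set_option linter.unusedSectionVars false

open WeierstrassCurve WeierstrassCurve.Affine WeierstrassCurve.Affine.Point

namespace Fermat.Agent.U44.FreyAtP8

open Fermat.Agent.S05 Fermat.Agent.S05.FreyTransport Fermat.Agent.S13.FreyE1
open Fermat.Agent.U44.TvalNearHom8 Fermat.Agent.U44.FreyAtPModel8 Fermat.Agent.U44.FreyCompModel8

local notation "Qbar" => AlgebraicClosure ℚ

/-! ### The Galois action on the model curve -/

section Transport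

variable (P : FreyPackage) {t a b : Qbar} (ht : t * (t - cA P) * (t + cB P) = 0)
  (ha : a = 3 * t + cB P - cA P)
  (hb : b = 3 * t ^ 2 + 2 * (cB P - cA P) * t - cA P * cB P)

/-- `freyEquiv` intertwines the Galois action with the action on coordinates. -/
theorem freyEquiv_smul (σ : Qbar ≃ₐ[ℚ] Qbar) (hσt : σ t = t) (Q : (P.freyCurve⁄Qbar).Point)
    {X Y : Qbar} {h : (Wab a b).toAffine.Nonsingular X Y}
    (hQ : freyEquiv P ht ha hb Q = Point.some X Y h) :
    ∃ h' : (Wab a b).toAffine.Nonsingular (σ X) (σ Y),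
      freyEquiv P ht ha hb (σ • Q) = Point.some (σ X) (σ Y) h' := by
  rcases Q with _ | ⟨x₀, y₀, h₀⟩
  · exfalso
    have h0 : freyEquiv P ht ha hb (Point.zero : (P.freyCurve⁄Qbar).Point) = 0 :=
      _root_.map_zero (freyEquiv P ht ha hb)
    rw [h0] at hQ
    exact Point.some_ne_zero h hQ.symm
  · obtain ⟨h1, e1⟩ := freyEquiv_some P ht ha hb h₀
    rw [e1, Point.some.injEq] at hQ
    obtain ⟨hX, hY⟩ := hQ
    have h₀' : (P.freyCurve⁄Qbar).Nonsingular (σ x₀) (σ y₀) :=
      (Affine.baseChange_nonsingular (W := P.freyCurve) (f := σ.toAlgHom)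
        σ.toAlgHom.injective x₀ y₀).mpr h₀
    have hs : σ • (Point.some x₀ y₀ h₀ : (P.freyCurve⁄Qbar).Point) =
        Point.some (σ x₀) (σ y₀) h₀' := rfl
    obtain ⟨h2, e2⟩ := freyEquiv_some P ht ha hb h₀'
    rw [hs, e2]
    have eX : 4 * σ x₀ - t = σ X := by
      rw [← hX, map_sub, map_mul, hσt, map_ofNat]
    have eY : 8 * σ y₀ + 4 * σ x₀ = σ Y := by
      rw [← hY, map_add, map_mul, map_mul, map_ofNat, map_ofNat]
    exact some_congr h2 eX eY

/-- The action of `σ` on the points of the model curve. -/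
noncomputable def tauOf (σ : Qbar ≃ₐ[ℚ] Qbar) :
    (Wab a b).toAffine.Point →+ (Wab a b).toAffine.Point :=
  (freyEquiv P ht ha hb).toAddMonoidHom.comp
    ((DistribSMul.toAddMonoidHom (P.freyCurve⁄Qbar).Point σ).comp
      (freyEquiv P ht ha hb).symm.toAddMonoidHom)

theorem tauOf_apply (σ : Qbar ≃ₐ[ℚ] Qbar) (Q : (P.freyCurve⁄Qbar).Point) :
    tauOf P ht ha hb σ (freyEquiv P ht ha hb Q) = freyEquiv P ht ha hb (σ • Q) := by
  simp [tauOf]

theorem tauOf_some (σ : Qbar ≃ₐ[ℚ] Qbar) (hσt : σ t = t) (X Y : Qbar)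
    (h : (Wab a b).toAffine.Nonsingular X Y) :
    ∃ h' : (Wab a b).toAffine.Nonsingular (σ X) (σ Y),
      tauOf P ht ha hb σ (Point.some X Y h) = Point.some (σ X) (σ Y) h' := by
  have e : Point.some X Y h =
      freyEquiv P ht ha hb ((freyEquiv P ht ha hb).symm (Point.some X Y h)) :=
    ((freyEquiv P ht ha hb).apply_symm_apply _).symm
  rw [e, tauOf_apply]
  exact freyEquiv_smul P ht ha hb σ hσt _ e.symm

end Transport

/-! ### Model data and the generic statements -/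

/-- A model `Wab a b` of the Frey curve which is in the multiplicative `Setting` at `A`. -/
structure ModelData (P : FreyPackage) (A : ValuationSubring Qbar) (t a b α h₀ : Qbar) : Prop where
  ht : t * (t - cA P) * (t + cB P) = 0
  ha : a = 3 * t + cB P - cA P
  hb : b = 3 * t ^ 2 + 2 * (cB P - cA P) * t - cA P * cB P
  hvt : A.valuation t ≤ 1
  ft : ∀ σ : Qbar ≃ₐ[ℚ] Qbar, σ t = t
  fa : ∀ σ : Qbar ≃ₐ[ℚ] Qbar, σ a = a
  fb : ∀ σ : Qbar ≃ₐ[ℚ] Qbar, σ b = b
  fh : ∀ σ : Qbar ≃ₐ[ℚ] Qbar, σ h₀ = h₀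
  S : ∀ ζ : Qbar, IsPrimitiveRoot ζ P.p → Setting A.valuation a b α h₀ P.p ζ

namespace ModelData

variable {P : FreyPackage} {A : ValuationSubring Qbar} {t a b α h₀ : Qbar}
  (D : ModelData P A t a b α h₀)
include D

theorem galAct {σ : Qbar ≃ₐ[ℚ] Qbar} (hσ : σ ∈ A.inertiaSubgroupIn ℚ) {ζ : Qbar}
    (hζ : IsPrimitiveRoot ζ P.p) :
    GalAct A.valuation a b α (σ : Qbar →+* Qbar) (tauOf P D.ht D.ha D.hb σ) where
  hσv := fun x => Inertia.valuation_apply_rat hσ x
  hσα := by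
    have S := D.S ζ hζ
    refine sigma_sqrt_fixed S.h2 (σ := (σ : Qbar →+* Qbar))
      (fun _ hx => Inertia.valuation_sub_lt_one_rat hσ hx) S.hαv ?_
    rw [← S.hα]
    exact D.fa σ
  hτ := fun X Y h => tauOf_some P D.ht D.ha D.hb σ (D.ft σ) X Y h

theorem mem_V1_iff {ζ : Qbar} (hζ : IsPrimitiveRoot ζ P.p) (x : Submodule.torsionBy ℤ (P.freyCurve⁄Qbar).Point P.p) :
    x ∈ V1 P A ↔ S05.InE1 A.valuation (freyEquiv P D.ht D.ha D.hb x.1) := by
  rw [mem_V1]
  exact inE1_freyEquiv_iff P A.valuation (D.S ζ hζ).h2 D.ht D.ha D.hb D.hvt x.1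

theorem torsion_e (x : Submodule.torsionBy ℤ (P.freyCurve⁄Qbar).Point P.p) : P.p • freyEquiv P D.ht D.ha D.hb x.1 = 0 := by
  rw [← map_nsmul, nsmul_eq_zero_of_mem P x, _root_.map_zero]

/-- a `p`-torsion point whose image lies in `E₀` lies in `V1`. -/
theorem mem_V1_of_inE0 {ζ : Qbar} (hζ : IsPrimitiveRoot ζ P.p) {x : Submodule.torsionBy ℤ (P.freyCurve⁄Qbar).Point P.p}
    (hx : S05.InE0 A.valuation (freyEquiv P D.ht D.ha D.hb x.1)) : x ∈ V1 P A := by
  rw [D.mem_V1_iff hζ]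
  exact (D.S ζ hζ).inE1_of_inE0_torsion hx (D.torsion_e x)

/-- **(F3)** the inertia group acts on `V1` through the cyclotomic character. -/
theorem smul_eq_nsmul {σ : Qbar ≃ₐ[ℚ] Qbar} (hσ : σ ∈ A.inertiaSubgroupIn ℚ) {ζ : Qbar}
    (hζ : IsPrimitiveRoot ζ P.p) {m : ℕ} (hm : σ ζ = ζ ^ m) {x : Submodule.torsionBy ℤ (P.freyCurve⁄Qbar).Point P.p} (hx : x ∈ V1 P A) :
    σ • x = m • x := by
  have S := D.S ζ hζ
  have G := D.galAct hσ hζ
  have h1 := (D.mem_V1_iff hζ x).mp hx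
  have key := S.tau_eq_nsmul G hm (InE1.inE0 _ h1) (D.torsion_e x)
  rw [tauOf_apply, ← map_nsmul] at key
  have := (freyEquiv P D.ht D.ha D.hb).injective key
  exact Subtype.ext this

/-! ### Counting -/

omit D in
theorem p_odd (P : FreyPackage) : Odd P.p := by
  refine P.pp.odd_of_ne_two ?_
  have := P.hp5; omega

omit D in
theorem card_V (P : FreyPackage) : Nat.card (Submodule.torsionBy ℤ (P.freyCurve⁄Qbar).Point P.p) = P.p ^ 2 :=
  Fermat.Agent.DivPoly.CardEq29.card_torsionBy_eq (W := (P.freyCurve⁄Qbar))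
    (Fermat.Agent.S13.FreyDelta.freyCurve_baseChange_Δ_ne_zero P Qbar) (p_odd P)

omit D in
theorem finite_V (P : FreyPackage) : Finite (Submodule.torsionBy ℤ (P.freyCurve⁄Qbar).Point P.p) :=
  Fermat.Agent.DivPoly.CountFinal.finite_torsionBy (W := (P.freyCurve⁄Qbar)) (p_odd P)
    (Nat.cast_ne_zero.mpr P.pp.ne_zero)

omit D in
theorem finrank_V (P : FreyPackage) : Module.finrank (ZMod P.p) (Submodule.torsionBy ℤ (P.freyCurve⁄Qbar).Point P.p) = 2 := by
  have : Fact P.p.Prime := ⟨P.pp⟩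
  refine Fermat.Agent.DivPoly.CardEq29.finrank_torsionBy_eq_two (W := (P.freyCurve⁄Qbar))
    (Fermat.Agent.S13.FreyDelta.freyCurve_baseChange_Δ_ne_zero P Qbar) ?_
  have := P.hp5; omega

omit D in
theorem not_sq_le (P : FreyPackage) : ¬ P.p ^ 2 ≤ P.p := by
  have := P.hp5
  intro h
  nlinarith

/-- `V1 ≠ ⊤`: the kernel of reduction contains at most `p` points of order `p`. -/
theorem V1_ne_top {ζ : Qbar} (hζ : IsPrimitiveRoot ζ P.p) : V1 P A ≠ ⊤ := by
  intro htop
  have S := D.S ζ hζ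
  have hall : ∀ x : Submodule.torsionBy ℤ (P.freyCurve⁄Qbar).Point P.p,
      S05.InE0 A.valuation (freyEquiv P D.ht D.ha D.hb x.1) := fun x =>
    InE1.inE0 _ ((D.mem_V1_iff hζ x).mp (htop ▸ Submodule.mem_top))
  choose k hk hcl using fun x : Submodule.torsionBy ℤ (P.freyCurve⁄Qbar).Point P.p =>
    S.exists_root_index (hall x) (D.torsion_e x)
  have hf : Function.Injective (fun x : Submodule.torsionBy ℤ (P.freyCurve⁄Qbar).Point P.p => (⟨k x, hk x⟩ : Fin P.p)) := by
    intro x y hxy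
    have hkxy : k x = k y := congrArg Fin.val hxy
    have h1 := hcl y
    rw [← hkxy] at h1
    have := S.eq_of_root_index (hall x) (hall y) (D.torsion_e x) (D.torsion_e y) (hcl x) h1
    exact Subtype.ext ((freyEquiv P D.ht D.ha D.hb).injective this)
  have := Nat.card_le_card_of_injective _ hf
  rw [card_V, Nat.card_eq_fintype_card, Fintype.card_fin] at this
  exact not_sq_le P this

/-- `V1 ≠ ⊥`: the component group is cyclic. -/
theorem V1_ne_bot {ζ : Qbar} (hζ : IsPrimitiveRoot ζ P.p) : V1 P A ≠ ⊥ := by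
  intro hbot
  have S := D.S ζ hζ
  choose k hk hc using fun x : Submodule.torsionBy ℤ (P.freyCurve⁄Qbar).Point P.p =>
    Comp.exists_comp_index S (D.torsion_e x)
  have hf : Function.Injective (fun x : Submodule.torsionBy ℤ (P.freyCurve⁄Qbar).Point P.p => (⟨k x, hk x⟩ : Fin P.p)) := by
    intro x y hxy
    have hkxy : k x = k y := congrArg Fin.val hxy
    have hcv : cval A.valuation α (freyEquiv P D.ht D.ha D.hb x.1) =
        cval A.valuation α (freyEquiv P D.ht D.ha D.hb y.1) := by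
      rw [hc x, hc y, hkxy]
    have h1 := Comp.inE1_sub_of_cval_eq S (D.torsion_e x) (D.torsion_e y) hcv
    rw [← map_sub] at h1
    have h2 : x - y ∈ V1 P A := by
      rw [D.mem_V1_iff hζ]
      exact h1
    rw [hbot, Submodule.mem_bot] at h2
    exact sub_eq_zero.mp h2
  have := Nat.card_le_card_of_injective _ hf
  rw [card_V, Nat.card_eq_fintype_card, Fintype.card_fin] at this
  exact not_sq_le P this

/-- **(F1)** `V1` is a line. -/
theorem finrank_V1 {ζ : Qbar} (hζ : IsPrimitiveRoot ζ P.p) :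
    Module.finrank (ZMod P.p) (V1 P A) = 1 := by
  have : Fact P.p.Prime := ⟨P.pp⟩
  have := finite_V P
  have h2 := finrank_V P
  have hlt := Submodule.finrank_lt (D.V1_ne_top hζ)
  have hpos : 0 < Module.finrank (ZMod P.p) (V1 P A) := by
    rw [Module.finrank_pos_iff_exists_ne_zero]
    obtain ⟨x, hx, hx0⟩ := Submodule.exists_mem_ne_zero_of_ne_bot (D.V1_ne_bot hζ)
    exact ⟨⟨x, hx⟩, fun h => hx0 (congrArg Subtype.val h)⟩
  omega

/-- **(F4)** the unit `u`: an element of the inertia group fixing the `p`-th roots of `u`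
fixes `E[p]` pointwise. -/
theorem exists_unit {ζ : Qbar} (hζ : IsPrimitiveRoot ζ P.p) :
    ∃ u : Qbar, A.valuation u = 1 ∧ (∀ σ ∈ A.inertiaSubgroupIn ℚ, σ u = u) ∧
      (∀ σ ∈ A.inertiaSubgroupIn ℚ, (∀ θ : Qbar, θ ^ P.p = u → σ θ = θ) →
        ∀ x : Submodule.torsionBy ℤ (P.freyCurve⁄Qbar).Point P.p, σ • x = x) := by
  have : Fact P.p.Prime := ⟨P.pp⟩
  have := finite_V P
  have S := D.S ζ hζ
  -- a point outside `V1`
  obtain ⟨T₀, hT₀⟩ : ∃ T₀ : Submodule.torsionBy ℤ (P.freyCurve⁄Qbar).Point P.p, T₀ ∉ V1 P A := by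
    by_contra hcon
    exact D.V1_ne_top hζ (eq_top_iff.mpr fun x _ => by
      by_contra hx
      exact hcon ⟨x, hx⟩)
  have hT : ¬ S05.InE0 A.valuation (freyEquiv P D.ht D.ha D.hb T₀.1) :=
    fun h => hT₀ (D.mem_V1_of_inE0 hζ h)
  have hsq : ∀ c : Qbar, ∃ s : Qbar, s ^ 2 = c :=
    fun c => IsAlgClosed.exists_pow_nat_eq c (n := 2) (by norm_num)
  obtain ⟨u, hu1, hufix, hfix⟩ := model_main S hsq (D.torsion_e T₀) hT
  have hu0 : u ≠ 0 := by
    rintro rfl
    rw [_root_.map_zero] at hu1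
    exact zero_ne_one hu1
  refine ⟨u, hu1, ?_, ?_⟩
  · intro σ hσ
    exact hufix (σ : Qbar →+* Qbar) _ (D.galAct hσ hζ)
      (fun _ hx => Inertia.valuation_sub_lt_one_rat hσ hx) (D.fh σ) (D.fa σ) (D.fb σ)
  · intro σ hσ hθ x
    obtain ⟨θ₀, hθ₀⟩ := IsAlgClosed.exists_pow_nat_eq u P.pp.pos
    have hθ₀0 : θ₀ ≠ 0 := by
      rintro rfl
      rw [zero_pow P.pp.ne_zero] at hθ₀
      exact hu0 hθ₀.symm
    -- `σ` fixes `T₀`
    have h1 := hfix (σ : Qbar →+* Qbar) _ (D.galAct hσ hζ)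
      (fun _ hx => Inertia.valuation_sub_lt_one_rat hσ hx) (D.fh σ) (D.fa σ) (D.fb σ)
      ⟨θ₀, hθ₀⟩ hθ
    rw [tauOf_apply] at h1
    have hT₀fix : σ • T₀ = T₀ := Subtype.ext ((freyEquiv P D.ht D.ha D.hb).injective h1)
    -- `σ` fixes `ζ`, hence `V1`
    have hσζ : σ ζ = ζ ^ 1 := by
      have h3 := hθ (ζ * θ₀) (by rw [mul_pow, hζ.pow_eq_one, one_mul, hθ₀])
      rw [map_mul, hθ θ₀ hθ₀] at h3
      rw [pow_one]
      exact mul_right_cancel₀ hθ₀0 h3
    have hV1fix : ∀ y ∈ V1 P A, σ • y = y := fun y hy => by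
      rw [D.smul_eq_nsmul hσ hζ hσζ hy, one_smul]
    -- the fixed points form a submodule containing `V1` and `T₀`
    let F : AddSubgroup (Submodule.torsionBy ℤ (P.freyCurve⁄Qbar).Point P.p) :=
      { carrier := {y | σ • y = y}
        add_mem' := by
          intro c d hc hd
          show σ • (c + d) = c + d
          rw [smul_add, hc, hd]
        zero_mem' := smul_zero σ
        neg_mem' := by
          intro c hc
          show σ • (-c) = -c
          rw [smul_neg, hc] }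
    have hle : V1 P A ≤ AddSubgroup.toZModSubmodule P.p F := fun y hy => hV1fix y hy
    have hlt : V1 P A < AddSubgroup.toZModSubmodule P.p F := by
      refine lt_of_le_of_ne hle fun heq => hT₀ ?_
      rw [heq]
      exact hT₀fix
    have h2 := Submodule.finrank_lt_finrank_of_lt hlt
    rw [D.finrank_V1 hζ] at h2
    have h3 : Module.finrank (ZMod P.p) (AddSubgroup.toZModSubmodule P.p F) ≤
        Module.finrank (ZMod P.p) (Submodule.torsionBy ℤ (P.freyCurve⁄Qbar).Point P.p) :=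
      Submodule.finrank_le _
    rw [finrank_V P] at h3
    have htop : AddSubgroup.toZModSubmodule P.p F = ⊤ :=
      Submodule.eq_top_of_finrank_eq (by rw [finrank_V P]; omega)
    have hx : x ∈ AddSubgroup.toZModSubmodule P.p F := by rw [htop]; exact Submodule.mem_top
    exact hx

end ModelData

/-! ### The two multiplicative models -/

section Inst

variable (P : FreyPackage) {A : ValuationSubring Qbar} (hA : A.LiesOverPrime P.p)
include hA

theorem liesOver : FreyArith.LiesOver A.valuation P.p :=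
  ⟨Inertia.valuation_intCast_le_one, Inertia.valuation_intCast_lt_one_iff P.pp hA⟩

theorem val_p_lt_one : A.valuation ((P.p : ℕ) : Qbar) < 1 := by
  have := ((liesOver P hA).lt_one_iff (P.p : ℤ)).mpr dvd_rfl
  simpa using this

/-- an integer divisible by `p` has valuation at most `v p`. -/
theorem val_le_of_dvd {n : ℤ} (h : (P.p : ℤ) ∣ n) :
    A.valuation ((n : ℤ) : Qbar) ≤ A.valuation ((P.p : ℕ) : Qbar) := by
  obtain ⟨m, rfl⟩ := h
  rw [Int.cast_mul, map_mul, Int.cast_natCast]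
  calc A.valuation ((P.p : ℕ) : Qbar) * A.valuation ((m : ℤ) : Qbar)
      ≤ A.valuation ((P.p : ℕ) : Qbar) * 1 :=
        mul_le_mul' le_rfl (Inertia.valuation_intCast_le_one m)
    _ = _ := mul_one _

/-- the `Setting` from the valuations of the coefficients. -/
theorem mk_setting {a b α h₀ ζ : Qbar} (ha1 : A.valuation a = 1) (hα : α ^ 2 = a) (hb0 : b ≠ 0)
    (hbh : A.valuation b = A.valuation h₀ ^ P.p)
    (hh₀ : A.valuation h₀ ≤ A.valuation ((P.p : ℕ) : Qbar)) (hζ : IsPrimitiveRoot ζ P.p) :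
    Setting A.valuation a b α h₀ P.p ζ where
  h2 := Inertia.valuation_two_eq_one P.pp hA (by have := P.hp5; omega)
  hα := hα.symm
  hαv := by
    have h1 : A.valuation α ^ 2 = 1 := by rw [← map_pow, hα, ha1]
    exact (pow_eq_one_iff_of_nonneg zero_le two_ne_zero).mp h1
  hb0 := hb0
  hbh := hbh
  hh₀ := hh₀
  hvp := val_p_lt_one P hA
  hp0 := Nat.cast_ne_zero.mpr P.pp.ne_zero
  hp := P.pp
  hp3 := by have := P.hp5; omega
  hζ := hζ

/-- **Model data exist when `p ∣ abc`.** -/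
theorem exists_modelData (hp : (P.p : ℤ) ∣ P.a * P.b * P.c) :
    ∃ t a b α h₀ : Qbar, ModelData P A t a b α h₀ := by
  have hq := P.pp
  have hv := liesOver P hA
  have hcA : (cA P : Qbar) = (P.a : Qbar) ^ P.p := rfl
  have hcB : (cB P : Qbar) = (P.b : Qbar) ^ P.p := rfl
  rcases FreyArith.trichotomy P (q := P.p) with ⟨ha, hb, hc⟩ | hab | hc
  · exfalso
    have hpr : Prime (P.p : ℤ) := Nat.prime_iff_prime_int.mp hq
    rcases hpr.dvd_or_dvd hp with h | h
    · rcases hpr.dvd_or_dvd h with h | h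
      · exact ha h
      · exact hb h
    · exact hc h
  · -- `p ∣ ab`
    obtain ⟨g1, g2, g3⟩ := FreyArith.mult_ab_val (K := Qbar) P hv hq hab
    obtain ⟨α, hα⟩ := IsAlgClosed.exists_pow_nat_eq
      ((P.b : Qbar) ^ P.p - (P.a : Qbar) ^ P.p) (n := 2) (by norm_num)
    have hb0 : -((P.a : Qbar) ^ P.p * (P.b : Qbar) ^ P.p) ≠ 0 := by
      rw [← mul_pow]
      exact neg_ne_zero.mpr (pow_ne_zero _ (FreyArith.ab_ne_zero P))
    have hh : A.valuation ((P.a : Qbar) * (P.b : Qbar)) ≤ A.valuation ((P.p : ℕ) : Qbar) := by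
      have := val_le_of_dvd P hA hab
      rwa [Int.cast_mul] at this
    refine ⟨0, (P.b : Qbar) ^ P.p - (P.a : Qbar) ^ P.p,
      -((P.a : Qbar) ^ P.p * (P.b : Qbar) ^ P.p), α, (P.a : Qbar) * (P.b : Qbar), ?_⟩
    exact
      { ht := by ring
        ha := by rw [hcA, hcB]; ring
        hb := by rw [hcA, hcB]; ring
        hvt := by rw [_root_.map_zero]; exact zero_le
        ft := fun σ => _root_.map_zero σ
        fa := fun σ => by simp
        fb := fun σ => by simp
        fh := fun σ => by simp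
        S := fun ζ hζ => mk_setting P hA g1 hα hb0 g2 hh hζ }
  · -- `p ∣ c`
    have hcc : (P.c : Qbar) ^ P.p = (P.a : Qbar) ^ P.p + (P.b : Qbar) ^ P.p :=
      FreyArith.c_pow_eq_cast P
    obtain ⟨g1, g2, g3⟩ := FreyArith.mult_c_val (K := Qbar) P hv hq hc
    obtain ⟨α, hα⟩ := IsAlgClosed.exists_pow_nat_eq
      ((P.a : Qbar) ^ P.p + (P.c : Qbar) ^ P.p) (n := 2) (by norm_num)
    have hb0 : (P.a : Qbar) ^ P.p * (P.c : Qbar) ^ P.p ≠ 0 := by
      rw [← mul_pow]
      exact pow_ne_zero _ (FreyArith.ac_ne_zero P)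
    have hh : A.valuation ((P.a : Qbar) * (P.c : Qbar)) ≤ A.valuation ((P.p : ℕ) : Qbar) := by
      have := val_le_of_dvd P hA (dvd_mul_of_dvd_right hc P.a)
      rwa [Int.cast_mul] at this
    have hvt : A.valuation ((P.a : Qbar) ^ P.p) ≤ 1 := by
      have := Inertia.valuation_intCast_le_one (A := A) (P.a ^ P.p)
      simpa using this
    refine ⟨(P.a : Qbar) ^ P.p, (P.a : Qbar) ^ P.p + (P.c : Qbar) ^ P.p,
      (P.a : Qbar) ^ P.p * (P.c : Qbar) ^ P.p, α, (P.a : Qbar) * (P.c : Qbar), ?_⟩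
    exact
      { ht := by rw [hcA]; ring
        ha := by rw [hcA, hcB, hcc]; ring
        hb := by rw [hcA, hcB, hcc]; ring
        hvt := hvt
        ft := fun σ => by simp
        fa := fun σ => by simp
        fb := fun σ => by simp
        fh := fun σ => by simp
        S := fun ζ hζ => mk_setting P hA g1 hα hb0 g2 hh hζ }

end Inst

/-! ### The main theorem -/

/-- **The Frey curve at `p ∣ abc`.** -/
theorem frey_at_p (P : FreyPackage) (hp : (P.p : ℤ) ∣ P.a * P.b * P.c)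
    (A : ValuationSubring Qbar) (hA : A.LiesOverPrime P.p) :
    ∃ u : Qbar, A.valuation u = 1 ∧ (∀ σ ∈ A.inertiaSubgroupIn ℚ, σ u = u) ∧
      Module.finrank (ZMod P.p) (V1 P A) = 1 ∧
      (∀ σ ∈ A.inertiaSubgroupIn ℚ, ∀ x : Submodule.torsionBy ℤ (P.freyCurve⁄Qbar).Point P.p, σ • x - x ∈ V1 P A) ∧
      (∀ σ ∈ A.inertiaSubgroupIn ℚ, ∀ ζ : Qbar, IsPrimitiveRoot ζ P.p → ∀ m : ℕ, σ ζ = ζ ^ m →
        ∀ x ∈ V1 P A, σ • x = m • x) ∧
      (∀ σ ∈ A.inertiaSubgroupIn ℚ, (∀ θ : Qbar, θ ^ P.p = u → σ θ = θ) →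
        ∀ x : Submodule.torsionBy ℤ (P.freyCurve⁄Qbar).Point P.p, σ • x = x) := by
  obtain ⟨t, a, b, α, h₀, D⟩ := exists_modelData P hA hp
  have : NeZero P.p := ⟨P.pp.ne_zero⟩
  obtain ⟨ζ, hζ⟩ := HasEnoughRootsOfUnity.exists_primitiveRoot Qbar P.p
  obtain ⟨u, hu1, hufix, hfix⟩ := D.exists_unit hζ
  refine ⟨u, hu1, hufix, D.finrank_V1 hζ, fun σ hσ x => close_at_p P hA hσ x, ?_, hfix⟩
  intro σ hσ ζ' hζ' m hm x hx
  exact D.smul_eq_nsmul hσ hζ' hm hx

end Fermat.Agent.U44.FreyAtP8
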