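/-
Programme U44 (S44), chapter (WIRE), step (CONN) (helper7): **a Galois module with an unramified
non-zero quotient is not contained in the formal part.**

`h : LevelHyp p M' A`.  The formal part `formalTwo A (M' p) p ≤ J₀(M' p)(ℚ̄)` intersected with the
`p`-torsion carries a connected Hopf order (`S33Final0.hasConnOrder_level`), hence has no non-zero
inertia-equivariant subquotient with trivial inertia action (`WZero2.subquotient_eq_zero`).  So:

* `exists_not_mem_formalTwo` : an inertia-equivariant injection `j : S → J₀(M' p)(ℚ̄)` of a group killed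
  by `p` which admits a non-zero additive map `q : S → 𝔽_p` invariant under inertia has an element
  outside the formal part;
* `frey_not_le_formalTwo` : the case `S = E[p]` of the Frey curve at `p ∣ abc` (`q` = a linear form
  killing the line `V1` of `FreyAtP8.frey_at_p`).
-/
import Mathlib
import Fermat.Agent.U44.Wire7
import Fermat.Agent.U44.FreyAtP8
import Fermat.Agent.U44.FreyRep7
import Fermat.Agent.T33.S33Final0

set_option autoImplicit false
set_option linter.unusedSectionVars false
set_option linter.style.haveILetI false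
set_option synthInstance.maxHeartbeats 400000

open AlgebraicCurve ModularCurve
open WeierstrassCurve WeierstrassCurve.Affine WeierstrassCurve.Affine.Point

noncomputable section

namespace Fermat.Agent.U44.Conn7

open Fermat.Agent.FF.InertiaWire8 Fermat.Agent.T33.NodalHalf4
  Fermat.Agent.T33.S33Wire7 Fermat.Agent.T33.Psi3D Fermat.Agent.T33.ConnOrd2

variable {p M' : ℕ} [NeZero M'] [NeZero p] {A : ValuationSubring Qb}

/-- **(CONN), abstract form.** -/
theorem exists_not_mem_formalTwo (h : LevelHyp p M' A)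
    {S : Type*} [AddCommGroup S] [DistribMulAction (Iner A) S]
    (j : S →+ JZero (M' * p)) (hj : Function.Injective j)
    (hjΓ : ∀ (σ : Iner A) (s : S), j (σ • s) = (σ : GQ) • j s)
    (hpS : ∀ s : S, p • s = 0)
    (q : S →+ ZMod p) (hq : ∃ s, q s ≠ 0) (hqΓ : ∀ (σ : Iner A) (s : S), q (σ • s) = q s) :
    ∃ s : S, j s ∉ formalTwo A (M' * p) p := by
  classical
  haveI : Fact p.Prime := ⟨h.prime⟩
  by_contra hall
  push Not at hall
  -- `j` lands in `Glevel 1`
  have hmem : ∀ s : S, j s ∈ Glevel A p (M' * p) 1 := by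
    intro s
    refine mem_Glevel_iff.2 ⟨hall s, ?_⟩
    rw [pow_one, ← map_nsmul, hpS, _root_.map_zero]
  let j' : S →+ (Unit → ↥(Glevel A p (M' * p) 1)) :=
    { toFun := fun s _ => ⟨j s, hmem s⟩
      map_zero' := by
        funext _
        exact Subtype.ext (_root_.map_zero j)
      map_add' := fun s t => by
        funext _
        exact Subtype.ext (map_add j s t) }
  have hj' : Function.Injective j' := by
    intro s t hst
    apply hj
    have := congrArg (fun f : Unit → ↥(Glevel A p (M' * p) 1) => ((f ()) : JZero (M' * p))) hst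
    exact this
  have hj'Γ : ∀ (σ : Iner A) (s : S), j' (σ • s) = σ • j' s := by
    intro σ s
    funext _
    apply Subtype.ext
    show j (σ • s) = (σ : GQ) • j s
    exact hjΓ σ s
  -- the trivial action on `𝔽_p`
  letI : DistribMulAction (Iner A) (ZMod p) :=
    { smul := fun _ y => y
      one_smul := fun _ => rfl
      mul_smul := fun _ _ _ => rfl
      smul_zero := fun _ => rfl
      smul_add := fun _ _ _ => rfl }
  have hqsurj : Function.Surjective q := by
    obtain ⟨s, hs⟩ := hq
    intro y
    refine ⟨(y * (q s)⁻¹).val • s, ?_⟩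
    rw [map_nsmul, nsmul_eq_mul, ZMod.natCast_zmod_val, mul_assoc, inv_mul_cancel₀ hs, mul_one]
  have key := Fermat.Agent.T33.WZero2.subquotient_eq_zero (A := A) h.prime h.ne_two h.liesOver
    (Fermat.Agent.T33.S33Final0.hasConnOrder_level h 1) Unit j' hj' hj'Γ q hqsurj
    (fun σ s => hqΓ σ s)
    (fun y => ⟨1, by rw [pow_one, nsmul_eq_mul, ZMod.natCast_self, zero_mul]⟩)
    (fun _ _ => rfl) 1
  exact one_ne_zero key

/-- **(CONN) for the Frey curve at `p ∣ abc`**: an inertia-equivariant embedding of `E[p]` into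
`J₀(M' p)(ℚ̄)` does not land in the formal part. -/
theorem frey_exists_not_mem_formalTwo (P : FreyPackage) [NeZero P.p] (h : LevelHyp P.p M' A)
    (hp : (P.p : ℤ) ∣ P.a * P.b * P.c)
    (ι : Fermat.Agent.U44.Wire7.Ep P →+ JZero (M' * P.p)) (hι : Function.Injective ι)
    (hσ : ∀ (σ : Iner A) (z : Fermat.Agent.U44.Wire7.Ep P), ι ((σ : GQ) • z) = (σ : GQ) • ι z) :
    ∃ z : Fermat.Agent.U44.Wire7.Ep P, ι z ∉ formalTwo A (M' * P.p) P.p := by
  classical
  haveI : Fact P.p.Prime := ⟨P.pp⟩
  obtain ⟨u, -, -, hV1, hF2, -, -⟩ := Fermat.Agent.U44.FreyAtP8.frey_at_p P hp A h.liesOver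
  have hV2 : Module.finrank (ZMod P.p) (Fermat.Agent.U44.Wire7.Ep P) = 2 :=
    Fermat.Agent.U44.FreyRep7.finrank_Ep P
  haveI : Module.Finite (ZMod P.p) (Fermat.Agent.U44.Wire7.Ep P) :=
    Module.finite_of_finrank_pos (by rw [hV2]; norm_num)
  have hlt : Fermat.Agent.S13.FreyE1.V1 P A < ⊤ := by
    rw [lt_top_iff_ne_top]
    intro htop
    rw [htop, finrank_top, hV2] at hV1
    omega
  obtain ⟨f, hf0, hfker⟩ := Submodule.exists_le_ker_of_lt_top _ hlt
  have hfne : ∃ s, f s ≠ 0 := by
    by_contra hall
    push Not at hall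
    exact hf0 (LinearMap.ext hall)
  refine exists_not_mem_formalTwo h (S := Fermat.Agent.U44.Wire7.Ep P) ι hι (fun σ s => hσ σ s)
    (fun s => ?_) f.toAddMonoidHom hfne (fun σ s => ?_)
  · apply Subtype.ext
    have h1 := s.2
    rw [Submodule.mem_torsionBy_iff] at h1
    have h2 : ((P.p • s : Fermat.Agent.U44.Wire7.Ep P) : (P.freyCurve⁄Qb).Point) =
        P.p • (s : (P.freyCurve⁄Qb).Point) := rfl
    rw [h2, ← Nat.cast_smul_eq_nsmul ℤ]
    exact h1
  · have h1 : (σ : GQ) • s - s ∈ LinearMap.ker f := hfker (hF2 (σ : GQ) σ.2 s)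
    rw [LinearMap.mem_ker, map_sub, sub_eq_zero] at h1
    exact h1

end Fermat.Agent.U44.Conn7
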