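/-
Programme U44 (target S44), chapter (GAMMA), design item (A3) (lead): **the group `Γ` of deck
transformations of the good level `L = 4m`, its fixed field and its order**, in both cases.

`L` a level with `4 ∣ L`; `τ = tauL L h4` (`q ↦ -q`), `τ' = tau'L L h4 = W τ W` (helper2,
`GammaLevel2`).

* `tau'L_eq_self_iff` : the fixed field of `τ'` is `Fbar (L/2)` (series form);
  `tauL_eq_self_iff` : the fixed field of `τ` is `{c(q²) : c ∈ Fbar (L/2)}`;
* `inter_range` (`m` odd): `Fbar (2m) ∩ {x(q²)} = {c(q²) : c ∈ Fbar m}` (an intermediate field of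
  the extension `Fbar (2m) / β₂ Fbar m` of prime degree `3` which does not contain `j(q)`);
* `fixed_both_iff` (`L/4` odd): `τ f = f ∧ τ' f = f ↔ ∃ c ∈ Fbar (L/4), f = c(q²)`;
* `Gam2 L h4 = {1, τ'}` (case E) and `Gam6 L h4 = ⟨τ, τ'⟩` (case O) as subgroups of
  `FF L ≃ₐ[ℚ̄] FF L`: `mem_Gam2_iff`, `fixed_Gam2_iff`, `card_Gam2 = 2`; `fixed_Gam6_iff`,
  `finite_Gam6`, `card_Gam6 = 6`, and the induction principle `Gam6_induction`.
-/
import Mathlib
import Fermat.Agent.U44.GammaLevel2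
import Fermat.Agent.ES.HECKE.DegreeL25

set_option autoImplicit false
set_option linter.unusedSectionVars false
set_option linter.style.haveILetI false
set_option synthInstance.maxHeartbeats 400000

noncomputable section

namespace Fermat.Agent.U44.GammaSix0

open HahnSeries ModularCurve IntermediateField
open Fermat.Agent.X0 Fermat.Agent.ES.KRON.KronCong24 Fermat.Agent.ES.N34.FrickeFK8
  Fermat.Agent.U44.GammaTwist2 Fermat.Agent.U44.GammaLevel2
  Fermat.Agent.ES.HECKE.LevelPullback12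

/-! ### the fixed fields of `τ'` and `τ` at the level `M * 2`, series form -/

theorem tauL_eq_tau (M : ℕ) [NeZero M] (hM : 2 ∣ M) (h4 : 4 ∣ M * 2) :
    tauL (M * 2) h4 = tau M hM := by
  apply AlgEquiv.ext
  intro f
  apply Subtype.ext
  rfl

theorem tau'L_eq_tau' (M : ℕ) [NeZero M] (hM : 2 ∣ M) (h4 : 4 ∣ M * 2) :
    tau'L (M * 2) h4 = tau' M hM := by
  apply AlgEquiv.ext
  intro f
  rw [tau'L_apply, tau'_apply, tauL_eq_tau M hM h4]

/-- the fixed field of `τ'_{2M}` is `Fbar M`, series form. -/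
theorem tau'L_eq_self_iff_mul (M : ℕ) [NeZero M] (hM : 2 ∣ M) (h4 : 4 ∣ M * 2) (f : FF (M * 2)) :
    tau'L (M * 2) h4 f = f ↔ (f : LaurentSeries Kbar) ∈ modularFunctionFieldBar M := by
  rw [tau'L_eq_tau' M hM h4, tau'_eq_self_iff]
  constructor
  · rintro ⟨c, rfl⟩
    rw [coe_levelIncl]
    exact c.2
  · intro hf
    exact ⟨⟨_, hf⟩, Subtype.ext (by rw [coe_levelIncl])⟩

/-- the fixed field of `τ_{2M}` is `{c(q²) : c ∈ Fbar M}`, series form. -/
theorem tauL_eq_self_iff_mul (M : ℕ) [NeZero M] (hM : 2 ∣ M) (h4 : 4 ∣ M * 2) (f : FF (M * 2)) :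
    tauL (M * 2) h4 f = f ↔ ∃ c : LaurentSeries Kbar, c ∈ modularFunctionFieldBar M ∧
      (f : LaurentSeries Kbar) = qExpand Kbar 2 c := by
  rw [tauL_eq_tau M hM h4, tau_eq_self_iff]
  constructor
  · rintro ⟨c, hc⟩
    exact ⟨c, c.2, hc⟩
  · rintro ⟨c, hc, hf⟩
    exact ⟨⟨c, hc⟩, hf⟩

/-! ### `Fbar (2m) ∩ {x(q²)} = β₂ (Fbar m)` for odd `m` -/

section Inter

variable (m : ℕ) [NeZero m]

/-- `β₂ (Fbar m)`, the image of `Fbar m` under `q ↦ q²`. -/
def betaTwo : IntermediateField Kbar (LaurentSeries Kbar) :=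
  (modularFunctionFieldBar m).map (qExpandAlgHomC Kbar 2)

theorem mem_betaTwo_iff (x : LaurentSeries Kbar) :
    x ∈ betaTwo m ↔ ∃ c : LaurentSeries Kbar, c ∈ modularFunctionFieldBar m ∧
      x = qExpand Kbar 2 c := by
  unfold betaTwo
  rw [IntermediateField.mem_map]
  constructor
  · rintro ⟨c, hc, rfl⟩
    exact ⟨c, hc, (qExpandAlgHomC_apply _ _ _)⟩
  · rintro ⟨c, hc, rfl⟩
    exact ⟨c, hc, (qExpandAlgHomC_apply _ _ _)⟩

theorem betaTwo_le : betaTwo m ≤ modularFunctionFieldBar (m * 2) := by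
  intro x hx
  obtain ⟨c, hc, rfl⟩ := (mem_betaTwo_iff m x).1 hx
  have h1 := (heckeBetaBar Kbar m 2 ⟨c, hc⟩).2
  rwa [coe_heckeBetaBar] at h1

theorem relfinrank_betaTwo (hm : ¬ 2 ∣ m) :
    relfinrank (betaTwo m) (modularFunctionFieldBar (m * 2)) = 3 := by
  have h := Fermat.Agent.ES.HECKE.DegreeL25.relfinrank_beta Kbar m 2 Nat.prime_two hm
  rw [← Fermat.Agent.RED.PUR.DegBaseChange25.laurentBaseChange_full_eq,
    ← Fermat.Agent.RED.PUR.DegBaseChange25.laurentBaseChange_full_eq] at h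
  exact h

/-- the series in `q²`. -/
def evenSeries : IntermediateField Kbar (LaurentSeries Kbar) := (qExpandAlgHomC Kbar 2).fieldRange

theorem mem_evenSeries_iff (x : LaurentSeries Kbar) :
    x ∈ evenSeries ↔ ∃ c : LaurentSeries Kbar, x = qExpand Kbar 2 c := by
  unfold evenSeries
  rw [AlgHom.mem_fieldRange]
  constructor
  · rintro ⟨c, rfl⟩
    exact ⟨c, (qExpandAlgHomC_apply _ _ _)⟩
  · rintro ⟨c, rfl⟩
    exact ⟨c, (qExpandAlgHomC_apply _ _ _)⟩

/-- `j(q)` is not a series in `q²`. -/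
theorem jq_not_mem_evenSeries (N : ℕ) [NeZero N] :
    ((jdF N 1 (one_dvd _) : FF N) : LaurentSeries Kbar) ∉ evenSeries := by
  intro h
  obtain ⟨c, hc⟩ := (mem_evenSeries_iff _).1 h
  apply coe_jdF_ne_tw N 1 (one_dvd _) odd_one
  rw [hc]
  exact (tw_qExpand_even 2 even_two c).symm

/-- **`Fbar (2m) ∩ {x(q²)} = β₂ (Fbar m)`** for odd `m`. -/
theorem inter_range (hm : ¬ 2 ∣ m) (x : LaurentSeries Kbar)
    (hx : x ∈ modularFunctionFieldBar (m * 2)) (hx2 : x ∈ evenSeries) : x ∈ betaTwo m := by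
  set E : IntermediateField Kbar (LaurentSeries Kbar) :=
    modularFunctionFieldBar (m * 2) ⊓ evenSeries with hE
  have hAE : betaTwo m ≤ E := by
    intro y hy
    refine ⟨betaTwo_le m hy, ?_⟩
    obtain ⟨c, -, rfl⟩ := (mem_betaTwo_iff m y).1 hy
    exact (mem_evenSeries_iff _).2 ⟨c, rfl⟩
  have hEB : E ≤ modularFunctionFieldBar (m * 2) := inf_le_left
  have hmul := relfinrank_mul_relfinrank hAE hEB
  rw [relfinrank_betaTwo m hm] at hmul
  have h3 : Nat.Prime 3 := by norm_num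
  rcases (Nat.dvd_prime h3).1 (Dvd.intro _ hmul) with h1 | h1
  · -- `[E : A] = 1`, so `E ≤ A`
    have := relfinrank_eq_one_iff.1 h1
    exact this ⟨hx, hx2⟩
  · -- `[E : A] = 3`, so `[B : E] = 1`, `B ≤ E`: impossible
    exfalso
    rw [h1] at hmul
    have h2 : relfinrank E (modularFunctionFieldBar (m * 2)) = 1 := by omega
    have hBE := relfinrank_eq_one_iff.1 h2
    exact jq_not_mem_evenSeries (m * 2) (hBE (jdF (m * 2) 1 (one_dvd _)).2).2

/-- **the common fixed field of `τ`, `τ'` at the level `4m`, `m` odd, is `{c(q²) : c ∈ Fbar m}`.** -/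
theorem fixed_both_iff_mul (hm : ¬ 2 ∣ m) (h4 : 4 ∣ m * 2 * 2) (f : FF (m * 2 * 2)) :
    (tauL (m * 2 * 2) h4 f = f ∧ tau'L (m * 2 * 2) h4 f = f) ↔
      (f : LaurentSeries Kbar) ∈ betaTwo m := by
  have hM : 2 ∣ m * 2 := Dvd.intro_left m rfl
  rw [tauL_eq_self_iff_mul (m * 2) hM h4, tau'L_eq_self_iff_mul (m * 2) hM h4]
  constructor
  · rintro ⟨⟨c, -, hc⟩, hf⟩
    exact inter_range m hm _ hf ((mem_evenSeries_iff _).2 ⟨c, hc⟩)
  · intro hf
    obtain ⟨c, hc, hfc⟩ := (mem_betaTwo_iff m _).1 hf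
    exact ⟨⟨c, Fermat.Agent.RED.BASE.Interface12.fbar_mono (dvd_mul_right m 2) hc, hfc⟩,
      betaTwo_le m hf⟩

end Inter

/-! ### general level `L`, `4 ∣ L` -/

section General

variable (L : ℕ) [NeZero L] (h4 : 4 ∣ L)

theorem neZero_quarter {L : ℕ} [NeZero L] (h4 : 4 ∣ L) : NeZero (L / 4) := by
  obtain ⟨k, rfl⟩ := h4
  have := NeZero.ne (4 * k)
  exact ⟨by omega⟩

/-- **the fixed field of `τ'_L` is `Fbar (L/2)`** (series form). -/
theorem tau'L_eq_self_iff [NeZero (L / 2)] (f : FF L) :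
    tau'L L h4 f = f ↔ (f : LaurentSeries Kbar) ∈ modularFunctionFieldBar (L / 2) := by
  obtain ⟨M, rfl⟩ : ∃ M, L = M * 2 := ⟨L / 2, half_mul_two h4⟩
  have hM0 : M ≠ 0 := by
    rintro rfl
    exact NeZero.ne (0 * 2) (by norm_num)
  haveI : NeZero M := ⟨hM0⟩
  have hM : 2 ∣ M := by
    obtain ⟨k, hk⟩ := h4
    exact ⟨k, by omega⟩
  have e : M * 2 / 2 = M := Nat.mul_div_cancel M two_pos
  rw [fbar_congr e]
  exact tau'L_eq_self_iff_mul M hM h4 f

/-- **the fixed field of `τ_L` is `{c(q²) : c ∈ Fbar (L/2)}`** (series form). -/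
theorem tauL_eq_self_iff [NeZero (L / 2)] (f : FF L) :
    tauL L h4 f = f ↔ ∃ c : LaurentSeries Kbar, c ∈ modularFunctionFieldBar (L / 2) ∧
      (f : LaurentSeries Kbar) = qExpand Kbar 2 c := by
  obtain ⟨M, rfl⟩ : ∃ M, L = M * 2 := ⟨L / 2, half_mul_two h4⟩
  have hM0 : M ≠ 0 := by
    rintro rfl
    exact NeZero.ne (0 * 2) (by norm_num)
  haveI : NeZero M := ⟨hM0⟩
  have hM : 2 ∣ M := by
    obtain ⟨k, hk⟩ := h4
    exact ⟨k, by omega⟩
  have e : M * 2 / 2 = M := Nat.mul_div_cancel M two_pos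
  rw [fbar_congr e]
  exact tauL_eq_self_iff_mul M hM h4 f

/-- **case O: the common fixed field of `τ_L`, `τ'_L` is `{c(q²) : c ∈ Fbar (L/4)}`** when `L/4`
is odd. -/
theorem fixed_both_iff [NeZero (L / 4)] (hodd : ¬ 2 ∣ L / 4) (f : FF L) :
    (tauL L h4 f = f ∧ tau'L L h4 f = f) ↔
      ∃ c : LaurentSeries Kbar, c ∈ modularFunctionFieldBar (L / 4) ∧
        (f : LaurentSeries Kbar) = qExpand Kbar 2 c := by
  obtain ⟨m, rfl⟩ : ∃ m, L = m * 2 * 2 := by
    obtain ⟨k, rfl⟩ := h4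
    exact ⟨k, by ring⟩
  have e : m * 2 * 2 / 4 = m := by omega
  have hm0 : m ≠ 0 := by
    rintro rfl
    exact NeZero.ne (0 * 2 * 2) (by norm_num)
  haveI : NeZero m := ⟨hm0⟩
  rw [fbar_congr e]
  have hm : ¬ 2 ∣ m := by rwa [e] at hodd
  rw [fixed_both_iff_mul m hm h4 f, mem_betaTwo_iff]

end General

/-! ### the groups `Γ` -/

section Groups

variable (L : ℕ) [NeZero L] (h4 : 4 ∣ L)

/-- **case E: `Γ = {1, τ'}`.** -/
def Gam2 : Subgroup (FF L ≃ₐ[Kbar] FF L) := Subgroup.zpowers (tau'L L h4)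

/-- **case O: `Γ = ⟨τ, τ'⟩`.** -/
def Gam6 : Subgroup (FF L ≃ₐ[Kbar] FF L) := Subgroup.closure {tauL L h4, tau'L L h4}

theorem tauL_mem_Gam6 : tauL L h4 ∈ Gam6 L h4 :=
  Subgroup.subset_closure (Set.mem_insert _ _)

theorem tau'L_mem_Gam6 : tau'L L h4 ∈ Gam6 L h4 :=
  Subgroup.subset_closure (Set.mem_insert_of_mem _ (Set.mem_singleton _))

theorem tau'L_mem_Gam2 : tau'L L h4 ∈ Gam2 L h4 := Subgroup.mem_zpowers _

theorem tauL_mul_self : tauL L h4 * tauL L h4 = 1 :=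
  AlgEquiv.ext fun f => tauL_tauL L h4 f

theorem tau'L_mul_self : tau'L L h4 * tau'L L h4 = 1 :=
  AlgEquiv.ext fun f => tau'L_tau'L L h4 f

theorem tauL_inv : (tauL L h4)⁻¹ = tauL L h4 := inv_eq_of_mul_eq_one_right (tauL_mul_self L h4)

theorem tau'L_inv : (tau'L L h4)⁻¹ = tau'L L h4 := inv_eq_of_mul_eq_one_right (tau'L_mul_self L h4)

/-- **induction on `Γ = ⟨τ, τ'⟩`** (no inverses needed: the generators are involutions). -/
theorem Gam6_induction {P : (FF L ≃ₐ[Kbar] FF L) → Prop} (h1 : P 1) (hτ : P (tauL L h4))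
    (hτ' : P (tau'L L h4)) (hmul : ∀ g g', P g → P g' → P (g * g')) :
    ∀ g ∈ Gam6 L h4, P g := by
  intro g hg
  have hg' : g ∈ (Gam6 L h4).toSubmonoid := hg
  unfold Gam6 at hg'
  rw [Subgroup.closure_toSubmonoid] at hg'
  clear hg
  induction hg' using Submonoid.closure_induction with
  | mem x hx =>
    rcases hx with hx | hx
    · rcases hx with rfl | hx
      · exact hτ
      · rw [Set.mem_singleton_iff] at hx
        rw [hx]
        exact hτ'
    · rw [Set.mem_inv] at hx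
      rcases hx with hx | hx
      · have : x = tauL L h4 := by rw [← inv_inv x, hx, tauL_inv]
        rw [this]
        exact hτ
      · rw [Set.mem_singleton_iff] at hx
        have : x = tau'L L h4 := by rw [← inv_inv x, hx, tau'L_inv]
        rw [this]
        exact hτ'
  | one => exact h1
  | mul x y _ _ hx hy => exact hmul x y hx hy

/-- induction on `Γ = {1, τ'}`. -/
theorem Gam2_induction {P : (FF L ≃ₐ[Kbar] FF L) → Prop} (h1 : P 1) (hτ' : P (tau'L L h4)) :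
    ∀ g ∈ Gam2 L h4, P g := by
  intro g hg
  obtain ⟨n, rfl⟩ := Subgroup.mem_zpowers_iff.1 hg
  rcases Int.even_or_odd' n with ⟨k, rfl | rfl⟩
  · have : tau'L L h4 ^ (2 * k) = 1 := by
      rw [zpow_mul, zpow_ofNat, pow_two, tau'L_mul_self, one_zpow]
    rw [this]
    exact h1
  · have : tau'L L h4 ^ (2 * k + 1) = tau'L L h4 := by
      rw [zpow_add, zpow_mul, zpow_ofNat, pow_two, tau'L_mul_self, one_zpow, one_mul, zpow_one]
    rw [this]
    exact hτ'

theorem fixed_Gam6_iff (f : FF L) :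
    (∀ g ∈ Gam6 L h4, g f = f) ↔ (tauL L h4 f = f ∧ tau'L L h4 f = f) := by
  constructor
  · intro h
    exact ⟨h _ (tauL_mem_Gam6 L h4), h _ (tau'L_mem_Gam6 L h4)⟩
  · rintro ⟨h1, h2⟩
    refine Gam6_induction L h4 (P := fun g => g f = f) rfl h1 h2 ?_
    intro g g' hg hg'
    show g (g' f) = f
    rw [hg', hg]

theorem fixed_Gam2_iff (f : FF L) :
    (∀ g ∈ Gam2 L h4, g f = f) ↔ tau'L L h4 f = f := by
  constructor
  · intro h
    exact h _ (tau'L_mem_Gam2 L h4)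
  · intro h2
    exact Gam2_induction L h4 (P := fun g => g f = f) rfl h2

/-- `τ' ≠ 1`. -/
theorem tau'L_ne_one [NeZero (L / 2)] : tau'L L h4 ≠ 1 := by
  intro h
  -- then every `f ∈ Fbar L` lies in `Fbar (L/2)`
  have hall : ∀ f : FF L, (f : LaurentSeries Kbar) ∈ modularFunctionFieldBar (L / 2) := fun f =>
    (tau'L_eq_self_iff L h4 f).1 (by rw [h]; rfl)
  obtain ⟨M, rfl⟩ : ∃ M, L = M * 2 := ⟨L / 2, half_mul_two h4⟩
  have hM0 : M ≠ 0 := by
    rintro rfl
    exact NeZero.ne (0 * 2) (by norm_num)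
  haveI : NeZero M := ⟨hM0⟩
  have hM : 2 ∣ M := by
    obtain ⟨k, hk⟩ := h4
    exact ⟨k, by omega⟩
  have e : M * 2 / 2 = M := Nat.mul_div_cancel M two_pos
  rw [fbar_congr e] at hall
  have hle : modularFunctionFieldBar (M * 2) ≤ modularFunctionFieldBar M := fun x hx => hall ⟨x, hx⟩
  have h1 := relfinrank_eq_one_iff.2 hle
  rw [relfinrank_two M hM] at h1
  norm_num at h1

theorem card_Gam2 [NeZero (L / 2)] : Nat.card (Gam2 L h4) = 2 := by
  unfold Gam2
  rw [Nat.card_zpowers]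
  exact orderOf_eq_prime (by rw [pow_two]; exact tau'L_mul_self L h4) (tau'L_ne_one L h4)

theorem finite_Gam2 [NeZero (L / 2)] : Finite (Gam2 L h4) :=
  Nat.finite_of_card_ne_zero (by rw [card_Gam2]; norm_num)

/-! ### the order of `Γ = ⟨τ, τ'⟩` -/

theorem betaTwo_congr {k m : ℕ} [NeZero k] [NeZero m] (e : k = m) : betaTwo k = betaTwo m := by
  subst e
  rfl

include h4 in
theorem relfinrank_betaTwo_L [NeZero (L / 4)] (hodd : ¬ 2 ∣ L / 4) :
    relfinrank (betaTwo (L / 4)) (modularFunctionFieldBar L) = 6 := by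
  obtain ⟨m, rfl⟩ : ∃ m, L = m * 2 * 2 := by
    obtain ⟨k, rfl⟩ := h4
    exact ⟨k, by ring⟩
  have e : m * 2 * 2 / 4 = m := by omega
  have hm0 : m ≠ 0 := by
    rintro rfl
    exact NeZero.ne (0 * 2 * 2) (by norm_num)
  haveI : NeZero m := ⟨hm0⟩
  rw [betaTwo_congr e]
  have hm : ¬ 2 ∣ m := by rwa [e] at hodd
  have h1 := relfinrank_mul_relfinrank (betaTwo_le m)
    (Fermat.Agent.RED.BASE.Interface12.fbar_mono (dvd_mul_right (m * 2) 2))
  rw [relfinrank_betaTwo m hm, relfinrank_two (m * 2) (Dvd.intro_left m rfl)] at h1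
  exact h1.symm

include h4 in
theorem betaTwo_le_L [NeZero (L / 4)] :
    betaTwo (L / 4) ≤ modularFunctionFieldBar L := by
  intro x hx
  obtain ⟨c, hc, rfl⟩ := (mem_betaTwo_iff _ x).1 hx
  obtain ⟨m, rfl⟩ : ∃ m, L = m * 2 * 2 := by
    obtain ⟨k, rfl⟩ := h4
    exact ⟨k, by ring⟩
  have e : m * 2 * 2 / 4 = m := by omega
  have hm0 : m ≠ 0 := by
    rintro rfl
    exact NeZero.ne (0 * 2 * 2) (by norm_num)
  haveI : NeZero m := ⟨hm0⟩
  rw [fbar_congr e] at hc
  exact Fermat.Agent.RED.BASE.Interface12.fbar_mono (dvd_mul_right (m * 2) 2)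
    (betaTwo_le m ((mem_betaTwo_iff m _).2 ⟨c, hc, rfl⟩))

theorem mem_fixedPoints_iff [NeZero (L / 4)] (hodd : ¬ 2 ∣ L / 4) (f : FF L) :
    f ∈ FixedPoints.subfield (Gam6 L h4) (FF L) ↔ (f : LaurentSeries Kbar) ∈ betaTwo (L / 4) := by
  rw [mem_betaTwo_iff, ← fixed_both_iff L h4 hodd f, ← fixed_Gam6_iff]
  constructor
  · intro h g hg
    exact h ⟨g, hg⟩
  · intro h g
    exact h g.1 g.2

/-- **`[Fbar L : Fix Γ] = 6`.** -/
theorem finrank_fixedPoints [NeZero (L / 4)] (hodd : ¬ 2 ∣ L / 4) :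
    Module.finrank (FixedPoints.subfield (Gam6 L h4) (FF L)) (FF L) = 6 := by
  have hle := betaTwo_le_L L h4
  rw [← relfinrank_betaTwo_L L h4 hodd, relfinrank_eq_finrank_of_le hle]
  symm
  let i : ↥(betaTwo (L / 4)) ≃+* ↥(FixedPoints.subfield (Gam6 L h4) (FF L)) :=
    { toFun := fun x => ⟨⟨x.1, hle x.2⟩, (mem_fixedPoints_iff L h4 hodd _).2 x.2⟩
      invFun := fun y => ⟨(y.1 : LaurentSeries Kbar), (mem_fixedPoints_iff L h4 hodd _).1 y.2⟩
      left_inv := fun _ => rfl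
      right_inv := fun _ => rfl
      map_mul' := fun _ _ => rfl
      map_add' := fun _ _ => rfl }
  let j : ↥(extendScalars hle) ≃+* FF L :=
    { toFun := fun b => ⟨b.1, (mem_extendScalars hle).mp b.2⟩
      invFun := fun b => ⟨b.1, (mem_extendScalars hle).mpr b.2⟩
      left_inv := fun _ => rfl
      right_inv := fun _ => rfl
      map_mul' := fun _ _ => rfl
      map_add' := fun _ _ => rfl }
  refine Algebra.finrank_eq_of_equiv_equiv i j ?_
  ext a
  rfl

theorem finite_Gam6 [NeZero (L / 4)] (hodd : ¬ 2 ∣ L / 4) : Finite (Gam6 L h4) := by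
  have h6 := finrank_fixedPoints L h4 hodd
  haveI : Module.Finite (FixedPoints.subfield (Gam6 L h4) (FF L)) (FF L) :=
    Module.finite_of_finrank_pos (by rw [h6]; norm_num)
  exact Finite.of_injective _
    (MulSemiringAction.toAlgHom_injective (FixedPoints.subfield (Gam6 L h4) (FF L)) (FF L))

/-- **`|Γ| = 6`** (case O). -/
theorem card_Gam6 [NeZero (L / 4)] (hodd : ¬ 2 ∣ L / 4) : Nat.card (Gam6 L h4) = 6 := by
  haveI := finite_Gam6 L h4 hodd
  haveI := Fintype.ofFinite (Gam6 L h4)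
  rw [Nat.card_eq_fintype_card, ← FixedPoints.finrank_eq_card (Gam6 L h4) (FF L)]
  exact finrank_fixedPoints L h4 hodd

end Groups

end Fermat.Agent.U44.GammaSix0
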