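/-
Programme U44 (S44), chapter (GAMMA), items (T2)/(T3) (helper1): **naturality of the étale image
(specialisation) under automorphisms**, and the invariance of the Hecke eigenvector of (H3) under
the reductions `τ̄`, `τ̄'` of the deck transformations.

Abstract (`R : HalfRed A F Fb` a reduction context, `Rel R p x e` the relation "`e` is the étale
image of `x`" of `U44/EtaleAbs1`; fully semilinear):
* `KData.smul` : a Kummer datum `(D, f, c)` is transported to `(g • D, g • f, baseAut g c)` by a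
  semilinear automorphism `g` of `F` preserving the Gauss ring `R.O`, with
  `red (g • y) = gb • red y`;
* **`Rel.smul`** : `Rel R p x e → Rel R p (g • x) (gb • e)`;
* **`Rel.fixed`** : `g • x = x → gb • e = e`;
* `Rel.smul_alg`, `Rel.fixed_alg` : the same for `K`-algebra automorphisms (`SemilinearAut.ofAlgAut`);
* `twist_compat` : `(g, gb)` compatible with `R` ⟹ `(g, σ gb σ⁻¹)` compatible with the twisted
  context `TwistRed4.twist R σ`.

Instance (`h : LevelHyp p M' A`, `L = M' p`, `τ = tauL L`, `τ' = tau'L L` of `U44/GammaLevel2`,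
`τ̄ = tauB h`, `τ̄' = tauB' h = W̄ τ̄ W̄` of `U44/GammaGauss2`):
* `tau_fixed₁` : `Rel₁ h v y`, `τ • v = v` ⟹ `τ̄ • y = y`;
* `tau'_fixed₂W` : `Rel₂W h v y`, `τ' • v = v` ⟹ `τ̄' • y = y`;
* under (C3) (`τ'` preserves `O₁` with reduction `τ̄'`; owner helper2) as a hypothesis `C3 h`:
  `tau'_fixed₁`, `tauL_mem_O2`, `rho2_tauL`, `tau_fixed₂W`, and
* **`gamma_fixed`** : the eigenvector `y` of `EtaleHecke4.exists_eigen` attached to a `τ`- and
  `τ'`-fixed class `v` is fixed by `τ̄` and `τ̄'`.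
-/
import Mathlib
import Fermat.Agent.U44.EtaleHecke4
import Fermat.Agent.U44.GammaGauss2
import Fermat.Agent.U44.GammaSix0

set_option autoImplicit false
set_option linter.unusedSectionVars false
set_option linter.style.haveILetI false
set_option linter.unusedVariables false
set_option synthInstance.maxHeartbeats 400000

noncomputable section

open AlgebraicCurve IsLocalRing

namespace Fermat.Agent.U44.SpecNat1

open Fermat.Agent.T33.NodalCtx1 Fermat.Agent.U44.GaussRed3 Fermat.Agent.RR.LSpace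
  Fermat.Agent.X0.FF Fermat.Agent.U44.EtaleAbs1 Fermat.Agent.U44.TwistRed4

/-! ### abstract naturality -/

section Abstract

variable {K : Type*} [Field K] {A : ValuationSubring K}
variable {F : Type*} [Field F] [Algebra K F]
variable {Fb : Type*} [Field Fb] [Algebra (ResidueField A) Fb] {R : HalfRed A F Fb}
variable (g : SemilinearAut K F) (gb : SemilinearAut (ResidueField A) Fb)
  (hmem : ∀ y ∈ R.O, g • y ∈ R.O)
  (hρ : ∀ (y : F) (hy : y ∈ R.O), R.ρ ⟨g • y, hmem y hy⟩ = gb • R.ρ ⟨y, hy⟩)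

include hρ in
theorem red_smul {y : F} (hy : y ∈ R.O) : red R (g • y) = gb • red R y := by
  rw [red_of_mem R (hmem y hy), red_of_mem R hy, hρ y hy]

include hρ in
theorem isGU_smul {y : F} (hy : IsGU R y) : IsGU R (g • y) := by
  refine ⟨hmem y hy.mem, ?_⟩
  rw [red_smul g gb hmem hρ hy.mem]
  exact (smul_ne_zero_iff_ne _).2 hy.2

theorem ord_smul_eq (g : SemilinearAut K F) (P : Place K F) (f : F) :
    P.ord (g • f) = (g⁻¹ • P).ord f := by
  have h := SemilinearAut.ord_smul g (g⁻¹ • P) f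
  rwa [smul_inv_smul] at h

include hρ in
/-- **transport of a Kummer datum.** -/
theorem KData.smul {p : ℕ} {D : Divisor.degZero (K := K) (F := F)} {f : F} {c : K}
    (hk : KData R p D f c) :
    KData R p (SemilinearAut.degZeroSMulHom g D) (g • f) (SemilinearAut.baseAut g c) := by
  refine ⟨(smul_ne_zero_iff_ne _).2 hk.f_ne, fun P => ?_, ?_⟩
  · rw [ord_smul_eq, hk.ord_f, SemilinearAut.coe_degZeroSMulHom,
      SemilinearAut.divisor_smul_apply]
  · have e : algebraMap K F (SemilinearAut.baseAut g c) * g • f =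
        g • (algebraMap K F c * f) := by
      rw [smul_mul', SemilinearAut.smul_algebraMap]
    rw [e]
    exact isGU_smul g gb hmem hρ hk.gu

include hρ in
theorem KData.red_smul {p : ℕ} {D : Divisor.degZero (K := K) (F := F)} {f : F} {c : K}
    (hk : KData R p D f c) :
    red R (algebraMap K F (SemilinearAut.baseAut g c) * g • f) =
      gb • red R (algebraMap K F c * f) := by
  have e : algebraMap K F (SemilinearAut.baseAut g c) * g • f =
      g • (algebraMap K F c * f) := by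
    rw [smul_mul', SemilinearAut.smul_algebraMap]
  rw [e, SpecNat1.red_smul g gb hmem hρ hk.gu.mem]

include hρ in
/-- **naturality of the étale image.** -/
theorem Rel.smul {p : ℕ} {x : Pic0 K F} {e : Pic0 (ResidueField A) Fb} (h : Rel R p x e) :
    Rel R p (g • x) (gb • e) := by
  obtain ⟨D, f, c, Db, hk, rfl, hQ, rfl⟩ := h
  refine ⟨SemilinearAut.degZeroSMulHom g D, g • f, SemilinearAut.baseAut g c,
    SemilinearAut.degZeroSMulHom gb Db, KData.smul g gb hmem hρ hk,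
    SemilinearAut.pic0_smul_mk g D, fun Q => ?_, SemilinearAut.pic0_smul_mk gb Db⟩
  rw [KData.red_smul g gb hmem hρ hk, ord_smul_eq, hQ, SemilinearAut.coe_degZeroSMulHom,
    SemilinearAut.divisor_smul_apply]

include hρ in
/-- **the étale image of a fixed class is fixed.** -/
theorem Rel.fixed (H : LHyp K F) {p : ℕ} (hp : p ≠ 0) {x : Pic0 K F}
    {e : Pic0 (ResidueField A) Fb} (h : Rel R p x e) (hx : g • x = x) : gb • e = e := by
  have h1 := Rel.smul g gb hmem hρ h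
  rw [hx] at h1
  exact Rel.unique H hp h1 h

/-- **naturality, `K`-algebra automorphisms.** -/
theorem Rel.smul_alg (s : F ≃ₐ[K] F) (sb : Fb ≃ₐ[ResidueField A] Fb)
    (hmem : ∀ y ∈ R.O, s y ∈ R.O)
    (hρ : ∀ (y : F) (hy : y ∈ R.O), R.ρ ⟨s y, hmem y hy⟩ = sb (R.ρ ⟨y, hy⟩))
    {p : ℕ} {x : Pic0 K F} {e : Pic0 (ResidueField A) Fb} (h : Rel R p x e) :
    Rel R p (SemilinearAut.ofAlgAut s • x) (SemilinearAut.ofAlgAut sb • e) :=
  Rel.smul (SemilinearAut.ofAlgAut s) (SemilinearAut.ofAlgAut sb) hmem hρ h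

/-- **fixed classes, `K`-algebra automorphisms.** -/
theorem Rel.fixed_alg (H : LHyp K F) {p : ℕ} (hp : p ≠ 0) (s : F ≃ₐ[K] F)
    (sb : Fb ≃ₐ[ResidueField A] Fb) (hmem : ∀ y ∈ R.O, s y ∈ R.O)
    (hρ : ∀ (y : F) (hy : y ∈ R.O), R.ρ ⟨s y, hmem y hy⟩ = sb (R.ρ ⟨y, hy⟩))
    {x : Pic0 K F} {e : Pic0 (ResidueField A) Fb} (h : Rel R p x e)
    (hx : SemilinearAut.ofAlgAut s • x = x) : SemilinearAut.ofAlgAut sb • e = e :=
  Rel.fixed (SemilinearAut.ofAlgAut s) (SemilinearAut.ofAlgAut sb) hmem hρ H hp h hx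

/-- compatibility with the twist of the reduction context by `σ`: the reduction becomes
`σ sb σ⁻¹`. -/
theorem twist_compat (σ : Fb ≃ₐ[ResidueField A] Fb) (s : F ≃ₐ[K] F)
    (sb : Fb ≃ₐ[ResidueField A] Fb) (hmem : ∀ y ∈ R.O, s y ∈ R.O)
    (hρ : ∀ (y : F) (hy : y ∈ R.O), R.ρ ⟨s y, hmem y hy⟩ = sb (R.ρ ⟨y, hy⟩))
    (y : F) (hy : y ∈ (twist R σ).O) :
    (twist R σ).ρ ⟨s y, hmem y hy⟩ = ((σ.symm.trans sb).trans σ) ((twist R σ).ρ ⟨y, hy⟩) := by
  show σ (R.ρ ⟨s y, hmem y hy⟩) = σ (sb (σ.symm (σ (R.ρ ⟨y, hy⟩))))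
  rw [hρ y hy, σ.symm_apply_apply]

end Abstract

/-! ### the instance: `τ̄`, `τ̄'` fix the eigenvector of (H3) -/

section Instance

open HahnSeries ModularCurve IntermediateField
open Fermat.Agent.RED.Interface4 Fermat.Agent.ES.RED Fermat.Agent.ES.N34.FrickeFK8
  Fermat.Agent.T33.NodalHalf4 Fermat.Agent.T33.NodalBase4A Fermat.Agent.T33.FrickeRed3
  Fermat.Agent.T33.NodalInst4A
  Fermat.Agent.U44.GammaTwist2 Fermat.Agent.U44.GammaLevel2 Fermat.Agent.U44.GammaGauss2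
  Fermat.Agent.U44.EtaleInst1 Fermat.Agent.U44.EtaleHecke4 Fermat.Agent.U44.GammaSix0

variable {p M' : ℕ} [NeZero M'] [NeZero p] {A : ValuationSubring Qbar}

/-- shortcut instance. -/
local instance (priority := high) algebraKFbSN (M : ℕ) [NeZero M] :
    Algebra (ResidueField ↥A) (Fb A M) := inferInstance

variable (h : LevelHyp p M' A)

theorem Wb_Wb (x : Fb A M') : Wb h (Wb h x) = x :=
  haveI : Fact p.Prime := ⟨h.prime⟩
  Wbar_Wbar A M' p h.liesOver h.not_dvd (rho0_surjective h) x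

/-- `W τ' = τ W`. -/
theorem frickeBar_tau'L' (y : ↥(Fbar (M' * p))) :
    frickeBar (M' * p) (tau'L (M' * p) (four_dvd_mul h.four_dvd) y) =
      tauL (M' * p) (four_dvd_mul h.four_dvd) (frickeBar (M' * p) y) :=
  frickeBar_tau'L h y

/-- `W τ = τ' W`. -/
theorem frickeBar_tauL (y : ↥(Fbar (M' * p))) :
    frickeBar (M' * p) (tauL (M' * p) (four_dvd_mul h.four_dvd) y) =
      tau'L (M' * p) (four_dvd_mul h.four_dvd) (frickeBar (M' * p) y) := by
  rw [tau'L_apply, frickeBar_frickeBar]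

/-- **`τ̄` fixes the étale image on the first component of a `τ`-fixed class.** -/
theorem tau_fixed₁ {v : JZero (M' * p)} {y : JZeroC (Setup8.kA A) M'} (hr : Rel₁ h v y)
    (hv : SemilinearAut.ofAlgAut (tauL (M' * p) (four_dvd_mul h.four_dvd)) • v = v) :
    SemilinearAut.ofAlgAut (tauB h) • y = y :=
  Rel.fixed_alg (R := c1 h) (lHyp h) h.prime.ne_zero
    (tauL (M' * p) (four_dvd_mul h.four_dvd)) (tauB h)
    (fun y hy => tauL_mem_O1 h hy) (fun y hy => rho1_tauL h ⟨y, hy⟩) hr hv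

/-- **`τ̄'` fixes the étale image on the second component (read through `W̄`) of a `τ'`-fixed
class.** -/
theorem tau'_fixed₂W {v : JZero (M' * p)} {y : JZeroC (Setup8.kA A) M'} (hr : Rel₂W h v y)
    (hv : SemilinearAut.ofAlgAut (tau'L (M' * p) (four_dvd_mul h.four_dvd)) • v = v) :
    SemilinearAut.ofAlgAut (tauB' h) • y = y := by
  refine Rel.fixed_alg (R := c2W h) (lHyp h) h.prime.ne_zero
    (tau'L (M' * p) (four_dvd_mul h.four_dvd)) (tauB' h)
    (fun y hy => tau'L_mem_O2 h hy) (fun y hy => ?_) hr hv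
  show Wb h (rho2 h ⟨tau'L (M' * p) (four_dvd_mul h.four_dvd) y, tau'L_mem_O2 h hy⟩) =
    tauB' h (Wb h (rho2 h ⟨y, hy⟩))
  rw [rho2_tau'L h ⟨y, hy⟩, tauB'_apply, Wb_Wb]

/-- **(C3)** : `τ'` preserves the Gauss ring `O₁` of the expansion at `∞`, with reduction `τ̄'`
(owner: helper2, `GammaTwo2`). -/
structure C3 : Prop where
  mem : ∀ y ∈ O1 h, tau'L (M' * p) (four_dvd_mul h.four_dvd) y ∈ O1 h
  rho : ∀ (y : ↥(Fbar (M' * p))) (hy : y ∈ O1 h),
    rho1 h ⟨tau'L (M' * p) (four_dvd_mul h.four_dvd) y, mem y hy⟩ = tauB' h (rho1 h ⟨y, hy⟩)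

variable {h}

/-- under (C3): `τ̄'` fixes the étale image on the first component of a `τ'`-fixed class. -/
theorem tau'_fixed₁ (hC : C3 h) {v : JZero (M' * p)} {y : JZeroC (Setup8.kA A) M'}
    (hr : Rel₁ h v y)
    (hv : SemilinearAut.ofAlgAut (tau'L (M' * p) (four_dvd_mul h.four_dvd)) • v = v) :
    SemilinearAut.ofAlgAut (tauB' h) • y = y :=
  Rel.fixed_alg (R := c1 h) (lHyp h) h.prime.ne_zero
    (tau'L (M' * p) (four_dvd_mul h.four_dvd)) (tauB' h) hC.mem hC.rho hr hv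

/-- under (C3): `τ` preserves `O₂`. -/
theorem tauL_mem_O2 (hC : C3 h) {y : ↥(Fbar (M' * p))} (hy : y ∈ O2 h) :
    tauL (M' * p) (four_dvd_mul h.four_dvd) y ∈ O2 h := by
  rw [mem_O2_iff, frickeBar_tauL h]
  exact hC.mem _ ((mem_O2_iff h _).1 hy)

/-- under (C3): `ρ₂ (τ y) = τ̄' (ρ₂ y)`. -/
theorem rho2_tauL (hC : C3 h) (y : ↥(Fbar (M' * p))) (hy : y ∈ O2 h) :
    rho2 h ⟨tauL (M' * p) (four_dvd_mul h.four_dvd) y, tauL_mem_O2 hC hy⟩ =
      tauB' h (rho2 h ⟨y, hy⟩) := by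
  rw [rho2_apply, rho2_apply, ← hC.rho _ ((mem_O2_iff h _).1 hy)]
  exact rho1_congr h (frickeBar_tauL h _) _ _

/-- under (C3): `τ̄` fixes the étale image on the second component (read through `W̄`) of a
`τ`-fixed class. -/
theorem tau_fixed₂W (hC : C3 h) {v : JZero (M' * p)} {y : JZeroC (Setup8.kA A) M'}
    (hr : Rel₂W h v y)
    (hv : SemilinearAut.ofAlgAut (tauL (M' * p) (four_dvd_mul h.four_dvd)) • v = v) :
    SemilinearAut.ofAlgAut (tauB h) • y = y := by
  refine Rel.fixed_alg (R := c2W h) (lHyp h) h.prime.ne_zero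
    (tauL (M' * p) (four_dvd_mul h.four_dvd)) (tauB h)
    (fun y hy => tauL_mem_O2 hC hy) (fun y hy => ?_) hr hv
  show Wb h (rho2 h ⟨tauL (M' * p) (four_dvd_mul h.four_dvd) y, tauL_mem_O2 hC hy⟩) =
    tauB h (Wb h (rho2 h ⟨y, hy⟩))
  rw [rho2_tauL hC y hy, tauB'_apply, Wb_Wb]

/-- **(T3)** : the eigenvector of (H3) attached to a `τ`- and `τ'`-fixed class is fixed by `τ̄` and
`τ̄'`. -/
theorem gamma_fixed (hC : C3 h) {v : JZero (M' * p)} {y : JZeroC (Setup8.kA A) M'}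
    (hr : Rel₁ h v y ∨ Rel₂W h v y)
    (hτ : SemilinearAut.ofAlgAut (tauL (M' * p) (four_dvd_mul h.four_dvd)) • v = v)
    (hτ' : SemilinearAut.ofAlgAut (tau'L (M' * p) (four_dvd_mul h.four_dvd)) • v = v) :
    SemilinearAut.ofAlgAut (tauB h) • y = y ∧ SemilinearAut.ofAlgAut (tauB' h) • y = y := by
  rcases hr with hr | hr
  · exact ⟨tau_fixed₁ h hr hτ, tau'_fixed₁ hC hr hτ'⟩
  · exact ⟨tau_fixed₂W hC hr hτ, tau'_fixed₂W h hr hτ'⟩

/-! ### the reduction package of (LIFT) at the good level -/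

variable (h)

/-- **the reduction package** of helper5's (L5) for one automorphism `g` of the good level `M'`
and a class `y` of the special fibre: `g` preserves the Gauss valuation ring `Ov0` with a
reduction `gb` that fixes `y`. -/
def RedFix (y : JZeroC (Setup8.kA A) M') (g : ↥(Fbar M') ≃ₐ[Qbar] ↥(Fbar M')) : Prop :=
  ∃ gb : Fb A M' ≃ₐ[Setup8.kA A] Fb A M',
    (∀ (a : ↥(Fbar M')) (ha : a ∈ Ov0 h), ∃ hga : g a ∈ Ov0 h,
      rho0 h ⟨g a, hga⟩ = gb (rho0 h ⟨a, ha⟩)) ∧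
    SemilinearAut.ofAlgAut gb • y = y

theorem redFix_one (y : JZeroC (Setup8.kA A) M') : RedFix h y 1 :=
  ⟨1, fun a ha => ⟨ha, rfl⟩, by rw [map_one, one_smul]⟩

theorem redFix_mul {y : JZeroC (Setup8.kA A) M'} {g g' : ↥(Fbar M') ≃ₐ[Qbar] ↥(Fbar M')}
    (hg : RedFix h y g) (hg' : RedFix h y g') : RedFix h y (g * g') := by
  obtain ⟨gb, h1, h2⟩ := hg
  obtain ⟨gb', h1', h2'⟩ := hg'
  refine ⟨gb * gb', fun a ha => ?_, by rw [map_mul, mul_smul, h2', h2]⟩
  obtain ⟨hm', e'⟩ := h1' a ha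
  obtain ⟨hm, e⟩ := h1 (g' a) hm'
  refine ⟨hm, ?_⟩
  show rho0 h ⟨g (g' a), hm⟩ = gb (gb' (rho0 h ⟨a, ha⟩))
  rw [← e', ← e]

theorem redFix_tau {y : JZeroC (Setup8.kA A) M'}
    (hy : SemilinearAut.ofAlgAut (tauB h) • y = y) : RedFix h y (tauL M' h.four_dvd) :=
  ⟨tauB h, fun a ha => ⟨tauL_mem_Ov0 h ha, rho0_tauL h ⟨a, ha⟩⟩, hy⟩

theorem redFix_tau' {y : JZeroC (Setup8.kA A) M'}
    (hy : SemilinearAut.ofAlgAut (tauB' h) • y = y) : RedFix h y (tau'L M' h.four_dvd) :=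
  ⟨tauB' h, fun a ha => ⟨tau'L_mem_Ov0 h ha, rho0_tau'L h ⟨a, ha⟩⟩, hy⟩

/-- **case O**: the whole group `Γ = ⟨τ, τ'⟩` of the good level reduces to automorphisms fixing
`y`. -/
theorem redFix_Gam6 {y : JZeroC (Setup8.kA A) M'}
    (hy : SemilinearAut.ofAlgAut (tauB h) • y = y)
    (hy' : SemilinearAut.ofAlgAut (tauB' h) • y = y) :
    ∀ g ∈ Gam6 M' h.four_dvd, RedFix h y g :=
  Gam6_induction M' h.four_dvd (redFix_one h y) (redFix_tau h hy) (redFix_tau' h hy')
    (fun _ _ hg hg' => redFix_mul h hg hg')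

/-- **case E**: `Γ = {1, τ'}`. -/
theorem redFix_Gam2 {y : JZeroC (Setup8.kA A) M'}
    (hy' : SemilinearAut.ofAlgAut (tauB' h) • y = y) :
    ∀ g ∈ Gam2 M' h.four_dvd, RedFix h y g :=
  Gam2_induction M' h.four_dvd (redFix_one h y) (redFix_tau' h hy')

end Instance

end Fermat.Agent.U44.SpecNat1
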