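/-
Programme U44 (target S44), block (TR), instance layer (helper9): **the disc-model package of the
nodal reduction of `X₀(M'p)` as an EXISTENCE statement**, extracted from the S33 chain (which builds
it internally inside `T33/NodalMain8.hasConnOrder_of_nodalRed` and then discards it).

* `exists_discPackage_of_nodalRed` : abstract form — for a nodal reduction `N` with finitely many
  nodes, many smooth places, Riemann–Roch on `F`, non-special divisors on the nodal curve and an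
  inertia-fixed coordinate `s`: a disc model `Mod` over `N` (`DiscCompat`), with inertia-fixed
  parameter `Mod.φ`, for which `θ` is injective and surjective onto the Kummer-trivial classes of
  exponent `p ^ k`;
* `exists_discPackage_of_coordinate`, `exists_discPackage_of_Rfun` : the auxiliary hypotheses
  discharged as in `T33/NodalFinal8(B)`;
* `exists_discPackage_level` : for a nodal reduction with components `c1 h`, `c2 h`;
* **`exists_discPackage`** : at `NodalInst4G.nodalRed h`, no hypothesis left.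
-/
import Mathlib
import Fermat.Agent.T33.NodalMain8
import Fermat.Agent.T33.NodalMany2
import Fermat.Agent.T33.NodalFinal8B
import Fermat.Agent.T33.NodalCoord3
import Fermat.Agent.T33.NodalInst4G
import Fermat.Agent.T33.NodalInst8C

set_option autoImplicit false
set_option synthInstance.maxHeartbeats 400000
set_option linter.unusedSectionVars false
set_option linter.unusedVariables false
set_option linter.style.haveILetI false

noncomputable section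

open AlgebraicCurve IntermediateField IsLocalRing

namespace Fermat.Agent.U44.DiscInst9

open Fermat.Agent.X0 Fermat.Agent.X0.FF Fermat.Agent.RR.LSpace Fermat.Agent.RR.Riemann
  Fermat.Agent.FF.SpecRR1 Fermat.Agent.FF.GeomIface8 Fermat.Agent.FF.CoreIface8
  Fermat.Agent.FF.InertiaWire8 Fermat.Agent.FF.SubOrd1
  Fermat.Agent.T33.NodalCtx1 Fermat.Agent.T33.NodalCurve6 Fermat.Agent.T33.NodalIface8
  Fermat.Agent.T33.NodalDisc8B Fermat.Agent.T33.NodalLat2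
  Fermat.Agent.T33.Psi3F AlgebraicCurve.SemilinearAut Fermat.Agent.T33.NodalCoord2

section Abstract

variable {A : ValuationSubring Qb} {F : Type*} [Field F] [Algebra Qb F]
variable {Fb₁ Fb₂ : Type*} [Field Fb₁] [Field Fb₂]
  [Algebra (ResidueField A) Fb₁] [Algebra (ResidueField A) Fb₂]
variable {ι : Type*} {Nd : NodalData (ResidueField A) Fb₁ Fb₂ ι} (N : NodalRed A F Nd)

/-- **the disc-model package from a nodal reduction** (the first half of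
`NodalMain8.hasConnOrder_of_nodalRed`). -/
theorem exists_discPackage_of_nodalRed [Finite ι] {p : ℕ} (hp : p.Prime)
    (hA : A.LiesOverPrime p)
    (H : LHyp Qb F) (H₁ : LHyp (ResidueField A) Fb₁) (H₂ : LHyp (ResidueField A) Fb₂)
    (hmany₁ : HasManySmooth₁ N) (hmany₂ : HasManySmooth₂ N)
    (g : ℕ)
    (hRR : ∀ D : Divisor Qb F, 2 * (g : ℤ) - 2 < Divisor.degree D →
      (Module.finrank Qb (riemannRochSpace D) : ℤ) = Divisor.degree D + 1 - g)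
    (hR : ∀ D : Divisor Qb F, Divisor.degree D + 1 - (g : ℤ) ≤ ell D)
    (hNS : Nd.NonSpecialExists g)
    (s : F) (hs₁ : s ∈ N.c₁.O) (hs₂ : s ∈ N.c₂.O)
    (hx₁ : IsGen (ResidueField A) (N.c₁.ρ ⟨s, hs₁⟩))
    [Algebra.IsSeparable (ResidueField A)⟮N.c₁.ρ ⟨s, hs₁⟩⟯ Fb₁]
    (hx₂ : IsGen (ResidueField A) (N.c₂.ρ ⟨s, hs₂⟩))
    [Algebra.IsSeparable (ResidueField A)⟮N.c₂.ρ ⟨s, hs₂⟩⟯ Fb₂]
    (hbr₁ : ∀ i, 0 ≤ (Nd.s1 i).ord (N.c₁.ρ ⟨s, hs₁⟩))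
    (hbr₂ : ∀ i, 0 ≤ (Nd.s2 i).ord (N.c₂.ρ ⟨s, hs₂⟩))
    (hs0 : s ≠ 0) (hρ₁ : N.c₁.ρ ⟨s, hs₁⟩ ≠ 0) (hρ₂ : N.c₂.ρ ⟨s, hs₂⟩ ≠ 0)
    (hdeg : Divisor.degree (poleDiv H hs0) ≤
      Divisor.degree (poleDiv H₁ hρ₁) + Divisor.degree (poleDiv H₂ hρ₂))
    (γ : Iner A → SemilinearAut Qb F)
    (hγK : ∀ (σ : Iner A) (a : Qb), baseAut (γ σ) a = σ • a)
    (hγs : ∀ σ : Iner A, γ σ • s = s) :
    ∃ (d : ℕ) (Mod : NDiscModel A F g d) (c : Fin d → NPt N)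
      (hdegP : ∀ (j : Fin d) (t : A), (Mod.P j t).deg = 1),
      DiscCompat N Mod c ∧ (∀ σ : Iner A, γ σ • Mod.φ = Mod.φ) ∧
      ThetaInjStatement Mod hdegP ∧ ∀ k : ℕ, ThetaSurjStatement N Mod hdegP (p ^ k) := by
  have : Fact p.Prime := ⟨hp⟩
  have : IsAlgClosed (ResidueField A) := Fermat.Agent.FF.TeichLift4.isAlgClosed_residueField A
  have : CharP (ResidueField A) p := Fermat.Agent.FF.TeichLift4.charP_residueField' hp hA
  -- inertia-fixed lifts of the constants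
  have hTL : ∀ a : ResidueField A, ∃ c : A, residue A c = a ∧
      ∀ σ : Iner A, baseAut (γ σ) (c : Qb) = c := by
    intro a
    obtain ⟨c, hc, hfix⟩ := Fermat.Agent.FF.TeichLift4.exists_fixed_lift hp hA a
    exact ⟨c, hc, fun σ => by rw [hγK]; exact hfix σ.1 σ.2⟩
  -- chapter N-F: the data
  obtain ⟨m, φ, hφ₁, hφ₂, c, hρφ₁, hρφ₂, hinj, hc, hNSat, hγφ, hzero, hpole, -, -⟩ :=
    Fermat.Agent.T33.NodalChoose8B.exists_disc_data_of_hdeg N H H₁ H₂ s hs₁ hs₂ hx₁ hx₂ hbr₁ hbr₂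
      hs0 hρ₁ hρ₂ hdeg γ hγs hTL g hNS
  -- chapter N-D: the disc model
  have hWG : N.WeakGauss := Fermat.Agent.T33.NodalAbs1A.weakGauss N H H₁ H₂
  have hdegP : ∀ (j : Fin (g + m)) (t : A),
      ((discModel N H φ hφ₁ hφ₂ hρφ₁ hρφ₂ c hc (Nat.le_add_right g m) hWG).P j t).deg = 1 :=
    discModel_deg N H φ hφ₁ hφ₂ hρφ₁ hρφ₂ c hc (Nat.le_add_right g m) hWG
  have hDC : DiscCompat N (discModel N H φ hφ₁ hφ₂ hρφ₁ hρφ₂ c hc (Nat.le_add_right g m) hWG) c :=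
    discCompat N H φ hφ₁ hφ₂ hρφ₁ hρφ₂ c hc (Nat.le_add_right g m) hWG hinj
  have hdisj := discModel_disjoint N H φ hφ₁ hφ₂ hρφ₁ hρφ₂ c hc (Nat.le_add_right g m) hWG hinj
  have hsemi : Semicont N := semicont H H₁ H₂ hmany₁ hmany₂
  -- chapter N-E: `θ`
  have hθinj : ThetaInjStatement
      (discModel N H φ hφ₁ hφ₂ hρφ₁ hρφ₂ c hc (Nat.le_add_right g m) hWG) hdegP :=
    Fermat.Agent.T33.NodalThetaInj7.thetaInj N _ hDC hdisj hdegP H hsemi hNSat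
  have hθsurj : ∀ k : ℕ, ThetaSurjStatement N
      (discModel N H φ hφ₁ hφ₂ hρφ₁ hρφ₂ c hc (Nat.le_add_right g m) hWG) hdegP (p ^ k) :=
    fun k => Fermat.Agent.T33.NodalAbs1C.thetaSurj N _ hdegP hDC hNSat H
      (Fermat.Agent.FF.ThetaBridge5.riemannEff_of_riemann H g hR) p k
      (fun a => IsAlgClosed.exists_pow_nat_eq a (pow_pos hp.pos k))
  exact ⟨g + m, discModel N H φ hφ₁ hφ₂ hρφ₁ hρφ₂ c hc (Nat.le_add_right g m) hWG, c, hdegP, hDC,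
    fun σ => hγφ σ, hθinj, hθsurj⟩

/-- the same, with `HasManySmooth`, `s ≠ 0`, `ρ_i s ≠ 0` discharged
(as `NodalFinal8.hasConnOrder_of_coordinate`). -/
theorem exists_discPackage_of_coordinate [Finite ι] {p : ℕ} (hp : p.Prime)
    (hA : A.LiesOverPrime p)
    (H : LHyp Qb F) (H₁ : LHyp (ResidueField A) Fb₁) (H₂ : LHyp (ResidueField A) Fb₂)
    (g : ℕ)
    (hRR : ∀ D : Divisor Qb F, 2 * (g : ℤ) - 2 < Divisor.degree D →
      (Module.finrank Qb (riemannRochSpace D) : ℤ) = Divisor.degree D + 1 - g)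
    (hR : ∀ D : Divisor Qb F, Divisor.degree D + 1 - (g : ℤ) ≤ ell D)
    (hNS : Nd.NonSpecialExists g)
    (s : F) (hs₁ : s ∈ N.c₁.O) (hs₂ : s ∈ N.c₂.O)
    (hx₁ : IsGen (ResidueField A) (N.c₁.ρ ⟨s, hs₁⟩))
    [Algebra.IsSeparable (ResidueField A)⟮N.c₁.ρ ⟨s, hs₁⟩⟯ Fb₁]
    (hx₂ : IsGen (ResidueField A) (N.c₂.ρ ⟨s, hs₂⟩))
    [Algebra.IsSeparable (ResidueField A)⟮N.c₂.ρ ⟨s, hs₂⟩⟯ Fb₂]
    (hbr₁ : ∀ i, 0 ≤ (Nd.s1 i).ord (N.c₁.ρ ⟨s, hs₁⟩))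
    (hbr₂ : ∀ i, 0 ≤ (Nd.s2 i).ord (N.c₂.ρ ⟨s, hs₂⟩))
    (hdeg : ∀ (hs0 : s ≠ 0) (hρ₁ : N.c₁.ρ ⟨s, hs₁⟩ ≠ 0) (hρ₂ : N.c₂.ρ ⟨s, hs₂⟩ ≠ 0),
      Divisor.degree (poleDiv H hs0) ≤
        Divisor.degree (poleDiv H₁ hρ₁) + Divisor.degree (poleDiv H₂ hρ₂))
    (γ : Iner A → SemilinearAut Qb F)
    (hγK : ∀ (σ : Iner A) (a : Qb), baseAut (γ σ) a = σ • a)
    (hγs : ∀ σ : Iner A, γ σ • s = s) :
    ∃ (d : ℕ) (Mod : NDiscModel A F g d) (c : Fin d → NPt N)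
      (hdegP : ∀ (j : Fin d) (t : A), (Mod.P j t).deg = 1),
      DiscCompat N Mod c ∧ (∀ σ : Iner A, γ σ • Mod.φ = Mod.φ) ∧
      ThetaInjStatement Mod hdegP ∧ ∀ k : ℕ, ThetaSurjStatement N Mod hdegP (p ^ k) := by
  have : Infinite (ResidueField A) := Fermat.Agent.FF.TeichLift4.infinite_residueField A
  have hρ₁ : N.c₁.ρ ⟨s, hs₁⟩ ≠ 0 := hx₁.ne_zero
  have hρ₂ : N.c₂.ρ ⟨s, hs₂⟩ ≠ 0 := hx₂.ne_zero
  have hs0 : s ≠ 0 := by
    intro h0
    apply hρ₁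
    have : (⟨s, hs₁⟩ : N.c₁.O) = 0 := Subtype.ext h0
    rw [this, map_zero]
  have hmany₁ : HasManySmooth₁ N := hasManySmooth₁_of_nonconst N H H₁ ⟨s, hs₁⟩
    (fun c h => hx₁.sub_algebraMap_ne_zero c (sub_eq_zero.2 h))
  have hmany₂ : HasManySmooth₂ N := hasManySmooth₂_of_nonconst N H H₂ ⟨s, hs₂⟩
    (fun c h => hx₂.sub_algebraMap_ne_zero c (sub_eq_zero.2 h))
  exact exists_discPackage_of_nodalRed N hp hA H H₁ H₂ hmany₁ hmany₂ g hRR hR hNS s hs₁ hs₂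
    hx₁ hx₂ hbr₁ hbr₂ hs0 hρ₁ hρ₂ (hdeg hs0 hρ₁ hρ₂) γ hγK hγs

/-- the same from the coordinate `s = 1/(t - a) + 1/(y - a)`
(as `NodalFinal8.hasConnOrder_of_Rfun`). -/
theorem exists_discPackage_of_Rfun [Finite ι] {p : ℕ} [hp : Fact p.Prime]
    (hA : A.LiesOverPrime p)
    (H : LHyp Qb F) (H₁ : LHyp (ResidueField A) Fb₁) (H₂ : LHyp (ResidueField A) Fb₂)
    (g : ℕ)
    (hRR : ∀ D : Divisor Qb F, 2 * (g : ℤ) - 2 < Divisor.degree D →
      (Module.finrank Qb (riemannRochSpace D) : ℤ) = Divisor.degree D + 1 - g)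
    (hR : ∀ D : Divisor Qb F, Divisor.degree D + 1 - (g : ℤ) ≤ ell D)
    (hNS : Nd.NonSpecialExists g)
    (t y : F) (ht0 : t ≠ 0) (hy0 : y ≠ 0) (a : A)
    (hta : t - algebraMap Qb F (a : Qb) ≠ 0) (hya : y - algebraMap Qb F (a : Qb) ≠ 0)
    (s : F) (hs : s = (t - algebraMap Qb F (a : Qb))⁻¹ + (y - algebraMap Qb F (a : Qb))⁻¹)
    (hs₁ : s ∈ N.c₁.O) (hs₂ : s ∈ N.c₂.O)
    (x₁ : Fb₁) (x₂ : Fb₂) (hx₁ : IsGen (ResidueField A) x₁)
    [Algebra.IsSeparable (ResidueField A)⟮x₁⟯ Fb₁]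
    (hx₂ : IsGen (ResidueField A) x₂) [Algebra.IsSeparable (ResidueField A)⟮x₂⟯ Fb₂]
    (hρs₁ : haveI := Fermat.Agent.ES.KRON.KronInst10.charP_residueField A hp.out hA
      N.c₁.ρ ⟨s, hs₁⟩ = Rfun p x₁ (residue A a))
    (hρs₂ : haveI := Fermat.Agent.ES.KRON.KronInst10.charP_residueField A hp.out hA
      N.c₂.ρ ⟨s, hs₂⟩ = Rfun p x₂ (residue A a))
    (ha₁ : haveI := Fermat.Agent.ES.KRON.KronInst10.charP_residueField A hp.out hA
      residue A a ∉ badConst p x₁ (Set.finite_range Nd.s1).toFinset)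
    (ha₂ : haveI := Fermat.Agent.ES.KRON.KronInst10.charP_residueField A hp.out hA
      residue A a ∉ badConst p x₂ (Set.finite_range Nd.s2).toFinset)
    (hnum : Divisor.degree (poleDiv H ht0) + Divisor.degree (poleDiv H hy0) ≤
      (1 + (p : ℤ)) * (Divisor.degree (poleDiv H₁ hx₁.ne_zero) +
        Divisor.degree (poleDiv H₂ hx₂.ne_zero)))
    (γ : Iner A → SemilinearAut Qb F)
    (hγK : ∀ (σ : Iner A) (a : Qb), baseAut (γ σ) a = σ • a)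
    (hγs : ∀ σ : Iner A, γ σ • s = s) :
    ∃ (d : ℕ) (Mod : NDiscModel A F g d) (c : Fin d → NPt N)
      (hdegP : ∀ (j : Fin d) (t : A), (Mod.P j t).deg = 1),
      DiscCompat N Mod c ∧ (∀ σ : Iner A, γ σ • Mod.φ = Mod.φ) ∧
      ThetaInjStatement Mod hdegP ∧ ∀ k : ℕ, ThetaSurjStatement N Mod hdegP (p ^ k) := by
  haveI : CharP (ResidueField A) p :=
    Fermat.Agent.ES.KRON.KronInst10.charP_residueField A hp.out hA
  have hā : residue A a ^ p ≠ residue A a := pow_ne_of_notMem_badConst ha₁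
  have hg₁ := isGen_of_eq_Rfun H₁ hx₁ hā hρs₁
  have hg₂ := isGen_of_eq_Rfun H₂ hx₂ hā hρs₂
  haveI := isSeparable_of_eq_Rfun hx₁.transcendental hρs₁
  haveI := isSeparable_of_eq_Rfun hx₂.transcendental hρs₂
  have hbr₁ : ∀ i, 0 ≤ (Nd.s1 i).ord (N.c₁.ρ ⟨s, hs₁⟩) := fun i =>
    ord_nonneg_of_eq_Rfun H₁ hx₁.transcendental ha₁ hρs₁ (Nd.s1 i)
      ((Set.Finite.mem_toFinset _).2 ⟨i, rfl⟩)
  have hbr₂ : ∀ i, 0 ≤ (Nd.s2 i).ord (N.c₂.ρ ⟨s, hs₂⟩) := fun i =>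
    ord_nonneg_of_eq_Rfun H₂ hx₂.transcendental ha₂ hρs₂ (Nd.s2 i)
      ((Set.Finite.mem_toFinset _).2 ⟨i, rfl⟩)
  have hdeg : ∀ (hs0 : s ≠ 0) (hρ₁ : N.c₁.ρ ⟨s, hs₁⟩ ≠ 0) (hρ₂ : N.c₂.ρ ⟨s, hs₂⟩ ≠ 0),
      Divisor.degree (poleDiv H hs0) ≤
        Divisor.degree (poleDiv H₁ hρ₁) + Divisor.degree (poleDiv H₂ hρ₂) :=
    fun hs0 hρ₁ hρ₂ => hdeg_of_le H H₁ H₂ ht0 hy0 (a : Qb) hta hya hs hs0 hx₁.transcendental
      hx₂.transcendental hā hρs₁ hρs₂ hρ₁ hρ₂ hx₁.ne_zero hx₂.ne_zero hnum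
  exact exists_discPackage_of_coordinate N hp.out hA H H₁ H₂ g hRR hR hNS s hs₁ hs₂ hg₁ hg₂
    hbr₁ hbr₂ hdeg γ hγK hγs

end Abstract

/-! ### the instance at `X₀(M'p)` -/

section Instance

open HahnSeries ModularCurve
open Fermat.Agent.RED.Interface4 Fermat.Agent.ES.RED Fermat.Agent.T33.NodalHalf4
  Fermat.Agent.T33.NodalBase4A Fermat.Agent.T33.FrickeRed3 Fermat.Agent.T33.NodalCoord3
  Fermat.Agent.T33.Psi3C

variable {p M' : ℕ} [NeZero M'] [NeZero p] {A : ValuationSubring Qbar}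

set_option maxHeartbeats 1600000 in
/-- **the disc-model package for a nodal reduction of `Fbar (M'p)` with components `c1 h`, `c2 h`**
(as `NodalCoord3.hasConnOrder_Glevel`). -/
theorem exists_discPackage_level (h : LevelHyp p M' A) {ι : Type*} [Finite ι]
    {Nd : NodalData (ResidueField ↥A) (Fb A M') (Fb A M') ι}
    (Nr : NodalRed A ↥(Fbar (M' * p)) Nd) (hc₁ : Nr.c₁ = c1 h) (hc₂ : Nr.c₂ = c2 h)
    (H : LHyp Qb ↥(Fbar (M' * p))) (H₁ H₂ : LHyp (ResidueField ↥A) (Fb A M'))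
    (g : ℕ)
    (hRR : ∀ D : Divisor Qb ↥(Fbar (M' * p)), 2 * (g : ℤ) - 2 < Divisor.degree D →
      (Module.finrank Qb (riemannRochSpace D) : ℤ) = Divisor.degree D + 1 - g)
    (hR : ∀ D : Divisor Qb ↥(Fbar (M' * p)), Divisor.degree D + 1 - (g : ℤ) ≤ ell D)
    (hNS : Nd.NonSpecialExists g) :
    ∃ (d : ℕ) (Mod : NDiscModel A ↥(Fbar (M' * p)) g d) (c : Fin d → NPt Nr)
      (hdegP : ∀ (j : Fin d) (t : A), (Mod.P j t).deg = 1),
      DiscCompat Nr Mod c ∧ (∀ σ : Iner A, gal (M' * p) (σ : GQ) • Mod.φ = Mod.φ) ∧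
      ThetaInjStatement Mod hdegP ∧ ∀ k : ℕ, ThetaSurjStatement Nr Mod hdegP (p ^ k) := by
  haveI : Fact p.Prime := ⟨h.prime⟩
  obtain ⟨a, hfix, ha₁, ha₂⟩ := exists_const h (Set.finite_range Nd.s1).toFinset
    (Set.finite_range Nd.s2).toFinset
  obtain ⟨hs₁, hρs₁⟩ := transport_half hc₁ (sCoord_mem_O1 h a) (rho1_sCoord h a)
  obtain ⟨hs₂, hρs₂⟩ := transport_half hc₂ (sCoord_mem_O2 h a) (rho2_sCoord h a)
  have ht0 : tA h ≠ 0 := (isGen_tA h).ne_zero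
  have hy0 : yA h ≠ 0 := (Fermat.Agent.T33.NodalDegs3.isGen_yA h).ne_zero
  have hnum := Fermat.Agent.T33.NodalDegs3.hnum h H H₁ H₂ ht0 hy0 (isGen_xOne h).ne_zero
    (isGen_xTwo h).ne_zero
  have hγs : ∀ σ : Iner A, gal (M' * p) (σ : GQ) • sCoord h a = sCoord h a :=
    fun σ => gal_smul_sCoord h a (σ : GQ) (hfix _ σ.2)
  exact exists_discPackage_of_Rfun Nr h.liesOver H H₁ H₂ g hRR hR hNS (tA h) (yA h) ht0 hy0 a
    (tA_sub_ne_zero h _) (yA_sub_ne_zero h _) (sCoord h a) rfl hs₁ hs₂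
    (xOne h) (xTwo h) (isGen_xOne h) (isGen_xTwo h) hρs₁ hρs₂ ha₁ ha₂ hnum
    (fun σ : Iner A => gal (M' * p) (σ : GQ)) (fun σ a => rfl) hγs

/-- **THE DISC-MODEL PACKAGE OF `X₀(M'p)`**: no hypothesis left. -/
theorem exists_discPackage (h : LevelHyp p M' A) :
    ∃ (g d : ℕ) (Mod : NDiscModel A ↥(Fbar (M' * p)) g d)
      (c : Fin d → NPt (Fermat.Agent.T33.NodalInst4G.nodalRed h))
      (hdeg : ∀ (j : Fin d) (t : A), (Mod.P j t).deg = 1),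
      DiscCompat (Fermat.Agent.T33.NodalInst4G.nodalRed h) Mod c ∧
      (∀ σ : Iner A, gal (M' * p) (σ : GQ) • Mod.φ = Mod.φ) ∧
      ThetaInjStatement Mod hdeg ∧
      ∀ k : ℕ, ThetaSurjStatement (Fermat.Agent.T33.NodalInst4G.nodalRed h) Mod hdeg (p ^ k) := by
  haveI : Fact p.Prime := ⟨h.prime⟩
  haveI := Fermat.Agent.T33.NodalInst4E.finite_node h
  have hx := Fermat.Agent.T33.NodalBase4A.isGen_tA h
  obtain ⟨d, Mod, c, hdeg, h1, h2, h3, h4⟩ := exists_discPackage_level h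
    (Fermat.Agent.T33.NodalInst4G.nodalRed h) rfl rfl
    (Fermat.Agent.RR.LHypGen.lHyp_of_isGen hx)
    (Fermat.Agent.T33.NodalInst4C.lHypFb h) (Fermat.Agent.T33.NodalInst4C.lHypFb h)
    (genus Qbar ↥(Fbar (M' * p)))
    (fun D hD => Fermat.Agent.RR.RRMain.finrank_L_of_degree_gt hx D hD)
    (fun D => Fermat.Agent.FF.Bridge5.riemann_inequality_genus hx D)
    (Fermat.Agent.T33.NodalInst8.nonSpecialExists h
      (Fermat.Agent.T33.NodalInst4G.hpush₁ h) (Fermat.Agent.T33.NodalInst4G.hpush₂ h))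
  exact ⟨genus Qbar ↥(Fbar (M' * p)), d, Mod, c, hdeg, h1, h2, h3, h4⟩

end Instance

end Fermat.Agent.U44.DiscInst9
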