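/-
Programme U44 (target S44), block (TR), abstract layer (helper3): **coordinates at a smooth point**
of one component of a nodal reduction.

`SmoothCoord R r Q` : a function `y ∈ O` whose reduction has a simple zero at the smooth point
`Q`, with its values `y(P) ∈ 𝔪_A` at the places `P` over `Q`; `P` is the only zero of `y − y(P)`
over `Q`, and it is simple.  This is the one-sided analogue of `Annulus3.AnnCoord`; it is consumed
by `U44/SmoothFactor9`.

`SmoothCoord.ofNoPole` : such a structure exists as soon as `y` has no pole over `Q`
(`T33/NodalDisc8A.SideCtx`: every place over `Q` is a point `discPoint t` of the disc).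
-/
import Mathlib
import Fermat.Agent.U44.GaussRed3
import Fermat.Agent.T33.NodalDisc8A

set_option autoImplicit false

open AlgebraicCurve IsLocalRing

namespace Fermat.Agent.U44.SmoothCoord3

open Fermat.Agent.T33.NodalCtx1 Fermat.Agent.T33.NodalDisc8A Fermat.Agent.X0.FF
  Fermat.Agent.U44.GaussRed3

variable {K : Type*} [Field K] {A : ValuationSubring K}
variable {F : Type*} [Field F] [Algebra K F]
variable {Fb : Type*} [Field Fb] [Algebra (ResidueField A) Fb]

/-- **coordinate at the smooth point `Q`.** -/
structure SmoothCoord (R : HalfRed A F Fb)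
    (r : Place K F → Option (Place (ResidueField A) Fb)) (Q : Place (ResidueField A) Fb) where
  /-- the coordinate. -/
  y : F
  y_mem : y ∈ R.O
  ord_y : Q.ord (red R y) = 1
  /-- the value `y(P)` at a place over `Q` (junk elsewhere). -/
  value : Place K F → K
  value_small : ∀ P, r P = some Q → Small A (value P)
  value_spec : ∀ P, r P = some Q → 0 < P.ord (y - algebraMap K F (value P))
  unique : ∀ P P', r P = some Q → r P' = some Q →
    0 < P'.ord (y - algebraMap K F (value P)) → P' = P
  simple : ∀ P, r P = some Q → P.ord (y - algebraMap K F (value P)) = 1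

namespace SmoothCoord

variable {R : HalfRed A F Fb} {r : Place K F → Option (Place (ResidueField A) Fb)}
  {Q : Place (ResidueField A) Fb} (X : SmoothCoord R r Q)

theorem red_y_ne : red R X.y ≠ 0 := by
  intro h
  have := X.ord_y
  rw [h, Place.ord_zero] at this
  exact zero_ne_one this

theorem y_gu : IsGU R X.y := ⟨X.y_mem, X.red_y_ne⟩

/-- the value at a place is determined by the place. -/
theorem value_eq {P : Place K F} (hP : r P = some Q) {a : K}
    (ha : 0 < P.ord (X.y - algebraMap K F a)) : a = X.value P := by
  by_contra hne
  have h1 := X.value_spec P hP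
  have hc : algebraMap K F (X.value P - a) ≠ 0 := by
    rw [ne_eq, _root_.map_eq_zero, sub_eq_zero]
    exact fun h => hne h.symm
  have e : algebraMap K F (X.value P - a) =
      (X.y - algebraMap K F a) - (X.y - algebraMap K F (X.value P)) := by
    rw [map_sub]; ring
  have h2 := ord_sub_ge P (by rw [← e]; exact hc)
  rw [← e, ord_algebraMap] at h2
  have : 0 < min (P.ord (X.y - algebraMap K F a)) (P.ord (X.y - algebraMap K F (X.value P))) :=
    lt_min ha h1
  omega

end SmoothCoord

/-- **construction from a function without pole over `Q`.** -/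
noncomputable def SmoothCoord.ofNoPole (C : SideCtx A F Fb) (φ : C.O)
    (Pb : Place (ResidueField A) Fb) (hSm : C.Sm Pb) (hPb : Pb.ord (C.ρ φ) = 1)
    (hnp : ∀ P, C.r P = some Pb → 0 ≤ P.ord (φ : F)) : SmoothCoord C.c C.r Pb := by
  classical
  exact
  { y := (φ : F)
    y_mem := φ.2
    ord_y := by
      rw [red_of_mem C.c φ.2]
      exact hPb
    value := fun P => if hP : C.r P = some Pb then
        (((C.exists_eq_discPoint φ Pb hSm hPb hnp P hP).choose : A) : K) else 0
    value_small := by
      intro P hP
      rw [dif_pos hP]
      exact small_of_mem_max (C.exists_eq_discPoint φ Pb hSm hPb hnp P hP).choose_spec.1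
    value_spec := by
      intro P hP
      rw [dif_pos hP]
      obtain ⟨ht, hPt⟩ := (C.exists_eq_discPoint φ Pb hSm hPb hnp P hP).choose_spec
      have h1 := C.ord_discPoint_self φ Pb hSm hPb hnp _ ht
      rw [← hPt] at h1
      rw [h1]
      exact zero_lt_one
    unique := by
      intro P P' hP hP' hpos
      rw [dif_pos hP] at hpos
      obtain ⟨ht, hPt⟩ := (C.exists_eq_discPoint φ Pb hSm hPb hnp P hP).choose_spec
      have := C.eq_discPoint φ Pb hSm hPb hnp _ ht P' hP' hpos
      rw [this]
      exact hPt.symm
    simple := by
      intro P hP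
      rw [dif_pos hP]
      obtain ⟨ht, hPt⟩ := (C.exists_eq_discPoint φ Pb hSm hPb hnp P hP).choose_spec
      have h1 := C.ord_discPoint_self φ Pb hSm hPb hnp _ ht
      rw [← hPt] at h1
      exact h1 }

end Fermat.Agent.U44.SmoothCoord3
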