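/-
Programme U44 (S44), stage 0, block (TR)/instance, SmoothCoord existence, file 3 (helper1):
**inertia-fixed lifts in the two charts of the nodal model of `X₀(M'p)` over `A`.**

`h : LevelHyp p M' A`; `C0A h`, `C1A h` the two charts (`chart ↥A (tA h)^{±1}`), `xOne h = ρ₁ t`,
`xTwo h = W̄ (xOne h)`.

* `gal_smul_alphaA`, `gal_smul_betaA` : the degeneracy maps commute with the coefficientwise Galois
  action;
* `exists_rho0_eq_inert`, `exists_rho0_eq_inv_inert` : (S2) at the good level `M'` with a lift fixed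
  by the inertia group of `A` (from `InertLift1`);
* **`surj₁₀_inert`, `surj₁₁_inert`, `surj₂₀_inert`, `surj₂₁_inert`** : the four surjectivities
  `T33/ChartSurj5.surj_ij` with a lift fixed by inertia: every `f ∈ Fb` integral over
  `κ[x_j^{±1}]` is `ρ_j b` with `b` in the chart and `gal (M'p) τ • b = b` for all `τ` in the
  inertia group.
-/
import Mathlib
import Fermat.Agent.U44.InertLift1
import Fermat.Agent.T33.ChartSurj5

set_option autoImplicit false
set_option linter.unusedSectionVars false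
set_option linter.style.haveILetI false
set_option linter.unusedVariables false
set_option synthInstance.maxHeartbeats 400000

noncomputable section

namespace Fermat.Agent.U44.SmoothInst1

open HahnSeries ModularCurve IntermediateField AlgebraicCurve IsLocalRing
open Fermat.Agent.RED.Interface4 Fermat.Agent.RED.PUR.ChartGeneric22
  Fermat.Agent.RED.BASE.Interface12
  Fermat.Agent.ES.RED
  Fermat.Agent.T33.NodalCtx1 Fermat.Agent.T33.NodalCurve6 Fermat.Agent.T33.NodalPlaces1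
  Fermat.Agent.T33.NodalHalf4 Fermat.Agent.T33.NodalBase4A Fermat.Agent.T33.NodalInst4A
  Fermat.Agent.T33.ChartOK5 Fermat.Agent.T33.FrickeRed3 Fermat.Agent.T33.NodalWit4A
  Fermat.Agent.T33.ChartSurj5 Fermat.Agent.T33.Psi3C
  Fermat.Agent.X0.FF Fermat.Agent.U44.InertLift1 Fermat.Agent.RED.DESC.PlaceExtend27

variable {p M' : ℕ} [NeZero M'] [NeZero p] {A : ValuationSubring Qbar}

/-- shortcut instance. -/
local instance (priority := high) algebraAFbarN1s : Algebra ↥A ↥(Fbar (M' * p)) := inferInstance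

/-- shortcut instance. -/
local instance (priority := high) algebraAFbarM1s : Algebra ↥A ↥(Fbar M') := inferInstance

/-- shortcut instance. -/
local instance (priority := high) algebraKFb1s : Algebra (Setup8.kA A) (Fb A M') := inferInstance

/-! ### the degeneracy maps are rational -/

theorem gal_smul_alphaA (τ : Qbar ≃ₐ[ℚ] Qbar) (x : ↥(Fbar M')) :
    gal (M' * p) τ • alphaA M' p x = alphaA M' p (gal M' τ • x) := by
  apply Subtype.ext
  rw [coe_gal_smul, coe_alphaA, coe_alphaA, coe_gal_smul]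

theorem gal_smul_betaA (τ : Qbar ≃ₐ[ℚ] Qbar) (x : ↥(Fbar M')) :
    gal (M' * p) τ • betaA M' p x = betaA M' p (gal M' τ • x) := by
  apply Subtype.ext
  rw [coe_gal_smul, coe_betaA, coe_betaA, coe_gal_smul,
    Fermat.Agent.ES.RED.ResidueUnion1.coeffMap_qExpand']

variable (h : LevelHyp p M' A)

/-! ### the good level, with inertia-fixed lifts -/

/-- **(S2) at the good level, chart `t`, inertia-fixed lift.** -/
theorem exists_rho0_eq_inert (f : Fb A M')
    (hf : IsIntegral (polyRing (Setup8.kA A) (xOne h)) f) :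
    ∃ y : ↥(Ov0 h), (y : ↥(Fbar M')) ∈ chart ↥A (tM h) ∧ rho0 h y = f ∧
      ∀ τ ∈ A.inertiaSubgroupIn ℚ, gal M' τ • (y : ↥(Fbar M')) = (y : ↥(Fbar M')) := by
  have hint := Fermat.Agent.FF.ChartInst7.isIntegral_coe_of_mem_chart _ hf
  obtain ⟨K, hKfd, hKin, b, Y, hbc, hY, hred⟩ :=
    exists_inertial_lift A Fermat.Agent.RED.BASE.Hauptmodul12.baseHyp_four h.four_dvd h.prime
      h.not_dvd h.liesOver _ (Fermat.Agent.RED.BASE.MainCusp12.base_four M' h.four_dvd).2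
      (tMemM h) f.2 hint
  have hg : baseChangeHom M' K b ∈ Setup8.gaussA A (Fbar M') := ⟨Y, hY⟩
  refine ⟨⟨baseChangeHom M' K b, gaussA_mem_Ov0 h ⟨_, hg⟩⟩, hbc, ?_, fun τ hτ => ?_⟩
  · apply Subtype.ext
    rw [coe_rho0_gaussA h ⟨_, hg⟩, Setup8.redA_eq A (Fbar M') ⟨_, hg⟩ hY]
    exact hred
  · exact gal_smul_baseChangeHom A hKin.inertFixed hτ b

/-- **(S2) at the good level, chart `t⁻¹`, inertia-fixed lift.** -/
theorem exists_rho0_eq_inv_inert (f : Fb A M')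
    (hf : IsIntegral (polyRing (Setup8.kA A) (xOne h)⁻¹) f) :
    ∃ y : ↥(Ov0 h), (y : ↥(Fbar M')) ∈ chart ↥A (tM h)⁻¹ ∧ rho0 h y = f ∧
      ∀ τ ∈ A.inertiaSubgroupIn ℚ, gal M' τ • (y : ↥(Fbar M')) = (y : ↥(Fbar M')) := by
  have hint := Fermat.Agent.FF.ChartInst7.isIntegral_coe_of_mem_chart _ hf
  have hcoe : (((xOne h)⁻¹ : Fb A M') : LaurentSeries (Setup8.kA A)) =
      (Fermat.Agent.RED.BASE.EtaQuot12.tq (Setup8.kA A) 4 8)⁻¹ := by
    push_cast
    rw [coe_xOne]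
  rw [hcoe] at hint
  obtain ⟨K, hKfd, hKin, b, Y, hbc, hY, hred⟩ :=
    exists_inertial_lift_inv A Fermat.Agent.RED.BASE.Hauptmodul12.baseHyp_four h.four_dvd h.prime
      h.not_dvd h.liesOver _ (Fermat.Agent.RED.BASE.MainCusp12.base_four M' h.four_dvd).2
      (tMemM h) f.2 hint
  have hg : baseChangeHom M' K b ∈ Setup8.gaussA A (Fbar M') := ⟨Y, hY⟩
  refine ⟨⟨baseChangeHom M' K b, gaussA_mem_Ov0 h ⟨_, hg⟩⟩, hbc, ?_, fun τ hτ => ?_⟩
  · apply Subtype.ext
    rw [coe_rho0_gaussA h ⟨_, hg⟩, Setup8.redA_eq A (Fbar M') ⟨_, hg⟩ hY]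
    exact hred
  · exact gal_smul_baseChangeHom A hKin.inertFixed hτ b

/-! ### the four surjectivities, with inertia-fixed lifts -/

/-- **`surj₁₀` with an inertia-fixed lift.** -/
theorem surj₁₀_inert (f : Fb A M') (hf : IsIntegral (polyRing (Setup8.kA A) (xOne h)) f) :
    ∃ b : (C0A h).B, (C0A h).ρ₁ b = f ∧ ∀ τ ∈ A.inertiaSubgroupIn ℚ,
      gal (M' * p) τ • (b : ↥(Fbar (M' * p))) = (b : ↥(Fbar (M' * p))) := by
  obtain ⟨y, hy, hρ, hfix⟩ := exists_rho0_eq_inert h f hf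
  refine ⟨⟨alphaA M' p (y : ↥(Fbar M')), alphaA_mem_chart h hy⟩, (rho1_alphaA h y).trans hρ,
    fun τ hτ => ?_⟩
  show gal (M' * p) τ • alphaA M' p (y : ↥(Fbar M')) = alphaA M' p (y : ↥(Fbar M'))
  rw [gal_smul_alphaA, hfix τ hτ]

/-- **`surj₁₁` with an inertia-fixed lift.** -/
theorem surj₁₁_inert (f : Fb A M') (hf : IsIntegral (polyRing (Setup8.kA A) (xOne h)⁻¹) f) :
    ∃ b : (C1A h).B, (C1A h).ρ₁ b = f ∧ ∀ τ ∈ A.inertiaSubgroupIn ℚ,
      gal (M' * p) τ • (b : ↥(Fbar (M' * p))) = (b : ↥(Fbar (M' * p))) := by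
  obtain ⟨y, hy, hρ, hfix⟩ := exists_rho0_eq_inv_inert h f hf
  refine ⟨⟨alphaA M' p (y : ↥(Fbar M')), alphaA_mem_chart_inv h hy⟩,
    (rho1_alphaA h y).trans hρ, fun τ hτ => ?_⟩
  show gal (M' * p) τ • alphaA M' p (y : ↥(Fbar M')) = alphaA M' p (y : ↥(Fbar M'))
  rw [gal_smul_alphaA, hfix τ hτ]

/-- **`surj₂₀` with an inertia-fixed lift.** -/
theorem surj₂₀_inert (f : Fb A M') (hf : IsIntegral (polyRing (Setup8.kA A) (xTwo h)) f) :
    ∃ b : (C0A h).B, (C0A h).ρ₂ b = f ∧ ∀ τ ∈ A.inertiaSubgroupIn ℚ,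
      gal (M' * p) τ • (b : ↥(Fbar (M' * p))) = (b : ↥(Fbar (M' * p))) := by
  obtain ⟨y, hy, hρ, hfix⟩ :=
    exists_rho0_eq_inert h _ (Wb_symm_isIntegral h (xOne h) f hf)
  refine ⟨⟨betaA M' p (y : ↥(Fbar M')), betaA_mem_chart h hy⟩, ?_, fun τ hτ => ?_⟩
  · refine (rho2_betaA h y).trans ?_
    rw [hρ, AlgEquiv.apply_symm_apply]
  · show gal (M' * p) τ • betaA M' p (y : ↥(Fbar M')) = betaA M' p (y : ↥(Fbar M'))
    rw [gal_smul_betaA, hfix τ hτ]

/-- **`surj₂₁` with an inertia-fixed lift.** -/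
theorem surj₂₁_inert (f : Fb A M') (hf : IsIntegral (polyRing (Setup8.kA A) (xTwo h)⁻¹) f) :
    ∃ b : (C1A h).B, (C1A h).ρ₂ b = f ∧ ∀ τ ∈ A.inertiaSubgroupIn ℚ,
      gal (M' * p) τ • (b : ↥(Fbar (M' * p))) = (b : ↥(Fbar (M' * p))) := by
  have hf' : IsIntegral (polyRing (Setup8.kA A) (Wb h (xOne h)⁻¹)) f := by
    rw [map_inv₀]; exact hf
  obtain ⟨y, hy, hρ, hfix⟩ :=
    exists_rho0_eq_inv_inert h _ (Wb_symm_isIntegral h (xOne h)⁻¹ f hf')
  refine ⟨⟨betaA M' p (y : ↥(Fbar M')), betaA_mem_chart_inv h hy⟩, ?_, fun τ hτ => ?_⟩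
  · refine (rho2_betaA h y).trans ?_
    rw [hρ, AlgEquiv.apply_symm_apply]
  · show gal (M' * p) τ • betaA M' p (y : ↥(Fbar M')) = betaA M' p (y : ↥(Fbar M'))
    rw [gal_smul_betaA, hfix τ hτ]

end Fermat.Agent.U44.SmoothInst1
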