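/-
Programme U44 (S44), stage 0, block (TR)/instance, SmoothCoord existence, file 4 (helper1):
**inertia-fixed coordinates at the smooth points of the two components of the nodal model of
`X₀(M'p)` over `A`.**

`h : LevelHyp p M' A`, `nodalRed h` the nodal reduction context of `T33/NodalInst4G`.

* `exists_chart_simple` (abstract) : at a one-branch point `X` of a chart with `PointData X Q`
  there is an element of the chart whose reduction has a simple zero at `Q`;
* `exists_coord₁`, `exists_coord₂` : for a place `Q` of the component `C_i` whose fibre avoids the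
  other component there is `y` in the Gauss ring `O_i` with `ord_Q (ρ_i y) = 1`, without pole at
  the places over `Q`, and fixed by the inertia group of `A`
  (`NodalPts4B.fibre_i` + `PushWire5.pointData_i` + `SmoothInst1.surj_ij_inert`);
* **`exists_smoothCoord₁`, `exists_smoothCoord₂`** : `U44/SmoothCoord3.SmoothCoord` at every smooth
  point of `nodalRed h`, with `gal (M'p) σ • Y.y = Y.y` for every `σ` in the inertia group
  (`SmoothCoord.ofNoPole`), in the shape of the hypotheses `Y₁ hY₁ Y₂ hY₂` of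
  `U44/TRFinal3.tr_abstract`;
* `smoothCoord₁`, `smoothCoord₂`, `gal_smul_smoothCoord₁_y`, `gal_smul_smoothCoord₂_y` : the same as
  (noncomputable) functions of the smooth point.
-/
import Mathlib
import Fermat.Agent.U44.SmoothInst1
import Fermat.Agent.U44.SmoothCoord3
import Fermat.Agent.T33.NodalInst4G
import Fermat.Agent.T33.NodalDisc8B

set_option autoImplicit false
set_option linter.unusedSectionVars false
set_option linter.style.haveILetI false
set_option linter.unusedVariables false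
set_option synthInstance.maxHeartbeats 400000

noncomputable section

namespace Fermat.Agent.U44.SmoothCoordInst1

open HahnSeries ModularCurve IntermediateField AlgebraicCurve IsLocalRing
open Fermat.Agent.RED.Interface4 Fermat.Agent.RED.PUR.ChartGeneric22
  Fermat.Agent.ES.RED
  Fermat.Agent.T33.NodalCtx1 Fermat.Agent.T33.NodalCurve6 Fermat.Agent.T33.NodalPlaces1
  Fermat.Agent.T33.NodalHalf4 Fermat.Agent.T33.NodalBase4A Fermat.Agent.T33.NodalInst4A
  Fermat.Agent.T33.NodalInst4C Fermat.Agent.T33.NodalInst4E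
  Fermat.Agent.T33.PushLoc9 Fermat.Agent.T33.NodalAbs1B Fermat.Agent.T33.GlueWire5
  Fermat.Agent.T33.LocalReg5B Fermat.Agent.T33.LocalReg5C Fermat.Agent.T33.FrickeRed3
  Fermat.Agent.T33.PushWire5 Fermat.Agent.T33.ChartOK5 Fermat.Agent.T33.ChartSurj5
  Fermat.Agent.T33.Psi3C Fermat.Agent.FF.InertiaWire8
  Fermat.Agent.ES.N34.ModelN4
  Fermat.Agent.RR.LSpace Fermat.Agent.X0.FF
  Fermat.Agent.U44.SmoothInst1 Fermat.Agent.U44.SmoothCoord3

/-! ### abstract step -/

section Abstract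

variable {K : Type*} [Field K] {A : ValuationSubring K}
variable {F : Type*} [Field F] [Algebra K F]
variable {Fb : Type*} [Field Fb] [Algebra (ResidueField A) Fb]

/-- at a one-branch point with `PointData` there is an element of the chart whose reduction has a
simple zero at `Q`. -/
theorem exists_chart_simple {c : HalfRed A F Fb} (X : PointChart c)
    (Q : Place (ResidueField A) Fb) (D : PointData X Q) (hV : ValueCompat X Q)
    (hne : X.S.Nonempty) :
    ∃ a : X.B₀, Q.ord (c.ρ ⟨(a : F), X.le a.2⟩) = 1 := by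
  obtain ⟨P₀, hP₀⟩ := hne
  obtain ⟨u, -, hu0, hu1, -⟩ := D.peelA P₀ hP₀
  obtain ⟨a, d, hd, hud, -⟩ := Fermat.Agent.FF.GaussOv1.exists_num_den X.B₀ X.χ u
  have hmul := X.ρx_mul_eq u a d hud
  obtain ⟨hρd, hordd⟩ := hV.ord_eq_zero d hd
  refine ⟨a, ?_⟩
  rw [← hmul, Q.ord_mul hu0 hρd, hu1, hordd, add_zero]

end Abstract

variable {p M' : ℕ} [NeZero M'] [NeZero p] {A : ValuationSubring Qbar}

/-- shortcut instance. -/
local instance (priority := high) algebraAFbarN1c : Algebra ↥A ↥(Fbar (M' * p)) := inferInstance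

/-- shortcut instance. -/
local instance (priority := high) algebraKFb1c : Algebra (Setup8.kA A) (Fb A M') := inferInstance

variable (h : LevelHyp p M' A)

/-! ### the raw coordinates -/

/-- **a coordinate at a one-branch point of the first component, fixed by inertia.** -/
theorem exists_coord₁ (Q : Place (Setup8.kA A) (Fb A M'))
    (hsm : ∀ P : Place Qbar ↥(Fbar (M' * p)), (T h).rawRed.r₁ P = some Q →
      (T h).rawRed.r₂ P = none) :
    ∃ (y : ↥(Fbar (M' * p))) (hy : y ∈ (c1 h).O), Q.ord ((c1 h).ρ ⟨y, hy⟩) = 1 ∧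
      (∀ P : Place Qbar ↥(Fbar (M' * p)), (T h).rawRed.r₁ P = some Q → 0 ≤ P.ord y) ∧
      ∀ τ ∈ A.inertiaSubgroupIn ℚ, gal (M' * p) τ • y = y := by
  have H := lHyp h
  have hs : (inp h).twoCharts.C1.ρ₁ (inp h).twoCharts.s1 = ((inp h).x₁⁻¹) ^ 1 := by
    rw [pow_one]
    exact Fermat.Agent.T33.ChartInt5.rho1_tA_inv h _
  rcases Fermat.Agent.T33.NodalPts4B.fibre₁ (inp h).twoCharts (inp h).gen₁ (inp h).int₁₀
      (inp h).int₁₁ one_pos hs Q with ⟨χ, hv, -⟩ | ⟨χ, hχ, hv, -⟩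
  · have hon := (inp h).twoCharts.C0.on₁_of_val₁ hv
    have hoff := not_on₂_of_sm₀ (inp h).twoCharts (hex₀ (inp h)) hv hsm
    have D := pointData₁ h (transcendental_tA h) (large_chartModel_zero h (tA h) (coe_tA h))
      (Fermat.Agent.T33.PushAsm1.hasLevels₁_zero h) (inp h).twoCharts.C0 (inp h).hB0
      (hex₀ (inp h)) χ hon Q hv hoff
    have hV := valueCompat₁ (inp h).twoCharts.C0 χ hon Q hv
    obtain ⟨P₀, hP₀⟩ := hex₀ (inp h) χ
    obtain ⟨a, ha⟩ := exists_chart_simple _ Q D hV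
      ⟨P₀, (mem_S₁_iff H (inp h).twoCharts.C0 χ hon P₀).2 hP₀⟩
    obtain ⟨b, hb, hfix⟩ := surj₁₀_inert h _ (Fermat.Agent.T33.ChartInt5.int₁₀ h a)
    refine ⟨(b : ↥(Fbar (M' * p))), (C0A h).le₁ b.2, ?_, fun P hP => ?_, hfix⟩
    · have e : (c1 h).ρ ⟨(b : ↥(Fbar (M' * p))), (C0A h).le₁ b.2⟩ = (C0A h).ρ₁ b := rfl
      rw [e, hb]
      exact ha
    · have hc : (inp h).twoCharts.C0.Centred P χ :=
        (((inp h).twoCharts.r₁_eq_some_iff₀ hv P).1 hP).2
      have hPS := (mem_S₁_iff H (inp h).twoCharts.C0 χ hon P).2 hc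
      exact (pointChart₁ (inp h).twoCharts.C0 χ hon).ord_nonneg hPS
        ((pointChart₁ (inp h).twoCharts.C0 χ hon).B₀_le_Bx b.2)
  · have hon := (inp h).twoCharts.C1.on₁_of_val₁ hv
    have hoff := not_on₂_of_sm₁ (inp h).twoCharts (hex₁ (inp h)) hχ hv hsm
    have D := pointData₁ h (transcendental_tA_inv h)
      (large_chartModel_one h (tA h) (coe_tA h))
      (Fermat.Agent.T33.PushAsm1.hasLevels₁_one h) (inp h).twoCharts.C1 (inp h).hB1
      (hex₁ (inp h)) χ hon Q hv hoff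
    have hV := valueCompat₁ (inp h).twoCharts.C1 χ hon Q hv
    obtain ⟨P₀, hP₀⟩ := hex₁ (inp h) χ
    obtain ⟨a, ha⟩ := exists_chart_simple _ Q D hV
      ⟨P₀, (mem_S₁_iff H (inp h).twoCharts.C1 χ hon P₀).2 hP₀⟩
    obtain ⟨b, hb, hfix⟩ := surj₁₁_inert h _ (Fermat.Agent.T33.ChartInt5.int₁₁ h a)
    refine ⟨(b : ↥(Fbar (M' * p))), (C1A h).le₁ b.2, ?_, fun P hP => ?_, hfix⟩
    · have e : (c1 h).ρ ⟨(b : ↥(Fbar (M' * p))), (C1A h).le₁ b.2⟩ = (C1A h).ρ₁ b := rfl
      rw [e, hb]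
      exact ha
    · have hc : (inp h).twoCharts.C1.Centred P χ :=
        (((inp h).twoCharts.r₁_eq_some_iff₁ hχ hv P).1 hP).2
      have hPS := (mem_S₁_iff H (inp h).twoCharts.C1 χ hon P).2 hc
      exact (pointChart₁ (inp h).twoCharts.C1 χ hon).ord_nonneg hPS
        ((pointChart₁ (inp h).twoCharts.C1 χ hon).B₀_le_Bx b.2)

/-- **a coordinate at a one-branch point of the second component, fixed by inertia.** -/
theorem exists_coord₂ (Q : Place (Setup8.kA A) (Fb A M'))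
    (hsm : ∀ P : Place Qbar ↥(Fbar (M' * p)), (T h).rawRed.r₂ P = some Q →
      (T h).rawRed.r₁ P = none) :
    ∃ (y : ↥(Fbar (M' * p))) (hy : y ∈ (c2 h).O), Q.ord ((c2 h).ρ ⟨y, hy⟩) = 1 ∧
      (∀ P : Place Qbar ↥(Fbar (M' * p)), (T h).rawRed.r₂ P = some Q → 0 ≤ P.ord y) ∧
      ∀ τ ∈ A.inertiaSubgroupIn ℚ, gal (M' * p) τ • y = y := by
  have H := lHyp h
  have hs : (inp h).twoCharts.C1.ρ₂ (inp h).twoCharts.s1 = ((inp h).x₂⁻¹) ^ p :=
    Fermat.Agent.T33.ChartInt5.rho2_tA_inv h _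
  rcases Fermat.Agent.T33.NodalPts4B.fibre₂ (inp h).twoCharts (inp h).gen₂ (inp h).int₂₀
      (inp h).int₂₁ (Nat.pos_of_ne_zero (NeZero.ne p)) hs Q with ⟨χ, hv, -⟩ | ⟨χ, hχ, hv, -⟩
  · have hon := (inp h).twoCharts.C0.on₂_of_val₂ hv
    have hoff := not_on₁_of_sm₀ (inp h).twoCharts (hex₀ (inp h)) hv hsm
    have D := pointData₂ h (transcendental_tA h) (large_chartModel_zero h (tA h) (coe_tA h))
      (Fermat.Agent.T33.PushAsm1.hasLevels₂_zero h) (inp h).twoCharts.C0 (inp h).hB0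
      (hex₀ (inp h)) χ hon Q hv hoff
    have hV := valueCompat₂ (inp h).twoCharts.C0 χ hon Q hv
    obtain ⟨P₀, hP₀⟩ := hex₀ (inp h) χ
    obtain ⟨a, ha⟩ := exists_chart_simple _ Q D hV
      ⟨P₀, (mem_S₂_iff H (inp h).twoCharts.C0 χ hon P₀).2 hP₀⟩
    obtain ⟨b, hb, hfix⟩ := surj₂₀_inert h _ (Fermat.Agent.T33.ChartInt5.int₂₀ h a)
    refine ⟨(b : ↥(Fbar (M' * p))), (C0A h).le₂ b.2, ?_, fun P hP => ?_, hfix⟩
    · have e : (c2 h).ρ ⟨(b : ↥(Fbar (M' * p))), (C0A h).le₂ b.2⟩ = (C0A h).ρ₂ b := rfl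
      rw [e, hb]
      exact ha
    · have hc : (inp h).twoCharts.C0.Centred P χ :=
        (((inp h).twoCharts.r₂_eq_some_iff₀ hv P).1 hP).2
      have hPS := (mem_S₂_iff H (inp h).twoCharts.C0 χ hon P).2 hc
      exact (pointChart₂ (inp h).twoCharts.C0 χ hon).ord_nonneg hPS
        ((pointChart₂ (inp h).twoCharts.C0 χ hon).B₀_le_Bx b.2)
  · have hon := (inp h).twoCharts.C1.on₂_of_val₂ hv
    have hoff := not_on₁_of_sm₁ (inp h).twoCharts (hex₁ (inp h)) hχ hv hsm
    have D := pointData₂ h (transcendental_tA_inv h)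
      (large_chartModel_one h (tA h) (coe_tA h))
      (Fermat.Agent.T33.PushAsm1.hasLevels₂_one h) (inp h).twoCharts.C1 (inp h).hB1
      (hex₁ (inp h)) χ hon Q hv hoff
    have hV := valueCompat₂ (inp h).twoCharts.C1 χ hon Q hv
    obtain ⟨P₀, hP₀⟩ := hex₁ (inp h) χ
    obtain ⟨a, ha⟩ := exists_chart_simple _ Q D hV
      ⟨P₀, (mem_S₂_iff H (inp h).twoCharts.C1 χ hon P₀).2 hP₀⟩
    obtain ⟨b, hb, hfix⟩ := surj₂₁_inert h _ (Fermat.Agent.T33.ChartInt5.int₂₁ h a)
    refine ⟨(b : ↥(Fbar (M' * p))), (C1A h).le₂ b.2, ?_, fun P hP => ?_, hfix⟩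
    · have e : (c2 h).ρ ⟨(b : ↥(Fbar (M' * p))), (C1A h).le₂ b.2⟩ = (C1A h).ρ₂ b := rfl
      rw [e, hb]
      exact ha
    · have hc : (inp h).twoCharts.C1.Centred P χ :=
        (((inp h).twoCharts.r₂_eq_some_iff₁ hχ hv P).1 hP).2
      have hPS := (mem_S₂_iff H (inp h).twoCharts.C1 χ hon P).2 hc
      exact (pointChart₂ (inp h).twoCharts.C1 χ hon).ord_nonneg hPS
        ((pointChart₂ (inp h).twoCharts.C1 χ hon).B₀_le_Bx b.2)

/-! ### `SmoothCoord` at the smooth points of `nodalRed h` -/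

/-- **`SmoothCoord` at every smooth point of the first component, fixed by inertia.** -/
theorem exists_smoothCoord₁ (Q : Place (Setup8.kA A) (Fb A M'))
    (hQ : (Nd h).Smooth1 Q) :
    ∃ Y : SmoothCoord (Fermat.Agent.T33.NodalInst4G.nodalRed h).c₁
        (Fermat.Agent.T33.NodalInst4G.nodalRed h).r₁ Q,
      ∀ τ ∈ A.inertiaSubgroupIn ℚ, gal (M' * p) τ • Y.y = Y.y := by
  have hsm : ∀ P : Place Qbar ↥(Fbar (M' * p)), (T h).rawRed.r₁ P = some Q →
      (T h).rawRed.r₂ P = none :=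
    fun P hP => (Fermat.Agent.T33.NodalInst4G.nodalRed h).smooth₁ P Q hP hQ
  obtain ⟨y, hy, hord, hnp, hfix⟩ := exists_coord₁ h Q hsm
  exact ⟨SmoothCoord.ofNoPole
    (Fermat.Agent.T33.NodalDisc8B.sideCtx₁ (Fermat.Agent.T33.NodalInst4G.nodalRed h) (lHyp h))
    ⟨y, hy⟩ Q hQ hord hnp, hfix⟩

/-- **`SmoothCoord` at every smooth point of the second component, fixed by inertia.** -/
theorem exists_smoothCoord₂ (Q : Place (Setup8.kA A) (Fb A M'))
    (hQ : (Nd h).Smooth2 Q) :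
    ∃ Y : SmoothCoord (Fermat.Agent.T33.NodalInst4G.nodalRed h).c₂
        (Fermat.Agent.T33.NodalInst4G.nodalRed h).r₂ Q,
      ∀ τ ∈ A.inertiaSubgroupIn ℚ, gal (M' * p) τ • Y.y = Y.y := by
  have hsm : ∀ P : Place Qbar ↥(Fbar (M' * p)), (T h).rawRed.r₂ P = some Q →
      (T h).rawRed.r₁ P = none :=
    fun P hP => (Fermat.Agent.T33.NodalInst4G.nodalRed h).smooth₂ P Q hP hQ
  obtain ⟨y, hy, hord, hnp, hfix⟩ := exists_coord₂ h Q hsm
  exact ⟨SmoothCoord.ofNoPole
    (Fermat.Agent.T33.NodalDisc8B.sideCtx₂ (Fermat.Agent.T33.NodalInst4G.nodalRed h) (lHyp h))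
    ⟨y, hy⟩ Q hQ hord hnp, hfix⟩

/-! ### as functions of the smooth point (the hypotheses `Y₁ hY₁ Y₂ hY₂` of `TRFinal3`) -/

/-- the chosen coordinate at a smooth point of the first component. -/
def smoothCoord₁ (Q : Place (Setup8.kA A) (Fb A M')) (hQ : (Nd h).Smooth1 Q) :
    SmoothCoord (Fermat.Agent.T33.NodalInst4G.nodalRed h).c₁
      (Fermat.Agent.T33.NodalInst4G.nodalRed h).r₁ Q :=
  (exists_smoothCoord₁ h Q hQ).choose

/-- the chosen coordinate at a smooth point of the second component. -/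
def smoothCoord₂ (Q : Place (Setup8.kA A) (Fb A M')) (hQ : (Nd h).Smooth2 Q) :
    SmoothCoord (Fermat.Agent.T33.NodalInst4G.nodalRed h).c₂
      (Fermat.Agent.T33.NodalInst4G.nodalRed h).r₂ Q :=
  (exists_smoothCoord₂ h Q hQ).choose

theorem gal_smul_smoothCoord₁_y (Q : Place (Setup8.kA A) (Fb A M')) (hQ : (Nd h).Smooth1 Q)
    (σ : Iner A) :
    gal (M' * p) (σ : GQ) • (smoothCoord₁ h Q hQ).y = (smoothCoord₁ h Q hQ).y :=
  (exists_smoothCoord₁ h Q hQ).choose_spec _ σ.2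

theorem gal_smul_smoothCoord₂_y (Q : Place (Setup8.kA A) (Fb A M')) (hQ : (Nd h).Smooth2 Q)
    (σ : Iner A) :
    gal (M' * p) (σ : GQ) • (smoothCoord₂ h Q hQ).y = (smoothCoord₂ h Q hQ).y :=
  (exists_smoothCoord₂ h Q hQ).choose_spec _ σ.2

end Fermat.Agent.U44.SmoothCoordInst1
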