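/-
Programme U44 (target S44), block (TR), abstract layer (helper3): **second-order calculus** on one
side of a nodal reduction context.

`τ` is a semilinear automorphism of `F/K` compatible with the Gauss ring `R.O` and trivial after
reduction (`SideCompat`), `ε ∈ 𝔪_A` a nonzero constant (the depth at which `τ` moves the
uniformiser of the wild extension `L`).

* `SmallMove R τ ε y` : `τ y − y ∈ ε 𝔪_A O`; closed under sums, products, inverses of Gauss units;
  contains the `τ`-fixed functions and the constants `c` with `(τ c − c)/ε ∈ 𝔪_A`;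
* `Near R ε Λ j` : `Λ = 1 + ε r`, `r ∈ O`, `ρ r = j` (“`Λ ≡ 1 + j ε`”); multiplicative in `Λ`,
  additive in `j`; `SmallMove.near` : `τ y / y` is `Near … 0` for a Gauss unit `y` which moves little;
* `red_div_near` : if `g = 1 + c y` (`y ∈ O`), `ε = c e` (`e ∈ A`) and `Λ` is `Near ε j` then
  `g / Λ = 1 + c y''` with `y'' ∈ O` and `ρ y'' = ρ y − ē j`.
-/
import Mathlib
import Fermat.Agent.U44.GaussRed3

set_option autoImplicit false

open AlgebraicCurve IsLocalRing

namespace Fermat.Agent.U44.Second3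

open Fermat.Agent.T33.NodalCtx1 Fermat.Agent.T33.NodalAbs1A Fermat.Agent.U44.GaussRed3

variable {K : Type*} [Field K] {A : ValuationSubring K}
variable {F : Type*} [Field F] [Algebra K F]
variable {Fb : Type*} [Field Fb] [Algebra (ResidueField A) Fb]

/-- `τ` preserves the Gauss ring and is trivial after reduction. -/
structure SideCompat (R : HalfRed A F Fb) (τ : SemilinearAut K F) : Prop where
  smul_mem : ∀ y : F, y ∈ R.O → τ • y ∈ R.O
  red_smul : ∀ y : F, y ∈ R.O → red R (τ • y) = red R y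

/-- `τ y − y ∈ ε 𝔪_A O`. -/
def SmallMove (R : HalfRed A F Fb) (τ : SemilinearAut K F) (ε : K) (y : F) : Prop :=
  ∃ r : F, r ∈ R.O ∧ red R r = 0 ∧ τ • y - y = algebraMap K F ε * r

variable {R : HalfRed A F Fb} {τ : SemilinearAut K F} {ε : K}

theorem smallMove_of_fixed {y : F} (h : τ • y = y) : SmallMove R τ ε y :=
  ⟨0, R.O.zero_mem, red_zero R, by rw [h, sub_self, mul_zero]⟩

theorem SmallMove.add {x y : F} (hx : SmallMove R τ ε x) (hy : SmallMove R τ ε y) :
    SmallMove R τ ε (x + y) := by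
  obtain ⟨r, hr, hr0, e⟩ := hx
  obtain ⟨s, hs, hs0, e'⟩ := hy
  refine ⟨r + s, R.O.add_mem hr hs, by rw [red_add R hr hs, hr0, hs0, add_zero], ?_⟩
  rw [smul_add, mul_add, ← e, ← e']
  ring

theorem SmallMove.neg {x : F} (hx : SmallMove R τ ε x) : SmallMove R τ ε (-x) := by
  obtain ⟨r, hr, hr0, e⟩ := hx
  refine ⟨-r, R.O.neg_mem hr, by rw [red_neg R hr, hr0, neg_zero], ?_⟩
  rw [smul_neg, mul_neg, ← e]
  ring

theorem SmallMove.sub {x y : F} (hx : SmallMove R τ ε x) (hy : SmallMove R τ ε y) :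
    SmallMove R τ ε (x - y) := by
  rw [sub_eq_add_neg]
  exact hx.add hy.neg

theorem SmallMove.mul (hc : SideCompat R τ) {x y : F} (hxO : x ∈ R.O) (hyO : y ∈ R.O)
    (hx : SmallMove R τ ε x) (hy : SmallMove R τ ε y) : SmallMove R τ ε (x * y) := by
  obtain ⟨r, hr, hr0, e⟩ := hx
  obtain ⟨s, hs, hs0, e'⟩ := hy
  have hτx : τ • x ∈ R.O := hc.smul_mem x hxO
  refine ⟨τ • x * s + r * y, R.O.add_mem (R.O.mul_mem hτx hs) (R.O.mul_mem hr hyO), ?_, ?_⟩
  · rw [red_add R (R.O.mul_mem hτx hs) (R.O.mul_mem hr hyO), red_mul R hτx hs, red_mul R hr hyO,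
      hr0, hs0, mul_zero, zero_mul, add_zero]
  · have : τ • (x * y) - x * y = τ • x * (τ • y - y) + (τ • x - x) * y := by
      rw [smul_mul']; ring
    rw [this, e, e']
    ring

theorem smallMove_one : SmallMove R τ ε (1 : F) := smallMove_of_fixed (smul_one τ)

theorem SmallMove.pow (hc : SideCompat R τ) {x : F} (hxO : x ∈ R.O) (hx : SmallMove R τ ε x)
    (n : ℕ) : SmallMove R τ ε (x ^ n) := by
  induction n with
  | zero => rw [pow_zero]; exact smallMove_one
  | succ n ih => rw [pow_succ]; exact ih.mul hc (R.O.pow_mem hxO n) hxO hx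

/-- a constant times a fixed function of `O` moves little if the constant does. -/
theorem smallMove_const_mul {c s : K} (hs : Small A s)
    (hcs : SemilinearAut.baseAut τ c - c = ε * s) {t : F} (ht : t ∈ R.O) (hfix : τ • t = t) :
    SmallMove R τ ε (algebraMap K F c * t) := by
  refine ⟨algebraMap K F s * t, R.O.mul_mem (const_mem R hs.1) ht, red_small_mul hs ht, ?_⟩
  rw [smul_mul', SemilinearAut.smul_algebraMap, hfix, ← sub_mul, ← map_sub, hcs, map_mul]
  ring

theorem smallMove_const {c s : K} (hs : Small A s)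
    (hcs : SemilinearAut.baseAut τ c - c = ε * s) : SmallMove R τ ε (algebraMap K F c) := by
  have := smallMove_const_mul (R := R) hs hcs R.O.one_mem (smul_one τ)
  rwa [mul_one] at this

theorem SmallMove.sum {α : Type*} (T : Finset α) (g : α → F)
    (h : ∀ i ∈ T, SmallMove R τ ε (g i)) : SmallMove R τ ε (∑ i ∈ T, g i) := by
  classical
  induction T using Finset.induction_on with
  | empty =>
    rw [Finset.sum_empty]
    exact smallMove_of_fixed (smul_zero τ)
  | insert a T ha ih =>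
    rw [Finset.sum_insert ha]
    exact (h a (Finset.mem_insert_self a T)).add
      (ih fun i hi => h i (Finset.mem_insert_of_mem hi))

theorem SideCompat.isGU (hc : SideCompat R τ) {y : F} (hy : IsGU R y) : IsGU R (τ • y) :=
  ⟨hc.smul_mem y hy.1, by rw [hc.red_smul y hy.1]; exact hy.2⟩

theorem SmallMove.inv (hc : SideCompat R τ) {y : F} (hy : IsGU R y) (h : SmallMove R τ ε y) :
    SmallMove R τ ε y⁻¹ := by
  obtain ⟨r, hr, hr0, e⟩ := h
  have hτy : IsGU R (τ • y) := hc.isGU hy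
  have hm : -(r * (y⁻¹ * (τ • y)⁻¹)) ∈ R.O :=
    R.O.neg_mem (R.O.mul_mem hr (R.O.mul_mem hy.inv_mem hτy.inv_mem))
  refine ⟨-(r * (y⁻¹ * (τ • y)⁻¹)), hm, ?_, ?_⟩
  · rw [red_neg R (R.O.mul_mem hr (R.O.mul_mem hy.inv_mem hτy.inv_mem)),
      red_mul R hr (R.O.mul_mem hy.inv_mem hτy.inv_mem), hr0, zero_mul, neg_zero]
  · have h1 : τ • y⁻¹ = (τ • y)⁻¹ := smul_inv'' τ y
    have hy0 := hy.ne_zero
    have hτy0 := hτy.ne_zero
    have : τ • y⁻¹ - y⁻¹ = -((τ • y - y) * (y⁻¹ * (τ • y)⁻¹)) := by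
      rw [h1]
      field_simp
      ring
    rw [this, e]
    ring

/-! ### functions close to `1` -/

/-- `Λ = 1 + ε r` with `r ∈ O`, `ρ r = j`. -/
def Near (R : HalfRed A F Fb) (ε : K) (Λ : F) (j : Fb) : Prop :=
  ∃ r : F, r ∈ R.O ∧ red R r = j ∧ Λ = 1 + algebraMap K F ε * r

theorem near_one : Near R ε (1 : F) 0 :=
  ⟨0, R.O.zero_mem, red_zero R, by rw [mul_zero, add_zero]⟩

theorem Near.mem {Λ : F} {j : Fb} (hε : Small A ε) (h : Near R ε Λ j) : Λ ∈ R.O := by
  obtain ⟨r, hr, -, rfl⟩ := h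
  exact R.O.add_mem R.O.one_mem (R.O.mul_mem (const_mem R hε.1) hr)

theorem Near.red_eq_one {Λ : F} {j : Fb} (hε : Small A ε) (h : Near R ε Λ j) : red R Λ = 1 := by
  obtain ⟨r, hr, -, rfl⟩ := h
  rw [red_add R R.O.one_mem (R.O.mul_mem (const_mem R hε.1) hr), red_one, red_small_mul hε hr,
    add_zero]

theorem Near.isGU {Λ : F} {j : Fb} (hε : Small A ε) (h : Near R ε Λ j) : IsGU R Λ :=
  ⟨h.mem hε, by rw [h.red_eq_one hε]; exact one_ne_zero⟩

theorem Near.mul {Λ Λ' : F} {j j' : Fb} (hε : Small A ε) (h : Near R ε Λ j)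
    (h' : Near R ε Λ' j') : Near R ε (Λ * Λ') (j + j') := by
  obtain ⟨r, hr, hj, rfl⟩ := h
  obtain ⟨s, hs, hj', rfl⟩ := h'
  have hm : algebraMap K F ε * (r * s) ∈ R.O :=
    R.O.mul_mem (const_mem R hε.1) (R.O.mul_mem hr hs)
  refine ⟨r + s + algebraMap K F ε * (r * s), R.O.add_mem (R.O.add_mem hr hs) hm, ?_, by ring⟩
  rw [red_add R (R.O.add_mem hr hs) hm, red_add R hr hs, red_small_mul hε (R.O.mul_mem hr hs),
    hj, hj', add_zero]

theorem Near.inv {Λ : F} {j : Fb} (hε : Small A ε) (h : Near R ε Λ j) : Near R ε Λ⁻¹ (-j) := by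
  have hgu := h.isGU hε
  have hred := h.red_eq_one hε
  obtain ⟨r, hr, hj, e⟩ := h
  have hm : r * Λ⁻¹ ∈ R.O := R.O.mul_mem hr hgu.inv_mem
  refine ⟨-(r * Λ⁻¹), R.O.neg_mem hm, ?_, ?_⟩
  · rw [red_neg R hm, red_mul R hr hgu.inv_mem, hgu.red_inv, hred, inv_one, mul_one, hj]
  · have hΛ0 := hgu.ne_zero
    have h1 : Λ⁻¹ = 1 + (1 - Λ) * Λ⁻¹ := by field_simp; ring
    have h2 : 1 - Λ = -(algebraMap K F ε * r) := by rw [e]; ring
    calc Λ⁻¹ = 1 + (1 - Λ) * Λ⁻¹ := h1
      _ = 1 + algebraMap K F ε * -(r * Λ⁻¹) := by rw [h2]; ring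

theorem Near.div {Λ Λ' : F} {j j' : Fb} (hε : Small A ε) (h : Near R ε Λ j)
    (h' : Near R ε Λ' j') : Near R ε (Λ / Λ') (j - j') := by
  rw [div_eq_mul_inv, sub_eq_add_neg]
  exact h.mul hε (h'.inv hε)

theorem Near.pow {Λ : F} {j : Fb} (hε : Small A ε) (h : Near R ε Λ j) (n : ℕ) :
    Near R ε (Λ ^ n) (n • j) := by
  induction n with
  | zero => rw [pow_zero, zero_smul]; exact near_one
  | succ n ih => rw [pow_succ, succ_nsmul]; exact ih.mul hε h

theorem near_prod {α : Type*} (hε : Small A ε) (T : Finset α) (Λ : α → F) (j : α → Fb)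
    (h : ∀ i ∈ T, Near R ε (Λ i) (j i)) : Near R ε (∏ i ∈ T, Λ i) (∑ i ∈ T, j i) := by
  classical
  induction T using Finset.induction_on with
  | empty => rw [Finset.prod_empty, Finset.sum_empty]; exact near_one
  | insert a T ha ih =>
    rw [Finset.prod_insert ha, Finset.sum_insert ha]
    exact (h a (Finset.mem_insert_self a T)).mul hε
      (ih fun i hi => h i (Finset.mem_insert_of_mem hi))

/-- a Gauss unit which moves little has `τ y / y ≡ 1` modulo `ε 𝔪_A O`. -/
theorem SmallMove.near {y : F} (hy : IsGU R y) (h : SmallMove R τ ε y) :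
    Near R ε (τ • y / y) 0 := by
  obtain ⟨r, hr, hr0, e⟩ := h
  have hm : r * y⁻¹ ∈ R.O := R.O.mul_mem hr hy.inv_mem
  refine ⟨r * y⁻¹, hm, by rw [red_mul R hr hy.inv_mem, hr0, zero_mul], ?_⟩
  have hy0 := hy.ne_zero
  have : τ • y / y = 1 + (τ • y - y) * y⁻¹ := by field_simp; ring
  rw [this, e]
  ring

/-- a constant `μ = 1 + ε (m + s)` with `s ∈ 𝔪_A`, `m ∈ A`. -/
theorem near_const {μ m s : K} (hm : m ∈ A) (hs : Small A s) (hμ : μ = 1 + ε * (m + s)) :
    Near R ε (algebraMap K F μ)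
      (algebraMap (ResidueField A) Fb (residue A ⟨m, hm⟩)) := by
  have hms : m + s ∈ A := A.add_mem _ _ hm hs.1
  refine ⟨algebraMap K F (m + s), const_mem R hms, ?_, by rw [hμ]; simp [map_add, map_mul]⟩
  rw [map_add, red_add R (const_mem R hm) (const_mem R hs.1), red_const R hm,
    red_const_small R hs, add_zero]

/-- **division by a function close to `1`.** -/
theorem red_div_near {g Λ y : F} {c e : K} {j : Fb} (hε : Small A ε) (he : e ∈ A)
    (hεc : ε = c * e) (hy : y ∈ R.O) (hg : g = 1 + algebraMap K F c * y) (hΛ : Near R ε Λ j) :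
    ∃ y'' : F, y'' ∈ R.O ∧ g / Λ = 1 + algebraMap K F c * y'' ∧
      red R y'' = red R y - algebraMap (ResidueField A) Fb (residue A ⟨e, he⟩) * j := by
  have hgu := hΛ.isGU hε
  have hred := hΛ.red_eq_one hε
  obtain ⟨r, hr, hj, eΛ⟩ := hΛ
  have her : algebraMap K F e * r ∈ R.O := R.O.mul_mem (const_mem R he) hr
  have hnum : y - algebraMap K F e * r ∈ R.O := R.O.sub_mem hy her
  refine ⟨(y - algebraMap K F e * r) * Λ⁻¹, R.O.mul_mem hnum hgu.inv_mem, ?_, ?_⟩
  · have hΛ0 := hgu.ne_zero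
    have h1 : g / Λ = 1 + (g - Λ) * Λ⁻¹ := by field_simp; ring
    have h2 : g - Λ = algebraMap K F c * (y - algebraMap K F e * r) := by
      rw [hg, eΛ, hεc, map_mul]; ring
    calc g / Λ = 1 + (g - Λ) * Λ⁻¹ := h1
      _ = 1 + algebraMap K F c * ((y - algebraMap K F e * r) * Λ⁻¹) := by rw [h2]; ring
  · rw [red_mul R hnum hgu.inv_mem, hgu.red_inv, hred, inv_one, mul_one, red_sub R hy her,
      red_mul R (const_mem R he) hr, red_const R he, hj]

end Fermat.Agent.U44.Second3
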