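/-
Programme U44 (target S44), block (TR), abstract layer (helper3): **the core of (TR)**:
“regular everywhere ⇒ constant ⇒ the jumps at the nodes are all equal”.

`N : NodalRed A F Nd` a two-component nodal reduction context, `g ∈ Fˣ` a function, `ε ∈ 𝔪_A`
nonzero.  Suppose that
* over every smooth point `Q̄` of either component there is a local factor `Λ_Q ≡ 1 mod ε 𝔪_A O_i`
  such that `g / Λ_Q` has no pole over `Q̄`;
* at every node `k` there is a local factor `Λ_k` with `Λ_k ≡ 1 mod ε 𝔪_A O₁` and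
  `Λ_k ≡ 1 + m_k ε mod ε 𝔪_A O₂` (`m_k ∈ A`) such that `g / Λ_k` has no pole over the node;
* `g` is normalised at a place `Z₀` of smooth reduction on the first component: `g(Z₀) = 1`, and
  `g` has no pole over the reduction of `Z₀`.
Then the residue classes `m̄_k` do not depend on `k` (`tr_core`).

No hypothesis on the divisor of `g` is needed: the geometry is hidden in the local factors
(`U44/NodeFactor9`, `U44/SmoothFactor9`).
-/
import Mathlib
import Fermat.Agent.U44.GaussRed3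
import Fermat.Agent.U44.Second3
import Fermat.Agent.T33.NodalAbs1B

set_option autoImplicit false

open AlgebraicCurve IsLocalRing

namespace Fermat.Agent.U44.TRCore3

open Fermat.Agent.T33.NodalCtx1 Fermat.Agent.T33.NodalCurve6 Fermat.Agent.T33.NodalAbs1A
  Fermat.Agent.T33.NodalAbs1B Fermat.Agent.X0.FF Fermat.Agent.RR.LSpace
  Fermat.Agent.U44.GaussRed3 Fermat.Agent.U44.Second3

variable {K : Type*} [Field K] {A : ValuationSubring K}
variable {F : Type*} [Field F] [Algebra K F]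

/-! ### regularity at a smooth point -/

section Smooth

variable {Fb : Type*} [Field Fb] [Algebra (ResidueField A) Fb]
variable {R : HalfRed A F Fb} {r : Place K F → Option (Place (ResidueField A) Fb)}
  {Sm : Place (ResidueField A) Fb → Prop}

/-- a function `1 + c y''` without pole over `Q̄` has `y''` without pole over `Q̄`. -/
theorem ord_nonneg_of_one_add {g' y'' : F} {c : K} (hc0 : c ≠ 0)
    (hg : g' = 1 + algebraMap K F c * y'') (P : Place K F) (hP : 0 ≤ P.ord g') :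
    0 ≤ P.ord y'' := by
  by_cases hy0 : y'' = 0
  · rw [hy0, Place.ord_zero]
  have hcF : algebraMap K F c ≠ 0 := by rwa [ne_eq, _root_.map_eq_zero]
  have e1 : algebraMap K F c * y'' = g' - 1 := by rw [hg]; ring
  have hne : g' - 1 ≠ 0 := by rw [← e1]; exact mul_ne_zero hcF hy0
  have h1 := ord_sub_ge P hne
  rw [Place.ord_one] at h1
  have h2 : 0 ≤ P.ord (g' - 1) := le_trans (le_min hP le_rfl) h1
  rw [← e1, P.ord_mul hcF hy0, ord_algebraMap, zero_add] at h2
  exact h2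

/-- **(REG-smooth)**. -/
theorem reg_smooth (S : SidePush R r Sm) (H : LHyp K F) {g Λ y : F} {c e ε : K}
    {Q : Place (ResidueField A) Fb} (hQ : Sm Q) (hε : Small A ε) (he : e ∈ A) (hεc : ε = c * e)
    (hc0 : c ≠ 0) (hy : y ∈ R.O) (hg : g = 1 + algebraMap K F c * y) (hΛ : Near R ε Λ 0)
    (hnp : ∀ P : Place K F, r P = some Q → 0 ≤ P.ord (g / Λ)) : 0 ≤ Q.ord (red R y) := by
  obtain ⟨y'', hy'', hg'', hred⟩ := red_div_near hε he hεc hy hg hΛ
  rw [mul_zero, sub_zero] at hred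
  rw [← hred]
  by_cases h0 : red R y'' = 0
  · rw [h0, Place.ord_zero]
  have hρ : R.ρ ⟨y'', hy''⟩ ≠ 0 := by rwa [red_of_mem R hy''] at h0
  have := S.ord_ρ_nonneg H ⟨y'', hy''⟩ hρ Q hQ fun P hP =>
    ord_nonneg_of_one_add hc0 hg'' P (hnp P hP)
  rwa [red_of_mem R hy'']

/-- vanishing of the reduction at the reduction of a zero. -/
theorem pos_of_zero (S : SidePush R r Sm) (H : LHyp K F) {y : F} (hy : y ∈ R.O)
    (h0 : red R y ≠ 0) {Q : Place (ResidueField A) Fb} (hQ : Sm Q)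
    (hnp : ∀ P : Place K F, r P = some Q → 0 ≤ P.ord y) (Z : Place K F) (hZ : r Z = some Q)
    (hpos : 0 < Z.ord y) : 0 < Q.ord (red R y) := by
  have hρ : R.ρ ⟨y, hy⟩ ≠ 0 := by rwa [red_of_mem R hy] at h0
  obtain ⟨s, hs, hs', hsum⟩ := S.fibre_sum H ⟨y, hy⟩ hρ Q hQ
  rw [red_of_mem R hy, ← hsum]
  have hZs : Z ∈ s := by
    by_contra hn
    have := hs' Z hZ hn
    exact absurd this hpos.ne'
  have h1 : Z.ord y ≤ ∑ P ∈ s, P.ord y :=
    Finset.single_le_sum (fun P hP => hnp P (hs P hP)) hZs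
  exact lt_of_lt_of_le hpos h1

end Smooth

/-! ### the node -/

variable {Fb₁ Fb₂ : Type*} [Field Fb₁] [Field Fb₂]
  [Algebra (ResidueField A) Fb₁] [Algebra (ResidueField A) Fb₂]
variable {ι : Type*} {Nd : NodalData (ResidueField A) Fb₁ Fb₂ ι} (N : NodalRed A F Nd)

/-- **(REG-node)**: the reductions of `y = (g − 1)/c` are compatible at the node up to the jump
`ē j`. -/
theorem reg_node {k : ι} {g Λ y : F} {c e ε : K} {j : Fb₂} (hε : Small A ε) (he : e ∈ A)
    (hεc : ε = c * e) (hc0 : c ≠ 0) (hy₁ : y ∈ N.c₁.O) (hy₂ : y ∈ N.c₂.O)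
    (hg : g = 1 + algebraMap K F c * y) (hΛ₁ : Near N.c₁ ε Λ 0) (hΛ₂ : Near N.c₂ ε Λ j)
    (hnp : ∀ P : Place K F, N.RedToNode P k → 0 ≤ P.ord (g / Λ)) :
    ((red N.c₁ y,
      red N.c₂ y - algebraMap (ResidueField A) Fb₂ (residue A ⟨e, he⟩) * j) : Fb₁ × Fb₂) ∈
      Nd.compatAt k := by
  obtain ⟨y₁, hy₁', hg₁, hred₁⟩ := red_div_near hε he hεc hy₁ hg hΛ₁
  obtain ⟨y₂, hy₂', hg₂, hred₂⟩ := red_div_near hε he hεc hy₂ hg hΛ₂
  rw [mul_zero, sub_zero] at hred₁
  have hcF : algebraMap K F c ≠ 0 := by rwa [ne_eq, _root_.map_eq_zero]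
  have heq : y₁ = y₂ := by
    have : algebraMap K F c * y₁ = algebraMap K F c * y₂ := by
      have h := hg₁.symm.trans hg₂
      exact add_left_cancel h
    exact mul_left_cancel₀ hcF this
  subst heq
  have hgl := N.glue k y₁ hy₁' hy₂' fun P hP =>
    Or.inr (ord_nonneg_of_one_add hc0 hg₁ P (hnp P hP))
  rw [← red_of_mem N.c₁ hy₁', ← red_of_mem N.c₂ hy₂', hred₁, hred₂] at hgl
  exact hgl

/-! ### regular everywhere -/

/-- **regular everywhere ⇒ constants**: if the two reductions of `y ∈ O₁ ∩ O₂` are regular at all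
smooth points, compatible at every node up to a constant jump `j k`, and the first one vanishes
somewhere, then the first one is `0` and the second one is the constant `j k`, for every `k`. -/
theorem regular_everywhere (H₁ : LHyp (ResidueField A) Fb₁) (H₂ : LHyp (ResidueField A) Fb₂)
    {γ₁ : Fb₁} {γ₂ : Fb₂}
    (hreg₁ : ∀ Q : Place (ResidueField A) Fb₁, Nd.Smooth1 Q → 0 ≤ Q.ord γ₁)
    (hreg₂ : ∀ Q : Place (ResidueField A) Fb₂, Nd.Smooth2 Q → 0 ≤ Q.ord γ₂)
    (j : ι → ResidueField A)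
    (hnode : ∀ k, ((γ₁, γ₂ - algebraMap (ResidueField A) Fb₂ (j k)) : Fb₁ × Fb₂) ∈
      Nd.compatAt k)
    (hZ : γ₁ = 0 ∨ ∃ Q : Place (ResidueField A) Fb₁, 0 < Q.ord γ₁) :
    γ₁ = 0 ∧ ∀ k, γ₂ = algebraMap (ResidueField A) Fb₂ (j k) := by
  -- `γ₁` is a constant
  have hall₁ : ∀ Q : Place (ResidueField A) Fb₁, 0 ≤ Q.ord γ₁ := by
    intro Q
    by_cases hQ : Nd.Smooth1 Q
    · exact hreg₁ Q hQ
    · unfold NodalData.Smooth1 at hQ
      push Not at hQ
      obtain ⟨k, rfl⟩ := hQ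
      by_cases h0 : γ₁ = 0
      · rw [h0, Place.ord_zero]
      · exact (regular_of_compatAt Nd (hnode k)).1 h0
  obtain ⟨c₁, hc₁⟩ := eq_algebraMap_of_forall_ord_nonneg H₁ hall₁
  have hγ₁ : γ₁ = 0 := by
    rcases hZ with h | ⟨Q, hQ⟩
    · exact h
    · rw [hc₁, ord_algebraMap] at hQ
      exact absurd hQ (lt_irrefl _)
  refine ⟨hγ₁, ?_⟩
  -- `γ₂` is a constant
  have hall₂ : ∀ Q : Place (ResidueField A) Fb₂, 0 ≤ Q.ord γ₂ := by
    intro Q
    by_cases hQ : Nd.Smooth2 Q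
    · exact hreg₂ Q hQ
    · unfold NodalData.Smooth2 at hQ
      push Not at hQ
      obtain ⟨k, rfl⟩ := hQ
      by_cases h0 : γ₂ - algebraMap (ResidueField A) Fb₂ (j k) = 0
      · rw [sub_eq_zero.1 h0, ord_algebraMap]
      · have h1 := (regular_of_compatAt Nd (hnode k)).2 h0
        by_cases h2 : γ₂ = 0
        · rw [h2, Place.ord_zero]
        have e : γ₂ = (γ₂ - algebraMap (ResidueField A) Fb₂ (j k)) +
            algebraMap (ResidueField A) Fb₂ (j k) := by ring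
        have hne : (γ₂ - algebraMap (ResidueField A) Fb₂ (j k)) +
            algebraMap (ResidueField A) Fb₂ (j k) ≠ 0 := by rwa [← e]
        have h3 := ord_add_ge (Nd.s2 k) hne
        rw [← e, ord_algebraMap] at h3
        exact le_trans (le_min h1 le_rfl) h3
  obtain ⟨c₂, hc₂⟩ := eq_algebraMap_of_forall_ord_nonneg H₂ hall₂
  intro k
  obtain ⟨c, h1, h2⟩ := hnode k
  -- `c = 0`
  have hc0 : c = 0 := by
    have : algebraMap (ResidueField A) Fb₁ (-c) ∈ vanishing (Nd.s1 k) := by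
      have e : algebraMap (ResidueField A) Fb₁ (-c) =
          γ₁ - algebraMap (ResidueField A) Fb₁ c := by rw [hγ₁, map_neg, zero_sub]
      rw [e]
      exact h1
    have := const_not_mem_vanishing _ this
    exact neg_eq_zero.1 this
  rw [hc0, map_zero, sub_zero] at h2
  have : algebraMap (ResidueField A) Fb₂ (c₂ - j k) ∈ vanishing (Nd.s2 k) := by
    rw [map_sub, ← hc₂]
    exact h2
  have h3 := const_not_mem_vanishing _ this
  rw [hc₂, sub_eq_zero.1 h3]

/-! ### the core theorem -/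

section Core

variable (H : LHyp K F) (H₁ : LHyp (ResidueField A) Fb₁) (H₂ : LHyp (ResidueField A) Fb₂)
variable {g : F} {ε : K} (hε : Small A ε)
variable (hsm₁ : ∀ Q : Place (ResidueField A) Fb₁, Nd.Smooth1 Q → ∃ Λ : F, Near N.c₁ ε Λ 0 ∧
    ∀ P : Place K F, N.r₁ P = some Q → 0 ≤ P.ord (g / Λ))
variable (hsm₂ : ∀ Q : Place (ResidueField A) Fb₂, Nd.Smooth2 Q → ∃ Λ : F, Near N.c₂ ε Λ 0 ∧
    ∀ P : Place K F, N.r₂ P = some Q → 0 ≤ P.ord (g / Λ))
variable (m : ι → A)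
variable (hnode : ∀ k, ∃ Λ : F, Near N.c₁ ε Λ 0 ∧
    Near N.c₂ ε Λ (algebraMap (ResidueField A) Fb₂ (residue A (m k))) ∧
    ∀ P : Place K F, N.RedToNode P k → 0 ≤ P.ord (g / Λ))
variable (Z₀ : Place K F) (Q₀ : Place (ResidueField A) Fb₁) (hZ : N.r₁ Z₀ = some Q₀)
  (hQ₀ : Nd.Smooth1 Q₀) (hnp : ∀ P : Place K F, N.r₁ P = some Q₀ → 0 ≤ P.ord g)
  (hZ1 : g = 1 ∨ 0 < Z₀.ord (g - 1))

include H H₁ H₂ hε hsm₁ hsm₂ hnode hZ hQ₀ hnp hZ1 in
/-- one application of the regular-everywhere argument at the depth `c` (`ε = c e`). -/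
theorem tr_step {c e : K} {y : F} (he : e ∈ A) (hεc : ε = c * e) (hc0 : c ≠ 0)
    (hy₁ : y ∈ N.c₁.O) (hy₂ : y ∈ N.c₂.O) (hg : g = 1 + algebraMap K F c * y) :
    red N.c₁ y = 0 ∧ ∀ k, red N.c₂ y =
      algebraMap (ResidueField A) Fb₂ (residue A ⟨e, he⟩ * residue A (m k)) := by
  refine regular_everywhere (Nd := Nd) H₁ H₂ ?_ ?_
    (fun k => residue A ⟨e, he⟩ * residue A (m k)) ?_ ?_
  · intro Q hQ
    obtain ⟨Λ, hΛ, hnpQ⟩ := hsm₁ Q hQ
    exact reg_smooth (side₁ N) H hQ hε he hεc hc0 hy₁ hg hΛ hnpQ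
  · intro Q hQ
    obtain ⟨Λ, hΛ, hnpQ⟩ := hsm₂ Q hQ
    exact reg_smooth (side₂ N) H hQ hε he hεc hc0 hy₂ hg hΛ hnpQ
  · intro k
    obtain ⟨Λ, hΛ₁, hΛ₂, hnpk⟩ := hnode k
    have := reg_node N hε he hεc hc0 hy₁ hy₂ hg hΛ₁ hΛ₂ hnpk
    rwa [← map_mul] at this
  · by_cases h0 : red N.c₁ y = 0
    · exact Or.inl h0
    right
    refine ⟨Q₀, ?_⟩
    have hy0 : y ≠ 0 := by
      rintro rfl
      exact h0 (red_zero _)
    have hcF : algebraMap K F c ≠ 0 := by rwa [ne_eq, _root_.map_eq_zero]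
    have e1 : algebraMap K F c * y = g - 1 := by rw [hg]; ring
    have hg1 : g ≠ 1 := by
      intro h1
      rw [h1, sub_self] at e1
      exact mul_ne_zero hcF hy0 e1
    have hpos : 0 < Z₀.ord y := by
      have := hZ1.resolve_left hg1
      rw [← e1, Z₀.ord_mul hcF hy0, ord_algebraMap, zero_add] at this
      exact this
    exact pos_of_zero (side₁ N) H hy₁ h0 hQ₀
      (fun P hP => ord_nonneg_of_one_add hc0 hg P (hnp P hP)) Z₀ hZ hpos

include H H₁ H₂ hε hsm₁ hsm₂ hnode hZ hQ₀ hnp hZ1 in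
/-- **the core of (TR)**: the jumps `m̄_k` at the nodes are all equal. -/
theorem tr_core (hε0 : ε ≠ 0) (k k' : ι) : residue A (m k) = residue A (m k') := by
  have hinj := (algebraMap (ResidueField A) Fb₂).injective
  have hstep := fun {c e : K} {y : F} (he : e ∈ A) (hεc : ε = c * e) (hc0 : c ≠ 0)
      (hy₁ : y ∈ N.c₁.O) (hy₂ : y ∈ N.c₂.O) (hg : g = 1 + algebraMap K F c * y) =>
    tr_step N H H₁ H₂ hε hsm₁ hsm₂ m hnode Z₀ Q₀ hZ hQ₀ hnp hZ1 he hεc hc0 hy₁ hy₂ hg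
  have hres1 : residue A ⟨(1 : K), A.one_mem⟩ = 1 := by
    have : (⟨(1 : K), A.one_mem⟩ : A) = 1 := rfl
    rw [this, map_one]
  -- the depth `ε` itself: all `m̄_k` vanish as soon as `(g − 1)/ε` reduces to `0` on both sides
  have hdeep : ∀ y' : F, y' ∈ N.c₁.O → y' ∈ N.c₂.O → red N.c₂ y' = 0 →
      g = 1 + algebraMap K F ε * y' → residue A (m k) = residue A (m k') := by
    intro y' h₁ h₂ hr hg
    have h := (hstep A.one_mem (by rw [mul_one]) hε0 h₁ h₂ hg).2
    have hk := h k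
    have hk' := h k'
    rw [hr, hres1, one_mul] at hk hk'
    have e1 : residue A (m k) = 0 := hinj (by rw [← hk, map_zero])
    have e2 : residue A (m k') = 0 := hinj (by rw [← hk', map_zero])
    rw [e1, e2]
  by_cases hg1 : g = 1
  · exact hdeep 0 N.c₁.O.zero_mem N.c₂.O.zero_mem (red_zero _) (by rw [hg1, mul_zero, add_zero])
  -- normalise `g − 1`
  have hf : g - 1 ≠ 0 := sub_ne_zero.2 hg1
  obtain ⟨c₁, hc₁0, hm₁, hρ₁⟩ := N.c₁.gauss (g - 1) hf
  obtain ⟨c₂, hc₂0, hm₂, hρ₂⟩ := N.c₂.gauss (g - 1) hf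
  -- a common depth `c` with `y = (g − 1)/c ∈ O₁ ∩ O₂` and one nonzero reduction
  have hex : ∃ (c : K) (y : F), c ≠ 0 ∧ y ∈ N.c₁.O ∧ y ∈ N.c₂.O ∧
      g = 1 + algebraMap K F c * y ∧ (red N.c₁ y ≠ 0 ∨ red N.c₂ y ≠ 0) := by
    rcases A.mem_or_inv_mem (c₁ / c₂) with h | h
    · refine ⟨c₁⁻¹, algebraMap K F c₁ * (g - 1), inv_ne_zero hc₁0, hm₁, ?_, ?_, Or.inl ?_⟩
      · have : algebraMap K F c₁ * (g - 1) =
            algebraMap K F (c₁ / c₂) * (algebraMap K F c₂ * (g - 1)) := by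
          rw [← mul_assoc, ← map_mul, div_mul_cancel₀ c₁ hc₂0]
        rw [this]
        exact mul_const_mem N.c₂ h hm₂
      · rw [← mul_assoc, ← map_mul, inv_mul_cancel₀ hc₁0, map_one, one_mul]
        ring
      · rwa [red_of_mem N.c₁ hm₁]
    · rw [inv_div] at h
      refine ⟨c₂⁻¹, algebraMap K F c₂ * (g - 1), inv_ne_zero hc₂0, ?_, hm₂, ?_, Or.inr ?_⟩
      · have : algebraMap K F c₂ * (g - 1) =
            algebraMap K F (c₂ / c₁) * (algebraMap K F c₁ * (g - 1)) := by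
          rw [← mul_assoc, ← map_mul, div_mul_cancel₀ c₂ hc₁0]
        rw [this]
        exact mul_const_mem N.c₁ h hm₁
      · rw [← mul_assoc, ← map_mul, inv_mul_cancel₀ hc₂0, map_one, one_mul]
        ring
      · rwa [red_of_mem N.c₂ hm₂]
  obtain ⟨c, y, hc0, hy₁, hy₂, hg, hne⟩ := hex
  by_cases he : ε / c ∈ A
  · -- `c` is not deeper than `ε`
    have hεc : ε = c * (ε / c) := by field_simp
    obtain ⟨h1, h2⟩ := hstep he hεc hc0 hy₁ hy₂ hg
    have hne₂ : red N.c₂ y ≠ 0 := hne.resolve_left (not_not.2 h1)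
    have hk := h2 k
    have hk' := h2 k'
    have he0 : residue A ⟨ε / c, he⟩ ≠ 0 := by
      intro h0
      rw [h0, zero_mul, map_zero] at hk
      exact hne₂ hk
    have := hinj (hk.symm.trans hk')
    exact mul_left_cancel₀ he0 this
  · -- `c` is deeper than `ε`: `(g − 1)/ε ∈ 𝔪_A O`
    have he' : c / ε ∈ A := by
      have := (A.mem_or_inv_mem (ε / c)).resolve_left he
      rwa [inv_div] at this
    have hsmall : Small A (c / ε) := ⟨he', Or.inr (by rwa [inv_div])⟩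
    have hy' : algebraMap K F (c / ε) * y ∈ N.c₁.O := mul_const_mem N.c₁ he' hy₁
    have hy'' : algebraMap K F (c / ε) * y ∈ N.c₂.O := mul_const_mem N.c₂ he' hy₂
    refine hdeep _ hy' hy'' (red_small_mul hsmall hy₂) ?_
    rw [← mul_assoc, ← map_mul, mul_div_cancel₀ c hε0]
    exact hg

end Core

end Fermat.Agent.U44.TRCore3
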