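/-
Programme U44 (target S44), block (TR), abstract layer (helper3): **step (7) of the written proof
(reports 116): from the jumps `m_k` to the slopes `s_k`.**

For every node `k` the annulus formula (`Annulus3.annulus_formula`, applied to `f` with
`div f = p D`) reads `c₁/c₂ = b_k ^ p · ϖ_k ^ (s_k − p N_k) · unit`, with
`b_k = ∏_{P → k} z'(P) ^ {D(P)} = π_L ^ {m_k} · unit` (`LocMain9.IsUnif.decomp`),
`π_L ^ {p (p−1)} = p · unit` and `ϖ_k = p · unit` (thickness one).  As the left side does not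
depend on `k`:  `m_k + (p−1)(s_k − p N_k)` is independent of `k` (`step7`), hence
`p ∣ m_k − m_k' ⟹ p ∣ s_k − s_k'` (`slopes_of_jumps`).
-/
import Mathlib
import Fermat.Agent.U44.ValBridge3

set_option autoImplicit false

open IsLocalRing

namespace Fermat.Agent.U44.TRSlope3

open Fermat.Agent.U44.GaussRed3 Fermat.Agent.U44.ValBridge3

variable {K : Type*} [Field K] {A : ValuationSubring K}

/-- **step (7)**: the exponent `m_k + (p−1)(s_k − p N_k)` of `p` in `(c₁/c₂)^(p−1)` does not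
depend on the node. -/
theorem step7 {p : ℕ} (hpS : Small A (p : K)) (hp0 : (p : K) ≠ 0) {πL : K} (hπ0 : πL ≠ 0)
    (hπ : AUnit A (πL ^ (p * (p - 1)) / (p : K))) {U : K} {ι : Type*} (b ϖ : ι → K)
    (m s Nk : ι → ℤ) (hb0 : ∀ k, b k ≠ 0) (hϖ0 : ∀ k, ϖ k ≠ 0)
    (hb : ∀ k, AUnit A (b k / πL ^ m k)) (hϖ : ∀ k, AUnit A (ϖ k / (p : K)))
    (hAF : ∀ k, AUnit A (U / (b k ^ p * ϖ k ^ (s k - p * Nk k)))) (k k' : ι) :
    m k + ((p : ℤ) - 1) * (s k - p * Nk k) = m k' + ((p : ℤ) - 1) * (s k' - p * Nk k') := by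
  set v := A.valuation with hv
  have hvp0 : 0 < v (p : K) := zero_lt_iff.2 ((Valuation.ne_zero_iff _).2 hp0)
  have hvp1 : v (p : K) < 1 := small_iff_val_lt_one.1 hpS
  have hvπ : v πL ^ (p * (p - 1)) = v (p : K) := by
    have := (aunit_div_iff (A := A) hp0).1 hπ
    rwa [map_pow] at this
  -- the valuation of `U ^ (p − 1)` computed at the node `k`
  have key : ∀ k, v U ^ (p - 1) = v (p : K) ^ (m k + ((p : ℤ) - 1) * (s k - p * Nk k)) := by
    intro k
    have h1 : v U = v (b k) ^ p * v (ϖ k) ^ (s k - p * Nk k) := by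
      have hne : b k ^ p * ϖ k ^ (s k - p * Nk k) ≠ 0 :=
        mul_ne_zero (pow_ne_zero _ (hb0 k)) (zpow_ne_zero _ (hϖ0 k))
      have := (aunit_div_iff (A := A) hne).1 (hAF k)
      rwa [map_mul, map_pow, map_zpow₀] at this
    have h2 : v (b k) = v πL ^ m k := by
      have := (aunit_div_iff (A := A) (zpow_ne_zero (m k) hπ0)).1 (hb k)
      rwa [map_zpow₀] at this
    have h3 : v (ϖ k) = v (p : K) := (aunit_div_iff (A := A) hp0).1 (hϖ k)
    have hvπ0 : v πL ≠ 0 := (Valuation.ne_zero_iff _).2 hπ0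
    rw [h1, h2, h3, mul_pow, ← zpow_natCast (v πL ^ m k) p, ← zpow_mul,
      ← zpow_natCast (v πL ^ (m k * (p : ℤ))) (p - 1), ← zpow_mul,
      ← zpow_natCast (v (p : K) ^ (s k - p * Nk k)) (p - 1), ← zpow_mul]
    have h4 : v πL ^ (m k * (p : ℤ) * ((p - 1 : ℕ) : ℤ)) = v (p : K) ^ m k := by
      rw [← hvπ, ← zpow_natCast (v πL) (p * (p - 1)), ← zpow_mul]
      congr 1
      push_cast
      ring
    rw [h4, ← zpow_add₀ hvp0.ne']
    congr 1
    have hp1 : 1 ≤ p := by
      rcases Nat.eq_zero_or_pos p with h | h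
      · exfalso
        rw [h] at hp0
        exact hp0 (by simp)
      · exact h
    rw [Nat.cast_sub hp1]
    push_cast
    ring
  have h5 := (key k).symm.trans (key k')
  exact zpow_right_injective₀ hvp0 hvp1.ne h5

/-- **from jumps to slopes**: if `p ∣ m_k − m_k'` then `p ∣ s_k − s_k'`. -/
theorem slopes_of_jumps {p : ℕ} {ι : Type*} (m s Nk : ι → ℤ) (k k' : ι)
    (h7 : m k + ((p : ℤ) - 1) * (s k - p * Nk k) = m k' + ((p : ℤ) - 1) * (s k' - p * Nk k'))
    (hm : (p : ℤ) ∣ m k - m k') : (p : ℤ) ∣ s k - s k' := by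
  obtain ⟨t, ht⟩ := hm
  have h1 : s k - s k' = (p : ℤ) * ((s k - s k') - (p - 1) * (Nk k - Nk k') + t) := by
    linear_combination (-1 : ℤ) * h7 + ht
  exact ⟨_, h1⟩

end Fermat.Agent.U44.TRSlope3
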