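/-
Programme U44 (target S44), block (TR), abstract layer (helper3): **(TR) from the local factors.**

`tr_of_factors` combines the core (`TRCore3.tr_core`: the jumps `m̄_k` are independent of the node)
with the annulus formula (`Annulus3.annulus_formula`) and step (7) (`TRSlope3`): if `div f = p D`,
and the function `g` (with `div g = τ D − D − E`) has local factors at all smooth points and at all
nodes, the factor at the node `k` having the jump `m_k` with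
`b_k = ∏_{P → k} z'_k(P) ^ {D(P)} = π_L ^ {m_k} · unit`, then the slopes
`s_k = ord_{s1 k} ρ₁ (c₁ f)` are all congruent modulo `p`.
-/
import Mathlib
import Fermat.Agent.U44.Annulus3
import Fermat.Agent.U44.TRCore3
import Fermat.Agent.U44.TRSlope3

set_option autoImplicit false

open AlgebraicCurve IsLocalRing

namespace Fermat.Agent.U44.TRAsm3

open Fermat.Agent.T33.NodalCtx1 Fermat.Agent.T33.NodalCurve6 Fermat.Agent.X0.FF
  Fermat.Agent.RR.LSpace Fermat.Agent.U44.GaussRed3 Fermat.Agent.U44.Second3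
  Fermat.Agent.U44.Annulus3 Fermat.Agent.U44.TRCore3 Fermat.Agent.U44.TRSlope3

variable {K : Type*} [Field K] {A : ValuationSubring K}
variable {F : Type*} [Field F] [Algebra K F]
variable {Fb₁ Fb₂ : Type*} [Field Fb₁] [Field Fb₂]
  [Algebra (ResidueField A) Fb₁] [Algebra (ResidueField A) Fb₂]
variable {ι : Type*} {Nd : NodalData (ResidueField A) Fb₁ Fb₂ ι} (N : NodalRed A F Nd)

/-- **(TR) from the local factors.** -/
theorem tr_of_factors (H : LHyp K F) (H₁ : LHyp (ResidueField A) Fb₁)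
    (H₂ : LHyp (ResidueField A) Fb₂) {p : ℕ} [CharP (ResidueField A) p]
    (hpS : Small A (p : K)) (hp0 : (p : K) ≠ 0)
    {g : F} {ε : K} (hε : Small A ε) (hε0 : ε ≠ 0)
    (hsm₁ : ∀ Q : Place (ResidueField A) Fb₁, Nd.Smooth1 Q → ∃ Λ : F, Near N.c₁ ε Λ 0 ∧
      ∀ P : Place K F, N.r₁ P = some Q → 0 ≤ P.ord (g / Λ))
    (hsm₂ : ∀ Q : Place (ResidueField A) Fb₂, Nd.Smooth2 Q → ∃ Λ : F, Near N.c₂ ε Λ 0 ∧
      ∀ P : Place K F, N.r₂ P = some Q → 0 ≤ P.ord (g / Λ))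
    (X : ∀ k, AnnCoord N k) (hϖ : ∀ k, AUnit A ((X k).ϖ / (p : K)))
    (D : Divisor K F) {f : F} (hf0 : f ≠ 0) (hf : ∀ P : Place K F, P.ord f = p * D P)
    (T : ι → Finset (Place K F))
    (hT : ∀ k P, P ∈ T k ↔ (N.RedToNode P k ∧ D P ≠ 0))
    {πL : K} (hπ0 : πL ≠ 0) (hπ : AUnit A (πL ^ (p * (p - 1)) / (p : K)))
    (hnode : ∀ k, ∃ (Λ : F) (m : ℤ), Near N.c₁ ε Λ 0 ∧
      Near N.c₂ ε Λ (algebraMap (ResidueField A) Fb₂ (residue A ((m : ℤ) : A))) ∧
      (∀ P : Place K F, N.RedToNode P k → 0 ≤ P.ord (g / Λ)) ∧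
      AUnit A ((∏ P ∈ T k, (X k).value P ^ D P) / πL ^ m))
    (Z₀ : Place K F) (Q₀ : Place (ResidueField A) Fb₁) (hZ : N.r₁ Z₀ = some Q₀)
    (hQ₀ : Nd.Smooth1 Q₀) (hnp : ∀ P : Place K F, N.r₁ P = some Q₀ → 0 ≤ P.ord g)
    (hZ1 : g = 1 ∨ 0 < Z₀.ord (g - 1))
    {c₁ c₂ : K} (h₁ : IsGU N.c₁ (algebraMap K F c₁ * f))
    (h₂ : IsGU N.c₂ (algebraMap K F c₂ * f)) (k k' : ι) :
    (p : ℤ) ∣ (Nd.s1 k).ord (red N.c₁ (algebraMap K F c₁ * f)) -
      (Nd.s1 k').ord (red N.c₁ (algebraMap K F c₁ * f)) := by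
  classical
  choose Λ m hΛ₁ hΛ₂ hΛnp hb using hnode
  -- the jumps are congruent
  have hcore := tr_core N H H₁ H₂ hε hsm₁ hsm₂ (fun k => ((m k : ℤ) : A))
    (fun k => ⟨Λ k, hΛ₁ k, hΛ₂ k, hΛnp k⟩) Z₀ Q₀ hZ hQ₀ hnp hZ1 hε0 k k'
  have hm : (p : ℤ) ∣ m k - m k' := by
    rw [map_intCast, map_intCast] at hcore
    have : ((m k - m k' : ℤ) : ResidueField A) = 0 := by
      rw [Int.cast_sub, hcore, sub_self]
    exact (CharP.intCast_eq_zero_iff (ResidueField A) p _).1 this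
  -- the annulus formula at every node
  set s : ι → ℤ := fun k => (Nd.s1 k).ord (red N.c₁ (algebraMap K F c₁ * f)) with hs
  set Nk : ι → ℤ := fun k => ∑ P ∈ T k, D P with hNk
  set b : ι → K := fun k => ∏ P ∈ T k, (X k).value P ^ D P with hbdef
  have hb0 : ∀ k, b k ≠ 0 := fun k =>
    Finset.prod_ne_zero_iff.2 fun P hP =>
      zpow_ne_zero _ ((X k).value_ne P ((hT k P).1 hP).1)
  have hAF : ∀ k, AUnit A ((c₁ / c₂) / (b k ^ p * (X k).ϖ ^ (s k - p * Nk k))) := by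
    intro k
    have h := annulus_formula (X k) hf0 (T k) (fun P hP => ((hT k P).1 hP).1)
      (fun P hP hne => (hT k P).2 ⟨hP, by
        intro h0
        rw [hf P, h0, mul_zero] at hne
        exact hne rfl⟩) h₁ h₂
    have e1 : (∏ P ∈ T k, (X k).value P ^ P.ord f) = b k ^ p := by
      rw [hbdef, ← Finset.prod_pow]
      refine Finset.prod_congr rfl fun P _ => ?_
      rw [hf P, ← zpow_natCast, ← zpow_mul, mul_comm]
    have e2 : (∑ P ∈ T k, P.ord f) = p * Nk k := by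
      rw [hNk, Finset.mul_sum]
      exact Finset.sum_congr rfl fun P _ => hf P
    rw [e1, e2] at h
    have e3 : c₁ / (c₂ * b k ^ p * (X k).ϖ ^ (s k - p * Nk k)) =
        (c₁ / c₂) / (b k ^ p * (X k).ϖ ^ (s k - p * Nk k)) := by
      rw [div_div, mul_assoc]
    rw [← e3]
    exact h
  have h7 := step7 hpS hp0 hπ0 hπ b (fun k => (X k).ϖ) m s Nk hb0 (fun k => (X k).ϖ_ne)
    hb hϖ hAF k k'
  exact slopes_of_jumps m s Nk k k' h7 hm

end Fermat.Agent.U44.TRAsm3
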