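/-
Programme U44 (target S44), block (TR), abstract layer (helper9): **distinguished and reversed
distinguished polynomials over a valuation ring, in field language**.

`A` a valuation subring of a field `K`, `Small A a` (`U44/GaussRed3`) the membership `a ∈ 𝔪_A`.

* `Dist A p d` : `p ∈ K[X]` is monic of degree `d` with all lower coefficients in `𝔪_A`
  (a distinguished polynomial); closed under products, contains `X - C a` for `a ∈ 𝔪_A`.
* `Rev A p` : the constant coefficient of `p` is `1` or `-1` and all coefficients of positive degree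
  lie in `𝔪_A`; closed under products, contains `C b * X - 1` for `b ∈ 𝔪_A`.
* `map_eq_of_perm` : a product `∏_{i ∈ T} f i` in a commutative monoid is unchanged by a self-map of
  the finite index set which is injective and preserves the factors.
-/
import Mathlib
import Fermat.Agent.U44.GaussRed3

set_option autoImplicit false

namespace Fermat.Agent.U44.FactorPoly9

open Polynomial Fermat.Agent.U44.GaussRed3

variable {K : Type*} [Field K] (A : ValuationSubring K)

theorem small_sum {α : Type*} (T : Finset α) (g : α → K) (h : ∀ i ∈ T, Small A (g i)) :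
    Small A (∑ i ∈ T, g i) := by
  classical
  induction T using Finset.induction_on with
  | empty => rw [Finset.sum_empty]; exact small_zero
  | insert a T ha ih =>
    rw [Finset.sum_insert ha]
    exact (h a (Finset.mem_insert_self a T)).add
      (ih fun i hi => h i (Finset.mem_insert_of_mem hi))

/-! ### distinguished polynomials -/

/-- monic of degree `d`, lower coefficients in `𝔪_A`. -/
def Dist (p : K[X]) (d : ℕ) : Prop :=
  p.Monic ∧ p.natDegree = d ∧ ∀ i, i < d → Small A (p.coeff i)

variable {A}

theorem Dist.coeff_mem {p : K[X]} {d : ℕ} (h : Dist A p d) (i : ℕ) : p.coeff i ∈ A := by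
  rcases lt_trichotomy i d with hi | hi | hi
  · exact (h.2.2 i hi).mem
  · have : p.coeff i = 1 := by
      rw [hi, ← h.2.1]
      exact h.1
    rw [this]
    exact A.one_mem
  · rw [coeff_eq_zero_of_natDegree_lt (by rw [h.2.1]; exact hi)]
    exact A.zero_mem

theorem dist_one : Dist A (1 : K[X]) 0 :=
  ⟨monic_one, natDegree_one, fun _ hi => absurd hi (Nat.not_lt_zero _)⟩

theorem dist_X_sub_C {a : K} (ha : Small A a) : Dist A (X - C a) 1 := by
  refine ⟨monic_X_sub_C a, natDegree_X_sub_C a, fun i hi => ?_⟩
  have : i = 0 := by omega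
  subst this
  have : (X - C a : K[X]).coeff 0 = -a := by simp
  rw [this]
  have h := ha.mem_mul (A.neg_mem _ A.one_mem)
  rwa [neg_one_mul] at h

theorem Dist.mul {p q : K[X]} {d d' : ℕ} (hp : Dist A p d) (hq : Dist A q d') :
    Dist A (p * q) (d + d') := by
  refine ⟨hp.1.mul hq.1, ?_, fun k hk => ?_⟩
  · rw [hp.1.natDegree_mul hq.1, hp.2.1, hq.2.1]
  · rw [coeff_mul]
    refine small_sum A _ _ fun x hx => ?_
    rw [Finset.HasAntidiagonal.mem_antidiagonal] at hx
    by_cases h1 : x.1 < d
    · exact (hp.2.2 _ h1).mul_mem (hq.coeff_mem _)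
    · have h2 : x.2 < d' := by omega
      exact (hq.2.2 _ h2).mem_mul (hp.coeff_mem _)

theorem Dist.pow {p : K[X]} {d : ℕ} (hp : Dist A p d) (n : ℕ) : Dist A (p ^ n) (n * d) := by
  induction n with
  | zero => rw [pow_zero, Nat.zero_mul]; exact dist_one
  | succ n ih =>
    rw [pow_succ, Nat.succ_mul]
    exact ih.mul hp

theorem dist_prod {α : Type*} (T : Finset α) (f : α → K[X]) (d : α → ℕ)
    (h : ∀ i ∈ T, Dist A (f i) (d i)) : Dist A (∏ i ∈ T, f i) (∑ i ∈ T, d i) := by
  classical
  induction T using Finset.induction_on with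
  | empty => rw [Finset.prod_empty, Finset.sum_empty]; exact dist_one
  | insert a T ha ih =>
    rw [Finset.prod_insert ha, Finset.sum_insert ha]
    exact (h a (Finset.mem_insert_self a T)).mul
      (ih fun i hi => h i (Finset.mem_insert_of_mem hi))

/-! ### reversed distinguished polynomials -/

variable (A) in
/-- constant coefficient `±1`, coefficients of positive degree in `𝔪_A`. -/
def Rev (p : K[X]) : Prop :=
  (p.coeff 0 = 1 ∨ p.coeff 0 = -1) ∧ ∀ i, 0 < i → Small A (p.coeff i)

theorem Rev.coeff_mem {p : K[X]} (h : Rev A p) (i : ℕ) : p.coeff i ∈ A := by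
  rcases Nat.eq_zero_or_pos i with hi | hi
  · subst hi
    rcases h.1 with h0 | h0
    · rw [h0]; exact A.one_mem
    · rw [h0]; exact A.neg_mem _ A.one_mem
  · exact (h.2 i hi).mem

theorem rev_one : Rev A (1 : K[X]) := by
  refine ⟨Or.inl (by simp), fun i hi => ?_⟩
  rw [coeff_one, if_neg hi.ne']
  exact small_zero

theorem rev_mul_X_sub_one {b : K} (hb : Small A b) : Rev A (C b * X - 1) := by
  refine ⟨Or.inr (by simp), fun i hi => ?_⟩
  rw [coeff_sub, coeff_one, if_neg hi.ne', sub_zero, coeff_C_mul, coeff_X]
  by_cases h1 : 1 = i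
  · rw [if_pos h1, mul_one]; exact hb
  · rw [if_neg h1, mul_zero]; exact small_zero

theorem Rev.mul {p q : K[X]} (hp : Rev A p) (hq : Rev A q) : Rev A (p * q) := by
  refine ⟨?_, fun k hk => ?_⟩
  · rw [mul_coeff_zero]
    rcases hp.1 with h | h <;> rcases hq.1 with h' | h' <;> rw [h, h'] <;> simp
  · rw [coeff_mul]
    refine small_sum A _ _ fun x hx => ?_
    rw [Finset.HasAntidiagonal.mem_antidiagonal] at hx
    by_cases h1 : 0 < x.1
    · exact (hp.2 _ h1).mul_mem (hq.coeff_mem _)
    · have h2 : 0 < x.2 := by omega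
      exact (hq.2 _ h2).mem_mul (hp.coeff_mem _)

theorem Rev.pow {p : K[X]} (hp : Rev A p) (n : ℕ) : Rev A (p ^ n) := by
  induction n with
  | zero => rw [pow_zero]; exact rev_one
  | succ n ih => rw [pow_succ]; exact ih.mul hp

theorem rev_prod {α : Type*} (T : Finset α) (f : α → K[X]) (h : ∀ i ∈ T, Rev A (f i)) :
    Rev A (∏ i ∈ T, f i) := by
  classical
  induction T using Finset.induction_on with
  | empty => rw [Finset.prod_empty]; exact rev_one
  | insert a T ha ih =>
    rw [Finset.prod_insert ha]
    exact (h a (Finset.mem_insert_self a T)).mul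
      (ih fun i hi => h i (Finset.mem_insert_of_mem hi))

/-! ### reindexing a finite product by an injective self-map -/

theorem image_eq_of_injOn {α : Type*} [DecidableEq α] (T : Finset α) (g : α → α)
    (hg : ∀ i ∈ T, g i ∈ T) (hinj : Set.InjOn g T) : T.image g = T := by
  refine Finset.eq_of_subset_of_card_le ?_ ?_
  · intro x hx
    obtain ⟨i, hi, rfl⟩ := Finset.mem_image.1 hx
    exact hg i hi
  · rw [Finset.card_image_of_injOn hinj]

theorem prod_comp_self {α M : Type*} [CommMonoid M] (T : Finset α) (g : α → α)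
    (hg : ∀ i ∈ T, g i ∈ T) (hinj : Set.InjOn g T) (f : α → M) :
    ∏ i ∈ T, f (g i) = ∏ i ∈ T, f i := by
  classical
  conv_rhs => rw [← image_eq_of_injOn T g hg hinj]
  rw [Finset.prod_image hinj]

end Fermat.Agent.U44.FactorPoly9
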