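/-
Programme U44 (target S44), block (TR), abstract layer (helper9): **the local factor `Λ_k` at a
node** (report 116, step (4)).

Setting: `N : NodalRed A F Nd` a two-component nodal reduction context, `X : AnnCoord N k` an
annulus coordinate at the node `k` (`U44/Annulus3`), `τ` a semilinear automorphism of `F/K`
compatible with both sides and fixing `z'` and `ϖ`, `H` a set of semilinear automorphisms (the
image of `I_L`) fixing `z'` and `ϖ` and preserving the places over `k`, `ε ∈ 𝔪_A`, and the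
hypothesis `move`: every `H`-fixed constant of `𝔪_A` is moved by `τ` by an element of `ε 𝔪_A`
(`LocMain9.Setup.IsUnif_move_lt`).

For an `H`-stable finite set `T` of places over `k` with `H`-invariant multiplicities `n`, put
`G = ∏_{P ∈ T} (z' − z'(P))^{n_P}`.  Then `Λ = τG / G` is `≡ 1` modulo `ε 𝔪_A O₁` on the first
side, its orders at the places over `k` are those of `τ_* D − D` (`D = ∑ n_P P`), and on the second
side `Λ ≡ 1 + ε m̄` where `τ b = b (1 + ε (m + s))`, `b = ∏ z'(P)^{n_P}`  (`exists_factor`).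
-/
import Mathlib
import Fermat.Agent.U44.GaussRed3
import Fermat.Agent.U44.Annulus3
import Fermat.Agent.U44.Second3
import Fermat.Agent.U44.FactorPoly9

set_option autoImplicit false

open AlgebraicCurve IsLocalRing

namespace Fermat.Agent.U44.NodeFactor9

open Polynomial Fermat.Agent.T33.NodalCtx1 Fermat.Agent.T33.NodalCurve6
  Fermat.Agent.T33.NodalAbs1A Fermat.Agent.X0.FF Fermat.Agent.U44.GaussRed3
  Fermat.Agent.U44.Annulus3 Fermat.Agent.U44.Second3 Fermat.Agent.U44.FactorPoly9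

variable {K : Type*} [Field K] {A : ValuationSubring K}
variable {F : Type*} [Field F] [Algebra K F]

/-! ### evaluation of polynomials with coefficients which move little -/

section Aeval

variable {Fb : Type*} [Field Fb] [Algebra (ResidueField A) Fb]
variable {R : HalfRed A F Fb} {τ : SemilinearAut K F} {ε : K}

/-- `τ`-fixed constants move little. -/
theorem exists_move_of_fixed {c : K} (h : SemilinearAut.baseAut τ c = c) :
    ∃ s : K, Small A s ∧ SemilinearAut.baseAut τ c - c = ε * s :=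
  ⟨0, small_zero, by rw [h, sub_self, mul_zero]⟩

/-- a polynomial all of whose coefficients move little, evaluated at a `τ`-fixed element of `O`. -/
theorem smallMove_aeval {z : F} (hz : z ∈ R.O) (hτz : τ • z = z) (p : K[X])
    (hp : ∀ i, ∃ s : K, Small A s ∧ SemilinearAut.baseAut τ (p.coeff i) - p.coeff i = ε * s) :
    SmallMove R τ ε (aeval z p) := by
  rw [aeval_eq_sum_range]
  refine SmallMove.sum _ _ fun i _ => ?_
  obtain ⟨s, hs, hcs⟩ := hp i
  rw [Algebra.smul_def]
  exact smallMove_const_mul hs hcs (R.O.pow_mem hz i) (by rw [smul_pow', hτz])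

end Aeval

variable {Fb₁ Fb₂ : Type*} [Field Fb₁] [Field Fb₂]
  [Algebra (ResidueField A) Fb₁] [Algebra (ResidueField A) Fb₂]
variable {ι : Type*} {Nd : NodalData (ResidueField A) Fb₁ Fb₂ ι}
variable {N : NodalRed A F Nd} {k : ι}

/-- the values of the annulus coordinate are equivariant under a semilinear automorphism fixing
the coordinate. -/
theorem value_smul (X : AnnCoord N k) (σ : SemilinearAut K F) (hσ : σ • X.zp = X.zp)
    (P : Place K F) (hP : N.RedToNode P k) (hσP : N.RedToNode (σ • P) k) :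
    X.value (σ • P) = SemilinearAut.baseAut σ (X.value P) := by
  by_contra hne
  have h1 := X.value_spec (σ • P) hσP
  have h2 : 0 < (σ • P).ord (X.zp - algebraMap K F (SemilinearAut.baseAut σ (X.value P))) := by
    have h := X.value_spec P hP
    rw [← SemilinearAut.ord_smul σ P, smul_sub, hσ, SemilinearAut.smul_algebraMap] at h
    exact h
  have hd : (X.zp - algebraMap K F (SemilinearAut.baseAut σ (X.value P))) -
      (X.zp - algebraMap K F (X.value (σ • P))) =
      algebraMap K F (X.value (σ • P) - SemilinearAut.baseAut σ (X.value P)) := by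
    rw [map_sub]; ring
  have hne' : (X.zp - algebraMap K F (SemilinearAut.baseAut σ (X.value P))) -
      (X.zp - algebraMap K F (X.value (σ • P))) ≠ 0 := by
    rw [hd, ne_eq, _root_.map_eq_zero, sub_eq_zero]
    exact hne
  have h3 := ord_sub_ge (σ • P) hne'
  rw [hd, ord_algebraMap] at h3
  have : 0 < min ((σ • P).ord (X.zp - algebraMap K F (SemilinearAut.baseAut σ (X.value P))))
      ((σ • P).ord (X.zp - algebraMap K F (X.value (σ • P)))) := lt_min h2 h1
  omega

/-- **the hypotheses on `τ`, `H`, `ε`** at the node `k`. -/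
structure FactorHyp (X : AnnCoord N k) (τ : SemilinearAut K F) (H : Set (SemilinearAut K F))
    (ε : K) : Prop where
  side₁ : SideCompat N.c₁ τ
  side₂ : SideCompat N.c₂ τ
  τ_zp : τ • X.zp = X.zp
  τ_ϖ : SemilinearAut.baseAut τ X.ϖ = X.ϖ
  τ_node : ∀ P : Place K F, N.RedToNode (τ • P) k ↔ N.RedToNode P k
  H_zp : ∀ σ ∈ H, σ • X.zp = X.zp
  H_ϖ : ∀ σ ∈ H, SemilinearAut.baseAut σ X.ϖ = X.ϖ
  H_node : ∀ σ ∈ H, ∀ P : Place K F, N.RedToNode P k → N.RedToNode (σ • P) k
  ε_small : Small A ε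
  move : ∀ c : K, (∀ σ ∈ H, SemilinearAut.baseAut σ c = c) → Small A c →
    ∃ s : K, Small A s ∧ SemilinearAut.baseAut τ c - c = ε * s

namespace FactorHyp

variable {X : AnnCoord N k} {τ : SemilinearAut K F} {H : Set (SemilinearAut K F)} {ε : K}

theorem τ_y₂ (h : FactorHyp X τ H ε) : τ • X.y₂ = X.y₂ := by
  have h1 := h.τ_zp
  rw [X.zp_eq, smul_mul', SemilinearAut.smul_algebraMap, h.τ_ϖ] at h1
  have hϖ : algebraMap K F X.ϖ ≠ 0 := by
    rw [ne_eq, _root_.map_eq_zero]
    exact X.ϖ_ne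
  exact mul_left_cancel₀ hϖ h1

theorem inv_node (h : FactorHyp X τ H ε) (Q : Place K F) (hQ : N.RedToNode Q k) :
    N.RedToNode (τ⁻¹ • Q) k := by
  rw [← h.τ_node, smul_inv_smul]
  exact hQ

end FactorHyp

/-! ### the one-signed products -/

section OneSigned

variable (X : AnnCoord N k) (T : Finset (Place K F)) (e : Place K F → ℕ)

/-- `∏_{P ∈ T} (z' − z'(P))^{e_P}`. -/
noncomputable def G : F := ∏ P ∈ T, (X.zp - algebraMap K F (X.value P)) ^ e P

/-- `∏_{P ∈ T} (X − z'(P))^{e_P} ∈ K[X]`. -/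
noncomputable def Bp : K[X] := ∏ P ∈ T, (Polynomial.X - C (X.value P)) ^ e P

/-- `∏_{P ∈ T} ((ϖ / z'(P)) X − 1)^{e_P} ∈ K[X]`. -/
noncomputable def Ep : K[X] := ∏ P ∈ T, (C (X.ϖ / X.value P) * Polynomial.X - 1) ^ e P

/-- `∏_{P ∈ T} z'(P)^{e_P}`. -/
noncomputable def cst : K := ∏ P ∈ T, X.value P ^ e P

theorem aeval_Bp : aeval X.zp (Bp X T e) = G X T e := by
  unfold Bp G
  rw [map_prod]
  refine Finset.prod_congr rfl fun P _ => ?_
  rw [map_pow, map_sub, aeval_X, aeval_C]

/-- the product `∏ ((ϖ / z'(P)) y₂ − 1)^{e_P}`. -/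
theorem aeval_Ep : aeval X.y₂ (Ep X T e) =
    ∏ P ∈ T, (algebraMap K F (X.ϖ / X.value P) * X.y₂ - 1) ^ e P := by
  unfold Ep
  rw [map_prod]
  refine Finset.prod_congr rfl fun P _ => ?_
  rw [map_pow, map_sub, map_mul, aeval_X, aeval_C, map_one]

variable {X T e}

theorem G_eq (hT : ∀ P ∈ T, N.RedToNode P k) :
    G X T e = algebraMap K F (cst X T e) * aeval X.y₂ (Ep X T e) := by
  rw [aeval_Ep]
  unfold G cst
  rw [map_prod, ← Finset.prod_mul_distrib]
  refine Finset.prod_congr rfl fun P hP => ?_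
  rw [map_pow, ← mul_pow]
  congr 1
  have ha : algebraMap K F (X.value P) ≠ 0 := by
    rw [ne_eq, _root_.map_eq_zero]
    exact X.value_ne P (hT P hP)
  rw [X.zp_eq, map_div₀]
  field_simp

theorem dist_Bp (hT : ∀ P ∈ T, N.RedToNode P k) :
    Dist A (Bp X T e) (∑ P ∈ T, e P * 1) :=
  dist_prod T _ _ fun P hP => (dist_X_sub_C (X.value_small P (hT P hP))).pow (e P)

theorem rev_Ep (hT : ∀ P ∈ T, N.RedToNode P k) : Rev A (Ep X T e) :=
  rev_prod T _ fun P hP => (rev_mul_X_sub_one (X.value_big P (hT P hP))).pow (e P)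

/-- the factors of `G` on the first side. -/
theorem isGU_factor₁ {a : K} (ha : Small A a) : IsGU N.c₁ (X.zp - algebraMap K F a) := by
  have hm : X.zp - algebraMap K F a ∈ N.c₁.O := N.c₁.O.sub_mem X.zp_mem (const_mem N.c₁ ha.1)
  refine ⟨hm, ?_⟩
  rw [red_sub N.c₁ X.zp_mem (const_mem N.c₁ ha.1), red_const_small N.c₁ ha, sub_zero]
  exact X.red_zp_ne

theorem isGU_G (hT : ∀ P ∈ T, N.RedToNode P k) : IsGU N.c₁ (G X T e) :=
  isGU_prod T _ fun P hP => (isGU_factor₁ (X.value_small P (hT P hP))).pow (e P)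

/-- the factors on the second side. -/
theorem isGU_factor₂ {b : K} (hb : Small A b) : IsGU N.c₂ (algebraMap K F b * X.y₂ - 1) := by
  have hm : algebraMap K F b * X.y₂ ∈ N.c₂.O := N.c₂.O.mul_mem (const_mem N.c₂ hb.1) X.y₂_gu.1
  refine ⟨N.c₂.O.sub_mem hm N.c₂.O.one_mem, ?_⟩
  rw [red_sub N.c₂ hm N.c₂.O.one_mem, red_small_mul hb X.y₂_gu.1, red_one, zero_sub]
  exact neg_ne_zero.2 one_ne_zero

theorem isGU_aeval_Ep (hT : ∀ P ∈ T, N.RedToNode P k) : IsGU N.c₂ (aeval X.y₂ (Ep X T e)) := by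
  rw [aeval_Ep]
  exact isGU_prod T _ fun P hP => (isGU_factor₂ (X.value_big P (hT P hP))).pow (e P)

theorem cst_ne (hT : ∀ P ∈ T, N.RedToNode P k) : cst X T e ≠ 0 :=
  Finset.prod_ne_zero_iff.2 fun P hP => pow_ne_zero _ (X.value_ne P (hT P hP))

theorem G_ne (hT : ∀ P ∈ T, N.RedToNode P k) : G X T e ≠ 0 := (isGU_G hT).ne_zero

open scoped Classical in
/-- the orders of `G` at the places over the node. -/
theorem ord_G (hT : ∀ P ∈ T, N.RedToNode P k) (Q : Place K F) (hQ : N.RedToNode Q k) :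
    Q.ord (G X T e) = if Q ∈ T then (e Q : ℤ) else 0 := by
  classical
  have hne : ∀ P ∈ T, (X.zp - algebraMap K F (X.value P)) ^ e P ≠ 0 := fun P hP =>
    pow_ne_zero _ (isGU_factor₁ (X.value_small P (hT P hP))).ne_zero
  unfold G
  rw [ord_finset_prod Q T _ hne]
  have hterm : ∀ P ∈ T, Q.ord ((X.zp - algebraMap K F (X.value P)) ^ e P) =
      if P = Q then (e Q : ℤ) else 0 := by
    intro P hP
    rw [ord_pow]
    by_cases hPQ : P = Q
    · rw [if_pos hPQ, hPQ, X.simple Q hQ, mul_one]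
    · have h0 := X.ord_lin_value_of_ne P Q (hT P hP) hQ (fun h => hPQ h.symm)
      have e1 : X.zp - algebraMap K F (X.value P) = -(X.lin (X.value P)) := by
        rw [AnnCoord.lin]; ring
      rw [if_neg hPQ, e1, ord_neg, h0, mul_zero]
  rw [Finset.sum_congr rfl hterm, Finset.sum_ite_eq' T Q]

end OneSigned

/-! ### invariance of the coefficients under `H` -/

section Invariance

variable {X : AnnCoord N k} {τ : SemilinearAut K F} {H : Set (SemilinearAut K F)} {ε : K}
variable {T : Finset (Place K F)} {e : Place K F → ℕ}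

theorem map_Bp (h : FactorHyp X τ H ε) (hT : ∀ P ∈ T, N.RedToNode P k)
    (hst : ∀ σ ∈ H, ∀ P ∈ T, σ • P ∈ T ∧ e (σ • P) = e P) (σ : SemilinearAut K F) (hσ : σ ∈ H) :
    (Bp X T e).map (SemilinearAut.baseAut σ : K →+* K) = Bp X T e := by
  unfold Bp
  rw [Polynomial.map_prod]
  have h1 : ∀ P ∈ T, ((Polynomial.X - C (X.value P)) ^ e P).map
      (SemilinearAut.baseAut σ : K →+* K) =
      (Polynomial.X - C (X.value (σ • P))) ^ e (σ • P) := by
    intro P hP
    rw [Polynomial.map_pow, Polynomial.map_sub, Polynomial.map_X, Polynomial.map_C,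
      (hst σ hσ P hP).2, value_smul X σ (h.H_zp σ hσ) P (hT P hP) (h.H_node σ hσ P (hT P hP))]
    rfl
  rw [Finset.prod_congr rfl h1]
  exact prod_comp_self T (fun P => σ • P) (fun P hP => (hst σ hσ P hP).1)
    (fun P _ Q _ hPQ => MulAction.injective σ hPQ)
    (fun P => (Polynomial.X - C (X.value P)) ^ e P)

theorem map_Ep (h : FactorHyp X τ H ε) (hT : ∀ P ∈ T, N.RedToNode P k)
    (hst : ∀ σ ∈ H, ∀ P ∈ T, σ • P ∈ T ∧ e (σ • P) = e P) (σ : SemilinearAut K F) (hσ : σ ∈ H) :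
    (Ep X T e).map (SemilinearAut.baseAut σ : K →+* K) = Ep X T e := by
  unfold Ep
  rw [Polynomial.map_prod]
  have h1 : ∀ P ∈ T, ((C (X.ϖ / X.value P) * Polynomial.X - 1) ^ e P).map
      (SemilinearAut.baseAut σ : K →+* K) =
      (C (X.ϖ / X.value (σ • P)) * Polynomial.X - 1) ^ e (σ • P) := by
    intro P hP
    have hq : (SemilinearAut.baseAut σ : K →+* K) (X.ϖ / X.value P) =
        X.ϖ / X.value (σ • P) := by
      rw [value_smul X σ (h.H_zp σ hσ) P (hT P hP) (h.H_node σ hσ P (hT P hP))]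
      show SemilinearAut.baseAut σ (X.ϖ / X.value P) = _
      rw [map_div₀, h.H_ϖ σ hσ]
    rw [Polynomial.map_pow, Polynomial.map_sub, Polynomial.map_mul, Polynomial.map_X,
      Polynomial.map_C, Polynomial.map_one, (hst σ hσ P hP).2, hq]
  rw [Finset.prod_congr rfl h1]
  exact prod_comp_self T (fun P => σ • P) (fun P hP => (hst σ hσ P hP).1)
    (fun P _ Q _ hPQ => MulAction.injective σ hPQ)
    (fun P => (C (X.ϖ / X.value P) * Polynomial.X - 1) ^ e P)

theorem coeff_fixed {p : K[X]} {σ : SemilinearAut K F}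
    (hp : p.map (SemilinearAut.baseAut σ : K →+* K) = p) (i : ℕ) :
    SemilinearAut.baseAut σ (p.coeff i) = p.coeff i := by
  conv_rhs => rw [← hp]
  rw [coeff_map]
  rfl

/-- `G` moves little on the first side. -/
theorem smallMove_G (h : FactorHyp X τ H ε) (hT : ∀ P ∈ T, N.RedToNode P k)
    (hst : ∀ σ ∈ H, ∀ P ∈ T, σ • P ∈ T ∧ e (σ • P) = e P) :
    SmallMove N.c₁ τ ε (G X T e) := by
  rw [← aeval_Bp]
  refine smallMove_aeval X.zp_mem h.τ_zp _ fun i => ?_
  have hd := dist_Bp (X := X) (e := e) hT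
  rcases lt_trichotomy i (∑ P ∈ T, e P * 1) with hi | hi | hi
  · exact h.move _ (fun σ hσ => coeff_fixed (map_Bp h hT hst σ hσ) i) (hd.2.2 i hi)
  · have : (Bp X T e).coeff i = 1 := by
      rw [hi, ← hd.2.1]
      exact hd.1
    rw [this]
    exact exists_move_of_fixed (map_one _)
  · rw [coeff_eq_zero_of_natDegree_lt (by rw [hd.2.1]; exact hi)]
    exact exists_move_of_fixed (map_zero _)

/-- the second-side cofactor of `G` moves little. -/
theorem smallMove_aeval_Ep (h : FactorHyp X τ H ε) (hT : ∀ P ∈ T, N.RedToNode P k)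
    (hst : ∀ σ ∈ H, ∀ P ∈ T, σ • P ∈ T ∧ e (σ • P) = e P) :
    SmallMove N.c₂ τ ε (aeval X.y₂ (Ep X T e)) := by
  refine smallMove_aeval X.y₂_gu.1 h.τ_y₂ _ fun i => ?_
  have hr := rev_Ep (X := X) (e := e) hT
  rcases Nat.eq_zero_or_pos i with hi | hi
  · subst hi
    rcases hr.1 with h0 | h0
    · rw [h0]; exact exists_move_of_fixed (map_one _)
    · rw [h0]; exact exists_move_of_fixed (by rw [map_neg, map_one])
  · exact h.move _ (fun σ hσ => coeff_fixed (map_Ep h hT hst σ hσ) i) (hr.2 i hi)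

/-- the one-signed factor `τ G / G`. -/
noncomputable def L (X : AnnCoord N k) (τ : SemilinearAut K F) (T : Finset (Place K F))
    (e : Place K F → ℕ) : F := τ • G X T e / G X T e

theorem near_L₁ (h : FactorHyp X τ H ε) (hT : ∀ P ∈ T, N.RedToNode P k)
    (hst : ∀ σ ∈ H, ∀ P ∈ T, σ • P ∈ T ∧ e (σ • P) = e P) : Near N.c₁ ε (L X τ T e) 0 :=
  (smallMove_G h hT hst).near (isGU_G hT)

theorem L_eq₂ (hT : ∀ P ∈ T, N.RedToNode P k) :
    L X τ T e = algebraMap K F (SemilinearAut.baseAut τ (cst X T e) / cst X T e) *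
      (τ • aeval X.y₂ (Ep X T e) / aeval X.y₂ (Ep X T e)) := by
  unfold L
  rw [G_eq hT, smul_mul', SemilinearAut.smul_algebraMap, map_div₀]
  have h1 : algebraMap K F (cst X T e) ≠ 0 := by
    rw [ne_eq, _root_.map_eq_zero]
    exact cst_ne hT
  have h2 : aeval X.y₂ (Ep X T e) ≠ 0 := (isGU_aeval_Ep (e := e) hT).ne_zero
  field_simp

theorem near_cofactor₂ (h : FactorHyp X τ H ε) (hT : ∀ P ∈ T, N.RedToNode P k)
    (hst : ∀ σ ∈ H, ∀ P ∈ T, σ • P ∈ T ∧ e (σ • P) = e P) :
    Near N.c₂ ε (τ • aeval X.y₂ (Ep X T e) / aeval X.y₂ (Ep X T e)) 0 :=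
  (smallMove_aeval_Ep h hT hst).near (isGU_aeval_Ep hT)

theorem L_ne (h : FactorHyp X τ H ε) (hT : ∀ P ∈ T, N.RedToNode P k) : L X τ T e ≠ 0 := by
  unfold L
  exact div_ne_zero (h.side₁.isGU (isGU_G hT)).ne_zero (G_ne hT)

open scoped Classical in
theorem ord_L (h : FactorHyp X τ H ε) (hT : ∀ P ∈ T, N.RedToNode P k) (Q : Place K F)
    (hQ : N.RedToNode Q k) :
    Q.ord (L X τ T e) = (if τ⁻¹ • Q ∈ T then (e (τ⁻¹ • Q) : ℤ) else 0) -
      (if Q ∈ T then (e Q : ℤ) else 0) := by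
  unfold L
  have h1 : (τ • G X T e) ≠ 0 := (h.side₁.isGU (isGU_G hT)).ne_zero
  rw [div_eq_mul_inv, Q.ord_mul h1 (inv_ne_zero (G_ne hT)), Place.ord_inv, ord_G hT Q hQ]
  have h2 : Q.ord (τ • G X T e) = (τ⁻¹ • Q).ord (G X T e) := by
    have := SemilinearAut.ord_smul τ (τ⁻¹ • Q) (G X T e)
    rwa [smul_inv_smul] at this
  rw [h2, ord_G hT _ (h.inv_node Q hQ)]
  ring

end Invariance

/-! ### the signed factor -/

section Signed

variable {X : AnnCoord N k} {τ : SemilinearAut K F} {H : Set (SemilinearAut K F)} {ε : K}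
variable {T : Finset (Place K F)} {n : Place K F → ℤ}

theorem cst_div (hT : ∀ P ∈ T, N.RedToNode P k) :
    cst X T (fun P => (n P).toNat) / cst X T (fun P => (-n P).toNat) =
      ∏ P ∈ T, X.value P ^ n P := by
  unfold cst
  rw [← Finset.prod_div_distrib]
  refine Finset.prod_congr rfl fun P hP => ?_
  have ha := X.value_ne P (hT P hP)
  have : n P = ((n P).toNat : ℤ) - ((-n P).toNat : ℤ) := (Int.toNat_sub_toNat_neg (n P)).symm
  conv_rhs => rw [this]
  rw [zpow_sub₀ ha, zpow_natCast, zpow_natCast]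

open scoped Classical in
/-- **the local factor at the node `k`.** -/
theorem exists_factor (h : FactorHyp X τ H ε) (hT : ∀ P ∈ T, N.RedToNode P k)
    (hst : ∀ σ ∈ H, ∀ P ∈ T, σ • P ∈ T ∧ n (σ • P) = n P) :
    ∃ Λ : F, Λ ≠ 0 ∧ Near N.c₁ ε Λ 0 ∧
      (∀ Q : Place K F, N.RedToNode Q k →
        Q.ord Λ = (if τ⁻¹ • Q ∈ T then n (τ⁻¹ • Q) else 0) - (if Q ∈ T then n Q else 0)) ∧
      (∀ σ ∈ H, SemilinearAut.baseAut σ (∏ P ∈ T, X.value P ^ n P) = ∏ P ∈ T, X.value P ^ n P) ∧
      ∀ (m : A) (s : K), Small A s →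
        SemilinearAut.baseAut τ (∏ P ∈ T, X.value P ^ n P) =
          (∏ P ∈ T, X.value P ^ n P) * (1 + ε * ((m : K) + s)) →
        Near N.c₂ ε Λ (algebraMap (ResidueField A) Fb₂ (residue A m)) := by
  classical
  set ep : Place K F → ℕ := fun P => (n P).toNat with hep
  set em : Place K F → ℕ := fun P => (-n P).toNat with hem
  have hstp : ∀ σ ∈ H, ∀ P ∈ T, σ • P ∈ T ∧ ep (σ • P) = ep P := fun σ hσ P hP =>
    ⟨(hst σ hσ P hP).1, by rw [hep]; simp only; rw [(hst σ hσ P hP).2]⟩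
  have hstm : ∀ σ ∈ H, ∀ P ∈ T, σ • P ∈ T ∧ em (σ • P) = em P := fun σ hσ P hP =>
    ⟨(hst σ hσ P hP).1, by rw [hem]; simp only; rw [(hst σ hσ P hP).2]⟩
  have hε := h.ε_small
  refine ⟨L X τ T ep / L X τ T em, div_ne_zero (L_ne h hT) (L_ne h hT), ?_, ?_, ?_, ?_⟩
  · have := (near_L₁ h hT hstp).div hε (near_L₁ h hT hstm)
    rwa [sub_zero] at this
  · intro Q hQ
    rw [div_eq_mul_inv, Q.ord_mul (L_ne h hT) (inv_ne_zero (L_ne h hT)), Place.ord_inv,
      ord_L h hT Q hQ, ord_L h hT Q hQ]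
    have e1 : ∀ P : Place K F, ((ep P : ℤ)) - (em P : ℤ) = n P := fun P =>
      Int.toNat_sub_toNat_neg (n P)
    by_cases h1 : τ⁻¹ • Q ∈ T <;> by_cases h2 : Q ∈ T
    · rw [if_pos h1, if_pos h1, if_pos h2, if_pos h2, if_pos h1, if_pos h2,
        ← e1 (τ⁻¹ • Q), ← e1 Q]; ring
    · rw [if_pos h1, if_pos h1, if_neg h2, if_neg h2, if_pos h1, if_neg h2, ← e1 (τ⁻¹ • Q)]; ring
    · rw [if_neg h1, if_neg h1, if_pos h2, if_pos h2, if_neg h1, if_pos h2, ← e1 Q]; ring
    · rw [if_neg h1, if_neg h1, if_neg h2, if_neg h2, if_neg h1, if_neg h2]; ring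
  · intro σ hσ
    rw [map_prod]
    have h1 : ∀ P ∈ T, SemilinearAut.baseAut σ (X.value P ^ n P) =
        X.value (σ • P) ^ n (σ • P) := by
      intro P hP
      rw [map_zpow₀, (hst σ hσ P hP).2,
        value_smul X σ (h.H_zp σ hσ) P (hT P hP) (h.H_node σ hσ P (hT P hP))]
    rw [Finset.prod_congr rfl h1]
    exact prod_comp_self T (fun P => σ • P) (fun P hP => (hst σ hσ P hP).1)
      (fun P _ Q _ hPQ => MulAction.injective σ hPQ) (fun P => X.value P ^ n P)
  · intro m s hs hb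
    set b : K := ∏ P ∈ T, X.value P ^ n P with hbdef
    have hb0 : b ≠ 0 := Finset.prod_ne_zero_iff.2 fun P hP =>
      zpow_ne_zero _ (X.value_ne P (hT P hP))
    have hcp := cst_ne (X := X) (e := ep) hT
    have hcm := cst_ne (X := X) (e := em) hT
    have hdiv : cst X T ep / cst X T em = b := cst_div hT
    -- the constant part
    have hμ : (SemilinearAut.baseAut τ (cst X T ep) / cst X T ep) /
        (SemilinearAut.baseAut τ (cst X T em) / cst X T em) = 1 + ε * ((m : K) + s) := by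
      have h1 : SemilinearAut.baseAut τ (cst X T ep) / SemilinearAut.baseAut τ (cst X T em) =
          b * (1 + ε * ((m : K) + s)) := by
        rw [← map_div₀, hdiv, hb]
      have h2 : SemilinearAut.baseAut τ (cst X T em) ≠ 0 := by
        rw [ne_eq, _root_.map_eq_zero]; exact hcm
      have h3 : SemilinearAut.baseAut τ (cst X T ep) =
          b * (1 + ε * ((m : K) + s)) * SemilinearAut.baseAut τ (cst X T em) := by
        rw [← h1, div_mul_cancel₀ _ h2]
      have h4 : cst X T ep = b * cst X T em := by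
        rw [← hdiv, div_mul_cancel₀ _ hcm]
      rw [h3, h4]
      field_simp
    have hnc := near_const (R := N.c₂) (ε := ε) (μ := 1 + ε * ((m : K) + s)) m.2 hs rfl
    have hcof := (near_cofactor₂ h hT hstp).div hε (near_cofactor₂ h hT hstm)
    rw [sub_zero] at hcof
    have hmul := hnc.mul hε hcof
    rw [add_zero] at hmul
    have hΛ : L X τ T ep / L X τ T em =
        algebraMap K F (1 + ε * ((m : K) + s)) *
          ((τ • aeval X.y₂ (Ep X T ep) / aeval X.y₂ (Ep X T ep)) /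
            (τ • aeval X.y₂ (Ep X T em) / aeval X.y₂ (Ep X T em))) := by
      rw [L_eq₂ hT, L_eq₂ hT, ← hμ, map_div₀ (algebraMap K F)
        (SemilinearAut.baseAut τ (cst X T ep) / cst X T ep)]
      have h5 : algebraMap K F (SemilinearAut.baseAut τ (cst X T em) / cst X T em) ≠ 0 := by
        rw [ne_eq, _root_.map_eq_zero]
        exact div_ne_zero (by rw [ne_eq, _root_.map_eq_zero]; exact hcm) hcm
      have h6 : τ • aeval X.y₂ (Ep X T em) / aeval X.y₂ (Ep X T em) ≠ 0 :=
        div_ne_zero (h.side₂.isGU (isGU_aeval_Ep hT)).ne_zero (isGU_aeval_Ep hT).ne_zero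
      field_simp
    rw [hΛ]
    exact hmul

end Signed

end Fermat.Agent.U44.NodeFactor9
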