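/-
Programme U44 (target S44), block (TR), abstract layer (helper9): **the local factor `Λ_Q` over a
smooth point** of one component (report 116, step (4), (F-smooth)).

Setting: `R : HalfRed A F Fb` one side of a nodal reduction context with its partial reduction of
places `r`, `Y : SmoothCoord R r Q` a coordinate at the smooth point `Q` (`U44/SmoothCoord3`), `τ`
a semilinear automorphism compatible with the side and fixing `y`, `H` a set of semilinear
automorphisms (the image of `I_L`) fixing `y` and preserving the places over `Q`, `ε ∈ 𝔪_A`, and the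
hypothesis `move`: every `H`-fixed constant of `𝔪_A` is moved by `τ` by an element of `ε 𝔪_A`.

* `exists_factor` : for an `H`-stable finite set `T` of places over `Q` with `H`-invariant
  multiplicities `n`, `Λ = τG / G`, `G = ∏_{P ∈ T} (y − y(P))^{n_P}`, is `≡ 1` modulo `ε 𝔪_A O` and
  its orders at the places over `Q` are those of `τ_* D − D` (`D = ∑ n_P P`).
* `near_pair`, `ord_pair` : for two places `P`, `P'` over `Q` with `y(P') − y(P) ∈ ε 𝔪_A` the function
  `(y − y(P)) / (y − y(P'))` is `≡ 1` modulo `ε 𝔪_A O`, with divisor `P − P'` over `Q`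
  (the factors of the `θ`-divisor `E`).
-/
import Mathlib
import Fermat.Agent.U44.GaussRed3
import Fermat.Agent.U44.Annulus3
import Fermat.Agent.U44.Second3
import Fermat.Agent.U44.SmoothCoord3
import Fermat.Agent.U44.FactorPoly9
import Fermat.Agent.U44.NodeFactor9

set_option autoImplicit false

open AlgebraicCurve IsLocalRing

namespace Fermat.Agent.U44.SmoothFactor9

open Polynomial Fermat.Agent.T33.NodalCtx1 Fermat.Agent.X0.FF Fermat.Agent.U44.GaussRed3
  Fermat.Agent.U44.Annulus3 Fermat.Agent.U44.Second3 Fermat.Agent.U44.SmoothCoord3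
  Fermat.Agent.U44.FactorPoly9 Fermat.Agent.U44.NodeFactor9

variable {K : Type*} [Field K] {A : ValuationSubring K}
variable {F : Type*} [Field F] [Algebra K F]
variable {Fb : Type*} [Field Fb] [Algebra (ResidueField A) Fb]
variable {R : HalfRed A F Fb} {r : Place K F → Option (Place (ResidueField A) Fb)}
  {Q : Place (ResidueField A) Fb}

/-- the values of the coordinate are equivariant under a semilinear automorphism fixing it. -/
theorem value_smul (Y : SmoothCoord R r Q) (σ : SemilinearAut K F) (hσ : σ • Y.y = Y.y)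
    (P : Place K F) (hP : r P = some Q) (hσP : r (σ • P) = some Q) :
    Y.value (σ • P) = SemilinearAut.baseAut σ (Y.value P) := by
  refine (Y.value_eq hσP ?_).symm
  have h := Y.value_spec P hP
  rw [← SemilinearAut.ord_smul σ P, smul_sub, hσ, SemilinearAut.smul_algebraMap] at h
  exact h

/-- **the hypotheses on `τ`, `H`, `ε`** at the smooth point `Q`. -/
structure SmoothHyp (Y : SmoothCoord R r Q) (τ : SemilinearAut K F)
    (H : Set (SemilinearAut K F)) (ε : K) : Prop where
  side : SideCompat R τ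
  τ_y : τ • Y.y = Y.y
  τ_pt : ∀ P : Place K F, r (τ • P) = some Q ↔ r P = some Q
  H_y : ∀ σ ∈ H, σ • Y.y = Y.y
  H_pt : ∀ σ ∈ H, ∀ P : Place K F, r P = some Q → r (σ • P) = some Q
  ε_small : Small A ε
  move : ∀ c : K, (∀ σ ∈ H, SemilinearAut.baseAut σ c = c) → Small A c →
    ∃ s : K, Small A s ∧ SemilinearAut.baseAut τ c - c = ε * s

namespace SmoothHyp

variable {Y : SmoothCoord R r Q} {τ : SemilinearAut K F} {H : Set (SemilinearAut K F)} {ε : K}

theorem inv_pt (h : SmoothHyp Y τ H ε) (P : Place K F) (hP : r P = some Q) :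
    r (τ⁻¹ • P) = some Q := by
  rw [← h.τ_pt, smul_inv_smul]
  exact hP

end SmoothHyp

/-! ### linear factors -/

section Lin

variable (Y : SmoothCoord R r Q)

theorem isGU_factor {a : K} (ha : Small A a) : IsGU R (Y.y - algebraMap K F a) := by
  have hm : Y.y - algebraMap K F a ∈ R.O := R.O.sub_mem Y.y_mem (const_mem R ha.1)
  refine ⟨hm, ?_⟩
  rw [red_sub R Y.y_mem (const_mem R ha.1), red_const_small R ha, sub_zero]
  exact Y.red_y_ne

open scoped Classical in
/-- the order of a linear factor at a place over `Q`. -/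
theorem ord_factor (P Z : Place K F) (hP : r P = some Q) (hZ : r Z = some Q) :
    Z.ord (Y.y - algebraMap K F (Y.value P)) = if P = Z then 1 else 0 := by
  by_cases hPZ : P = Z
  · rw [if_pos hPZ, ← hPZ]
    exact Y.simple P hP
  · rw [if_neg hPZ]
    have hval : Y.value Z ≠ Y.value P := by
      intro hv
      have h1 := Y.value_spec Z hZ
      rw [hv] at h1
      exact hPZ (Y.unique P Z hP hZ h1).symm
    have hc : algebraMap K F (Y.value Z - Y.value P) ≠ 0 := by
      rw [ne_eq, _root_.map_eq_zero, sub_eq_zero]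
      exact hval
    have e : Y.y - algebraMap K F (Y.value P) =
        algebraMap K F (Y.value Z - Y.value P) + (Y.y - algebraMap K F (Y.value Z)) := by
      rw [map_sub]; ring
    rw [e, ord_add_eq_of_lt Z hc (by rw [ord_algebraMap]; exact Y.value_spec Z hZ),
      ord_algebraMap]

end Lin

/-! ### the one-signed products -/

section OneSigned

variable (Y : SmoothCoord R r Q) (T : Finset (Place K F)) (e : Place K F → ℕ)

/-- `∏_{P ∈ T} (y − y(P))^{e_P}`. -/
noncomputable def G : F := ∏ P ∈ T, (Y.y - algebraMap K F (Y.value P)) ^ e P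

/-- `∏_{P ∈ T} (X − y(P))^{e_P} ∈ K[X]`. -/
noncomputable def Bp : K[X] := ∏ P ∈ T, (Polynomial.X - C (Y.value P)) ^ e P

theorem aeval_Bp : aeval Y.y (Bp Y T e) = G Y T e := by
  unfold Bp G
  rw [map_prod]
  refine Finset.prod_congr rfl fun P _ => ?_
  rw [map_pow, map_sub, aeval_X, aeval_C]

variable {Y T e}

theorem dist_Bp (hT : ∀ P ∈ T, r P = some Q) : Dist A (Bp Y T e) (∑ P ∈ T, e P * 1) :=
  dist_prod T _ _ fun P hP => (dist_X_sub_C (Y.value_small P (hT P hP))).pow (e P)

theorem isGU_G (hT : ∀ P ∈ T, r P = some Q) : IsGU R (G Y T e) :=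
  isGU_prod T _ fun P hP => (isGU_factor Y (Y.value_small P (hT P hP))).pow (e P)

theorem G_ne (hT : ∀ P ∈ T, r P = some Q) : G Y T e ≠ 0 := (isGU_G hT).ne_zero

open scoped Classical in
/-- the orders of `G` at the places over `Q`. -/
theorem ord_G (hT : ∀ P ∈ T, r P = some Q) (Z : Place K F) (hZ : r Z = some Q) :
    Z.ord (G Y T e) = if Z ∈ T then (e Z : ℤ) else 0 := by
  have hne : ∀ P ∈ T, (Y.y - algebraMap K F (Y.value P)) ^ e P ≠ 0 := fun P hP =>
    pow_ne_zero _ (isGU_factor Y (Y.value_small P (hT P hP))).ne_zero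
  unfold G
  rw [ord_finset_prod Z T _ hne]
  have hterm : ∀ P ∈ T, Z.ord ((Y.y - algebraMap K F (Y.value P)) ^ e P) =
      if P = Z then (e Z : ℤ) else 0 := by
    intro P hP
    rw [ord_pow, ord_factor Y P Z (hT P hP) hZ]
    by_cases hPZ : P = Z
    · rw [if_pos hPZ, if_pos hPZ, hPZ, mul_one]
    · rw [if_neg hPZ, if_neg hPZ, mul_zero]
  rw [Finset.sum_congr rfl hterm, Finset.sum_ite_eq' T Z]

end OneSigned

/-! ### invariance of the coefficients under `H` -/

section Invariance

variable {Y : SmoothCoord R r Q} {τ : SemilinearAut K F} {H : Set (SemilinearAut K F)} {ε : K}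
variable {T : Finset (Place K F)} {e : Place K F → ℕ}

theorem map_Bp (h : SmoothHyp Y τ H ε) (hT : ∀ P ∈ T, r P = some Q)
    (hst : ∀ σ ∈ H, ∀ P ∈ T, σ • P ∈ T ∧ e (σ • P) = e P) (σ : SemilinearAut K F) (hσ : σ ∈ H) :
    (Bp Y T e).map (SemilinearAut.baseAut σ : K →+* K) = Bp Y T e := by
  unfold Bp
  rw [Polynomial.map_prod]
  have h1 : ∀ P ∈ T, ((Polynomial.X - C (Y.value P)) ^ e P).map
      (SemilinearAut.baseAut σ : K →+* K) =
      (Polynomial.X - C (Y.value (σ • P))) ^ e (σ • P) := by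
    intro P hP
    rw [Polynomial.map_pow, Polynomial.map_sub, Polynomial.map_X, Polynomial.map_C,
      (hst σ hσ P hP).2, value_smul Y σ (h.H_y σ hσ) P (hT P hP) (h.H_pt σ hσ P (hT P hP))]
    rfl
  rw [Finset.prod_congr rfl h1]
  exact prod_comp_self T (fun P => σ • P) (fun P hP => (hst σ hσ P hP).1)
    (fun P _ P' _ hPP' => MulAction.injective σ hPP')
    (fun P => (Polynomial.X - C (Y.value P)) ^ e P)

/-- `G` moves little. -/
theorem smallMove_G (h : SmoothHyp Y τ H ε) (hT : ∀ P ∈ T, r P = some Q)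
    (hst : ∀ σ ∈ H, ∀ P ∈ T, σ • P ∈ T ∧ e (σ • P) = e P) :
    SmallMove R τ ε (G Y T e) := by
  rw [← aeval_Bp]
  refine smallMove_aeval Y.y_mem h.τ_y _ fun i => ?_
  have hd := dist_Bp (Y := Y) (e := e) hT
  rcases lt_trichotomy i (∑ P ∈ T, e P * 1) with hi | hi | hi
  · exact h.move _ (fun σ hσ => coeff_fixed (map_Bp h hT hst σ hσ) i) (hd.2.2 i hi)
  · have : (Bp Y T e).coeff i = 1 := by
      rw [hi, ← hd.2.1]
      exact hd.1
    rw [this]
    exact exists_move_of_fixed (map_one _)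
  · rw [coeff_eq_zero_of_natDegree_lt (by rw [hd.2.1]; exact hi)]
    exact exists_move_of_fixed (map_zero _)

/-- the one-signed factor `τ G / G`. -/
noncomputable def L (Y : SmoothCoord R r Q) (τ : SemilinearAut K F) (T : Finset (Place K F))
    (e : Place K F → ℕ) : F := τ • G Y T e / G Y T e

theorem near_L (h : SmoothHyp Y τ H ε) (hT : ∀ P ∈ T, r P = some Q)
    (hst : ∀ σ ∈ H, ∀ P ∈ T, σ • P ∈ T ∧ e (σ • P) = e P) : Near R ε (L Y τ T e) 0 :=
  (smallMove_G h hT hst).near (isGU_G hT)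

theorem L_ne (h : SmoothHyp Y τ H ε) (hT : ∀ P ∈ T, r P = some Q) : L Y τ T e ≠ 0 := by
  unfold L
  exact div_ne_zero (h.side.isGU (isGU_G hT)).ne_zero (G_ne hT)

open scoped Classical in
theorem ord_L (h : SmoothHyp Y τ H ε) (hT : ∀ P ∈ T, r P = some Q) (Z : Place K F)
    (hZ : r Z = some Q) :
    Z.ord (L Y τ T e) = (if τ⁻¹ • Z ∈ T then (e (τ⁻¹ • Z) : ℤ) else 0) -
      (if Z ∈ T then (e Z : ℤ) else 0) := by
  unfold L
  have h1 : (τ • G Y T e) ≠ 0 := (h.side.isGU (isGU_G hT)).ne_zero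
  rw [div_eq_mul_inv, Z.ord_mul h1 (inv_ne_zero (G_ne hT)), Place.ord_inv, ord_G hT Z hZ]
  have h2 : Z.ord (τ • G Y T e) = (τ⁻¹ • Z).ord (G Y T e) := by
    have := SemilinearAut.ord_smul τ (τ⁻¹ • Z) (G Y T e)
    rwa [smul_inv_smul] at this
  rw [h2, ord_G hT _ (h.inv_pt Z hZ)]
  ring

end Invariance

/-! ### the signed factor -/

section Signed

variable {Y : SmoothCoord R r Q} {τ : SemilinearAut K F} {H : Set (SemilinearAut K F)} {ε : K}
variable {T : Finset (Place K F)} {n : Place K F → ℤ}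

open scoped Classical in
/-- **the local factor over the smooth point `Q`.** -/
theorem exists_factor (h : SmoothHyp Y τ H ε) (hT : ∀ P ∈ T, r P = some Q)
    (hst : ∀ σ ∈ H, ∀ P ∈ T, σ • P ∈ T ∧ n (σ • P) = n P) :
    ∃ Λ : F, Λ ≠ 0 ∧ Near R ε Λ 0 ∧
      ∀ Z : Place K F, r Z = some Q →
        Z.ord Λ = (if τ⁻¹ • Z ∈ T then n (τ⁻¹ • Z) else 0) - (if Z ∈ T then n Z else 0) := by
  set ep : Place K F → ℕ := fun P => (n P).toNat with hep
  set em : Place K F → ℕ := fun P => (-n P).toNat with hem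
  have hstp : ∀ σ ∈ H, ∀ P ∈ T, σ • P ∈ T ∧ ep (σ • P) = ep P := fun σ hσ P hP =>
    ⟨(hst σ hσ P hP).1, by rw [hep]; simp only; rw [(hst σ hσ P hP).2]⟩
  have hstm : ∀ σ ∈ H, ∀ P ∈ T, σ • P ∈ T ∧ em (σ • P) = em P := fun σ hσ P hP =>
    ⟨(hst σ hσ P hP).1, by rw [hem]; simp only; rw [(hst σ hσ P hP).2]⟩
  have hε := h.ε_small
  refine ⟨L Y τ T ep / L Y τ T em, div_ne_zero (L_ne h hT) (L_ne h hT), ?_, ?_⟩
  · have := (near_L h hT hstp).div hε (near_L h hT hstm)
    rwa [sub_zero] at this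
  · intro Z hZ
    rw [div_eq_mul_inv, Z.ord_mul (L_ne h hT) (inv_ne_zero (L_ne h hT)), Place.ord_inv,
      ord_L h hT Z hZ, ord_L h hT Z hZ]
    have e1 : ∀ P : Place K F, ((ep P : ℤ)) - (em P : ℤ) = n P := fun P =>
      Int.toNat_sub_toNat_neg (n P)
    by_cases h1 : τ⁻¹ • Z ∈ T <;> by_cases h2 : Z ∈ T
    · rw [if_pos h1, if_pos h1, if_pos h2, if_pos h2, if_pos h1, if_pos h2,
        ← e1 (τ⁻¹ • Z), ← e1 Z]; ring
    · rw [if_pos h1, if_pos h1, if_neg h2, if_neg h2, if_pos h1, if_neg h2, ← e1 (τ⁻¹ • Z)]; ring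
    · rw [if_neg h1, if_neg h1, if_pos h2, if_pos h2, if_neg h1, if_pos h2, ← e1 Z]; ring
    · rw [if_neg h1, if_neg h1, if_neg h2, if_neg h2, if_neg h1, if_neg h2]; ring

end Signed

/-! ### the factors of the `θ`-divisor -/

section Pair

variable (Y : SmoothCoord R r Q) {ε : K}

/-- `(y − a) / (y − a')` is `≡ 1` modulo `ε 𝔪_A O` when `a' − a ∈ ε 𝔪_A`. -/
theorem near_lin_div {a a' s : K} (ha' : Small A a') (hs : Small A s) (h : a' - a = ε * s) :
    Near R ε ((Y.y - algebraMap K F a) / (Y.y - algebraMap K F a')) 0 := by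
  have hgu := isGU_factor Y ha'
  have hm : algebraMap K F s * (Y.y - algebraMap K F a')⁻¹ ∈ R.O :=
    R.O.mul_mem (const_mem R hs.1) hgu.inv_mem
  refine ⟨algebraMap K F s * (Y.y - algebraMap K F a')⁻¹, hm, red_small_mul hs hgu.inv_mem, ?_⟩
  have h0 := hgu.ne_zero
  have e1 : Y.y - algebraMap K F a = (Y.y - algebraMap K F a') + algebraMap K F (a' - a) := by
    rw [map_sub]; ring
  rw [e1, h, map_mul]
  field_simp

/-- the factor `(y − y(P)) / (y − y(P'))` for two places over `Q` whose values differ by an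
element of `ε 𝔪_A`. -/
theorem near_pair {P P' : Place K F} (hP' : r P' = some Q) {s : K} (hs : Small A s)
    (h : Y.value P' - Y.value P = ε * s) :
    Near R ε ((Y.y - algebraMap K F (Y.value P)) / (Y.y - algebraMap K F (Y.value P'))) 0 :=
  near_lin_div Y (Y.value_small P' hP') hs h

theorem pair_ne {P P' : Place K F} (hP : r P = some Q) (hP' : r P' = some Q) :
    (Y.y - algebraMap K F (Y.value P)) / (Y.y - algebraMap K F (Y.value P')) ≠ 0 :=
  div_ne_zero (isGU_factor Y (Y.value_small P hP)).ne_zero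
    (isGU_factor Y (Y.value_small P' hP')).ne_zero

open scoped Classical in
/-- the divisor of the pair factor over `Q` is `P − P'`. -/
theorem ord_pair {P P' : Place K F} (hP : r P = some Q) (hP' : r P' = some Q) (Z : Place K F)
    (hZ : r Z = some Q) :
    Z.ord ((Y.y - algebraMap K F (Y.value P)) / (Y.y - algebraMap K F (Y.value P'))) =
      (if P = Z then 1 else 0) - (if P' = Z then 1 else 0) := by
  rw [div_eq_mul_inv, Z.ord_mul (isGU_factor Y (Y.value_small P hP)).ne_zero
    (inv_ne_zero (isGU_factor Y (Y.value_small P' hP')).ne_zero), Place.ord_inv,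
    ord_factor Y P Z hP hZ, ord_factor Y P' Z hP' hZ]
  ring

end Pair

end Fermat.Agent.U44.SmoothFactor9
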