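/-
Programme U44 (target S44), block (TR), abstract layer (helper3): **the local factors of
`τ D − D`** for a divisor `D` stable under a set `H` of semilinear automorphisms — the factor
lemmas `SmoothFactor9.exists_factor`, `NodeFactor9.exists_factor` (helper9) applied to the part of
`D` over a smooth point, resp. over a node, with the orders rewritten as `(τ • D) Z − D Z`.
-/
import Mathlib
import Fermat.Agent.U44.NodeFactor9
import Fermat.Agent.U44.SmoothFactor9

set_option autoImplicit false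

open AlgebraicCurve IsLocalRing

namespace Fermat.Agent.U44.TRFactor3

open Fermat.Agent.T33.NodalCtx1 Fermat.Agent.T33.NodalCurve6 Fermat.Agent.X0.FF
  Fermat.Agent.U44.GaussRed3 Fermat.Agent.U44.Second3 Fermat.Agent.U44.Annulus3
  Fermat.Agent.U44.SmoothCoord3 AlgebraicCurve.SemilinearAut

variable {K : Type*} [Field K] {A : ValuationSubring K}
variable {F : Type*} [Field F] [Algebra K F]

/-- a divisor fixed by `σ` takes the same value at `P` and `σ P`. -/
theorem apply_smul_of_fixed {σ : SemilinearAut K F} {D : Divisor K F} (hD : σ • D = D)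
    (P : Place K F) : D (σ • P) = D P := by
  have := divisor_smul_apply_smul σ D P
  rwa [hD] at this

section Smooth

variable {Fb : Type*} [Field Fb] [Algebra (ResidueField A) Fb]
variable {R : HalfRed A F Fb} {r : Place K F → Option (Place (ResidueField A) Fb)}
  {Q : Place (ResidueField A) Fb}

/-- **the factor of `τ D − D` over a smooth point.** -/
theorem smooth_factor_D (Y : SmoothCoord R r Q) {τ : SemilinearAut K F}
    {H : Set (SemilinearAut K F)} {ε : K} (hside : SideCompat R τ) (hτy : τ • Y.y = Y.y)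
    (hτr : ∀ P : Place K F, r (τ • P) = r P) (hHy : ∀ σ ∈ H, σ • Y.y = Y.y)
    (hHr : ∀ σ ∈ H, ∀ P : Place K F, r (σ • P) = r P) (hε : Small A ε)
    (hmove : ∀ c : K, (∀ σ ∈ H, baseAut σ c = c) → Small A c →
      ∃ s : K, Small A s ∧ baseAut τ c - c = ε * s)
    (D : Divisor K F) (hD : ∀ σ ∈ H, σ • D = D) :
    ∃ Λ : F, Λ ≠ 0 ∧ Near R ε Λ 0 ∧
      ∀ Z : Place K F, r Z = some Q → Z.ord Λ = (τ • D) Z - D Z := by
  classical
  have hyp : SmoothFactor9.SmoothHyp Y τ H ε :=
    { side := hside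
      τ_y := hτy
      τ_pt := fun P => by rw [hτr]
      H_y := hHy
      H_pt := fun σ hσ P hP => by rw [hHr σ hσ]; exact hP
      ε_small := hε
      move := hmove }
  set T : Finset (Place K F) := D.support.filter fun P => r P = some Q with hT
  have hTmem : ∀ P, P ∈ T ↔ (D P ≠ 0 ∧ r P = some Q) := fun P => by
    rw [hT, Finset.mem_filter, Finsupp.mem_support_iff]
  obtain ⟨Λ, hΛ0, hΛ, hord⟩ := SmoothFactor9.exists_factor (T := T) (n := fun P => D P) hyp
    (fun P hP => ((hTmem P).1 hP).2)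
    (fun σ hσ P hP => by
      have h1 := apply_smul_of_fixed (hD σ hσ) P
      refine ⟨(hTmem _).2 ⟨?_, ?_⟩, h1⟩
      · rw [h1]; exact ((hTmem P).1 hP).1
      · rw [hHr σ hσ]; exact ((hTmem P).1 hP).2)
  refine ⟨Λ, hΛ0, hΛ, fun Z hZ => ?_⟩
  rw [hord Z hZ, divisor_smul_apply]
  have hZ' : r (τ⁻¹ • Z) = some Q := by
    have := hτr (τ⁻¹ • Z)
    rw [smul_inv_smul] at this
    rw [← this]; exact hZ
  have e1 : (if τ⁻¹ • Z ∈ T then D (τ⁻¹ • Z) else 0) = D (τ⁻¹ • Z) := by
    by_cases h : τ⁻¹ • Z ∈ T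
    · rw [if_pos h]
    · rw [if_neg h]
      by_contra hne
      exact h ((hTmem _).2 ⟨fun h0 => hne h0.symm, hZ'⟩)
  have e2 : (if Z ∈ T then D Z else 0) = D Z := by
    by_cases h : Z ∈ T
    · rw [if_pos h]
    · rw [if_neg h]
      by_contra hne
      exact h ((hTmem _).2 ⟨fun h0 => hne h0.symm, hZ⟩)
  rw [e1, e2]

end Smooth

section Node

variable {Fb₁ Fb₂ : Type*} [Field Fb₁] [Field Fb₂]
  [Algebra (ResidueField A) Fb₁] [Algebra (ResidueField A) Fb₂]
variable {ι : Type*} {Nd : NodalData (ResidueField A) Fb₁ Fb₂ ι}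
variable {N : NodalRed A F Nd} {k : ι}

/-- **the factor of `τ D − D` over a node.** -/
theorem node_factor_D {X : AnnCoord N k} {τ : SemilinearAut K F}
    {H : Set (SemilinearAut K F)} {ε : K} (hyp : NodeFactor9.FactorHyp X τ H ε)
    (D : Divisor K F) (hD : ∀ σ ∈ H, σ • D = D) (T : Finset (Place K F))
    (hT : ∀ P, P ∈ T ↔ (N.RedToNode P k ∧ D P ≠ 0)) :
    ∃ Λ : F, Λ ≠ 0 ∧ Near N.c₁ ε Λ 0 ∧
      (∀ Z : Place K F, N.RedToNode Z k → Z.ord Λ = (τ • D) Z - D Z) ∧
      (∀ σ ∈ H, baseAut σ (∏ P ∈ T, X.value P ^ D P) = ∏ P ∈ T, X.value P ^ D P) ∧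
      ∀ (m : A) (s : K), Small A s →
        baseAut τ (∏ P ∈ T, X.value P ^ D P) =
          (∏ P ∈ T, X.value P ^ D P) * (1 + ε * ((m : K) + s)) →
        Near N.c₂ ε Λ (algebraMap (ResidueField A) Fb₂ (residue A m)) := by
  classical
  obtain ⟨Λ, hΛ0, hΛ, hord, hfix, hnear⟩ :=
    NodeFactor9.exists_factor (T := T) (n := fun P => D P) hyp
      (fun P hP => ((hT P).1 hP).1)
      (fun σ hσ P hP => by
        have h1 := apply_smul_of_fixed (hD σ hσ) P
        refine ⟨(hT _).2 ⟨hyp.H_node σ hσ P ((hT P).1 hP).1, ?_⟩, h1⟩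
        rw [h1]; exact ((hT P).1 hP).2)
  refine ⟨Λ, hΛ0, hΛ, fun Z hZ => ?_, hfix, hnear⟩
  rw [hord Z hZ, divisor_smul_apply]
  have hZ' : N.RedToNode (τ⁻¹ • Z) k := hyp.inv_node Z hZ
  have e1 : (if τ⁻¹ • Z ∈ T then D (τ⁻¹ • Z) else 0) = D (τ⁻¹ • Z) := by
    by_cases h : τ⁻¹ • Z ∈ T
    · rw [if_pos h]
    · rw [if_neg h]
      by_contra hne
      exact h ((hT _).2 ⟨hZ', fun h0 => hne h0.symm⟩)
  have e2 : (if Z ∈ T then D Z else 0) = D Z := by
    by_cases h : Z ∈ T
    · rw [if_pos h]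
    · rw [if_neg h]
      by_contra hne
      exact h ((hT _).2 ⟨hZ, fun h0 => hne h0.symm⟩)
  rw [e1, e2]

end Node

end Fermat.Agent.U44.TRFactor3
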