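/-
Programme U44 (target S44), block (TR), abstract layer (helper3): **the global function `g`**
(steps (2), (3) of the written proof, reports 116).

`N : NodalRed A F Nd` with a compatible family `γ : Γ → SemilinearAut K F` (`N.Compat γ`),
`Mod : NDiscModel A F g d` sitting over `N` (`DiscCompat`), `θ = theta Mod hdeg`.

* `kummerTrivial_smul_sub` : for `div f = p D` the class `τ [D] − [D]` is Kummer-trivial
  (witness `τ f / f`, whose normalised reductions are `1` by `Compat.ρ_i_smul`);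
* `exists_theta_fixed` : hence `τ [D] − [D] = θ x` (`ThetaSurjStatement`), and `x` is fixed by
  every `σ` fixing the class (`ThetaInjStatement` + `NodalInput7.smul_theta`);
* `exists_g` : a function `g` with `div g = τ D − D − (D(x) − D(0))`.
-/
import Mathlib
import Fermat.Agent.U44.GaussRed3
import Fermat.Agent.T33.NodalInput7
import Fermat.Agent.T33.NodalAbs1C
import Fermat.Agent.T33.NodalLat2B
import Fermat.Agent.U44.Second3

set_option autoImplicit false

open AlgebraicCurve IsLocalRing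

namespace Fermat.Agent.U44.TRTheta3

open Fermat.Agent.T33.NodalCtx1 Fermat.Agent.T33.NodalCurve6 Fermat.Agent.T33.NodalIface8
  Fermat.Agent.T33.NodalInput7 Fermat.Agent.T33.NodalDisc8A Fermat.Agent.X0.FF
  Fermat.Agent.U44.GaussRed3 AlgebraicCurve.SemilinearAut

variable {K : Type*} [Field K] {A : ValuationSubring K}
variable {F : Type*} [Field F] [Algebra K F]
variable {Fb₁ Fb₂ : Type*} [Field Fb₁] [Field Fb₂]
  [Algebra (ResidueField A) Fb₁] [Algebra (ResidueField A) Fb₂]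
variable {ι : Type*} {Nd : NodalData (ResidueField A) Fb₁ Fb₂ ι} (N : NodalRed A F Nd)
variable {Γ : Type*} {γ : Γ → SemilinearAut K F} (hComp : N.Compat γ)

/-- the order of `σ f` at `P` is the order of `f` at `σ⁻¹ P`. -/
theorem ord_smul_eq (σ : SemilinearAut K F) (P : Place K F) (f : F) :
    P.ord (σ • f) = (σ⁻¹ • P).ord f := by
  have h := SemilinearAut.ord_smul σ (σ⁻¹ • P) f
  rwa [smul_inv_smul] at h

/-- the divisor of `σ f / f` for `div f = n D`. -/
theorem ord_smul_div (σ : SemilinearAut K F) {f : F} (hf0 : f ≠ 0) {n : ℤ} (D : Divisor K F)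
    (hf : ∀ P : Place K F, P.ord f = n * D P) (P : Place K F) :
    P.ord (σ • f / f) = n * (σ • D - D) P := by
  have hσf : σ • f ≠ 0 := by
    intro h
    apply hf0
    have := congrArg (σ⁻¹ • ·) h
    simpa using this
  rw [div_eq_mul_inv, P.ord_mul hσf (inv_ne_zero hf0), Place.ord_inv, ord_smul_eq, hf, hf,
    Finsupp.sub_apply, divisor_smul_apply]
  ring

section Side

variable {Fb : Type*} [Field Fb] [Algebra (ResidueField A) Fb] {R : HalfRed A F Fb}

/-- if `σ` preserves `O` and is trivial after reduction then `σ y / y` is a Gauss unit reducing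
to `1`, for every Gauss unit `y`. -/
theorem red_smul_div {σ : SemilinearAut K F} (hmem : ∀ y : F, y ∈ R.O → σ • y ∈ R.O)
    (hred : ∀ y : F, y ∈ R.O → red R (σ • y) = red R y) {y : F} (hy : IsGU R y) :
    σ • y / y ∈ R.O ∧ red R (σ • y / y) = 1 := by
  have h1 : σ • y ∈ R.O := hmem y hy.1
  refine ⟨?_, ?_⟩
  · rw [div_eq_mul_inv]
    exact R.O.mul_mem h1 hy.inv_mem
  · rw [div_eq_mul_inv, red_mul R h1 hy.inv_mem, hred y hy.1, hy.red_inv,
      mul_inv_cancel₀ hy.2]

end Side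

include hComp in
/-- the two sides of a compatible family, in `red` form. -/
theorem compat_red₁ (σ : Γ) (y : F) (hy : y ∈ N.c₁.O) : red N.c₁ (γ σ • y) = red N.c₁ y := by
  rw [red_of_mem N.c₁ (hComp.smul_mem₁ σ y hy), red_of_mem N.c₁ hy]
  exact hComp.ρ₁_smul σ y hy _

include hComp in
theorem compat_red₂ (σ : Γ) (y : F) (hy : y ∈ N.c₂.O) : red N.c₂ (γ σ • y) = red N.c₂ y := by
  rw [red_of_mem N.c₂ (hComp.smul_mem₂ σ y hy), red_of_mem N.c₂ hy]
  exact hComp.ρ₂_smul σ y hy _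

include hComp in
/-- **step (2)**: `τ [D] − [D]` is Kummer-trivial when `p D` is principal. -/
theorem kummerTrivial_smul_sub (p : ℕ) (τ : Γ) (D : Divisor.degZero (K := K) (F := F)) {f : F}
    (hf0 : f ≠ 0) (hf : ∀ P : Place K F, P.ord f = p * (D : Divisor K F) P) :
    KummerTrivial N p (γ τ • Pic0.mk D - Pic0.mk D) := by
  obtain ⟨c₁, hc₁0, hm₁, hρ₁⟩ := N.c₁.gauss f hf0
  obtain ⟨c₂, hc₂0, hm₂, hρ₂⟩ := N.c₂.gauss f hf0
  have g₁ : IsGU N.c₁ (algebraMap K F c₁ * f) := isGU_of_ρ_ne hm₁ hρ₁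
  have g₂ : IsGU N.c₂ (algebraMap K F c₂ * f) := isGU_of_ρ_ne hm₂ hρ₂
  have k₁ := red_smul_div (R := N.c₁) (σ := γ τ) (hComp.smul_mem₁ τ)
    (compat_red₁ N hComp τ) g₁
  have k₂ := red_smul_div (R := N.c₂) (σ := γ τ) (hComp.smul_mem₂ τ)
    (compat_red₂ N hComp τ) g₂
  have hcF : ∀ c : K, c ≠ 0 → algebraMap K F c ≠ 0 := fun c hc => by
    rwa [ne_eq, _root_.map_eq_zero]
  -- the normalised functions
  have e : ∀ c : K, c ≠ 0 → γ τ • (algebraMap K F c * f) / (algebraMap K F c * f) =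
      algebraMap K F (baseAut (γ τ) c / c) * (γ τ • f / f) := by
    intro c hc
    have := hcF c hc
    rw [smul_mul', SemilinearAut.smul_algebraMap, map_div₀]
    field_simp
  rw [e c₁ hc₁0] at k₁
  rw [e c₂ hc₂0] at k₂
  refine ⟨SemilinearAut.degZeroSMulHom (γ τ) D - D, γ τ • f / f, ?_, ?_, ?_,
    baseAut (γ τ) c₁ / c₁, baseAut (γ τ) c₂ / c₂, k₁.1, k₂.1, 1, 1, 1, 1, one_ne_zero,
    one_ne_zero, one_ne_zero, one_ne_zero, ?_, ?_⟩
  · rw [pic0_smul_mk]
    rfl
  · have hσf : γ τ • f ≠ 0 := by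
      intro h
      apply hf0
      have := congrArg ((γ τ)⁻¹ • ·) h
      simpa using this
    exact div_ne_zero hσf hf0
  · intro P
    have := ord_smul_div (γ τ) hf0 (n := (p : ℤ)) (D : Divisor K F) hf P
    rw [this]
    rfl
  · rw [← red_of_mem N.c₁ k₁.1, k₁.2, map_one, one_pow, mul_one]
  · rw [← red_of_mem N.c₂ k₂.1, k₂.2, map_one, one_pow, mul_one]

/-! ### the `θ`-coordinates of `τ v − v` -/

section Theta

variable {g d : ℕ} (Mod : NDiscModel A F g d) {c : Fin d → NPt N} (hC : DiscCompat N Mod c)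
variable (hdeg : ∀ (j : Fin d) (t : A), (Mod.P j t).deg = 1)
variable (σA : Γ → (A ≃+* A))
  (hσA : ∀ (σ : Γ) (a : A), ((σA σ a : A) : K) = baseAut (γ σ) (a : K))
variable (hγφ : ∀ σ : Γ, γ σ • Mod.φ = Mod.φ)

include hComp hC hσA hγφ in
/-- **step (2)**: `τ [D] − [D] = θ x`, with `x` fixed by every `σ` fixing this class. -/
theorem exists_theta_fixed (hinj : ThetaInjStatement Mod hdeg) {p : ℕ}
    (hsurj : ThetaSurjStatement N Mod hdeg p) (τ : Γ) (D : Divisor.degZero (K := K) (F := F))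
    {f : F} (hf0 : f ≠ 0) (hf : ∀ P : Place K F, P.ord f = p * (D : Divisor K F) P)
    (S : Set Γ)
    (hS : ∀ σ ∈ S, γ σ • (γ τ • Pic0.mk D - Pic0.mk D) = γ τ • Pic0.mk D - Pic0.mk D) :
    ∃ x : Fin g → A, (∀ i, x i ∈ maximalIdeal A) ∧
      theta Mod hdeg x = γ τ • Pic0.mk D - Pic0.mk D ∧
      ∀ σ ∈ S, ∀ i, baseAut (γ σ) (x i : K) = (x i : K) := by
  obtain ⟨x, hx, hθ⟩ := hsurj _ (kummerTrivial_smul_sub N hComp p τ D hf0 hf)
  refine ⟨x, hx, hθ, ?_⟩
  intro σ hσ i
  have h1 := smul_theta N Mod hC hComp σ (σA σ) (hσA σ) (hγφ σ) hdeg x hx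
  rw [hθ, hS σ hσ, ← hθ] at h1
  have hx' : ∀ i, σA σ (x i) ∈ maximalIdeal A := fun i =>
    Fermat.Agent.FF.ThetaKer5.map_mem_maximalIdeal (σA σ) (x i) (hx i)
  have h2 := hinj x (fun i => σA σ (x i)) hx hx' h1
  have h3 := congrFun h2 i
  rw [← hσA σ (x i), ← h3]

include hdeg in
/-- **step (3)**: the function `g` with `div g = τ D − D − (D(x) − D(0))`. -/
theorem exists_g (τ : SemilinearAut K F) (D : Divisor.degZero (K := K) (F := F))
    (x : Fin g → A) (hθ : theta Mod hdeg x = τ • Pic0.mk D - Pic0.mk D) :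
    ∃ g' : F, g' ≠ 0 ∧ ∀ P : Place K F, P.ord g' =
      (τ • (D : Divisor K F)) P - (D : Divisor K F) P -
        (discDiv Mod x - discDiv Mod (fun _ => (0 : A))) P := by
  rw [pic0_smul_mk] at hθ
  unfold theta at hθ
  have h1 : Pic0.mk (SemilinearAut.degZeroSMulHom τ D - D) =
      Pic0.mk (SemilinearAut.degZeroSMulHom τ D) - Pic0.mk D := rfl
  rw [← h1] at hθ
  have h2 := (QuotientAddGroup.eq).1 hθ
  rw [AddSubgroup.mem_addSubgroupOf] at h2
  obtain ⟨g', hg0, hg⟩ := h2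
  refine ⟨g', hg0, fun P => ?_⟩
  rw [← hg P]
  simp only [AddSubgroup.coe_add, AddSubgroup.coe_neg, AddSubgroup.coe_sub, Finsupp.add_apply,
    Finsupp.neg_apply, Finsupp.sub_apply, coe_degZeroSMulHom]
  ring

end Theta

/-! ### the local factors of the `θ`-divisor -/

section EFactor

open Fermat.Agent.T33.NodalAbs1C Fermat.Agent.T33.NodalMeaning8 Fermat.Agent.FF.GeomIface8

variable {g d : ℕ} (Mod : NDiscModel A F g d) {c : Fin d → NPt N} (hC : DiscCompat N Mod c)

include hC in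
/-- the discs are pairwise disjoint. -/
theorem disc_disjoint (j j' : Fin d) (t t' : A) (ht : t ∈ maximalIdeal A)
    (ht' : t' ∈ maximalIdeal A) (h : Mod.P j t = Mod.P j' t') : j = j' := by
  apply hC.c_inj
  have h1 := hC.center j t ht
  have h2 := hC.center j' t' ht'
  rw [← h] at h2
  exact redTo_unique N h1 (hC.c_smooth j) h2 (hC.c_smooth j')

section Side

variable {Fb : Type*} [Field Fb] [Algebra (ResidueField A) Fb] {R : HalfRed A F Fb}

/-- `(φ − t)/φ ≡ 1` modulo `ε 𝔪_A O` when `t ∈ ε 𝔪_A`. -/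
theorem near_phi_sub (hO : ∀ y : F, y ∈ Mod.O → y ∈ R.O) {ε s : K} (hs : Small A s) {t : A}
    (hts : (t : K) = ε * s) :
    Second3.Near R ε ((Mod.φ - algebraMap K F (t : K)) / Mod.φ) 0 := by
  have hφ := Mod.φ_unit
  have hinv : Mod.φ⁻¹ ∈ R.O := hO _ hφ.2.2
  have hm : algebraMap K F s * Mod.φ⁻¹ ∈ R.O := R.O.mul_mem (const_mem R hs.1) hinv
  refine ⟨-(algebraMap K F s * Mod.φ⁻¹), R.O.neg_mem hm, ?_, ?_⟩
  · rw [red_neg R hm, red_small_mul hs hinv, neg_zero]
  · have hφ0 := hφ.1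
    rw [hts, map_mul]
    field_simp
    ring

end Side

include hC in
open Classical in
/-- **the local factor of the `θ`-divisor `D(x) − D(0)` at a smooth point.** -/
theorem exists_E_factor (x : Fin g → A) (hx : ∀ i, x i ∈ maximalIdeal A) {ε : K}
    (hxε : ∀ i, ∃ s : K, Small A s ∧ (x i : K) = ε * s) (y : NPt N) (hy : SmoothPt N y) :
    ∃ Λ : F, Λ ≠ 0 ∧ Second3.Near N.c₁ ε Λ 0 ∧ Second3.Near N.c₂ ε Λ 0 ∧
      ∀ P : Place K F, RedTo N P y →
        P.ord Λ = (discDiv Mod x - discDiv Mod (fun _ => (0 : A))) P := by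
  have hdisj := disc_disjoint N Mod hC
  have hO₁ : ∀ z : F, z ∈ Mod.O → z ∈ N.c₁.O := fun z hz => by
    rw [hC.O_eq] at hz
    exact hz.1
  have hO₂ : ∀ z : F, z ∈ Mod.O → z ∈ N.c₂.O := fun z hz => by
    rw [hC.O_eq] at hz
    exact hz.2
  have h0 : ∀ i : Fin g, (fun _ : Fin g => (0 : A)) i ∈ maximalIdeal A := fun _ => Ideal.zero_mem _
  by_cases hj : ∃ j : Fin g, c (Fin.castLE Mod.hgd j) = y
  · obtain ⟨j, rfl⟩ := hj
    obtain ⟨s, hs, hts⟩ := hxε j
    refine ⟨(Mod.φ - algebraMap K F (x j : K)) / Mod.φ,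
      div_ne_zero (Mod.φ_sub_ne_zero _ (hx j)) Mod.φ_ne_zero,
      near_phi_sub Mod hO₁ hs hts, near_phi_sub Mod hO₂ hs hts, ?_⟩
    intro P hP
    obtain ⟨t, ht, rfl⟩ := hC.exhaust _ P hP
    rw [div_eq_mul_inv, Place.ord_mul _ (Mod.φ_sub_ne_zero _ (hx j)) (inv_ne_zero Mod.φ_ne_zero),
      Place.ord_inv, Mod.ord_φ_sub _ t (x j) ht (hx j), Mod.ord_φ _ t ht, Finsupp.sub_apply,
      discDiv_apply_low Mod x hdisj hx j t ht,
      discDiv_apply_low Mod (fun _ => (0 : A)) hdisj h0 j t ht]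
    ring
  · refine ⟨1, one_ne_zero, Second3.near_one, Second3.near_one, ?_⟩
    intro P hP
    rw [Place.ord_one, Finsupp.sub_apply]
    have key : ∀ x' : Fin g → A, (∀ i, x' i ∈ maximalIdeal A) → discDiv Mod x' P = 0 := by
      intro x' hx'
      by_cases hex : ∃ (j : Fin d) (t : A), t ∈ maximalIdeal A ∧ P = Mod.P j t
      · obtain ⟨j, t, ht, rfl⟩ := hex
        have hcj : c j = y := redTo_unique N (hC.center j t ht) (hC.c_smooth j) hP hy
        refine discDiv_apply_high Mod x' hdisj hx' j ?_ t ht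
        by_contra hlt
        push Not at hlt
        exact hj ⟨⟨j.val, hlt⟩, by
          have : Fin.castLE Mod.hgd ⟨j.val, hlt⟩ = j := Fin.ext rfl
          rw [this, hcj]⟩
      · push Not at hex
        exact discDiv_apply_out Mod x' P (fun j t ht => hex j t ht) hx'
    rw [key x hx, key _ h0, sub_zero]

end EFactor

/-! ### normalisation at a place of smooth reduction -/

section Normalise

open Fermat.Agent.T33.NodalLat2 Fermat.Agent.RR.LSpace

include N in
open Classical in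
/-- **step (3), normalisation**: there is a place `Z₀` reducing to a smooth point `Q₀` of the
first component over which `g'` has neither zero nor pole, and a constant `a` with
`(a g')(Z₀) = 1`. -/
theorem exists_normalised (H : LHyp K F) (hmany : HasManySmooth₁ N) {g' : F} (hg0 : g' ≠ 0) :
    ∃ (a : K) (Z₀ : Place K F) (Q₀ : Place (ResidueField A) Fb₁), a ≠ 0 ∧ N.r₁ Z₀ = some Q₀ ∧
      Nd.Smooth1 Q₀ ∧ (∀ P : Place K F, N.r₁ P = some Q₀ → P.ord (algebraMap K F a * g') = 0) ∧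
      (algebraMap K F a * g' = 1 ∨ 0 < Z₀.ord (algebraMap K F a * g' - 1)) := by
  obtain ⟨Dg, hDg, -⟩ := H.principal g' hg0
  set S : Finset (Place (ResidueField A) Fb₁) :=
    Dg.support.biUnion fun P => (N.r₁ P).toFinset with hS
  obtain ⟨Z₀, Q₀, hZ, hQ₀, hnot⟩ := hmany S
  have hno : ∀ P : Place K F, N.r₁ P = some Q₀ → P.ord g' = 0 := by
    intro P hP
    by_contra hne
    apply hnot
    rw [hS, Finset.mem_biUnion]
    refine ⟨P, ?_, ?_⟩
    · rw [Finsupp.mem_support_iff, hDg P]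
      exact hne
    · rw [hP]
      simp
  have hmem : g' ∈ Z₀.toValuationSubring := mem_of_ord_nonneg Z₀ (hno Z₀ hZ).ge
  obtain ⟨a₀, ha₀⟩ := H.residue Z₀ g' hmem
  have ha₀0 : a₀ ≠ 0 := by
    rintro rfl
    rw [map_zero, sub_zero] at ha₀
    rcases ha₀ with h | h
    · exact hg0 h
    · rw [hno Z₀ hZ] at h
      exact lt_irrefl _ h
  have haF : algebraMap K F a₀⁻¹ ≠ 0 := by
    rw [ne_eq, _root_.map_eq_zero]
    exact inv_ne_zero ha₀0
  refine ⟨a₀⁻¹, Z₀, Q₀, inv_ne_zero ha₀0, hZ, hQ₀, ?_, ?_⟩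
  · intro P hP
    rw [P.ord_mul haF hg0, ord_algebraMap, zero_add, hno P hP]
  · have e : algebraMap K F a₀⁻¹ * g' - 1 = algebraMap K F a₀⁻¹ * (g' - algebraMap K F a₀) := by
      rw [mul_sub, ← map_mul, inv_mul_cancel₀ ha₀0, map_one]
    rcases ha₀ with h | h
    · left
      rw [h, ← map_mul, inv_mul_cancel₀ ha₀0, map_one]
    · right
      have hne : g' - algebraMap K F a₀ ≠ 0 := by
        intro h0
        rw [h0, Place.ord_zero] at h
        exact lt_irrefl _ h
      rw [e, Z₀.ord_mul haF hne, ord_algebraMap, zero_add]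
      exact h

end Normalise

end Fermat.Agent.U44.TRTheta3
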