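/-
Programme U44 (target S44), block (TR), abstract layer (helper3): **the theorem (TR), abstract
form** (reports 116, WILD CASE).

`N : NodalRed A F Nd` with a compatible family `γ : Γ → SemilinearAut K F`, a disc model `Mod`
over `N` with injective `θ` and `θ`-surjectivity onto the Kummer-trivial classes of exponent `p`,
annulus coordinates at all nodes (thickness one: `ϖ_k = p · unit`) and coordinates at all smooth
points, all fixed by `γ`.  `τ ∈ Γ`, `HL, I₁ ⊆ Γ` (the images of `I_L` and `I₁`), and the local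
algebra of the peu ramifiée extension `L/K₁` in field form (`hmove`, `hunif`, `hL2a`).

If `D` is an `HL`-stable divisor of degree `0` with `p D = div f` and the class `τ [D] − [D]` is
fixed by `I₁`, then the slopes `s_k = ord_{s1 k} ρ₁ (c₁ f)` are all congruent modulo `p`
(`tr_abstract`).
-/
import Mathlib
import Fermat.Agent.U44.TRAsm3
import Fermat.Agent.U44.TRTheta3
import Fermat.Agent.U44.TRFactor3

set_option autoImplicit false

open AlgebraicCurve IsLocalRing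

namespace Fermat.Agent.U44.TRFinal3

open Fermat.Agent.T33.NodalCtx1 Fermat.Agent.T33.NodalCurve6 Fermat.Agent.T33.NodalIface8
  Fermat.Agent.T33.NodalLat2 Fermat.Agent.T33.NodalAbs1C Fermat.Agent.X0.FF
  Fermat.Agent.RR.LSpace Fermat.Agent.U44.GaussRed3 Fermat.Agent.U44.Second3
  Fermat.Agent.U44.Annulus3 Fermat.Agent.U44.SmoothCoord3 Fermat.Agent.U44.TRAsm3
  Fermat.Agent.U44.TRTheta3 Fermat.Agent.U44.TRFactor3 AlgebraicCurve.SemilinearAut

variable {K : Type*} [Field K] {A : ValuationSubring K}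
variable {F : Type*} [Field F] [Algebra K F]
variable {Fb₁ Fb₂ : Type*} [Field Fb₁] [Field Fb₂]
  [Algebra (ResidueField A) Fb₁] [Algebra (ResidueField A) Fb₂]
variable {ι : Type*} {Nd : NodalData (ResidueField A) Fb₁ Fb₂ ι} (N : NodalRed A F Nd)
variable {Γ : Type*} {γ : Γ → SemilinearAut K F} (hComp : N.Compat γ)

include hComp in
theorem sideCompat₁ (σ : Γ) : SideCompat N.c₁ (γ σ) :=
  ⟨hComp.smul_mem₁ σ, compat_red₁ N hComp σ⟩

include hComp in
theorem sideCompat₂ (σ : Γ) : SideCompat N.c₂ (γ σ) :=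
  ⟨hComp.smul_mem₂ σ, compat_red₂ N hComp σ⟩

include hComp in
/-- **(TR), abstract form, wild case.** -/
theorem tr_abstract (H : LHyp K F) (H₁ : LHyp (ResidueField A) Fb₁)
    (H₂ : LHyp (ResidueField A) Fb₂) (hmany : HasManySmooth₁ N)
    {p : ℕ} [CharP (ResidueField A) p] (hpS : Small A (p : K)) (hp0 : (p : K) ≠ 0)
    (σA : Γ → (A ≃+* A))
    (hσA : ∀ (σ : Γ) (a : A), ((σA σ a : A) : K) = baseAut (γ σ) (a : K))
    {g d : ℕ} (Mod : NDiscModel A F g d) {c : Fin d → NPt N} (hC : DiscCompat N Mod c)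
    (hdeg : ∀ (j : Fin d) (t : A), (Mod.P j t).deg = 1)
    (hγφ : ∀ σ : Γ, γ σ • Mod.φ = Mod.φ) (hinj : ThetaInjStatement Mod hdeg)
    (hsurj : ThetaSurjStatement N Mod hdeg p)
    (τ : Γ) (HL I₁ : Set Γ)
    {ε πL : K} (hε : Small A ε) (hε0 : ε ≠ 0) (hπ0 : πL ≠ 0)
    (hπ : AUnit A (πL ^ (p * (p - 1)) / (p : K)))
    (hmove : ∀ c : K, (∀ σ ∈ HL, baseAut (γ σ) c = c) → Small A c →
      ∃ s : K, Small A s ∧ baseAut (γ τ) c - c = ε * s)
    (hunif : ∀ b : K, b ≠ 0 → (∀ σ ∈ HL, baseAut (γ σ) b = b) →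
      ∃ (n : ℤ) (s : K), AUnit A (b / πL ^ n) ∧ Small A s ∧
        baseAut (γ τ) b = b * (1 + ε * ((n : K) + s)))
    (hL2a : ∀ x : K, (∀ σ ∈ I₁, baseAut (γ σ) x = x) → Small A x →
      ∃ s : K, Small A s ∧ x = ε * s)
    (X : ∀ k, AnnCoord N k) (hXzp : ∀ k σ, γ σ • (X k).zp = (X k).zp)
    (hXϖ : ∀ k σ, baseAut (γ σ) (X k).ϖ = (X k).ϖ) (hϖ : ∀ k, AUnit A ((X k).ϖ / (p : K)))
    (Y₁ : ∀ Q : Place (ResidueField A) Fb₁, Nd.Smooth1 Q → SmoothCoord N.c₁ N.r₁ Q)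
    (hY₁ : ∀ Q hQ σ, γ σ • (Y₁ Q hQ).y = (Y₁ Q hQ).y)
    (Y₂ : ∀ Q : Place (ResidueField A) Fb₂, Nd.Smooth2 Q → SmoothCoord N.c₂ N.r₂ Q)
    (hY₂ : ∀ Q hQ σ, γ σ • (Y₂ Q hQ).y = (Y₂ Q hQ).y)
    (D : Divisor.degZero (K := K) (F := F))
    (hD : ∀ σ ∈ HL, γ σ • (D : Divisor K F) = (D : Divisor K F))
    {f : F} (hf0 : f ≠ 0) (hf : ∀ P : Place K F, P.ord f = p * (D : Divisor K F) P)
    (hw : ∀ σ ∈ I₁, γ σ • (γ τ • Pic0.mk D - Pic0.mk D) = γ τ • Pic0.mk D - Pic0.mk D)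
    {c₁ c₂ : K} (h₁ : IsGU N.c₁ (algebraMap K F c₁ * f))
    (h₂ : IsGU N.c₂ (algebraMap K F c₂ * f)) (k k' : ι) :
    (p : ℤ) ∣ (Nd.s1 k).ord (red N.c₁ (algebraMap K F c₁ * f)) -
      (Nd.s1 k').ord (red N.c₁ (algebraMap K F c₁ * f)) := by
  classical
  -- the `θ`-coordinates of `τ v − v`
  obtain ⟨x, hx, hθ, hxfix⟩ := exists_theta_fixed N hComp Mod hC hdeg σA hσA hγφ hinj hsurj τ D
    hf0 hf I₁ hw
  have hxε : ∀ i, ∃ s : K, Small A s ∧ (x i : K) = ε * s := fun i =>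
    hL2a _ (fun σ hσ => hxfix σ hσ i) (small_of_mem_max (hx i))
  -- the function `g`
  obtain ⟨g', hg'0, hg'⟩ := exists_g Mod hdeg (γ τ) D x hθ
  obtain ⟨a, Z₀, Q₀, ha0, hZ, hQ₀, hno, hZ1⟩ := exists_normalised N H hmany hg'0
  have haF : algebraMap K F a ≠ 0 := by rwa [ne_eq, _root_.map_eq_zero]
  set E : Divisor K F := discDiv Mod x - discDiv Mod (fun _ => (0 : A)) with hE
  have hgord : ∀ P : Place K F, P.ord (algebraMap K F a * g') =
      (γ τ • (D : Divisor K F)) P - (D : Divisor K F) P - E P := by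
    intro P
    rw [P.ord_mul haF hg'0, ord_algebraMap, zero_add, hg' P]
  have hg0 : algebraMap K F a * g' ≠ 0 := mul_ne_zero haF hg'0
  set HS : Set (SemilinearAut K F) := γ '' HL with hHS
  have hHSfix : ∀ c : K, (∀ σ ∈ HS, baseAut σ c = c) → ∀ σ ∈ HL, baseAut (γ σ) c = c :=
    fun c hc σ hσ => hc (γ σ) ⟨σ, hσ, rfl⟩
  have hmove' : ∀ c : K, (∀ σ ∈ HS, baseAut σ c = c) → Small A c →
      ∃ s : K, Small A s ∧ baseAut (γ τ) c - c = ε * s :=
    fun c hc hcs => hmove c (hHSfix c hc) hcs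
  have hD' : ∀ σ ∈ HS, σ • (D : Divisor K F) = (D : Divisor K F) := by
    rintro _ ⟨σ, hσ, rfl⟩
    exact hD σ hσ
  -- quotient of a function by a local factor with the same orders
  have hquot : ∀ (Λ : F) (P : Place K F), Λ ≠ 0 →
      P.ord Λ = P.ord (algebraMap K F a * g') → 0 ≤ P.ord (algebraMap K F a * g' / Λ) := by
    intro Λ P hΛ0 h
    rw [div_eq_mul_inv, P.ord_mul hg0 (inv_ne_zero hΛ0), Place.ord_inv, h, add_neg_cancel]
  refine tr_of_factors N H H₁ H₂ hpS hp0 (g := algebraMap K F a * g') hε hε0 ?_ ?_ X hϖ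
    (D : Divisor K F) hf0 hf
    (fun k => (D : Divisor K F).support.filter fun P => N.RedToNode P k)
    (fun k P => by
      rw [Finset.mem_filter, Finsupp.mem_support_iff]
      exact and_comm)
    hπ0 hπ ?_ Z₀ Q₀ hZ hQ₀ (fun P hP => (hno P hP).ge) hZ1 h₁ h₂ k k'
  · -- smooth points of the first component
    intro Q hQ
    obtain ⟨ΛD, hΛD0, hΛD, hordD⟩ := smooth_factor_D (Y₁ Q hQ) (sideCompat₁ N hComp τ)
      (hY₁ Q hQ τ) (fun P => hComp.r₁_smul τ P)
      (by rintro _ ⟨σ, -, rfl⟩; exact hY₁ Q hQ σ)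
      (by rintro _ ⟨σ, -, rfl⟩ P; exact hComp.r₁_smul σ P) hε hmove' (D : Divisor K F) hD'
    obtain ⟨ΛE, hΛE0, hΛE₁, -, hordE⟩ := exists_E_factor N Mod hC x hx hxε (Sum.inl Q) hQ
    refine ⟨ΛD / ΛE, ?_, fun P hP => hquot _ P (div_ne_zero hΛD0 hΛE0) ?_⟩
    · have := hΛD.div hε hΛE₁
      rwa [sub_zero] at this
    · rw [div_eq_mul_inv, P.ord_mul hΛD0 (inv_ne_zero hΛE0), Place.ord_inv, hordD P hP,
        hordE P hP, hgord P, hE]
      ring
  · -- smooth points of the second component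
    intro Q hQ
    obtain ⟨ΛD, hΛD0, hΛD, hordD⟩ := smooth_factor_D (Y₂ Q hQ) (sideCompat₂ N hComp τ)
      (hY₂ Q hQ τ) (fun P => hComp.r₂_smul τ P)
      (by rintro _ ⟨σ, -, rfl⟩; exact hY₂ Q hQ σ)
      (by rintro _ ⟨σ, -, rfl⟩ P; exact hComp.r₂_smul σ P) hε hmove' (D : Divisor K F) hD'
    obtain ⟨ΛE, hΛE0, -, hΛE₂, hordE⟩ := exists_E_factor N Mod hC x hx hxε (Sum.inr Q) hQ
    refine ⟨ΛD / ΛE, ?_, fun P hP => hquot _ P (div_ne_zero hΛD0 hΛE0) ?_⟩
    · have := hΛD.div hε hΛE₂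
      rwa [sub_zero] at this
    · rw [div_eq_mul_inv, P.ord_mul hΛD0 (inv_ne_zero hΛE0), Place.ord_inv, hordD P hP,
        hordE P hP, hgord P, hE]
      ring
  · -- the nodes
    intro k
    have hyp : NodeFactor9.FactorHyp (X k) (γ τ) HS ε :=
      { side₁ := sideCompat₁ N hComp τ
        side₂ := sideCompat₂ N hComp τ
        τ_zp := hXzp k τ
        τ_ϖ := hXϖ k τ
        τ_node := fun P => by
          unfold NodalRed.RedToNode
          rw [hComp.r₁_smul]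
        H_zp := by rintro _ ⟨σ, -, rfl⟩; exact hXzp k σ
        H_ϖ := by rintro _ ⟨σ, -, rfl⟩; exact hXϖ k σ
        H_node := by
          rintro _ ⟨σ, -, rfl⟩ P hP
          unfold NodalRed.RedToNode at hP ⊢
          rw [hComp.r₁_smul]
          exact hP
        ε_small := hε
        move := hmove' }
    set T : Finset (Place K F) :=
      (D : Divisor K F).support.filter fun P => N.RedToNode P k with hT
    have hTmem : ∀ P, P ∈ T ↔ (N.RedToNode P k ∧ (D : Divisor K F) P ≠ 0) := fun P => by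
      rw [hT, Finset.mem_filter, Finsupp.mem_support_iff]
      exact and_comm
    obtain ⟨Λ, hΛ0, hΛ₁, hord, hfix, hnear⟩ :=
      node_factor_D hyp (D : Divisor K F) hD' T hTmem
    set b : K := ∏ P ∈ T, (X k).value P ^ (D : Divisor K F) P with hb
    have hb0 : b ≠ 0 := Finset.prod_ne_zero_iff.2 fun P hP =>
      zpow_ne_zero _ ((X k).value_ne P ((hTmem P).1 hP).1)
    obtain ⟨n, s, hbu, hs, hτb⟩ := hunif b hb0 (hHSfix b hfix)
    refine ⟨Λ, n, hΛ₁, ?_, fun P hP => hquot Λ P hΛ0 ?_, hbu⟩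
    · have := hnear ((n : ℤ) : A) s hs (by
        rw [hτb]
        push_cast
        rfl)
      exact this
    · rw [hord P hP, hgord P, hE, Finsupp.sub_apply,
        discDiv_apply_of_redToNode N Mod hC x hx P k hP,
        discDiv_apply_of_redToNode N Mod hC _ (fun _ => Ideal.zero_mem _) P k hP]
      ring

end Fermat.Agent.U44.TRFinal3
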