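/-
Programme U44 (target S44), block (TR), abstract layer (helper3): **the tame case of (TR)**
(reports 116, step (0)): if the divisor `D` (with `p D = div f`) is stable under `I₁` itself, then
for every node `b_k = ∏_{P → k} z'_k(P)^{D(P)}` is `I₁`-fixed, so `b_k^{p−1} = p^{n_k} · unit`, and
the annulus formula `c₁/c₂ = b_k^p ϖ_k^{s_k − p N_k} · unit` gives
`p n_k + (p−1)(s_k − p N_k)` independent of `k`: the slopes are congruent modulo `p`.
No second-order argument is needed.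
-/
import Mathlib
import Fermat.Agent.U44.TRFactor3
import Fermat.Agent.U44.ValBridge3

set_option autoImplicit false

open AlgebraicCurve IsLocalRing

namespace Fermat.Agent.U44.TRTame3

open Fermat.Agent.T33.NodalCtx1 Fermat.Agent.T33.NodalCurve6 Fermat.Agent.X0.FF
  Fermat.Agent.U44.GaussRed3 Fermat.Agent.U44.Second3 Fermat.Agent.U44.Annulus3
  Fermat.Agent.U44.TRFactor3 Fermat.Agent.U44.ValBridge3 AlgebraicCurve.SemilinearAut

variable {K : Type*} [Field K] {A : ValuationSubring K}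
variable {F : Type*} [Field F] [Algebra K F]
variable {Fb₁ Fb₂ : Type*} [Field Fb₁] [Field Fb₂]
  [Algebra (ResidueField A) Fb₁] [Algebra (ResidueField A) Fb₂]
variable {ι : Type*} {Nd : NodalData (ResidueField A) Fb₁ Fb₂ ι} (N : NodalRed A F Nd)

/-- the exponent of `p` in `(c₁/c₂)^(p−1)`, tame case. -/
theorem step7_tame {p : ℕ} (hpS : Small A (p : K)) (hp0 : (p : K) ≠ 0) {U : K} {ι : Type*}
    (b ϖ : ι → K) (n s Nk : ι → ℤ) (hb0 : ∀ k, b k ≠ 0) (hϖ0 : ∀ k, ϖ k ≠ 0)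
    (hb : ∀ k, AUnit A (b k ^ (p - 1) / (p : K) ^ n k)) (hϖ : ∀ k, AUnit A (ϖ k / (p : K)))
    (hAF : ∀ k, AUnit A (U / (b k ^ p * ϖ k ^ (s k - p * Nk k)))) (k k' : ι) :
    (p : ℤ) * n k + ((p : ℤ) - 1) * (s k - p * Nk k) =
      (p : ℤ) * n k' + ((p : ℤ) - 1) * (s k' - p * Nk k') := by
  set v := A.valuation with hv
  have hvp0 : 0 < v (p : K) := zero_lt_iff.2 ((Valuation.ne_zero_iff _).2 hp0)
  have hvp1 : v (p : K) < 1 := small_iff_val_lt_one.1 hpS
  have hp1 : 1 ≤ p := by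
    rcases Nat.eq_zero_or_pos p with h | h
    · exfalso
      rw [h] at hp0
      exact hp0 (by simp)
    · exact h
  have key : ∀ k, v U ^ (p - 1) =
      v (p : K) ^ ((p : ℤ) * n k + ((p : ℤ) - 1) * (s k - p * Nk k)) := by
    intro k
    have h1 : v U = v (b k) ^ p * v (ϖ k) ^ (s k - p * Nk k) := by
      have hne : b k ^ p * ϖ k ^ (s k - p * Nk k) ≠ 0 :=
        mul_ne_zero (pow_ne_zero _ (hb0 k)) (zpow_ne_zero _ (hϖ0 k))
      have := (aunit_div_iff (A := A) hne).1 (hAF k)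
      rwa [map_mul, map_pow, map_zpow₀] at this
    have h2 : v (b k) ^ (p - 1) = v (p : K) ^ n k := by
      have := (aunit_div_iff (A := A) (zpow_ne_zero (n k) hp0)).1 (hb k)
      rwa [map_pow, map_zpow₀] at this
    have h3 : v (ϖ k) = v (p : K) := (aunit_div_iff (A := A) hp0).1 (hϖ k)
    have h4 : (v (b k) ^ p) ^ (p - 1) = v (p : K) ^ ((p : ℤ) * n k) := by
      rw [← pow_mul, mul_comm, pow_mul, h2, ← zpow_natCast (v (p : K) ^ n k) p, ← zpow_mul,
        mul_comm]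
    rw [h1, h3, mul_pow, h4, ← zpow_natCast (v (p : K) ^ (s k - p * Nk k)) (p - 1), ← zpow_mul,
      ← zpow_add₀ hvp0.ne']
    congr 1
    rw [Nat.cast_sub hp1]
    push_cast
    ring
  have h5 := (key k).symm.trans (key k')
  exact zpow_right_injective₀ hvp0 hvp1.ne h5

theorem slopes_of_tame {p : ℕ} {ι : Type*} (n s Nk : ι → ℤ) (k k' : ι)
    (h7 : (p : ℤ) * n k + ((p : ℤ) - 1) * (s k - p * Nk k) =
      (p : ℤ) * n k' + ((p : ℤ) - 1) * (s k' - p * Nk k')) : (p : ℤ) ∣ s k - s k' := by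
  have h1 : s k - s k' =
      (p : ℤ) * ((s k - s k') - (p - 1) * (Nk k - Nk k') + (n k - n k')) := by
    linear_combination (-1 : ℤ) * h7
  exact ⟨_, h1⟩

/-- **(TR), abstract form, tame case.** -/
theorem tr_tame {p : ℕ} (hpS : Small A (p : K)) (hp0 : (p : K) ≠ 0)
    {Γ : Type*} {γ : Γ → SemilinearAut K F} (hComp : N.Compat γ) (I₁ : Set Γ)
    (X : ∀ k, AnnCoord N k) (hXzp : ∀ k, ∀ σ ∈ I₁, γ σ • (X k).zp = (X k).zp)
    (hXϖ : ∀ k, ∀ σ ∈ I₁, baseAut (γ σ) (X k).ϖ = (X k).ϖ)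
    (hϖ : ∀ k, AUnit A ((X k).ϖ / (p : K)))
    (htame : ∀ b : K, b ≠ 0 → (∀ σ ∈ I₁, baseAut (γ σ) b = b) →
      ∃ n : ℤ, AUnit A (b ^ (p - 1) / (p : K) ^ n))
    (D : Divisor K F) (hD : ∀ σ ∈ I₁, γ σ • D = D)
    {f : F} (hf0 : f ≠ 0) (hf : ∀ P : Place K F, P.ord f = p * D P)
    {c₁ c₂ : K} (h₁ : IsGU N.c₁ (algebraMap K F c₁ * f))
    (h₂ : IsGU N.c₂ (algebraMap K F c₂ * f)) (k k' : ι) :
    (p : ℤ) ∣ (Nd.s1 k).ord (red N.c₁ (algebraMap K F c₁ * f)) -
      (Nd.s1 k').ord (red N.c₁ (algebraMap K F c₁ * f)) := by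
  classical
  set HS : Set (SemilinearAut K F) := γ '' I₁ with hHS
  have hD' : ∀ σ ∈ HS, σ • D = D := by
    rintro _ ⟨σ, hσ, rfl⟩
    exact hD σ hσ
  set T : ι → Finset (Place K F) := fun k => D.support.filter fun P => N.RedToNode P k with hT
  have hTmem : ∀ k P, P ∈ T k ↔ (N.RedToNode P k ∧ D P ≠ 0) := fun k P => by
    rw [hT]
    simp only
    rw [Finset.mem_filter, Finsupp.mem_support_iff]
    exact and_comm
  set b : ι → K := fun k => ∏ P ∈ T k, (X k).value P ^ D P with hbdef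
  have hb0 : ∀ k, b k ≠ 0 := fun k =>
    Finset.prod_ne_zero_iff.2 fun P hP =>
      zpow_ne_zero _ ((X k).value_ne P ((hTmem k P).1 hP).1)
  -- `b_k` is fixed by `I₁`
  have hbfix : ∀ k, ∀ σ ∈ I₁, baseAut (γ σ) (b k) = b k := by
    intro k
    have hyp : NodeFactor9.FactorHyp (X k) (1 : SemilinearAut K F) HS (p : K) :=
      { side₁ := ⟨fun y hy => by rwa [one_smul], fun y _ => by rw [one_smul]⟩
        side₂ := ⟨fun y hy => by rwa [one_smul], fun y _ => by rw [one_smul]⟩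
        τ_zp := one_smul _ _
        τ_ϖ := rfl
        τ_node := fun P => by rw [one_smul]
        H_zp := by rintro _ ⟨σ, hσ, rfl⟩; exact hXzp k σ hσ
        H_ϖ := by rintro _ ⟨σ, hσ, rfl⟩; exact hXϖ k σ hσ
        H_node := by
          rintro _ ⟨σ, -, rfl⟩ P hP
          unfold NodalRed.RedToNode at hP ⊢
          rw [hComp.r₁_smul]
          exact hP
        ε_small := hpS
        move := fun c _ _ => ⟨0, small_zero, by
          rw [mul_zero, sub_eq_zero]
          rfl⟩ }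
    obtain ⟨-, -, -, -, hfix, -⟩ := node_factor_D hyp D hD' (T k) (hTmem k)
    intro σ hσ
    exact hfix (γ σ) ⟨σ, hσ, rfl⟩
  choose n hn using fun k => htame (b k) (hb0 k) (hbfix k)
  set s : ι → ℤ := fun k => (Nd.s1 k).ord (red N.c₁ (algebraMap K F c₁ * f)) with hs
  set Nk : ι → ℤ := fun k => ∑ P ∈ T k, D P with hNk
  have hAF : ∀ k, AUnit A ((c₁ / c₂) / (b k ^ p * (X k).ϖ ^ (s k - p * Nk k))) := by
    intro k
    have h := annulus_formula (X k) hf0 (T k) (fun P hP => ((hTmem k P).1 hP).1)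
      (fun P hP hne => (hTmem k P).2 ⟨hP, by
        intro h0
        rw [hf P, h0, mul_zero] at hne
        exact hne rfl⟩) h₁ h₂
    have e1 : (∏ P ∈ T k, (X k).value P ^ P.ord f) = b k ^ p := by
      rw [hbdef]
      simp only
      rw [← Finset.prod_pow]
      refine Finset.prod_congr rfl fun P _ => ?_
      rw [hf P, ← zpow_natCast, ← zpow_mul, mul_comm]
    have e2 : (∑ P ∈ T k, P.ord f) = p * Nk k := by
      rw [hNk]
      simp only
      rw [Finset.mul_sum]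
      exact Finset.sum_congr rfl fun P _ => hf P
    rw [e1, e2] at h
    have e3 : c₁ / (c₂ * b k ^ p * (X k).ϖ ^ (s k - p * Nk k)) =
        (c₁ / c₂) / (b k ^ p * (X k).ϖ ^ (s k - p * Nk k)) := by
      rw [div_div, mul_assoc]
    rw [← e3]
    exact h
  have h7 := step7_tame hpS hp0 b (fun k => (X k).ϖ) n s Nk hb0 (fun k => (X k).ϖ_ne) hn hϖ
    hAF k k'
  exact slopes_of_tame n s Nk k k' h7

end Fermat.Agent.U44.TRTame3
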