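/-
Programme U44 (target S44), block (TR), INSTANCE layer (helper3): **the theorem (TR) at
`X₀(M' p)` over `ℚ̄`**, from `TRFinal3.tr_abstract` (wild case) and `TRTame3.tr_tame` (tame case).

`h : LevelHyp p M' A`, `N = NodalInst4G.nodalRed h` the nodal reduction of `F = Fbar (M' p)`,
`ζ` a primitive `p`-th root of unity, `I₁ = Stab_{Iner A}(ζ)`, `ρ ∈ ℚ̄` with `ρ^p` an `I₁`-fixed
principal unit, `I_L = Stab_{I₁}(ρ)`.  The group `I₁` acts on `F` through `Psi3C.gal (M' p)`.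

Inputs still carried as hypotheses (owners: helper9 `DiscInst9`, helper6 `AnnInst6`, helper1
`SmoothCoord` existence): the disc model with `θ` injective / surjective at exponent `p`, annulus
coordinates at all nodes (`ϖ_k = p · unit`) and smooth coordinates at all smooth points, all
fixed by `I₁`.

`tr_inst` : for a class `v ∈ Pic⁰(F)[p]` fixed by `I_L` such that `τ v − v` is fixed by `I₁` for
all `τ ∈ I₁`, and ANY representative `v = [D]`, `p D = div f`, any normalising constant `c₁`: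
the slopes `s_k = ord_{s1 k} ρ₁ (c₁ f)` are all congruent modulo `p`.
-/
import Mathlib
import Fermat.Agent.U44.TRFinal3
import Fermat.Agent.U44.TRTame3
import Fermat.Agent.U44.SlopeIndep3
import Fermat.Agent.U44.LocField9
import Fermat.Agent.U44.DescInst1
import Fermat.Agent.T33.NodalInst4G
import Fermat.Agent.T33.FrickeRed3B
import Fermat.Agent.T33.NodalMany2
import Fermat.Agent.FF.ThetaGlue8
import Fermat.Agent.FF.TeichLift4
import Fermat.Agent.ES.KRON.KronInst10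

set_option autoImplicit false
set_option linter.unusedSectionVars false
set_option linter.style.haveILetI false
set_option linter.unusedVariables false
set_option synthInstance.maxHeartbeats 400000

noncomputable section

open AlgebraicCurve IsLocalRing ModularCurve

namespace Fermat.Agent.U44.TRInst3

open Fermat.Agent.T33.NodalCtx1 Fermat.Agent.T33.NodalCurve6 Fermat.Agent.T33.NodalIface8
  Fermat.Agent.T33.NodalLat2 Fermat.Agent.T33.NodalAbs1C Fermat.Agent.X0 Fermat.Agent.X0.FF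
  Fermat.Agent.RR.LSpace Fermat.Agent.U44.GaussRed3 Fermat.Agent.U44.Second3
  Fermat.Agent.U44.Annulus3 Fermat.Agent.U44.SmoothCoord3 Fermat.Agent.U44.SlopeIndep3
  Fermat.Agent.U44.LocInst1B Fermat.Agent.FF.InertiaWire8 Fermat.Agent.T33.Psi3C
  Fermat.Agent.T33.NodalHalf4 Fermat.Agent.RED.Interface4 AlgebraicCurve.SemilinearAut

open Fermat.Agent.T33.NodalInst4E (Nd Node)

open Fermat.Agent.T33.NodalInst4G (nodalRed)

variable {p M' : ℕ} [NeZero M'] [NeZero p] {A : ValuationSubring Qb}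

/-- shortcut instance. -/
local instance (priority := high) algebraAFbarN3 : Algebra ↥A ↥(Fbar (M' * p)) := inferInstance

/-- shortcut instance. -/
local instance (priority := high) algebraKFb3 :
    Algebra (Fermat.Agent.ES.RED.Setup8.kA A) (Fb A M') := inferInstance

variable (h : LevelHyp p M' A)

/-- the action of `I₁` on the function field. -/
def gam (ζ : Qb) (σ : I1 A ζ) : SemilinearAut Qb ↥(Fbar (M' * p)) :=
  have _ := h
  gal (M' * p) (((σ : Iner A) : GQ))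

theorem baseAut_gam (ζ : Qb) (σ : I1 A ζ) (a : Qb) : baseAut (gam h ζ σ) a = σ • a := rfl

/-- the nodal reduction is compatible with `I₁`. -/
theorem compat_I1 (ζ : Qb) : (nodalRed h).Compat (gam h ζ) :=
  let C := Fermat.Agent.T33.NodalInst4G.compat h
  { baseAut_mem := fun σ => C.baseAut_mem σ.1
    smul_mem₁ := fun σ => C.smul_mem₁ σ.1
    smul_mem₂ := fun σ => C.smul_mem₂ σ.1
    ρ₁_smul := fun σ => C.ρ₁_smul σ.1
    ρ₂_smul := fun σ => C.ρ₂_smul σ.1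
    r₁_smul := fun σ => C.r₁_smul σ.1
    r₂_smul := fun σ => C.r₂_smul σ.1 }

/-- `I₁` preserves `A`. -/
theorem hΓA_I1 (ζ : Qb) (σ : I1 A ζ) (a : Qb) (ha : a ∈ A) : σ • a ∈ A :=
  hΓA A (σ : Iner A) a ha

/-- the automorphisms of `A` induced by `I₁`. -/
def sigA (ζ : Qb) (σ : I1 A ζ) : A ≃+* A := Fermat.Agent.FF.ThetaGlue8.sigmaA (hΓA_I1 ζ) σ

theorem coe_sigA (ζ : Qb) (σ : I1 A ζ) (a : A) :
    ((sigA ζ σ a : A) : Qb) = baseAut (gam h ζ σ) (a : Qb) := rfl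

/-- the three `LHyp`. -/
theorem lHypF : LHyp Qb ↥(Fbar (M' * p)) := Fermat.Agent.U44.DescInst1.lHyp (M' * p)

theorem hmany₁ : HasManySmooth₁ (nodalRed h) := by
  haveI := Fermat.Agent.T33.NodalInst4E.finite_node h
  haveI : Infinite (ResidueField A) := Fermat.Agent.FF.TeichLift4.infinite_residueField A
  exact hasManySmooth₁_of_surjective (nodalRed h) lHypF
    (Fermat.Agent.T33.NodalInst4C.lHypFb h) (Fermat.Agent.T33.FrickeRed3.c1_ρ_surjective h)

/-- **(TR) at `X₀(M' p)`**, from the disc package and the coordinates. -/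
theorem tr_inst_of_coords {ζ : Qb} (hζ : IsPrimitiveRoot ζ p) {ρ : Qb}
    (hu : ∀ σ : I1 A ζ, σ • ρ ^ p = ρ ^ p) (hu1 : Small A (ρ ^ p - 1))
    -- the disc package
    {g d : ℕ} (Mod : NDiscModel A ↥(Fbar (M' * p)) g d) {c : Fin d → NPt (nodalRed h)}
    (hC : DiscCompat (nodalRed h) Mod c)
    (hdeg : ∀ (j : Fin d) (t : A), (Mod.P j t).deg = 1)
    (hγφ : ∀ σ : Iner A, gal (M' * p) (σ : GQ) • Mod.φ = Mod.φ)
    (hinj : ThetaInjStatement Mod hdeg) (hsurj : ThetaSurjStatement (nodalRed h) Mod hdeg p)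
    -- the coordinates
    (X : ∀ k, AnnCoord (nodalRed h) k)
    (hXzp : ∀ k (σ : Iner A), gal (M' * p) (σ : GQ) • (X k).zp = (X k).zp)
    (hXϖ : ∀ k (σ : Iner A), σ • (X k).ϖ = (X k).ϖ)
    (hϖ : ∀ k, AUnit A ((X k).ϖ / (p : Qb)))
    (Y₁ : ∀ Q : Place (ResidueField A) (Fb A M'), (Nd h).Smooth1 Q →
      SmoothCoord (nodalRed h).c₁ (nodalRed h).r₁ Q)
    (hY₁ : ∀ Q hQ (σ : Iner A), gal (M' * p) (σ : GQ) • (Y₁ Q hQ).y = (Y₁ Q hQ).y)
    (Y₂ : ∀ Q : Place (ResidueField A) (Fb A M'), (Nd h).Smooth2 Q →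
      SmoothCoord (nodalRed h).c₂ (nodalRed h).r₂ Q)
    (hY₂ : ∀ Q hQ (σ : Iner A), gal (M' * p) (σ : GQ) • (Y₂ Q hQ).y = (Y₂ Q hQ).y)
    -- the class
    (v : Pic0 Qb ↥(Fbar (M' * p))) (hpv : v ∈ Pic0.torsion Qb ↥(Fbar (M' * p)) p)
    (hvL : ∀ σ : I1 A ζ, σ • ρ = ρ → gam h ζ σ • v = v)
    (hv1 : ∀ τ σ : I1 A ζ, gam h ζ σ • (gam h ζ τ • v - v) = gam h ζ τ • v - v)
    -- any representative
    (D : Divisor.degZero (K := Qb) (F := ↥(Fbar (M' * p)))) (hDv : Pic0.mk D = v)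
    {f : ↥(Fbar (M' * p))} (hf0 : f ≠ 0)
    (hf : ∀ P : Place Qb ↥(Fbar (M' * p)), P.ord f = p * (D : Divisor Qb ↥(Fbar (M' * p))) P)
    {c₁ : Qb} (h₁ : IsGU (nodalRed h).c₁ (algebraMap Qb ↥(Fbar (M' * p)) c₁ * f))
    (k k' : Node h) :
    (p : ℤ) ∣ ((Nd h).s1 k).ord (red (nodalRed h).c₁ (algebraMap Qb ↥(Fbar (M' * p)) c₁ * f)) -
      ((Nd h).s1 k').ord (red (nodalRed h).c₁ (algebraMap Qb ↥(Fbar (M' * p)) c₁ * f)) := by
  have hp : p.Prime := h.prime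
  have hA : A.LiesOverPrime p := h.liesOver
  haveI : CharP (ResidueField A) p :=
    Fermat.Agent.ES.KRON.KronInst10.charP_residueField A hp hA
  have H := lHypF (p := p) (M' := M')
  have H₁ := Fermat.Agent.T33.NodalInst4C.lHypFb h
  have hpS := Fermat.Agent.U44.LocField9.small_p (A := A) hA
  have hp0 := Fermat.Agent.U44.LocField9.p_ne_zero hp
  -- it is enough to treat ONE representative
  suffices hkey : ∃ (D' : Divisor.degZero (K := Qb) (F := ↥(Fbar (M' * p))))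
      (f' : ↥(Fbar (M' * p))) (c' : Qb), Pic0.mk D' = v ∧ f' ≠ 0 ∧
      (∀ P : Place Qb ↥(Fbar (M' * p)),
        P.ord f' = p * (D' : Divisor Qb ↥(Fbar (M' * p))) P) ∧
      IsGU (nodalRed h).c₁ (algebraMap Qb ↥(Fbar (M' * p)) c' * f') ∧
      (p : ℤ) ∣
        ((Nd h).s1 k).ord (red (nodalRed h).c₁ (algebraMap Qb ↥(Fbar (M' * p)) c' * f')) -
        ((Nd h).s1 k').ord (red (nodalRed h).c₁ (algebraMap Qb ↥(Fbar (M' * p)) c' * f')) by
    obtain ⟨D', f', c', hD'v, hf'0, hf', hc', hdvd⟩ := hkey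
    have e1 := slope_indep (nodalRed h).c₁ ((Nd h).s1 k) H D' D (hD'v.trans hDv.symm) hf'0 hf0
      hf' hf hc' h₁
    have e2 := slope_indep (nodalRed h).c₁ ((Nd h).s1 k') H D' D (hD'v.trans hDv.symm) hf'0 hf0
      hf' hf hc' h₁
    have e3 := (hdvd.add e1).sub e2
    refine (Int.dvd_iff_emod_eq_zero).2 ?_
    rw [← (Int.dvd_iff_emod_eq_zero).1 e3]
    congr 1
    ring
  have H₂ := H₁
  by_cases hwild : ∃ τ : I1 A ζ, τ • ρ ≠ ρ
  · -- the wild case
    obtain ⟨τ, hτρ⟩ := hwild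
    obtain ⟨ε, πL, hε, hε0, hπ0, hπ, hmove, hunif, hL2a⟩ :=
      Fermat.Agent.U44.LocField9.wild hp hA hζ hu hu1 τ hτρ
    set S : Set GQ := {g | ∃ σ : I1 A ζ, σ • ρ = ρ ∧ ((σ : Iner A) : GQ) = g} with hS
    obtain ⟨D', hD'v, hD'S, f', hf'0, hf'⟩ :=
      Fermat.Agent.U44.DescInst1.exists_stable_torsion_Fbar (M' * p) S v hpv (by
        rintro _ ⟨σ, hσ, rfl⟩
        exact hvL σ hσ)
    have hf'' : ∀ P : Place Qb ↥(Fbar (M' * p)),
        P.ord f' = p * (D' : Divisor Qb ↥(Fbar (M' * p))) P := fun P => (hf' P).symm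
    obtain ⟨c₁', -, h₁'⟩ := exists_isGU (nodalRed h).c₁ hf'0
    obtain ⟨c₂', -, h₂'⟩ := exists_isGU (nodalRed h).c₂ hf'0
    refine ⟨D', f', c₁', hD'v, hf'0, hf'', h₁', ?_⟩
    exact Fermat.Agent.U44.TRFinal3.tr_abstract (nodalRed h) (compat_I1 h ζ) H H₁ H₂ (hmany₁ h)
      hpS hp0 (sigA ζ) (coe_sigA h ζ) Mod hC hdeg (fun σ => hγφ (σ : Iner A)) hinj hsurj τ
      {σ : I1 A ζ | σ • ρ = ρ} Set.univ hε hε0 hπ0 hπ
      (fun c hc hcs => hmove c (fun g hg => hc g hg) hcs)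
      (fun b hb0 hb => hunif b hb0 (fun g hg => hb g hg))
      (fun x hx hxs => hL2a x (fun σ => hx σ (Set.mem_univ _)) hxs)
      X (fun k σ => hXzp k (σ : Iner A)) (fun k σ => hXϖ k (σ : Iner A)) hϖ
      Y₁ (fun Q hQ σ => hY₁ Q hQ (σ : Iner A)) Y₂ (fun Q hQ σ => hY₂ Q hQ (σ : Iner A))
      D' (fun σ hσ => hD'S _ ⟨σ, hσ, rfl⟩) hf'0 hf''
      (fun σ _ => by rw [hD'v]; exact hv1 τ σ) h₁' h₂' k k'
  · -- the tame case: `I_L = I₁`
    have htame : ∀ σ : I1 A ζ, σ • ρ = ρ := fun σ => by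
      by_contra hne
      exact hwild ⟨σ, hne⟩
    set S : Set GQ := {g | ∃ σ : I1 A ζ, ((σ : Iner A) : GQ) = g} with hS
    obtain ⟨D', hD'v, hD'S, f', hf'0, hf'⟩ :=
      Fermat.Agent.U44.DescInst1.exists_stable_torsion_Fbar (M' * p) S v hpv (by
        rintro _ ⟨σ, rfl⟩
        exact hvL σ (htame σ))
    have hf'' : ∀ P : Place Qb ↥(Fbar (M' * p)),
        P.ord f' = p * (D' : Divisor Qb ↥(Fbar (M' * p))) P := fun P => (hf' P).symm
    obtain ⟨c₁', -, h₁'⟩ := exists_isGU (nodalRed h).c₁ hf'0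
    obtain ⟨c₂', -, h₂'⟩ := exists_isGU (nodalRed h).c₂ hf'0
    refine ⟨D', f', c₁', hD'v, hf'0, hf'', h₁', ?_⟩
    exact Fermat.Agent.U44.TRTame3.tr_tame (nodalRed h) hpS hp0 (compat_I1 h ζ) Set.univ
      X (fun k σ _ => hXzp k (σ : Iner A)) (fun k σ _ => hXϖ k (σ : Iner A)) hϖ
      (fun b hb0 hb => Fermat.Agent.U44.LocField9.tame hp hA hζ
        (fun σ => hb σ (Set.mem_univ _)) hb0)
      (D' : Divisor Qb ↥(Fbar (M' * p))) (fun σ _ => hD'S _ ⟨σ, rfl⟩) hf'0 hf'' h₁' h₂' k k'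

end Fermat.Agent.U44.TRInst3
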