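/-
Programme U44 (target S44), block (TR), INSTANCE layer, part B (helper3): **(TR) at `X₀(M' p)`
with the disc package and the smooth coordinates discharged** (`DiscInst9.exists_discPackage` of
helper9, `SmoothCoordInst1.smoothCoord₁/₂` of helper1).  The only input still carried as a
hypothesis is the family of annulus coordinates at the nodes (helper6, `AnnInst6`):
`X k : AnnCoord (nodalRed h) k` with `zp`, `ϖ` fixed by the inertia group and `ϖ_k = p · unit`.

`tr_inst_of_ann` : for `v ∈ Pic⁰(Fbar (M' p))[p]` fixed by `I_L = Stab_{I₁}(ρ)` such that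
`τ v − v` is fixed by `I₁` for all `τ ∈ I₁`, and ANY representative `v = [D]`, `p D = div f`, any
normalising constant `c₁`: the slopes `s_k = ord_{s1 k} ρ₁ (c₁ f)` are congruent modulo `p`.
-/
import Mathlib
import Fermat.Agent.U44.TRInst3
import Fermat.Agent.U44.DiscInst9
import Fermat.Agent.U44.SmoothCoordInst1

set_option autoImplicit false
set_option linter.unusedSectionVars false
set_option linter.style.haveILetI false
set_option linter.unusedVariables false
set_option synthInstance.maxHeartbeats 400000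

noncomputable section

open AlgebraicCurve IsLocalRing ModularCurve

namespace Fermat.Agent.U44.TRInstB3

open Fermat.Agent.T33.NodalCtx1 Fermat.Agent.T33.NodalCurve6 Fermat.Agent.T33.NodalIface8
  Fermat.Agent.X0 Fermat.Agent.X0.FF Fermat.Agent.U44.GaussRed3 Fermat.Agent.U44.Annulus3
  Fermat.Agent.U44.LocInst1B Fermat.Agent.FF.InertiaWire8 Fermat.Agent.T33.Psi3C
  Fermat.Agent.T33.NodalHalf4 Fermat.Agent.RED.Interface4 Fermat.Agent.U44.TRInst3
  AlgebraicCurve.SemilinearAut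

open Fermat.Agent.T33.NodalInst4E (Nd Node)

open Fermat.Agent.T33.NodalInst4G (nodalRed)

variable {p M' : ℕ} [NeZero M'] [NeZero p] {A : ValuationSubring Qb}

/-- shortcut instance. -/
local instance (priority := high) algebraAFbarNB3 : Algebra ↥A ↥(Fbar (M' * p)) := inferInstance

/-- shortcut instance. -/
local instance (priority := high) algebraKFbB3 :
    Algebra (Fermat.Agent.ES.RED.Setup8.kA A) (Fb A M') := inferInstance

variable (h : LevelHyp p M' A)

/-- **(TR) at `X₀(M' p)`**, from the annulus coordinates at the nodes. -/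
theorem tr_inst_of_ann {ζ : Qb} (hζ : IsPrimitiveRoot ζ p) {ρ : Qb}
    (hu : ∀ σ : I1 A ζ, σ • ρ ^ p = ρ ^ p) (hu1 : Small A (ρ ^ p - 1))
    (X : ∀ k, AnnCoord (nodalRed h) k)
    (hXzp : ∀ k (σ : Iner A), gal (M' * p) (σ : GQ) • (X k).zp = (X k).zp)
    (hXϖ : ∀ k (σ : Iner A), σ • (X k).ϖ = (X k).ϖ)
    (hϖ : ∀ k, AUnit A ((X k).ϖ / (p : Qb)))
    (v : Pic0 Qb ↥(Fbar (M' * p))) (hpv : v ∈ Pic0.torsion Qb ↥(Fbar (M' * p)) p)
    (hvL : ∀ σ : I1 A ζ, σ • ρ = ρ → gam h ζ σ • v = v)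
    (hv1 : ∀ τ σ : I1 A ζ, gam h ζ σ • (gam h ζ τ • v - v) = gam h ζ τ • v - v)
    (D : Divisor.degZero (K := Qb) (F := ↥(Fbar (M' * p)))) (hDv : Pic0.mk D = v)
    {f : ↥(Fbar (M' * p))} (hf0 : f ≠ 0)
    (hf : ∀ P : Place Qb ↥(Fbar (M' * p)), P.ord f = p * (D : Divisor Qb ↥(Fbar (M' * p))) P)
    {c₁ : Qb} (h₁ : IsGU (nodalRed h).c₁ (algebraMap Qb ↥(Fbar (M' * p)) c₁ * f))
    (k k' : Node h) :
    (p : ℤ) ∣ ((Nd h).s1 k).ord (red (nodalRed h).c₁ (algebraMap Qb ↥(Fbar (M' * p)) c₁ * f)) -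
      ((Nd h).s1 k').ord (red (nodalRed h).c₁ (algebraMap Qb ↥(Fbar (M' * p)) c₁ * f)) := by
  obtain ⟨g, d, Mod, c, hdeg, hC, hγφ, hinj, hsurj⟩ :=
    Fermat.Agent.U44.DiscInst9.exists_discPackage h
  have hsurj1 : ThetaSurjStatement (nodalRed h) Mod hdeg p := by
    have := hsurj 1
    rwa [pow_one] at this
  exact tr_inst_of_coords h hζ hu hu1 Mod hC hdeg hγφ hinj hsurj1 X hXzp hXϖ hϖ
    (Fermat.Agent.U44.SmoothCoordInst1.smoothCoord₁ h)
    (Fermat.Agent.U44.SmoothCoordInst1.gal_smul_smoothCoord₁_y h)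
    (Fermat.Agent.U44.SmoothCoordInst1.smoothCoord₂ h)
    (Fermat.Agent.U44.SmoothCoordInst1.gal_smul_smoothCoord₂_y h)
    v hpv hvL hv1 D hDv hf0 hf h₁ k k'

end Fermat.Agent.U44.TRInstB3
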