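/-
Programme U44 (target S44), interface (FREY) → (TR) (helper3): **the `p`-torsion of the Frey curve
inside `J₀(M' p)` satisfies the hypotheses of (TR)**, hence has constant slope vector modulo `p`.

* `exists_rho` (local adapter): for an inertia-fixed unit `u` of `A` there is `ρ ∈ ℚ̄` with
  `ρ^p = u / c^p` an `I₁`-fixed principal unit (`c` an inertia-fixed unit of `A` lifting a `p`-th
  root of `ū`), such that every `σ ∈ I₁` fixing `ρ` fixes all the `p`-th roots of `u`;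
* `slopes_const_of_frey` : `P : FreyPackage` with `p ∣ abc`, `h : LevelHyp p M' A`,
  `ι : E[p] →+ J₀(M' p)` a `G_ℚ`-equivariant homomorphism, annulus coordinates at the nodes:
  for every `z ∈ E[p]` and every representative `ι z = [D]`, `p D = div f`, the slopes
  `ord_{s1 k} ρ₁(c₁ f)` are congruent modulo `p` (`FreyAtP8.frey_at_p` (F2), (F3), (F4) +
  `TRInstB3.tr_inst_of_ann`).
-/
import Mathlib
import Fermat.Agent.U44.TRInstB3
import Fermat.Agent.U44.FreyAtP8

set_option autoImplicit false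
set_option linter.unusedSectionVars false
set_option linter.style.haveILetI false
set_option linter.unusedVariables false
set_option synthInstance.maxHeartbeats 400000

noncomputable section

open AlgebraicCurve IsLocalRing ModularCurve

namespace Fermat.Agent.U44.TRFrey3

open Fermat.Agent.T33.NodalCtx1 Fermat.Agent.T33.NodalCurve6
  Fermat.Agent.X0 Fermat.Agent.X0.FF Fermat.Agent.U44.GaussRed3 Fermat.Agent.U44.Annulus3
  Fermat.Agent.U44.ValBridge3
  Fermat.Agent.U44.LocInst1B Fermat.Agent.FF.InertiaWire8 Fermat.Agent.T33.Psi3C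
  Fermat.Agent.T33.NodalHalf4 Fermat.Agent.RED.Interface4 Fermat.Agent.U44.TRInst3
  AlgebraicCurve.SemilinearAut

open Fermat.Agent.T33.NodalInst4E (Nd Node)

open Fermat.Agent.T33.NodalInst4G (nodalRed)

/-! ### the local adapter -/

section Adapter

variable {A : ValuationSubring Qb} {p : ℕ}

/-- **normalisation of the Kummer generator**: `ρ^p = u / c^p` is an `I₁`-fixed principal unit and
the stabiliser of `ρ` in `I₁` fixes all the `p`-th roots of `u`. -/
theorem exists_rho (hp : p.Prime) (hA : A.LiesOverPrime p) {ζ : Qb} (hζ : IsPrimitiveRoot ζ p)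
    {u : Qb} (hu1 : A.valuation u = 1) (hufix : ∀ σ ∈ A.inertiaSubgroupIn ℚ, σ u = u) :
    ∃ ρ : Qb, (∀ σ : I1 A ζ, σ • ρ ^ p = ρ ^ p) ∧ Small A (ρ ^ p - 1) ∧
      ∀ σ : I1 A ζ, σ • ρ = ρ → ∀ θ : Qb, θ ^ p = u → ((σ : Iner A) : GQ) θ = θ := by
  have huA : u ∈ A := (A.valuation_le_one_iff u).1 (le_of_eq hu1)
  have hu0 : u ≠ 0 := by
    intro h0
    rw [h0, map_zero] at hu1
    exact zero_ne_one hu1
  haveI : IsAlgClosed (ResidueField A) := Fermat.Agent.FF.TeichLift4.isAlgClosed_residueField A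
  -- a `p`-th root of the residue of `u`, lifted to an inertia-fixed `c`
  obtain ⟨cb, hcb⟩ := IsAlgClosed.exists_pow_nat_eq (residue A ⟨u, huA⟩) hp.pos
  obtain ⟨c, hc, hcfix⟩ := Fermat.Agent.FF.TeichLift4.exists_fixed_lift hp hA cb
  have hures : residue A ⟨u, huA⟩ ≠ 0 := by
    intro h0
    rw [residue_eq_zero_iff] at h0
    have h1 : A.valuation u < 1 := small_iff_val_lt_one.1 (small_of_mem_max h0)
    exact absurd hu1 h1.ne
  have hcb0 : cb ≠ 0 := by
    intro h0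
    rw [h0, zero_pow hp.ne_zero] at hcb
    exact hures hcb.symm
  -- `c` is a unit of `A`
  have hcU : AUnit A (c : Qb) := by
    have hcnm : c ∉ maximalIdeal A := fun hm => hcb0 (by rw [← hc, (residue_eq_zero_iff _).2 hm])
    have hunit : IsUnit c := by
      by_contra hnu
      exact hcnm ((mem_maximalIdeal _).2 hnu)
    obtain ⟨w, hw⟩ := hunit
    have h1 : (c : Qb) * ((w⁻¹ : Aˣ) : A) = 1 := by
      have := congrArg (Subtype.val) (w.mul_inv)
      rw [hw] at this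
      exact this
    have hc0 : (c : Qb) ≠ 0 := fun h0 => by rw [h0, zero_mul] at h1; exact zero_ne_one h1
    refine ⟨c.2, ?_, hc0⟩
    have : (c : Qb)⁻¹ = (((w⁻¹ : Aˣ) : A) : Qb) := inv_eq_of_mul_eq_one_right h1
    rw [this]
    exact Subtype.mem _
  have hcpU : AUnit A ((c : Qb) ^ p) := hcU.pow p
  have hc0 : (c : Qb) ≠ 0 := hcU.2.2
  -- `u / c ^ p` is a principal unit
  have hsmall : Small A (u / (c : Qb) ^ p - 1) := by
    have hw : (⟨u, huA⟩ - c ^ p : A) ∈ maximalIdeal A := by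
      rw [← residue_eq_zero_iff, map_sub, map_pow, hc, hcb, sub_self]
    have h1 := (small_of_mem_max hw).mul_mem hcpU.2.1
    have h2 : u / (c : Qb) ^ p - 1 = ((⟨u, huA⟩ - c ^ p : A) : Qb) * ((c : Qb) ^ p)⁻¹ := by
      push_cast
      field_simp
    rw [h2]
    exact h1
  obtain ⟨ρ, hρ⟩ := IsAlgClosed.exists_pow_nat_eq (u / (c : Qb) ^ p) hp.pos
  have hρ0 : ρ ≠ 0 := by
    intro h0
    rw [h0, zero_pow hp.ne_zero] at hρ
    exact (div_ne_zero hu0 (pow_ne_zero _ hc0)) hρ.symm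
  refine ⟨ρ, ?_, by rw [hρ]; exact hsmall, ?_⟩
  · intro σ
    rw [hρ]
    show ((σ : Iner A) : GQ) (u / (c : Qb) ^ p) = _
    rw [map_div₀, map_pow, hufix _ (σ : Iner A).2, hcfix _ (σ : Iner A).2]
  · intro σ hσ θ hθ
    -- `θ = ζ ^ i * c * ρ`
    have hσρ : ((σ : Iner A) : GQ) ρ = ρ := hσ
    have hσζ : ((σ : Iner A) : GQ) ζ = ζ := σ.2
    have hσc : ((σ : Iner A) : GQ) (c : Qb) = c := hcfix _ (σ : Iner A).2
    have h1 : (θ / ((c : Qb) * ρ)) ^ p = 1 := by
      rw [div_pow, mul_pow, hρ, hθ]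
      field_simp
    haveI : NeZero p := ⟨hp.ne_zero⟩
    obtain ⟨i, -, hi⟩ := hζ.eq_pow_of_pow_eq_one h1
    have h2 : θ = ζ ^ i * ((c : Qb) * ρ) := by
      rw [hi]
      field_simp
    rw [h2, map_mul, map_mul, map_pow, hσζ, hσc, hσρ]

end Adapter

/-! ### the Frey curve -/

section Frey

open WeierstrassCurve WeierstrassCurve.Affine

variable (P : FreyPackage) {M' : ℕ} [NeZero M'] [NeZero P.p] {A : ValuationSubring Qb}

/-- shortcut instance. -/
local instance (priority := high) algebraAFbarNF3 : Algebra ↥A ↥(Fbar (M' * P.p)) := inferInstance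

/-- shortcut instance. -/
local instance (priority := high) algebraKFbF3 :
    Algebra (Fermat.Agent.ES.RED.Setup8.kA A) (Fb A M') := inferInstance

/-- **the Frey `p`-torsion inside `J₀(M' p)` has constant slope vector modulo `p`.** -/
theorem slopes_const_of_frey (hpabc : (P.p : ℤ) ∣ P.a * P.b * P.c) (h : LevelHyp P.p M' A)
    (X : ∀ k, AnnCoord (nodalRed h) k)
    (hXzp : ∀ k (σ : Iner A), gal (M' * P.p) (σ : GQ) • (X k).zp = (X k).zp)
    (hXϖ : ∀ k (σ : Iner A), σ • (X k).ϖ = (X k).ϖ)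
    (hϖ : ∀ k, AUnit A ((X k).ϖ / (P.p : Qb)))
    (ι : Submodule.torsionBy ℤ (P.freyCurve⁄Qb).Point P.p →+ JZero (M' * P.p))
    (hι : ∀ (σ : GQ) (z : Submodule.torsionBy ℤ (P.freyCurve⁄Qb).Point P.p),
      ι (σ • z) = σ • ι z)
    (z : Submodule.torsionBy ℤ (P.freyCurve⁄Qb).Point P.p)
    (D : Divisor.degZero (K := Qb) (F := ↥(Fbar (M' * P.p)))) (hD : Pic0.mk D = ι z)
    {f : ↥(Fbar (M' * P.p))} (hf0 : f ≠ 0)
    (hf : ∀ Q : Place Qb ↥(Fbar (M' * P.p)),
      Q.ord f = P.p * (D : Divisor Qb ↥(Fbar (M' * P.p))) Q)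
    {c₁ : Qb} (h₁ : IsGU (nodalRed h).c₁ (algebraMap Qb ↥(Fbar (M' * P.p)) c₁ * f))
    (k k' : Node h) :
    (P.p : ℤ) ∣
      ((Nd h).s1 k).ord (red (nodalRed h).c₁ (algebraMap Qb ↥(Fbar (M' * P.p)) c₁ * f)) -
      ((Nd h).s1 k').ord (red (nodalRed h).c₁ (algebraMap Qb ↥(Fbar (M' * P.p)) c₁ * f)) := by
  have hp : P.p.Prime := h.prime
  have hA : A.LiesOverPrime P.p := h.liesOver
  obtain ⟨u, hu1, hufix, -, hF2, hF3, hF4⟩ := Fermat.Agent.U44.FreyAtP8.frey_at_p P hpabc A hA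
  obtain ⟨ζ, hζ⟩ := HasEnoughRootsOfUnity.exists_primitiveRoot Qb P.p
  obtain ⟨ρ, hρfix, hρ1, hρL⟩ := exists_rho hp hA hζ hu1 hufix
  refine Fermat.Agent.U44.TRInstB3.tr_inst_of_ann h hζ hρfix hρ1 X hXzp hXϖ hϖ (ι z) ?_ ?_ ?_
    D hD hf0 hf h₁ k k'
  · -- `p`-torsion
    rw [Pic0.mem_torsion, ← map_zsmul]
    have hz : ((P.p : ℤ) • z) = 0 := by
      apply Subtype.ext
      have h1 := z.2
      rw [Submodule.mem_torsionBy_iff] at h1
      exact h1
    rw [hz, map_zero]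
  · -- fixed by `I_L`
    intro σ hσ
    show (((σ : Iner A) : GQ)) • ι z = ι z
    rw [← hι, hF4 _ (σ : Iner A).2 (hρL σ hσ) z]
  · -- `τ v − v` is fixed by `I₁`
    intro τ σ
    have e1 : gam h ζ τ • ι z - ι z = ι ((((τ : Iner A) : GQ)) • z - z) := by
      rw [map_sub, hι]
      rfl
    rw [e1]
    show (((σ : Iner A) : GQ)) • ι _ = ι _
    rw [← hι]
    congr 1
    have hx := hF2 _ (τ : Iner A).2 z
    have h3 := hF3 _ (σ : Iner A).2 ζ hζ 1 (by rw [pow_one]; exact σ.2) _ hx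
    rw [h3, one_smul]

end Frey

end Fermat.Agent.U44.TRFrey3
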