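/-
Programme U44 (target S44), LOCAL ASSEMBLY (helper3): **from the Frey `p`-torsion inside
`J₀(M' p)` to a Hecke eigenclass on the special fibre of `X₀(M')`, invariant under the deck
transformations.**

Integration of the chapters (FREY) + (CONN) + (TR) + (H2) + (H3) + (T3); the inputs that are still
open are carried as explicit hypotheses:

* `AnnInput h` (helper6, `AnnInst6`) : annulus coordinates of thickness `p` at the nodes of the
  special fibre of `X₀(M' p)`, with `ord y₂ = -1` and inertia-invariant coordinate; needed at the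
  level `h` and at the level `hEll h hl₀ hl₀p` of one auxiliary prime `l₀`;
* `SpecNat1.C3 h` (helper2, `GammaTwo2`) : `τ'` preserves the Gauss ring `O₁`, with reduction `τ̄'`;
* the invariance of `V' = ι(E[p])` under `τ'` (and `τ`) (helper7 / helper1, `PullFix1`).

`local_core` : with an Eisenstein-free prime `l₀` given (`p ∤ a_{l₀} - (l₀ + 1)`);
`local_main` : the prime `l₀` is produced by chapter (EC) (`ECFinal8.exists_good_prime_not_dvd_card`)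
from the irreducibility of `E[p]`.

Chain: `TRFrey3.slopes_const_of_frey` (slopes constant mod `p`) ⟹ `RedCompatInst4.eisenstein'`
at `l₀` (slopes `≡ 0`) ⟹ `EtaleHecke4.exists_eigen` with `Conn7.frey_exists_not_mem_formalTwo`
(an eigenclass `y ≠ 0` in `Pic⁰(Fb)[p]`, étale image of some `ι z`) ⟹ `SpecNat1` (invariance of `y`).
-/
import Mathlib
import Fermat.Agent.U44.TRFrey3
import Fermat.Agent.U44.Conn7
import Fermat.Agent.U44.Pull7
import Fermat.Agent.U44.RedCompatInst4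
import Fermat.Agent.U44.EtaleHecke4
import Fermat.Agent.U44.SpecNat1
import Fermat.Agent.ES.EC.ECFinal8

set_option autoImplicit false
set_option linter.unusedSectionVars false
set_option linter.style.haveILetI false
set_option linter.unusedVariables false
set_option synthInstance.maxHeartbeats 400000

noncomputable section

open AlgebraicCurve IsLocalRing ModularCurve

namespace Fermat.Agent.U44.Local3

open Fermat.Agent.T33.NodalCtx1 Fermat.Agent.T33.NodalCurve6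
  Fermat.Agent.X0 Fermat.Agent.X0.FF Fermat.Agent.U44.GaussRed3 Fermat.Agent.U44.Annulus3
  Fermat.Agent.U44.LocInst1B Fermat.Agent.FF.InertiaWire8 Fermat.Agent.T33.Psi3C
  Fermat.Agent.T33.NodalHalf4 Fermat.Agent.RED.Interface4 Fermat.Agent.U44.TRInst3
  Fermat.Agent.U44.EtaleAbs1 Fermat.Agent.U44.EtaleInst1 Fermat.Agent.U44.EtaleHecke4
  Fermat.Agent.U44.LevelEll4 Fermat.Agent.U44.HeckeC4 Fermat.Agent.U44.GammaLevel2
  Fermat.Agent.U44.GammaGauss2 Fermat.Agent.T33.Psi3D Fermat.Agent.ES.RED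
  AlgebraicCurve.SemilinearAut

open Fermat.Agent.T33.NodalInst4E (Nd Node)

open Fermat.Agent.T33.NodalInst4G (nodalRed)

open Fermat.Agent.U44.Wire7 (Ep)

/-! ### the open input of helper6 -/

section Input

variable {p M' : ℕ} [NeZero M'] [NeZero p] {A : ValuationSubring Qb}

/-- shortcut instance. -/
local instance (priority := high) algebraAFbarNL3 : Algebra ↥A ↥(Fbar (M' * p)) := inferInstance

/-- shortcut instance. -/
local instance (priority := high) algebraKFbL3 : Algebra (Setup8.kA A) (Fb A M') := inferInstance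

/-- **annulus coordinates of thickness `p` at all the nodes** (the export of `AnnInst6`). -/
structure AnnInput (h : LevelHyp p M' A) : Type where
  /-- the coordinates. -/
  X : ∀ k, AnnCoord (nodalRed h) k
  ϖ_eq : ∀ k, (X k).ϖ = (p : Qb)
  ord_y₂ : ∀ k, ((Nd h).s2 k).ord (red (c2 h) (X k).y₂) = -1
  gal_zp : ∀ k (σ : Iner A), gal (M' * p) (σ : GQ) • (X k).zp = (X k).zp

variable {h : LevelHyp p M' A}

theorem AnnInput.gal_ϖ (I : AnnInput h) (k : Node h) (σ : Iner A) :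
    σ • (I.X k).ϖ = (I.X k).ϖ := by
  rw [I.ϖ_eq]
  show ((σ : GQ)) ((p : ℕ) : Qb) = _
  exact map_natCast _ _

theorem AnnInput.aunit_ϖ (I : AnnInput h) (k : Node h) :
    AUnit A ((I.X k).ϖ / (p : Qb)) := by
  have hp0 : ((p : ℕ) : Qb) ≠ 0 := Nat.cast_ne_zero.2 (NeZero.ne p)
  rw [I.ϖ_eq, div_self hp0]
  exact aunit_one

end Input

/-! ### the local chain -/

section Frey

open WeierstrassCurve WeierstrassCurve.Affine

variable (P : FreyPackage) {M' : ℕ} [NeZero M'] [NeZero P.p] {A : ValuationSubring Qb}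

/-- shortcut instance. -/
local instance (priority := high) algebraAFbarNF3' : Algebra ↥A ↥(Fbar (M' * P.p)) := inferInstance

/-- shortcut instance. -/
local instance (priority := high) algebraKFbF3' :
    Algebra (Setup8.kA A) (Fb A M') := inferInstance

/-- **the slopes of the Frey `p`-torsion vanish modulo `p`** ((TR) + (H2) at a prime `l₀` with
`p ∤ a_{l₀} - (l₀ + 1)`). -/
theorem slopes_zero_of_frey (hpabc : (P.p : ℤ) ∣ P.a * P.b * P.c) (h : LevelHyp P.p M' A)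
    (W : WeierstrassCurve ℤ)
    (ι : Ep P →+ JZero (M' * P.p))
    (hι : ∀ (σ : GQ) (z : Ep P), ι (σ • z) = σ • ι z)
    {l₀ : ℕ} [NeZero l₀] (hl₀ : l₀.Prime) (hl₀p : l₀ ≠ P.p) (hl₀M : ¬ l₀ ∣ M')
    (hT₀ : ∀ z : Ep P, heckeOperatorBar (M' * P.p) ⟨l₀, hl₀⟩ (ι z) = (W.apOfModel l₀) • ι z)
    (hl₀E : ¬ (P.p : ℤ) ∣ (W.apOfModel l₀ - ((l₀ : ℤ) + 1)))
    (I : AnnInput h) (I' : AnnInput (hEll h hl₀ hl₀p))
    (z : Ep P) (D : Divisor.degZero (K := Qb) (F := ↥(Fbar (M' * P.p))))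
    (f : ↥(Fbar (M' * P.p))) (c₁ : Qb) (hD : ι z = Pic0.mk D) (hk : KData (c1 h) P.p D f c₁)
    (k : Node h) :
    (P.p : ℤ) ∣ ((Nd h).s1 k).ord (red (c1 h) (algebraMap Qb ↥(Fbar (M' * P.p)) c₁ * f)) := by
  have hconst : ∀ k k' : Node h, (P.p : ℤ) ∣
      ((Nd h).s1 k).ord (red (c1 h) (algebraMap Qb ↥(Fbar (M' * P.p)) c₁ * f)) -
      ((Nd h).s1 k').ord (red (c1 h) (algebraMap Qb ↥(Fbar (M' * P.p)) c₁ * f)) := fun k k' =>
    Fermat.Agent.U44.TRFrey3.slopes_const_of_frey P hpabc h I.X I.gal_zp I.gal_ϖ I.aunit_ϖ ι hι z D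
      hD.symm hk.f_ne hk.ord_f hk.gu k k'
  have h1 := Fermat.Agent.U44.RedCompatInst4.eisenstein' h hl₀ hl₀p hl₀M I.X I'.X I.aunit_ϖ
    I'.aunit_ϖ hk (W.apOfModel l₀) (by rw [← hD]; exact hT₀ z) hconst k
  exact ((Nat.prime_iff_prime_int.1 P.pp).dvd_or_dvd h1).resolve_left hl₀E

/-- **LOCAL ASSEMBLY, with the auxiliary prime given.** -/
theorem local_core (hpabc : (P.p : ℤ) ∣ P.a * P.b * P.c) (h : LevelHyp P.p M' A)
    (W : WeierstrassCurve ℤ) (G₁ : Set ℕ)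
    (ι : Ep P →+ JZero (M' * P.p)) (hinj : Function.Injective ι)
    (hι : ∀ (σ : GQ) (z : Ep P), ι (σ • z) = σ • ι z)
    (hT : ∀ ℓ : Nat.Primes, (ℓ : ℕ) ∈ G₁ → ∀ z : Ep P,
      heckeOperatorBar (M' * P.p) ℓ (ι z) = (W.apOfModel ℓ) • ι z)
    {l₀ : ℕ} [NeZero l₀] (hl₀ : l₀.Prime) (hl₀p : l₀ ≠ P.p) (hl₀M : ¬ l₀ ∣ M') (hl₀G : l₀ ∈ G₁)
    (hl₀E : ¬ (P.p : ℤ) ∣ (W.apOfModel l₀ - ((l₀ : ℤ) + 1)))
    (I : AnnInput h) (I' : AnnInput (hEll h hl₀ hl₀p))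
    (hC : Fermat.Agent.U44.SpecNat1.C3 h)
    (hτ' : ∀ z : Ep P,
      ofAlgAut (tau'L (M' * P.p) (four_dvd_mul h.four_dvd)) • ι z = ι z) :
    ∃ y : JZeroC (Setup8.kA A) M', y ≠ 0 ∧ P.p • y = 0 ∧
      (∀ (l : ℕ) [NeZero l] (hl : l.Prime) (hlp : l ≠ P.p) (hlM : ¬ l ∣ M'), l ∈ G₁ →
        heckeC h hl hlp hlM y = (W.apOfModel l) • y) ∧
      ofAlgAut (tauB' h) • y = y ∧
      ((∀ z : Ep P, ofAlgAut (tauL (M' * P.p) (four_dvd_mul h.four_dvd)) • ι z = ι z) →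
        ofAlgAut (tauB h) • y = y) := by
  classical
  set V : AddSubgroup (JZero (M' * P.p)) := ι.range with hV
  have hVp : ∀ v ∈ V, P.p • v = 0 := by
    rintro v ⟨z, rfl⟩
    rw [← map_nsmul, Fermat.Agent.U44.Pull7.nsmul_Ep z, map_zero]
  have hVT : ∀ (l : ℕ) (hl : l.Prime), l ∈ G₁ → ∀ v ∈ V,
      heckeOperatorBar (M' * P.p) ⟨l, hl⟩ v = (fun l : ℕ => W.apOfModel l) l • v := by
    rintro l hl hlG v ⟨z, rfl⟩
    exact hT ⟨l, hl⟩ hlG z
  have hslope : ∀ v ∈ V, ∀ (D : Divisor.degZero (K := Qbar) (F := ↥(Fbar (M' * P.p))))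
      (f : ↥(Fbar (M' * P.p))) (c₁ : Qbar), v = Pic0.mk D → KData (c1 h) P.p D f c₁ →
      ∀ k, (P.p : ℤ) ∣ ((Nd h).s1 k).ord
        (red (c1 h) (algebraMap Qbar ↥(Fbar (M' * P.p)) c₁ * f)) := by
    rintro v ⟨z, rfl⟩ D f c₁ hD hk k
    exact slopes_zero_of_frey P hpabc h W ι hι hl₀ hl₀p hl₀M (fun z => hT ⟨l₀, hl₀⟩ hl₀G z) hl₀E
      I I' z D f c₁ hD hk k
  have hform : ∃ v ∈ V, v ∉ formalTwo A (M' * P.p) P.p := by
    obtain ⟨z, hz⟩ := Fermat.Agent.U44.Conn7.frey_exists_not_mem_formalTwo P h hpabc ι hinj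
      (fun σ z => hι (σ : GQ) z)
    exact ⟨ι z, ⟨z, rfl⟩, hz⟩
  obtain ⟨v, y, hvV, hrel, hy0, hpy, heig⟩ := exists_eigen h I.X I.ord_y₂ G₁
    (fun l : ℕ => W.apOfModel l) V hVp hVT hslope hform
  obtain ⟨z, rfl⟩ := hvV
  refine ⟨y, hy0, hpy, fun l _ hl hlp hlM hlG => heig l hl hlp hlM hlG, ?_, ?_⟩
  · rcases hrel with hr | hr
    · exact Fermat.Agent.U44.SpecNat1.tau'_fixed₁ hC hr (hτ' z)
    · exact Fermat.Agent.U44.SpecNat1.tau'_fixed₂W h hr (hτ' z)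
  · intro hτ
    rcases hrel with hr | hr
    · exact Fermat.Agent.U44.SpecNat1.tau_fixed₁ h hr (hτ z)
    · exact Fermat.Agent.U44.SpecNat1.tau_fixed₂W hC hr (hτ z)

/-- **LOCAL ASSEMBLY**: the auxiliary prime is produced by chapter (EC) from the irreducibility of
`E[p]`; `G₁` contains all good primes of `W` outside the finite set `T₀` and `p`. -/
theorem local_main (hpabc : (P.p : ℤ) ∣ P.a * P.b * P.c) (h : LevelHyp P.p M' A)
    (W : WeierstrassCurve ℤ) (hW : W.IsIntegralModelOf P.freyCurve)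
    (hirr : WeierstrassCurve.Affine.Point.GaloisRepIsIrreducible (K := Qb) ℚ P.freyCurve P.p)
    (G₁ : Set ℕ) (T₀ : Finset ℕ)
    (hG₁ : ∀ ℓ : ℕ, ℓ.Prime → W.IsGoodPrimeFor ℓ → ℓ ∉ T₀ → ℓ ≠ P.p → ℓ ∈ G₁)
    (ι : Ep P →+ JZero (M' * P.p)) (hinj : Function.Injective ι)
    (hι : ∀ (σ : GQ) (z : Ep P), ι (σ • z) = σ • ι z)
    (hT : ∀ ℓ : Nat.Primes, (ℓ : ℕ) ∈ G₁ → ∀ z : Ep P,
      heckeOperatorBar (M' * P.p) ℓ (ι z) = (W.apOfModel ℓ) • ι z)
    (I : AnnInput h)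
    (I' : ∀ (l : ℕ) [NeZero l] (hl : l.Prime) (hlp : l ≠ P.p), AnnInput (hEll h hl hlp))
    (hC : Fermat.Agent.U44.SpecNat1.C3 h)
    (hτ' : ∀ z : Ep P,
      ofAlgAut (tau'L (M' * P.p) (four_dvd_mul h.four_dvd)) • ι z = ι z) :
    ∃ y : JZeroC (Setup8.kA A) M', y ≠ 0 ∧ P.p • y = 0 ∧
      (∀ (l : ℕ) [NeZero l] (hl : l.Prime) (hlp : l ≠ P.p) (hlM : ¬ l ∣ M'), l ∈ G₁ →
        heckeC h hl hlp hlM y = (W.apOfModel l) • y) ∧
      ofAlgAut (tauB' h) • y = y ∧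
      ((∀ z : Ep P, ofAlgAut (tauL (M' * P.p) (four_dvd_mul h.four_dvd)) • ι z = ι z) →
        ofAlgAut (tauB h) • y = y) := by
  have hp2 : P.p ≠ 2 := h.ne_two
  haveI : P.freyCurve.IsElliptic :=
    ⟨isUnit_iff_ne_zero.2 (Fermat.Agent.U44.FreyRep7.freyCurve_Δ_ne_zero P)⟩
  obtain ⟨l₀, hl₀, hl₀T, hl₀good, hl₀p, hl₀E⟩ :=
    Fermat.Agent.ES.EC.ECFinal8.exists_good_prime_not_dvd_card P.freyCurve hW P.pp hp2 hirr
      (T₀ ∪ M'.primeFactors)
  haveI : NeZero l₀ := ⟨hl₀.ne_zero⟩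
  have hl₀T₀ : l₀ ∉ T₀ := fun hmem => hl₀T (Finset.mem_union_left _ hmem)
  have hl₀M : ¬ l₀ ∣ M' := fun hd =>
    hl₀T (Finset.mem_union_right _ (Nat.mem_primeFactors.2 ⟨hl₀, hd, NeZero.ne M'⟩))
  have hE : ¬ (P.p : ℤ) ∣ (W.apOfModel l₀ - ((l₀ : ℤ) + 1)) := by
    intro hd
    apply hl₀E
    have : ((l₀ : ℤ) + 1 - W.apOfModel l₀) = -(W.apOfModel l₀ - ((l₀ : ℤ) + 1)) := by ring
    rw [this]
    exact (dvd_neg).2 hd
  exact local_core P hpabc h W G₁ ι hinj hι hT hl₀ hl₀p hl₀M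
    (hG₁ l₀ hl₀ hl₀good hl₀T₀ hl₀p) hE I (I' l₀ hl₀ hl₀p) hC hτ'

end Frey

end Fermat.Agent.U44.Local3
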