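/-
Programme U44 (target S44), chapter (GAMMA), design items (C3) + (C4), export (lead):
`c3 h : SpecNat1.C3 h` for every `h : LevelHyp p M' A` — the deck involution `τ'` of
`X₀(M'p) → X₀(M'p/2)` preserves the Gauss ring `O₁` of the cusp `∞` and reduces to
`τ̄' = W̄ τ̄ W̄` on the first component (`GammaTwo0.tau'L_mem_O1`, `GammaTwo0.rho1_tau'L`),
in the shape consumed by `SpecNat1.gamma_fixed` / `Local3B.local_main_good`.
-/
import Mathlib
import Fermat.Agent.U44.GammaTwo0
import Fermat.Agent.U44.SpecNat1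

set_option autoImplicit false

namespace Fermat.Agent.U44.GammaC30

open Fermat.Agent.T33.NodalHalf4

/-- **(C3) + (C4), hypothesis-free.** -/
theorem c3 {p M' : ℕ} [NeZero M'] [NeZero p] {A : ValuationSubring Fermat.Agent.RED.Interface4.Qbar}
    (h : LevelHyp p M' A) : Fermat.Agent.U44.SpecNat1.C3 h :=
  ⟨fun _ hy => Fermat.Agent.U44.GammaTwo0.tau'L_mem_O1 h hy,
    fun y hy => Fermat.Agent.U44.GammaTwo0.rho1_tau'L h y hy⟩

end Fermat.Agent.U44.GammaC30
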