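/-
Programme U44 (target S44), LOCAL ASSEMBLY, file B (helper3): `Local3.local_main` in the literal
shape consumed by helper7's `WireCore7` (board 586): `G₁ = Good W N p \ {2}`.
-/
import Mathlib
import Fermat.Agent.U44.Local3

set_option autoImplicit false
set_option linter.unusedSectionVars false
set_option linter.style.haveILetI false
set_option linter.unusedVariables false
set_option synthInstance.maxHeartbeats 400000

noncomputable section

open AlgebraicCurve IsLocalRing ModularCurve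

namespace Fermat.Agent.U44.Local3B

open Fermat.Agent.T33.NodalCtx1 Fermat.Agent.T33.NodalCurve6
  Fermat.Agent.X0 Fermat.Agent.X0.FF Fermat.Agent.U44.GaussRed3 Fermat.Agent.U44.Annulus3
  Fermat.Agent.U44.LocInst1B Fermat.Agent.FF.InertiaWire8 Fermat.Agent.T33.Psi3C
  Fermat.Agent.T33.NodalHalf4 Fermat.Agent.RED.Interface4
  Fermat.Agent.U44.LevelEll4 Fermat.Agent.U44.HeckeC4 Fermat.Agent.U44.GammaLevel2
  Fermat.Agent.U44.GammaGauss2 Fermat.Agent.ES.RED Fermat.Agent.U44.Local3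
  AlgebraicCurve.SemilinearAut

open Fermat.Agent.U44.Wire7 (Ep Good)

open WeierstrassCurve WeierstrassCurve.Affine

variable (P : FreyPackage) {M' : ℕ} [NeZero M'] [NeZero P.p] {A : ValuationSubring Qb}

/-- the good primes of `W` outside `N.primeFactors ∪ {2}` and `p` lie in `Good W N p \ {2}`. -/
theorem mem_good_of_not_mem (W : WeierstrassCurve ℤ) {N : ℕ} [NeZero N] {p : ℕ} (ℓ : ℕ)
    (hℓ : ℓ.Prime) (hgood : W.IsGoodPrimeFor ℓ) (hT : ℓ ∉ N.primeFactors ∪ {2}) (hℓp : ℓ ≠ p) :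
    ℓ ∈ Good W N p \ {2} := by
  refine ⟨⟨hℓ, hgood, fun hd => hT (Finset.mem_union_left _
    (Nat.mem_primeFactors.2 ⟨hℓ, hd, NeZero.ne N⟩)), hℓp⟩, fun h2 => hT ?_⟩
  have : ℓ = 2 := h2
  rw [this]
  exact Finset.mem_union_right _ (Finset.mem_singleton_self 2)

/-- **LOCAL ASSEMBLY in the shape of `WireCore7`** (`G₁ = Good W N p \ {2}`); the open inputs
`AnnInput` (helper6) and `SpecNat1.C3` (helper2) are explicit hypotheses. -/
theorem local_main_good (hpabc : (P.p : ℤ) ∣ P.a * P.b * P.c)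
    (hirr : WeierstrassCurve.Affine.Point.GaloisRepIsIrreducible (K := Qb) ℚ P.freyCurve P.p)
    (W : WeierstrassCurve ℤ) (hW : W.IsIntegralModelOf P.freyCurve) {N : ℕ} [NeZero N]
    (h : LevelHyp P.p M' A)
    (ι : Ep P →+ JZero (M' * P.p)) (hinj : Function.Injective ι)
    (hι : ∀ (σ : GQ) (z : Ep P), ι (σ • z) = σ • ι z)
    (hT : ∀ ℓ : Nat.Primes, (ℓ : ℕ) ∈ Good W N P.p \ {2} → ∀ z : Ep P,
      heckeOperatorBar (M' * P.p) ℓ (ι z) = (W.apOfModel ℓ) • ι z)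
    (hτ' : ∀ z : Ep P,
      ofAlgAut (tau'L (M' * P.p) (four_dvd_mul h.four_dvd)) • ι z = ι z)
    (I : AnnInput h)
    (I' : ∀ (l : ℕ) [NeZero l] (hl : l.Prime) (hlp : l ≠ P.p), AnnInput (hEll h hl hlp))
    (hC : Fermat.Agent.U44.SpecNat1.C3 h) :
    ∃ y : JZeroC (Setup8.kA A) M', y ≠ 0 ∧ P.p • y = 0 ∧
      (∀ (l : ℕ) [NeZero l] (hl : l.Prime) (hlp : l ≠ P.p) (hlM : ¬ l ∣ M'),
        l ∈ Good W N P.p \ {2} → heckeC h hl hlp hlM y = (W.apOfModel l) • y) ∧
      ofAlgAut (tauB' h) • y = y ∧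
      ((∀ z : Ep P, ofAlgAut (tauL (M' * P.p) (four_dvd_mul h.four_dvd)) • ι z = ι z) →
        ofAlgAut (tauB h) • y = y) :=
  local_main P hpabc h W hW hirr (Good W N P.p \ {2}) (N.primeFactors ∪ {2})
    (fun ℓ hℓ hgood hT₀ hℓp => mem_good_of_not_mem W ℓ hℓ hgood hT₀ hℓp)
    ι hinj hι hT I I' hC hτ'

end Fermat.Agent.U44.Local3B
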