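/-
Programme U44 (target S44), LOCAL ASSEMBLY, hypothesis-free (helper1; spare of helper3's `Local3D`):
`annInput h : Local3.AnnInput h` from helper6's `AnnInst6` (`annCoord`, `annCoord_ϖ`,
`annCoord_ord_y₂`, `annCoord_gal_smul_zp`) and `local_main_final` = `Local3B.local_main_good` with
`I := annInput h`, `I' := fun l _ hl hlp => annInput (hEll h hl hlp)`, `hC := GammaC30.c3 h`.
-/
import Mathlib
import Fermat.Agent.U44.Local3B
import Fermat.Agent.U44.GammaC30
import Fermat.Agent.U44.AnnInst6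

set_option autoImplicit false
set_option linter.unusedSectionVars false
set_option linter.style.haveILetI false
set_option linter.unusedVariables false
set_option synthInstance.maxHeartbeats 400000

noncomputable section

open AlgebraicCurve IsLocalRing ModularCurve

namespace Fermat.Agent.U44.LocalFinal1

open Fermat.Agent.T33.NodalCtx1 Fermat.Agent.T33.NodalCurve6
  Fermat.Agent.X0 Fermat.Agent.X0.FF Fermat.Agent.U44.GaussRed3 Fermat.Agent.U44.Annulus3
  Fermat.Agent.U44.LocInst1B Fermat.Agent.FF.InertiaWire8 Fermat.Agent.T33.Psi3C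
  Fermat.Agent.T33.NodalHalf4 Fermat.Agent.RED.Interface4
  Fermat.Agent.U44.LevelEll4 Fermat.Agent.U44.HeckeC4 Fermat.Agent.U44.GammaLevel2
  Fermat.Agent.U44.GammaGauss2 Fermat.Agent.ES.RED Fermat.Agent.U44.Local3
  AlgebraicCurve.SemilinearAut

open Fermat.Agent.U44.Wire7 (Ep Good)

open WeierstrassCurve WeierstrassCurve.Affine

/-- the annulus input, hypothesis-free. -/
def annInput {p M' : ℕ} [NeZero M'] [NeZero p] {A : ValuationSubring Qb} (h : LevelHyp p M' A) :
    AnnInput h :=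
  ⟨Fermat.Agent.U44.AnnInst6.annCoord h, Fermat.Agent.U44.AnnInst6.annCoord_ϖ h,
    Fermat.Agent.U44.AnnInst6.annCoord_ord_y₂ h, Fermat.Agent.U44.AnnInst6.annCoord_gal_smul_zp h⟩

variable (P : FreyPackage) {M' : ℕ} [NeZero M'] [NeZero P.p] {A : ValuationSubring Qb}

/-- **LOCAL ASSEMBLY**, hypothesis-free. -/
theorem local_main_final (hpabc : (P.p : ℤ) ∣ P.a * P.b * P.c)
    (hirr : WeierstrassCurve.Affine.Point.GaloisRepIsIrreducible (K := Qb) ℚ P.freyCurve P.p)
    (W : WeierstrassCurve ℤ) (hW : W.IsIntegralModelOf P.freyCurve) {N : ℕ} [NeZero N]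
    (h : LevelHyp P.p M' A)
    (ι : Ep P →+ JZero (M' * P.p)) (hinj : Function.Injective ι)
    (hι : ∀ (σ : GQ) (z : Ep P), ι (σ • z) = σ • ι z)
    (hT : ∀ ℓ : Nat.Primes, (ℓ : ℕ) ∈ Good W N P.p \ {2} → ∀ z : Ep P,
      heckeOperatorBar (M' * P.p) ℓ (ι z) = (W.apOfModel ℓ) • ι z)
    (hτ' : ∀ z : Ep P,
      ofAlgAut (tau'L (M' * P.p) (four_dvd_mul h.four_dvd)) • ι z = ι z) :
    ∃ y : JZeroC (Setup8.kA A) M', y ≠ 0 ∧ P.p • y = 0 ∧
      (∀ (l : ℕ) [NeZero l] (hl : l.Prime) (hlp : l ≠ P.p) (hlM : ¬ l ∣ M'),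
        l ∈ Good W N P.p \ {2} → heckeC h hl hlp hlM y = (W.apOfModel l) • y) ∧
      ofAlgAut (tauB' h) • y = y ∧
      ((∀ z : Ep P, ofAlgAut (tauL (M' * P.p) (four_dvd_mul h.four_dvd)) • ι z = ι z) →
        ofAlgAut (tauB h) • y = y) :=
  Fermat.Agent.U44.Local3B.local_main_good P hpabc hirr W hW (N := N) h ι hinj hι hT hτ'
    (annInput h) (fun l _ hl hlp => annInput (hEll h hl hlp)) (Fermat.Agent.U44.GammaC30.c3 h)

end Fermat.Agent.U44.LocalFinal1

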