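/-
Programme U44 (target S44), chapter (LIFT), route Omega, step (Om-A), abstract part (helper5).

**The logarithmic-derivative map on `p`-torsion divisor classes.**  `F / K` a function field in the
Prelude sense (`AlgebraicCurve.Place`, `Pic0`), `K` of characteristic `p`, `ι : F →ₐ[K] E` an
embedding into a field with a `K`-derivation `θ` (in the application `E = K((q))`, `θ = q d/dq`).
For a class `x` with `p • x = 0`, `x = [D]`, `p • D = div g`, put `lam x := θ (ι g) / ι g`.

* `IsKummerPair p x g`, `exists_kummerPair`, `kummerPair_unique` (needs: functions without zeros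
  and poles are constants);
* `lam : Pic0.torsion K F p →+ E`, `lam_eq` (computed by ANY Kummer pair);
* `lam_injective` (needs: `θ (ι g) = 0 → g` is a `p`-th power).
-/
import Mathlib
import Fermat.Prelude.Def_AlgebraicCurve_DivisorClassGroup

set_option autoImplicit false

open AlgebraicCurve

namespace Fermat.Agent.U44.DlogAbs5

variable {K F : Type*} [Field K] [Field F] [Algebra K F]

/-! ### Kummer pairs -/

/-- `g` is a Kummer generator of the class `x`: `div g = p • D` for a representative `D` of `x`. -/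
def IsKummerPair (p : ℕ) (x : Pic0 K F) (g : F) : Prop :=
  g ≠ 0 ∧ ∃ D : Divisor.degZero (K := K) (F := F), Pic0.mk D = x ∧
    ∀ v : Place K F, (p : ℤ) * (D : Divisor K F) v = v.ord g

theorem exists_kummerPair (p : ℕ) {x : Pic0 K F} (hx : (p : ℤ) • x = 0) :
    ∃ g : F, IsKummerPair p x g := by
  obtain ⟨D, rfl⟩ := Pic0.mk_surjective x
  have h1 : Pic0.mk ((p : ℤ) • D) = 0 := hx
  have h2 : ((p : ℤ) • D) ∈
      (Divisor.principal (K := K) (F := F)).addSubgroupOf (Divisor.degZero (K := K) (F := F)) :=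
    (QuotientAddGroup.eq_zero_iff _).1 h1
  rw [AddSubgroup.mem_addSubgroupOf, Divisor.mem_principal] at h2
  obtain ⟨f, hf, hfv⟩ := h2
  refine ⟨f, hf, D, rfl, fun v => ?_⟩
  rw [← hfv v, AddSubgroup.coe_zsmul, Finsupp.smul_apply, smul_eq_mul]

theorem kummerPair_zero (p : ℕ) : IsKummerPair p (0 : Pic0 K F) (1 : F) :=
  ⟨one_ne_zero, 0, rfl, fun v => by simp [Place.ord_one]⟩

theorem IsKummerPair.add {p : ℕ} {x y : Pic0 K F} {g g' : F} (h : IsKummerPair p x g)
    (h' : IsKummerPair p y g') : IsKummerPair p (x + y) (g * g') := by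
  obtain ⟨hg, D, rfl, hD⟩ := h
  obtain ⟨hg', D', rfl, hD'⟩ := h'
  refine ⟨mul_ne_zero hg hg', D + D', rfl, fun v => ?_⟩
  rw [v.ord_mul hg hg', ← hD v, ← hD' v, AddSubgroup.coe_add, Finsupp.add_apply, mul_add]

/-- two Kummer generators of the same class differ by a constant and a `p`-th power. -/
theorem kummerPair_unique
    (hconst : ∀ f : F, f ≠ 0 → (∀ v : Place K F, v.ord f = 0) → ∃ c : K, f = algebraMap K F c)
    {p : ℕ} {x : Pic0 K F} {g g' : F} (h : IsKummerPair p x g) (h' : IsKummerPair p x g') :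
    ∃ (c : K) (u : F), c ≠ 0 ∧ u ≠ 0 ∧ g' = algebraMap K F c * (g * u ^ p) := by
  obtain ⟨hg, D, hDx, hD⟩ := h
  obtain ⟨hg', D', hD'x, hD'⟩ := h'
  have h1 : Pic0.mk D = Pic0.mk D' := hDx.trans hD'x.symm
  have h2 : -D + D' ∈
      (Divisor.principal (K := K) (F := F)).addSubgroupOf (Divisor.degZero (K := K) (F := F)) :=
    QuotientAddGroup.eq.1 h1
  rw [AddSubgroup.mem_addSubgroupOf, Divisor.mem_principal] at h2
  obtain ⟨u, hu, huv⟩ := h2
  have hup : u ^ p ≠ 0 := pow_ne_zero p hu
  have hgu : g * u ^ p ≠ 0 := mul_ne_zero hg hup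
  have hord : ∀ v : Place K F, v.ord (g' / (g * u ^ p)) = 0 := by
    intro v
    rw [div_eq_mul_inv, v.ord_mul hg' (inv_ne_zero hgu), v.ord_inv, v.ord_mul hg hup,
      ← zpow_natCast, v.ord_zpow, ← hD v, ← hD' v, ← huv v, AddSubgroup.coe_add,
      AddSubgroup.coe_neg, Finsupp.add_apply, Finsupp.neg_apply]
    ring
  have hne : g' / (g * u ^ p) ≠ 0 := div_ne_zero hg' hgu
  obtain ⟨c, hc⟩ := hconst _ hne hord
  refine ⟨c, u, ?_, hu, ?_⟩
  · rintro rfl
    rw [map_zero] at hc
    exact hne hc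
  · rw [← hc, div_mul_cancel₀ _ hgu]

/-! ### Derivations and logarithmic derivatives -/

variable {E : Type*} [Field E] [Algebra K E]

/-- an additive map which is a derivation vanishing on the constants. -/
structure IsDer (K : Type*) {E : Type*} [Field K] [Field E] [Algebra K E] (θ : E →+ E) : Prop where
  mul : ∀ x y : E, θ (x * y) = θ x * y + x * θ y
  const : ∀ c : K, θ (algebraMap K E c) = 0

/-- the logarithmic derivative. -/
noncomputable def dlog (θ : E →+ E) (x : E) : E := θ x / x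

theorem dlog_mul {θ : E →+ E} (hθ : IsDer K θ) {x y : E} (hx : x ≠ 0) (hy : y ≠ 0) :
    dlog θ (x * y) = dlog θ x + dlog θ y := by
  unfold dlog
  rw [hθ.mul]
  field_simp

theorem IsDer.pow {θ : E →+ E} (hθ : IsDer K θ) (x : E) (n : ℕ) :
    θ (x ^ (n + 1)) = ((n + 1 : ℕ) : E) * x ^ n * θ x := by
  induction n with
  | zero => simp
  | succ n ih =>
    rw [pow_succ, hθ.mul, ih]
    push_cast
    ring

theorem IsDer.pow_char {θ : E →+ E} (hθ : IsDer K θ) (p : ℕ) [Fact p.Prime] [CharP K p] (x : E) :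
    θ (x ^ p) = 0 := by
  have : CharP E p := charP_of_injective_algebraMap (algebraMap K E).injective p
  obtain ⟨n, hn⟩ : ∃ n, p = n + 1 := ⟨p - 1, (Nat.succ_pred_eq_of_pos (Fact.out : p.Prime).pos).symm⟩
  rw [hn, hθ.pow, ← hn, CharP.cast_eq_zero, zero_mul, zero_mul]

theorem dlog_pow_char {θ : E →+ E} (hθ : IsDer K θ) (p : ℕ) [Fact p.Prime] [CharP K p] (x : E) :
    dlog θ (x ^ p) = 0 := by
  unfold dlog
  rw [hθ.pow_char p, zero_div]

theorem dlog_const {θ : E →+ E} (hθ : IsDer K θ) (c : K) : dlog θ (algebraMap K E c) = 0 := by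
  unfold dlog
  rw [hθ.const, zero_div]

/-! ### The map `lam` -/

section Lam

variable (p : ℕ) [Fact p.Prime] [CharP K p] (ι : F →ₐ[K] E) {θ : E →+ E} (hθ : IsDer K θ)
  (hconst : ∀ f : F, f ≠ 0 → (∀ v : Place K F, v.ord f = 0) → ∃ c : K, f = algebraMap K F c)

include hθ hconst in
theorem dlog_eq_of_kummerPair {x : Pic0 K F} {g g' : F} (h : IsKummerPair p x g)
    (h' : IsKummerPair p x g') : dlog θ (ι g') = dlog θ (ι g) := by
  obtain ⟨c, u, hc, hu, rfl⟩ := kummerPair_unique hconst h h'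
  have hg : ι g ≠ 0 := (map_ne_zero ι).2 h.1
  have hu' : ι u ^ p ≠ 0 := pow_ne_zero p ((map_ne_zero ι).2 hu)
  have hc' : algebraMap K E c ≠ 0 := (map_ne_zero (algebraMap K E)).2 hc
  rw [map_mul, map_mul, map_pow, AlgHom.commutes, dlog_mul hθ hc' (mul_ne_zero hg hu'),
    dlog_mul hθ hg hu', dlog_const hθ, dlog_pow_char hθ, zero_add, add_zero]

/-- the underlying function of `lam`. -/
noncomputable def lamFun (θ : E →+ E) (x : Pic0.torsion K F p) : E :=
  dlog θ (ι (Classical.choose (exists_kummerPair p (Pic0.mem_torsion.1 x.2))))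

include hθ hconst in
theorem lamFun_eq {x : Pic0.torsion K F p} {g : F} (h : IsKummerPair p (x : Pic0 K F) g) :
    lamFun p ι θ x = dlog θ (ι g) :=
  dlog_eq_of_kummerPair p ι hθ hconst h
    (Classical.choose_spec (exists_kummerPair p (Pic0.mem_torsion.1 x.2)))

/-- **the logarithmic-derivative map** on `p`-torsion classes. -/
noncomputable def lam : Pic0.torsion K F p →+ E :=
  AddMonoidHom.mk' (lamFun p ι θ) (by
    intro x y
    have hx := Classical.choose_spec (exists_kummerPair p (Pic0.mem_torsion.1 x.2))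
    have hy := Classical.choose_spec (exists_kummerPair p (Pic0.mem_torsion.1 y.2))
    have hxy : IsKummerPair p ((x + y : Pic0.torsion K F p) : Pic0 K F) _ := hx.add hy
    rw [lamFun_eq p ι hθ hconst hxy, map_mul,
      dlog_mul hθ ((map_ne_zero ι).2 hx.1) ((map_ne_zero ι).2 hy.1)]
    rfl)

include hθ hconst in
theorem lam_eq {x : Pic0.torsion K F p} {g : F} (h : IsKummerPair p (x : Pic0 K F) g) :
    lam p ι hθ hconst x = dlog θ (ι g) :=
  lamFun_eq p ι hθ hconst h

/-- `lam` is injective as soon as the kernel of `θ` on `F` consists of `p`-th powers. -/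
theorem lam_injective
    (hker : ∀ g : F, g ≠ 0 → θ (ι g) = 0 → ∃ u : F, g = u ^ p) :
    Function.Injective (lam p ι hθ hconst) := by
  rw [injective_iff_map_eq_zero]
  intro x hx
  obtain ⟨g, hg⟩ := exists_kummerPair p (Pic0.mem_torsion.1 x.2)
  rw [lam_eq p ι hθ hconst hg] at hx
  have hg0 : ι g ≠ 0 := (map_ne_zero ι).2 hg.1
  have hθg : θ (ι g) = 0 := by
    unfold dlog at hx
    exact (div_eq_zero_iff.1 hx).resolve_right hg0
  obtain ⟨u, rfl⟩ := hker g hg.1 hθg
  obtain ⟨hup, D, hDx, hD⟩ := hg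
  have hu : u ≠ 0 := fun h => hup (by rw [h, zero_pow (Fact.out : p.Prime).ne_zero])
  have hDv : ∀ v : Place K F, (D : Divisor K F) v = v.ord u := by
    intro v
    have h1 := hD v
    rw [← zpow_natCast, v.ord_zpow] at h1
    have hp0 : (p : ℤ) ≠ 0 := by exact_mod_cast (Fact.out : p.Prime).ne_zero
    exact mul_left_cancel₀ hp0 h1
  have hmem : D ∈
      (Divisor.principal (K := K) (F := F)).addSubgroupOf (Divisor.degZero (K := K) (F := F)) := by
    rw [AddSubgroup.mem_addSubgroupOf, Divisor.mem_principal]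
    exact ⟨u, hu, hDv⟩
  apply Subtype.ext
  rw [← hDx]
  exact (QuotientAddGroup.eq_zero_iff _).2 hmem

end Lam

end Fermat.Agent.U44.DlogAbs5
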