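/-
Programme U44 (target S44), chapter (LIFT), route Omega, step (Om-A), injectivity part (helper5).

**Constants of a derivation in characteristic `p`, abstractly.**  `κ` a perfect field of
characteristic `p`, `M ⊇ κ` a field with a `κ`-derivation `D` whose constants are the `p`-th powers
of `M` (in the application `M = κ((q))`, `D = q d/dq`), `x ∈ M` transcendental over `κ` with
`D x ≠ 0`.  If `g ∈ M` is algebraic over `κ(x)` and `D g = 0`, then the `p`-th root of `g` lies in
every intermediate field containing `x` and `g` (`exists_pow_eq_of_D_eq_zero`).  No separability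
hypothesis, no degree `[L : L^p]`.
-/
import Mathlib

set_option autoImplicit false

open Polynomial IntermediateField

namespace Fermat.Agent.U44.DlogKer5

variable {κ M : Type*} [Field κ] [Field M] [Algebra κ M] (p : ℕ) [Fact p.Prime] [CharP κ p]

/-- a polynomial with vanishing derivative over a perfect field of characteristic `p` is a `p`-th
power. -/
theorem exists_pow_eq_of_derivative_eq_zero [PerfectField κ] {e : κ[X]} (he : derivative e = 0) :
    ∃ f : κ[X], f ^ p = e := by
  refine ⟨(contract p e).map ((frobeniusEquiv κ p).symm : κ →+* κ), ?_⟩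
  rw [← map_frobenius_expand, ← Polynomial.map_expand, Polynomial.map_map]
  have h1 : (frobenius κ p).comp ((frobeniusEquiv κ p).symm : κ →+* κ) = RingHom.id κ := by
    ext a
    simp
  rw [h1, Polynomial.map_id, expand_contract p he (Fact.out : p.Prime).ne_zero]

variable (D : Derivation κ M M)

/-- `D (κ(x)) ⊆ κ(x) · D x`. -/
theorem exists_D_eq_mul (x : M) {r : M} (hr : r ∈ κ⟮x⟯) : ∃ c ∈ κ⟮x⟯, D r = c * D x := by
  induction hr using IntermediateField.adjoin_induction with
  | mem y hy =>
    rw [Set.mem_singleton_iff.1 hy]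
    exact ⟨1, one_mem _, (one_mul _).symm⟩
  | algebraMap c =>
    exact ⟨0, zero_mem _, by rw [zero_mul, D.map_algebraMap]⟩
  | add a b _ _ ha hb =>
    obtain ⟨ca, hca, ha⟩ := ha
    obtain ⟨cb, hcb, hb⟩ := hb
    exact ⟨ca + cb, add_mem hca hcb, by rw [map_add, ha, hb, add_mul]⟩
  | inv a ha' ha =>
    obtain ⟨ca, hca, ha⟩ := ha
    refine ⟨-ca * (a⁻¹) ^ 2, mul_mem (neg_mem hca) (pow_mem (inv_mem ha') 2), ?_⟩
    rcases eq_or_ne a 0 with rfl | ha0
    · simp
    · rw [Derivation.leibniz_inv, ha, smul_eq_mul]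
      field_simp
  | mul a b ha' hb' ha hb =>
    obtain ⟨ca, hca, ha⟩ := ha
    obtain ⟨cb, hcb, hb⟩ := hb
    refine ⟨a * cb + b * ca, add_mem (mul_mem ha' hcb) (mul_mem hb' hca), ?_⟩
    rw [D.leibniz, ha, hb, smul_eq_mul, smul_eq_mul]
    ring

omit [Fact p.Prime] in
include p in
theorem D_pow_char (y : M) : D (y ^ p) = 0 := by
  have : CharP M p := charP_of_injective_algebraMap (algebraMap κ M).injective p
  rw [Derivation.leibniz_pow, ← Nat.cast_smul_eq_nsmul M, CharP.cast_eq_zero, zero_smul]

variable {D}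

/-- constants of `D` inside the rational function field `κ(x)` are `p`-th powers of `κ(x)`. -/
theorem exists_pow_eq_of_mem_adjoin [PerfectField κ] {x : M} (hx : D x ≠ 0)
    (hxt : Transcendental κ x) {c : M} (hc : c ∈ κ⟮x⟯) (hDc : D c = 0) :
    ∃ d ∈ κ⟮x⟯, d ^ p = c := by
  obtain ⟨a, b, rfl⟩ := (IntermediateField.mem_adjoin_simple_iff κ c).1 hc
  rcases eq_or_ne (aeval x b) 0 with hb | hb
  · refine ⟨0, zero_mem _, ?_⟩
    rw [hb, div_zero, zero_pow (Fact.out : p.Prime).ne_zero]
  have hp1 : p - 1 + 1 = p := Nat.succ_pred_eq_of_pos (Fact.out : p.Prime).pos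
  set e : κ[X] := a * b ^ (p - 1) with he
  have hex : aeval x e = aeval x a / aeval x b * aeval x b ^ p := by
    rw [he, map_mul, map_pow, ← hp1, pow_succ (aeval x b) (p - 1), hp1]
    field_simp
  have hDe : D (aeval x e) = 0 := by
    rw [hex, D.leibniz, hDc, D_pow_char p D, smul_zero, smul_zero, add_zero]
  rw [Derivation.map_aeval, smul_eq_mul] at hDe
  have he' : derivative e = 0 := by
    have h0 : aeval x (derivative e) = 0 := (mul_eq_zero.1 hDe).resolve_right hx
    by_contra hne
    exact hxt ⟨derivative e, hne, h0⟩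
  obtain ⟨f, hf⟩ := exists_pow_eq_of_derivative_eq_zero p he'
  refine ⟨aeval x f / aeval x b, ?_, ?_⟩
  · exact (IntermediateField.mem_adjoin_simple_iff κ _).2 ⟨f, b, rfl⟩
  · rw [div_pow, ← map_pow, hf, hex]
    field_simp

/-- **Constants of `D` which are algebraic over `κ(x)` are `p`-th powers, and the `p`-th root
stays in every intermediate field containing `x` and the element.** -/
theorem exists_pow_eq_of_D_eq_zero [PerfectField κ]
    (hM : ∀ g : M, D g = 0 → ∃ G : M, G ^ p = g)
    {x : M} (hx : D x ≠ 0) (hxt : Transcendental κ x) {g : M}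
    (hg : IsAlgebraic κ⟮x⟯ g) (hDg : D g = 0) :
    ∃ G : M, G ^ p = g ∧ ∀ L : IntermediateField κ M, x ∈ L → g ∈ L → G ∈ L := by
  classical
  have hcharM : CharP M p := charP_of_injective_algebraMap (algebraMap κ M).injective p
  set k : IntermediateField κ M := κ⟮x⟯ with hk
  have hgi : IsIntegral k g := hg.isIntegral
  set P : k[X] := minpoly k g with hP
  set n : ℕ := P.natDegree with hn
  have hmonic : P.Monic := minpoly.monic hgi
  -- `D (g ^ i) = 0`
  have hDgi : ∀ i : ℕ, D (g ^ i) = 0 := by
    intro i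
    rw [Derivation.leibniz_pow, hDg, smul_zero, smul_zero]
  -- the relation
  have hrel : ∑ i ∈ Finset.range (n + 1), ((P.coeff i : k) : M) * g ^ i = 0 := by
    have h0 : aeval g P = 0 := minpoly.aeval k g
    rw [aeval_eq_sum_range] at h0
    rw [← h0]
    refine Finset.sum_congr rfl fun i _ => ?_
    rw [Algebra.smul_def]
    rfl
  -- Step A: the coefficients are constants of `D`
  have hA : ∀ i : ℕ, D ((P.coeff i : k) : M) = 0 := by
    have hex : ∀ i : ℕ, ∃ e : k, D ((P.coeff i : k) : M) = (e : M) * D x := by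
      intro i
      obtain ⟨c, hc, hcD⟩ := exists_D_eq_mul D x (P.coeff i).2
      exact ⟨⟨c, hc⟩, hcD⟩
    choose e he using hex
    have hDrel : ∑ i ∈ Finset.range (n + 1), ((e i : k) : M) * g ^ i = 0 := by
      have h1 := congrArg D hrel
      rw [map_sum, map_zero] at h1
      have h2 : ∀ i ∈ Finset.range (n + 1),
          D (((P.coeff i : k) : M) * g ^ i) = (((e i : k) : M) * g ^ i) * D x := by
        intro i _
        rw [D.leibniz, hDgi, smul_zero, zero_add, he i, smul_eq_mul]
        ring
      rw [Finset.sum_congr rfl h2, ← Finset.sum_mul] at h1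
      exact (mul_eq_zero.1 h1).resolve_right hx
    have hen : e n = 0 := by
      have h1 : ((P.coeff n : k) : M) = 1 := by
        rw [hn, show P.coeff P.natDegree = 1 from hmonic]
        rfl
      have h2 := he n
      rw [h1, D.map_one_eq_zero] at h2
      have h3 : ((e n : k) : M) = 0 := (mul_eq_zero.1 h2.symm).resolve_right hx
      exact Subtype.ext h3
    rw [Finset.sum_range_succ, hen] at hDrel
    have hDrel' : ∑ i : Fin n, e i • g ^ (i : ℕ) = 0 := by
      rw [← Fin.sum_univ_eq_sum_range (fun i => ((e i : k) : M) * g ^ i) n] at hDrel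
      have h4 : ((0 : k) : M) * g ^ n = 0 := by
        rw [show ((0 : k) : M) = 0 from rfl, zero_mul]
      rw [h4, add_zero] at hDrel
      rw [← hDrel]
      refine Finset.sum_congr rfl fun i _ => ?_
      rw [Algebra.smul_def]
      rfl
    have hli := linearIndependent_pow (K := k) g
    have hzero := (Fintype.linearIndependent_iff.1 hli) (fun i => e i) hDrel'
    intro i
    rcases lt_or_ge i n with hi | hi
    · rw [he i, hzero ⟨i, hi⟩]
      show (0 : M) * D x = 0
      rw [zero_mul]
    · rcases eq_or_lt_of_le hi with rfl | hi'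
      · rw [he n, hen]
        show (0 : M) * D x = 0
        rw [zero_mul]
      · rw [coeff_eq_zero_of_natDegree_lt hi']
        exact map_zero D
  -- Step B: `p`-th roots of the coefficients
  have hB : ∀ i : ℕ, ∃ d : k, ((d : k) : M) ^ p = ((P.coeff i : k) : M) := by
    intro i
    obtain ⟨d, hd, hdp⟩ := exists_pow_eq_of_mem_adjoin p hx hxt (P.coeff i).2 (hA i)
    exact ⟨⟨d, hd⟩, hdp⟩
  choose d hd using hB
  -- Step C: the root
  obtain ⟨G, hG⟩ := hM g hDg
  have hGrel : ∑ i ∈ Finset.range (n + 1), ((d i : k) : M) * G ^ i = 0 := by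
    have h1 : (∑ i ∈ Finset.range (n + 1), ((d i : k) : M) * G ^ i) ^ p = 0 := by
      rw [sum_pow_char, ← hrel]
      refine Finset.sum_congr rfl fun i _ => ?_
      rw [mul_pow, hd i, ← pow_mul, mul_comm i p, pow_mul, hG]
    exact pow_eq_zero_iff (Fact.out : p.Prime).ne_zero |>.1 h1
  set Q : k[X] := ∑ i ∈ Finset.range (n + 1), monomial i (d i) with hQ
  have hQG : aeval G Q = 0 := by
    rw [hQ, map_sum, ← hGrel]
    refine Finset.sum_congr rfl fun i _ => ?_
    rw [aeval_monomial]
    rfl
  have hQn : Q.coeff n = d n := by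
    rw [hQ, finsetSum_coeff]
    rw [Finset.sum_eq_single n]
    · rw [coeff_monomial, if_pos rfl]
    · intro i _ hin
      rw [coeff_monomial, if_neg hin]
    · intro h
      exact absurd (Finset.mem_range.2 (Nat.lt_succ_self n)) h
  have hdn : d n ≠ 0 := by
    intro h0
    have h1 := hd n
    rw [h0, show ((0 : k) : M) = 0 from rfl, zero_pow (Fact.out : p.Prime).ne_zero,
      hn, show P.coeff P.natDegree = 1 from hmonic] at h1
    exact zero_ne_one h1
  have hQ0 : Q ≠ 0 := by
    intro h0
    rw [h0, coeff_zero] at hQn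
    exact hdn hQn.symm
  have hQdeg : Q.natDegree ≤ n := by
    rw [hQ]
    refine natDegree_sum_le_of_forall_le _ _ fun i hi => ?_
    exact (natDegree_monomial_le _).trans (Nat.lt_succ_iff.1 (Finset.mem_range.1 hi))
  have hGi : IsIntegral k G := (IsAlgebraic.isIntegral ⟨Q, hQ0, hQG⟩)
  have hdegG : (minpoly k G).natDegree ≤ n :=
    (natDegree_le_natDegree (minpoly.degree_le_of_ne_zero k G hQ0 hQG)).trans hQdeg
  -- Step D: `k(g) = k(G)`
  have hle : k⟮g⟯ ≤ k⟮G⟯ := by
    rw [IntermediateField.adjoin_simple_le_iff, ← hG]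
    exact pow_mem (IntermediateField.mem_adjoin_simple_self k G) p
  have hfinG : FiniteDimensional k ↥(k⟮G⟯) := IntermediateField.adjoin.finiteDimensional hGi
  have hfr : Module.finrank k ↥(k⟮G⟯) ≤ Module.finrank k ↥(k⟮g⟯) := by
    rw [IntermediateField.adjoin.finrank hGi, IntermediateField.adjoin.finrank hgi]
    exact hdegG
  have heq : k⟮g⟯ = k⟮G⟯ := IntermediateField.eq_of_le_of_finrank_le hle hfr
  have hGmem : G ∈ k⟮g⟯ := by
    rw [heq]
    exact IntermediateField.mem_adjoin_simple_self k G
  -- Step E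
  refine ⟨G, hG, fun L hxL hgL => ?_⟩
  have hkL : k ≤ L := by
    rw [hk, IntermediateField.adjoin_simple_le_iff]
    exact hxL
  have hle' : k⟮g⟯ ≤ IntermediateField.extendScalars hkL := by
    rw [IntermediateField.adjoin_simple_le_iff]
    exact (IntermediateField.mem_extendScalars hkL).2 hgL
  exact (IntermediateField.mem_extendScalars hkL).1 (hle' hGmem)

/-! ### The same for an additive map with the Leibniz rule (no `Derivation` structure needed by
the caller: avoids instance clashes on concrete `M`) -/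

/-- a Mathlib derivation from an additive map with the Leibniz rule vanishing on constants. -/
noncomputable def mkDer (θ : M →+ M) (hmul : ∀ a b : M, θ (a * b) = θ a * b + a * θ b)
    (hconst : ∀ c : κ, θ (algebraMap κ M c) = 0) : Derivation κ M M where
  toFun := θ
  map_add' := map_add θ
  map_smul' c f := by
    rw [RingHom.id_apply, Algebra.smul_def, Algebra.smul_def, hmul, hconst, zero_mul, zero_add]
  map_one_eq_zero' := by
    have h := hmul 1 1
    rw [mul_one, mul_one, one_mul] at h
    show θ 1 = 0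
    exact left_eq_add.mp h
  leibniz' a b := by
    show θ (a * b) = a • θ b + b • θ a
    rw [hmul, smul_eq_mul, smul_eq_mul]
    ring

theorem mkDer_apply (θ : M →+ M) (hmul : ∀ a b : M, θ (a * b) = θ a * b + a * θ b)
    (hconst : ∀ c : κ, θ (algebraMap κ M c) = 0) (x : M) : mkDer θ hmul hconst x = θ x := rfl

/-- **Constants of `θ` which are algebraic over `κ(x)` are `p`-th powers** — additive-map form. -/
theorem exists_pow_eq_of_map_eq_zero [PerfectField κ] (θ : M →+ M)
    (hmul : ∀ a b : M, θ (a * b) = θ a * b + a * θ b)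
    (hconst : ∀ c : κ, θ (algebraMap κ M c) = 0)
    (hM : ∀ g : M, θ g = 0 → ∃ G : M, G ^ p = g)
    {x : M} (hx : θ x ≠ 0) (hxt : Transcendental κ x) {g : M}
    (hg : IsAlgebraic κ⟮x⟯ g) (hθg : θ g = 0) :
    ∃ G : M, G ^ p = g ∧ ∀ L : IntermediateField κ M, x ∈ L → g ∈ L → G ∈ L :=
  exists_pow_eq_of_D_eq_zero p (D := mkDer θ hmul hconst) hM hx hxt hg hθg

end Fermat.Agent.U44.DlogKer5
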