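/-
Programme U44 (target S44), chapter (LIFT), route Omega, step (Om-A), concrete part (helper5).

`θ = q d/dq` on `κ((q))` is a `κ`-derivation (`isDer_theta`), its constants in characteristic `p` over a
perfect field are the `p`-th powers (`exists_pow_eq_of_theta_eq_zero`), and the consequence for the
special-fibre function field `Fb = modularFunctionFieldFullC κ N` (`p ∤ N`): a function `g ∈ Fb` with
`θ g = 0` is a `p`-th power IN `Fb` (`exists_pow_eq_of_mem_full`).  Hence the logarithmic derivative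
map `lam : Pic⁰(Fb)[p] → κ((q))` of `DlogAbs5` is injective (`lamFb_injective`), given that functions
on `Fb` without zeros and poles are constants.
-/
import Mathlib
import Fermat.Agent.U44.DlogAbs5
import Fermat.Agent.U44.DlogKer5
import Fermat.Agent.IG.PR.Main20
import Fermat.Agent.IG.PR.LevelFinite10
import Fermat.Agent.IG.PR.LevelTowerBridge1
import Fermat.Agent.IG.AN.Main12
import Fermat.Agent.IG.VAL.OvBasics22
import Fermat.Agent.ES.KRON.KronCong24

set_option autoImplicit false

open HahnSeries ModularCurve IntermediateField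

namespace Fermat.Agent.U44.DlogInst5

open Fermat.Agent.IG.PR.Theta20 Fermat.Agent.IG.PR.ThetaV1

variable (κ : Type) [Field κ]

/-- `θ` vanishes on the constants. -/
theorem theta_algebraMap (c : κ) : theta (algebraMap κ (LaurentSeries κ) c) = 0 := by
  rw [algebraMap_laurentSeries_eq_single, ← HahnSeries.C_apply]
  exact theta_C c

/-- `θ = q d/dq` is a derivation in the sense of `DlogAbs5`. -/
theorem isDer_theta : Fermat.Agent.U44.DlogAbs5.IsDer κ (theta : LaurentSeries κ →+ LaurentSeries κ) where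
  mul := theta_mul
  const := theta_algebraMap κ

variable {κ} (p : ℕ) [hp : Fact p.Prime] [CharP κ p]

/-- **constants of `θ` on `κ((q))`** (`κ` perfect of characteristic `p`) are `p`-th powers. -/
theorem exists_pow_eq_of_theta_eq_zero [PerfectField κ] {g : LaurentSeries κ}
    (hg : theta g = 0) : ∃ G : LaurentSeries κ, G ^ p = g := by
  have : NeZero p := ⟨hp.out.ne_zero⟩
  have hp0 : (0 : ℤ) < p := by exact_mod_cast hp.out.pos
  -- coefficients of `g` away from multiples of `p` vanish
  have hcoeff : ∀ n : ℤ, ¬ (p : ℤ) ∣ n → g.coeff n = 0 := by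
    intro n hn
    have h1 : (theta g).coeff n = 0 := by rw [hg]; rfl
    rw [theta_coeff] at h1
    rcases mul_eq_zero.1 h1 with h2 | h2
    · exact absurd ((CharP.intCast_eq_zero_iff κ p n).1 h2) hn
    · exact h2
  -- the root
  have hbdd : BddBelow (Function.support fun m : ℤ =>
      (frobeniusEquiv κ p).symm (g.coeff ((p : ℤ) * m))) := by
    refine ⟨min g.order 0, ?_⟩
    intro m hm
    rw [Function.mem_support] at hm
    by_contra hlt
    rw [not_le, lt_min_iff] at hlt
    apply hm
    have hlt' : (p : ℤ) * m < g.order := by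
      have h1 : (p : ℤ) * m ≤ 1 * m := by
        apply mul_le_mul_of_nonpos_right _ hlt.2.le
        exact_mod_cast hp.out.one_lt.le
      linarith [hlt.1]
    rw [HahnSeries.coeff_eq_zero_of_lt_order hlt', map_zero]
  refine ⟨HahnSeries.ofSuppBddBelow _ hbdd, ?_⟩
  rw [Fermat.Agent.ES.KRON.KronCong24.pow_char p]
  ext n
  by_cases hn : (p : ℤ) ∣ n
  · obtain ⟨m, rfl⟩ := hn
    rw [qExpand_coeff_mul, coeffMap_coeff, HahnSeries.coeff_ofSuppBddBelow]
    show frobenius κ p ((frobeniusEquiv κ p).symm (g.coeff ((p : ℤ) * m))) = _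
    exact frobenius_apply_frobeniusEquiv_symm κ p _
  · rw [qExpand_coeff_of_not_dvd p _ hn, hcoeff n hn]

omit hp in
/-- finiteness of the prime-level steps of the tower, for primes invertible in `κ`. -/
theorem primeFinite_jq (N : ℕ) (hpN : ¬ p ∣ N) :
    Fermat.Agent.IG.PR.LevelFinite10.PrimeFinite (jqModC κ) N := by
  intro r hr hrN _
  have hrκ : (r : κ) ≠ 0 := by
    intro h0
    have h1 : p ∣ r := (CharP.cast_eq_zero_iff κ p r).1 h0
    exact hpN (h1.trans hrN)
  have h := Fermat.Agent.IG.PR.Main20.primeLevel r hr.two_le (Fermat.Agent.IG.AN.Main12.p0 r hr)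
    Fermat.Agent.IG.AN.Main12.p1 (Fermat.Agent.IG.AN.Main12.p2 r) κ hrκ
  rw [Fermat.Agent.IG.PR.LevelTowerBridge1.sup_adjoin_simple_eq] at h
  refine ⟨?_, ?_⟩
  · rw [h.1.2]; exact Nat.succ_ne_zero r
  · rw [h.2.2]; exact Nat.succ_ne_zero r

/-- **`θ g = 0`, `g ∈ Fb` ⟹ `g` is a `p`-th power in `Fb`** (`Fb = modularFunctionFieldFullC κ N`,
`p ∤ N`, `κ` perfect of characteristic `p`). -/
theorem exists_pow_eq_of_mem_full [PerfectField κ] (N : ℕ) [NeZero N] (hpN : ¬ p ∣ N)
    {g : LaurentSeries κ} (hg : g ∈ modularFunctionFieldFullC κ N) (hθ : theta g = 0) :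
    ∃ u ∈ modularFunctionFieldFullC κ N, u ^ p = g := by
  have hx : theta (jqModC κ) ≠ 0 :=
    theta_ne_zero_of_order_eq_neg_one (Fermat.Agent.IG.AN.ModPoly3.order_jqModC κ)
  have hxt : Transcendental κ (jqModC κ) := Fermat.Agent.IG.VAL.OvBasics22.transcendental_jqModC κ
  have halg : IsAlgebraic κ⟮jqModC κ⟯ g := by
    refine Fermat.Agent.IG.PR.LevelFinite10.isAlgebraic_of_mem_Lx (primeFinite_jq p N hpN)
      (one_dvd N) κ⟮jqModC κ⟯ ?_ hg
    rw [qExpand_one_apply]
    exact IntermediateField.mem_adjoin_simple_self κ _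
  obtain ⟨G, hG, hGL⟩ := Fermat.Agent.U44.DlogKer5.exists_pow_eq_of_map_eq_zero p
    (theta : LaurentSeries κ →+ LaurentSeries κ) theta_mul (theta_algebraMap κ)
    (fun g hg => exists_pow_eq_of_theta_eq_zero p hg) hx hxt halg hθ
  exact ⟨G, hGL _ (jqModC_mem_full κ N) hg, hG⟩

open AlgebraicCurve in
/-- **the logarithmic derivative map** `Pic⁰(Fb)[p] → κ((q))`, `[D] ↦ θ g / g` for `p D = div g`. -/
noncomputable def lamFb (N : ℕ) [NeZero N]
    (hconst : ∀ f : ↥(modularFunctionFieldFullC κ N), f ≠ 0 →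
      (∀ v : Place κ ↥(modularFunctionFieldFullC κ N), v.ord f = 0) →
      ∃ c : κ, f = algebraMap κ ↥(modularFunctionFieldFullC κ N) c) :
    Pic0.torsion κ ↥(modularFunctionFieldFullC κ N) p →+ LaurentSeries κ :=
  Fermat.Agent.U44.DlogAbs5.lam p (modularFunctionFieldFullC κ N).val (isDer_theta κ) hconst

open AlgebraicCurve in
theorem lamFb_eq (N : ℕ) [NeZero N]
    (hconst : ∀ f : ↥(modularFunctionFieldFullC κ N), f ≠ 0 →
      (∀ v : Place κ ↥(modularFunctionFieldFullC κ N), v.ord f = 0) →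
      ∃ c : κ, f = algebraMap κ ↥(modularFunctionFieldFullC κ N) c)
    {x : Pic0.torsion κ ↥(modularFunctionFieldFullC κ N) p} {g : ↥(modularFunctionFieldFullC κ N)}
    (h : Fermat.Agent.U44.DlogAbs5.IsKummerPair p (x : Pic0 κ ↥(modularFunctionFieldFullC κ N)) g) :
    lamFb p N hconst x = theta (g : LaurentSeries κ) / (g : LaurentSeries κ) :=
  Fermat.Agent.U44.DlogAbs5.lam_eq p _ (isDer_theta κ) hconst h

open AlgebraicCurve in
/-- **(Om-A)**: the logarithmic derivative map is injective (`p ∤ N`, `κ` perfect). -/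
theorem lamFb_injective [PerfectField κ] (N : ℕ) [NeZero N] (hpN : ¬ p ∣ N)
    (hconst : ∀ f : ↥(modularFunctionFieldFullC κ N), f ≠ 0 →
      (∀ v : Place κ ↥(modularFunctionFieldFullC κ N), v.ord f = 0) →
      ∃ c : κ, f = algebraMap κ ↥(modularFunctionFieldFullC κ N) c) :
    Function.Injective (lamFb p N hconst) := by
  refine Fermat.Agent.U44.DlogAbs5.lam_injective p _ (isDer_theta κ) hconst ?_
  intro g _ hθ
  obtain ⟨u, hu, hug⟩ := exists_pow_eq_of_mem_full p N hpN g.2 hθ
  exact ⟨⟨u, hu⟩, Subtype.ext hug.symm⟩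

end Fermat.Agent.U44.DlogInst5
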