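/-
Programme U44 (target S44), chapter (LIFT), step (Om-A') (helper5).

**The logarithmic differential of a Kummer generator is regular everywhere.**

`F / K` a function field, `K` algebraically closed of characteristic `p`, `x` a separating
generator (lead's `U44/SepDiff0`).  If `g ≠ 0` has all its orders divisible by `p`
(`div g = p • D`), then `ω = g⁻¹ • dg` is regular at every place (`dlog_regular`): at `v` write
`g = a ^ p * u` with `u` a unit at `v`; then `dg = a ^ p du` and `ω = u⁻¹ du`.

Coordinates (`exists_coord`): for an embedding `ι : F →ₐ[K] E` and a derivation `θ` of `E`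
(`DlogAbs5.IsDer`), `a ↦ θ (ι a)` is a derivation of `F` with values in `E`; hence if `dx` spans
`Ω[F⁄K]` then `g⁻¹ • dg = h • dx` with `ι h * θ (ι x) = θ (ι g) / ι g`.

`exists_regular_coord` combines the two for the map `lam` of `DlogAbs5`.
-/
import Mathlib
import Fermat.Agent.U44.SepDiff0
import Fermat.Agent.U44.DlogAbs5
import Fermat.Agent.U44.DlogInst5

set_option autoImplicit false
set_option linter.style.haveILetI false
set_option linter.unusedSectionVars false
set_option synthInstance.maxHeartbeats 400000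

namespace Fermat.Agent.U44.DlogReg5

open KaehlerDifferential IntermediateField AlgebraicCurve
open Fermat.Agent.X0.FF Fermat.Agent.U44.SepDiff0 Fermat.Agent.U44.DlogAbs5

variable {K F : Type*} [Field K] [Field F] [Algebra K F]

section Regular

variable [IsAlgClosed K] (p : ℕ) [Fact p.Prime] [CharP K p] {x : F} (hx : IsGen K x)
  [hsep : Algebra.IsSeparable K⟮x⟯ F]

omit [IsAlgClosed K] in
/-- in characteristic `p` the differential of a `p`-th power vanishes. -/
theorem D_pow_char (a : F) : D K F (a ^ p) = 0 := by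
  haveI : CharP F p := charP_of_injective_algebraMap (algebraMap K F).injective p
  rw [Derivation.leibniz_pow]
  have : ((p : ℕ) : F) = 0 := CharP.cast_eq_zero F p
  rw [← Nat.cast_smul_eq_nsmul F, this, zero_smul]

include hx hsep in
/-- **(Om-A')**: `g⁻¹ dg` is regular at `v` when `p ∣ ord_v g`. -/
theorem dlog_regular_at (v : Place K F) {g : F} (hg : g ≠ 0) (hdiv : (p : ℤ) ∣ v.ord g) :
    0 ≤ v.ordDifferential (g⁻¹ • D K F g) := by
  haveI := dCoordGenerates hx v
  haveI := nontrivial_kaehler hx
  obtain ⟨n, hn⟩ := hdiv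
  set t : F := ((ffu v : v.toValuationSubring) : F) with ht
  have ht0 : t ≠ 0 := ffu_ne_zero v
  set a : F := t ^ n with ha
  have ha0 : a ≠ 0 := zpow_ne_zero n ht0
  have hap0 : a ^ p ≠ 0 := pow_ne_zero p ha0
  set u : F := g / a ^ p with hu
  have hu0 : u ≠ 0 := div_ne_zero hg hap0
  have hgu : g = a ^ p * u := by rw [hu]; field_simp
  have hordu : v.ord u = 0 := by
    have h1 : v.ord (a ^ p) = p * n := by
      rw [← zpow_natCast, v.ord_zpow, ha, v.ord_zpow, ffu_ord]; ring
    have h2 := v.ord_mul hap0 hu0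
    rw [← hgu, hn, h1] at h2
    linarith
  -- `dg = a^p du`
  have hDg : D K F g = a ^ p • D K F u := by
    rw [hgu, Derivation.leibniz, D_pow_char, smul_zero, add_zero]
  have hω : g⁻¹ • D K F g = u⁻¹ • D K F u := by
    rw [hDg, smul_smul, hgu]
    congr 1
    field_simp
  rw [hω]
  by_cases hDu : D K F u = 0
  · rw [hDu, smul_zero]
    show 0 ≤ v.ord (v.differentialCoeff (0 : Ω[F⁄K]))
    rw [v.differentialCoeff_zero, v.ord_zero]
  · rw [ordDifferential_smul' hx v (inv_ne_zero hu0) hDu, v.ord_inv, hordu, neg_zero, zero_add]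
    exact ordDifferential_D_nonneg hx v (by rw [hordu])

include hx hsep in
/-- `g⁻¹ dg` is regular everywhere when `div g` is divisible by `p`. -/
theorem dlog_regular {g : F} (hg : g ≠ 0) (hdiv : ∀ v : Place K F, (p : ℤ) ∣ v.ord g)
    (v : Place K F) : 0 ≤ v.ordDifferential (g⁻¹ • D K F g) :=
  dlog_regular_at p hx v hg (hdiv v)

end Regular

section Coord

variable {E : Type*} [Field E] [Algebra K E] (ι : F →ₐ[K] E) {θ : E →+ E} (hθ : IsDer K θ)

/-- the derivation `a ↦ θ (ι a)` of `F` with values in `E` (an `F`-module through `ι`). -/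
noncomputable def derι :
    letI : Algebra F E := ι.toRingHom.toAlgebra
    haveI : IsScalarTower K F E := IsScalarTower.of_algebraMap_eq (fun c => (ι.commutes c).symm)
    Derivation K F E :=
  letI : Algebra F E := ι.toRingHom.toAlgebra
  haveI : IsScalarTower K F E := IsScalarTower.of_algebraMap_eq (fun c => (ι.commutes c).symm)
  { toFun := fun a => θ (ι a)
    map_add' := fun a b => by rw [map_add, map_add]
    map_smul' := fun c a => by
      rw [RingHom.id_apply, Algebra.smul_def, map_mul, AlgHom.commutes, hθ.mul, hθ.const,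
        zero_mul, zero_add, Algebra.smul_def]
    map_one_eq_zero' := by
      show θ (ι 1) = 0
      have h := hθ.mul 1 1
      rw [mul_one, mul_one, one_mul] at h
      rw [map_one]
      exact left_eq_add.mp h
    leibniz' := fun a b => by
      show θ (ι (a * b)) = a • θ (ι b) + b • θ (ι a)
      rw [map_mul, hθ.mul, Algebra.smul_def, Algebra.smul_def]
      show θ (ι a) * ι b + ι a * θ (ι b) = ι a * θ (ι b) + ι b * θ (ι a)
      ring }

include hθ in
/-- **coordinates**: if `dx` spans the differentials then `g⁻¹ dg = h dx` with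
`ι h * θ (ι x) = θ (ι g) / ι g`. -/
theorem exists_coord {x : F} (hspan : Submodule.span F {D K F x} = ⊤) (g : F) :
    ∃ h : F, g⁻¹ • D K F g = h • D K F x ∧ ι h * θ (ι x) = dlog θ (ι g) := by
  letI : Algebra F E := ι.toRingHom.toAlgebra
  haveI : IsScalarTower K F E := IsScalarTower.of_algebraMap_eq (fun c => (ι.commutes c).symm)
  have hmem : g⁻¹ • D K F g ∈ Submodule.span F {D K F x} := hspan ▸ Submodule.mem_top
  obtain ⟨h, hh⟩ := Submodule.mem_span_singleton.mp hmem
  refine ⟨h, hh.symm, ?_⟩
  have h1 := congrArg (derι ι hθ).liftKaehlerDifferential hh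
  rw [map_smul, map_smul, Derivation.liftKaehlerDifferential_comp_D,
    Derivation.liftKaehlerDifferential_comp_D] at h1
  have h2 : ∀ a b : F, a • (derι ι hθ) b = ι a * θ (ι b) := fun a b => by
    rw [Algebra.smul_def]; rfl
  rw [h2, h2] at h1
  rw [h1, map_inv₀]
  unfold dlog
  rw [div_eq_inv_mul]

include hθ in
/-- a function with `θ (ι z) ≠ 0` has a nonzero differential. -/
theorem D_ne_zero_of_theta_ne_zero {z : F} (hz : θ (ι z) ≠ 0) : D K F z ≠ 0 := by
  letI : Algebra F E := ι.toRingHom.toAlgebra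
  haveI : IsScalarTower K F E := IsScalarTower.of_algebraMap_eq (fun c => (ι.commutes c).symm)
  intro h0
  have h1 := congrArg (derι ι hθ).liftKaehlerDifferential h0
  rw [Derivation.liftKaehlerDifferential_comp_D, map_zero] at h1
  exact hz h1

end Coord

section Combined

variable [IsAlgClosed K] (p : ℕ) [Fact p.Prime] [CharP K p] {x : F} (hx : IsGen K x)
  [hsep : Algebra.IsSeparable K⟮x⟯ F]
  {E : Type*} [Field E] [Algebra K E] (ι : F →ₐ[K] E) {θ : E →+ E} (hθ : IsDer K θ)
  (hconst : ∀ f : F, f ≠ 0 → (∀ v : Place K F, v.ord f = 0) → ∃ c : K, f = algebraMap K F c)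

include hx hsep in
/-- **(Om-A) + (Om-A')**: the value of `lam` at a `p`-torsion class is `ι h * θ (ι z)` with
`h • dz` regular at every place, for any `z` whose differential is nonzero. -/
theorem exists_regular_coord {z : F} (hz : D K F z ≠ 0) (y : Pic0.torsion K F p) :
    ∃ h : F, (∀ v : Place K F, 0 ≤ v.ordDifferential (h • D K F z)) ∧
      ι h * θ (ι z) = lam p ι hθ hconst y := by
  obtain ⟨g, hg⟩ := exists_kummerPair p (Pic0.mem_torsion.1 y.2)
  have hg' := hg
  obtain ⟨hg0, D', -, hD'⟩ := hg'
  obtain ⟨h, hh, hval⟩ := exists_coord ι hθ (span_eq_top_of_ne_zero hx hz) g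
  refine ⟨h, fun v => ?_, ?_⟩
  · rw [← hh]
    exact dlog_regular p hx hg0 (fun w => ⟨_, (hD' w).symm⟩) v
  · rw [hval, lam_eq p ι hθ hconst hg]

end Combined

/-! ### The instance: the special fibre `Fb = modularFunctionFieldFullC κ N ⊂ κ((q))`, `θ = q d/dq` -/

section Inst

open HahnSeries ModularCurve Fermat.Agent.IG.PR.Theta20 Fermat.Agent.IG.PR.ThetaV1
  Fermat.Agent.U44.DlogInst5

variable {κ : Type} [Field κ] [IsAlgClosed κ] (p : ℕ) [Fact p.Prime] [CharP κ p]
  (N : ℕ) [NeZero N]

/-- `j̃` as an element of the special fibre. -/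
noncomputable def jb : ↥(modularFunctionFieldFullC κ N) := ⟨jqModC κ, jqModC_mem_full κ N⟩

theorem theta_jq_ne_zero : theta (jqModC κ) ≠ 0 :=
  theta_ne_zero_of_order_eq_neg_one (Fermat.Agent.IG.AN.ModPoly3.order_jqModC κ)

theorem D_jb_ne_zero : D κ ↥(modularFunctionFieldFullC κ N) (jb (κ := κ) N) ≠ 0 :=
  D_ne_zero_of_theta_ne_zero (modularFunctionFieldFullC κ N).val (isDer_theta κ)
    (z := jb N) (theta_jq_ne_zero (κ := κ))

/-- **(Om-A) + (Om-A') on the special fibre**: `lamFb y = h̃ · θ j̃` with `h̃ ∈ Fb` and `h̃ • dj̃`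
regular at every place of `Fb`, for any separating generator `x` of `Fb`. -/
theorem exists_regular_lamFb {x : ↥(modularFunctionFieldFullC κ N)} (hx : IsGen κ x)
    [hsep : Algebra.IsSeparable κ⟮x⟯ ↥(modularFunctionFieldFullC κ N)]
    (hconst : ∀ f : ↥(modularFunctionFieldFullC κ N), f ≠ 0 →
      (∀ v : Place κ ↥(modularFunctionFieldFullC κ N), v.ord f = 0) →
      ∃ c : κ, f = algebraMap κ ↥(modularFunctionFieldFullC κ N) c)
    (y : Pic0.torsion κ ↥(modularFunctionFieldFullC κ N) p) :
    ∃ h : ↥(modularFunctionFieldFullC κ N),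
      (∀ v : Place κ ↥(modularFunctionFieldFullC κ N),
        0 ≤ v.ordDifferential (h • D κ ↥(modularFunctionFieldFullC κ N) (jb N))) ∧
      (h : LaurentSeries κ) * theta (jqModC κ) = lamFb p N hconst y :=
  exists_regular_coord p hx (modularFunctionFieldFullC κ N).val (isDer_theta κ) hconst
    (D_jb_ne_zero N) y

end Inst

end Fermat.Agent.U44.DlogReg5
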