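/-
Programme U44 (target S44), chapter (LIFT), step (L3) = (DER-RED) (helper3).

**The coordinate `da/dj` of the differential of a Gauss-integral function is Gauss-integral, and
its reduction is the coordinate of the differential of the reduction.**

`h : LevelHyp p M' A`, `F' = Fbar M' ⊆ ℚ̄((q))`, `Fb = κ·F̃_{M'} ⊆ κ((q))`, `Ov₀ = Ov0 h` the Gauss
valuation ring with its reduction `ρ₀ = rho0 h`, `θ = q d/dq`.

* `span_D_jF`, `D_jF_ne_zero` : `dj` spans `Ω[F'⁄ℚ̄]`;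
* `exists_dcoef` : `da = a' dj` with `a' · θ j = θ a` as series;
* `dcoef_gaussA` : if `a` has coefficients in `A` then so has `a'`, and `ã' · θ j̃ = θ ã`;
* `IsDC h a a'` : `da = a' dj` and `θ (ρ₀ a) = ρ₀ a' · θ j̃`; stable under products and inverses;
* `exists_dc` : every `a ∈ Ov₀` has such an `a' ∈ Ov₀`;
* `dc_mem_Ov0`, `theta_rho0` : the same for ANY `a' ∈ F'` with `da = a' dj` (uniqueness of `a'`).
-/
import Mathlib
import Fermat.Agent.T33.FrickeRed3B
import Fermat.Agent.U44.SepDiff0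
import Fermat.Agent.U44.DlogReg5
import Fermat.Agent.U44.RegLiftAux8
import Fermat.Agent.U44.RegRed8
import Fermat.Agent.X0.Degree

set_option autoImplicit false
set_option linter.unusedSectionVars false
set_option linter.style.haveILetI false
set_option linter.unusedVariables false
set_option synthInstance.maxHeartbeats 400000

noncomputable section

namespace Fermat.Agent.U44.DerRed3

open HahnSeries ModularCurve IntermediateField KaehlerDifferential
open Fermat.Agent.RED.Interface4 Fermat.Agent.ES.RED Fermat.Agent.T33.NodalHalf4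
  Fermat.Agent.T33.FrickeRed3 Fermat.Agent.IG.PR.Theta20 Fermat.Agent.X0

/-! ### `θ` of an inverse -/

theorem theta_inv {κ : Type*} [Field κ] {x : LaurentSeries κ} (hx : x ≠ 0) :
    theta x⁻¹ = -(x⁻¹ * x⁻¹ * theta x) := by
  have h1 : theta (x * x⁻¹) = 0 := by rw [mul_inv_cancel₀ hx, theta_one]
  rw [theta_mul] at h1
  have h2 : x * theta x⁻¹ = -(theta x * x⁻¹) := by
    rw [eq_neg_iff_add_eq_zero, add_comm]; exact h1
  have h3 : theta x⁻¹ = x⁻¹ * (x * theta x⁻¹) := by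
    rw [← mul_assoc, inv_mul_cancel₀ hx, one_mul]
  rw [h3, h2]
  ring

/-! ### coordinates of differentials through an embedding with a derivation -/

/-- `da = a' dz ⇒ ι a' · θ (ι z) = θ (ι a)`. -/
theorem coord_abs {K F E : Type*} [Field K] [Field F] [Algebra K F] [Field E] [Algebra K E]
    (ι : F →ₐ[K] E) {θ : E →+ E} (hθ : Fermat.Agent.U44.DlogAbs5.IsDer K θ) {a a' z : F}
    (ha : D K F a = a' • D K F z) : ι a' * θ (ι z) = θ (ι a) := by
  letI : Algebra F E := ι.toRingHom.toAlgebra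
  haveI : IsScalarTower K F E := IsScalarTower.of_algebraMap_eq (fun c => (ι.commutes c).symm)
  have h1 := congrArg (Fermat.Agent.U44.DlogReg5.derι ι hθ).liftKaehlerDifferential ha
  rw [map_smul, Derivation.liftKaehlerDifferential_comp_D,
    Derivation.liftKaehlerDifferential_comp_D] at h1
  have h2 : ∀ x y : F, x • (Fermat.Agent.U44.DlogReg5.derι ι hθ) y = ι x * θ (ι y) :=
    fun x y => by rw [Algebra.smul_def]; rfl
  rw [h2] at h1
  exact h1.symm

variable {p M' : ℕ} [NeZero M'] [NeZero p] {A : ValuationSubring Qbar}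

/-! ### `dj` spans the differentials of `F' = Fbar M'` -/

theorem isGen_jF' : FF.IsGen Qbar (jF M') :=
  Degree.isGen_jF M' (realizeData M') (cuspData M')

theorem span_D_jF : Submodule.span ↥(Fbar M') {D Qbar ↥(Fbar M') (jF M')} = ⊤ :=
  haveI : Algebra.IsSeparable Qbar⟮jF M'⟯ ↥(Fbar M') :=
    Degree.isSeparable_adjoin M' (realizeData M') (cuspData M')
  Fermat.Agent.U44.SepDiff0.span_D_sep (jF M') (isGen_jF' (M' := M')).transcendental

theorem D_jF_ne_zero : D Qbar ↥(Fbar M') (jF M') ≠ 0 :=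
  haveI : Algebra.IsSeparable Qbar⟮jF M'⟯ ↥(Fbar M') :=
    Degree.isSeparable_adjoin M' (realizeData M') (cuspData M')
  Fermat.Agent.U44.SepDiff0.D_ne_zero_sep (jF M') (isGen_jF' (M' := M')).transcendental

/-- the coordinate with respect to `dj` is unique. -/
theorem dcoef_unique {a₁ a₂ : ↥(Fbar M')}
    (h12 : a₁ • D Qbar ↥(Fbar M') (jF M') = a₂ • D Qbar ↥(Fbar M') (jF M')) : a₁ = a₂ :=
  smul_left_injective ↥(Fbar M') (D_jF_ne_zero (M' := M')) h12

/-- the series of a coordinate: `da = a' dj ⇒ a' · θ j = θ a`. -/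
theorem series_dcoef {a a' : ↥(Fbar M')}
    (ha : D Qbar ↥(Fbar M') a = a' • D Qbar ↥(Fbar M') (jF M')) :
    ((a' : ↥(Fbar M')) : LaurentSeries Qbar) * theta (jqModC Qbar) =
      theta ((a : ↥(Fbar M')) : LaurentSeries Qbar) := by
  have h1 := coord_abs (Fbar M').val (Fermat.Agent.U44.DlogInst5.isDer_theta Qbar) ha
  have h4 : (Fbar M').val (jF M') = jqModC Qbar :=
    Fermat.Agent.U44.RegRed8.coe_jF_eq_jqModC (M := M')
  rw [h4] at h1
  exact h1

/-- every function has a coordinate with respect to `dj`. -/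
theorem exists_dcoef (a : ↥(Fbar M')) : ∃ a' : ↥(Fbar M'),
    D Qbar ↥(Fbar M') a = a' • D Qbar ↥(Fbar M') (jF M') := by
  have hmem : D Qbar ↥(Fbar M') a ∈ Submodule.span ↥(Fbar M') {D Qbar ↥(Fbar M') (jF M')} :=
    span_D_jF (M' := M') ▸ Submodule.mem_top
  obtain ⟨a', ha'⟩ := Submodule.mem_span_singleton.mp hmem
  exact ⟨a', ha'.symm⟩

/-! ### Gauss-integral functions -/

/-- **integrality of the coordinate**: if `a` has coefficients in `A` and `a' · θ j = θ a`, then `a'`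
has coefficients in `A`, and `ã' · θ j̃ = θ ã`. -/
theorem dcoef_gaussA (a : ↥(Setup8.gaussA A (Fbar M'))) (a' : ↥(Fbar M'))
    (ha' : ((a' : ↥(Fbar M')) : LaurentSeries Qbar) * theta (jqModC Qbar) =
      theta (((a : ↥(Fbar M')) : ↥(Fbar M')) : LaurentSeries Qbar)) :
    ∃ hmem : a' ∈ Setup8.gaussA A (Fbar M'),
      Setup8.redA A (Fbar M') ⟨a', hmem⟩ * theta (jqModC (Setup8.kA A)) =
        theta (Setup8.redA A (Fbar M') a) := by
  obtain ⟨U, hU⟩ := Fermat.Agent.U44.RegLiftAux8.exists_theta_jqModC_mul_eq_one (R := ↥A)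
  set Y := Setup8.liftA A (Fbar M') a with hY
  have hYa : coeffMap A.subtype Y = (((a : ↥(Fbar M')) : ↥(Fbar M')) : LaurentSeries Qbar) :=
    Setup8.coeffMap_liftA A (Fbar M') a
  have hj : theta (jqModC Qbar) = coeffMap A.subtype (theta (jqModC ↥A)) := by
    rw [coeffMap_theta, coeffMap_jqModC]
  have hUQ : theta (jqModC Qbar) * coeffMap A.subtype U = 1 := by
    rw [hj, ← map_mul, hU, map_one]
  have hser : ((a' : ↥(Fbar M')) : LaurentSeries Qbar) = coeffMap A.subtype (theta Y * U) := by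
    rw [map_mul, coeffMap_theta, hYa, ← ha', mul_assoc, hUQ, mul_one]
  have hmem : a' ∈ Setup8.gaussA A (Fbar M') := ⟨theta Y * U, hser.symm⟩
  refine ⟨hmem, ?_⟩
  rw [Setup8.redA_eq A (Fbar M') ⟨a', hmem⟩ (Y := theta Y * U) hser.symm,
    Setup8.redA_eq A (Fbar M') a (Y := Y) hYa, map_mul, coeffMap_theta, mul_assoc]
  have hUk : coeffMap (Setup8.resA A) U * theta (jqModC (Setup8.kA A)) = 1 := by
    rw [← coeffMap_jqModC (Setup8.resA A), ← coeffMap_theta, ← map_mul, mul_comm, hU, map_one]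
  rw [hUk, mul_one]

/-! ### the compatibility predicate -/

section Level

variable (h : LevelHyp p M' A)

/-- `a' = da/dj`, compatibly with the reductions. -/
def IsDC (a a' : ↥(Ov0 h)) : Prop :=
  D Qbar ↥(Fbar M') (a : ↥(Fbar M')) = (a' : ↥(Fbar M')) • D Qbar ↥(Fbar M') (jF M') ∧
  theta ((rho0 h a : Fb A M') : LaurentSeries (Setup8.kA A)) =
    ((rho0 h a' : Fb A M') : LaurentSeries (Setup8.kA A)) * theta (jqModC (Setup8.kA A))

/-- Gauss-integral functions. -/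
theorem exists_isDC_gaussA (a : ↥(Setup8.gaussA A (Fbar M'))) :
    ∃ a' : ↥(Ov0 h), IsDC h ⟨(a : ↥(Fbar M')), gaussA_mem_Ov0 h a⟩ a' := by
  obtain ⟨a', ha'⟩ := exists_dcoef (M' := M') (a : ↥(Fbar M'))
  obtain ⟨hmem, hred⟩ := dcoef_gaussA a a' (series_dcoef ha')
  refine ⟨⟨a', gaussA_mem_Ov0 h ⟨a', hmem⟩⟩, ha', ?_⟩
  rw [coe_rho0_gaussA h a, coe_rho0_gaussA h ⟨a', hmem⟩, hred]

variable {h}

theorem IsDC.mul {a a' c c' : ↥(Ov0 h)} (ha : IsDC h a a') (hc : IsDC h c c') :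
    IsDC h (a * c) (a' * c + a * c') := by
  obtain ⟨ha1, ha2⟩ := ha
  obtain ⟨hc1, hc2⟩ := hc
  refine ⟨?_, ?_⟩
  · show D Qbar ↥(Fbar M') ((a : ↥(Fbar M')) * (c : ↥(Fbar M'))) =
      ((a' : ↥(Fbar M')) * (c : ↥(Fbar M')) + (a : ↥(Fbar M')) * (c' : ↥(Fbar M'))) •
        D Qbar ↥(Fbar M') (jF M')
    rw [Derivation.leibniz, ha1, hc1, smul_smul, smul_smul, add_smul, add_comm,
      mul_comm (c : ↥(Fbar M')) (a' : ↥(Fbar M'))]
  · rw [map_mul, map_add, map_mul, map_mul]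
    show theta (((rho0 h a : Fb A M') : LaurentSeries (Setup8.kA A)) *
        ((rho0 h c : Fb A M') : LaurentSeries (Setup8.kA A))) =
      (((rho0 h a' : Fb A M') : LaurentSeries (Setup8.kA A)) *
          ((rho0 h c : Fb A M') : LaurentSeries (Setup8.kA A)) +
        ((rho0 h a : Fb A M') : LaurentSeries (Setup8.kA A)) *
          ((rho0 h c' : Fb A M') : LaurentSeries (Setup8.kA A))) * theta (jqModC (Setup8.kA A))
    rw [theta_mul, ha2, hc2]
    ring

theorem IsDC.inv {c c' u : ↥(Ov0 h)} (hc : IsDC h c c') (hu : u * c = 1) :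
    IsDC h u (-(u * u * c')) := by
  obtain ⟨hc1, hc2⟩ := hc
  have huF : (u : ↥(Fbar M')) * (c : ↥(Fbar M')) = 1 := congrArg Subtype.val hu
  have hc0 : (c : ↥(Fbar M')) ≠ 0 := right_ne_zero_of_mul_eq_one huF
  have hu0 : (u : ↥(Fbar M')) ≠ 0 := left_ne_zero_of_mul_eq_one huF
  refine ⟨?_, ?_⟩
  · show D Qbar ↥(Fbar M') (u : ↥(Fbar M')) =
      (-((u : ↥(Fbar M')) * (u : ↥(Fbar M')) * (c' : ↥(Fbar M')))) • D Qbar ↥(Fbar M') (jF M')
    have h1 : D Qbar ↥(Fbar M') ((u : ↥(Fbar M')) * (c : ↥(Fbar M'))) = 0 := by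
      rw [huF]; exact (D Qbar ↥(Fbar M')).map_one_eq_zero
    rw [Derivation.leibniz, hc1, smul_smul] at h1
    have h2 : (c : ↥(Fbar M')) • D Qbar ↥(Fbar M') (u : ↥(Fbar M')) =
        (-((u : ↥(Fbar M')) * (c' : ↥(Fbar M')))) • D Qbar ↥(Fbar M') (jF M') := by
      rw [neg_smul, eq_neg_iff_add_eq_zero, add_comm]; exact h1
    have h3 : D Qbar ↥(Fbar M') (u : ↥(Fbar M')) =
        (u : ↥(Fbar M')) • ((c : ↥(Fbar M')) • D Qbar ↥(Fbar M') (u : ↥(Fbar M'))) := by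
      rw [smul_smul, huF, one_smul]
    rw [h3, h2, smul_smul]
    congr 1
    ring
  · have hρ : rho0 h u * rho0 h c = 1 := by rw [← map_mul, hu, map_one]
    have hρs : ((rho0 h u : Fb A M') : LaurentSeries (Setup8.kA A)) *
        ((rho0 h c : Fb A M') : LaurentSeries (Setup8.kA A)) = 1 := congrArg Subtype.val hρ
    have hρc0 : ((rho0 h c : Fb A M') : LaurentSeries (Setup8.kA A)) ≠ 0 :=
      right_ne_zero_of_mul_eq_one hρs
    have hρu : ((rho0 h u : Fb A M') : LaurentSeries (Setup8.kA A)) =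
        (((rho0 h c : Fb A M') : LaurentSeries (Setup8.kA A)))⁻¹ :=
      eq_inv_of_mul_eq_one_left hρs
    rw [map_neg, map_mul, map_mul]
    show theta ((rho0 h u : Fb A M') : LaurentSeries (Setup8.kA A)) =
      (-(((rho0 h u : Fb A M') : LaurentSeries (Setup8.kA A)) *
          ((rho0 h u : Fb A M') : LaurentSeries (Setup8.kA A)) *
          ((rho0 h c' : Fb A M') : LaurentSeries (Setup8.kA A)))) *
        theta (jqModC (Setup8.kA A))
    rw [hρu, theta_inv hρc0, hc2]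
    ring

variable (h)

/-- **(DER-RED)**: every `a ∈ Ov₀` has `da = a' dj` with `a' ∈ Ov₀` and `θ (ρ₀ a) = ρ₀ a' · θ j̃`. -/
theorem exists_dc (a : ↥(Ov0 h)) : ∃ a' : ↥(Ov0 h), IsDC h a a' := by
  obtain ⟨b, c, hc, hab⟩ := (mem_Ov0_iff h (a : ↥(Fbar M'))).1 a.2
  have hc0 : (c : ↥(Fbar M')) ≠ 0 := by
    intro h0
    apply hc
    have : c = 0 := Subtype.ext h0
    rw [this, map_zero]
  have humem : ((c : ↥(Fbar M')))⁻¹ ∈ Ov0 h :=
    (mem_Ov0_iff h _).2 ⟨1, c, hc, by rw [inv_mul_cancel₀ hc0]; rfl⟩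
  set u : ↥(Ov0 h) := ⟨((c : ↥(Fbar M')))⁻¹, humem⟩ with hu
  set cO : ↥(Ov0 h) := ⟨(c : ↥(Fbar M')), gaussA_mem_Ov0 h c⟩ with hcO
  set bO : ↥(Ov0 h) := ⟨(b : ↥(Fbar M')), gaussA_mem_Ov0 h b⟩ with hbO
  have huc : u * cO = 1 := Subtype.ext (inv_mul_cancel₀ hc0)
  have habu : a = bO * u := by
    apply Subtype.ext
    show (a : ↥(Fbar M')) = (b : ↥(Fbar M')) * ((c : ↥(Fbar M')))⁻¹
    rw [← hab, mul_assoc, mul_inv_cancel₀ hc0, mul_one]
  obtain ⟨b', hb'⟩ := exists_isDC_gaussA h b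
  obtain ⟨c', hc'⟩ := exists_isDC_gaussA h c
  rw [habu]
  exact ⟨_, hb'.mul (hc'.inv huc)⟩

/-- the coordinate `da/dj` of `a ∈ Ov₀` lies in `Ov₀`. -/
theorem dc_mem_Ov0 {a a' : ↥(Fbar M')} (ha : a ∈ Ov0 h)
    (haa' : D Qbar ↥(Fbar M') a = a' • D Qbar ↥(Fbar M') (jF M')) : a' ∈ Ov0 h := by
  obtain ⟨a'', h1, -⟩ := exists_dc h ⟨a, ha⟩
  have : a' = (a'' : ↥(Fbar M')) := dcoef_unique (haa'.symm.trans h1)
  rw [this]
  exact a''.2

/-- **(DER-RED)**, for any coordinate: `θ (ρ₀ a) = ρ₀ (da/dj) · θ j̃`. -/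
theorem theta_rho0 {a a' : ↥(Fbar M')} (ha : a ∈ Ov0 h)
    (haa' : D Qbar ↥(Fbar M') a = a' • D Qbar ↥(Fbar M') (jF M')) :
    theta ((rho0 h ⟨a, ha⟩ : Fb A M') : LaurentSeries (Setup8.kA A)) =
      ((rho0 h ⟨a', dc_mem_Ov0 h ha haa'⟩ : Fb A M') : LaurentSeries (Setup8.kA A)) *
        theta (jqModC (Setup8.kA A)) := by
  obtain ⟨a'', h1, h2⟩ := exists_dc h ⟨a, ha⟩
  have h3 : a' = (a'' : ↥(Fbar M')) := dcoef_unique (haa'.symm.trans h1)
  have h4 : (⟨a', dc_mem_Ov0 h ha haa'⟩ : ↥(Ov0 h)) = a'' := Subtype.ext h3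
  rw [h4]
  exact h2

end Level

end Fermat.Agent.U44.DerRed3
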