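/-
Programme U44 (target S44), chapter (LIFT), route Omega, step (5) (helper3): **tame descent of
regular differentials in characteristic zero.**

`K` algebraically closed of characteristic `0`, `F`, `F'` function fields in one variable over `K`
(generators `x`, `x'`), `φ : F →ₐ[K] F'` a finite embedding.

* `D_map_smul` : functoriality of Kähler differentials along `φ`:
  `D j = c • D t ⟹ D (φ j) = φ c • D (φ t)`;
* `ordDifferential_along` (local Riemann–Hurwitz, tame): for a place `w` of `F'` over `v` with
  ramification index `e`, `ord_w (φ h · d(φ j)) = e · ord_v (h · dj) + e − 1`;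
* `exists_place_over` : every place of `F` lies under a place of `F'` (fundamental identity);
* **`regular_descent`** : if `φ h · d(φ j)` is regular at every place of `F'` then `h · dj` is
  regular at every place of `F`.
-/
import Mathlib
import Fermat.Agent.X0.FFDiff
import Fermat.Agent.ES.HECKE.FundIdentity19
import Fermat.Agent.RR.LHypGen
import Fermat.Prelude.Def_AlgebraicCurve_Correspondence
import Fermat.Prelude.Def_ModularCurve_CanonicalDivisor

set_option autoImplicit false
set_option linter.unusedSectionVars false
set_option linter.style.haveILetI false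

noncomputable section

open KaehlerDifferential AlgebraicCurve IntermediateField

namespace Fermat.Agent.U44.TameDesc3

open Fermat.Agent.X0 Fermat.Agent.X0.FF Fermat.Agent.RR.LSpace

variable {K F F' : Type*} [Field K] [Field F] [Field F'] [Algebra K F] [Algebra K F']

/-- **functoriality of differentials along `φ`.** -/
theorem D_map_smul (φ : F →ₐ[K] F') {j t c : F} (hc : D K F j = c • D K F t) :
    D K F' (φ j) = φ c • D K F' (φ t) := by
  letI := algebraAlong φ
  haveI := isScalarTower_along φ
  have h1 := congrArg (KaehlerDifferential.map K K F F') hc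
  rw [KaehlerDifferential.map_D, map_smul, KaehlerDifferential.map_D] at h1
  rw [show φ j = algebraMap F F' j from rfl, h1, show φ t = algebraMap F F' t from rfl,
    show φ c = algebraMap F F' c from rfl, algebraMap_smul]

variable [IsAlgClosed K] [CharZero K]

/-- a transcendental element has nonzero differential (characteristic `0`). -/
theorem D_ne_zero_of_transcendental {x' : F'} (hx' : IsGen K x') {y : F'}
    (hy : Transcendental K y) : D K F' y ≠ 0 :=
  ffd_D_ne_zero y hy (ffx_isAlgebraic_of_transcendental x' y (ffg_isAlgebraic hx') hy)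

/-- **local Riemann–Hurwitz along `φ`, tame case.** -/
theorem ordDifferential_along {x : F} (hx : IsGen K x) {x' : F'} (hx' : IsGen K x')
    (φ : F →ₐ[K] F') (hφ : φ.toRingHom.IsIntegral) (w : Place K F') (j h : F) (hh : h ≠ 0)
    (hj : D K F j ≠ 0) :
    w.ordDifferential (φ h • D K F' (φ j)) =
      (Place.ramificationIndexAlong φ w : ℤ) *
        (w.restrictAlong φ hφ).ordDifferential (h • D K F j) +
      (Place.ramificationIndexAlong φ w : ℤ) - 1 := by
  set v : Place K F := w.restrictAlong φ hφ with hv
  set e : ℕ := Place.ramificationIndexAlong φ w with he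
  haveI := dCoordGenerates hx v
  haveI := nontrivial_kaehler hx
  have hepos : 0 < e := by
    letI := algebraAlong φ
    haveI := isScalarTower_along φ
    haveI := isIntegral_along φ hφ
    exact w.ramificationIndex_pos (F := F)
  -- the uniformiser of `v` and the coefficient of `dj`
  set t : F := ((ffu v : v.toValuationSubring) : F) with ht
  have htord : v.ord t = 1 := ffu_ord v
  set c : F := v.differentialCoeff (D K F j) with hc
  have hc0 : c ≠ 0 := ffg_differentialCoeff_ne_zero hx v hj
  have hDj : D K F j = c • D K F t := by
    have := (v.differentialCoeff_smul_dCoord (D K F j)).symm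
    rwa [ffu_dCoord] at this
  -- downstairs
  have hdown : v.ordDifferential (h • D K F j) = v.ord (h * c) := by
    rw [Place.ordDifferential, v.differentialCoeff_smul]
  -- upstairs
  have hDφ : D K F' (φ j) = φ c • D K F' (φ t) := D_map_smul φ hDj
  have hφt : w.ord (φ t) = e := by
    rw [Place.ord_restrictAlong φ hφ w t, ← hv, htord, mul_one]
  have hφttr : Transcendental K (φ t) := by
    have h1 : Transcendental K t := ffu_transcendental v
    intro halg
    exact h1 ((isAlgebraic_algHom_iff φ φ.injective).1 halg)
  have hDφt : D K F' (φ t) ≠ 0 := D_ne_zero_of_transcendental hx' hφttr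
  have hhc : φ (h * c) ≠ 0 := (map_ne_zero φ).2 (mul_ne_zero hh hc0)
  have hne : w.ord (φ t) ≠ 0 := by
    rw [hφt]
    exact_mod_cast hepos.ne'
  rw [hDφ, smul_smul, ← map_mul, ordDifferential_smul' hx' w hhc hDφt,
    ordDifferential_D_of_ord_ne_zero hx' w hne, hφt, Place.ord_restrictAlong φ hφ w (h * c), ← hv,
    hdown]
  ring

/-- **lying over**: every place of `F` lies under a place of `F'`. -/
theorem exists_place_over {x : F} (hx : IsGen K x) {x' : F'} (hx' : IsGen K x')
    (φ : F →ₐ[K] F') (hfin : FiniteAlong K φ) (hφ : φ.toRingHom.IsIntegral) (v : Place K F) :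
    ∃ w : Place K F', w.restrictAlong φ hφ = v := by
  have H := Fermat.Agent.RR.LHypGen.lHyp_of_isGen hx
  have H' := Fermat.Agent.RR.LHypGen.lHyp_of_isGen hx'
  haveI : HasPrincipalDivisors K F' := ⟨H'.principal⟩
  have hFI := Fermat.Agent.ES.HECKE.FundIdentity19.fundamentalIdentityAlong φ hφ hfin hx hx'
  letI := algebraAlong φ
  haveI := isScalarTower_along φ
  haveI := isIntegral_along φ hφ
  haveI : Module.Finite F F' := hfin
  have hFI' : FundamentalIdentity K F F' := hFI
  have hsum := hFI'.sum_ramificationIndex_mul_deg v
  by_contra hno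
  have hempty : v.fiber F' = ∅ := by
    rw [Finset.eq_empty_iff_forall_notMem]
    intro w hw
    exact hno ⟨w, Place.mem_fiber.1 hw⟩
  rw [hempty, Finset.sum_empty, H.deg_eq_one v] at hsum
  have hpos : 0 < Module.finrank F F' := Module.finrank_pos
  have : (Module.finrank F F' : ℤ) * ((1 : ℕ) : ℤ) ≠ 0 := by
    simp only [Nat.cast_one, mul_one]
    exact_mod_cast hpos.ne'
  exact this hsum.symm

/-- **tame descent of regular differentials.** -/
theorem regular_descent {x : F} (hx : IsGen K x) {x' : F'} (hx' : IsGen K x')
    (φ : F →ₐ[K] F') (hfin : FiniteAlong K φ) (j h : F)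
    (hreg : ∀ w : Place K F', 0 ≤ w.ordDifferential (φ h • D K F' (φ j))) :
    ∀ v : Place K F, 0 ≤ v.ordDifferential (h • D K F j) := by
  intro v
  haveI := dCoordGenerates hx v
  haveI := nontrivial_kaehler hx
  have hφ : φ.toRingHom.IsIntegral :=
    Fermat.Agent.ES.HECKE.FundIdentity19.isIntegral_of_finiteAlong φ hfin
  by_cases h0 : h = 0 ∨ D K F j = 0
  · have hz : h • D K F j = 0 := by
      rcases h0 with h0 | h0
      · rw [h0, zero_smul]
      · rw [h0, smul_zero]
    rw [hz, Place.ordDifferential, v.differentialCoeff_zero, v.ord_zero]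
  · rw [not_or] at h0
    obtain ⟨w, hw⟩ := exists_place_over hx hx' φ hfin hφ v
    have key := ordDifferential_along hx hx' φ hφ w j h h0.1 h0.2
    have hge := hreg w
    rw [key, hw] at hge
    have hepos : 0 < Place.ramificationIndexAlong φ w := by
      letI := algebraAlong φ
      haveI := isScalarTower_along φ
      haveI := isIntegral_along φ hφ
      exact w.ramificationIndex_pos (F := F)
    have he : (0 : ℤ) < (Place.ramificationIndexAlong φ w : ℤ) := by exact_mod_cast hepos
    by_contra hneg
    rw [not_le] at hneg
    have h1 : v.ordDifferential (h • D K F j) ≤ -1 := by omega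
    nlinarith

end Fermat.Agent.U44.TameDesc3
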