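/-
Programme U44 (target S44), chapter (LIFT), route Omega, steps (4)+(5), abstract part (helper5):
**automorphisms acting on differentials in a coordinate, averaging and descent.**

`K` a field, `F / K` a function field in one variable (generator `x`), `j ∈ F` with `dj ≠ 0`.
Every differential is `h • dj`; a `K`-endomorphism `g` of `F` acts by
`g^*(h • dj) = g h • d(g j) = (star j g h) • dj`, `star j g h = g h · dc j g`, `d(g j) = dc j g • dj`.

* `coeffD`, `coeffD_spec`, `coeffD_unique` : the coordinate of a differential with respect to `dj`;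
* `dc`, `star`, `star_smul_D`, `dc_comp`, `star_comp`, `star_add`, `star_const_mul`, `star_sum`;
* `regular_star` (characteristic `0`, `K` algebraically closed): automorphisms preserve regularity;
* `avg G j h`, `star_avg` : the average over a finite group of automorphisms is star-invariant,
  `regular_avg`;
* `exists_descent` : a star-invariant regular `h'' • dj` is `φ h₀ • d(φ z₀)` with `h₀ • dz₀` regular
  on the fixed field `φ : F₀ → F`.
-/
import Mathlib
import Fermat.Agent.U44.TameDesc3

set_option autoImplicit false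
set_option linter.unusedSectionVars false
set_option linter.style.haveILetI false
set_option linter.unusedVariables false

noncomputable section

open KaehlerDifferential AlgebraicCurve IntermediateField

namespace Fermat.Agent.U44.DiffAut5

open Fermat.Agent.X0 Fermat.Agent.X0.FF Fermat.Agent.U44.TameDesc3

variable {K F : Type*} [Field K] [Field F] [Algebra K F] [CharZero K]

/-! ### coordinates of differentials -/

/-- a nonzero differential spans `Ω[F⁄K]`. -/
theorem span_singleton_eq_top {x : F} (hx : IsGen K x) {ω : Ω[F⁄K]} (hω : ω ≠ 0) :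
    Submodule.span F {ω} = ⊤ := by
  have htop := span_D_eq_top hx
  have hmem : ω ∈ Submodule.span F {D K F x} := htop ▸ Submodule.mem_top
  obtain ⟨c, hc⟩ := Submodule.mem_span_singleton.mp hmem
  have hc0 : c ≠ 0 := by rintro rfl; exact hω (by rw [← hc, zero_smul])
  rw [eq_top_iff, ← htop, Submodule.span_le, Set.singleton_subset_iff]
  refine Submodule.mem_span_singleton.mpr ⟨c⁻¹, ?_⟩
  rw [← hc, smul_smul, inv_mul_cancel₀ hc0, one_smul]

open Classical in
/-- the coordinate of `ω` with respect to `dj`. -/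
def coeffD (j : F) (ω : Ω[F⁄K]) : F :=
  if h : ∃ c : F, ω = c • D K F j then h.choose else 0

theorem coeffD_spec {x : F} (hx : IsGen K x) {j : F} (hj : D K F j ≠ 0) (ω : Ω[F⁄K]) :
    ω = coeffD j ω • D K F j := by
  have hmem : ω ∈ Submodule.span F {D K F j} := span_singleton_eq_top hx hj ▸ Submodule.mem_top
  obtain ⟨c, hc⟩ := Submodule.mem_span_singleton.mp hmem
  have h : ∃ c : F, ω = c • D K F j := ⟨c, hc.symm⟩
  unfold coeffD
  rw [dif_pos h]
  exact h.choose_spec

theorem smul_D_injective {j : F} (hj : D K F j ≠ 0) {a b : F}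
    (h : a • D K F j = b • D K F j) : a = b := by
  by_contra hne
  have h1 : (a - b) • D K F j = 0 := by rw [sub_smul, h, sub_self]
  rcases smul_eq_zero.mp h1 with h2 | h2
  · exact hne (sub_eq_zero.mp h2)
  · exact hj h2

theorem coeffD_unique {x : F} (hx : IsGen K x) {j : F} (hj : D K F j ≠ 0) {ω : Ω[F⁄K]} {c : F}
    (h : ω = c • D K F j) : coeffD j ω = c :=
  smul_D_injective hj ((coeffD_spec hx hj ω).symm.trans h)

/-! ### the star action -/

/-- `d(g j) = dc j g • dj`. -/
def dc (j : F) (g : F →ₐ[K] F) : F := coeffD j (D K F (g j))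

/-- the action of `g` on differentials, in the coordinate `dj`. -/
def star (j : F) (g : F →ₐ[K] F) (h : F) : F := g h * dc j g

section Star

variable {x : F} (hx : IsGen K x) {j : F} (hj : D K F j ≠ 0)

include hx hj in
theorem D_map_j (g : F →ₐ[K] F) : D K F (g j) = dc j g • D K F j :=
  coeffD_spec hx hj _

include hx hj in
theorem star_smul_D (g : F →ₐ[K] F) (h : F) :
    star j g h • D K F j = g h • D K F (g j) := by
  rw [D_map_j hx hj g, smul_smul]
  rfl

include hx hj in
theorem dc_comp (g k : F →ₐ[K] F) : dc j (g.comp k) = g (dc j k) * dc j g := by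
  apply coeffD_unique hx hj
  rw [AlgHom.comp_apply, D_map_smul g (D_map_j hx hj k), D_map_j hx hj g, smul_smul]

include hx hj in
theorem star_comp (g k : F →ₐ[K] F) (h : F) :
    star j (g.comp k) h = star j g (star j k h) := by
  unfold star
  rw [dc_comp hx hj, AlgHom.comp_apply, map_mul]
  ring

include hx hj in
theorem dc_id : dc j (AlgHom.id K F) = 1 := by
  apply coeffD_unique hx hj
  rw [AlgHom.id_apply, one_smul]

include hx hj in
theorem star_id (h : F) : star j (AlgHom.id K F) h = h := by
  unfold star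
  rw [dc_id hx hj, AlgHom.id_apply, mul_one]

theorem star_add' (g : F →ₐ[K] F) (a b : F) :
    star j g (a + b) = star j g a + star j g b := by
  unfold star
  rw [map_add, add_mul]

theorem star_const_mul (g : F →ₐ[K] F) (c : K) (a : F) :
    star j g (algebraMap K F c * a) = algebraMap K F c * star j g a := by
  unfold star
  rw [map_mul, AlgHom.commutes, mul_assoc]

theorem star_zero (g : F →ₐ[K] F) : star j g 0 = 0 := by
  unfold star
  rw [map_zero, zero_mul]

theorem star_sum {ι : Type*} (s : Finset ι) (g : F →ₐ[K] F) (a : ι → F) :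
    star j g (∑ i ∈ s, a i) = ∑ i ∈ s, star j g (a i) := by
  unfold star
  rw [map_sum, Finset.sum_mul]

include hx hj in
/-- if `g` fixes `j` then `star j g = g`. -/
theorem star_of_fixed (g : F →ₐ[K] F) (hg : g j = j) (h : F) : star j g h = g h := by
  unfold star dc
  rw [hg, coeffD_unique hx hj (one_smul F (D K F j)).symm, mul_one]

end Star

/-! ### regularity -/

section Regular

variable [IsAlgClosed K] {x : F} (hx : IsGen K x) {j : F} (hj : D K F j ≠ 0)

include hx hj in
/-- **automorphisms preserve regular differentials.** -/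
theorem regular_star (g : F ≃ₐ[K] F) {h : F}
    (hreg : ∀ v : Place K F, 0 ≤ v.ordDifferential (h • D K F j)) (w : Place K F) :
    0 ≤ w.ordDifferential (star j (g : F →ₐ[K] F) h • D K F j) := by
  rw [star_smul_D hx hj]
  haveI := dCoordGenerates hx w
  haveI := nontrivial_kaehler hx
  by_cases h0 : h = 0
  · rw [h0, map_zero, zero_smul, Place.ordDifferential, w.differentialCoeff_zero, w.ord_zero]
  · have hφ : (g : F →ₐ[K] F).toRingHom.IsIntegral :=
      RingHom.isIntegral_of_surjective _ g.surjective
    have key := ordDifferential_along hx hx (g : F →ₐ[K] F) hφ w j h h0 hj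
    rw [key]
    have hepos : 0 < Place.ramificationIndexAlong (g : F →ₐ[K] F) w := by
      letI := algebraAlong (g : F →ₐ[K] F)
      haveI := isScalarTower_along (g : F →ₐ[K] F)
      haveI := isIntegral_along (g : F →ₐ[K] F) hφ
      exact w.ramificationIndex_pos (F := F)
    have he : (0 : ℤ) < (Place.ramificationIndexAlong (g : F →ₐ[K] F) w : ℤ) := by
      exact_mod_cast hepos
    have h1 := hreg (w.restrictAlong (g : F →ₐ[K] F) hφ)
    nlinarith

end Regular

/-! ### averaging -/

section Avg

variable (G : Subgroup (F ≃ₐ[K] F)) [Fintype G]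

/-- the average of `h • dj` over `G`, in the coordinate `dj`. -/
def avg (j h : F) : F :=
  algebraMap K F ((Fintype.card G : K)⁻¹) * ∑ g : G, star j ((g : F ≃ₐ[K] F) : F →ₐ[K] F) h

variable {x : F} (hx : IsGen K x) {j : F} (hj : D K F j ≠ 0)

include hx hj in
/-- **the average is star-invariant.** -/
theorem star_avg (k : F ≃ₐ[K] F) (hk : k ∈ G) (h : F) :
    star j (k : F →ₐ[K] F) (avg G j h) = avg G j h := by
  unfold avg
  rw [star_const_mul, star_sum]
  congr 1
  have e1 : ∀ g : G, star j (k : F →ₐ[K] F) (star j ((g : F ≃ₐ[K] F) : F →ₐ[K] F) h) =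
      star j (((⟨k, hk⟩ * g : G) : F ≃ₐ[K] F) : F →ₐ[K] F) h := by
    intro g
    rw [← star_comp hx hj]
    rfl
  rw [Finset.sum_congr rfl (fun g _ => e1 g)]
  exact Fintype.sum_equiv (Equiv.mulLeft (⟨k, hk⟩ : G)) _ _ (fun g => rfl)

variable [IsAlgClosed K]

include hx hj in
/-- the average of a regular differential is regular. -/
theorem regular_avg {h : F} (hreg : ∀ v : Place K F, 0 ≤ v.ordDifferential (h • D K F j))
    (w : Place K F) : 0 ≤ w.ordDifferential (avg G j h • D K F j) := by
  haveI := dCoordGenerates hx w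
  haveI := nontrivial_kaehler hx
  -- regularity at `w` is `a * c_w ∈ O_w`, which is stable under sums and constants
  set cw : F := w.differentialCoeff (D K F j) with hcw
  have hmem : ∀ a : F, 0 ≤ w.ordDifferential (a • D K F j) ↔
      a * cw ∈ w.toValuationSubring := by
    intro a
    rw [Place.ordDifferential, w.differentialCoeff_smul, ffp_mem_iff_ord_nonneg]
  rw [hmem]
  unfold avg
  rw [mul_assoc, Finset.sum_mul]
  refine w.toValuationSubring.mul_mem _ _ (w.algebraMap_mem' _) ?_
  refine Subring.sum_mem _ fun g _ => ?_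
  exact (hmem _).1 (regular_star hx hj (g : F ≃ₐ[K] F) hreg w)

end Avg

/-! ### descent to the fixed field -/

section Descent

variable [IsAlgClosed K] {F₀ : Type*} [Field F₀] [Algebra K F₀]
  {x : F} (hx : IsGen K x) {x₀ : F₀} (hx₀ : IsGen K x₀) {j : F} (hj : D K F j ≠ 0)

include hx hx₀ hj in
/-- **descent**: a star-invariant regular differential `h'' • dj` of `F` comes from a regular
differential `h₀ • dz₀` of the fixed field `φ : F₀ → F`. -/
theorem exists_descent (φ : F₀ →ₐ[K] F) (hfin : FiniteAlong K φ) (G : Set (F ≃ₐ[K] F))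
    (hfix : ∀ a : F, (∀ g ∈ G, g a = a) → a ∈ φ.range)
    (hφG : ∀ g ∈ G, ∀ a₀ : F₀, g (φ a₀) = φ a₀)
    {z₀ : F₀} (hz : D K F (φ z₀) ≠ 0) {h'' : F}
    (hinv : ∀ g ∈ G, star j ((g : F ≃ₐ[K] F) : F →ₐ[K] F) h'' = h'')
    (hreg : ∀ w : Place K F, 0 ≤ w.ordDifferential (h'' • D K F j)) :
    ∃ h₀ : F₀, (∀ v : Place K F₀, 0 ≤ v.ordDifferential (h₀ • D K F₀ z₀)) ∧
      φ h₀ • D K F (φ z₀) = h'' • D K F j := by
  set c : F := coeffD (φ z₀) (D K F j) with hc
  have hDj : D K F j = c • D K F (φ z₀) := coeffD_spec hx hz _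
  have hgc : ∀ g ∈ G, (g : F ≃ₐ[K] F) c = dc j ((g : F ≃ₐ[K] F) : F →ₐ[K] F) * c := by
    intro g hg
    have h1 : D K F (((g : F ≃ₐ[K] F) : F →ₐ[K] F) j) =
        ((g : F ≃ₐ[K] F) : F →ₐ[K] F) c • D K F (((g : F ≃ₐ[K] F) : F →ₐ[K] F) (φ z₀)) :=
      D_map_smul ((g : F ≃ₐ[K] F) : F →ₐ[K] F) hDj
    have h2 : ((g : F ≃ₐ[K] F) : F →ₐ[K] F) (φ z₀) = φ z₀ := hφG g hg z₀
    rw [h2, D_map_j hx hj, hDj, smul_smul] at h1
    exact (smul_D_injective hz h1).symm
  have hfixk : ∀ g ∈ G, g (h'' * c) = h'' * c := by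
    intro g hg
    have h1 := hinv g hg
    unfold star at h1
    rw [map_mul, hgc g hg, ← mul_assoc]
    exact congrArg (· * c) h1
  obtain ⟨h₀, hh₀⟩ := hfix (h'' * c) hfixk
  have hh₀' : φ h₀ = h'' * c := hh₀
  have heq : φ h₀ • D K F (φ z₀) = h'' • D K F j := by
    rw [hh₀', hDj, smul_smul]
  refine ⟨h₀, regular_descent hx₀ hx φ hfin z₀ h₀ (fun w => ?_), heq⟩
  rw [heq]
  exact hreg w

end Descent

end Fermat.Agent.U44.DiffAut5
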