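/-
Programme U44 (target S44), chapter (LIFT), route Omega, step (2') (helper5):
**naturality of the logarithmic-derivative map under automorphisms.**

`F / K` a function field, `K` algebraically closed of characteristic `p`, `x` a separating
generator, `ι : F →ₐ[K] E`, `θ` a derivation of `E` (`DlogAbs5.IsDer`), `lam` the
logarithmic-derivative map on `Pic⁰(F)[p]` (`DlogAbs5.lam`).

* `theta_of_D_eq` **(series dictionary)**: `D a = c • D z ⟹ θ (ι a) = ι c * θ (ι z)` (no assumption
  on the characteristic);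
* `D_eq_of_theta` : the converse when `D z` spans;
* `kummerPair_smul` : `σ` transports Kummer pairs: `(y, g) ↦ (σ • y, σ g)` (the Prelude's
  `SemilinearAut` action on `Pic⁰`);
* `series_invariant` **(2')**: if `σ • y = y` and `lam y = ι h * θ (ι z)` then
  `ι (σ h) * θ (ι (σ z)) = ι h * θ (ι z)`  (the differential `h • dz` is `σ`-invariant);
* `lamFb_invariant` : the instance on the special fibre `Fb = modularFunctionFieldFullC κ N`.
-/
import Mathlib
import Fermat.Agent.U44.DlogReg5
import Fermat.Agent.U44.TameDesc3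
import Fermat.Prelude.Def_AlgebraicCurve_BaseChangeGalois

set_option autoImplicit false
set_option linter.style.haveILetI false
set_option linter.unusedSectionVars false
set_option linter.unusedVariables false
set_option synthInstance.maxHeartbeats 400000

noncomputable section

namespace Fermat.Agent.U44.DlogNat5

open KaehlerDifferential IntermediateField AlgebraicCurve
open Fermat.Agent.X0.FF Fermat.Agent.U44.SepDiff0 Fermat.Agent.U44.DlogAbs5
  Fermat.Agent.U44.DlogReg5 Fermat.Agent.U44.TameDesc3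

variable {K F : Type*} [Field K] [Field F] [Algebra K F]

/-! ### the series dictionary -/

section Dict

variable {E : Type*} [Field E] [Algebra K E] (ι : F →ₐ[K] E) {θ : E →+ E} (hθ : IsDer K θ)

include hθ in
/-- **series dictionary**: `D a = c • D z ⟹ θ (ι a) = ι c * θ (ι z)`. -/
theorem theta_of_D_eq {a c z : F} (h : D K F a = c • D K F z) :
    θ (ι a) = ι c * θ (ι z) := by
  letI : Algebra F E := ι.toRingHom.toAlgebra
  haveI : IsScalarTower K F E := IsScalarTower.of_algebraMap_eq (fun c => (ι.commutes c).symm)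
  have h1 := congrArg (derι ι hθ).liftKaehlerDifferential h
  rw [map_smul, Derivation.liftKaehlerDifferential_comp_D,
    Derivation.liftKaehlerDifferential_comp_D] at h1
  have h2 : ∀ a b : F, a • (derι ι hθ) b = ι a * θ (ι b) := fun a b => by
    rw [Algebra.smul_def]; rfl
  rw [h2] at h1
  exact h1

include hθ in
/-- the converse of the dictionary when `D z` spans the differentials. -/
theorem D_eq_of_theta {a c z : F} (hspan : Submodule.span F {D K F z} = ⊤)
    (hz : θ (ι z) ≠ 0) (h : θ (ι a) = ι c * θ (ι z)) : D K F a = c • D K F z := by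
  have hmem : D K F a ∈ Submodule.span F {D K F z} := hspan ▸ Submodule.mem_top
  obtain ⟨c', hc'⟩ := Submodule.mem_span_singleton.mp hmem
  have h1 := theta_of_D_eq ι hθ hc'.symm
  rw [h] at h1
  have h2 : ι c = ι c' := mul_right_cancel₀ hz h1
  rw [← hc', ι.toRingHom.injective h2]

end Dict

/-! ### Kummer pairs under automorphisms -/

/-- an automorphism transports Kummer pairs. -/
theorem kummerPair_smul {p : ℕ} (σ : F ≃ₐ[K] F) {y : Pic0 K F} {g : F}
    (hy : IsKummerPair p y g) :
    IsKummerPair p (SemilinearAut.ofAlgAut σ • y) (σ g) := by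
  obtain ⟨hg, D', rfl, hD'⟩ := hy
  refine ⟨(map_ne_zero σ).mpr hg, SemilinearAut.degZeroSMulHom (SemilinearAut.ofAlgAut σ) D',
    (SemilinearAut.pic0_smul_mk _ D').symm, fun w => ?_⟩
  rw [SemilinearAut.coe_degZeroSMulHom, SemilinearAut.divisor_smul_apply, hD']
  have h1 := SemilinearAut.ord_smul (SemilinearAut.ofAlgAut σ)
    ((SemilinearAut.ofAlgAut σ)⁻¹ • w) g
  rw [smul_inv_smul] at h1
  exact h1.symm

/-! ### (2') -/

section Nat

variable [IsAlgClosed K] (p : ℕ) [Fact p.Prime] [CharP K p] {x : F} (hx : IsGen K x)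
  [hsep : Algebra.IsSeparable K⟮x⟯ F]
  {E : Type*} [Field E] [Algebra K E] (ι : F →ₐ[K] E) {θ : E →+ E} (hθ : IsDer K θ)
  (hconst : ∀ f : F, f ≠ 0 → (∀ v : Place K F, v.ord f = 0) → ∃ c : K, f = algebraMap K F c)

include hx hsep in
/-- **(2')**: the differential attached to a `σ`-invariant class is `σ`-invariant. -/
theorem series_invariant (σ : F ≃ₐ[K] F) (y : Pic0.torsion K F p)
    (hσy : SemilinearAut.ofAlgAut σ • (y : Pic0 K F) = (y : Pic0 K F))
    {z h : F} (hz : θ (ι z) ≠ 0) (hh : ι h * θ (ι z) = lam p ι hθ hconst y) :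
    ι (σ h) * θ (ι (σ z)) = ι h * θ (ι z) := by
  obtain ⟨g, hg⟩ := exists_kummerPair p (Pic0.mem_torsion.1 y.2)
  have hg0 : g ≠ 0 := hg.1
  have hDz : D K F z ≠ 0 := D_ne_zero_of_theta_ne_zero ι hθ hz
  obtain ⟨h1, hh1, hval⟩ := exists_coord ι hθ (span_eq_top_of_ne_zero hx hDz) g
  have e1 : lam p ι hθ hconst y = dlog θ (ι g) := lam_eq p ι hθ hconst hg
  have hh1' : h1 = h := by
    apply ι.toRingHom.injective
    apply mul_right_cancel₀ hz
    show ι h1 * θ (ι z) = ι h * θ (ι z)
    rw [hval, hh, e1]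
  rw [hh1'] at hh1
  -- `D g = (g h) • D z`
  have hDg : D K F g = (g * h) • D K F z := by
    rw [mul_smul, ← hh1, smul_smul, mul_inv_cancel₀ hg0, one_smul]
  have hDσ : D K F ((σ : F →ₐ[K] F) g) =
      (σ : F →ₐ[K] F) (g * h) • D K F ((σ : F →ₐ[K] F) z) := D_map_smul (σ : F →ₐ[K] F) hDg
  have h2 := theta_of_D_eq ι hθ hDσ
  -- `σ g` is a Kummer generator of `σ • y = y`
  have hσg : IsKummerPair p (y : Pic0 K F) (σ g) := by
    have := kummerPair_smul σ hg
    rwa [hσy] at this
  have e2 : lam p ι hθ hconst y = dlog θ (ι (σ g)) := lam_eq p ι hθ hconst hσg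
  have hσg0 : ι (σ g) ≠ 0 := (map_ne_zero ι).2 ((map_ne_zero σ).2 hg0)
  rw [hh, e2]
  unfold dlog
  rw [eq_div_iff hσg0]
  have h3 : ((σ : F →ₐ[K] F) (g * h)) = σ g * σ h := map_mul σ g h
  rw [h3, map_mul] at h2
  show ι (σ h) * θ (ι (σ z)) * ι (σ g) = θ (ι (σ g))
  rw [show ((σ : F →ₐ[K] F) g) = σ g from rfl, show ((σ : F →ₐ[K] F) z) = σ z from rfl] at h2
  rw [h2]
  ring

end Nat

/-! ### the instance on the special fibre -/

section Inst

open HahnSeries ModularCurve Fermat.Agent.IG.PR.Theta20 Fermat.Agent.IG.PR.ThetaV1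
  Fermat.Agent.U44.DlogInst5

variable {κ : Type} [Field κ] [IsAlgClosed κ] (p : ℕ) [Fact p.Prime] [CharP κ p]
  (N : ℕ) [NeZero N]

/-- **(2') on the special fibre**: if `σ • y = y` and `lamFb y = h̃ · θ j̃` then
`(σ h̃) · θ (σ j̃) = h̃ · θ j̃`. -/
theorem lamFb_invariant {x : ↥(modularFunctionFieldFullC κ N)} (hx : IsGen κ x)
    [hsep : Algebra.IsSeparable κ⟮x⟯ ↥(modularFunctionFieldFullC κ N)]
    (hconst : ∀ f : ↥(modularFunctionFieldFullC κ N), f ≠ 0 →
      (∀ v : Place κ ↥(modularFunctionFieldFullC κ N), v.ord f = 0) →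
      ∃ c : κ, f = algebraMap κ ↥(modularFunctionFieldFullC κ N) c)
    (σ : ↥(modularFunctionFieldFullC κ N) ≃ₐ[κ] ↥(modularFunctionFieldFullC κ N))
    (y : Pic0.torsion κ ↥(modularFunctionFieldFullC κ N) p)
    (hσy : SemilinearAut.ofAlgAut σ • (y : Pic0 κ ↥(modularFunctionFieldFullC κ N)) =
      (y : Pic0 κ ↥(modularFunctionFieldFullC κ N)))
    {h : ↥(modularFunctionFieldFullC κ N)}
    (hh : (h : LaurentSeries κ) * theta (jqModC κ) = lamFb p N hconst y) :
    ((σ h : ↥(modularFunctionFieldFullC κ N)) : LaurentSeries κ) *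
        theta ((σ (jb N) : ↥(modularFunctionFieldFullC κ N)) : LaurentSeries κ) =
      (h : LaurentSeries κ) * theta (jqModC κ) :=
  series_invariant p hx (modularFunctionFieldFullC κ N).val (isDer_theta κ) hconst σ y hσy
    (z := jb N) (theta_jq_ne_zero (κ := κ)) hh

end Inst

end Fermat.Agent.U44.DlogNat5
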