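/-
Programme U44 (target S44), chapter (LIFT), step (Om-B), formal part (helper5).

**The logarithmic derivative of the Kronecker norm product is the formal Hecke operator.**

Over a field `κ` with a primitive `ℓ`-th root of unity `ζ` (`ℓ ≠ 0` in `κ`), let `g ≠ 0` be a Laurent
series and `G` a series with `G(q^ℓ) = ∏_{b<ℓ} g(ζ^b q) · g(q^{ℓ²})` (`KronNorm10.normProd`).  Then,
with `θ = q d/dq` and `F = θ g / g`:

  `θ G / G = U_ℓ F + ℓ · F(q^ℓ)`,   i.e.  `a_n(θ G / G) = a_{nℓ}(F) + ℓ a_{n/ℓ}(F)`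

(`dlog_hecke_formal`, `dlog_hecke_coeff`): the action of `T_ℓ` on `q`-expansions of weight two.
Pure `q`-series algebra.
-/
import Mathlib
import Fermat.Agent.ES.KRON.KronNorm10
import Fermat.Agent.IG.PR.Theta20
import Fermat.Agent.U44.DlogAbs5
import Fermat.Agent.U44.DlogInst5

set_option autoImplicit false
set_option linter.unusedSectionVars false

open HahnSeries ModularCurve

noncomputable section

namespace Fermat.Agent.U44.HeckeDlogFormal5

open Fermat.Agent.ES.KRON.KronCong24 Fermat.Agent.ES.KRON.KronNorm10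
  Fermat.Agent.IG.PR.Theta20 Fermat.Agent.U44.DlogAbs5 Fermat.Agent.U44.DlogInst5

/-! ### the operator `U_m` -/

section Uop

variable {R : Type*} [CommRing R]

theorem bddBelow_support_mul (m : ℕ) [NeZero m] (a : LaurentSeries R) :
    BddBelow (Function.support fun n : ℤ => a.coeff ((m : ℤ) * n)) := by
  have hm : (0 : ℤ) < m := by exact_mod_cast Nat.pos_of_ne_zero (NeZero.ne m)
  refine ⟨min 0 a.order, fun n hn => ?_⟩
  by_contra hlt
  rw [not_le] at hlt
  apply hn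
  show a.coeff ((m : ℤ) * n) = 0
  apply coeff_eq_zero_of_lt_order
  have h0 : n < 0 := lt_of_lt_of_le hlt (min_le_left _ _)
  have h1 : n < a.order := lt_of_lt_of_le hlt (min_le_right _ _)
  have hm1 : (1 : ℤ) ≤ m := hm
  nlinarith

/-- the operator `U_m : Σ a_n q^n ↦ Σ a_{mn} q^n`. -/
def Uop (m : ℕ) [NeZero m] (a : LaurentSeries R) : LaurentSeries R :=
  ofSuppBddBelow (fun n : ℤ => a.coeff ((m : ℤ) * n)) (bddBelow_support_mul m a)

@[simp] theorem Uop_coeff (m : ℕ) [NeZero m] (a : LaurentSeries R) (n : ℤ) :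
    (Uop m a).coeff n = a.coeff ((m : ℤ) * n) := rfl

theorem natCast_eq_C (N : ℕ) : (N : LaurentSeries R) = HahnSeries.C (N : R) := by simp

theorem coeff_natCast_mul (N : ℕ) (x : LaurentSeries R) (n : ℤ) :
    ((N : LaurentSeries R) * x).coeff n = (N : R) * x.coeff n := by
  rw [natCast_eq_C, HahnSeries.C_mul_eq_smul, HahnSeries.coeff_smul, smul_eq_mul]

theorem theta_twistU (u : Rˣ) (x : LaurentSeries R) : theta (twistU u x) = twistU u (theta x) := by
  ext n
  rw [theta_coeff, twistU_coeff, twistU_coeff, theta_coeff]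
  ring

theorem qExpand_natCast_mul (m N : ℕ) [NeZero m] (x : LaurentSeries R) :
    qExpand R m ((N : LaurentSeries R) * x) = (N : LaurentSeries R) * qExpand R m x := by
  rw [map_mul, map_natCast]

end Uop

/-! ### the sum over the twists -/

section Field

variable {κ : Type} [Field κ] (ℓ : ℕ) [NeZero ℓ]

/-- `Σ_{b<ℓ} w^b = 0` for an `ℓ`-th root of unity `w ≠ 1`. -/
theorem geom_sum_root {w : κ} (hw : w ^ ℓ = 1) (h1 : w ≠ 1) :
    ∑ b ∈ Finset.range ℓ, w ^ b = 0 := by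
  rw [geom_sum_eq h1, hw, sub_self, zero_div]

/-- `Σ_{b<ℓ} F(ζ^b q) = ℓ · (U_ℓ F)(q^ℓ)`. -/
theorem sum_twistU (ζ : κˣ) (hζ : IsPrimitiveRoot ζ ℓ) (F : LaurentSeries κ) :
    ∑ b ∈ Finset.range ℓ, twistU (ζ ^ b) F = (ℓ : LaurentSeries κ) * qExpand κ ℓ (Uop ℓ F) := by
  ext n
  rw [HahnSeries.coeff_sum, coeff_natCast_mul]
  have h1 : ∀ b ∈ Finset.range ℓ, (twistU (ζ ^ b) F).coeff n =
      (((ζ ^ n : κˣ) : κ)) ^ b * F.coeff n := by
    intro b _
    rw [twistU_coeff]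
    congr 1
    rw [← Units.val_pow_eq_pow_val]
    congr 1
    rw [← zpow_natCast, ← zpow_natCast, ← zpow_mul, ← zpow_mul, mul_comm]
  rw [Finset.sum_congr rfl h1, ← Finset.sum_mul]
  have hw : (((ζ ^ n : κˣ) : κ)) ^ ℓ = 1 := by
    rw [← Units.val_pow_eq_pow_val, ← zpow_natCast, ← zpow_mul, mul_comm, zpow_mul, zpow_natCast,
      hζ.pow_eq_one, one_zpow, Units.val_one]
  by_cases hn : (ℓ : ℤ) ∣ n
  · obtain ⟨c, rfl⟩ := hn
    have h2 : ((ζ ^ ((ℓ : ℤ) * c) : κˣ) : κ) = 1 := by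
      rw [zpow_mul, zpow_natCast, hζ.pow_eq_one, one_zpow, Units.val_one]
    rw [h2, qExpand_coeff_mul, Uop_coeff]
    simp
  · have h2 : ((ζ ^ n : κˣ) : κ) ≠ 1 := by
      intro h
      apply hn
      have h3 : ζ ^ n = 1 := Units.ext (by rw [h, Units.val_one])
      exact (hζ.zpow_eq_one_iff_dvd n).mp h3
    rw [geom_sum_root ℓ hw h2, zero_mul, qExpand_coeff_of_not_dvd ℓ _ hn, mul_zero]

/-! ### logarithmic derivatives -/

theorem dlog_twistU (u : κˣ) (g : LaurentSeries κ) :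
    dlog theta (twistU u g) = twistU u (dlog theta g) := by
  unfold dlog
  rw [theta_twistU, map_div₀]

theorem dlog_qExpand (m : ℕ) [NeZero m] (g : LaurentSeries κ) :
    dlog theta (qExpand κ m g) = (m : LaurentSeries κ) * qExpand κ m (dlog theta g) := by
  unfold dlog
  rw [theta_qExpand, map_div₀, mul_div_assoc]

theorem dlog_prod {ι : Type*} (s : Finset ι) (x : ι → LaurentSeries κ) (hx : ∀ i ∈ s, x i ≠ 0) :
    dlog theta (∏ i ∈ s, x i) = ∑ i ∈ s, dlog theta (x i) := by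
  classical
  induction s using Finset.induction_on with
  | empty =>
    simp only [Finset.prod_empty, Finset.sum_empty]
    unfold dlog
    rw [theta_one, zero_div]
  | insert a s ha ih =>
    rw [Finset.prod_insert ha, Finset.sum_insert ha,
      dlog_mul (isDer_theta κ) (hx a (Finset.mem_insert_self a s))
        (Finset.prod_ne_zero_iff.mpr fun i hi => hx i (Finset.mem_insert_of_mem hi)),
      ih fun i hi => hx i (Finset.mem_insert_of_mem hi)]

theorem twistU_ne_zero (u : κˣ) {g : LaurentSeries κ} (hg : g ≠ 0) : twistU u g ≠ 0 :=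
  (map_ne_zero (twistU u)).mpr hg

theorem qExpand_ne_zero' (m : ℕ) [NeZero m] {g : LaurentSeries κ} (hg : g ≠ 0) :
    qExpand κ m g ≠ 0 :=
  (map_ne_zero (qExpand κ m)).mpr hg

theorem normProd_ne_zero (ζ : κˣ) {g : LaurentSeries κ} (hg : g ≠ 0) : normProd ℓ ζ g ≠ 0 := by
  unfold normProd
  exact mul_ne_zero (Finset.prod_ne_zero_iff.mpr fun b _ => twistU_ne_zero _ hg)
    (qExpand_ne_zero' _ hg)

/-- the logarithmic derivative of the norm product. -/
theorem dlog_normProd (ζ : κˣ) (hζ : IsPrimitiveRoot ζ ℓ) {g : LaurentSeries κ} (hg : g ≠ 0) :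
    dlog theta (normProd ℓ ζ g) =
      (ℓ : LaurentSeries κ) * qExpand κ ℓ (Uop ℓ (dlog theta g) +
        (ℓ : LaurentSeries κ) * qExpand κ ℓ (dlog theta g)) := by
  unfold normProd
  rw [dlog_mul (isDer_theta κ) (Finset.prod_ne_zero_iff.mpr fun b _ => twistU_ne_zero _ hg)
      (qExpand_ne_zero' _ hg),
    dlog_prod _ _ (fun b _ => twistU_ne_zero _ hg)]
  simp_rw [dlog_twistU]
  rw [sum_twistU ℓ ζ hζ, dlog_qExpand, map_add, qExpand_natCast_mul, qExpand_qExpand,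
    qExpand_congr (pow_two ℓ)]
  push_cast
  ring

/-- **(Om-B), formal part.** -/
theorem dlog_hecke_formal (hℓκ : (ℓ : κ) ≠ 0) (ζ : κˣ) (hζ : IsPrimitiveRoot ζ ℓ)
    {g G : LaurentSeries κ} (hg : g ≠ 0) (hG : qExpand κ ℓ G = normProd ℓ ζ g) :
    dlog theta G = Uop ℓ (dlog theta g) + (ℓ : LaurentSeries κ) * qExpand κ ℓ (dlog theta g) := by
  have h1 := dlog_qExpand ℓ G
  rw [hG, dlog_normProd ℓ ζ hζ hg] at h1
  have hℓ0 : (ℓ : LaurentSeries κ) ≠ 0 := by
    rw [natCast_eq_C]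
    exact (map_ne_zero (HahnSeries.C : κ →+* LaurentSeries κ)).mpr hℓκ
  exact (qExpand_injective (R := κ) ℓ (mul_left_cancel₀ hℓ0 h1)).symm

/-- **(Om-B), formal part, coefficientwise.** -/
theorem dlog_hecke_coeff (hℓκ : (ℓ : κ) ≠ 0) (ζ : κˣ) (hζ : IsPrimitiveRoot ζ ℓ)
    {g G : LaurentSeries κ} (hg : g ≠ 0) (hG : qExpand κ ℓ G = normProd ℓ ζ g) (n : ℤ) :
    (dlog theta G).coeff n = (dlog theta g).coeff ((ℓ : ℤ) * n) +
      if (ℓ : ℤ) ∣ n then (ℓ : κ) * (dlog theta g).coeff (n / ℓ) else 0 := by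
  rw [dlog_hecke_formal ℓ hℓκ ζ hζ hg hG, HahnSeries.coeff_add, Uop_coeff, coeff_natCast_mul]
  congr 1
  have hℓ0 : (ℓ : ℤ) ≠ 0 := by exact_mod_cast NeZero.ne ℓ
  split_ifs with hn
  · obtain ⟨c, rfl⟩ := hn
    rw [qExpand_coeff_mul, Int.mul_ediv_cancel_left c hℓ0]
  · rw [qExpand_coeff_of_not_dvd ℓ _ hn, mul_zero]

end Field

end Fermat.Agent.U44.HeckeDlogFormal5
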