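/-
Programme U44 (target S44), chapter (LIFT), step (Om-B), the norm formula in characteristic `p`
(helper5).

`h : LevelHyp p M' A` (good level `M'`, `4 ∣ M'`, `A` over `p ∤ M'`), `ℓ ≠ p` prime, `ℓ ∤ M'`,
`κ = kA A`, `Fb A M = κ·F̃_M`, `ᾱ = alphaC`, `β̄ = betaC`.

* `over_good` : the hypotheses of helper4's (N-RED) for the Gauss valuation rings `Ov0` of the good
  levels `M'`, `M' ℓ` along `α`; `norm_red_good : ρ₀ (N_α (β y)) = N_ᾱ (β̄ (ρ₀ y))`;
* `norm_gauss` : for a Gauss-integral `a` of level `M'`, `N_α (β a)` is Gauss-integral and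
  `redA (N_α (β a)) (q^ℓ) = ∏_{b<ℓ} ā(ζ̄^b q) · ā(q^{ℓ²})` (reduction of `ConjAlpha24`'s (NORM-α));
* `qExpand_normAlong_alphaC` **(the norm formula on the special fibre)**: for every `g ≠ 0` in
  `Fb A M'`:  `(N_ᾱ (β̄ g))(q^ℓ) = ∏_{b<ℓ} g(ζ̄^b q) · g(q^{ℓ²})`.
-/
import Mathlib
import Fermat.Agent.U44.HeckeC4
import Fermat.Agent.U44.NormRed4
import Fermat.Agent.ES.KRON.ConjAlpha24
import Fermat.Agent.ES.KRON.KronNorm10
import Fermat.Agent.ES.HECKE.AlongDegree25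

set_option autoImplicit false
set_option linter.unusedSectionVars false
set_option linter.style.haveILetI false
set_option linter.unusedVariables false
set_option synthInstance.maxHeartbeats 400000

noncomputable section

namespace Fermat.Agent.U44.HeckeDlogNorm5

open HahnSeries ModularCurve IntermediateField IsLocalRing AlgebraicCurve Module
open Fermat.Agent.RED.Interface4 Fermat.Agent.ES.RED
  Fermat.Agent.T33.NodalCtx1 Fermat.Agent.T33.NodalHalf4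
  Fermat.Agent.T33.NodalBase4A Fermat.Agent.T33.FrickeRed3 Fermat.Agent.U44.DegreeC4
  Fermat.Agent.U44.LevelEll4 Fermat.Agent.U44.WbEll4 Fermat.Agent.U44.HeckeC4
  Fermat.Agent.ES.HECKE.PointFormula28 Fermat.Agent.U44.NormRed4
  Fermat.Agent.ES.KRON.KronCong24 Fermat.Agent.ES.KRON.KronNorm10
  Fermat.Agent.FF.GaussOv1

variable {p M' : ℕ} [NeZero M'] [NeZero p] {A : ValuationSubring Qbar}
  (h : LevelHyp p M' A) {ℓ : ℕ} [NeZero ℓ] (hℓ : ℓ.Prime) (hℓp : ℓ ≠ p) (hℓM : ¬ ℓ ∣ M')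

/-! ### the Gauss valuation ring of the good level as a `ValuationSubring` -/

/-- `Ov0 h` as a valuation subring. -/
def ov0V : ValuationSubring ↥(Fbar M') :=
  haveI : Fact p.Prime := ⟨h.prime⟩
  { Ov0 h with mem_or_inv_mem' := mem_or_inv_mem A M' p h.liesOver h.not_dvd }

theorem mem_ov0V (a : ↥(Fbar M')) : a ∈ ov0V h ↔ a ∈ Ov0 h := Iff.rfl

/-- the identity `ov0V h → Ov0 h`. -/
def toOv0 : ↥(ov0V h) →+* ↥(Ov0 h) where
  toFun x := ⟨(x : ↥(Fbar M')), (mem_ov0V h _).1 x.2⟩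
  map_one' := rfl
  map_mul' _ _ := rfl
  map_zero' := rfl
  map_add' _ _ := rfl

/-- the reduction on `ov0V h`. -/
def rho0V : ↥(ov0V h) →+* Fb A M' := (rho0 h).comp (toOv0 h)

theorem rho0V_apply (x : ↥(ov0V h)) :
    rho0V h x = rho0 h ⟨(x : ↥(Fbar M')), (mem_ov0V h _).1 x.2⟩ := rfl

set_option maxHeartbeats 2000000 in
include hℓM in
/-- **the hypotheses of (N-RED) at the good levels**, along `α`. -/
theorem over_good :
    letI := algebraAlong (alphaA M' ℓ)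
    letI := algebraAlong (alphaC (Setup8.kA A) M' ℓ)
    Over (ov0V h) (Ov0 (hEll h hℓ hℓp)) (rho0V h) (rho0 (hEll h hℓ hℓp)) := by
  letI := algebraAlong (alphaA M' ℓ)
  letI := algebraAlong (alphaC (Setup8.kA A) M' ℓ)
  haveI : Fact p.Prime := ⟨h.prime⟩
  have hle : ∀ x : ↥(ov0V h),
      algebraMap ↥(Fbar M') ↥(Fbar (M' * ℓ)) (x : ↥(Fbar M')) ∈ Ov0 (hEll h hℓ hℓp) :=
    fun x => alpha_mem₀ h hℓ hℓp ((mem_ov0V h _).1 x.2)
  have hcomm : ∀ x : ↥(ov0V h), rho0 (hEll h hℓ hℓp)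
      ⟨algebraMap ↥(Fbar M') ↥(Fbar (M' * ℓ)) (x : ↥(Fbar M')), hle x⟩ =
      algebraMap (Fb A M') (Fb A (M' * ℓ)) (rho0V h x) := by
    intro x
    exact rho0_alpha h hℓ hℓp ⟨(x : ↥(Fbar M')), (mem_ov0V h _).1 x.2⟩
  have hker : ∀ x : ↥(ov0V h), ((x : ↥(Fbar M')))⁻¹ ∉ ov0V h → rho0V h x = 0 := by
    intro x hx
    by_contra hne
    exact hx ((mem_ov0V h _).2
      (inv_mem A M' p h.liesOver h.not_dvd ⟨(x : ↥(Fbar M')), (mem_ov0V h _).1 x.2⟩ hne))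
  have hdeg : finrank (Fb A M') (Fb A (M' * ℓ)) = finrank ↥(Fbar M') ↥(Fbar (M' * ℓ)) := by
    have h1 : finrankAlong (Setup8.kA A) (alphaC (Setup8.kA A) M' ℓ) = ℓ + 1 :=
      finrankAlong_alpha h hℓ hℓp hℓM
    have h2 : finrankAlong Qbar (alphaA M' ℓ) = ℓ + 1 :=
      Fermat.Agent.ES.HECKE.AlongDegree25.finrankAlong_alpha Qbar M' ℓ hℓ hℓM
    exact h1.trans h2.symm
  exact ⟨hker, hle, hcomm, rho0_surjective (hEll h hℓ hℓp), hdeg⟩

set_option maxHeartbeats 2000000 in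
include hℓM in
/-- **(N-RED) at the good levels**: `ρ₀ (N_α y) = N_ᾱ (ρ₀' y)`. -/
theorem norm_red_good (y : ↥(Ov0 (hEll h hℓ hℓp))) :
    ∃ hN : normAlong (alphaA M' ℓ) (y : ↥(Fbar (M' * ℓ))) ∈ Ov0 h,
      rho0 h ⟨_, hN⟩ = normAlong (alphaC (Setup8.kA A) M' ℓ) (rho0 (hEll h hℓ hℓp) y) := by
  letI := algebraAlong (alphaA M' ℓ)
  letI := algebraAlong (alphaC (Setup8.kA A) M' ℓ)
  haveI : FiniteDimensional ↥(Fbar M') ↥(Fbar (M' * ℓ)) :=
    Fermat.Agent.ES.HECKE.AlongDegree25.finiteAlong_alpha Qbar M' ℓ hℓ hℓM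
  haveI : FiniteDimensional (Fb A M') (Fb A (M' * ℓ)) := finiteAlong_alpha h hℓ hℓp hℓM
  obtain ⟨hN, hρ⟩ := (over_good h hℓ hℓp hℓM).norm_red y
  exact ⟨(mem_ov0V h _).1 hN, hρ⟩

/-! ### reduction of the Kronecker norm formula -/

include hℓ hℓM in
/-- **the Kronecker norm of a Gauss-integral function is Gauss-integral, and reduces to the norm
product of the reduction.** -/
theorem norm_gauss (ζA : (↥A)ˣ)
    (hζ : IsPrimitiveRoot (Units.map (A.subtype : ↥A →* Qbar) ζA) ℓ)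
    (a : ↥(Setup8.gaussA A (Fbar M'))) :
    ∃ hN : normAlong (alphaA M' ℓ) (betaA M' ℓ (a : ↥(Fbar M'))) ∈ Setup8.gaussA A (Fbar M'),
      qExpand (Setup8.kA A) ℓ (Setup8.redA A (Fbar M') ⟨_, hN⟩) =
        normProd ℓ (Units.map (Setup8.resA A : ↥A →* Setup8.kA A) ζA)
          (Setup8.redA A (Fbar M') a) := by
  set Y := Setup8.liftA A (Fbar M') a with hYdef
  have hY : coeffMap A.subtype Y = ((a : ↥(Fbar M')) : LaurentSeries Qbar) :=
    Setup8.coeffMap_liftA A (Fbar M') a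
  set Nn : ↥(Fbar M') := normAlong (alphaA M' ℓ) (betaA M' ℓ (a : ↥(Fbar M'))) with hNn
  have h1 : qExpand Qbar ℓ (Nn : LaurentSeries Qbar) =
      normProd ℓ (Units.map (A.subtype : ↥A →* Qbar) ζA) ((a : ↥(Fbar M')) : LaurentSeries Qbar) :=
    Fermat.Agent.ES.KRON.ConjAlpha24.qExpand_normAlong_alpha M' ℓ hℓ hℓM _ hζ (a : ↥(Fbar M'))
  have h2 : coeffMap A.subtype (normProd ℓ ζA Y) = qExpand Qbar ℓ (Nn : LaurentSeries Qbar) := by
    rw [h1, ← hY, normProd_map]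
  obtain ⟨z, hz⟩ := mem_range_qExpand_of_coeffMap A.subtype
    Subtype.val_injective ℓ (normProd ℓ ζA Y) (Nn : LaurentSeries Qbar) h2
  have hzN : coeffMap A.subtype z = (Nn : LaurentSeries Qbar) := by
    apply qExpand_injective (R := Qbar) ℓ
    rw [← ModularCurve.coeffMap_qExpand, hz, h2]
  refine ⟨⟨z, hzN⟩, ?_⟩
  rw [Setup8.redA_eq A (Fbar M') _ hzN, ← ModularCurve.coeffMap_qExpand, hz, normProd_map,
    Setup8.redA_eq A (Fbar M') a hY]

/-- the norm product is multiplicative. -/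
theorem normProd_mul {R : Type*} [CommRing R] (l : ℕ) [NeZero l] (ζ : Rˣ) (x y : LaurentSeries R) :
    normProd l ζ (x * y) = normProd l ζ x * normProd l ζ y := by
  unfold normProd
  simp only [map_mul, Finset.prod_mul_distrib]
  ring

theorem normProd_ne_zero' {k : Type*} [Field k] (l : ℕ) [NeZero l] (ζ : kˣ) {x : LaurentSeries k}
    (hx : x ≠ 0) : normProd l ζ x ≠ 0 := by
  unfold normProd
  exact mul_ne_zero (Finset.prod_ne_zero_iff.mpr fun b _ => (map_ne_zero (twistU (ζ ^ b))).mpr hx)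
    ((map_ne_zero (qExpand k (l ^ 2))).mpr hx)

theorem normAlong_mul {K F F' : Type*} [Field K] [Field F] [Field F'] [Algebra K F] [Algebra K F']
    (ψ : F →ₐ[K] F') (x y : F') : normAlong ψ (x * y) = normAlong ψ x * normAlong ψ y := by
  letI := algebraAlong ψ
  exact map_mul (Algebra.norm F) x y

set_option maxHeartbeats 2000000 in
include h hℓ hℓp hℓM in
/-- **the norm formula on the special fibre**:
`(N_ᾱ (β̄ g))(q^ℓ) = ∏_{b<ℓ} g(ζ̄^b q) · g(q^{ℓ²})`. -/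
theorem qExpand_normAlong_alphaC (ζA : (↥A)ˣ)
    (hζ : IsPrimitiveRoot (Units.map (A.subtype : ↥A →* Qbar) ζA) ℓ) (g : Fb A M') :
    qExpand (Setup8.kA A) ℓ
        ((normAlong (alphaC (Setup8.kA A) M' ℓ) (betaC (Setup8.kA A) M' ℓ g) : Fb A M') :
          LaurentSeries (Setup8.kA A)) =
      normProd ℓ (Units.map (Setup8.resA A : ↥A →* Setup8.kA A) ζA)
        (g : LaurentSeries (Setup8.kA A)) := by
  obtain ⟨y, rfl⟩ := rho0_surjective h g
  obtain ⟨a, b, hb, hab⟩ := (mem_Ov0_iff h _).1 y.2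
  obtain ⟨hNa, hNa'⟩ := norm_gauss hℓ hℓM ζA hζ a
  obtain ⟨hNb, hNb'⟩ := norm_gauss hℓ hℓM ζA hζ b
  obtain ⟨hN, hN'⟩ := norm_red_good h hℓ hℓp hℓM
    ⟨betaA M' ℓ (y : ↥(Fbar M')), beta_mem₀ h hℓ hℓp y.2⟩
  rw [rho0_beta h hℓ hℓp y] at hN'
  rw [← hN']
  -- the reduction of the norm as a quotient
  have hNbne : Setup8.redA A (Fbar M') ⟨_, hNb⟩ ≠ 0 := by
    intro h0
    have h1 := hNb'
    rw [h0, map_zero] at h1
    exact normProd_ne_zero' ℓ _ hb h1.symm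
  have hmul : normAlong (alphaA M' ℓ) (betaA M' ℓ (y : ↥(Fbar M'))) *
      normAlong (alphaA M' ℓ) (betaA M' ℓ (b : ↥(Fbar M'))) =
      normAlong (alphaA M' ℓ) (betaA M' ℓ (a : ↥(Fbar M'))) := by
    rw [← normAlong_mul, ← map_mul, hab]
  have h3 := coe_rho0_eq h ⟨_, hN⟩ ⟨_, hNa⟩ ⟨_, hNb⟩ hNbne hmul
  have h4 := coe_rho0_eq h y a b hb hab
  rw [h3, h4, map_div₀, hNa', hNb']
  have hbne : normProd ℓ (Units.map (Setup8.resA A : ↥A →* Setup8.kA A) ζA)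
      (Setup8.redA A (Fbar M') b) ≠ 0 := normProd_ne_zero' ℓ _ hb
  rw [div_eq_iff hbne, ← normProd_mul, div_mul_cancel₀ _ hb]

end Fermat.Agent.U44.HeckeDlogNorm5
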