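/-
Programme U44 (target S44), chapter (LIFT), step (Om-D) (helper5).

**From a mod `p` eigenform to the annihilator condition, hence to a characteristic-zero eigenform.**

Let `f ∈ S₂(Γ₀(M))` have `q`-coefficients in `ι(A)` (`A` a subring of a commutative ring `K`,
`ι : K →+* ℂ` injective), let `res : A →+* κ` be a ring homomorphism to a domain of characteristic
`p`, and let `b : ℕ → κ` be the reduced `q`-expansion of `f`.  Assume `b ≠ 0` and the *formal*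
eigen-relations `b (n ℓ) + ℓ b (n / ℓ) [ℓ ∣ n] = a_ℓ b n` for `ℓ ∈ 𝓛`.  Then every integral
polynomial `s` in the `T_ℓ` (`ℓ ∈ 𝓛`) killing `S₂(Γ₀(M))` satisfies `p ∣ s(a)`
(`ann_of_modp_eigenform`); with `LiftCore5.lift_of_ann` there is a normalised eigenform of level `M`
with `a_ℓ ≡ a ℓ` modulo a maximal ideal over `p` (`exists_eigenform_of_modp_eigenform`).

No commutativity of the formal operators and no multiplicity one is used: one proves by induction on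
`s` that `s(T)` maps a form with reduction `c • b` to a form with reduction `(s(a) c) • b`.
-/
import Mathlib
import Fermat.Agent.U44.LiftCore5
import Fermat.Agent.S49.QExp

set_option autoImplicit false
set_option linter.unusedSectionVars false

open CuspForm CongruenceSubgroup ModularFormClass

namespace Fermat.Agent.U44.LiftAsm5

open Fermat.Agent.U44.LiftCore5 Fermat.Agent.S49

variable {M : ℕ} [NeZero M]

/-- the formal Hecke operator `T_ℓ` of weight two on sequences. -/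
def Tf {κ : Type*} [CommRing κ] (ℓ : ℕ) (b : ℕ → κ) : ℕ → κ :=
  fun n => b (n * ℓ) + if ℓ ∣ n then (ℓ : κ) * b (n / ℓ) else 0

theorem Tf_smul {κ : Type*} [CommRing κ] (ℓ : ℕ) (c : κ) (b : ℕ → κ) :
    Tf ℓ (c • b) = c • Tf ℓ b := by
  funext n
  simp only [Tf, Pi.smul_apply, smul_eq_mul]
  split_ifs <;> ring

section Red

variable {K κ : Type*} [CommRing K] [CommRing κ] (ι : K →+* ℂ) (A : Subring K) (res : A →+* κ)

/-- `b` is the reduction of the `q`-expansion of `g`. -/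
def IsRed (g : CuspForm (Gamma0 M) 2) (b : ℕ → κ) : Prop :=
  ∀ n, ∃ x : A, ι x = qCoeff ⇑g n ∧ res x = b n

variable {ι A res}

theorem IsRed.add {g g' : CuspForm (Gamma0 M) 2} {b b' : ℕ → κ} (h : IsRed ι A res g b)
    (h' : IsRed ι A res g' b') : IsRed ι A res (g + g') (b + b') := by
  intro n
  obtain ⟨x, hx, hxb⟩ := h n
  obtain ⟨x', hx', hxb'⟩ := h' n
  refine ⟨x + x', ?_, ?_⟩
  · rw [qCoeff_add, ← hx, ← hx']; simp
  · rw [map_add, hxb, hxb']; rfl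

theorem IsRed.zsmul {g : CuspForm (Gamma0 M) 2} {b : ℕ → κ} (h : IsRed ι A res g b) (z : ℤ) :
    IsRed ι A res (z • g) ((z : κ) • b) := by
  intro n
  obtain ⟨x, hx, hxb⟩ := h n
  refine ⟨(z : A) * x, ?_, ?_⟩
  · rw [qCoeff_zsmul, ← hx]; simp
  · rw [map_mul, hxb, map_intCast]; rfl

theorem IsRed.hecke {g : CuspForm (Gamma0 M) 2} {b : ℕ → κ} (h : IsRed ι A res g b) {ℓ : ℕ}
    (hℓ : ℓ.Prime) (hℓM : ¬ ℓ ∣ M) : IsRed ι A res (heckeTLin 2 hℓ hℓM g) (Tf ℓ b) := by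
  intro n
  obtain ⟨x, hx, hxb⟩ := h (n * ℓ)
  by_cases hd : ℓ ∣ n
  · obtain ⟨y, hy, hyb⟩ := h (n / ℓ)
    refine ⟨x + (ℓ : A) * y, ?_, ?_⟩
    · rw [qCoeff_heckeTLin, if_pos hd, ← hx, ← hy]; simp
    · rw [map_add, map_mul, hxb, hyb, map_natCast]
      simp only [Tf, if_pos hd]
  · refine ⟨x, ?_, ?_⟩
    · rw [qCoeff_heckeTLin, if_neg hd, add_zero, ← hx]
    · rw [hxb]
      simp only [Tf, if_neg hd, add_zero]

theorem IsRed.eq_zero_of_zero (hι : Function.Injective ι) {b : ℕ → κ}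
    (h : IsRed ι A res (0 : CuspForm (Gamma0 M) 2) b) : b = 0 := by
  funext n
  obtain ⟨x, hx, hxb⟩ := h n
  rw [qCoeff_zero_form] at hx
  have hx0 : (x : K) = 0 := hι (by rw [hx, map_zero])
  have : x = 0 := Subtype.ext hx0
  rw [← hxb, this, map_zero]; rfl

end Red

section Main

variable {K κ : Type*} [CommRing K] [CommRing κ] {ι : K →+* ℂ} {A : Subring K} {res : A →+* κ}

/-- the action of a polynomial in the `T_ℓ` on a cusp form. -/
noncomputable def act (Lset : Set ℕ) (hL : ∀ ℓ ∈ Lset, ℓ.Prime ∧ ¬ ℓ ∣ M)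
    (s : MvPolynomial ↥Lset ℤ) (g : CuspForm (Gamma0 M) 2) : CuspForm (Gamma0 M) 2 :=
  ((MvPolynomial.aeval (tL Lset hL) s : heckeAlgebra M 2 (∅ : Set ℕ)) :
    Module.End ℂ (CuspForm (Gamma0 M) 2)) g

theorem act_C (Lset : Set ℕ) (hL : ∀ ℓ ∈ Lset, ℓ.Prime ∧ ¬ ℓ ∣ M) (z : ℤ)
    (g : CuspForm (Gamma0 M) 2) : act Lset hL (MvPolynomial.C z) g = z • g := by
  unfold act
  rw [MvPolynomial.aeval_C]
  show ((algebraMap ℤ (Module.End ℂ (CuspForm (Gamma0 M) 2)) z) g) = z • g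
  rw [Algebra.algebraMap_eq_smul_one]
  rfl

theorem act_add (Lset : Set ℕ) (hL : ∀ ℓ ∈ Lset, ℓ.Prime ∧ ¬ ℓ ∣ M) (s s' : MvPolynomial ↥Lset ℤ)
    (g : CuspForm (Gamma0 M) 2) : act Lset hL (s + s') g = act Lset hL s g + act Lset hL s' g := by
  unfold act
  rw [map_add]
  rfl

theorem act_mul_X (Lset : Set ℕ) (hL : ∀ ℓ ∈ Lset, ℓ.Prime ∧ ¬ ℓ ∣ M) (s : MvPolynomial ↥Lset ℤ)
    (ℓ : ↥Lset) (g : CuspForm (Gamma0 M) 2) :
    act Lset hL (s * MvPolynomial.X ℓ) g =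
      act Lset hL s (heckeTLin 2 (hL ℓ.1 ℓ.2).1 (hL ℓ.1 ℓ.2).2 g) := by
  unfold act
  rw [map_mul, MvPolynomial.aeval_X]
  rfl

/-- **the induction**: `s(T)` maps a form with reduction `c • b` to a form with reduction
`(s(a) c) • b`, when `b` satisfies the formal eigen-relations. -/
theorem isRed_act (Lset : Set ℕ) (hL : ∀ ℓ ∈ Lset, ℓ.Prime ∧ ¬ ℓ ∣ M) (a : ℕ → ℤ) (b : ℕ → κ)
    (heig : ∀ ℓ ∈ Lset, Tf ℓ b = ((a ℓ : ℤ) : κ) • b) (s : MvPolynomial ↥Lset ℤ) :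
    ∀ (g : CuspForm (Gamma0 M) 2) (c : κ), IsRed ι A res g (c • b) →
      IsRed ι A res (act Lset hL s g)
        ((((MvPolynomial.eval (fun ℓ : ↥Lset => a ℓ.1) s : ℤ) : κ) * c) • b) := by
  induction s using MvPolynomial.induction_on with
  | C z =>
    intro g c hg
    rw [act_C, MvPolynomial.eval_C, mul_smul]
    exact hg.zsmul z
  | add s s' hs hs' =>
    intro g c hg
    rw [act_add, map_add, Int.cast_add, add_mul, add_smul]
    exact (hs g c hg).add (hs' g c hg)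
  | mul_X s ℓ hs =>
    intro g c hg
    rw [act_mul_X, map_mul, MvPolynomial.eval_X, Int.cast_mul, mul_assoc]
    apply hs
    have h1 := hg.hecke (hL ℓ.1 ℓ.2).1 (hL ℓ.1 ℓ.2).2
    rw [Tf_smul, heig ℓ.1 ℓ.2, smul_smul, mul_comm] at h1
    exact h1

/-- **(Om-D), first half**: a mod `p` eigenform forces the annihilator condition. -/
theorem ann_of_modp_eigenform [IsDomain κ] {p : ℕ} [CharP κ p] (hι : Function.Injective ι)
    (Lset : Set ℕ) (hL : ∀ ℓ ∈ Lset, ℓ.Prime ∧ ¬ ℓ ∣ M) (a : ℕ → ℤ)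
    (f : CuspForm (Gamma0 M) 2) (b : ℕ → κ) (hfb : IsRed ι A res f b) (hb0 : b ≠ 0)
    (heig : ∀ ℓ ∈ Lset, Tf ℓ b = ((a ℓ : ℤ) : κ) • b) :
    ∀ s : MvPolynomial ↥Lset ℤ, MvPolynomial.aeval (tL Lset hL) s = 0 →
      (p : ℤ) ∣ MvPolynomial.eval (fun ℓ : ↥Lset => a ℓ.1) s := by
  intro s hs
  have h1 := isRed_act (ι := ι) (A := A) (res := res) Lset hL a b heig s f 1
    (by rw [one_smul]; exact hfb)
  have h0 : act Lset hL s f = 0 := by
    unfold act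
    rw [hs]
    rfl
  rw [h0, mul_one] at h1
  have h2 := h1.eq_zero_of_zero hι
  obtain ⟨n, hn⟩ := Function.ne_iff.mp hb0
  have h3 := congrFun h2 n
  rw [Pi.smul_apply, smul_eq_mul, Pi.zero_apply] at h3
  rcases mul_eq_zero.mp h3 with h4 | h4
  · exact (CharP.intCast_eq_zero_iff κ p _).mp h4
  · exact absurd h4 hn

/-- **(Om-D)**: a mod `p` eigenform of level `M` lifts to a normalised eigenform of level `M` in
characteristic zero with congruent eigenvalues. -/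
theorem exists_eigenform_of_modp_eigenform [IsDomain κ] {p : ℕ} (hp : p.Prime) [CharP κ p]
    (hι : Function.Injective ι) (Lset : Set ℕ) (hL : ∀ ℓ ∈ Lset, ℓ.Prime ∧ ¬ ℓ ∣ M) (a : ℕ → ℤ)
    (f : CuspForm (Gamma0 M) 2) (b : ℕ → κ) (hfb : IsRed ι A res f b) (hb0 : b ≠ 0)
    (heig : ∀ ℓ ∈ Lset, Tf ℓ b = ((a ℓ : ℤ) : κ) • b) :
    ∃ (f' : CuspForm (Gamma0 M) 2) (𝔪' : Ideal (integralClosure ℤ ℂ)),
      f'.IsNormalizedEigenform ∧ 𝔪'.IsMaximal ∧ (p : integralClosure ℤ ℂ) ∈ 𝔪' ∧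
      ∀ ℓ ∈ Lset, ∃ c : integralClosure ℤ ℂ, (c : ℂ) = qCoeff ⇑f' ℓ ∧
        c - ((a ℓ : ℤ) : integralClosure ℤ ℂ) ∈ 𝔪' :=
  lift_of_ann hp Lset hL a (ann_of_modp_eigenform hι Lset hL a f b hfb hb0 heig)

end Main

end Fermat.Agent.U44.LiftAsm5
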