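/-
Programme U44 (target S44), chapter (LIFT), step (Om-B) COMPLETE (helper5):
**the logarithmic-derivative map intertwines `T̄_ℓ` with the formal Hecke operator.**

`h : LevelHyp p M' A` (good level `M'`, `4 ∣ M'`, `A` over `p ∤ M'`), `ℓ ≠ p` prime, `ℓ ∤ M'`,
`κ = kA A`, `Fb A M' = κ·F̃_{M'}`, `T̄_ℓ = HeckeC4.heckeC`, `λ = DlogInst5.lamFb`.

* `exists_zeta` : a primitive `ℓ`-th root of unity of `A` with primitive residue;
* `natCast_ne_zero` : `(ℓ : κ) ≠ 0`;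
* `hconst` : functions of `Fb A M'` without zeros and poles are constants;
* `kummerPair_heckeC` : `p D = div g  ⟹  p (T̄_ℓ D) = div N_ᾱ(β̄ g)`;
* `mem_torsion_heckeC`, `heckeCTors` : `T̄_ℓ` on `Pic⁰[p]`;
* `lamFb_heckeC` **(Om-B)**: `λ(T̄_ℓ y)_n = λ(y)_{ℓ n} + [ℓ ∣ n] ℓ λ(y)_{n/ℓ}` (`n : ℤ`);
* `lamFb_heckeC_Tf` : the same as `Tf ℓ` (`LiftAsm5`) on the sequence of coefficients;
* `Tf_lamFb_of_eigen` : `T̄_ℓ y = a y ⟹ Tf ℓ (λ y) = a • λ y`.
-/
import Mathlib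
import Fermat.Agent.U44.HeckeDlogNorm5
import Fermat.Agent.U44.HeckeDlogFormal5
import Fermat.Agent.U44.DlogInst5
import Fermat.Agent.U44.LiftAsm5
import Fermat.Agent.U44.NormAlong4
import Fermat.Agent.FF.TeichLift4
import Fermat.Agent.ES.KRON.KronInst10
import Fermat.Agent.T33.NodalInst4C

set_option autoImplicit false
set_option linter.unusedSectionVars false
set_option linter.style.haveILetI false
set_option linter.unusedVariables false
set_option synthInstance.maxHeartbeats 400000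

noncomputable section

namespace Fermat.Agent.U44.HeckeDlog5

open HahnSeries ModularCurve IntermediateField IsLocalRing AlgebraicCurve Module
open Fermat.Agent.RED.Interface4 Fermat.Agent.ES.RED
  Fermat.Agent.T33.NodalCtx1 Fermat.Agent.T33.NodalHalf4
  Fermat.Agent.T33.NodalBase4A Fermat.Agent.T33.FrickeRed3 Fermat.Agent.U44.DegreeC4
  Fermat.Agent.U44.LevelEll4 Fermat.Agent.U44.WbEll4 Fermat.Agent.U44.HeckeC4
  Fermat.Agent.ES.HECKE.PointFormula28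
  Fermat.Agent.ES.KRON.KronCong24 Fermat.Agent.ES.KRON.KronNorm10
  Fermat.Agent.U44.DlogAbs5 Fermat.Agent.U44.DlogInst5 Fermat.Agent.U44.HeckeDlogFormal5
  Fermat.Agent.U44.HeckeDlogNorm5 Fermat.Agent.U44.LiftAsm5 Fermat.Agent.IG.PR.Theta20

variable {p M' : ℕ} [NeZero M'] [NeZero p] {A : ValuationSubring Qbar}
  (h : LevelHyp p M' A) {ℓ : ℕ} [NeZero ℓ] (hℓ : ℓ.Prime) (hℓp : ℓ ≠ p) (hℓM : ¬ ℓ ∣ M')

/-- shortcut instance. -/
local instance (priority := high) algebraKFbD (M : ℕ) [NeZero M] :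
    Algebra (ResidueField ↥A) (Fb A M) := inferInstance

/-! ### roots of unity and constants -/

include h hℓ hℓp in
/-- a primitive `ℓ`-th root of unity of `A` whose residue is primitive. -/
theorem exists_zeta : ∃ ζA : (↥A)ˣ,
    IsPrimitiveRoot (Units.map (A.subtype : ↥A →* Qbar) ζA) ℓ ∧
    IsPrimitiveRoot (Units.map (Setup8.resA A : ↥A →* Setup8.kA A) ζA) ℓ := by
  haveI : NeZero ((ℓ : ℕ) : Qbar) := ⟨by exact_mod_cast NeZero.ne ℓ⟩
  obtain ⟨ζ, hζ⟩ := HasEnoughRootsOfUnity.exists_primitiveRoot Qbar ℓ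
  have hpos : 0 < ℓ := hℓ.pos
  set ζA : (↥A)ˣ := Fermat.Agent.ES.KRON.KronInst10.unitOfPowEqOne A hpos hζ.pow_eq_one with hζA
  have hmem : ζ ∈ A := ((ζA : (↥A)ˣ) : ↥A).2
  have hpℓ : ¬ p ∣ ℓ := by
    intro hd
    rcases (Nat.dvd_prime hℓ).1 hd with h1 | h1
    · exact h.prime.one_lt.ne' h1
    · exact hℓp h1.symm
  refine ⟨ζA, ?_, ?_⟩
  · rw [← IsPrimitiveRoot.coe_units_iff]
    exact hζ
  · rw [← IsPrimitiveRoot.coe_units_iff]
    exact Fermat.Agent.FF.TeichLift4.isPrimitiveRoot_residue h.prime h.liesOver hpℓ hζ hmem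

include h hℓ hℓp in
theorem natCast_ne_zero : ((ℓ : ℕ) : Setup8.kA A) ≠ 0 := by
  haveI := charP_kA h
  intro h0
  have hd : p ∣ ℓ := (CharP.cast_eq_zero_iff (Setup8.kA A) p ℓ).1 h0
  rcases (Nat.dvd_prime hℓ).1 hd with h1 | h1
  · exact h.prime.one_lt.ne' h1
  · exact hℓp h1.symm

include h in
/-- functions of the special fibre without zeros and poles are constants. -/
theorem hconst : ∀ f : Fb A M', f ≠ 0 →
    (∀ v : Place (Setup8.kA A) (Fb A M'), v.ord f = 0) →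
    ∃ c : Setup8.kA A, f = algebraMap (Setup8.kA A) (Fb A M') c := by
  intro f _ hf
  exact Fermat.Agent.RR.LSpace.eq_algebraMap_of_forall_ord_nonneg
    (Fermat.Agent.T33.NodalInst4C.lHypFb h) (fun v => (hf v).ge)

/-! ### Kummer pairs through `T̄_ℓ` -/

/-- **`p D = div g ⟹ p (T̄_ℓ D) = div N_ᾱ(β̄ g)`.** -/
theorem kummerPair_heckeC {y : JZeroC (Setup8.kA A) M'} {g : Fb A M'}
    (hy : IsKummerPair p y g) :
    IsKummerPair p (heckeC h hℓ hℓp hℓM y)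
      (normAlong (alphaC (Setup8.kA A) M' ℓ) (betaC (Setup8.kA A) M' ℓ g)) := by
  obtain ⟨hg, D, rfl, hD⟩ := hy
  have hpos : 0 < finrankAlong (Setup8.kA A) (alphaC (Setup8.kA A) M' ℓ) := by
    rw [finrankAlong_alpha h hℓ hℓp hℓM]; omega
  refine ⟨Fermat.Agent.U44.NormAlong4.normAlong_ne_zero _ hpos ((map_ne_zero _).mpr hg),
    ⟨heckeDivC h hℓ hℓp hℓM (D : Divisor (Setup8.kA A) (Fb A M')),
      heckeDivC_mem_degZero h hℓ hℓp hℓM D.2⟩, (heckeC_mk h hℓ hℓp hℓM D).symm, fun v => ?_⟩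
  have h1 := heckeDivC_principal h hℓ hℓp hℓM hg
    (D := (p : ℤ) • (D : Divisor (Setup8.kA A) (Fb A M')))
    (fun v => by rw [Finsupp.smul_apply, smul_eq_mul]; exact hD v) v
  rw [map_zsmul, Finsupp.smul_apply, smul_eq_mul] at h1
  exact h1

theorem mem_torsion_heckeC {y : JZeroC (Setup8.kA A) M'}
    (hy : y ∈ Pic0.torsion (Setup8.kA A) (Fb A M') p) :
    heckeC h hℓ hℓp hℓM y ∈ Pic0.torsion (Setup8.kA A) (Fb A M') p := by
  rw [Pic0.mem_torsion] at hy ⊢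
  rw [← map_zsmul, hy, map_zero]

/-- `T̄_ℓ` on the `p`-torsion. -/
def heckeCTors : Pic0.torsion (Setup8.kA A) (Fb A M') p →+
    Pic0.torsion (Setup8.kA A) (Fb A M') p where
  toFun y := ⟨heckeC h hℓ hℓp hℓM (y : JZeroC (Setup8.kA A) M'),
    mem_torsion_heckeC h hℓ hℓp hℓM y.2⟩
  map_zero' := Subtype.ext (map_zero _)
  map_add' x y := Subtype.ext (map_add _ _ _)

@[simp] theorem coe_heckeCTors (y : Pic0.torsion (Setup8.kA A) (Fb A M') p) :
    ((heckeCTors h hℓ hℓp hℓM y : Pic0.torsion (Setup8.kA A) (Fb A M') p) :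
      JZeroC (Setup8.kA A) M') = heckeC h hℓ hℓp hℓM (y : JZeroC (Setup8.kA A) M') := rfl

/-! ### (Om-B) -/

variable [Fact p.Prime] [CharP (Setup8.kA A) p]

set_option maxHeartbeats 2000000 in
/-- (Om-B) for a given Kummer generator. -/
theorem lamFb_heckeC_aux (y : Pic0.torsion (Setup8.kA A) (Fb A M') p) (g : Fb A M')
    (hg : IsKummerPair p (y : JZeroC (Setup8.kA A) M') g) (n : ℤ) :
    (lamFb p M' (hconst h) (heckeCTors h hℓ hℓp hℓM y)).coeff n =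
      (lamFb p M' (hconst h) y).coeff ((ℓ : ℤ) * n) +
        if (ℓ : ℤ) ∣ n then (ℓ : Setup8.kA A) * (lamFb p M' (hconst h) y).coeff (n / ℓ) else 0 := by
  have hg' := kummerPair_heckeC h hℓ hℓp hℓM hg
  have hz := exists_zeta h hℓ hℓp
  obtain ⟨ζA, hζ, hζb⟩ := hz
  have hN := qExpand_normAlong_alphaC h hℓ hℓp hℓM ζA hζ g
  have hg0 : ((g : Fb A M') : LaurentSeries (Setup8.kA A)) ≠ 0 := by
    intro h0
    exact hg.1 (Subtype.ext h0)
  have e1 : lamFb p M' (hconst h) y = dlog theta ((g : Fb A M') : LaurentSeries (Setup8.kA A)) :=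
    lamFb_eq p M' (hconst h) hg
  have e2 : lamFb p M' (hconst h) (heckeCTors h hℓ hℓp hℓM y) =
      dlog theta ((normAlong (alphaC (Setup8.kA A) M' ℓ) (betaC (Setup8.kA A) M' ℓ g) : Fb A M') :
        LaurentSeries (Setup8.kA A)) :=
    lamFb_eq p M' (hconst h) (x := heckeCTors h hℓ hℓp hℓM y) hg'
  rw [e1, e2]
  exact dlog_hecke_coeff ℓ (natCast_ne_zero h hℓ hℓp) _ hζb hg0 hN n

set_option maxHeartbeats 1000000 in
/-- **(Om-B)**: `λ(T̄_ℓ y)_n = λ(y)_{ℓ n} + [ℓ ∣ n] ℓ λ(y)_{n/ℓ}`. -/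
theorem lamFb_heckeC (y : Pic0.torsion (Setup8.kA A) (Fb A M') p) (n : ℤ) :
    (lamFb p M' (hconst h) (heckeCTors h hℓ hℓp hℓM y)).coeff n =
      (lamFb p M' (hconst h) y).coeff ((ℓ : ℤ) * n) +
        if (ℓ : ℤ) ∣ n then (ℓ : Setup8.kA A) * (lamFb p M' (hconst h) y).coeff (n / ℓ) else 0 := by
  have h0 : ((p : ℤ)) • (y : JZeroC (Setup8.kA A) M') = 0 := Pic0.mem_torsion.1 y.2
  have h1 := exists_kummerPair (K := Setup8.kA A) (F := Fb A M') p h0
  exact h1.elim fun g hg => lamFb_heckeC_aux h hℓ hℓp hℓM y g hg n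

/-- **(Om-B)** in the form consumed by (Om-D): the sequence of coefficients of `λ(T̄_ℓ y)` is
`Tf ℓ` of the sequence of coefficients of `λ(y)`. -/
theorem lamFb_heckeC_Tf (y : Pic0.torsion (Setup8.kA A) (Fb A M') p) :
    (fun n : ℕ => (lamFb p M' (hconst h) (heckeCTors h hℓ hℓp hℓM y)).coeff (n : ℤ)) =
      Tf ℓ (fun m : ℕ => (lamFb p M' (hconst h) y).coeff (m : ℤ)) := by
  funext n
  rw [lamFb_heckeC h hℓ hℓp hℓM y (n : ℤ)]
  unfold Tf
  have e1 : ((n * ℓ : ℕ) : ℤ) = (ℓ : ℤ) * (n : ℤ) := by push_cast; ring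
  have e2 : ((n / ℓ : ℕ) : ℤ) = (n : ℤ) / (ℓ : ℤ) := Int.natCast_div n ℓ
  have e3 : ((ℓ : ℤ) ∣ (n : ℤ)) ↔ ℓ ∣ n := Int.natCast_dvd_natCast
  simp only [e1, e2, e3]

set_option maxHeartbeats 1000000 in
/-- **eigenclasses give formal eigen-sequences**: `T̄_ℓ y = a y ⟹ Tf ℓ (λ y) = a • λ y`. -/
theorem Tf_lamFb_of_eigen (a : ℤ) (y : Pic0.torsion (Setup8.kA A) (Fb A M') p)
    (hy : heckeC h hℓ hℓp hℓM (y : JZeroC (Setup8.kA A) M') = a • (y : JZeroC (Setup8.kA A) M')) :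
    Tf ℓ (fun m : ℕ => (lamFb p M' (hconst h) y).coeff (m : ℤ)) =
      ((a : ℤ) : Setup8.kA A) • fun m : ℕ => (lamFb p M' (hconst h) y).coeff (m : ℤ) := by
  rw [← lamFb_heckeC_Tf h hℓ hℓp hℓM y]
  have e : heckeCTors h hℓ hℓp hℓM y = a • y := Subtype.ext hy
  rw [e, map_zsmul]
  funext n
  rw [Pi.smul_apply, smul_eq_mul, zsmul_eq_mul]
  have e3 : ((a : ℤ) : LaurentSeries (Setup8.kA A)) = HahnSeries.C ((a : ℤ) : Setup8.kA A) :=
    (map_intCast (HahnSeries.C : Setup8.kA A →+* LaurentSeries (Setup8.kA A)) a).symm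
  rw [e3, HahnSeries.C_mul_eq_smul, HahnSeries.coeff_smul, smul_eq_mul]

end Fermat.Agent.U44.HeckeDlog5
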