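/-
Programme U44 (target S44), chapter (LIFT), route Omega, step (6), formal part (helper5):
**from an `A`-integral `q`-series `Y = d · S₀(q^d)` to a mod `p` eigenform of the lower level.**

`A ≤ ℚ̄` a valuation ring over `p`, `κ` its residue field, `d` a positive integer prime to `p`
(`d = 1`: the standard inclusion of levels; `d = 2`: `q ↦ q²`).  `Y ∈ A((q))` without negative part,
`coeffMap A.subtype Y = d · S₀(q^d)` over `ℚ̄`, `f₀ ∈ S₂(Γ₀(M₀))` with `q`-coefficients `ι (S₀)_n`,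
`λ = Y mod 𝔪_A`.

* `exists_coeff` : `(S₀)_n ∈ A` with residue `b n := d⁻¹ λ_{d n}`;
* `coeff_eq_zero_of_not_dvd` : `λ_k = 0` unless `d ∣ k`;
* `isRed_of_series` : `LiftAsm5.IsRed ι A res f₀ b`;
* `b_ne_zero` : `λ ≠ 0 ⟹ b ≠ 0`;
* `Tf_b` : `Tf ℓ λ = a • λ ⟹ Tf ℓ b = a • b` for primes `ℓ ∤ d`;
* `exists_eigenform_of_series` : the conclusion of (LIFT) at level `M₀` (via `LiftAsm5`).
-/
import Mathlib
import Fermat.Agent.U44.LiftAsm5
import Fermat.Agent.ES.RED.Setup8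
import Fermat.Agent.RED.Interface4
import Fermat.Agent.X0.Defs

set_option autoImplicit false
set_option linter.unusedSectionVars false
set_option linter.unusedVariables false
set_option linter.style.haveILetI false

noncomputable section

open CuspForm CongruenceSubgroup ModularFormClass HahnSeries ModularCurve

namespace Fermat.Agent.U44.LiftSeries5

open Fermat.Agent.U44.LiftAsm5 Fermat.Agent.ES.RED Fermat.Agent.X0 Fermat.Agent.RED.Interface4

variable {A : ValuationSubring Qbar} {p : ℕ} (hp : p.Prime) [CharP (Setup8.kA A) p]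
  (d : ℕ) [NeZero d] (hdp : ¬ p ∣ d)

include hdp in
theorem natCast_residue_ne_zero : ((d : ℕ) : Setup8.kA A) ≠ 0 := by
  intro h0
  exact hdp ((CharP.cast_eq_zero_iff (Setup8.kA A) p d).1 h0)

include hdp in
/-- `d⁻¹ ∈ A`, with residue `d⁻¹`. -/
theorem exists_inv_natCast : ∃ u : ↥A, ((u : ↥A) : Qbar) * (d : Qbar) = 1 ∧
    Setup8.resA A u = ((d : ℕ) : Setup8.kA A)⁻¹ := by
  have h1 : Setup8.resA A ((d : ℕ) : ↥A) ≠ 0 := by
    rw [map_natCast]
    exact natCast_residue_ne_zero d hdp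
  have h2 : IsUnit (((d : ℕ) : ↥A)) := (IsLocalRing.residue_ne_zero_iff_isUnit _).1 h1
  obtain ⟨u, hu⟩ := h2
  refine ⟨((u⁻¹ : (↥A)ˣ) : ↥A), ?_, ?_⟩
  · have h3 : ((u⁻¹ : (↥A)ˣ) : ↥A) * ((d : ℕ) : ↥A) = 1 := by rw [← hu]; exact u.inv_mul
    have h4 := congrArg (fun z : ↥A => (z : Qbar)) h3
    simpa using h4
  · have h3 : ((u⁻¹ : (↥A)ˣ) : ↥A) * ((d : ℕ) : ↥A) = 1 := by rw [← hu]; exact u.inv_mul
    have h4 := congrArg (Setup8.resA A) h3
    rw [map_mul, map_one, map_natCast] at h4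
    exact eq_inv_of_mul_eq_one_left h4

variable (Y : LaurentSeries ↥A) (S₀ : LaurentSeries Qbar)
  (hYS : coeffMap A.subtype Y = ((d : ℕ) : LaurentSeries Qbar) * qExpand Qbar d S₀)

theorem natCast_mul_coeff {R : Type*} [CommRing R] (N : ℕ) (x : LaurentSeries R) (n : ℤ) :
    (((N : ℕ) : LaurentSeries R) * x).coeff n = (N : R) * x.coeff n := by
  have h : ((N : ℕ) : LaurentSeries R) = HahnSeries.C (N : R) := by simp
  rw [h, HahnSeries.C_mul_eq_smul, HahnSeries.coeff_smul, smul_eq_mul]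

include hYS in
theorem coe_coeff_mul (n : ℤ) : ((Y.coeff ((d : ℤ) * n) : ↥A) : Qbar) = (d : Qbar) * S₀.coeff n := by
  have h1 := congrArg (fun s : LaurentSeries Qbar => s.coeff ((d : ℤ) * n)) hYS
  simp only [coeffMap_coeff, natCast_mul_coeff, qExpand_coeff_mul] at h1
  exact h1

include hYS in
theorem coeff_eq_zero_of_not_dvd {k : ℤ} (hk : ¬ (d : ℤ) ∣ k) : Y.coeff k = 0 := by
  have h1 := congrArg (fun s : LaurentSeries Qbar => s.coeff k) hYS
  simp only [coeffMap_coeff, natCast_mul_coeff, qExpand_coeff_of_not_dvd d S₀ hk, mul_zero] at h1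
  exact Subtype.ext h1

/-- the reduced sequence of the lower level. -/
def bSeq (n : ℕ) : Setup8.kA A :=
  ((d : ℕ) : Setup8.kA A)⁻¹ * (coeffMap (Setup8.resA A) Y).coeff ((d : ℤ) * (n : ℤ))

include hdp hYS in
/-- the coefficients of `S₀` are `A`-integral with residues `bSeq`. -/
theorem exists_coeff (n : ℕ) : ∃ x : ↥A, ((x : ↥A) : Qbar) = S₀.coeff (n : ℤ) ∧
    Setup8.resA A x = bSeq d Y n := by
  obtain ⟨u, hu, hures⟩ := exists_inv_natCast d hdp (A := A) (p := p)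
  refine ⟨u * Y.coeff ((d : ℤ) * (n : ℤ)), ?_, ?_⟩
  · push_cast
    rw [coe_coeff_mul d Y S₀ hYS, ← mul_assoc, hu, one_mul]
  · rw [map_mul, hures]
    rfl

include hdp hYS in
theorem isRed_of_series {M₀ : ℕ} [NeZero M₀] (f₀ : CuspForm (Gamma0 M₀) 2)
    (hf₀ : ∀ n : ℕ, qCoeff f₀ n = iotaK (S₀.coeff (n : ℤ))) :
    IsRed iotaK A.toSubring (Setup8.resA A) f₀ (bSeq d Y) := by
  intro n
  obtain ⟨x, hx, hxb⟩ := exists_coeff d hdp Y S₀ hYS n
  exact ⟨x, by rw [hf₀ n, ← hx], hxb⟩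

include hdp hYS in
theorem bSeq_ne_zero (hneg : ∀ k : ℤ, k < 0 → Y.coeff k = 0)
    (hlam : coeffMap (Setup8.resA A) Y ≠ 0) : bSeq d Y ≠ 0 := by
  intro hb
  apply hlam
  ext k
  rw [coeffMap_coeff, HahnSeries.coeff_zero]
  by_cases hk : k < 0
  · rw [hneg k hk, map_zero]
  · by_cases hdk : (d : ℤ) ∣ k
    · obtain ⟨m, rfl⟩ := hdk
      have hd0 : (0 : ℤ) < d := by exact_mod_cast Nat.pos_of_ne_zero (NeZero.ne d)
      have hm : 0 ≤ m := by
        by_contra hm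
        rw [not_le] at hm
        exact hk (mul_neg_of_pos_of_neg hd0 hm)
      obtain ⟨n, rfl⟩ := Int.eq_ofNat_of_zero_le hm
      have h1 := congrFun hb n
      simp only [bSeq, Pi.zero_apply, coeffMap_coeff] at h1
      rcases mul_eq_zero.mp h1 with h2 | h2
      · exact absurd (inv_eq_zero.mp h2) (natCast_residue_ne_zero d hdp)
      · exact h2
    · rw [coeff_eq_zero_of_not_dvd d Y S₀ hYS hdk, map_zero]

/-- **transfer of the formal eigen-relations** to the lower level. -/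
theorem Tf_bSeq {ℓ : ℕ} (hℓ : ℓ.Prime) (hℓd : ¬ ℓ ∣ d) (a : Setup8.kA A)
    (hT : Tf ℓ (fun m : ℕ => (coeffMap (Setup8.resA A) Y).coeff (m : ℤ)) =
      a • fun m : ℕ => (coeffMap (Setup8.resA A) Y).coeff (m : ℤ)) :
    Tf ℓ (bSeq d Y) = a • bSeq d Y := by
  funext n
  have h1 := congrFun hT (d * n)
  simp only [Tf, Pi.smul_apply, smul_eq_mul, bSeq] at h1 ⊢
  have hdvd : ℓ ∣ d * n ↔ ℓ ∣ n := by
    constructor
    · intro h
      rcases (Nat.Prime.dvd_mul hℓ).1 h with h2 | h2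
      · exact absurd h2 hℓd
      · exact h2
    · intro h
      exact Dvd.dvd.mul_left h d
  have e1 : (((d * n * ℓ : ℕ)) : ℤ) = (d : ℤ) * ((n * ℓ : ℕ) : ℤ) := by push_cast; ring
  have e0 : (((d * n : ℕ)) : ℤ) = (d : ℤ) * (n : ℤ) := by push_cast; ring
  rw [e1, e0] at h1
  by_cases hn : ℓ ∣ n
  · have hdn : ℓ ∣ d * n := hdvd.2 hn
    rw [if_pos hdn] at h1
    rw [if_pos hn]
    have e2 : (((d * n / ℓ : ℕ)) : ℤ) = (d : ℤ) * ((n / ℓ : ℕ) : ℤ) := by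
      rw [Nat.mul_div_assoc d hn]; push_cast; ring
    rw [e2] at h1
    rw [← mul_assoc a, mul_comm a, mul_assoc _ a, ← h1]
    ring
  · have hdn : ¬ ℓ ∣ d * n := fun h => hn (hdvd.1 h)
    rw [if_neg hdn] at h1
    rw [if_neg hn]
    rw [← mul_assoc a, mul_comm a, mul_assoc _ a, ← h1]
    ring

include hp hdp hYS in
/-- **(LIFT), formal conclusion**: a normalised eigenform of level `M₀` with eigenvalues congruent
to `a ℓ`. -/
theorem exists_eigenform_of_series {M₀ : ℕ} [NeZero M₀]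
    (hneg : ∀ k : ℤ, k < 0 → Y.coeff k = 0) (hlam : coeffMap (Setup8.resA A) Y ≠ 0)
    (f₀ : CuspForm (Gamma0 M₀) 2) (hf₀ : ∀ n : ℕ, qCoeff f₀ n = iotaK (S₀.coeff (n : ℤ)))
    (Lset : Set ℕ) (hL : ∀ ℓ ∈ Lset, ℓ.Prime ∧ ¬ ℓ ∣ M₀) (hLd : ∀ ℓ ∈ Lset, ¬ ℓ ∣ d) (a : ℕ → ℤ)
    (heig : ∀ ℓ ∈ Lset, Tf ℓ (fun m : ℕ => (coeffMap (Setup8.resA A) Y).coeff (m : ℤ)) =
      ((a ℓ : ℤ) : Setup8.kA A) • fun m : ℕ => (coeffMap (Setup8.resA A) Y).coeff (m : ℤ)) :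
    ∃ (f' : CuspForm (Gamma0 M₀) 2) (𝔪' : Ideal (integralClosure ℤ ℂ)),
      f'.IsNormalizedEigenform ∧ 𝔪'.IsMaximal ∧ (p : integralClosure ℤ ℂ) ∈ 𝔪' ∧
      ∀ ℓ ∈ Lset, ∃ c : integralClosure ℤ ℂ, (c : ℂ) = qCoeff ⇑f' ℓ ∧
        c - ((a ℓ : ℤ) : integralClosure ℤ ℂ) ∈ 𝔪' :=
  exists_eigenform_of_modp_eigenform (ι := iotaK) (A := A.toSubring) (res := Setup8.resA A) hp
    iotaK_injective Lset hL a f₀ (bSeq d Y) (isRed_of_series d hdp Y S₀ hYS f₀ hf₀)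
    (bSeq_ne_zero d hdp Y S₀ hYS hneg hlam)
    (fun ℓ hℓ => Tf_bSeq d Y (hL ℓ hℓ).1 (hLd ℓ hℓ) _ (heig ℓ hℓ))

end Fermat.Agent.U44.LiftSeries5
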