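/-
Programme U44 (target S44), chapter (LIFT), route Omega, step (6) (helper5): **the assembly.**

`h : LevelHyp p M' A` (Haupt-level `M'`, `4 ∣ M'`, `p ∤ M'`, `A` over `p`), `κ = kA A`,
`Fb = Fb A M'`, `F' = Fbar M'`.  Input: a nonzero class `y ∈ Pic⁰(Fb)[p]` which is an eigenvector of
the `T̄_ℓ` (`ℓ ∈ Lset`) and is invariant under the reductions of a finite group `Γ` of
automorphisms of `F'` whose fixed field is `φ (Fbar M₀)`, `(φ x)(q) = x(q^d)`.  Output: a normalised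
eigenform of level `M₀` with eigenvalues congruent to `a ℓ`.

Chain: `λ = lamFb y = h̃ θ j̃` with `h̃ dj̃` regular (Om-A, Om-A'); lift `h̃` to a regular `h' dj`
(Om-C, `hlift`); average over `Γ` (`DiffAut5`); the average still reduces to `h̃` ((2') `DlogNat5`
+ (DER-RED) `hdc`); integrality of its `q`-expansion (SAT, `hint`); descent to `Fbar M₀`
(`DiffAut5.exists_descent`); the dictionary (LOW) of `S20`; the formal end `LiftSeries5`.
-/
import Mathlib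
import Fermat.Agent.U44.LiftSeries5
import Fermat.Agent.U44.DiffAut5
import Fermat.Agent.U44.DlogNat5
import Fermat.Agent.U44.HeckeDlog5
import Fermat.Agent.U44.RRFb0
import Fermat.Agent.U44.RegRed8
import Fermat.Agent.U44.RegLiftAux8
import Fermat.Agent.S20.Low

set_option autoImplicit false
set_option linter.unusedSectionVars false
set_option linter.style.haveILetI false
set_option linter.unusedVariables false
set_option synthInstance.maxHeartbeats 400000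

noncomputable section

namespace Fermat.Agent.U44.LiftMain5

open HahnSeries ModularCurve IntermediateField IsLocalRing AlgebraicCurve Module
  KaehlerDifferential CuspForm CongruenceSubgroup ModularFormClass
open Fermat.Agent.RED.Interface4 Fermat.Agent.ES.RED
  Fermat.Agent.T33.NodalCtx1 Fermat.Agent.T33.NodalHalf4 Fermat.Agent.T33.NodalInst6
  Fermat.Agent.T33.NodalBase4A Fermat.Agent.T33.FrickeRed3 Fermat.Agent.U44.HeckeC4
  Fermat.Agent.U44.DlogAbs5 Fermat.Agent.U44.DlogInst5 Fermat.Agent.U44.DlogReg5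
  Fermat.Agent.U44.DlogNat5 Fermat.Agent.U44.DiffAut5 Fermat.Agent.U44.HeckeDlog5
  Fermat.Agent.U44.LiftAsm5 Fermat.Agent.U44.LiftSeries5 Fermat.Agent.IG.PR.Theta20
  Fermat.Agent.X0 Fermat.Agent.X0.FF

variable {p M' : ℕ} [NeZero M'] [NeZero p] {A : ValuationSubring Qbar} (h : LevelHyp p M' A)

/-- shortcut instance. -/
local instance (priority := high) algebraKFbM (M : ℕ) [NeZero M] :
    Algebra (ResidueField ↥A) (Fb A M) := inferInstance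

/-! ### Gauss-integral functions in `Ov0` -/

/-- a Gauss-integral function lies in `Ov0`, with reduction `redA`. -/
theorem rho0_of_gaussA (x : ↥(Setup8.gaussA A (Fbar M'))) :
    ∃ hm : (x : ↥(Fbar M')) ∈ Ov0 h,
      ((rho0 h ⟨(x : ↥(Fbar M')), hm⟩ : Fb A M') : LaurentSeries (Setup8.kA A)) =
        Setup8.redA A (Fbar M') x := by
  have h1 : Setup8.redA A (Fbar M') (1 : ↥(Setup8.gaussA A (Fbar M'))) ≠ 0 := by
    rw [map_one]; exact one_ne_zero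
  have hab : (x : ↥(Fbar M')) * ((1 : ↥(Setup8.gaussA A (Fbar M'))) : ↥(Fbar M')) =
      (x : ↥(Fbar M')) := by
    rw [OneMemClass.coe_one, mul_one]
  have hm : (x : ↥(Fbar M')) ∈ Ov0 h := (mem_Ov0_iff h _).2 ⟨x, 1, h1, hab⟩
  refine ⟨hm, ?_⟩
  rw [coe_rho0_eq h ⟨_, hm⟩ x 1 h1 hab, map_one, div_one]

/-- constants of `A`. -/
theorem rho0_const (c : ↥A) :
    ∃ hm : algebraMap Qbar ↥(Fbar M') (c : Qbar) ∈ Ov0 h,
      rho0 h ⟨_, hm⟩ = algebraMap (Setup8.kA A) (Fb A M') (Setup8.resA A c) := by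
  obtain ⟨hm, hρ⟩ := rho0_of_gaussA h ⟨_, Setup8.algebraMap_mem_gaussA A (Fbar M') c⟩
  refine ⟨hm, Subtype.ext ?_⟩
  rw [hρ, Setup8.redA_algebraMap]
  rfl

/-- `j ∈ Ov0` with reduction `j̃`. -/
theorem rho0_jF :
    ∃ hm : jF M' ∈ Ov0 h, rho0 h ⟨jF M', hm⟩ = jb (κ := Setup8.kA A) M' := by
  have hY : coeffMap A.subtype (jqModC ↥A) = ((jF M' : ↥(Fbar M')) : LaurentSeries Qbar) := by
    rw [coeffMap_jqModC, Fermat.Agent.U44.RegRed8.coe_jF_eq_jqModC]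
  have hg : jF M' ∈ Setup8.gaussA A (Fbar M') := ⟨jqModC ↥A, hY⟩
  obtain ⟨hm, hρ⟩ := rho0_of_gaussA h ⟨jF M', hg⟩
  refine ⟨hm, Subtype.ext ?_⟩
  rw [hρ, Setup8.redA_eq A (Fbar M') ⟨jF M', hg⟩ hY, coeffMap_jqModC]
  rfl

/-! ### the dictionary for two-sided identities -/

theorem series_of_smul_D_eq {K F E : Type*} [Field K] [Field F] [Algebra K F] [Field E]
    [Algebra K E] (ι : F →ₐ[K] E) {θ : E →+ E} (hθ : IsDer K θ) {a b u v : F}
    (hab : a • D K F u = b • D K F v) : ι a * θ (ι u) = ι b * θ (ι v) := by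
  letI : Algebra F E := ι.toRingHom.toAlgebra
  haveI : IsScalarTower K F E := IsScalarTower.of_algebraMap_eq (fun c => (ι.commutes c).symm)
  have h1 := congrArg (derι ι hθ).liftKaehlerDifferential hab
  rw [map_smul, map_smul, Derivation.liftKaehlerDifferential_comp_D,
    Derivation.liftKaehlerDifferential_comp_D] at h1
  have h2 : ∀ a b : F, a • (derι ι hθ) b = ι a * θ (ι b) := fun a b => by
    rw [Algebra.smul_def]; rfl
  rw [h2, h2] at h1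
  exact h1

/-! ### the reduction of the star action -/

section StarRed

variable [Fact p.Prime] [CharP (Setup8.kA A) p]

/-- the three inputs about reduction, as hypotheses (RegLiftInst8 / DerRed3). -/
structure Inputs : Prop where
  /-- (Om-C) lifting of regular differentials. -/
  lift : ∀ hb : Fb A M', (∀ Pb : Place (Setup8.kA A) (Fb A M'),
      0 ≤ Pb.ordDifferential (hb • D (Setup8.kA A) (Fb A M') (jb (κ := Setup8.kA A) M'))) →
    ∃ (h' : ↥(Fbar M')) (hm : h' ∈ Ov0 h),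
      (∀ P : Place Qbar ↥(Fbar M'), 0 ≤ P.ordDifferential (h' • D Qbar ↥(Fbar M') (jF M'))) ∧
      rho0 h ⟨h', hm⟩ = hb
  /-- (SAT) integrality of regular differentials in the Gauss valuation ring. -/
  int : ∀ (h'' : ↥(Fbar M')) (hm : h'' ∈ Ov0 h),
    (∀ P : Place Qbar ↥(Fbar M'), 0 ≤ P.ordDifferential (h'' • D Qbar ↥(Fbar M') (jF M'))) →
    ∃ Y : LaurentSeries ↥A,
      (h'' : LaurentSeries Qbar) * theta (jqModC Qbar) = coeffMap A.subtype Y ∧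
      ((rho0 h ⟨h'', hm⟩ : Fb A M') : LaurentSeries (Setup8.kA A)) * theta (jqModC (Setup8.kA A)) =
        coeffMap (Setup8.resA A) Y ∧
      ∀ k : ℤ, k < 0 → Y.coeff k = 0
  /-- (DER-RED) reduction commutes with the derivative. -/
  dc : ∀ (a : ↥(Fbar M')) (ha : a ∈ Ov0 h), ∃ (a' : ↥(Fbar M')) (ha' : a' ∈ Ov0 h),
    D Qbar ↥(Fbar M') a = a' • D Qbar ↥(Fbar M') (jF M') ∧
    theta ((rho0 h ⟨a, ha⟩ : Fb A M') : LaurentSeries (Setup8.kA A)) =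
      ((rho0 h ⟨a', ha'⟩ : Fb A M') : LaurentSeries (Setup8.kA A)) * theta (jqModC (Setup8.kA A))

variable {h}

set_option maxHeartbeats 1000000 in
/-- **the star action reduces to the identity on the differential of an invariant class.** -/
theorem star_red (I : Inputs h) (y : Pic0.torsion (Setup8.kA A) (Fb A M') p)
    {hb : Fb A M'}
    (hbval : (hb : LaurentSeries (Setup8.kA A)) * theta (jqModC (Setup8.kA A)) =
      lamFb p M' (hconst h) y)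
    {h' : ↥(Fbar M')} (hm' : h' ∈ Ov0 h) (hρ' : rho0 h ⟨h', hm'⟩ = hb)
    (g : ↥(Fbar M') ≃ₐ[Qbar] ↥(Fbar M')) (gb : Fb A M' ≃ₐ[Setup8.kA A] Fb A M')
    (hgb : ∀ (a : ↥(Fbar M')) (ha : a ∈ Ov0 h), ∃ hga : g a ∈ Ov0 h,
      rho0 h ⟨g a, hga⟩ = gb (rho0 h ⟨a, ha⟩))
    (hgy : SemilinearAut.ofAlgAut gb • (y : JZeroC (Setup8.kA A) M') =
      (y : JZeroC (Setup8.kA A) M')) :
    ∃ hm : star (jF M') (g : ↥(Fbar M') →ₐ[Qbar] ↥(Fbar M')) h' ∈ Ov0 h,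
      rho0 h ⟨_, hm⟩ = hb := by
  haveI : IsAlgClosed (Setup8.kA A) := Fermat.Agent.U44.RRFb0.isAlgClosed_res A
  have hxj : IsGen Qbar (jF M') := HasCanDivInst.isGen M'
  have hDj : D Qbar ↥(Fbar M') (jF M') ≠ 0 := FF.D_ne_zero hxj
  obtain ⟨hjm, hjρ⟩ := rho0_jF h
  obtain ⟨hgh', hρg⟩ := hgb h' hm'
  obtain ⟨hgj, hρgj⟩ := hgb (jF M') hjm
  obtain ⟨a', ha', hDa, hθa⟩ := I.dc (g (jF M')) hgj
  have hdc : dc (jF M') (g : ↥(Fbar M') →ₐ[Qbar] ↥(Fbar M')) = a' :=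
    coeffD_unique hxj hDj hDa
  have hm : star (jF M') (g : ↥(Fbar M') →ₐ[Qbar] ↥(Fbar M')) h' ∈ Ov0 h := by
    unfold DiffAut5.star
    rw [hdc]
    exact (Ov0 h).mul_mem hgh' ha'
  refine ⟨hm, ?_⟩
  have hmul : rho0 h ⟨_, hm⟩ = rho0 h ⟨g h', hgh'⟩ * rho0 h ⟨a', ha'⟩ := by
    rw [← map_mul]
    congr 1
    apply Subtype.ext
    show star (jF M') (g : ↥(Fbar M') →ₐ[Qbar] ↥(Fbar M')) h' = g h' * a'
    unfold DiffAut5.star
    rw [hdc]
    rfl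
  rw [hmul, hρg, hρ']
  -- compare the series
  haveI := isSeparable_x1 h
  have hinv := lamFb_invariant p M' (isGen_x1 h) (hconst h) gb y hgy hbval
  rw [hρgj, hjρ] at hθa
  apply Subtype.ext
  have hθ0 : theta (jqModC (Setup8.kA A)) ≠ 0 := theta_jq_ne_zero
  apply mul_right_cancel₀ hθ0
  rw [← hinv, hθa]
  show ((gb hb : Fb A M') : LaurentSeries (Setup8.kA A)) *
      ((rho0 h ⟨a', ha'⟩ : Fb A M') : LaurentSeries (Setup8.kA A)) * _ = _
  ring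

end StarRed

/-! ### sums in a subring with a reduction map -/

theorem sum_mem_map {F B : Type*} [Ring F] [Ring B] (R : Subring F) (ρ : ↥R →+* B)
    {ι : Type*} (s : Finset ι) (x : ι → F) (b : B)
    (hx : ∀ i ∈ s, ∃ hm : x i ∈ R, ρ ⟨x i, hm⟩ = b) :
    ∃ hm : ∑ i ∈ s, x i ∈ R, ρ ⟨_, hm⟩ = s.card • b := by
  classical
  induction s using Finset.induction_on with
  | empty =>
    refine ⟨by rw [Finset.sum_empty]; exact R.zero_mem, ?_⟩
    rw [Finset.card_empty, zero_smul]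
    have : (⟨∑ i ∈ (∅ : Finset ι), x i, by rw [Finset.sum_empty]; exact R.zero_mem⟩ : ↥R) = 0 :=
      Subtype.ext (Finset.sum_empty (f := x))
    rw [this, map_zero]
  | insert i s hi ih =>
    obtain ⟨hmi, hρi⟩ := hx i (Finset.mem_insert_self i s)
    obtain ⟨hms, hρs⟩ := ih (fun k hk => hx k (Finset.mem_insert_of_mem hk))
    have hsum : ∑ k ∈ insert i s, x k = x i + ∑ k ∈ s, x k := Finset.sum_insert hi
    have hm : ∑ k ∈ insert i s, x k ∈ R := by rw [hsum]; exact R.add_mem hmi hms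
    refine ⟨hm, ?_⟩
    have : (⟨∑ k ∈ insert i s, x k, hm⟩ : ↥R) = ⟨x i, hmi⟩ + ⟨∑ k ∈ s, x k, hms⟩ :=
      Subtype.ext hsum
    rw [this, map_add, hρi, hρs, Finset.card_insert_of_notMem hi, succ_nsmul, add_comm]

/-! ### the main theorem -/

section Main

variable {h}

set_option maxHeartbeats 4000000 in
/-- **(LIFT), route Ω, modulo the inputs `Inputs h`.** -/
theorem lift_main_of_inputs (I : Inputs h)
    -- the lower level and the embedding `x(q) ↦ x(q^d)`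
    (M₀ : ℕ) [NeZero M₀] (d : ℕ) [NeZero d] (hdp : ¬ p ∣ d)
    (φ : ↥(Fbar M₀) →ₐ[Qbar] ↥(Fbar M')) (hfin : FiniteAlong Qbar φ)
    (hser : ∀ x : ↥(Fbar M₀), ((φ x : ↥(Fbar M')) : LaurentSeries Qbar) =
      qExpand Qbar d ((x : ↥(Fbar M₀)) : LaurentSeries Qbar))
    -- the group
    (Γ : Subgroup (↥(Fbar M') ≃ₐ[Qbar] ↥(Fbar M'))) [Finite Γ] (hcard : ¬ p ∣ Nat.card Γ)
    (hfix : ∀ f : ↥(Fbar M'), (∀ g ∈ Γ, g f = f) →
      ∃ c : LaurentSeries Qbar, c ∈ Fbar M₀ ∧ (f : LaurentSeries Qbar) = qExpand Qbar d c)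
    (hφΓ : ∀ g ∈ Γ, ∀ a₀ : ↥(Fbar M₀), g (φ a₀) = φ a₀)
    -- the eigenclass
    (y : Pic0.torsion (Setup8.kA A) (Fb A M') p) (hy0 : y ≠ 0)
    (hred : ∀ g ∈ Γ, ∃ gb : Fb A M' ≃ₐ[Setup8.kA A] Fb A M',
      (∀ (a : ↥(Fbar M')) (ha : a ∈ Ov0 h), ∃ hga : g a ∈ Ov0 h,
        rho0 h ⟨g a, hga⟩ = gb (rho0 h ⟨a, ha⟩)) ∧
      SemilinearAut.ofAlgAut gb • (y : JZeroC (Setup8.kA A) M') = (y : JZeroC (Setup8.kA A) M'))
    (Lset : Set ℕ) (hL : ∀ ℓ ∈ Lset, ℓ.Prime ∧ ℓ ≠ p ∧ ¬ ℓ ∣ M')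
    (hLM₀ : ∀ ℓ ∈ Lset, ¬ ℓ ∣ M₀) (hLd : ∀ ℓ ∈ Lset, ¬ ℓ ∣ d) (a : ℕ → ℤ)
    (heig : ∀ (l : ℕ) [NeZero l] (hl : l.Prime) (hlp : l ≠ p) (hlM : ¬ l ∣ M'), l ∈ Lset →
      heckeC h hl hlp hlM (y : JZeroC (Setup8.kA A) M') = a l • (y : JZeroC (Setup8.kA A) M')) :
    ∃ (f' : CuspForm (Gamma0 M₀) 2) (𝔪' : Ideal (integralClosure ℤ ℂ)),
      f'.IsNormalizedEigenform ∧ 𝔪'.IsMaximal ∧ (p : integralClosure ℤ ℂ) ∈ 𝔪' ∧
      ∀ ℓ ∈ Lset, ∃ c : integralClosure ℤ ℂ, (c : ℂ) = qCoeff ⇑f' ℓ ∧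
        c - ((a ℓ : ℤ) : integralClosure ℤ ℂ) ∈ 𝔪' := by
  classical
  haveI : Fact p.Prime := ⟨h.prime⟩
  haveI := charP_kA h
  haveI : IsAlgClosed (Setup8.kA A) := Fermat.Agent.U44.RRFb0.isAlgClosed_res A
  -- (1) `λ ≠ 0`
  have hlam0 : lamFb p M' (hconst h) y ≠ 0 := by
    intro h0
    exact hy0 (lamFb_injective p M' h.not_dvd (hconst h) (h0.trans (map_zero _).symm))
  -- (2) the regular differential of the special fibre
  haveI := isSeparable_x1 h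
  obtain ⟨hb, hbreg, hbval⟩ := exists_regular_lamFb p M' (isGen_x1 h) (hconst h) y
  -- (3) the lift
  obtain ⟨h', hm', hreg', hρ'⟩ := I.lift hb hbreg
  -- (4) the average
  haveI : Fintype Γ := Fintype.ofFinite Γ
  have hxj : IsGen Qbar (jF M') := HasCanDivInst.isGen M'
  have hDj : D Qbar ↥(Fbar M') (jF M') ≠ 0 := FF.D_ne_zero hxj
  set h'' : ↥(Fbar M') := avg Γ (jF M') h' with hh''
  have hinv : ∀ g ∈ Γ, DiffAut5.star (jF M') ((g : ↥(Fbar M') ≃ₐ[Qbar] ↥(Fbar M')) :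
      ↥(Fbar M') →ₐ[Qbar] ↥(Fbar M')) h'' = h'' := fun g hg => star_avg Γ hxj hDj g hg h'
  have hreg'' : ∀ w : Place Qbar ↥(Fbar M'),
      0 ≤ w.ordDifferential (h'' • D Qbar ↥(Fbar M') (jF M')) := regular_avg Γ hxj hDj hreg'
  -- (5) the reduction of the average
  have hstar : ∀ g ∈ (Finset.univ : Finset Γ), ∃ hm : DiffAut5.star (jF M')
      (((g : Γ) : ↥(Fbar M') ≃ₐ[Qbar] ↥(Fbar M')) : ↥(Fbar M') →ₐ[Qbar] ↥(Fbar M')) h' ∈ Ov0 h,
      rho0 h ⟨_, hm⟩ = hb := by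
    intro g _
    obtain ⟨gb, hgb, hgy⟩ := hred g g.2
    exact star_red I y hbval hm' hρ' g gb hgb hgy
  obtain ⟨hSm, hSρ⟩ := sum_mem_map (Ov0 h) (rho0 h) Finset.univ
    (fun g : Γ => DiffAut5.star (jF M')
      (((g : Γ) : ↥(Fbar M') ≃ₐ[Qbar] ↥(Fbar M')) : ↥(Fbar M') →ₐ[Qbar] ↥(Fbar M')) h') hb hstar
  rw [Finset.card_univ] at hSρ
  haveI : NeZero (Fintype.card Γ) := ⟨Fintype.card_ne_zero⟩
  have hcard' : ¬ p ∣ Fintype.card Γ := by rwa [← Nat.card_eq_fintype_card]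
  obtain ⟨u, hu, hures⟩ := exists_inv_natCast (Fintype.card Γ) hcard' (A := A) (p := p)
  obtain ⟨hum, huρ⟩ := rho0_const h u
  have hu' : ((Fintype.card Γ : ℕ) : Qbar)⁻¹ = (u : Qbar) := (eq_inv_of_mul_eq_one_left hu).symm
  have hh''eq : h'' = algebraMap Qbar ↥(Fbar M') (u : Qbar) *
      ∑ g : Γ, DiffAut5.star (jF M')
        (((g : Γ) : ↥(Fbar M') ≃ₐ[Qbar] ↥(Fbar M')) : ↥(Fbar M') →ₐ[Qbar] ↥(Fbar M')) h' := by
    rw [hh'', avg, hu']
  have hm'' : h'' ∈ Ov0 h := by rw [hh''eq]; exact (Ov0 h).mul_mem hum hSm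
  have hρ'' : rho0 h ⟨h'', hm''⟩ = hb := by
    have e1 : (⟨h'', hm''⟩ : ↥(Ov0 h)) = ⟨_, hum⟩ * ⟨_, hSm⟩ := Subtype.ext hh''eq
    rw [e1, map_mul, huρ, hSρ, hures, nsmul_eq_mul, ← mul_assoc]
    have e2 : algebraMap (Setup8.kA A) (Fb A M') (((Fintype.card Γ : ℕ) : Setup8.kA A)⁻¹) *
        ((Fintype.card Γ : ℕ) : Fb A M') = 1 := by
      rw [← map_natCast (algebraMap (Setup8.kA A) (Fb A M')), ← map_mul,
        inv_mul_cancel₀ (natCast_residue_ne_zero (Fintype.card Γ) hcard'), map_one]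
    rw [e2, one_mul]
  -- (6) integrality
  obtain ⟨Y, hY1, hY2, hYneg⟩ := I.int h'' hm'' hreg''
  rw [hρ''] at hY2
  -- (7) descent
  have hx₀ : IsGen Qbar (jF M₀) := HasCanDivInst.isGen M₀
  have hfix' : ∀ f : ↥(Fbar M'),
      (∀ g ∈ (Γ : Set (↥(Fbar M') ≃ₐ[Qbar] ↥(Fbar M'))), g f = f) → f ∈ φ.range := by
    intro f hf
    obtain ⟨c, hc, hfc⟩ := hfix f hf
    refine ⟨⟨c, hc⟩, Subtype.ext ?_⟩
    show ((φ ⟨c, hc⟩ : ↥(Fbar M')) : LaurentSeries Qbar) = _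
    rw [hser, hfc]
  have hd0 : ((d : ℕ) : LaurentSeries Qbar) ≠ 0 := by
    have hN : ((d : ℕ) : LaurentSeries Qbar) = HahnSeries.C ((d : ℕ) : Qbar) := by simp
    rw [hN]
    intro h0
    have h1 : ((d : ℕ) : Qbar) = 0 := HahnSeries.C_injective (h0.trans (map_zero _).symm)
    exact NeZero.ne d (by exact_mod_cast h1)
  have hθj0 : theta (jqModC Qbar) ≠ 0 := Fermat.Agent.U44.RegRed8.theta_jqModC_ne_zero Qbar
  have hz : D Qbar ↥(Fbar M') (φ (jF M₀)) ≠ 0 := by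
    apply D_ne_zero_of_theta_ne_zero (Fbar M').val (isDer_theta Qbar)
    show theta ((φ (jF M₀) : ↥(Fbar M')) : LaurentSeries Qbar) ≠ 0
    rw [hser, Fermat.Agent.U44.RegRed8.coe_jF_eq_jqModC, theta_qExpand]
    exact mul_ne_zero hd0 ((map_ne_zero (qExpand Qbar d)).mpr hθj0)
  obtain ⟨h₀, hreg₀, heq₀⟩ := exists_descent hxj hx₀ hDj φ hfin
    (Γ : Set (↥(Fbar M') ≃ₐ[Qbar] ↥(Fbar M'))) hfix' hφΓ hz hinv hreg''
  -- (8) the cusp form
  obtain ⟨f₀, hf₀, -⟩ := Fermat.Agent.S20.Low.exists_cuspForm_of_regular_full M₀ h₀ hreg₀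
  -- the series identity
  have hser2 := series_of_smul_D_eq (Fbar M').val (isDer_theta Qbar) heq₀
  have hser3 : ((φ h₀ : ↥(Fbar M')) : LaurentSeries Qbar) *
      theta ((φ (jF M₀) : ↥(Fbar M')) : LaurentSeries Qbar) =
      (h'' : LaurentSeries Qbar) * theta ((jF M' : ↥(Fbar M')) : LaurentSeries Qbar) := hser2
  rw [hser, hser, Fermat.Agent.U44.RegRed8.coe_jF_eq_jqModC,
    Fermat.Agent.U44.RegRed8.coe_jF_eq_jqModC, theta_qExpand] at hser3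
  have hYS : coeffMap A.subtype Y = ((d : ℕ) : LaurentSeries Qbar) *
      qExpand Qbar d ((h₀ : LaurentSeries Qbar) * Fermat.Agent.S20.LowDJ.thetaJ) := by
    rw [← hY1, ← hser3, Fermat.Agent.U44.RegLiftAux8.thetaJ_eq_theta, map_mul]
    ring
  have hlamY : coeffMap (Setup8.resA A) Y = lamFb p M' (hconst h) y := by rw [← hY2, hbval]
  refine exists_eigenform_of_series h.prime d hdp Y _ hYS hYneg (by rw [hlamY]; exact hlam0) f₀ hf₀
    Lset (fun ℓ hℓ => ⟨(hL ℓ hℓ).1, hLM₀ ℓ hℓ⟩) hLd a ?_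
  intro ℓ hℓ
  rw [hlamY]
  haveI : NeZero ℓ := ⟨(hL ℓ hℓ).1.ne_zero⟩
  exact Tf_lamFb_of_eigen h (hL ℓ hℓ).1 (hL ℓ hℓ).2.1 (hL ℓ hℓ).2.2 (a ℓ) y
    (heig ℓ (hL ℓ hℓ).1 (hL ℓ hℓ).2.1 (hL ℓ hℓ).2.2 hℓ)

end Main

end Fermat.Agent.U44.LiftMain5
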