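/-
Programme U44 (target S44), chapter (LIFT), block Om-C4 (helper8): the three statements of
`U44/RegLiftInst8` **in the `Ov0 h` / `rho0 h` vocabulary**, in the binder shapes asked for by the
assembly (helper5, board 560), together with the two small facts `j ∈ Ov0`, `ρ₀ j = j̃` and
`A ⊆ Ov0`, `ρ₀ c = c̄`.

`h : LevelHyp p M' A`, `F' = Fbar M'`, `Fb = Fb A M'`, `κ = kA A`, `j = jF M'`,
`j̃ = DlogReg5.jb M'` (defeq to `RegRed8.jb A M'`).
-/
import Mathlib
import Fermat.Agent.U44.RegLiftInst8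
import Fermat.Agent.U44.DlogReg5

set_option autoImplicit false
set_option synthInstance.maxHeartbeats 400000
set_option linter.style.haveILetI false
set_option linter.unusedSectionVars false

noncomputable section

open AlgebraicCurve ModularCurve IntermediateField HahnSeries KaehlerDifferential Module

namespace Fermat.Agent.U44.RegLiftOv8

open Fermat.Agent.X0 Fermat.Agent.X0.FF Fermat.Agent.RED.Interface4
  Fermat.Agent.ES.RED Fermat.Agent.ES.RED.Contract8 Fermat.Agent.FF.RedIface9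
  Fermat.Agent.FF.RedGauss9 Fermat.Agent.FF.RedDiv9
  Fermat.Agent.IG.PR.Theta20 Fermat.Agent.U44.RegRed8 Fermat.Agent.U44.RegLift8
  Fermat.Agent.RED.TOP Fermat.Agent.T33.NodalHalf4 Fermat.Agent.T33.FrickeRed3

variable {p M' : ℕ} [NeZero M'] [NeZero p] {A : ValuationSubring Qbar} (h : LevelHyp p M' A)

/-! ### `j` and the constants -/

theorem jF_mem_gaussA (A : ValuationSubring Qbar) (M' : ℕ) [NeZero M'] :
    jF M' ∈ Setup8.gaussA A (Fbar M') :=
  ⟨jqModC ↥A, by rw [coeffMap_jqModC, coe_jF_eq_jqModC]⟩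

theorem redA_jF (A : ValuationSubring Qbar) (M' : ℕ) [NeZero M'] :
    Setup8.redA A (Fbar M') ⟨jF M', jF_mem_gaussA A M'⟩ = jqModC (kA A) := by
  rw [Setup8.redA_eq A (Fbar M') _ (Y := jqModC ↥A)
    (by rw [coeffMap_jqModC, coe_jF_eq_jqModC]), coeffMap_jqModC]

include h in
theorem jF_mem_Ov0 : jF M' ∈ Ov0 h := gaussA_mem_Ov0 h ⟨_, jF_mem_gaussA A M'⟩

/-- **`ρ₀ j = j̃`.** -/
theorem rho0_jF :
    rho0 h ⟨jF M', jF_mem_Ov0 h⟩ = Fermat.Agent.U44.DlogReg5.jb (κ := kA A) M' := by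
  apply Subtype.ext
  rw [coe_rho0_gaussA h ⟨_, jF_mem_gaussA A M'⟩, redA_jF]
  rfl

theorem rho0_jF' : rho0 h ⟨jF M', jF_mem_Ov0 h⟩ = jb A M' := rho0_jF h

include h in
theorem const_mem_Ov0 (c : ↥A) : algebraMap Qbar ↥(Fbar M') (c : Qbar) ∈ Ov0 h :=
  gaussA_mem_Ov0 h ⟨_, Setup8.algebraMap_mem_gaussA A (Fbar M') c⟩

/-- **`ρ₀ c = c̄`** for `c ∈ A`. -/
theorem rho0_const (c : ↥A) :
    rho0 h ⟨algebraMap Qbar ↥(Fbar M') (c : Qbar), const_mem_Ov0 h c⟩ =
      algebraMap (kA A) (Fb A M') (Setup8.resA A c) := by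
  apply Subtype.ext
  rw [coe_rho0_gaussA h ⟨_, Setup8.algebraMap_mem_gaussA A (Fbar M') c⟩,
    Setup8.redA_algebraMap]
  rfl

/-! ### (C4-a), (C4-b), (C4-c) -/

/-- **(C4-a)** in `Ov0`/`rho0` vocabulary. -/
theorem regular_red (h' : ↥(Fbar M')) (hm : h' ∈ Ov0 h)
    (hreg : ∀ P : Place Qbar ↥(Fbar M'),
      0 ≤ P.ordDifferential (h' • D Qbar ↥(Fbar M') (jF M')))
    (Pb : Place (kA A) (Fb A M')) :
    0 ≤ Pb.ordDifferential (rho0 h ⟨h', hm⟩ •
      D (kA A) (Fb A M') (Fermat.Agent.U44.DlogReg5.jb (κ := kA A) M')) :=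
  RegLiftInst8.regular_rho0 h ⟨h', hm⟩ hreg Pb

/-- **(C4-b)** in `Ov0`/`rho0` vocabulary: every regular differential `h̃ dj̃` of the special fibre
is the reduction of a regular differential `h' dj`, `h' ∈ Ov0`. -/
theorem exists_lift_regular (hb : Fb A M')
    (hreg : ∀ Pb : Place (kA A) (Fb A M'),
      0 ≤ Pb.ordDifferential
        (hb • D (kA A) (Fb A M') (Fermat.Agent.U44.DlogReg5.jb (κ := kA A) M'))) :
    ∃ (h' : ↥(Fbar M')) (hm : h' ∈ Ov0 h),
      (∀ P : Place Qbar ↥(Fbar M'),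
        0 ≤ P.ordDifferential (h' • D Qbar ↥(Fbar M') (jF M'))) ∧
      rho0 h ⟨h', hm⟩ = hb := by
  obtain ⟨y, Y, hr, hred, -, -, -⟩ := RegLiftInst8.exists_lift_regular_rho0 h hb hreg
  exact ⟨(y : ↥(Fbar M')), y.2, hr, hred⟩

/-- **(C4-c) = (SAT)** in `Ov0`/`rho0` vocabulary: a regular differential `h'' dj` with
`h'' ∈ Ov0` has an `A`-integral `q`-expansion (against `θ j`), without polar part, reducing
coefficientwise to the expansion of `ρ₀(h'') dj̃`. -/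
theorem integral_of_regular (h'' : ↥(Fbar M')) (hm : h'' ∈ Ov0 h)
    (hreg : ∀ P : Place Qbar ↥(Fbar M'),
      0 ≤ P.ordDifferential (h'' • D Qbar ↥(Fbar M') (jF M'))) :
    ∃ Y : LaurentSeries ↥A,
      (h'' : LaurentSeries Qbar) * theta (jqModC Qbar) = coeffMap A.subtype Y ∧
      ((rho0 h ⟨h'', hm⟩ : Fb A M') : LaurentSeries (kA A)) * theta (jqModC (kA A)) =
        coeffMap (Setup8.resA A) Y ∧
      ∀ k : ℤ, k < 0 → Y.coeff k = 0 :=
  RegLiftInst8.integral_of_regular_rho0 h ⟨h'', hm⟩ hreg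

end Fermat.Agent.U44.RegLiftOv8
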