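/-
Programme U44 (target S44), chapter (LIFT) COMPLETE (helper5): **the hypothesis-free statements.**

`h : LevelHyp p M' A` (Haupt-level `M'`, `4 ∣ M'`, `p ∤ M'`, `A` over `p`), `κ = kA A`.

* `inputs h : LiftMain5.Inputs h` : the three reduction inputs (helper8's `RegLiftOv8`, helper3's
  `DerRed3`);
* `lift_main` : `LiftMain5.lift_main_of_inputs` without the hypothesis `Inputs h`;
* **`lift_E`** (case E, `Γ = {1, τ'}`, `d = 1`): a nonzero `T̄_ℓ`-eigenclass of `Pic⁰(Fb A M')[p]`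
  fixed by `τ̄'` gives a normalised eigenform of level `M' / 2` with congruent eigenvalues;
* **`lift_O`** (case O, `Γ = ⟨τ, τ'⟩` of order `6`, `d = 2`, `M' / 4` odd, `p ≠ 3`): an eigenclass
  fixed by `τ̄` and `τ̄'` gives a normalised eigenform of level `M' / 4`.
-/
import Mathlib
import Fermat.Agent.U44.LiftMain5
import Fermat.Agent.U44.RegLiftOv8
import Fermat.Agent.U44.DerRed3
import Fermat.Agent.U44.GammaPack0

set_option autoImplicit false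
set_option linter.unusedSectionVars false
set_option linter.style.haveILetI false
set_option linter.unusedVariables false
set_option synthInstance.maxHeartbeats 400000

noncomputable section

namespace Fermat.Agent.U44.LiftFinal5

open HahnSeries ModularCurve IntermediateField IsLocalRing AlgebraicCurve Module
  KaehlerDifferential CuspForm CongruenceSubgroup ModularFormClass
open Fermat.Agent.RED.Interface4 Fermat.Agent.ES.RED
  Fermat.Agent.T33.NodalCtx1 Fermat.Agent.T33.NodalHalf4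
  Fermat.Agent.T33.FrickeRed3 Fermat.Agent.U44.HeckeC4
  Fermat.Agent.U44.LiftMain5 Fermat.Agent.U44.GammaPack0 Fermat.Agent.U44.GammaSix0
  Fermat.Agent.U44.GammaGauss2 Fermat.Agent.U44.GammaLevel2
  Fermat.Agent.X0 Fermat.Agent.X0.FF

variable {p M' : ℕ} [NeZero M'] [NeZero p] {A : ValuationSubring Qbar} (h : LevelHyp p M' A)

/-- shortcut instance. -/
local instance (priority := high) algebraKFbF (M : ℕ) [NeZero M] :
    Algebra (ResidueField ↥A) (Fb A M) := inferInstance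

/-- **the reduction inputs of (LIFT)**, from `RegLiftOv8` (Om-C, SAT) and `DerRed3` (DER-RED). -/
theorem inputs : Inputs h where
  lift := Fermat.Agent.U44.RegLiftOv8.exists_lift_regular h
  int := Fermat.Agent.U44.RegLiftOv8.integral_of_regular h
  dc := fun a ha => by
    obtain ⟨a', haa'⟩ := Fermat.Agent.U44.DerRed3.exists_dcoef (M' := M') a
    exact ⟨a', Fermat.Agent.U44.DerRed3.dc_mem_Ov0 h ha haa', haa',
      Fermat.Agent.U44.DerRed3.theta_rho0 h ha haa'⟩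

/-- **(LIFT), route Ω**, for a general deck-group package. -/
theorem lift_main
    (M₀ : ℕ) [NeZero M₀] (d : ℕ) [NeZero d] (hdp : ¬ p ∣ d)
    (φ : ↥(Fbar M₀) →ₐ[Qbar] ↥(Fbar M')) (hfin : FiniteAlong Qbar φ)
    (hser : ∀ x : ↥(Fbar M₀), ((φ x : ↥(Fbar M')) : LaurentSeries Qbar) =
      qExpand Qbar d ((x : ↥(Fbar M₀)) : LaurentSeries Qbar))
    (Γ : Subgroup (↥(Fbar M') ≃ₐ[Qbar] ↥(Fbar M'))) [Finite Γ] (hcard : ¬ p ∣ Nat.card Γ)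
    (hfix : ∀ f : ↥(Fbar M'), (∀ g ∈ Γ, g f = f) → f ∈ φ.range)
    (hφΓ : ∀ g ∈ Γ, ∀ a₀ : ↥(Fbar M₀), g (φ a₀) = φ a₀)
    (y : Pic0.torsion (Setup8.kA A) (Fb A M') p) (hy0 : y ≠ 0)
    (hred : ∀ g ∈ Γ, ∃ gb : Fb A M' ≃ₐ[Setup8.kA A] Fb A M',
      RedAut h g gb ∧
      SemilinearAut.ofAlgAut gb • (y : JZeroC (Setup8.kA A) M') = (y : JZeroC (Setup8.kA A) M'))
    (Lset : Set ℕ) (hL : ∀ ℓ ∈ Lset, ℓ.Prime ∧ ℓ ≠ p ∧ ¬ ℓ ∣ M')
    (hLM₀ : ∀ ℓ ∈ Lset, ¬ ℓ ∣ M₀) (hLd : ∀ ℓ ∈ Lset, ¬ ℓ ∣ d) (a : ℕ → ℤ)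
    (heig : ∀ (l : ℕ) [NeZero l] (hl : l.Prime) (hlp : l ≠ p) (hlM : ¬ l ∣ M'), l ∈ Lset →
      heckeC h hl hlp hlM (y : JZeroC (Setup8.kA A) M') = a l • (y : JZeroC (Setup8.kA A) M')) :
    ∃ (f' : CuspForm (Gamma0 M₀) 2) (𝔪' : Ideal (integralClosure ℤ ℂ)),
      f'.IsNormalizedEigenform ∧ 𝔪'.IsMaximal ∧ (p : integralClosure ℤ ℂ) ∈ 𝔪' ∧
      ∀ ℓ ∈ Lset, ∃ c : integralClosure ℤ ℂ, (c : ℂ) = qCoeff ⇑f' ℓ ∧
        c - ((a ℓ : ℤ) : integralClosure ℤ ℂ) ∈ 𝔪' := by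
  refine lift_main_of_inputs (inputs h) M₀ d hdp φ hfin hser Γ hcard ?_ hφΓ y hy0 hred Lset hL
    hLM₀ hLd a heig
  intro f hf
  obtain ⟨x, hx⟩ := hfix f hf
  refine ⟨(x : LaurentSeries Qbar), x.2, ?_⟩
  rw [← hser x]
  exact congrArg (fun z : ↥(Fbar M') => (z : LaurentSeries Qbar)) hx.symm

include h in
theorem not_dvd_two : ¬ p ∣ 2 := by
  intro hd
  exact h.ne_two ((Nat.prime_dvd_prime_iff_eq h.prime Nat.prime_two).1 hd)

/-- **(LIFT), case E**: `Γ = {1, τ'}`, lower level `M' / 2`. -/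
theorem lift_E [NeZero (M' / 2)]
    (y : Pic0.torsion (Setup8.kA A) (Fb A M') p) (hy0 : y ≠ 0)
    (hy' : SemilinearAut.ofAlgAut (tauB' h) • (y : JZeroC (Setup8.kA A) M') =
      (y : JZeroC (Setup8.kA A) M'))
    (Lset : Set ℕ) (hL : ∀ ℓ ∈ Lset, ℓ.Prime ∧ ℓ ≠ p ∧ ¬ ℓ ∣ M') (a : ℕ → ℤ)
    (heig : ∀ (l : ℕ) [NeZero l] (hl : l.Prime) (hlp : l ≠ p) (hlM : ¬ l ∣ M'), l ∈ Lset →
      heckeC h hl hlp hlM (y : JZeroC (Setup8.kA A) M') = a l • (y : JZeroC (Setup8.kA A) M')) :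
    ∃ (f' : CuspForm (Gamma0 (M' / 2)) 2) (𝔪' : Ideal (integralClosure ℤ ℂ)),
      f'.IsNormalizedEigenform ∧ 𝔪'.IsMaximal ∧ (p : integralClosure ℤ ℂ) ∈ 𝔪' ∧
      ∀ ℓ ∈ Lset, ∃ c : integralClosure ℤ ℂ, (c : ℂ) = qCoeff ⇑f' ℓ ∧
        c - ((a ℓ : ℤ) : integralClosure ℤ ℂ) ∈ 𝔪' := by
  haveI : Finite (Gam2 M' h.four_dvd) := finite_Gam2 M' h.four_dvd
  refine lift_main h (M' / 2) 1 (fun hd => h.prime.one_lt.ne' (Nat.dvd_one.1 hd))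
    (phiE M' h.four_dvd) (finiteAlong_phiE M' h.four_dvd) (coe_phiE M' h.four_dvd)
    (Gam2 M' h.four_dvd) ?_ (fix_phiE M' h.four_dvd) (gam_phiE M' h.four_dvd) y hy0
    (hred_E h (y : JZeroC (Setup8.kA A) M') hy') Lset hL ?_ ?_ a heig
  · rw [card_Gam2 M' h.four_dvd]
    exact not_dvd_two h
  · intro ℓ hℓ hd
    exact (hL ℓ hℓ).2.2 (dvd_trans hd (half_dvd M' h.four_dvd))
  · intro ℓ hℓ hd
    exact (hL ℓ hℓ).1.one_lt.ne' (Nat.dvd_one.1 hd)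

/-- **(LIFT), case O**: `Γ = ⟨τ, τ'⟩` of order `6`, lower level `M' / 4` (odd), `x(q) ↦ x(q²)`. -/
theorem lift_O [NeZero (M' / 4)] (hodd : ¬ 2 ∣ M' / 4) (hp3 : p ≠ 3)
    (y : Pic0.torsion (Setup8.kA A) (Fb A M') p) (hy0 : y ≠ 0)
    (hy : SemilinearAut.ofAlgAut (tauB h) • (y : JZeroC (Setup8.kA A) M') =
      (y : JZeroC (Setup8.kA A) M'))
    (hy' : SemilinearAut.ofAlgAut (tauB' h) • (y : JZeroC (Setup8.kA A) M') =
      (y : JZeroC (Setup8.kA A) M'))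
    (Lset : Set ℕ) (hL : ∀ ℓ ∈ Lset, ℓ.Prime ∧ ℓ ≠ p ∧ ¬ ℓ ∣ M') (a : ℕ → ℤ)
    (heig : ∀ (l : ℕ) [NeZero l] (hl : l.Prime) (hlp : l ≠ p) (hlM : ¬ l ∣ M'), l ∈ Lset →
      heckeC h hl hlp hlM (y : JZeroC (Setup8.kA A) M') = a l • (y : JZeroC (Setup8.kA A) M')) :
    ∃ (f' : CuspForm (Gamma0 (M' / 4)) 2) (𝔪' : Ideal (integralClosure ℤ ℂ)),
      f'.IsNormalizedEigenform ∧ 𝔪'.IsMaximal ∧ (p : integralClosure ℤ ℂ) ∈ 𝔪' ∧
      ∀ ℓ ∈ Lset, ∃ c : integralClosure ℤ ℂ, (c : ℂ) = qCoeff ⇑f' ℓ ∧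
        c - ((a ℓ : ℤ) : integralClosure ℤ ℂ) ∈ 𝔪' := by
  haveI : Finite (Gam6 M' h.four_dvd) := finite_Gam6 M' h.four_dvd hodd
  have hquarter : M' / 4 ∣ M' := Nat.div_dvd_of_dvd h.four_dvd
  refine lift_main h (M' / 4) 2 (not_dvd_two h)
    (phiO M' h.four_dvd) (finiteAlong_phiO M' h.four_dvd hodd) (coe_phiO M' h.four_dvd)
    (Gam6 M' h.four_dvd) ?_ (fix_phiO M' h.four_dvd hodd) (gam_phiO M' h.four_dvd hodd) y hy0
    (hred_O h (y : JZeroC (Setup8.kA A) M') hy hy') Lset hL ?_ ?_ a heig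
  · rw [card_Gam6 M' h.four_dvd hodd]
    intro hd
    have h6 : (6 : ℕ) = 2 * 3 := by norm_num
    rw [h6] at hd
    rcases (Nat.Prime.dvd_mul h.prime).1 hd with h2 | h3
    · exact not_dvd_two h h2
    · exact hp3 ((Nat.prime_dvd_prime_iff_eq h.prime Nat.prime_three).1 h3)
  · intro ℓ hℓ hd
    exact (hL ℓ hℓ).2.2 (dvd_trans hd hquarter)
  · intro ℓ hℓ hd
    exact (hL ℓ hℓ).2.2 (dvd_trans hd (dvd_trans (by norm_num) h.four_dvd))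

end Fermat.Agent.U44.LiftFinal5
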