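/-
Programme U44 (target S44), chapter (LIFT) → (WIRE) adapter (helper5): **`Wire7.ResModAway` from an
invariant eigenclass of the special fibre.**

`h : LevelHyp p M' A`; `y : JZeroC κ M'` nonzero, killed by `p`, with `T̄_ℓ y = a_ℓ(W) y` for
`ℓ ∈ G` (the literal output of `EtaleHecke4.exists_eigen`), fixed by `τ̄'` (case E) resp. by `τ̄`
and `τ̄'` (case O).  Conclusion: `Wire7.ResModAway W p M₀ G` with `M₀ = M' / 2` resp. `M' / 4`
(the level equality is an explicit hypothesis `e`, eliminated by `subst`).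
-/
import Mathlib
import Fermat.Agent.U44.LiftFinal5
import Fermat.Agent.U44.Wire7

set_option autoImplicit false
set_option linter.unusedSectionVars false
set_option linter.style.haveILetI false
set_option linter.unusedVariables false
set_option synthInstance.maxHeartbeats 400000

noncomputable section

namespace Fermat.Agent.U44.LiftWire5

open HahnSeries ModularCurve IntermediateField IsLocalRing AlgebraicCurve Module
  CuspForm CongruenceSubgroup ModularFormClass
open Fermat.Agent.RED.Interface4 Fermat.Agent.ES.RED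
  Fermat.Agent.T33.NodalCtx1 Fermat.Agent.T33.NodalHalf4
  Fermat.Agent.T33.FrickeRed3 Fermat.Agent.U44.HeckeC4
  Fermat.Agent.U44.LiftFinal5 Fermat.Agent.U44.GammaGauss2 Fermat.Agent.U44.Wire7

variable {p M' : ℕ} [NeZero M'] [NeZero p] {A : ValuationSubring Qbar} (h : LevelHyp p M' A)

/-- shortcut instance. -/
local instance (priority := high) algebraKFbW (M : ℕ) [NeZero M] :
    Algebra (ResidueField ↥A) (Fb A M) := inferInstance

/-- a class killed by `p`, as an element of the `p`-torsion. -/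
def toTors (y : JZeroC (Setup8.kA A) M') (hpy : p • y = 0) :
    Pic0.torsion (Setup8.kA A) (Fb A M') p :=
  ⟨y, Pic0.mem_torsion.2 (by rw [natCast_zsmul]; exact hpy)⟩

/-- **(LIFT) ⟹ `ResModAway`, case E** (`M₀ = M' / 2`). -/
theorem resModAway_E {M₀ : ℕ} [NeZero M₀] (e : M' / 2 = M₀) (W : WeierstrassCurve ℤ)
    (G : Set ℕ) (hG : ∀ ℓ ∈ G, ℓ.Prime ∧ ℓ ≠ p ∧ ¬ ℓ ∣ M')
    (y : JZeroC (Setup8.kA A) M') (hy0 : y ≠ 0) (hpy : p • y = 0)
    (hy' : SemilinearAut.ofAlgAut (tauB' h) • y = y)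
    (heig : ∀ (l : ℕ) [NeZero l] (hl : l.Prime) (hlp : l ≠ p) (hlM : ¬ l ∣ M'), l ∈ G →
      heckeC h hl hlp hlM y = W.apOfModel l • y) :
    ResModAway W p M₀ G := by
  subst e
  exact lift_E h (toTors y hpy) (fun h0 => hy0 (congrArg Subtype.val h0)) hy' G hG
    (fun l => W.apOfModel l) heig

/-- **(LIFT) ⟹ `ResModAway`, case O** (`M₀ = M' / 4` odd, `p ≠ 3`). -/
theorem resModAway_O {M₀ : ℕ} [NeZero M₀] (e : M' / 4 = M₀) (hodd : ¬ 2 ∣ M₀) (hp3 : p ≠ 3)
    (W : WeierstrassCurve ℤ)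
    (G : Set ℕ) (hG : ∀ ℓ ∈ G, ℓ.Prime ∧ ℓ ≠ p ∧ ¬ ℓ ∣ M')
    (y : JZeroC (Setup8.kA A) M') (hy0 : y ≠ 0) (hpy : p • y = 0)
    (hy : SemilinearAut.ofAlgAut (tauB h) • y = y)
    (hy' : SemilinearAut.ofAlgAut (tauB' h) • y = y)
    (heig : ∀ (l : ℕ) [NeZero l] (hl : l.Prime) (hlp : l ≠ p) (hlM : ¬ l ∣ M'), l ∈ G →
      heckeC h hl hlp hlM y = W.apOfModel l • y) :
    ResModAway W p M₀ G := by
  subst e
  exact lift_O h hodd hp3 (toTors y hpy) (fun h0 => hy0 (congrArg Subtype.val h0)) hy hy' G hG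
    (fun l => W.apOfModel l) heig

end Fermat.Agent.U44.LiftWire5
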