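/-
Programme U44 (target S44), (LIFT) → (WIRE) adapter, helper7's binder shapes (helper5).

`resModAway_E`, `resModAway_O` of `LiftWire5` with the binders in the order announced by helper7
(message 586): `h W M₀ e hM₀ … y hy0 hpy [hy] hy' G hG heig`.
-/
import Mathlib
import Fermat.Agent.U44.LiftWire5

set_option autoImplicit false
set_option linter.unusedSectionVars false
set_option linter.style.haveILetI false
set_option linter.unusedVariables false
set_option synthInstance.maxHeartbeats 400000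

noncomputable section

namespace Fermat.Agent.U44.LiftWireB5

open ModularCurve IsLocalRing AlgebraicCurve
open Fermat.Agent.RED.Interface4 Fermat.Agent.ES.RED
  Fermat.Agent.T33.NodalCtx1 Fermat.Agent.T33.NodalHalf4
  Fermat.Agent.T33.FrickeRed3 Fermat.Agent.U44.HeckeC4
  Fermat.Agent.U44.GammaGauss2 Fermat.Agent.U44.Wire7

variable {p M' : ℕ} [NeZero M'] [NeZero p] {A : ValuationSubring Qbar} (h : LevelHyp p M' A)

/-- shortcut instance. -/
local instance (priority := high) algebraKFbWB (M : ℕ) [NeZero M] :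
    Algebra (ResidueField ↥A) (Fb A M) := inferInstance

/-- **(LIFT) ⟹ `ResModAway`, case E**, helper7's shape. -/
theorem resModAway_E (W : WeierstrassCurve ℤ) (M₀ : ℕ) (e : M' / 2 = M₀) (hM₀ : M₀ ≠ 0)
    (y : JZeroC (Setup8.kA A) M') (hy0 : y ≠ 0) (hpy : p • y = 0)
    (hy' : SemilinearAut.ofAlgAut (tauB' h) • y = y)
    (G : Set ℕ) (hG : ∀ ℓ ∈ G, ℓ.Prime ∧ ℓ ≠ p ∧ ¬ ℓ ∣ M')
    (heig : ∀ (l : ℕ) [NeZero l] (hl : l.Prime) (hlp : l ≠ p) (hlM : ¬ l ∣ M'), l ∈ G →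
      heckeC h hl hlp hlM y = W.apOfModel l • y) :
    ResModAway W p M₀ G :=
  haveI : NeZero M₀ := ⟨hM₀⟩
  Fermat.Agent.U44.LiftWire5.resModAway_E h e W G hG y hy0 hpy hy' heig

/-- **(LIFT) ⟹ `ResModAway`, case O**, helper7's shape. -/
theorem resModAway_O (W : WeierstrassCurve ℤ) (M₀ : ℕ) (e : M' / 4 = M₀) (hM₀ : M₀ ≠ 0)
    (hodd : ¬ 2 ∣ M₀) (hp3 : p ≠ 3)
    (y : JZeroC (Setup8.kA A) M') (hy0 : y ≠ 0) (hpy : p • y = 0)
    (hy : SemilinearAut.ofAlgAut (tauB h) • y = y)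
    (hy' : SemilinearAut.ofAlgAut (tauB' h) • y = y)
    (G : Set ℕ) (hG : ∀ ℓ ∈ G, ℓ.Prime ∧ ℓ ≠ p ∧ ¬ ℓ ∣ M')
    (heig : ∀ (l : ℕ) [NeZero l] (hl : l.Prime) (hlp : l ≠ p) (hlM : ¬ l ∣ M'), l ∈ G →
      heckeC h hl hlp hlM y = W.apOfModel l • y) :
    ResModAway W p M₀ G :=
  haveI : NeZero M₀ := ⟨hM₀⟩
  Fermat.Agent.U44.LiftWire5.resModAway_O h e hodd hp3 W G hG y hy0 hpy hy hy' heig

end Fermat.Agent.U44.LiftWireB5
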