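/-
Programme U44 (S44), chapter (GAMMA), item (B1) / input (d) of the local assembly (helper1):
**pulled-back classes are fixed by the deck transformations.**

* `pic0PullbackAlong_fixed` (generic) : if a semilinear automorphism `g'` of `F'` fixes the image
  of `φ : F →ₐ[K] F'` pointwise, it fixes `φ^* x` for every `x ∈ Pic⁰(F)`
  (`PullbackInj12.pic0PullbackAlong_smul` with `g = 1`);
* level `M` with `4 ∣ M`, any `φ : Fbar N →ₐ Fbar M`:
  `tau'L_smul_pullback` (the series of the image lie in `Fbar (M/2)` ⟹ `τ'`-fixed),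
  `tauL_smul_pullback` (the series of the image are series in `q²` of elements of `Fbar (M/2)` ⟹
  `τ`-fixed);
* `tau'L_smul_levelPullback` : `π^* x` is `τ'_M`-fixed for `x ∈ J₀(N)`, `N ∣ M/2` (case E, and the
  second step of case O);
* `gam2_smul_pullback_phiE`, `gam6_smul_pullback_phiO` : for lead's `GammaPack0.phiE/phiO`, the
  pull-back is fixed by the whole group `Γ`.
-/
import Mathlib
import Fermat.Agent.U44.GammaPack0
import Fermat.Agent.ES.RED.PullbackInj12

set_option autoImplicit false
set_option linter.unusedSectionVars false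
set_option linter.style.haveILetI false
set_option linter.unusedVariables false

noncomputable section

open AlgebraicCurve ModularCurve

namespace Fermat.Agent.U44.PullFix1

open Fermat.Agent.ES.HECKE.LevelPullback12 Fermat.Agent.ES.RED.PullbackInj12

/-! ### generic -/

section Generic

variable {K F F' : Type*} [Field K] [Field F] [Field F'] [Algebra K F] [Algebra K F']
  [HasPrincipalDivisors K F']

/-- **a pulled-back class is fixed by every automorphism fixing the image of `φ`.** -/
theorem pic0PullbackAlong_fixed (φ : F →ₐ[K] F') (hφ : φ.toRingHom.IsIntegral)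
    (hFI : FundamentalIdentityAlong K φ hφ) (g' : SemilinearAut K F')
    (hfix : ∀ f : F, g' • φ f = φ f) (x : Pic0 K F) :
    g' • pic0PullbackAlong φ hφ hFI x = pic0PullbackAlong φ hφ hFI x := by
  have h := pic0PullbackAlong_smul φ hφ (1 : SemilinearAut K F) g' hFI
    (fun f => by rw [one_smul, hfix]) x
  rw [one_smul] at h
  exact h.symm

end Generic

/-! ### the deck transformations of level `M`, `4 ∣ M` -/

section Level

open HahnSeries IntermediateField
open Fermat.Agent.X0 Fermat.Agent.ES.KRON.KronCong24 Fermat.Agent.ES.N34.FrickeFK8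
  Fermat.Agent.U44.GammaTwist2 Fermat.Agent.U44.GammaLevel2 Fermat.Agent.U44.GammaSix0
  Fermat.Agent.U44.GammaPack0 Fermat.Agent.RED.Interface4

variable {N M : ℕ} [NeZero N] [NeZero M] (h4 : 4 ∣ M)

/-- `τ'` fixes `φ^* x` when the series of the image of `φ` lie in `Fbar (M/2)`. -/
theorem tau'L_smul_pullback :
    haveI := Fermat.Agent.RED.TOP.FbarFacts20.hasPrincipalDivisors_bar M
    haveI := neZero_half h4
    ∀ (φ : FF N →ₐ[Kbar] FF M) (hφ : φ.toRingHom.IsIntegral)
      (hFI : FundamentalIdentityAlong Kbar φ hφ)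
      (_ : ∀ f : FF N, ((φ f : FF M) : LaurentSeries Kbar) ∈ modularFunctionFieldBar (M / 2))
      (x : Pic0 Kbar (FF N)),
      SemilinearAut.ofAlgAut (tau'L M h4) • pic0PullbackAlong φ hφ hFI x =
        pic0PullbackAlong φ hφ hFI x := by
  haveI := Fermat.Agent.RED.TOP.FbarFacts20.hasPrincipalDivisors_bar M
  haveI := neZero_half h4
  intro φ hφ hFI hser x
  exact pic0PullbackAlong_fixed φ hφ hFI _
    (fun f => (tau'L_eq_self_iff M h4 (φ f)).2 (hser f)) x

/-- `τ` fixes `φ^* x` when the series of the image of `φ` are series in `q²` of elements of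
`Fbar (M/2)`. -/
theorem tauL_smul_pullback :
    haveI := Fermat.Agent.RED.TOP.FbarFacts20.hasPrincipalDivisors_bar M
    haveI := neZero_half h4
    ∀ (φ : FF N →ₐ[Kbar] FF M) (hφ : φ.toRingHom.IsIntegral)
      (hFI : FundamentalIdentityAlong Kbar φ hφ)
      (_ : ∀ f : FF N, ∃ c : LaurentSeries Kbar, c ∈ modularFunctionFieldBar (M / 2) ∧
        ((φ f : FF M) : LaurentSeries Kbar) = qExpand Kbar 2 c)
      (x : Pic0 Kbar (FF N)),
      SemilinearAut.ofAlgAut (tauL M h4) • pic0PullbackAlong φ hφ hFI x =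
        pic0PullbackAlong φ hφ hFI x := by
  haveI := Fermat.Agent.RED.TOP.FbarFacts20.hasPrincipalDivisors_bar M
  haveI := neZero_half h4
  intro φ hφ hFI hser x
  exact pic0PullbackAlong_fixed φ hφ hFI _
    (fun f => (tauL_eq_self_iff M h4 (φ f)).2 (hser f)) x

/-- **`π^* x` is `τ'_M`-fixed** for `x ∈ J₀(N)`, `N ∣ M/2`. -/
theorem tau'L_smul_levelPullback (hNM : N ∣ M) (h2 : N ∣ M / 2) (x : JZero N) :
    SemilinearAut.ofAlgAut (tau'L M h4) • levelPullback hNM x = levelPullback hNM x := by
  haveI := Fermat.Agent.RED.TOP.FbarFacts20.hasPrincipalDivisors_bar M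
  haveI := neZero_half h4
  refine tau'L_smul_pullback h4 (levelIncl hNM) (levelIncl_isIntegral hNM)
    (levelIncl_fundamentalIdentityAlong hNM) (fun f => ?_) x
  rw [coe_levelIncl]
  exact Fermat.Agent.RED.BASE.Interface12.fbar_mono h2 f.2

/-- **case E**: the pull-back along `phiE` is fixed by `Γ = {1, τ'}`. -/
theorem gam2_smul_pullback_phiE :
    haveI := Fermat.Agent.RED.TOP.FbarFacts20.hasPrincipalDivisors_bar M
    haveI := neZero_half h4
    ∀ (hφ : (phiE M h4).toRingHom.IsIntegral)
      (hFI : FundamentalIdentityAlong Kbar (phiE M h4) hφ)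
      (g : FF M ≃ₐ[Kbar] FF M) (_ : g ∈ Gam2 M h4) (x : Pic0 Kbar (FF (M / 2))),
      SemilinearAut.ofAlgAut g • pic0PullbackAlong (phiE M h4) hφ hFI x =
        pic0PullbackAlong (phiE M h4) hφ hFI x := by
  haveI := Fermat.Agent.RED.TOP.FbarFacts20.hasPrincipalDivisors_bar M
  haveI := neZero_half h4
  intro hφ hFI g hg x
  exact pic0PullbackAlong_fixed _ hφ hFI _ (fun f => gam_phiE M h4 g hg f) x

/-- **case O**: the pull-back along `phiO` (`q ↦ q²`) is fixed by `Γ = ⟨τ, τ'⟩`. -/
theorem gam6_smul_pullback_phiO [NeZero (M / 4)] (hodd : ¬ 2 ∣ M / 4) :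
    haveI := Fermat.Agent.RED.TOP.FbarFacts20.hasPrincipalDivisors_bar M
    ∀ (hφ : (phiO M h4).toRingHom.IsIntegral)
      (hFI : FundamentalIdentityAlong Kbar (phiO M h4) hφ)
      (g : FF M ≃ₐ[Kbar] FF M) (_ : g ∈ Gam6 M h4) (x : Pic0 Kbar (FF (M / 4))),
      SemilinearAut.ofAlgAut g • pic0PullbackAlong (phiO M h4) hφ hFI x =
        pic0PullbackAlong (phiO M h4) hφ hFI x := by
  haveI := Fermat.Agent.RED.TOP.FbarFacts20.hasPrincipalDivisors_bar M
  intro hφ hFI g hg x
  exact pic0PullbackAlong_fixed _ hφ hFI _ (fun f => gam_phiO M h4 hodd g hg f) x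

end Level

end Fermat.Agent.U44.PullFix1
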