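/-
Programme U44 (S44), chapter (GAMMA), input (d) of the local assembly, instances (helper1):
**the pulled-back Frey torsion is fixed by `τ'` (both cases) and by `τ` (case O)**, in the literal
shapes of helper7's `Pull7` / `PullTwo7` embeddings.

`M` a level with `4 ∣ M`.
* case E (`ι' = π^* ∘ ι`, `π : Fbar N → Fbar M`, `N ∣ M/2`): `tau'_smul_pullE`;
* case O (`ι' = π^* ∘ β₂^* ∘ ι`, `N` odd, `N * 2 ∣ M`, `N * 2 ∣ M/2`):
  `tau'_smul_pullO`, `tau_smul_pullO` (`PullTwo7.smul_pullO_of_fix` + `GammaSix0.tauL_eq_self_iff`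
  + `PullTwo7.coe_psiO`);
* `tau'_smul_iotaE`, `tau'_smul_iotaO`, `tau_smul_iotaO` : the same for the composites with an
  embedding `ι : E[p] →+ J₀(N)` (`PullTwo7.iotaO`).
-/
import Mathlib
import Fermat.Agent.U44.PullFix1
import Fermat.Agent.U44.PullTwo7

set_option autoImplicit false
set_option linter.unusedSectionVars false
set_option linter.style.haveILetI false
set_option linter.unusedVariables false

noncomputable section

open AlgebraicCurve ModularCurve

namespace Fermat.Agent.U44.PullFixB1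

open HahnSeries IntermediateField
open Fermat.Agent.ES.HECKE.LevelPullback12 Fermat.Agent.ES.RED.PullbackInj12
  Fermat.Agent.X0 Fermat.Agent.U44.GammaTwist2 Fermat.Agent.U44.GammaLevel2
  Fermat.Agent.U44.GammaSix0 Fermat.Agent.U44.PullFix1 Fermat.Agent.U44.PullTwo7
  Fermat.Agent.U44.Wire7 Fermat.Agent.RED.Interface4

variable {N M : ℕ} [NeZero N] [NeZero M] (h4 : 4 ∣ M)

/-- **case E**: `π^* x` is `τ'`-fixed. -/
theorem tau'_smul_pullE (hNM : N ∣ M) (h2 : N ∣ M / 2) (x : JZero N) :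
    SemilinearAut.ofAlgAut (tau'L M h4) • levelPullback hNM x = levelPullback hNM x :=
  tau'L_smul_levelPullback h4 hNM h2 x

/-- **case O**: `π^* β₂^* x` is `τ'`-fixed. -/
theorem tau'_smul_pullO (hodd : ¬ 2 ∣ N) (h : N * 2 ∣ M) (h2 : N * 2 ∣ M / 2) (x : JZero N) :
    SemilinearAut.ofAlgAut (tau'L M h4) • levelPullback h (betaPull N hodd x) =
      levelPullback h (betaPull N hodd x) :=
  tau'L_smul_levelPullback h4 h h2 _

/-- **case O**: `π^* β₂^* x` is `τ`-fixed. -/
theorem tau_smul_pullO (hodd : ¬ 2 ∣ N) (h : N * 2 ∣ M) (h2 : N ∣ M / 2) (x : JZero N) :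
    SemilinearAut.ofAlgAut (tauL M h4) • levelPullback h (betaPull N hodd x) =
      levelPullback h (betaPull N hodd x) := by
  haveI := neZero_half h4
  refine smul_pullO_of_fix hodd h _ (fun f => ?_) x
  refine (tauL_eq_self_iff M h4 (psiO h f)).2 ⟨(f : LaurentSeries Kbar), ?_, coe_psiO h f⟩
  exact Fermat.Agent.RED.BASE.Interface12.fbar_mono h2 f.2

variable {P : FreyPackage}

/-- case E, composite with an embedding of `E[p]`. -/
theorem tau'_smul_iotaE (hNM : N ∣ M) (h2 : N ∣ M / 2) (ι : Ep P →+ JZero N) (z : Ep P) :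
    SemilinearAut.ofAlgAut (tau'L M h4) • (levelPullback hNM).comp ι z =
      (levelPullback hNM).comp ι z :=
  tau'_smul_pullE h4 hNM h2 (ι z)

/-- case O, composite with an embedding of `E[p]`: `τ'`. -/
theorem tau'_smul_iotaO (hodd : ¬ 2 ∣ N) (h : N * 2 ∣ M) (h2 : N * 2 ∣ M / 2)
    (ι : Ep P →+ JZero N) (z : Ep P) :
    SemilinearAut.ofAlgAut (tau'L M h4) • iotaO hodd h ι z = iotaO hodd h ι z :=
  tau'_smul_pullO h4 hodd h h2 (ι z)

/-- case O, composite with an embedding of `E[p]`: `τ`. -/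
theorem tau_smul_iotaO (hodd : ¬ 2 ∣ N) (h : N * 2 ∣ M) (h2 : N ∣ M / 2)
    (ι : Ep P →+ JZero N) (z : Ep P) :
    SemilinearAut.ofAlgAut (tauL M h4) • iotaO hodd h ι z = iotaO hodd h ι z :=
  tau_smul_pullO h4 hodd h h2 (ι z)

end Fermat.Agent.U44.PullFixB1
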