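/-
Programme U44 (target S44), chapter (WIRE), contract (CORE), hypothesis-free (helper1; spare of
helper7's `WireCore7`): **`core : Wire7.CoreStmt`.**

`FreyEmbeds P W N (Good W N p)` (`p ∥ N`, `N` squarefree) ⟹ `ResModAway W p (N / p) (Good W N p ∖ {2})`:
a valuation ring `A` of `ℚ̄` over `p`, the auxiliary level `M' p = lcm N 4`
(`S33Wire7C.exists_levelHyp`), then
* case E (`2 ∣ N`, `M' p = 2 N`) : `ι' = π^* ∘ ι` (`Pull7.pull'`), fixed by `τ'` (`PullFixB1`), the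
  local assembly `LocalFinal1.local_main_final`, and `LiftWireB5.resModAway_E` (`M' / 2 = N / p`);
* case O (`N` odd, `M' p = 4 N`) : `ι' = π^* ∘ β₂^* ∘ ι` (`PullTwo7.pullO_aux'`), fixed by `τ'` and
  `τ`, and `LiftWireB5.resModAway_O` (`M' / 4 = N / p` odd, `p ≠ 3`).
-/
import Mathlib
import Fermat.Agent.U44.LocalFinal1
import Fermat.Agent.U44.LiftWireB5
import Fermat.Agent.U44.PullFixB1
import Fermat.Agent.U44.PullTwo7
import Fermat.Agent.U44.Pull7
import Fermat.Agent.T33.S33Wire7C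
import Fermat.Agent.Lib.FrobeniusExists

set_option autoImplicit false
set_option linter.unusedSectionVars false
set_option linter.style.haveILetI false
set_option linter.unusedVariables false
set_option synthInstance.maxHeartbeats 400000

noncomputable section

open AlgebraicCurve IsLocalRing ModularCurve
open WeierstrassCurve WeierstrassCurve.Affine WeierstrassCurve.Affine.Point

namespace Fermat.Agent.U44.WireCore1

open Fermat.Agent.U44.Wire7 Fermat.Agent.ES.HECKE.LevelPullback12 Fermat.Agent.RED.Interface4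
  Fermat.Agent.T33.NodalHalf4 Fermat.Agent.U44.PullTwo7

/-! ### arithmetic of the auxiliary level -/

theorem lcm_four_of_even {N : ℕ} (hsq : Squarefree N) (h2 : 2 ∣ N) : Nat.lcm N 4 = 2 * N := by
  obtain ⟨k, rfl⟩ := h2
  have hk : ¬ 2 ∣ k := by
    rintro ⟨j, rfl⟩
    have h4 : 2 * 2 ∣ 2 * (2 * j) := ⟨j, by ring⟩
    have := hsq 2 h4
    exact Nat.prime_two.not_isUnit this
  have hc : Nat.Coprime k 2 :=
    Nat.coprime_comm.mp ((Nat.Prime.coprime_iff_not_dvd Nat.prime_two).mpr hk)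
  have h4 : (4 : ℕ) = 2 * 2 := by norm_num
  rw [h4, Nat.lcm_mul_left, hc.lcm_eq_mul]
  ring

theorem lcm_four_of_odd' {N : ℕ} (hodd : ¬ 2 ∣ N) : Nat.lcm N 4 = 4 * N := by
  have hc : Nat.Coprime N 2 :=
    Nat.coprime_comm.mp ((Nat.Prime.coprime_iff_not_dvd Nat.prime_two).mpr hodd)
  have hc4 : Nat.Coprime N 4 := by
    have h4 : (4 : ℕ) = 2 ^ 2 := by norm_num
    rw [h4]
    exact Nat.Coprime.pow_right 2 hc
  rw [hc4.lcm_eq_mul]
  ring

theorem arithE {N M' p : ℕ} (hp : p.Prime) (hpN : p ∣ N) (hsq : Squarefree N)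
    (h2 : 2 ∣ N) (hM : M' * p = Nat.lcm N 4) : N ∣ M' * p / 2 ∧ M' / 2 = N / p := by
  rw [lcm_four_of_even hsq h2] at hM
  obtain ⟨n, rfl⟩ := hpN
  have hp0 : 0 < p := hp.pos
  have h1 : M' = 2 * n := by
    have : M' * p = (2 * n) * p := by rw [hM]; ring
    exact Nat.eq_of_mul_eq_mul_right hp0 this
  refine ⟨?_, ?_⟩
  · rw [hM, Nat.mul_div_cancel_left _ (by norm_num : 0 < 2)]
  · rw [h1, Nat.mul_div_cancel_left _ (by norm_num : 0 < 2), Nat.mul_div_cancel_left _ hp0]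

theorem arithO {N M' p : ℕ} (hp : p.Prime) (hpN : p ∣ N) (hodd : ¬ 2 ∣ N)
    (hM : M' * p = Nat.lcm N 4) :
    N * 2 ∣ M' * p / 2 ∧ N ∣ M' * p / 2 ∧ M' / 4 = N / p ∧ ¬ 2 ∣ N / p := by
  rw [lcm_four_of_odd' hodd] at hM
  obtain ⟨n, rfl⟩ := hpN
  have hp0 : 0 < p := hp.pos
  have h1 : M' = 4 * n := by
    have : M' * p = (4 * n) * p := by rw [hM]; ring
    exact Nat.eq_of_mul_eq_mul_right hp0 this
  have h2 : M' * p / 2 = (p * n) * 2 := by
    rw [hM, show 4 * (p * n) = 2 * ((p * n) * 2) by ring,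
      Nat.mul_div_cancel_left _ (by norm_num : 0 < 2)]
  refine ⟨?_, ?_, ?_, ?_⟩
  · rw [h2]
  · rw [h2]; exact Dvd.intro _ rfl
  · rw [h1, Nat.mul_div_cancel_left _ (by norm_num : 0 < 4), Nat.mul_div_cancel_left _ hp0]
  · rw [Nat.mul_div_cancel_left _ hp0]
    intro h
    exact hodd (dvd_mul_of_dvd_right h p)

theorem auxLevel_eq_lcm {p : ℕ} (hp2 : p ≠ 2) (N : ℕ) : auxLevel p N = Nat.lcm N 4 := by
  unfold auxLevel
  rw [if_neg hp2]

/-! ### case E: the explicit embedding at the auxiliary level -/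

section Pull

variable {P : FreyPackage} {W : WeierstrassCurve ℤ} {N M : ℕ} [NeZero N] [NeZero M]

/-- **(PULL), case E, to the auxiliary level, with the explicit embedding.** -/
theorem pullE_aux' (hM : M = auxLevel P.p N) (hNM : N ∣ M)
    (ι : Ep P →+ JZero N) (hι : Function.Injective ι)
    (hσ : ∀ (σ : GQ) (z : Ep P), ι (σ • z) = σ • ι z)
    (hT : ∀ ℓ : Nat.Primes, (ℓ : ℕ) ∈ Good W N P.p → ∀ z : Ep P,
      heckeOperatorBar N ℓ (ι z) = (W.apOfModel ℓ) • ι z) :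
    Function.Injective ((levelPullback hNM).comp ι) ∧
    (∀ (σ : GQ) (z : Ep P),
      (levelPullback hNM).comp ι (σ • z) = σ • (levelPullback hNM).comp ι z) ∧
    ∀ ℓ : Nat.Primes, (ℓ : ℕ) ∈ Good W N P.p \ {2} → ∀ z : Ep P,
      heckeOperatorBar M ℓ ((levelPullback hNM).comp ι z) =
        (W.apOfModel ℓ) • (levelPullback hNM).comp ι z := by
  subst hM
  have hp2 : P.p ≠ 2 := by have := P.hp5; omega
  exact Fermat.Agent.U44.Pull7.pull' hNM
    (fun m hm x hmx hx =>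
      Fermat.Agent.ES.RED.PullbackInj12.levelPullback_auxLevel_eq_zero P.p N m hm x hmx hx)
    (fun ℓ hℓ => ⟨hℓ.1, Fermat.Agent.U44.Pull7.not_dvd_auxLevel hp2 hℓ.1.1 (fun h2 => hℓ.2 h2)
      hℓ.1.2.2.1⟩) ι hι hσ hT

end Pull

/-! ### the contract (CORE) -/

/-- the primes of `Good W N p ∖ {2}` do not divide `M'` (`M' p = lcm N 4`). -/
theorem good_spec {W : WeierstrassCurve ℤ} {N M' p : ℕ} (hp2 : p ≠ 2)
    (hM : M' * p = auxLevel p N) :
    ∀ ℓ ∈ Good W N p \ {2}, ℓ.Prime ∧ ℓ ≠ p ∧ ¬ ℓ ∣ M' := by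
  intro ℓ hℓ
  refine ⟨hℓ.1.1, hℓ.1.2.2.2, fun hdvd => ?_⟩
  have h1 : ¬ ℓ ∣ auxLevel p N :=
    Fermat.Agent.U44.Pull7.not_dvd_auxLevel hp2 hℓ.1.1 (fun h2 => hℓ.2 h2) hℓ.1.2.2.1
  apply h1
  rw [← hM]
  exact dvd_mul_of_dvd_left hdvd p

/-- **contract (CORE), hypothesis-free.** -/
theorem core : CoreStmt := by
  intro P N _ hcond hpN hirr W hW hFE
  have hp : P.p.Prime := P.pp
  have hp5 := P.hp5
  have hp2 : P.p ≠ 2 := by omega
  have hp3 : P.p ≠ 3 := by omega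
  haveI : NeZero P.p := ⟨hp.ne_zero⟩
  obtain ⟨A, hA⟩ :=
    Fermat.Agent.Lib.FrobeniusExists.exists_valuationSubring_liesOverPrime P.p hp
  obtain ⟨M', hM'0, haux, h⟩ := Fermat.Agent.T33.S33Wire7.exists_levelHyp hp hp2 (NeZero.ne N)
    ⟨hpN, hcond.sq_not_dvd hp⟩ hA
  haveI : NeZero M' := ⟨hM'0⟩
  obtain ⟨ι, hinj, hσ, hT⟩ := hFE
  have hM : M' * P.p = auxLevel P.p N := haux.symm
  have hMl : M' * P.p = Nat.lcm N 4 := by rw [hM, auxLevel_eq_lcm hp2]
  have hpabc : (P.p : ℤ) ∣ P.a * P.b * P.c := hcond.p_dvd_abc hpN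
  have hG := good_spec (W := W) hp2 hM
  have hN0 : N / P.p ≠ 0 := by
    obtain ⟨n, hn⟩ := hpN
    rw [hn, Nat.mul_div_cancel_left _ hp.pos]
    rintro rfl
    exact NeZero.ne N (by rw [hn, mul_zero])
  by_cases h2N : 2 ∣ N
  · -- case E
    have hNM : N ∣ M' * P.p := by rw [hM]; exact dvd_auxLevel P.p N
    obtain ⟨hNhalf, e⟩ := arithE hp hpN hcond.squarefree h2N hMl
    obtain ⟨i1, i2, i3⟩ := pullE_aux' (W := W) hM hNM ι hinj hσ hT
    obtain ⟨y, hy0, hpy, heig, hy', -⟩ :=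
      Fermat.Agent.U44.LocalFinal1.local_main_final P hpabc hirr W hW (N := N) h
        ((levelPullback hNM).comp ι) i1 i2 i3
        (fun z => Fermat.Agent.U44.PullFixB1.tau'_smul_iotaE
          (Fermat.Agent.U44.GammaLevel2.four_dvd_mul h.four_dvd) hNM hNhalf ι z)
    exact Fermat.Agent.U44.LiftWireB5.resModAway_E h W (N / P.p) e hN0 y hy0 hpy hy'
      (Good W N P.p \ {2}) hG heig
  · -- case O
    have hdvd : N * 2 ∣ M' * P.p := by rw [hM]; exact mul_two_dvd_auxLevel hp2 h2N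
    obtain ⟨h2a, h2b, e, hodd⟩ := arithO hp hpN h2N hMl
    obtain ⟨i1, i2, i3⟩ := pullO_aux' (W := W) hW h2N hM hdvd ι hinj hσ
    obtain ⟨y, hy0, hpy, heig, hy', hyτ⟩ :=
      Fermat.Agent.U44.LocalFinal1.local_main_final P hpabc hirr W hW (N := N) h
        (iotaO h2N hdvd ι) i1 i2 i3
        (fun z => Fermat.Agent.U44.PullFixB1.tau'_smul_iotaO
          (Fermat.Agent.U44.GammaLevel2.four_dvd_mul h.four_dvd) h2N hdvd h2a ι z)
    have hy := hyτ (fun z => Fermat.Agent.U44.PullFixB1.tau_smul_iotaO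
      (Fermat.Agent.U44.GammaLevel2.four_dvd_mul h.four_dvd) h2N hdvd h2b ι z)
    exact Fermat.Agent.U44.LiftWireB5.resModAway_O h W (N / P.p) e hN0 hodd hp3 y hy0 hpy hy hy'
      (Good W N P.p \ {2}) hG heig

end Fermat.Agent.U44.WireCore1
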