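/-
Programme U44 (S44), chapter (HECKE), block (H3), file (c) (helper1):
**the Fricke involution `W̄` on `Pic⁰` of the special fibre turns the transpose `T̄_ℓᵗ = β̄_* ᾱ^*`
into `T̄_ℓ = ᾱ_* β̄^*`.**

Generic ("twisted" versions of `ES/RED/PullbackInj12` and `ES/HECKE/HeckeGalois12`, where the
automorphisms intertwine TWO DIFFERENT maps `φ, ψ : F →ₐ[K] F'`:
`hcomm : ∀ f, ψ (g • f) = g' • φ f`):
* `restrictAlong_smul_tw`, `ramificationIndexAlong_smul_tw`, `pullbackAlong_smul_tw`,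
  `pushforwardAlong_smul_tw`, `correspondence_smul_tw`, `pic0_correspondence_smul_tw`.

Instance (`h : LevelHyp p M' A`, `ℓ ≠ p` prime, `ℓ ∤ M'`):
* `WbS h : SemilinearAut κ (Fb A M')` (`= ofAlgAut (FrickeRed3.Wb h)`),
  `WbPic h : JZeroC κ M' ≃+ JZeroC κ M'`;
* **`WbPic_heckeCt`** : `WbPic h (heckeCt … z) = heckeC … (WbPic h z)`;
  **`WbPic_heckeC`** : `WbPic h (heckeC … z) = heckeCt … (WbPic h z)`;
* `WbPic_eq_zero_iff`, `nsmul_WbPic`, `zsmul_WbPic`;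
* **`eigen_heckeC_of_heckeCt`** : an eigenvector of the transposes `heckeCt` with eigenvalues `a ℓ`
  gives (through `WbPic`) an eigenvector of the `heckeC` with the same eigenvalues, nonzero and
  `p`-torsion if the original is.
-/
import Mathlib
import Fermat.Agent.U44.HeckeC4
import Fermat.Agent.ES.HECKE.HeckeGalois12

set_option autoImplicit false
set_option linter.unusedSectionVars false
set_option linter.style.haveILetI false
set_option linter.unusedVariables false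
set_option synthInstance.maxHeartbeats 400000

noncomputable section

open AlgebraicCurve ModularCurve IntermediateField
open scoped Pointwise

namespace Fermat.Agent.U44.WbPic1

/-! ### generic: twisted equivariance -/

section Twisted

variable {K F F' : Type*} [Field K] [Field F] [Field F'] [Algebra K F] [Algebra K F']
variable (φ ψ : F →ₐ[K] F') (hφ : φ.toRingHom.IsIntegral) (hψ : ψ.toRingHom.IsIntegral)
  (g : SemilinearAut K F) (g' : SemilinearAut K F')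

theorem comm_inv_tw (hcomm : ∀ f : F, ψ (g • f) = g' • φ f) (f : F) :
    φ (g⁻¹ • f) = g'⁻¹ • ψ f := by
  have h := hcomm (g⁻¹ • f)
  rw [smul_inv_smul] at h
  rw [h, inv_smul_smul]

theorem restrictAlong_smul_tw (hcomm : ∀ f : F, ψ (g • f) = g' • φ f) (w : Place K F') :
    (g' • w).restrictAlong ψ hψ = g • w.restrictAlong φ hφ := by
  ext1
  ext x
  show ψ x ∈ g' • w.toValuationSubring ↔ x ∈ g • (w.restrictAlong φ hφ).toValuationSubring
  rw [ValuationSubring.mem_pointwise_smul_iff_inv_smul_mem,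
    ValuationSubring.mem_pointwise_smul_iff_inv_smul_mem, ← comm_inv_tw φ ψ g g' hcomm x]
  rfl

theorem ord_smul_along_tw (hcomm : ∀ f : F, ψ (g • f) = g' • φ f) (w : Place K F') (f : F) :
    (g' • w).ord (ψ (g • f)) = w.ord (φ f) := by
  rw [hcomm, SemilinearAut.ord_smul]

theorem ramificationIndexAlong_smul_tw (hcomm : ∀ f : F, ψ (g • f) = g' • φ f)
    (w : Place K F') :
    (g' • w).ramificationIndexAlong ψ = w.ramificationIndexAlong φ := by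
  show sInf {n : ℕ | 0 < n ∧ ∃ f : F, f ≠ 0 ∧ (g' • w).ord (ψ f) = n}
    = sInf {n : ℕ | 0 < n ∧ ∃ f : F, f ≠ 0 ∧ w.ord (φ f) = n}
  congr 1
  ext n
  simp only [Set.mem_ofPred_eq]
  constructor
  · rintro ⟨hn, f, hf, hord⟩
    refine ⟨hn, g⁻¹ • f, (smul_ne_zero_iff_ne _).mpr hf, ?_⟩
    rw [← ord_smul_along_tw φ ψ g g' hcomm w (g⁻¹ • f), smul_inv_smul]
    exact hord
  · rintro ⟨hn, f, hf, hord⟩
    refine ⟨hn, g • f, (smul_ne_zero_iff_ne _).mpr hf, ?_⟩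
    rw [ord_smul_along_tw φ ψ g g' hcomm w f]
    exact hord

/-- push-forward, twisted (all inertia degrees one). -/
theorem pushforwardAlong_smul_tw (hcomm : ∀ f : F, ψ (g • f) = g' • φ f)
    (hfφ : ∀ w : Place K F', w.inertiaDegAlong φ hφ = 1)
    (hfψ : ∀ w : Place K F', w.inertiaDegAlong ψ hψ = 1) (D : Divisor K F') :
    Divisor.pushforwardAlong ψ hψ (g' • D) = g • Divisor.pushforwardAlong φ hφ D := by
  induction D using Finsupp.induction_linear with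
  | zero => rw [smul_zero, map_zero, map_zero, smul_zero]
  | add D E hD hE => rw [smul_add, map_add, hD, hE, map_add, smul_add]
  | single w n =>
    rw [SemilinearAut.smul_single, Divisor.pushforwardAlong_single,
      Divisor.pushforwardAlong_single, SemilinearAut.smul_single,
      restrictAlong_smul_tw φ ψ hφ hψ g g' hcomm w, hfφ, hfψ]

variable [HasPrincipalDivisors K F']

/-- pull-back, twisted. -/
theorem pullbackAlong_smul_tw (hcomm : ∀ f : F, ψ (g • f) = g' • φ f) (D : Divisor K F) :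
    Divisor.pullbackAlong ψ hψ (g • D) = g' • Divisor.pullbackAlong φ hφ D := by
  ext w
  have hinv := comm_inv_tw φ ψ g g' hcomm
  rw [Divisor.pullbackAlong_apply, SemilinearAut.divisor_smul_apply,
    SemilinearAut.divisor_smul_apply, Divisor.pullbackAlong_apply,
    restrictAlong_smul_tw ψ φ hψ hφ g⁻¹ g'⁻¹ hinv w,
    ramificationIndexAlong_smul_tw ψ φ g⁻¹ g'⁻¹ hinv w]

variable (φ₁ ψ₁ φ₂ ψ₂ : F →ₐ[K] F')
  (hφ₁ : φ₁.toRingHom.IsIntegral) (hψ₁ : ψ₁.toRingHom.IsIntegral)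
  (hφ₂ : φ₂.toRingHom.IsIntegral) (hψ₂ : ψ₂.toRingHom.IsIntegral)

/-- **the divisor correspondences `ψ₁_* φ₁^*` and `ψ₂_* φ₂^*` are intertwined by `g`** as soon as
`g, g'` intertwine `φ₁` with `φ₂` and `ψ₁` with `ψ₂`. -/
theorem correspondence_smul_tw (hcφ : ∀ f : F, φ₂ (g • f) = g' • φ₁ f)
    (hcψ : ∀ f : F, ψ₂ (g • f) = g' • ψ₁ f)
    (hf₁ : ∀ w : Place K F', w.inertiaDegAlong ψ₁ hψ₁ = 1)
    (hf₂ : ∀ w : Place K F', w.inertiaDegAlong ψ₂ hψ₂ = 1) (D : Divisor K F) :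
    Divisor.correspondence φ₂ ψ₂ hφ₂ hψ₂ (g • D) =
      g • Divisor.correspondence φ₁ ψ₁ hφ₁ hψ₁ D := by
  rw [Divisor.correspondence_apply, Divisor.correspondence_apply,
    pullbackAlong_smul_tw φ₁ φ₂ hφ₁ hφ₂ g g' hcφ D,
    pushforwardAlong_smul_tw ψ₁ ψ₂ hψ₁ hψ₂ g g' hcψ hf₁ hf₂]

/-- the same on `Pic⁰`. -/
theorem pic0_correspondence_smul_tw
    (hFI₁ : FundamentalIdentityAlong K φ₁ hφ₁) (hfin₁ : FiniteAlong K ψ₁)
    (hN₁ : NormFormulaAlong K ψ₁ hfin₁)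
    (hFI₂ : FundamentalIdentityAlong K φ₂ hφ₂) (hfin₂ : FiniteAlong K ψ₂)
    (hN₂ : NormFormulaAlong K ψ₂ hfin₂)
    (hcφ : ∀ f : F, φ₂ (g • f) = g' • φ₁ f) (hcψ : ∀ f : F, ψ₂ (g • f) = g' • ψ₁ f)
    (hf₁ : ∀ w : Place K F', w.inertiaDegAlong ψ₁ hψ₁ = 1)
    (hf₂ : ∀ w : Place K F', w.inertiaDegAlong ψ₂ hψ₂ = 1) (x : Pic0 K F) :
    Pic0.correspondence φ₂ ψ₂ hφ₂ hψ₂ hFI₂ hfin₂ hN₂ (g • x) =
      g • Pic0.correspondence φ₁ ψ₁ hφ₁ hψ₁ hFI₁ hfin₁ hN₁ x := by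
  obtain ⟨D, rfl⟩ := Pic0.mk_surjective x
  rw [SemilinearAut.pic0_smul_mk, Pic0.correspondence_mk, Pic0.correspondence_mk,
    SemilinearAut.pic0_smul_mk]
  refine congrArg Pic0.mk (Subtype.ext ?_)
  rw [Pic0.coe_degZeroCorrespondence, SemilinearAut.coe_degZeroSMulHom,
    SemilinearAut.coe_degZeroSMulHom, Pic0.coe_degZeroCorrespondence]
  exact correspondence_smul_tw g g' φ₁ ψ₁ φ₂ ψ₂ hφ₁ hψ₁ hφ₂ hψ₂ hcφ hcψ hf₁ hf₂ D

end Twisted

/-! ### the instance -/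

open HahnSeries IsLocalRing
open Fermat.Agent.RED.Interface4 Fermat.Agent.ES.RED
  Fermat.Agent.T33.NodalCtx1 Fermat.Agent.T33.NodalHalf4
  Fermat.Agent.T33.NodalBase4A Fermat.Agent.T33.FrickeRed3 Fermat.Agent.U44.DegreeC4
  Fermat.Agent.U44.LevelEll4 Fermat.Agent.U44.WbEll4 Fermat.Agent.T33.NodalInst4A
  Fermat.Agent.ES.HECKE.PointFormula28 Fermat.Agent.U44.HeckeC4

variable {p M' : ℕ} [NeZero M'] [NeZero p] {A : ValuationSubring Qbar}
  (h : LevelHyp p M' A) {ℓ : ℕ} [NeZero ℓ] (hℓ : ℓ.Prime) (hℓp : ℓ ≠ p) (hℓM : ¬ ℓ ∣ M')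

/-- shortcut instance. -/
local instance (priority := high) algebraKFbW (M : ℕ) [NeZero M] :
    Algebra (ResidueField ↥A) (Fb A M) := inferInstance

/-- **`W̄`** as a semilinear automorphism (trivial on the constants). -/
def WbS : SemilinearAut (Setup8.kA A) (Fb A M') := SemilinearAut.ofAlgAut (Wb h)

theorem WbS_smul (x : Fb A M') : WbS h • x = Wb h x := rfl

/-- **the Fricke involution on `Pic⁰` of the special fibre.** -/
def WbPic : JZeroC (Setup8.kA A) M' ≃+ JZeroC (Setup8.kA A) M' :=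
  DistribMulAction.toAddEquiv (JZeroC (Setup8.kA A) M') (WbS h)

theorem WbPic_apply (z : JZeroC (Setup8.kA A) M') : WbPic h z = WbS h • z := rfl

theorem WbPic_eq_zero_iff {z : JZeroC (Setup8.kA A) M'} : WbPic h z = 0 ↔ z = 0 :=
  (WbPic h).map_eq_zero_iff

theorem nsmul_WbPic (n : ℕ) (z : JZeroC (Setup8.kA A) M') : WbPic h (n • z) = n • WbPic h z :=
  map_nsmul (WbPic h) n z

theorem zsmul_WbPic (n : ℤ) (z : JZeroC (Setup8.kA A) M') : WbPic h (n • z) = n • WbPic h z :=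
  map_zsmul (WbPic h) n z

/-- all inertia degrees along `ᾱ` are one. -/
theorem inertiaDeg_alpha (w : Place (Setup8.kA A) (Fb A (M' * ℓ))) :
    w.inertiaDegAlong (alphaC (Setup8.kA A) M' ℓ) (isIntegral_alpha h hℓ hℓp hℓM) = 1 :=
  inertiaDegAlong_eq_one _ _ w
    ((Fermat.Agent.T33.NodalInst4C.lHypFb (hEll h hℓ hℓp)).deg_eq_one w)

/-- all inertia degrees along `β̄` are one. -/
theorem inertiaDeg_beta (w : Place (Setup8.kA A) (Fb A (M' * ℓ))) :
    w.inertiaDegAlong (betaC (Setup8.kA A) M' ℓ) (isIntegral_beta h hℓ hℓp hℓM) = 1 :=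
  inertiaDegAlong_eq_one _ _ w
    ((Fermat.Agent.T33.NodalInst4C.lHypFb (hEll h hℓ hℓp)).deg_eq_one w)

/-- **`W̄ ∘ T̄_ℓᵗ = T̄_ℓ ∘ W̄`.** -/
theorem WbPic_heckeCt (z : JZeroC (Setup8.kA A) M') :
    WbPic h (heckeCt h hℓ hℓp hℓM z) = heckeC h hℓ hℓp hℓM (WbPic h z) := by
  haveI := hasPrincipalDivisors h hℓ hℓp
  rw [WbPic_apply, WbPic_apply]
  exact (pic0_correspondence_smul_tw (WbS h) (WbS (hEll h hℓ hℓp))
    (alphaC (Setup8.kA A) M' ℓ) (betaC (Setup8.kA A) M' ℓ)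
    (betaC (Setup8.kA A) M' ℓ) (alphaC (Setup8.kA A) M' ℓ)
    (isIntegral_alpha h hℓ hℓp hℓM) (isIntegral_beta h hℓ hℓp hℓM)
    (isIntegral_beta h hℓ hℓp hℓM) (isIntegral_alpha h hℓ hℓp hℓM)
    (fundId_alpha h hℓ hℓp hℓM) (finiteAlong_beta h hℓ hℓp hℓM) (normFormula_beta h hℓ hℓp hℓM)
    (fundId_beta h hℓ hℓp hℓM) (finiteAlong_alpha h hℓ hℓp hℓM) (normFormula_alpha h hℓ hℓp hℓM)
    (fun f => (Wb_alphaC h hℓ hℓp f).symm) (fun f => (Wb_betaC h hℓ hℓp f).symm)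
    (inertiaDeg_beta h hℓ hℓp hℓM) (inertiaDeg_alpha h hℓ hℓp hℓM) z).symm

/-- **`W̄ ∘ T̄_ℓ = T̄_ℓᵗ ∘ W̄`.** -/
theorem WbPic_heckeC (z : JZeroC (Setup8.kA A) M') :
    WbPic h (heckeC h hℓ hℓp hℓM z) = heckeCt h hℓ hℓp hℓM (WbPic h z) := by
  haveI := hasPrincipalDivisors h hℓ hℓp
  rw [WbPic_apply, WbPic_apply]
  exact (pic0_correspondence_smul_tw (WbS h) (WbS (hEll h hℓ hℓp))
    (betaC (Setup8.kA A) M' ℓ) (alphaC (Setup8.kA A) M' ℓ)
    (alphaC (Setup8.kA A) M' ℓ) (betaC (Setup8.kA A) M' ℓ)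
    (isIntegral_beta h hℓ hℓp hℓM) (isIntegral_alpha h hℓ hℓp hℓM)
    (isIntegral_alpha h hℓ hℓp hℓM) (isIntegral_beta h hℓ hℓp hℓM)
    (fundId_beta h hℓ hℓp hℓM) (finiteAlong_alpha h hℓ hℓp hℓM) (normFormula_alpha h hℓ hℓp hℓM)
    (fundId_alpha h hℓ hℓp hℓM) (finiteAlong_beta h hℓ hℓp hℓM) (normFormula_beta h hℓ hℓp hℓM)
    (fun f => (Wb_betaC h hℓ hℓp f).symm) (fun f => (Wb_alphaC h hℓ hℓp f).symm)
    (inertiaDeg_alpha h hℓ hℓp hℓM) (inertiaDeg_beta h hℓ hℓp hℓM) z).symm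

/-- **an eigenvector of the transposes gives an eigenvector of the `T̄_ℓ`.** -/
theorem eigen_heckeC_of_heckeCt {e : JZeroC (Setup8.kA A) M'} (a : ℤ)
    (he : heckeCt h hℓ hℓp hℓM e = a • e) :
    heckeC h hℓ hℓp hℓM (WbPic h e) = a • WbPic h e := by
  rw [← WbPic_heckeCt, he, zsmul_WbPic]

theorem WbPic_ne_zero {e : JZeroC (Setup8.kA A) M'} (he : e ≠ 0) : WbPic h e ≠ 0 :=
  fun h0 => he ((WbPic_eq_zero_iff h).1 h0)

theorem nsmul_WbPic_eq_zero {e : JZeroC (Setup8.kA A) M'} {n : ℕ} (he : n • e = 0) :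
    n • WbPic h e = 0 := by
  rw [← nsmul_WbPic, he, map_zero]

end Fermat.Agent.U44.WbPic1
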