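/-
Programme U44 (target S44), chapter (LIFT), route Omega, step (Om-B), shared definitions (lead).

Formal operators on Laurent series over a commutative ring `R` used by the product formula for the
Hecke norm `N_α (β g)`:

* `sc c` (`c : Rˣ`) : the coefficient scaling `q ↦ c q`, a ring endomorphism of `R((q))` with
  `(sc c f).coeff n = c ^ n * f.coeff n`; it commutes with `coeffMap`, `theta`, and satisfies
  `sc c (qExpand d f) = qExpand d (sc (c ^ d) f)`;
* `qContract ℓ` : the operator `U_ℓ`, `(qContract ℓ f).coeff n = f.coeff (ℓ n)`, a left inverse of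
  `qExpand ℓ`;
* `heckeProdQ ℓ ζ g := qExpand ℓ (qExpand ℓ g) * ∏ k < ℓ, sc (ζ ^ k) g` : the right-hand side of the
  product formula, `qExpand ℓ (N_α (β g)) = heckeProdQ ℓ ζ g`;
* `RootSum ℓ ζ` : the only property of `ζ` which is used: `∑ k < ℓ, ζ ^ (k n) = ℓ` or `0`
  according as `ℓ ∣ n` or not; it is preserved by ring homomorphisms (`RootSum.map`) and holds for
  primitive roots of unity (`rootSum_of_isPrimitiveRoot`);
* `sum_sc_eq` : `∑ k < ℓ, sc (ζ ^ k) f = ℓ • qExpand ℓ (qContract ℓ f)`.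
-/
import Mathlib
import Fermat.Agent.IG.PR.Theta20

set_option autoImplicit false

noncomputable section

open HahnSeries ModularCurve

namespace Fermat.Agent.U44.QScale0

open Fermat.Agent.IG.PR.Theta20

variable {R S : Type*} [CommRing R] [CommRing S]

/-! ### the scaling `q ↦ c q` -/

/-- the underlying function of `sc`. -/
def scFun (c : Rˣ) (f : LaurentSeries R) : LaurentSeries R where
  coeff n := ((c ^ n : Rˣ) : R) * f.coeff n
  isPWO_support' := f.isPWO_support.mono (fun n hn => by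
    simp only [Function.mem_support, ne_eq] at hn ⊢
    intro h
    exact hn (by rw [h, mul_zero]))

@[simp]
theorem scFun_coeff (c : Rˣ) (f : LaurentSeries R) (n : ℤ) :
    (scFun c f).coeff n = ((c ^ n : Rˣ) : R) * f.coeff n := rfl

theorem support_scFun_subset (c : Rˣ) (f : LaurentSeries R) : (scFun c f).support ⊆ f.support := by
  intro n hn
  simp only [HahnSeries.mem_support, scFun_coeff, ne_eq] at hn ⊢
  intro h
  exact hn (by rw [h, mul_zero])

/-- **the coefficient scaling `q ↦ c q`** as a ring endomorphism of `R((q))`. -/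
def sc (c : Rˣ) : LaurentSeries R →+* LaurentSeries R where
  toFun := scFun c
  map_zero' := by ext n; simp
  map_one' := by
    ext n
    rw [scFun_coeff, HahnSeries.coeff_one]
    split_ifs with h
    · subst h; simp
    · simp
  map_add' f g := by ext n; simp [mul_add]
  map_mul' f g := by
    ext n
    have hsub : (scFun c g).support ⊆ g.support := support_scFun_subset c g
    rw [scFun_coeff, HahnSeries.coeff_mul,
      HahnSeries.coeff_mul_left' (x := scFun c f) (y := scFun c g) (s := f.support) f.isPWO_support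
        (support_scFun_subset c f),
      Finset.mul_sum]
    have hsup : g.support ⊆ (scFun c g).support := by
      intro m hm
      simp only [HahnSeries.mem_support, scFun_coeff, ne_eq] at hm ⊢
      intro h
      apply hm
      exact (Units.mul_right_eq_zero _).1 h
    have hfin : Finset.antidiagonal f.isPWO_support (scFun c g).isPWO_support n =
        Finset.antidiagonal f.isPWO_support g.isPWO_support n := by
      ext ij
      simp only [Finset.mem_antidiagonal]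
      constructor
      · rintro ⟨h1, h2, h3⟩
        exact ⟨h1, hsub h2, h3⟩
      · rintro ⟨h1, h2, h3⟩
        exact ⟨h1, hsup h2, h3⟩
    rw [hfin]
    refine Finset.sum_congr rfl fun ij hij => ?_
    have h : ij.1 + ij.2 = n := (Finset.mem_antidiagonal.mp hij).2.2
    rw [scFun_coeff, scFun_coeff, ← h, zpow_add, Units.val_mul]
    ring

@[simp]
theorem sc_coeff (c : Rˣ) (f : LaurentSeries R) (n : ℤ) :
    (sc c f).coeff n = ((c ^ n : Rˣ) : R) * f.coeff n := rfl

theorem sc_one (f : LaurentSeries R) : sc (1 : Rˣ) f = f := by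
  ext n
  simp

theorem sc_sc (c d : Rˣ) (f : LaurentSeries R) : sc c (sc d f) = sc (c * d) f := by
  ext n
  rw [sc_coeff, sc_coeff, sc_coeff, mul_zpow, Units.val_mul, mul_assoc]

theorem sc_inv_sc (c : Rˣ) (f : LaurentSeries R) : sc c⁻¹ (sc c f) = f := by
  rw [sc_sc, inv_mul_cancel, sc_one]

theorem sc_injective (c : Rˣ) : Function.Injective (sc c : LaurentSeries R → LaurentSeries R) :=
  fun f g h => by rw [← sc_inv_sc c f, h, sc_inv_sc]

theorem sc_single (c : Rˣ) (n : ℤ) (r : R) :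
    sc c (HahnSeries.single n r) = HahnSeries.single n (((c ^ n : Rˣ) : R) * r) := by
  ext m
  rw [sc_coeff]
  rcases eq_or_ne m n with rfl | h
  · rw [HahnSeries.coeff_single_same, HahnSeries.coeff_single_same]
  · rw [HahnSeries.coeff_single_of_ne h, HahnSeries.coeff_single_of_ne h, mul_zero]

theorem sc_C (c : Rˣ) (r : R) : sc c (HahnSeries.C r : LaurentSeries R) = HahnSeries.C r := by
  show sc c (HahnSeries.single 0 r) = HahnSeries.single 0 r
  rw [sc_single]
  simp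

/-- `sc` commutes with coefficient maps. -/
theorem coeffMap_sc (φ : R →+* S) (c : Rˣ) (f : LaurentSeries R) :
    coeffMap φ (sc c f) = sc (Units.map (φ : R →* S) c) (coeffMap φ f) := by
  ext n
  rw [coeffMap_coeff, sc_coeff, sc_coeff, coeffMap_coeff, map_mul, ← map_zpow]
  rfl

/-- `sc` commutes with `theta`. -/
theorem theta_sc (c : Rˣ) (f : LaurentSeries R) : theta (sc c f) = sc c (theta f) := by
  ext n
  rw [theta_coeff, sc_coeff, sc_coeff, theta_coeff]
  ring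

/-- `sc c (f(q^d)) = (sc (c^d) f)(q^d)`. -/
theorem sc_qExpand (d : ℕ) [NeZero d] (c : Rˣ) (f : LaurentSeries R) :
    sc c (qExpand R d f) = qExpand R d (sc (c ^ d) f) := by
  ext n
  rw [sc_coeff]
  by_cases hn : (d : ℤ) ∣ n
  · obtain ⟨m, rfl⟩ := hn
    rw [qExpand_coeff_mul, qExpand_coeff_mul, sc_coeff, zpow_mul, zpow_natCast]
  · rw [qExpand_coeff_of_not_dvd d f hn, qExpand_coeff_of_not_dvd d _ hn, mul_zero]

/-- if `c ^ d = 1` then `sc c` fixes the series in `q ^ d`. -/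
theorem sc_qExpand_of_pow_eq_one (d : ℕ) [NeZero d] (c : Rˣ) (hc : c ^ d = 1)
    (f : LaurentSeries R) : sc c (qExpand R d f) = qExpand R d f := by
  rw [sc_qExpand, hc, sc_one]

/-! ### the operator `U_ℓ` -/

theorem bddBelow_support_contract (ℓ : ℕ) [NeZero ℓ] (f : LaurentSeries R) :
    BddBelow (Function.support fun n : ℤ => f.coeff ((ℓ : ℤ) * n)) := by
  have hpos : (0 : ℤ) < ℓ := by exact_mod_cast Nat.pos_of_ne_zero (NeZero.ne ℓ)
  refine ⟨min f.order 0, fun n hn => ?_⟩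
  simp only [Function.mem_support, ne_eq] at hn
  by_contra hlt
  rw [not_le] at hlt
  apply hn
  apply HahnSeries.coeff_eq_zero_of_lt_order
  have h1 : n < f.order := lt_of_lt_of_le hlt (min_le_left _ _)
  have h2 : n < 0 := lt_of_lt_of_le hlt (min_le_right _ _)
  have h3 : (ℓ : ℤ) * n ≤ n := by nlinarith
  exact lt_of_le_of_lt h3 h1

/-- **the operator `U_ℓ`**: `(qContract ℓ f).coeff n = f.coeff (ℓ n)`. -/
def qContract (ℓ : ℕ) [NeZero ℓ] : LaurentSeries R →+ LaurentSeries R where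
  toFun f := HahnSeries.ofSuppBddBelow (fun n : ℤ => f.coeff ((ℓ : ℤ) * n))
    (bddBelow_support_contract ℓ f)
  map_zero' := by ext n; simp
  map_add' f g := by ext n; simp

@[simp]
theorem qContract_coeff (ℓ : ℕ) [NeZero ℓ] (f : LaurentSeries R) (n : ℤ) :
    (qContract ℓ f).coeff n = f.coeff ((ℓ : ℤ) * n) := rfl

/-- `U_ℓ` is a left inverse of `V_ℓ = qExpand ℓ`. -/
theorem qContract_qExpand (ℓ : ℕ) [NeZero ℓ] (f : LaurentSeries R) :
    qContract ℓ (qExpand R ℓ f) = f := by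
  ext n
  rw [qContract_coeff, qExpand_coeff_mul]

/-- a series supported on the multiples of `ℓ` is `V_ℓ U_ℓ` of itself. -/
theorem qExpand_qContract (ℓ : ℕ) [NeZero ℓ] (f : LaurentSeries R)
    (hf : ∀ n : ℤ, ¬ (ℓ : ℤ) ∣ n → f.coeff n = 0) : qExpand R ℓ (qContract ℓ f) = f := by
  ext n
  by_cases hn : (ℓ : ℤ) ∣ n
  · obtain ⟨m, rfl⟩ := hn
    rw [qExpand_coeff_mul, qContract_coeff]
  · rw [qExpand_coeff_of_not_dvd ℓ _ hn, hf n hn]

theorem coeffMap_qContract (φ : R →+* S) (ℓ : ℕ) [NeZero ℓ] (f : LaurentSeries R) :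
    coeffMap φ (qContract ℓ f) = qContract ℓ (coeffMap φ f) := by
  ext n
  simp

theorem coeffMap_qExpand (φ : R →+* S) (ℓ : ℕ) [NeZero ℓ] (f : LaurentSeries R) :
    coeffMap φ (qExpand R ℓ f) = qExpand S ℓ (coeffMap φ f) := by
  ext n
  by_cases hn : (ℓ : ℤ) ∣ n
  · obtain ⟨m, rfl⟩ := hn
    rw [coeffMap_coeff, qExpand_coeff_mul, qExpand_coeff_mul, coeffMap_coeff]
  · rw [coeffMap_coeff, qExpand_coeff_of_not_dvd ℓ _ hn, qExpand_coeff_of_not_dvd ℓ _ hn, map_zero]

/-! ### the root-sum property -/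

/-- the only property of `ζ` used by the product formula: `∑_{k<ℓ} ζ^{kn} = ℓ` or `0`. -/
def RootSum (ℓ : ℕ) (ζ : Rˣ) : Prop :=
  ∀ n : ℤ, ∑ k ∈ Finset.range ℓ, (((ζ ^ k) ^ n : Rˣ) : R) = if (ℓ : ℤ) ∣ n then (ℓ : R) else 0

theorem RootSum.map {ℓ : ℕ} {ζ : Rˣ} (h : RootSum ℓ ζ) (φ : R →+* S) :
    RootSum ℓ (Units.map (φ : R →* S) ζ) := by
  intro n
  have h1 := congrArg φ (h n)
  rw [map_sum] at h1
  rw [apply_ite φ, map_natCast, map_zero] at h1
  rw [← h1]
  refine Finset.sum_congr rfl fun k _ => ?_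
  rw [← map_pow, ← map_zpow]
  rfl

/-- a primitive `ℓ`-th root of unity of a domain has the root-sum property. -/
theorem rootSum_of_isPrimitiveRoot [IsDomain R] {ℓ : ℕ} {ζ : Rˣ}
    (hζ : IsPrimitiveRoot ζ ℓ) : RootSum ℓ ζ := by
  intro n
  have hpow : ∀ k : ℕ, ((ζ ^ k) ^ n : Rˣ) = (ζ ^ n) ^ k := fun k => by
    rw [← zpow_natCast, ← zpow_mul, mul_comm, zpow_mul, zpow_natCast]
  simp_rw [hpow, Units.val_pow_eq_pow_val]
  split_ifs with hn
  · have h1 : ζ ^ n = 1 := by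
      obtain ⟨m, rfl⟩ := hn
      rw [zpow_mul, zpow_natCast, hζ.pow_eq_one, one_zpow]
    rw [h1]
    simp
  · have h1 : ζ ^ n ≠ 1 := fun h => hn ((hζ.zpow_eq_one_iff_dvd n).1 h)
    have h2 : ((ζ ^ n : Rˣ) : R) ≠ 1 := fun h => h1 (Units.ext h)
    have h3 : ((ζ ^ n : Rˣ) : R) ^ ℓ = 1 := by
      rw [← Units.val_pow_eq_pow_val, ← zpow_natCast, ← zpow_mul, mul_comm, zpow_mul, zpow_natCast,
        hζ.pow_eq_one, one_zpow, Units.val_one]
    have h4 := mul_neg_geom_sum (((ζ ^ n : Rˣ) : R)) ℓ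
    rw [h3, sub_self] at h4
    rcases mul_eq_zero.1 h4 with h5 | h5
    · exact absurd (sub_eq_zero.1 h5).symm h2
    · exact h5

/-- **the trace formula**: `∑_{k<ℓ} f(ζ^k q) = ℓ • (U_ℓ f)(q^ℓ)`. -/
theorem sum_sc_eq {ℓ : ℕ} [NeZero ℓ] {ζ : Rˣ} (hζ : RootSum ℓ ζ) (f : LaurentSeries R) :
    ∑ k ∈ Finset.range ℓ, sc (ζ ^ k) f = (ℓ : R) • qExpand R ℓ (qContract ℓ f) := by
  ext n
  rw [HahnSeries.coeff_sum, HahnSeries.coeff_smul, smul_eq_mul]
  simp_rw [sc_coeff]
  rw [← Finset.sum_mul, hζ n]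
  split_ifs with hn
  · obtain ⟨m, rfl⟩ := hn
    rw [qExpand_coeff_mul, qContract_coeff]
  · rw [qExpand_coeff_of_not_dvd ℓ _ hn, zero_mul, mul_zero]

/-! ### the Hecke product -/

/-- **the right-hand side of the product formula** for `N_α (β g)`, with `q` replaced by `q ^ ℓ`:
`g(q^{ℓ²}) ∏_{k<ℓ} g(ζ^k q)`. -/
def heckeProdQ (ℓ : ℕ) [NeZero ℓ] (ζ : Rˣ) (g : LaurentSeries R) : LaurentSeries R :=
  qExpand R ℓ (qExpand R ℓ g) * ∏ k ∈ Finset.range ℓ, sc (ζ ^ k) g

theorem heckeProdQ_mul (ℓ : ℕ) [NeZero ℓ] (ζ : Rˣ) (g g' : LaurentSeries R) :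
    heckeProdQ ℓ ζ (g * g') = heckeProdQ ℓ ζ g * heckeProdQ ℓ ζ g' := by
  unfold heckeProdQ
  simp_rw [map_mul]
  rw [Finset.prod_mul_distrib]
  ring

theorem heckeProdQ_one (ℓ : ℕ) [NeZero ℓ] (ζ : Rˣ) : heckeProdQ ℓ ζ (1 : LaurentSeries R) = 1 := by
  unfold heckeProdQ
  simp

theorem coeffMap_heckeProdQ (φ : R →+* S) (ℓ : ℕ) [NeZero ℓ] (ζ : Rˣ) (g : LaurentSeries R) :
    coeffMap φ (heckeProdQ ℓ ζ g) = heckeProdQ ℓ (Units.map (φ : R →* S) ζ) (coeffMap φ g) := by
  unfold heckeProdQ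
  rw [map_mul, coeffMap_qExpand, coeffMap_qExpand, map_prod]
  congr 1
  refine Finset.prod_congr rfl fun k _ => ?_
  rw [coeffMap_sc, map_pow]

theorem heckeProdQ_ne_zero {K : Type*} [Field K] (ℓ : ℕ) [NeZero ℓ] (ζ : Kˣ) {g : LaurentSeries K}
    (hg : g ≠ 0) : heckeProdQ ℓ ζ g ≠ 0 := by
  unfold heckeProdQ
  refine mul_ne_zero ?_ (Finset.prod_ne_zero_iff.2 fun k _ => ?_)
  · exact (map_ne_zero_iff _ (qExpand_injective ℓ)).2
      ((map_ne_zero_iff _ (qExpand_injective ℓ)).2 hg)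
  · exact (map_ne_zero_iff _ (sc_injective _)).2 hg

theorem heckeProdQ_div {K : Type*} [Field K] (ℓ : ℕ) [NeZero ℓ] (ζ : Kˣ) (g g' : LaurentSeries K) :
    heckeProdQ ℓ ζ (g / g') = heckeProdQ ℓ ζ g / heckeProdQ ℓ ζ g' := by
  unfold heckeProdQ
  simp_rw [map_div₀]
  rw [Finset.prod_div_distrib]
  field_simp

/-- the Hecke product is a series in `q ^ ℓ` (when `ζ ^ ℓ = 1`). -/
theorem sc_heckeProdQ (ℓ : ℕ) [NeZero ℓ] (ζ : Rˣ) (hζ : ζ ^ ℓ = 1) (g : LaurentSeries R) :
    sc ζ (heckeProdQ ℓ ζ g) = heckeProdQ ℓ ζ g := by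
  unfold heckeProdQ
  rw [map_mul, sc_qExpand_of_pow_eq_one ℓ ζ hζ, map_prod]
  congr 1
  simp_rw [sc_sc]
  -- reindex `k ↦ k + 1 mod ℓ`
  have h1 : ∀ k : ℕ, sc (ζ * ζ ^ k) g = sc (ζ ^ ((k + 1) % ℓ)) g := by
    intro k
    rw [← pow_succ', pow_eq_pow_mod (k + 1) hζ]
  simp_rw [h1]
  have hpos : 0 < ℓ := Nat.pos_of_ne_zero (NeZero.ne ℓ)
  refine Finset.prod_bij' (fun k _ => (k + 1) % ℓ) (fun k _ => (k + (ℓ - 1)) % ℓ) ?_ ?_ ?_ ?_ ?_
  · intro k _
    exact Finset.mem_range.2 (Nat.mod_lt _ hpos)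
  · intro k _
    exact Finset.mem_range.2 (Nat.mod_lt _ hpos)
  · intro k hk
    have hk' := Finset.mem_range.1 hk
    rw [Nat.mod_add_mod, show k + 1 + (ℓ - 1) = k + ℓ by omega, Nat.add_mod_right,
      Nat.mod_eq_of_lt hk']
  · intro k hk
    have hk' := Finset.mem_range.1 hk
    rw [Nat.mod_add_mod, show k + (ℓ - 1) + 1 = k + ℓ by omega, Nat.add_mod_right,
      Nat.mod_eq_of_lt hk']
  · intro k _
    rfl

end Fermat.Agent.U44.QScale0
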