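/-
Programme U44 (S44), chapter (TR)/(HECKE), leaf for `AnnInst6` (helper1): **a node of a two-chart
model is a point of one of the two charts.**

`T : TwoCharts c₁ c₂` (vocabulary of `T33/NodalPlaces1B`), `k : T.rawRed.Node` a node
(`= ⟨(Q₁, Q₂), P₀, r₁ P₀ = some Q₁, r₂ P₀ = some Q₂⟩`).

* `node_chart` : either there is a point `χ` of the chart `0` with `Val₁ χ Q₁`, `Val₂ χ Q₂` and
  `r₁ P = some Q₁ ↔ Centred P χ` (and such `P` have `Fin0 P`), or a point `χ` of the chart `1` at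
  `t = ∞` (`χ s1 = 0`) with the same properties (and such `P` have `¬ Fin0 P`);
* `exists_chart_pt` : the same in uniform shape
  `∃ C, (C = T.C0 ∨ C = T.C1) ∧ ∃ χ : C.Pt, Val₁ ∧ Val₂ ∧ ∀ P, r₁ P = some Q₁ ↔ C.Centred P χ`,
  also with `r₂ P = some Q₂ ↔ C.Centred P χ`;
* instance at `h : LevelHyp p M' A` : `exists_chart_pt_level` for `k : Node h`, in terms of
  `(nodalRed h).RedToNode P k`.
-/
import Mathlib
import Fermat.Agent.T33.NodalInst4G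
import Fermat.Agent.T33.GlueWire5

set_option autoImplicit false
set_option linter.unusedSectionVars false
set_option linter.unusedVariables false
set_option linter.style.haveILetI false
set_option synthInstance.maxHeartbeats 400000

noncomputable section

open AlgebraicCurve IsLocalRing

namespace Fermat.Agent.U44.NodeChart1

open Fermat.Agent.T33.NodalCtx1 Fermat.Agent.T33.NodalCurve6 Fermat.Agent.T33.NodalPlaces1

section Abstract

variable {K : Type*} [Field K] {A : ValuationSubring K}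
variable {F : Type*} [Field F] [Algebra K F]
variable {Fb₁ Fb₂ : Type*} [Field Fb₁] [Field Fb₂]
  [Algebra (ResidueField A) Fb₁] [Algebra (ResidueField A) Fb₂]
variable {c₁ : HalfRed A F Fb₁} {c₂ : HalfRed A F Fb₂} (T : TwoCharts c₁ c₂)

theorem fin0_of_centred₀ {P : Place K F} {χ : T.C0.Pt} (hP : T.C0.Centred P χ) : T.Fin0 P := by
  obtain ⟨a, ha, -⟩ := hP T.t0
  exact ⟨a, ha⟩

/-- **a node is a point of the chart `0`, or a point at `t = ∞` of the chart `1`.** -/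
theorem node_chart (k : T.rawRed.Node) :
    (∃ χ : T.C0.Pt, T.C0.Val₁ χ (T.rawRed.nodalData.s1 k) ∧
        T.C0.Val₂ χ (T.rawRed.nodalData.s2 k) ∧
        (∀ P : Place K F, T.r₁ P = some (T.rawRed.nodalData.s1 k) ↔ T.C0.Centred P χ) ∧
        (∀ P : Place K F, T.r₂ P = some (T.rawRed.nodalData.s2 k) ↔ T.C0.Centred P χ) ∧
        ∀ P : Place K F, T.C0.Centred P χ → T.Fin0 P) ∨
    (∃ χ : T.C1.Pt, χ T.s1 = 0 ∧ T.C1.Val₁ χ (T.rawRed.nodalData.s1 k) ∧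
        T.C1.Val₂ χ (T.rawRed.nodalData.s2 k) ∧
        (∀ P : Place K F, T.r₁ P = some (T.rawRed.nodalData.s1 k) ↔ T.C1.Centred P χ) ∧
        (∀ P : Place K F, T.r₂ P = some (T.rawRed.nodalData.s2 k) ↔ T.C1.Centred P χ) ∧
        ∀ P : Place K F, T.C1.Centred P χ → ¬ T.Fin0 P) := by
  obtain ⟨⟨Q₁, Q₂⟩, P₀, h1, h2⟩ := k
  have h1' : T.Red₁ P₀ Q₁ := (T.r₁_eq_some_iff P₀ Q₁).1 h1
  have h2' : T.Red₂ P₀ Q₂ := (T.r₂_eq_some_iff P₀ Q₂).1 h2
  show (∃ χ : T.C0.Pt, T.C0.Val₁ χ Q₁ ∧ T.C0.Val₂ χ Q₂ ∧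
        (∀ P : Place K F, T.r₁ P = some Q₁ ↔ T.C0.Centred P χ) ∧
        (∀ P : Place K F, T.r₂ P = some Q₂ ↔ T.C0.Centred P χ) ∧
        ∀ P : Place K F, T.C0.Centred P χ → T.Fin0 P) ∨
    (∃ χ : T.C1.Pt, χ T.s1 = 0 ∧ T.C1.Val₁ χ Q₁ ∧ T.C1.Val₂ χ Q₂ ∧
        (∀ P : Place K F, T.r₁ P = some Q₁ ↔ T.C1.Centred P χ) ∧
        (∀ P : Place K F, T.r₂ P = some Q₂ ↔ T.C1.Centred P χ) ∧
        ∀ P : Place K F, T.C1.Centred P χ → ¬ T.Fin0 P)
  rcases h1' with ⟨hfin, χ, hχ, hv₁⟩ | ⟨hfin, χ, hχ, hs, hv₁⟩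
  · left
    have hv₂ : T.C0.Val₂ χ Q₂ := by
      rcases h2' with ⟨-, χ', hχ', hv⟩ | ⟨hn, -⟩
      · rwa [T.C0.centred_unique hχ hχ']
      · exact absurd hfin hn
    refine ⟨χ, hv₁, hv₂, fun P => ?_, fun P => ?_, fun P hP => fin0_of_centred₀ T hP⟩
    · rw [T.r₁_eq_some_iff₀ hv₁ P]
      exact ⟨fun hh => hh.2, fun hh => ⟨fin0_of_centred₀ T hh, hh⟩⟩
    · rw [T.r₂_eq_some_iff₀ hv₂ P]
      exact ⟨fun hh => hh.2, fun hh => ⟨fin0_of_centred₀ T hh, hh⟩⟩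
  · right
    have hv₂ : T.C1.Val₂ χ Q₂ := by
      rcases h2' with ⟨hf, -⟩ | ⟨-, χ', hχ', -, hv⟩
      · exact absurd hf hfin
      · rwa [T.C1.centred_unique hχ hχ']
    refine ⟨χ, hs, hv₁, hv₂, fun P => ?_, fun P => ?_,
      fun P hP => Fermat.Agent.T33.GlueWire5.not_fin0_of_centred₁ T hP hs⟩
    · rw [T.r₁_eq_some_iff₁ hs hv₁ P]
      exact ⟨fun hh => hh.2,
        fun hh => ⟨Fermat.Agent.T33.GlueWire5.not_fin0_of_centred₁ T hh hs, hh⟩⟩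
    · rw [T.r₂_eq_some_iff₁ hs hv₂ P]
      exact ⟨fun hh => hh.2,
        fun hh => ⟨Fermat.Agent.T33.GlueWire5.not_fin0_of_centred₁ T hh hs, hh⟩⟩

/-- **the same in uniform shape.** -/
theorem exists_chart_pt (k : T.rawRed.Node) :
    ∃ (C : Chart c₁ c₂) (_ : C = T.C0 ∨ C = T.C1) (χ : C.Pt),
      C.Val₁ χ (T.rawRed.nodalData.s1 k) ∧ C.Val₂ χ (T.rawRed.nodalData.s2 k) ∧
      (∀ P : Place K F, T.r₁ P = some (T.rawRed.nodalData.s1 k) ↔ C.Centred P χ) ∧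
      (∀ P : Place K F, T.r₂ P = some (T.rawRed.nodalData.s2 k) ↔ C.Centred P χ) := by
  rcases node_chart T k with ⟨χ, hv₁, hv₂, h₁, h₂, -⟩ | ⟨χ, -, hv₁, hv₂, h₁, h₂, -⟩
  · exact ⟨T.C0, Or.inl rfl, χ, hv₁, hv₂, h₁, h₂⟩
  · exact ⟨T.C1, Or.inr rfl, χ, hv₁, hv₂, h₁, h₂⟩

end Abstract

/-! ### the instance at `X₀(M'p)` -/

section Instance

open ModularCurve
open Fermat.Agent.RED.Interface4 Fermat.Agent.ES.RED
  Fermat.Agent.T33.NodalHalf4 Fermat.Agent.T33.NodalInst4E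

variable {p M' : ℕ} [NeZero M'] [NeZero p] {A : ValuationSubring Qbar}

/-- shortcut instance. -/
local instance (priority := high) algebraKFbNC : Algebra (Setup8.kA A) (Fb A M') := inferInstance

variable (h : LevelHyp p M' A)

/-- **a node of `X₀(M'p)` is a point of one of the two charts** (`C = (T h).C0` or `(T h).C1`):
the places reducing to the node are the places centred at that point. -/
theorem exists_chart_pt_level (k : Node h) :
    ∃ (C : Chart (c1 h) (c2 h)) (_ : C = (T h).C0 ∨ C = (T h).C1) (χ : C.Pt),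
      C.Val₁ χ ((Nd h).s1 k) ∧ C.Val₂ χ ((Nd h).s2 k) ∧
      (∀ P : Place Qbar ↥(Fbar (M' * p)),
        (Fermat.Agent.T33.NodalInst4G.nodalRed h).RedToNode P k ↔ C.Centred P χ) ∧
      (∀ P : Place Qbar ↥(Fbar (M' * p)),
        (Fermat.Agent.T33.NodalInst4G.nodalRed h).r₂ P = some ((Nd h).s2 k) ↔ C.Centred P χ) :=
  exists_chart_pt (T h) k

/-- the split form, with the chart-specific side conditions. -/
theorem node_chart_level (k : Node h) :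
    (∃ χ : (T h).C0.Pt, (T h).C0.Val₁ χ ((Nd h).s1 k) ∧ (T h).C0.Val₂ χ ((Nd h).s2 k) ∧
        (∀ P : Place Qbar ↥(Fbar (M' * p)),
          (Fermat.Agent.T33.NodalInst4G.nodalRed h).RedToNode P k ↔ (T h).C0.Centred P χ) ∧
        ∀ P : Place Qbar ↥(Fbar (M' * p)), (T h).C0.Centred P χ → (T h).Fin0 P) ∨
    (∃ χ : (T h).C1.Pt, χ (T h).s1 = 0 ∧ (T h).C1.Val₁ χ ((Nd h).s1 k) ∧
        (T h).C1.Val₂ χ ((Nd h).s2 k) ∧
        (∀ P : Place Qbar ↥(Fbar (M' * p)),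
          (Fermat.Agent.T33.NodalInst4G.nodalRed h).RedToNode P k ↔ (T h).C1.Centred P χ) ∧
        ∀ P : Place Qbar ↥(Fbar (M' * p)), (T h).C1.Centred P χ → ¬ (T h).Fin0 P) := by
  rcases node_chart (T h) k with ⟨χ, hv₁, hv₂, h₁, -, hf⟩ | ⟨χ, hs, hv₁, hv₂, h₁, -, hf⟩
  · exact Or.inl ⟨χ, hv₁, hv₂, h₁, hf⟩
  · exact Or.inr ⟨χ, hs, hv₁, hv₂, h₁, hf⟩

end Instance

end Fermat.Agent.U44.NodeChart1
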