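/-
Programme U44 (target S44), chapter (TR), instance layer, WIRE for `AnnInst6` (helper1):
**from annulus data at the points of the two charts to the annulus coordinates at the nodes.**

`ChartAnn h C χ Q₁ Q₂` : the data `AnnChart6` produces at a point `χ` of a chart `C` of the two-chart
model of `X₀(M'p)` with branches `Q₁` (first component), `Q₂` (second component): a function `zp`,
Gauss-integral on `c₁` with `ord_{Q₁} ρ₁ zp = 1`, `zp = p · y₂` with `y₂` a Gauss unit of `c₂`,
`ord_{Q₂} ρ₂ y₂ = -1`, the values `zp(P) ∈ 𝔪_A ∖ {0}`, `p / zp(P) ∈ 𝔪_A` at the places `P` centred at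
`χ`, `zp - zp(P)` has a simple zero at `P` and no other zero centred at `χ`, and `zp` is fixed by
the inertia group.

* `ChartAnn.annCoord` : an `AnnCoord (nodalRed h) k` for a node `k` whose places are the places
  centred at `χ` (`s1 k = Q₁`);
* `annCoord H k`, for `H : ∀ C (C = C0 ∨ C = C1) χ Q₁ Q₂, Val₁ χ Q₁ → Val₂ χ Q₂ → ChartAnn h C χ Q₁ Q₂`
  (node `k` ↦ chart point by `NodeChart1.exists_chart_pt_level`), with the exports
  `annCoord_ϖ`, `annCoord_ord_y₂`, `annCoord_gal_zp` : the four fields of `Local3.AnnInput h`.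
-/
import Mathlib
import Fermat.Agent.U44.Annulus3
import Fermat.Agent.U44.NodeChart1
import Fermat.Agent.U44.LocField9
import Fermat.Agent.T33.Psi3C
import Fermat.Agent.FF.InertiaWire8

set_option autoImplicit false
set_option linter.unusedSectionVars false
set_option linter.unusedVariables false
set_option linter.style.haveILetI false
set_option synthInstance.maxHeartbeats 400000

noncomputable section

open AlgebraicCurve IsLocalRing ModularCurve

namespace Fermat.Agent.U44.AnnWire1

open Fermat.Agent.T33.NodalCtx1 Fermat.Agent.T33.NodalCurve6 Fermat.Agent.T33.NodalPlaces1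
  Fermat.Agent.X0.FF Fermat.Agent.U44.GaussRed3 Fermat.Agent.U44.Annulus3
  Fermat.Agent.FF.InertiaWire8 Fermat.Agent.T33.Psi3C
  Fermat.Agent.RED.Interface4 Fermat.Agent.ES.RED
  Fermat.Agent.T33.NodalHalf4 Fermat.Agent.T33.NodalInst4E

variable {p M' : ℕ} [NeZero M'] [NeZero p] {A : ValuationSubring Qb}

/-- shortcut instance. -/
local instance (priority := high) algebraKFbAW : Algebra (Setup8.kA A) (Fb A M') := inferInstance

/-- shortcut instance. -/
local instance (priority := high) algebraAFbarAW : Algebra ↥A ↥(Fbar (M' * p)) := inferInstance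

/-- **annulus data of thickness `p` at a point `χ` of a chart, with branches `Q₁`, `Q₂`.** -/
structure ChartAnn (h : LevelHyp p M' A) (C : Chart (c1 h) (c2 h)) (χ : C.Pt)
    (Q₁ Q₂ : Place (Setup8.kA A) (Fb A M')) where
  /-- the coordinate. -/
  zp : ↥(Fbar (M' * p))
  /-- `zp / p`. -/
  y₂ : ↥(Fbar (M' * p))
  zp_mem : zp ∈ (c1 h).O
  ord_zp : Q₁.ord (red (c1 h) zp) = 1
  zp_eq : zp = algebraMap Qb ↥(Fbar (M' * p)) (p : Qb) * y₂
  y₂_gu : IsGU (c2 h) y₂
  ord_y₂ : Q₂.ord (red (c2 h) y₂) = -1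
  /-- the value `zp(P)` at a place centred at `χ`. -/
  value : Place Qb ↥(Fbar (M' * p)) → Qb
  value_small : ∀ P, C.Centred P χ → Small A (value P)
  value_ne : ∀ P, C.Centred P χ → value P ≠ 0
  value_big : ∀ P, C.Centred P χ → Small A ((p : Qb) / value P)
  value_spec : ∀ P, C.Centred P χ →
    0 < P.ord (zp - algebraMap Qb ↥(Fbar (M' * p)) (value P))
  unique : ∀ P P', C.Centred P χ → C.Centred P' χ →
    0 < P'.ord (zp - algebraMap Qb ↥(Fbar (M' * p)) (value P)) → P' = P
  simple : ∀ P, C.Centred P χ → P.ord (zp - algebraMap Qb ↥(Fbar (M' * p)) (value P)) = 1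
  gal_zp : ∀ σ : Iner A, gal (M' * p) (σ : GQ) • zp = zp

variable {h : LevelHyp p M' A}

/-- **the annulus coordinate at a node whose places are the places centred at `χ`.** -/
def ChartAnn.annCoord {C : Chart (c1 h) (c2 h)} {χ : C.Pt} {k : Node h}
    (D : ChartAnn h C χ ((Nd h).s1 k) ((Nd h).s2 k))
    (hk : ∀ P : Place Qb ↥(Fbar (M' * p)),
      (Fermat.Agent.T33.NodalInst4G.nodalRed h).RedToNode P k ↔ C.Centred P χ) :
    AnnCoord (Fermat.Agent.T33.NodalInst4G.nodalRed h) k where
  zp := D.zp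
  ϖ := (p : Qb)
  y₂ := D.y₂
  ϖ_small := Fermat.Agent.U44.LocField9.small_p h.liesOver
  ϖ_ne := Nat.cast_ne_zero.2 (NeZero.ne p)
  zp_mem := D.zp_mem
  ord_zp := D.ord_zp
  zp_eq := D.zp_eq
  y₂_gu := D.y₂_gu
  value := D.value
  value_small P hP := D.value_small P ((hk P).1 hP)
  value_ne P hP := D.value_ne P ((hk P).1 hP)
  value_big P hP := D.value_big P ((hk P).1 hP)
  value_spec P hP := D.value_spec P ((hk P).1 hP)
  unique P P' hP hP' := D.unique P P' ((hk P).1 hP) ((hk P').1 hP')
  simple P hP := D.simple P ((hk P).1 hP)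

/-- the hypothesis: annulus data at all the two-branch points of the two charts. -/
abbrev ChartAnnAll (h : LevelHyp p M' A) : Type :=
  ∀ (C : Chart (c1 h) (c2 h)), (C = (T h).C0 ∨ C = (T h).C1) → ∀ (χ : C.Pt)
    (Q₁ Q₂ : Place (Setup8.kA A) (Fb A M')), C.Val₁ χ Q₁ → C.Val₂ χ Q₂ → ChartAnn h C χ Q₁ Q₂

/-- the chart of the node `k`. -/
def chartOf (k : Node h) : Chart (c1 h) (c2 h) :=
  (Fermat.Agent.U44.NodeChart1.exists_chart_pt_level h k).choose

theorem chartOf_eq (k : Node h) : chartOf k = (T h).C0 ∨ chartOf k = (T h).C1 :=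
  (Fermat.Agent.U44.NodeChart1.exists_chart_pt_level h k).choose_spec.choose

/-- the point of the node `k`. -/
def ptOf (k : Node h) : (chartOf k).Pt :=
  (Fermat.Agent.U44.NodeChart1.exists_chart_pt_level h k).choose_spec.choose_spec.choose

theorem ptOf_spec (k : Node h) :
    (chartOf k).Val₁ (ptOf k) ((Nd h).s1 k) ∧ (chartOf k).Val₂ (ptOf k) ((Nd h).s2 k) ∧
      (∀ P : Place Qb ↥(Fbar (M' * p)),
        (Fermat.Agent.T33.NodalInst4G.nodalRed h).RedToNode P k ↔
          (chartOf k).Centred P (ptOf k)) :=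
  ⟨(Fermat.Agent.U44.NodeChart1.exists_chart_pt_level h k).choose_spec.choose_spec.choose_spec.1,
    (Fermat.Agent.U44.NodeChart1.exists_chart_pt_level h k).choose_spec.choose_spec.choose_spec.2.1,
    (Fermat.Agent.U44.NodeChart1.exists_chart_pt_level h k).choose_spec.choose_spec.choose_spec.2.2.1⟩

/-- the chart data at the node `k`. -/
def dataOf (H : ChartAnnAll h) (k : Node h) :
    ChartAnn h (chartOf k) (ptOf k) ((Nd h).s1 k) ((Nd h).s2 k) :=
  H (chartOf k) (chartOf_eq k) (ptOf k) _ _ (ptOf_spec k).1 (ptOf_spec k).2.1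

/-- **annulus coordinates of thickness `p` at all the nodes.** -/
def annCoord (H : ChartAnnAll h) (k : Node h) :
    AnnCoord (Fermat.Agent.T33.NodalInst4G.nodalRed h) k :=
  (dataOf H k).annCoord (ptOf_spec k).2.2

theorem annCoord_ϖ (H : ChartAnnAll h) (k : Node h) : (annCoord H k).ϖ = (p : Qb) := rfl

theorem annCoord_ord_y₂ (H : ChartAnnAll h) (k : Node h) :
    ((Nd h).s2 k).ord (red (c2 h) (annCoord H k).y₂) = -1 :=
  (dataOf H k).ord_y₂

theorem annCoord_gal_zp (H : ChartAnnAll h) (k : Node h) (σ : Iner A) :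
    gal (M' * p) (σ : GQ) • (annCoord H k).zp = (annCoord H k).zp :=
  (dataOf H k).gal_zp σ

end Fermat.Agent.U44.AnnWire1
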