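/-
Programme U44 (target S44), LOCAL ASSEMBLY, adapter (helper3): `Local3.AnnInput h` from helper1's
`AnnWire1.ChartAnnAll h` (the output shape of helper6's `AnnChart6`), and `Local3B.local_main_good`
with the open input (a) in that form.
-/
import Mathlib
import Fermat.Agent.U44.Local3B
import Fermat.Agent.U44.AnnWire1

set_option autoImplicit false
set_option linter.unusedSectionVars false
set_option linter.style.haveILetI false
set_option linter.unusedVariables false
set_option synthInstance.maxHeartbeats 400000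

noncomputable section

open AlgebraicCurve IsLocalRing ModularCurve

namespace Fermat.Agent.U44.AnnInput3

open Fermat.Agent.T33.NodalCtx1 Fermat.Agent.T33.NodalCurve6
  Fermat.Agent.X0 Fermat.Agent.X0.FF Fermat.Agent.U44.GaussRed3 Fermat.Agent.U44.Annulus3
  Fermat.Agent.U44.LocInst1B Fermat.Agent.FF.InertiaWire8 Fermat.Agent.T33.Psi3C
  Fermat.Agent.T33.NodalHalf4 Fermat.Agent.RED.Interface4
  Fermat.Agent.U44.LevelEll4 Fermat.Agent.U44.HeckeC4 Fermat.Agent.U44.GammaLevel2
  Fermat.Agent.U44.GammaGauss2 Fermat.Agent.ES.RED Fermat.Agent.U44.Local3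
  AlgebraicCurve.SemilinearAut

open Fermat.Agent.U44.Wire7 (Ep Good)

open WeierstrassCurve WeierstrassCurve.Affine

section Adapter

variable {p M' : ℕ} [NeZero M'] [NeZero p] {A : ValuationSubring Qb}

/-- **the adapter**: annulus data at all chart points give `Local3.AnnInput`. -/
def annInput {h : LevelHyp p M' A} (H : Fermat.Agent.U44.AnnWire1.ChartAnnAll h) : AnnInput h where
  X := Fermat.Agent.U44.AnnWire1.annCoord H
  ϖ_eq := Fermat.Agent.U44.AnnWire1.annCoord_ϖ H
  ord_y₂ := Fermat.Agent.U44.AnnWire1.annCoord_ord_y₂ H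
  gal_zp := Fermat.Agent.U44.AnnWire1.annCoord_gal_zp H

end Adapter

variable (P : FreyPackage) {M' : ℕ} [NeZero M'] [NeZero P.p] {A : ValuationSubring Qb}

/-- **LOCAL ASSEMBLY in the shape of `WireCore7`**, open inputs: `AnnWire1.ChartAnnAll` at every
level hypothesis (helper6, `AnnChart6`) and `SpecNat1.C3` (lead, `GammaTwo0`). -/
theorem local_main_chart (hpabc : (P.p : ℤ) ∣ P.a * P.b * P.c)
    (hirr : WeierstrassCurve.Affine.Point.GaloisRepIsIrreducible (K := Qb) ℚ P.freyCurve P.p)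
    (W : WeierstrassCurve ℤ) (hW : W.IsIntegralModelOf P.freyCurve) {N : ℕ} [NeZero N]
    (h : LevelHyp P.p M' A)
    (ι : Ep P →+ JZero (M' * P.p)) (hinj : Function.Injective ι)
    (hι : ∀ (σ : GQ) (z : Ep P), ι (σ • z) = σ • ι z)
    (hT : ∀ ℓ : Nat.Primes, (ℓ : ℕ) ∈ Good W N P.p \ {2} → ∀ z : Ep P,
      heckeOperatorBar (M' * P.p) ℓ (ι z) = (W.apOfModel ℓ) • ι z)
    (hτ' : ∀ z : Ep P,
      ofAlgAut (tau'L (M' * P.p) (four_dvd_mul h.four_dvd)) • ι z = ι z)
    (H : ∀ {M'' : ℕ} [NeZero M''] (h' : LevelHyp P.p M'' A),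
      Fermat.Agent.U44.AnnWire1.ChartAnnAll h')
    (hC : Fermat.Agent.U44.SpecNat1.C3 h) :
    ∃ y : JZeroC (Setup8.kA A) M', y ≠ 0 ∧ P.p • y = 0 ∧
      (∀ (l : ℕ) [NeZero l] (hl : l.Prime) (hlp : l ≠ P.p) (hlM : ¬ l ∣ M'),
        l ∈ Good W N P.p \ {2} → heckeC h hl hlp hlM y = (W.apOfModel l) • y) ∧
      ofAlgAut (tauB' h) • y = y ∧
      ((∀ z : Ep P, ofAlgAut (tauL (M' * P.p) (four_dvd_mul h.four_dvd)) • ι z = ι z) →
        ofAlgAut (tauB h) • y = y) :=
  Fermat.Agent.U44.Local3B.local_main_good P hpabc hirr W hW (N := N) h ι hinj hι hT hτ'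
    (annInput (H h)) (fun l _ hl hlp => annInput (H (hEll h hl hlp))) hC

end Fermat.Agent.U44.AnnInput3
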