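/-
Programme U44 (stage 0), chapter (HECKE), block (H2) input (helper9): **`t(𝐪^ℓ)` lies in the charts
of the level `M'ℓp`** — the modular equation of level `ℓ` over `A`, the input of (C-β weak).

`h : LevelHyp p M' A`, `ℓ` a prime with `ℓ ≠ p`, `ℓ ∤ M'`, `h' = hEll h hℓ hℓp`.  Then
`betaE M' p ℓ (tA h) = t(𝐪^ℓ) ∈ B0A h' = chart A t` and `t(𝐪^ℓ)⁻¹ ∈ B1A h' = chart A t⁻¹` in
`Fbar ((M'ℓ)p)`.

Route (the one of `T33/NodalWit4A` / `ES/N34/ItemsAd6` for `ℓ = p`, with `x = α_p (β_ℓ t)` in place of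
`y_N = β_p t`): at a large number field `K`, `x` is integral over `K[t]` (`ModEq23.isIntegral_qExpand_tq`,
valid for every prime `ℓ ∤ 4`), lies in both Gauss valuation rings `O1`, `O2` of the level `(M'ℓ, p)`
(`YMem11.qExpand_tq_mem`; for `O2` through the Fricke isometry `IsoM25.isoM` of the GOOD level `M'ℓ`),
hence in the chart over the discrete valuation ring `A ∩ K` by `π`-saturation
(`SatIntegral18.mem_of_isIntegral_field`, `GlueItems`); base change to `A` by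
`NodalBase4A.baseChangeHom_mem_B0A`.

* `mem_B0_of`, `mem_B1_of` : the saturation argument for an arbitrary element;
* `xItems_at` : the finite-level statement;
* `exists_level` : at some number field;
* **`betaE_tA_mem`**, **`betaE_tA_inv_mem`**.
-/
import Mathlib
import Fermat.Agent.T33.NodalWit4A
import Fermat.Agent.ES.N34.ItemsAd6
import Fermat.Agent.U44.LevelEllB4

set_option autoImplicit false
set_option linter.unusedSectionVars false
set_option linter.style.haveILetI false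
set_option linter.unusedVariables false
set_option synthInstance.maxHeartbeats 400000

noncomputable section

open HahnSeries ModularCurve IntermediateField

namespace Fermat.Agent.U44.BetaChart9

open Fermat.Agent.RED.Interface4 Fermat.Agent.RED.PUR.GaussGen8
  Fermat.Agent.RED.BASE.EtaQuot12 Fermat.Agent.RED.BASE.Hauptmodul12
  Fermat.Agent.RED.PUR.ChartGeneric22
  Fermat.Agent.ES.N34.ModelDefs9 Fermat.Agent.ES.N34.ModelN4 Fermat.Agent.ES.N34.FrickeFK8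
  Fermat.Agent.ES.N34.FrickeV11 Fermat.Agent.ES.N34.YMem11 Fermat.Agent.ES.N34.ModEq23
  Fermat.Agent.ES.N34.SatIntegral18

/-! ### the saturation argument for an arbitrary element -/

section Sat

variable (A : ValuationSubring Qbar) {K : IntermediateField ℚ Qbar} {M : ℕ} (q : ℕ)
  [NeZero M] [NeZero q] {n e : ℕ} [NeZero n]

/-- **chart `0`**: an element integral over `K[t]` lying in `O1 ⊓ O2` lies in `B0`. -/
theorem mem_B0_of (ht : tq (↥K) n e ∈ FK M K) (π : ↥(AK A K))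
    (dvrR : ∀ r : ↥(AK A K), r ≠ 0 → ∃ (k : ℕ) (v : (↥(AK A K))ˣ), r = π ^ k * v)
    (O1 O2 : ValuationSubring ↥(FK (M * q) K))
    (hπ1 : algebraMap ↥(AK A K) ↥(FK (M * q) K) π ∈ O1)
    (hπ2 : algebraMap ↥(AK A K) ↥(FK (M * q) K) π ∈ O2)
    (sat0 : ∀ b ∈ B0 A q ht, ∀ c : ↥(FK (M * q) K), c ∈ O1 → c ∈ O2 →
      b = algebraMap ↥(AK A K) ↥(FK (M * q) K) π * c → c ∈ B0 A q ht)
    {x : ↥(FK (M * q) K)} (hI : IsIntegral (Algebra.adjoin K {tN q ht}) x)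
    (hx1 : x ∈ O1) (hx2 : x ∈ O2) : x ∈ B0 A q ht := by
  have hB : ∀ y : ↥(FK (M * q) K), IsIntegral (Algebra.adjoin ↥(AK A K) {tN q ht}) y →
      y ∈ B0 A q ht := by
    intro y hy
    unfold B0
    exact mem_chart_iff.2 hy
  exact mem_of_isIntegral_field (R := ↥(AK A K)) (K := ↥K) (F := ↥(FK (M * q) K)) π dvrR
    (tN q ht) (B0 A q ht) hB O1 O2 hπ1 hπ2 sat0 hI hx1 hx2

/-- **chart `1`**: an element integral over `K[t⁻¹]` lying in `O1 ⊓ O2` lies in `B1`. -/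
theorem mem_B1_of (ht : tq (↥K) n e ∈ FK M K) (π : ↥(AK A K))
    (dvrR : ∀ r : ↥(AK A K), r ≠ 0 → ∃ (k : ℕ) (v : (↥(AK A K))ˣ), r = π ^ k * v)
    (O1 O2 : ValuationSubring ↥(FK (M * q) K))
    (hπ1 : algebraMap ↥(AK A K) ↥(FK (M * q) K) π ∈ O1)
    (hπ2 : algebraMap ↥(AK A K) ↥(FK (M * q) K) π ∈ O2)
    (sat1 : ∀ b ∈ B1 A q ht, ∀ c : ↥(FK (M * q) K), c ∈ O1 → c ∈ O2 →
      b = algebraMap ↥(AK A K) ↥(FK (M * q) K) π * c → c ∈ B1 A q ht)
    {x : ↥(FK (M * q) K)} (hI : IsIntegral (Algebra.adjoin K {(tN q ht)⁻¹}) x)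
    (hx1 : x ∈ O1) (hx2 : x ∈ O2) : x ∈ B1 A q ht := by
  have hB : ∀ y : ↥(FK (M * q) K), IsIntegral (Algebra.adjoin ↥(AK A K) {(tN q ht)⁻¹}) y →
      y ∈ B1 A q ht := by
    intro y hy
    unfold B1
    exact mem_chart_iff.2 hy
  exact mem_of_isIntegral_field (R := ↥(AK A K)) (K := ↥K) (F := ↥(FK (M * q) K)) π dvrR
    (tN q ht)⁻¹ (B1 A q ht) hB O1 O2 hπ1 hπ2 sat1 hI hx1 hx2

end Sat

/-! ### the finite-level statement -/

section Level

variable {n e M : ℕ} [NeZero n] [NeZero M] {q : ℕ} [NeZero q] {A : ValuationSubring Qbar}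
  {K : IntermediateField ℚ Qbar}

/-- **`x = α_q z`, `z = t(𝐪^ℓ)` of the good level `M`, lies in the charts of the level `(M, q)`**
over `A ∩ K`. -/
theorem xItems_at [FiniteDimensional ℚ K] (hb : BaseHyp n e) (hq : q.Prime)
    (hqM : ¬ q ∣ M) (hA : A.LiesOverPrime q) (ℓ : ℕ) [NeZero ℓ] (hℓ : ℓ.Prime) (hℓn : ¬ ℓ ∣ n)
    (h1 : ChartItems n e q M A K) (h2 : GlueItems n e q M A K)
    (z : FK M K) (hz : (z : LaurentSeries K) = qExpand K ℓ (tq K n e))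
    (ht : tq (↥K) n e ∈ FK M K) :
    alpha K M q z ∈ B0 A q ht ∧ (alpha K M q z)⁻¹ ∈ B1 A q ht := by
  obtain ⟨hdvr, ht', hc⟩ := h1
  obtain ⟨ϖ, hϖ⟩ := IsDiscreteValuationRing.exists_irreducible ↥(AK A K)
  have hπ : IsUnif (AK A K) ϖ := isUnif_of_irreducible (AK A K) hϖ
  have : NeZero (M * q) := ⟨Nat.mul_ne_zero (NeZero.ne M) (NeZero.ne q)⟩
  have hE : FK (M * q) K ≤ fracField (AK A K) :=
    Fermat.Agent.RED.PUR.GaussBridge10.FK_le_fracField A K (M * q)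
  have g := h2 ht hE ϖ hπ
  have hci : Fermat.Agent.ES.N34.ChartN26.ChartInputs ↥(AK A K) ↥K ↥(FK (M * q) K) ϖ (tN q ht) :=
    (hc ϖ hϖ).out
  have : Fact q.Prime := ⟨hq⟩
  have : CharP (Res (AK A K)) q :=
    Fermat.Agent.RED.DESC.NumberFieldDVR27.charP_residueField_AK A K hq hA
  have hiso : ∀ x : FK M K, (x : LaurentSeries K) ∈ gaussRing (AK A K) →
      ((frickeFK M K x : FK M K) : LaurentSeries K) ∈ gaussRing (AK A K) :=
    fun x hx => (Fermat.Agent.ES.N34.IsoM25.isoM A K M q hϖ hqM x).1 hx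
  -- `z`, `z⁻¹` in the Gauss ring
  have hzG : (z : LaurentSeries K) ∈ gaussRing (AK A K) := by
    rw [hz]; exact qExpand_tq_mem (AK A K) n e ℓ
  have hzinv : (((z⁻¹ : FK M K)) : LaurentSeries K) = ((z : FK M K) : LaurentSeries K)⁻¹ := rfl
  have hziG : (((z⁻¹ : FK M K)) : LaurentSeries K) ∈ gaussRing (AK A K) := by
    rw [hzinv, hz]; exact qExpand_tq_inv_mem (AK A K) n e ℓ
  -- the four memberships
  have hx1 : alpha K M q z ∈ O1 M q hπ hE := by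
    rw [mem_O1_iff, coe_alpha]; exact hzG
  have hx2 : alpha K M q z ∈ O2 M q hπ hE := by
    rw [mem_O2_iff_wN_mem_O1, mem_O1_iff, wN_alpha, coe_beta]
    exact qExpand_mem (AK A K) q (hiso z hzG)
  have hxi1 : (alpha K M q z)⁻¹ ∈ O1 M q hπ hE := by
    rw [← map_inv₀, mem_O1_iff, coe_alpha]; exact hziG
  have hxi2 : (alpha K M q z)⁻¹ ∈ O2 M q hπ hE := by
    rw [← map_inv₀, mem_O2_iff_wN_mem_O1, mem_O1_iff, wN_alpha, coe_beta]
    exact qExpand_mem (AK A K) q (hiso z⁻¹ hziG)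
  -- integrality over `K[t^{±1}]`
  have hI : IsIntegral (Algebra.adjoin K {tN q ht}) (alpha K M q z) :=
    isIntegral_of_coe_eq K _ (coe_tN q ht) (by rw [coe_alpha, hz])
      (isIntegral_qExpand_tq K ℓ hb hℓ hℓn)
  have hIi : IsIntegral (Algebra.adjoin K {(tN q ht)⁻¹}) (alpha K M q z)⁻¹ := by
    refine isIntegral_of_coe_eq K _ ?_ ?_ (isIntegral_inv_qExpand_tq K ℓ hb hℓ hℓn)
    · rw [IntermediateField.coe_inv, coe_tN]
    · rw [IntermediateField.coe_inv, coe_alpha, hz]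
  exact ⟨mem_B0_of A q ht ϖ hci.dvrR (O1 M q hπ hE) (O2 M q hπ hE) (g.R_le_O1 ϖ) (g.R_le_O2 ϖ)
      g.sat0 hI hx1 hx2,
    mem_B1_of A q ht ϖ hci.dvrR (O1 M q hπ hE) (O2 M q hπ hE) (g.R_le_O1 ϖ) (g.R_le_O2 ϖ)
      g.sat1 hIi hxi1 hxi2⟩

end Level

/-! ### the instance over `A` -/

open Fermat.Agent.T33.NodalHalf4 Fermat.Agent.T33.NodalBase4A Fermat.Agent.T33.LocalReg5B
  Fermat.Agent.U44.LevelEll4 Fermat.Agent.U44.LevelEllB4 Fermat.Agent.RED.DESC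
  Fermat.Agent.RED.DESC.PlaceExtend27 Fermat.Agent.ES.RED

variable {p M' : ℕ} [NeZero M'] [NeZero p] {A : ValuationSubring Qbar}

variable (h : LevelHyp p M' A) {ℓ : ℕ} [NeZero ℓ] (hℓ : ℓ.Prime) (hℓp : ℓ ≠ p)

include h hℓ in
theorem not_dvd_four (hℓM : ¬ ℓ ∣ M') : ¬ ℓ ∣ 4 := fun hd => hℓM (dvd_trans hd h.four_dvd)

include h hℓ hℓp in
/-- the finite-level statement at some number field. -/
theorem exists_level (hℓM : ¬ ℓ ∣ M') :
    ∃ (K : IntermediateField ℚ Qbar) (ht₀ : tq (↥K) 4 8 ∈ FK M' K)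
      (ht : tq (↥K) 4 8 ∈ FK (M' * ℓ) K),
      alpha K (M' * ℓ) p (beta K M' ℓ (tM ht₀)) ∈ B0 A p ht ∧
        (alpha K (M' * ℓ) p (beta K M' ℓ (tM ht₀)))⁻¹ ∈ B1 A p ht := by
  have h' := hEll h hℓ hℓp
  have hJ := Fermat.Agent.RED.ModelFinal4.jTarget
    (Fermat.Agent.RED.BASE.MainCusp12.base_four (M' * ℓ) h'.four_dvd).1.genBase
  have hC : Large (ChartItems 4 8 p (M' * ℓ) A) :=
    Fermat.Agent.ES.N34.ModelTop4.chartItems_four h'.four_dvd h'.prime h'.liesOver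
  have hG : Large (GlueItems 4 8 p (M' * ℓ) A) :=
    Fermat.Agent.ES.N34.ModelEnd4.glueItems h'.prime h'.not_dvd h'.liesOver hJ
  obtain ⟨K, -, hfd, hKC, hKG⟩ := Large.exists_field (hC.and hG)
  haveI := hfd
  have ht₀ : tq (↥K) 4 8 ∈ FK M' K :=
    Fermat.Agent.ES.P36.CoeffField4.tq_mem_FK 4 8 M' (tMemM h) K
  have ht : tq (↥K) 4 8 ∈ FK (M' * ℓ) K :=
    Fermat.Agent.ES.P36.CoeffField4.tq_mem_FK 4 8 (M' * ℓ) (tMemM h') K
  exact ⟨K, ht₀, ht, xItems_at baseHyp_four h'.prime h'.not_dvd h'.liesOver ℓ hℓ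
    (not_dvd_four h hℓ hℓM) hKC hKG (beta K M' ℓ (tM ht₀)) (by rw [coe_beta, Fermat.Agent.ES.N34.ModelDefs9.coe_tM]) ht⟩

/-- the level-`K` element maps to `t(𝐪^ℓ)`. -/
theorem baseChangeHom_x {K : IntermediateField ℚ Qbar} (ht₀ : tq (↥K) 4 8 ∈ FK M' K) :
    baseChangeHom ((M' * ℓ) * p) K (alpha K (M' * ℓ) p (beta K M' ℓ (tM ht₀))) =
      betaE M' p ℓ (tA h) := by
  apply Subtype.ext
  rw [coe_baseChangeHom, coe_alpha, coe_beta, Fermat.Agent.ES.N34.ModelDefs9.coe_tM,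
    ResidueUnion1.coeffMap_qExpand', coeffMap_tq,
    coe_betaE, coe_tA]

/-- **`t(𝐪^ℓ)` lies in the chart `0` of the level `M'ℓp`.** -/
theorem betaE_tA_mem (hℓM : ¬ ℓ ∣ M') : betaE M' p ℓ (tA h) ∈ B0A (hEll h hℓ hℓp) := by
  obtain ⟨K, ht₀, ht, h0, -⟩ := exists_level h hℓ hℓp hℓM
  have := baseChangeHom_mem_B0A (hEll h hℓ hℓp) ht h0
  rwa [baseChangeHom_x h ht₀] at this

/-- **`t(𝐪^ℓ)⁻¹` lies in the chart `1` of the level `M'ℓp`.** -/
theorem betaE_tA_inv_mem (hℓM : ¬ ℓ ∣ M') : (betaE M' p ℓ (tA h))⁻¹ ∈ B1A (hEll h hℓ hℓp) := by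
  obtain ⟨K, ht₀, ht, -, h1⟩ := exists_level h hℓ hℓp hℓM
  have := baseChangeHom_mem_B1A (hEll h hℓ hℓp) ht h1
  rwa [map_inv₀, baseChangeHom_x h ht₀] at this

end Fermat.Agent.U44.BetaChart9
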