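/-
Programme U44 (target S44), chapter (CONN) (helper3): **the `p`-torsion of the Frey curve inside
`J₀(M' p)` is not contained in the formal part.**

`P : FreyPackage` with `p ∣ abc`, `h : LevelHyp p M' A`, `ι : E[p] →+ J₀(M' p)` injective and
`G_ℚ`-equivariant.  If `ι(E[p]) ⊆ formalTwo A (M' p) p`, then `ι` embeds `E[p]` into
`Glevel A p (M' p) 1 = ker Ψ₁`, which carries a connected Hopf order over `(W₀, Iner A)`
(`S33Final0.hasConnOrder_level`); a nonzero linear form `λ : E[p] → 𝔽_p` killing the line `V₁`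
(`FreyAtP8.frey_at_p` (F1): `dim V₁ = 1 < 2 = dim E[p]`) is invariant under the inertia group
(`(F2)`: `σ x − x ∈ V₁`), so `𝔽_p` with trivial action is a subquotient of `ker Ψ₁`:
contradiction with `WZero2.subquotient_eq_zero` (no unramified subquotients).

`frey_not_formal` : `∃ z, ι z ∉ formalTwo A (M' p) p`.
-/
import Mathlib
import Fermat.Agent.T33.S33Final0
import Fermat.Agent.T33.WZero2
import Fermat.Agent.U44.FreyAtP8
import Fermat.Agent.U44.FreyRep7

set_option autoImplicit false
set_option linter.unusedSectionVars false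
set_option linter.style.haveILetI false
set_option linter.unusedVariables false
set_option synthInstance.maxHeartbeats 400000

noncomputable section

open ModularCurve AlgebraicCurve WeierstrassCurve WeierstrassCurve.Affine

namespace Fermat.Agent.U44.Conn3

open Fermat.Agent.FF.InertiaWire8 Fermat.Agent.T33.NodalHalf4 Fermat.Agent.T33.Psi3D
  Fermat.Agent.T33.S33Wire7 Fermat.Agent.T33.ConnOrd2 Fermat.Agent.S13.FreyE1

variable (P : FreyPackage) {M' : ℕ} [NeZero M'] [NeZero P.p] {A : ValuationSubring Qb}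

/-- **(CONN)**: the Frey `p`-torsion is not contained in the formal part of `J₀(M' p)`. -/
theorem frey_not_formal (hpabc : (P.p : ℤ) ∣ P.a * P.b * P.c) (h : LevelHyp P.p M' A)
    (ι : Submodule.torsionBy ℤ (P.freyCurve⁄Qb).Point P.p →+ JZero (M' * P.p))
    (hinj : Function.Injective ι)
    (hι : ∀ (σ : GQ) (z : Submodule.torsionBy ℤ (P.freyCurve⁄Qb).Point P.p),
      ι (σ • z) = σ • ι z) :
    ∃ z : Submodule.torsionBy ℤ (P.freyCurve⁄Qb).Point P.p,
      ι z ∉ formalTwo A (M' * P.p) P.p := by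
  haveI : Fact P.p.Prime := ⟨P.pp⟩
  have hp : P.p.Prime := P.pp
  have hp2 : P.p ≠ 2 := h.ne_two
  have hA : A.LiesOverPrime P.p := h.liesOver
  by_contra hall
  push Not at hall
  obtain ⟨u, -, -, hF1, hF2, -, -⟩ := Fermat.Agent.U44.FreyAtP8.frey_at_p P hpabc A hA
  -- a nonzero linear form killing `V₁`
  have hlt : V1 P A < ⊤ := by
    rw [lt_top_iff_ne_top]
    intro htop
    have h2 := Fermat.Agent.U44.FreyRep7.finrank_Ep P
    have h3 : Module.finrank (ZMod P.p) (V1 P A) =
        Module.finrank (ZMod P.p) (Submodule.torsionBy ℤ (P.freyCurve⁄Qb).Point P.p) := by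
      rw [htop, finrank_top]
    rw [hF1] at h3
    have h4 : Module.finrank (ZMod P.p) (Submodule.torsionBy ℤ (P.freyCurve⁄Qb).Point P.p) = 2 :=
      h2
    omega
  obtain ⟨lam, hlam0, hlamV⟩ := Submodule.exists_le_ker_of_lt_top (V1 P A) hlt
  -- `λ` is onto
  obtain ⟨x₀, hx₀⟩ : ∃ x₀, lam x₀ ≠ 0 := by
    by_contra hno
    push Not at hno
    exact hlam0 (LinearMap.ext hno)
  have hsurj : Function.Surjective lam.toAddMonoidHom := fun c =>
    ⟨(c / lam x₀) • x₀, by
      show lam ((c / lam x₀) • x₀) = c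
      rw [map_smul, smul_eq_mul, div_mul_cancel₀ _ hx₀]⟩
  -- the embedding into `ker Ψ₁`
  have hmem : ∀ z : Submodule.torsionBy ℤ (P.freyCurve⁄Qb).Point P.p,
      ι z ∈ Glevel A P.p (M' * P.p) 1 := by
    intro z
    refine mem_Glevel_iff.2 ⟨hall z, ?_⟩
    rw [pow_one, ← map_nsmul]
    have hz : P.p • z = 0 := by
      apply Subtype.ext
      have h1 := z.2
      rw [Submodule.mem_torsionBy_iff] at h1
      have h2 : ((P.p • z : Submodule.torsionBy ℤ (P.freyCurve⁄Qb).Point P.p) :
          (P.freyCurve⁄Qb).Point) = P.p • (z : (P.freyCurve⁄Qb).Point) := rfl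
      rw [h2, ← Nat.cast_smul_eq_nsmul ℤ]
      exact h1
    rw [hz, map_zero]
  set j : Submodule.torsionBy ℤ (P.freyCurve⁄Qb).Point P.p →+
      (Unit → ↥(Glevel A P.p (M' * P.p) 1)) :=
    { toFun := fun z _ => ⟨ι z, hmem z⟩
      map_zero' := by
        funext _
        exact Subtype.ext (map_zero ι)
      map_add' := fun z z' => by
        funext _
        exact Subtype.ext (map_add ι z z') } with hj
  have hjinj : Function.Injective j := by
    intro z z' hzz
    have h1 := congrFun hzz ()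
    exact hinj (congrArg Subtype.val h1)
  have hjΓ : ∀ (σ : Iner A) (z : Submodule.torsionBy ℤ (P.freyCurve⁄Qb).Point P.p),
      j (σ • z) = σ • j z := by
    intro σ z
    funext _
    apply Subtype.ext
    show ι ((σ : GQ) • z) = (σ : GQ) • ι z
    exact hι (σ : GQ) z
  -- `𝔽_p` with the trivial action
  letI : DistribMulAction (Iner A) (ZMod P.p) :=
    { smul := fun _ x => x
      one_smul := fun _ => rfl
      mul_smul := fun _ _ _ => rfl
      smul_zero := fun _ => rfl
      smul_add := fun _ _ _ => rfl }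
  have hqΓ : ∀ (σ : Iner A) (z : Submodule.torsionBy ℤ (P.freyCurve⁄Qb).Point P.p),
      lam.toAddMonoidHom (σ • z) = σ • lam.toAddMonoidHom z := by
    intro σ z
    show lam ((σ : GQ) • z) = lam z
    have h1 : (σ : GQ) • z - z ∈ V1 P A := hF2 (σ : GQ) σ.2 z
    have h2 : lam ((σ : GQ) • z - z) = 0 := hlamV h1
    rw [map_sub, sub_eq_zero] at h2
    exact h2
  have hone := Fermat.Agent.T33.WZero2.subquotient_eq_zero hp hp2 hA
    (Fermat.Agent.T33.S33Final0.hasConnOrder_level h 1) Unit j hjinj hjΓ lam.toAddMonoidHom hsurj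
    hqΓ (fun y => ⟨1, by rw [pow_one, nsmul_eq_mul, ZMod.natCast_self, zero_mul]⟩)
    (fun _ _ => rfl) (1 : ZMod P.p)
  exact one_ne_zero hone

end Fermat.Agent.U44.Conn3
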