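/-
Programme U44 (target S44), block (TR), abstract layer (helper9): **the hypotheses of the local
factors from a compatible family of semilinear automorphisms**.

`γ : Γ → SemilinearAut K F` a family compatible with the nodal reduction context `N`
(`NodalRed.Compat`: the inertia group).  Then every `γ τ` is `SideCompat` with both sides
(`sideCompat₁`, `sideCompat₂`) and preserves the reduction of places, so that
`NodeFactor9.FactorHyp X (γ τ) (γ '' H) ε` (`factorHyp`) and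
`SmoothFactor9.SmoothHyp Y (γ τ) (γ '' H) ε` (`smoothHyp₁`, `smoothHyp₂`) hold as soon as the
coordinates are `γ`-fixed, `ε ∈ 𝔪_A`, and the `H`-fixed constants of `𝔪_A` move by `ε 𝔪_A` under `τ`.
-/
import Mathlib
import Fermat.Agent.U44.NodeFactor9
import Fermat.Agent.U44.SmoothFactor9

set_option autoImplicit false

open AlgebraicCurve IsLocalRing

namespace Fermat.Agent.U44.FactorCompat9

open Fermat.Agent.T33.NodalCtx1 Fermat.Agent.T33.NodalCurve6 Fermat.Agent.X0.FF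
  Fermat.Agent.U44.GaussRed3 Fermat.Agent.U44.Annulus3 Fermat.Agent.U44.Second3
  Fermat.Agent.U44.SmoothCoord3 Fermat.Agent.U44.NodeFactor9 Fermat.Agent.U44.SmoothFactor9

variable {K : Type*} [Field K] {A : ValuationSubring K}
variable {F : Type*} [Field F] [Algebra K F]
variable {Fb₁ Fb₂ : Type*} [Field Fb₁] [Field Fb₂]
  [Algebra (ResidueField A) Fb₁] [Algebra (ResidueField A) Fb₂]
variable {ι : Type*} {Nd : NodalData (ResidueField A) Fb₁ Fb₂ ι}
variable {N : NodalRed A F Nd} {Γ : Type*} {γ : Γ → SemilinearAut K F}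

theorem sideCompat₁ (hγ : N.Compat γ) (τ : Γ) : SideCompat N.c₁ (γ τ) where
  smul_mem := hγ.smul_mem₁ τ
  red_smul := fun y hy => by
    rw [red_of_mem N.c₁ hy, red_of_mem N.c₁ (hγ.smul_mem₁ τ y hy)]
    exact hγ.ρ₁_smul τ y hy _

theorem sideCompat₂ (hγ : N.Compat γ) (τ : Γ) : SideCompat N.c₂ (γ τ) where
  smul_mem := hγ.smul_mem₂ τ
  red_smul := fun y hy => by
    rw [red_of_mem N.c₂ hy, red_of_mem N.c₂ (hγ.smul_mem₂ τ y hy)]
    exact hγ.ρ₂_smul τ y hy _

theorem redToNode_smul (hγ : N.Compat γ) (τ : Γ) (P : Place K F) (k : ι) :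
    N.RedToNode (γ τ • P) k ↔ N.RedToNode P k := by
  unfold NodalRed.RedToNode
  rw [hγ.r₁_smul]

/-- **the hypotheses of the node factor** from a compatible family. -/
theorem factorHyp (hγ : N.Compat γ) {k : ι} (X : AnnCoord N k) (τ : Γ) (H : Set Γ) {ε : K}
    (hzp : ∀ σ : Γ, γ σ • X.zp = X.zp)
    (hϖ : ∀ σ : Γ, SemilinearAut.baseAut (γ σ) X.ϖ = X.ϖ) (hε : Small A ε)
    (hmove : ∀ c : K, (∀ σ ∈ H, SemilinearAut.baseAut (γ σ) c = c) → Small A c →
      ∃ s : K, Small A s ∧ SemilinearAut.baseAut (γ τ) c - c = ε * s) :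
    FactorHyp X (γ τ) (γ '' H) ε where
  side₁ := sideCompat₁ hγ τ
  side₂ := sideCompat₂ hγ τ
  τ_zp := hzp τ
  τ_ϖ := hϖ τ
  τ_node := fun P => redToNode_smul hγ τ P k
  H_zp := by
    rintro _ ⟨σ, -, rfl⟩
    exact hzp σ
  H_ϖ := by
    rintro _ ⟨σ, -, rfl⟩
    exact hϖ σ
  H_node := by
    rintro _ ⟨σ, -, rfl⟩ P hP
    exact (redToNode_smul hγ σ P k).2 hP
  ε_small := hε
  move := fun c hc hcs => hmove c (fun σ hσ => hc (γ σ) ⟨σ, hσ, rfl⟩) hcs

/-- **the hypotheses of the smooth factor on the first side.** -/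
theorem smoothHyp₁ (hγ : N.Compat γ) {Q : Place (ResidueField A) Fb₁}
    (Y : SmoothCoord N.c₁ N.r₁ Q) (τ : Γ) (H : Set Γ) {ε : K}
    (hy : ∀ σ : Γ, γ σ • Y.y = Y.y) (hε : Small A ε)
    (hmove : ∀ c : K, (∀ σ ∈ H, SemilinearAut.baseAut (γ σ) c = c) → Small A c →
      ∃ s : K, Small A s ∧ SemilinearAut.baseAut (γ τ) c - c = ε * s) :
    SmoothHyp Y (γ τ) (γ '' H) ε where
  side := sideCompat₁ hγ τ
  τ_y := hy τ
  τ_pt := fun P => by rw [hγ.r₁_smul]
  H_y := by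
    rintro _ ⟨σ, -, rfl⟩
    exact hy σ
  H_pt := by
    rintro _ ⟨σ, -, rfl⟩ P hP
    rw [hγ.r₁_smul]
    exact hP
  ε_small := hε
  move := fun c hc hcs => hmove c (fun σ hσ => hc (γ σ) ⟨σ, hσ, rfl⟩) hcs

/-- **the hypotheses of the smooth factor on the second side.** -/
theorem smoothHyp₂ (hγ : N.Compat γ) {Q : Place (ResidueField A) Fb₂}
    (Y : SmoothCoord N.c₂ N.r₂ Q) (τ : Γ) (H : Set Γ) {ε : K}
    (hy : ∀ σ : Γ, γ σ • Y.y = Y.y) (hε : Small A ε)
    (hmove : ∀ c : K, (∀ σ ∈ H, SemilinearAut.baseAut (γ σ) c = c) → Small A c →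
      ∃ s : K, Small A s ∧ SemilinearAut.baseAut (γ τ) c - c = ε * s) :
    SmoothHyp Y (γ τ) (γ '' H) ε where
  side := sideCompat₂ hγ τ
  τ_y := hy τ
  τ_pt := fun P => by rw [hγ.r₂_smul]
  H_y := by
    rintro _ ⟨σ, -, rfl⟩
    exact hy σ
  H_pt := by
    rintro _ ⟨σ, -, rfl⟩ P hP
    rw [hγ.r₂_smul]
    exact hP
  ε_small := hε
  move := fun c hc hcs => hmove c (fun σ hσ => hc (γ σ) ⟨σ, hσ, rfl⟩) hcs

end Fermat.Agent.U44.FactorCompat9
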