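/-
Programme U44 (target S44), block (TR), abstract layer (helper9): **the local factors in divisor
form**.

`D : Divisor K F` a divisor fixed by every `σ ∈ H`.  The local factors of `U44/NodeFactor9` and
`U44/SmoothFactor9`, applied to the part of `D` over a node `k` (resp. over a smooth point `Q`),
have the orders of `τ • D − D` at the places over `k` (resp. `Q`):

* `NodeDiv.exists_factor` : at a node, with `T_k = {P | D P ≠ 0, P → k}` and
  `b_k = ∏_{P ∈ T_k} z'(P)^{D P}`;
* `SmoothDiv.exists_factor` : over a smooth point;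
* `SmoothDiv.exists_pairs` : the product of the pair factors `(y − y(P_j)) / (y − y(P'_j))` over a
  finite family of pairs of places, with the orders of `∑_j (P_j − P'_j)` over `Q`.
-/
import Mathlib
import Fermat.Agent.U44.NodeFactor9
import Fermat.Agent.U44.SmoothFactor9

set_option autoImplicit false

open AlgebraicCurve IsLocalRing

namespace Fermat.Agent.U44.FactorDiv9

open Fermat.Agent.T33.NodalCtx1 Fermat.Agent.T33.NodalCurve6 Fermat.Agent.X0.FF
  Fermat.Agent.U44.GaussRed3 Fermat.Agent.U44.Annulus3 Fermat.Agent.U44.Second3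
  Fermat.Agent.U44.SmoothCoord3

variable {K : Type*} [Field K] {A : ValuationSubring K}
variable {F : Type*} [Field F] [Algebra K F]

/-! ### divisors fixed by a semilinear automorphism -/

theorem apply_smul_of_fixed {σ : SemilinearAut K F} {D : Divisor K F} (hD : σ • D = D)
    (P : Place K F) : D (σ • P) = D P := by
  have := SemilinearAut.divisor_smul_apply_smul σ D P
  rwa [hD] at this

theorem smul_apply (τ : SemilinearAut K F) (D : Divisor K F) (P : Place K F) :
    (τ • D) P = D (τ⁻¹ • P) := by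
  have := SemilinearAut.divisor_smul_apply_smul τ D (τ⁻¹ • P)
  rwa [smul_inv_smul] at this

/-! ### at a node -/

namespace NodeDiv

open Fermat.Agent.U44.NodeFactor9

variable {Fb₁ Fb₂ : Type*} [Field Fb₁] [Field Fb₂]
  [Algebra (ResidueField A) Fb₁] [Algebra (ResidueField A) Fb₂]
variable {ι : Type*} {Nd : NodalData (ResidueField A) Fb₁ Fb₂ ι}
variable {N : NodalRed A F Nd} {k : ι}
variable {X : AnnCoord N k} {τ : SemilinearAut K F} {H : Set (SemilinearAut K F)} {ε : K}

open scoped Classical in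
/-- the part of the support of `D` over the node `k`. -/
noncomputable def suppOver (N : NodalRed A F Nd) (k : ι) (D : Divisor K F) :
    Finset (Place K F) := D.support.filter fun P => N.RedToNode P k

theorem mem_suppOver {D : Divisor K F} {P : Place K F} :
    P ∈ suppOver N k D ↔ D P ≠ 0 ∧ N.RedToNode P k := by
  classical
  unfold suppOver
  rw [Finset.mem_filter, Finsupp.mem_support_iff]

/-- **the local factor at the node `k` for an `H`-fixed divisor.** -/
theorem exists_factor (h : FactorHyp X τ H ε) (D : Divisor K F) (hD : ∀ σ ∈ H, σ • D = D) :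
    ∃ Λ : F, Λ ≠ 0 ∧ Near N.c₁ ε Λ 0 ∧
      (∀ Q : Place K F, N.RedToNode Q k → Q.ord Λ = (τ • D) Q - D Q) ∧
      (∀ σ ∈ H, SemilinearAut.baseAut σ (∏ P ∈ suppOver N k D, X.value P ^ D P) =
        ∏ P ∈ suppOver N k D, X.value P ^ D P) ∧
      ∀ (m : A) (s : K), Small A s →
        SemilinearAut.baseAut τ (∏ P ∈ suppOver N k D, X.value P ^ D P) =
          (∏ P ∈ suppOver N k D, X.value P ^ D P) * (1 + ε * ((m : K) + s)) →
        Near N.c₂ ε Λ (algebraMap (ResidueField A) Fb₂ (residue A m)) := by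
  classical
  have hT : ∀ P ∈ suppOver N k D, N.RedToNode P k := fun P hP => (mem_suppOver.1 hP).2
  have hst : ∀ σ ∈ H, ∀ P ∈ suppOver N k D, σ • P ∈ suppOver N k D ∧ D (σ • P) = D P := by
    intro σ hσ P hP
    have h1 := apply_smul_of_fixed (hD σ hσ) P
    obtain ⟨h2, h3⟩ := mem_suppOver.1 hP
    exact ⟨mem_suppOver.2 ⟨by rw [h1]; exact h2, h.H_node σ hσ P h3⟩, h1⟩
  obtain ⟨Λ, hΛ0, hΛ₁, hord, hfix, hΛ₂⟩ := NodeFactor9.exists_factor (n := fun P => D P) h hT hst
  refine ⟨Λ, hΛ0, hΛ₁, ?_, hfix, hΛ₂⟩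
  intro Q hQ
  have e1 : (if τ⁻¹ • Q ∈ suppOver N k D then D (τ⁻¹ • Q) else 0) = D (τ⁻¹ • Q) := by
    split_ifs with h1
    · rfl
    · by_contra hne
      exact h1 (mem_suppOver.2 ⟨fun h0 => hne h0.symm, h.inv_node Q hQ⟩)
  have e2 : (if Q ∈ suppOver N k D then D Q else 0) = D Q := by
    split_ifs with h1
    · rfl
    · by_contra hne
      exact h1 (mem_suppOver.2 ⟨fun h0 => hne h0.symm, hQ⟩)
  rw [hord Q hQ, smul_apply]
  convert congrArg₂ (· - ·) e1 e2 using 2

end NodeDiv

/-! ### over a smooth point -/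

namespace SmoothDiv

open Fermat.Agent.U44.SmoothFactor9

variable {Fb : Type*} [Field Fb] [Algebra (ResidueField A) Fb]
variable {R : HalfRed A F Fb} {r : Place K F → Option (Place (ResidueField A) Fb)}
  {Q : Place (ResidueField A) Fb}
variable {Y : SmoothCoord R r Q} {τ : SemilinearAut K F} {H : Set (SemilinearAut K F)} {ε : K}

open scoped Classical in
/-- the part of the support of `D` over the point `Q`. -/
noncomputable def suppOver (r : Place K F → Option (Place (ResidueField A) Fb))
    (Q : Place (ResidueField A) Fb) (D : Divisor K F) : Finset (Place K F) :=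
  D.support.filter fun P => r P = some Q

theorem mem_suppOver {D : Divisor K F} {P : Place K F} :
    P ∈ suppOver r Q D ↔ D P ≠ 0 ∧ r P = some Q := by
  classical
  unfold suppOver
  rw [Finset.mem_filter, Finsupp.mem_support_iff]

/-- **the local factor over the smooth point `Q` for an `H`-fixed divisor.** -/
theorem exists_factor (h : SmoothHyp Y τ H ε) (D : Divisor K F) (hD : ∀ σ ∈ H, σ • D = D) :
    ∃ Λ : F, Λ ≠ 0 ∧ Near R ε Λ 0 ∧
      ∀ Z : Place K F, r Z = some Q → Z.ord Λ = (τ • D) Z - D Z := by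
  classical
  have hT : ∀ P ∈ suppOver r Q D, r P = some Q := fun P hP => (mem_suppOver.1 hP).2
  have hst : ∀ σ ∈ H, ∀ P ∈ suppOver r Q D, σ • P ∈ suppOver r Q D ∧ D (σ • P) = D P := by
    intro σ hσ P hP
    have h1 := apply_smul_of_fixed (hD σ hσ) P
    obtain ⟨h2, h3⟩ := mem_suppOver.1 hP
    exact ⟨mem_suppOver.2 ⟨by rw [h1]; exact h2, h.H_pt σ hσ P h3⟩, h1⟩
  obtain ⟨Λ, hΛ0, hΛ, hord⟩ := SmoothFactor9.exists_factor (n := fun P => D P) h hT hst
  refine ⟨Λ, hΛ0, hΛ, ?_⟩
  intro Z hZ
  have e1 : (if τ⁻¹ • Z ∈ suppOver r Q D then D (τ⁻¹ • Z) else 0) = D (τ⁻¹ • Z) := by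
    split_ifs with h1
    · rfl
    · by_contra hne
      exact h1 (mem_suppOver.2 ⟨fun h0 => hne h0.symm, h.inv_pt Z hZ⟩)
  have e2 : (if Z ∈ suppOver r Q D then D Z else 0) = D Z := by
    split_ifs with h1
    · rfl
    · by_contra hne
      exact h1 (mem_suppOver.2 ⟨fun h0 => hne h0.symm, hZ⟩)
  rw [hord Z hZ, smul_apply]
  convert congrArg₂ (· - ·) e1 e2 using 2

open scoped Classical in
/-- **the product of the pair factors** over a finite family of pairs of places over `Q` whose
values differ by elements of `ε 𝔪_A`. -/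
theorem exists_pairs (Y : SmoothCoord R r Q) (hε : Small A ε) {J : Type*} (S : Finset J)
    (P P' : J → Place K F) (hP : ∀ j ∈ S, r (P j) = some Q) (hP' : ∀ j ∈ S, r (P' j) = some Q)
    (hclose : ∀ j ∈ S, ∃ s : K, Small A s ∧ Y.value (P' j) - Y.value (P j) = ε * s) :
    ∃ Λ : F, Λ ≠ 0 ∧ Near R ε Λ 0 ∧
      ∀ Z : Place K F, r Z = some Q →
        Z.ord Λ = ∑ j ∈ S, ((if P j = Z then 1 else 0) - (if P' j = Z then 1 else 0)) := by
  refine ⟨∏ j ∈ S, (Y.y - algebraMap K F (Y.value (P j))) /
      (Y.y - algebraMap K F (Y.value (P' j))), ?_, ?_, ?_⟩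
  · exact Finset.prod_ne_zero_iff.2 fun j hj => pair_ne Y (hP j hj) (hP' j hj)
  · have := near_prod (R := R) hε S
      (fun j => (Y.y - algebraMap K F (Y.value (P j))) /
        (Y.y - algebraMap K F (Y.value (P' j)))) (fun _ => (0 : Fb)) fun j hj => by
        obtain ⟨s, hs, hd⟩ := hclose j hj
        exact near_pair Y (hP' j hj) hs hd
    rwa [Finset.sum_const_zero] at this
  · intro Z hZ
    rw [ord_finset_prod Z S _ fun j hj => pair_ne Y (hP j hj) (hP' j hj)]
    exact Finset.sum_congr rfl fun j hj => ord_pair Y (hP j hj) (hP' j hj) Z hZ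

end SmoothDiv

end Fermat.Agent.U44.FactorDiv9
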