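/-
Programme U44, chapter (HECKE), file 4 (helper4): **the fundamental identity
`∑_{w | v} e(w|v) = [F' : F]` under separability** -- a verbatim copy of `ES/HECKE/FundIdentity19`
(Program I, helper19) with the hypothesis `[CharZero K]` (used there only to make `F'/F`
separable) replaced by `[Algebra.IsSeparable F F']`; to be used on the special fibre
(characteristic `p`).
-/
import Mathlib
import Fermat.Agent.X0.FFSum
import Fermat.Prelude.Def_AlgebraicCurve_Correspondence

set_option autoImplicit false
set_option linter.style.haveILetI false

open AlgebraicCurve IsDedekindDomain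

noncomputable section

namespace Fermat.Agent.U44.FundIdSep4

open Fermat.Agent.X0 Fermat.Agent.X0.FF

variable {K F F' : Type*} [Field K] [Field F] [Field F'] [Algebra K F] [Algebra K F']
  [Algebra F F'] [IsScalarTower K F F']

/-- A valuation subring of `F` containing the valuation ring of a place and different from `F`
is that valuation ring (discrete valuation rings are maximal subrings). -/
theorem valuationSubring_eq_of_le (v : Place K F) (O : ValuationSubring F)
    (hle : v.toValuationSubring ≤ O) (hO : O ≠ ⊤) : O = v.toValuationSubring := by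
  apply le_antisymm _ hle
  intro f hf
  by_contra hfv
  apply hO
  rw [eq_top_iff]
  intro g _
  -- `f ∉ O_v`, so `ord_v f < 0`; every `g` is `f^n * (unit or element of O_v)`
  have hf0 : f ≠ 0 := fun h => hfv (h ▸ zero_mem _)
  have hordf : v.ord f < 0 := by
    by_contra h
    exact hfv (FF.mem_of_ord_nonneg v (not_lt.mp h))
  rcases eq_or_ne g 0 with rfl | hg0
  · exact zero_mem _
  -- choose `n` with `ord_v (g * f^(-n)) ≥ 0`
  obtain ⟨n, hn⟩ : ∃ n : ℕ, 0 ≤ v.ord g + (n : ℤ) * (-(v.ord f)) := by
    refine ⟨(-(v.ord g)).toNat, ?_⟩
    have h1 : (-(v.ord g)) ≤ ((-(v.ord g)).toNat : ℤ) := Int.self_le_toNat _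
    have h2 : (1 : ℤ) ≤ -(v.ord f) := by omega
    have h3 : (0 : ℤ) ≤ ((-(v.ord g)).toNat : ℤ) := Int.natCast_nonneg _
    nlinarith
  have hmem : g * (f ^ n)⁻¹ ∈ v.toValuationSubring := by
    apply FF.mem_of_ord_nonneg
    rw [v.ord_mul hg0 (inv_ne_zero (pow_ne_zero _ hf0)), v.ord_inv, FF.ord_pow]
    linarith
  have : g = g * (f ^ n)⁻¹ * f ^ n := by
    field_simp
  rw [this]
  exact mul_mem (hle hmem) (pow_mem hf n)

/-- **The local sum formula**: for a place `v` of `F`, the ramification indices of the places of
`F'` over `v` sum to `[F' : F]`. -/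
theorem sum_ramificationIndex [FiniteDimensional F F'] [Algebra.IsSeparable F F']
    [HasPrincipalDivisors K F']
    (hres : ∀ w : Place K F', ∀ f ∈ w.toValuationSubring,
      ∃ c : K, f = algebraMap K F' c ∨ 0 < w.ord (f - algebraMap K F' c))
    (v : Place K F) :
    ∑ w ∈ v.fiber F', (w.ramificationIndex F : ℤ) = (Module.finrank F F' : ℤ) := by
  classical
  -- the discrete valuation ring `A = O_v`
  let A := v.toValuationSubring
  letI : Algebra A F' := ((algebraMap F F').comp A.subtype).toAlgebra
  haveI : IsScalarTower A F F' := IsScalarTower.of_algebraMap_eq (fun _ => rfl)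
  -- the integral closure `B` of `A` in `F'`
  let B := integralClosure A F'
  haveI hDedB : IsDedekindDomain B := integralClosure.isDedekindDomain A F F'
  haveI hFracB : IsFractionRing B F' := integralClosure.isFractionRing_of_finite_extension F F'
  haveI hFinB : Module.Finite A B := IsIntegralClosure.finite A F F' B
  haveI hfaith : FaithfulSMul A B :=
    (faithfulSMul_iff_algebraMap_injective _ _).mpr (fun a b h => by
      have h1 : algebraMap A F' a = algebraMap A F' b :=
        congrArg (fun z : B => (z : F')) h
      exact Subtype.ext ((algebraMap F F').injective h1))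
  letI : Algebra K B := ((algebraMap A B).comp (algebraMap K A)).toAlgebra
  haveI : IsScalarTower K A B := IsScalarTower.of_algebraMap_eq (fun _ => rfl)
  haveI : IsScalarTower K B F' := IsScalarTower.of_algebraMap_eq (fun c => by
    show algebraMap K F' c = algebraMap F F' (algebraMap K F c)
    exact IsScalarTower.algebraMap_apply K F F' c)
  -- a uniformiser
  obtain ⟨t, ht⟩ := IsDiscreteValuationRing.exists_irreducible A
  have ht0 : t ≠ 0 := ht.ne_zero
  have hmax : (Ideal.span {t}).IsMaximal := by
    rw [← ht.maximalIdeal_eq]
    exact IsLocalRing.maximalIdeal.isMaximal A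
  have key := sum_ord_of_dedekind (K := K) (F := F') (A := A) (B := B) t ht0 hmax hres
  have htF : algebraMap B F' (algebraMap A B t) = algebraMap F F' (t : F) := rfl
  rw [htF] at key
  have hvt : v.ord (t : F) = 1 := v.ord_coe_irreducible ht
  -- `ord_w t = e(w|v)` on the fibre
  have hord : ∀ w : Place K F', w.restrict F = v →
      w.ord (algebraMap F F' (t : F)) = (w.ramificationIndex F : ℤ) := by
    intro w hw
    rw [w.ord_restrict (t : F), hw, hvt, mul_one]
  -- the index set is the fibre
  have hset : {w : Place K F' | (∀ b : B, algebraMap B F' b ∈ w.toValuationSubring) ∧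
      0 < w.ord (algebraMap F F' (t : F))} = ((v.fiber F' : Finset (Place K F')) : Set (Place K F')) := by
    ext w
    rw [Set.mem_ofPred_eq, Finset.mem_coe, Place.mem_fiber]
    constructor
    · rintro ⟨hB, -⟩
      apply Place.ext
      apply valuationSubring_eq_of_le v _ _ (w.restrict F).ne_top'
      intro a ha
      exact hB (algebraMap A B ⟨a, ha⟩)
    · intro hw
      refine ⟨fun b => ?_, ?_⟩
      · have hA : ∀ a : A, algebraMap A F' a ∈ w.toValuationSubring.toSubring := by
          intro a
          have ha : (a : F) ∈ (w.restrict F).toValuationSubring := by rw [hw]; exact a.2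
          exact ha
        let _ : Algebra A w.toValuationSubring :=
          ((algebraMap A F').codRestrict w.toValuationSubring.toSubring hA).toAlgebra
        have : IsScalarTower A w.toValuationSubring F' :=
          IsScalarTower.of_algebraMap_eq fun f => rfl
        have hb : IsIntegral A (algebraMap B F' b) := b.2
        have hb' : IsIntegral w.toValuationSubring (algebraMap B F' b) := hb.tower_top
        obtain ⟨z, hz⟩ := IsIntegrallyClosed.isIntegral_iff.mp hb'
        exact hz ▸ z.2
      · rw [hord w hw]
        exact_mod_cast w.ramificationIndex_pos (F := F)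
  rw [hset] at key
  have hrank : Module.finrank A B = Module.finrank F F' :=
    (IsFractionRing.finrank_eq A F B F').symm
  rw [finsum_mem_coe_finset, hrank] at key
  rw [← key.2]
  refine Finset.sum_congr rfl fun w hw => ?_
  exact (hord w (Place.mem_fiber.mp hw)).symm

/-- **`FundamentalIdentity K F F'`** for a finite extension of function fields over an
algebraically closed field of characteristic zero (each with a transcendental generator). -/
theorem fundamentalIdentity [IsAlgClosed K] [FiniteDimensional F F'] [Algebra.IsSeparable F F']
    [HasPrincipalDivisors K F'] {x : F} (hx : IsGen K x) {x' : F'} (hx' : IsGen K x') :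
    FundamentalIdentity K F F' where
  sum_ramificationIndex_mul_deg v := by
    have h := sum_ramificationIndex (fun w f hf => exists_ord_sub_pos hx' w hf) v
    rw [deg_eq_one hx v, ← h, Finset.sum_mul]
    refine Finset.sum_congr rfl fun w _ => ?_
    rw [deg_eq_one hx' w]

end Fermat.Agent.U44.FundIdSep4

namespace Fermat.Agent.U44.FundIdSep4

open Fermat.Agent.X0 Fermat.Agent.X0.FF

variable {K F F' : Type*} [Field K] [Field F] [Field F'] [Algebra K F] [Algebra K F']

/-- **`FundamentalIdentityAlong K φ`** for a finite separable `K`-embedding `φ : F → F'` of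
function fields over an algebraically closed field. -/
theorem fundamentalIdentityAlong [IsAlgClosed K] [HasPrincipalDivisors K F']
    (φ : F →ₐ[K] F') (hφ : φ.toRingHom.IsIntegral) (hfin : FiniteAlong K φ)
    (hsep : letI := algebraAlong φ; Algebra.IsSeparable F F')
    {x : F} (hx : IsGen K x) {x' : F'} (hx' : IsGen K x') :
    FundamentalIdentityAlong K φ hφ := by
  letI := algebraAlong φ
  haveI := isScalarTower_along φ
  haveI : FiniteDimensional F F' := hfin
  haveI : Algebra.IsSeparable F F' := hsep
  exact fundamentalIdentity hx hx'

/-- A finite embedding is integral. -/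
theorem isIntegral_of_finiteAlong (φ : F →ₐ[K] F') (hfin : FiniteAlong K φ) :
    φ.toRingHom.IsIntegral := by
  letI := algebraAlong φ
  haveI : Module.Finite F F' := hfin
  exact (Algebra.IsIntegral.of_finite F F').isIntegral

end Fermat.Agent.U44.FundIdSep4
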