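/-
Programme U44 (target S44), chapter (LIFT), route Omega, step (Om-B), part (B3) (helper3):
**the logarithmic derivative of the Hecke norm, formally.**

`K` a field, `ℓ` a natural number invertible in `K`, `ζ ∈ Kˣ` with the root-sum property
(`QScale0.RootSum`).  If `g ≠ 0` and `N` are Laurent series over `K` with the product formula
`N(q^ℓ) = g(q^{ℓ²}) ∏_{k<ℓ} g(ζ^k q)` (`qExpand K ℓ N = QScale0.heckeProdQ ℓ ζ g`), then

  `θN / N = ℓ · (θg/g)(q^ℓ) + U_ℓ (θg/g)`                              (`dl_of_prodFormula`),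

i.e. for all `n : ℤ`
  `(θN/N).coeff n = (θg/g).coeff (ℓ n) + (if ℓ ∣ n then ℓ * (θg/g).coeff (n / ℓ) else 0)`
(`dl_coeff_of_prodFormula`), and in the `ℕ`-indexed form of `LiftAsm5.Tf`
(`dl_coeff_nat_of_prodFormula`).
-/
import Mathlib
import Fermat.Agent.U44.QScale0
import Fermat.Agent.IG.PR.ThetaV1

set_option autoImplicit false

noncomputable section

open HahnSeries ModularCurve

namespace Fermat.Agent.U44.HeckeDlog3

open Fermat.Agent.IG.PR.Theta20 Fermat.Agent.IG.PR.ThetaV1 Fermat.Agent.U44.QScale0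

variable {K : Type*} [Field K]

/-- the logarithmic derivative `θ x / x` on `K((q))`. -/
def dl (x : LaurentSeries K) : LaurentSeries K := theta x / x

theorem dl_mul {x y : LaurentSeries K} (hx : x ≠ 0) (hy : y ≠ 0) : dl (x * y) = dl x + dl y := by
  unfold dl
  rw [theta_mul]
  field_simp

theorem dl_one : dl (1 : LaurentSeries K) = 0 := by
  unfold dl
  rw [theta_one, zero_div]

theorem dl_prod {α : Type*} (s : Finset α) (f : α → LaurentSeries K) (hf : ∀ i ∈ s, f i ≠ 0) :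
    dl (∏ i ∈ s, f i) = ∑ i ∈ s, dl (f i) := by
  classical
  induction s using Finset.induction_on with
  | empty => simp [dl_one]
  | insert a s ha ih =>
    rw [Finset.prod_insert ha, Finset.sum_insert ha,
      dl_mul (hf a (Finset.mem_insert_self a s))
        (Finset.prod_ne_zero_iff.2 fun i hi => hf i (Finset.mem_insert_of_mem hi)),
      ih fun i hi => hf i (Finset.mem_insert_of_mem hi)]

theorem dl_qExpand (d : ℕ) [NeZero d] (x : LaurentSeries K) :
    dl (qExpand K d x) = (d : LaurentSeries K) * qExpand K d (dl x) := by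
  unfold dl
  rw [theta_qExpand, map_div₀, mul_div_assoc]

theorem dl_sc (c : Kˣ) (x : LaurentSeries K) : dl (sc c x) = sc c (dl x) := by
  unfold dl
  rw [theta_sc, map_div₀]

theorem natCast_mul_eq_smul (d : ℕ) (x : LaurentSeries K) :
    (d : LaurentSeries K) * x = (d : K) • x := by
  have hd : (d : LaurentSeries K) = HahnSeries.C (d : K) := by simp
  rw [hd, HahnSeries.C_mul_eq_smul]

/-- **(B3)**: the logarithmic derivative of a series satisfying the product formula. -/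
theorem dl_of_prodFormula (ℓ : ℕ) [NeZero ℓ] (hℓK : (ℓ : K) ≠ 0) {ζ : Kˣ} (hζ : RootSum ℓ ζ)
    {g N : LaurentSeries K} (hg : g ≠ 0) (hPF : qExpand K ℓ N = heckeProdQ ℓ ζ g) :
    dl N = (ℓ : LaurentSeries K) * qExpand K ℓ (dl g) + qContract ℓ (dl g) := by
  have hℓL : (ℓ : LaurentSeries K) ≠ 0 := by
    have hd : (ℓ : LaurentSeries K) = HahnSeries.C (ℓ : K) := by simp
    rw [hd]
    exact (map_ne_zero_iff _ HahnSeries.C_injective).2 hℓK
  have hqq : qExpand K ℓ (qExpand K ℓ g) ≠ 0 :=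
    (map_ne_zero_iff _ (qExpand_injective ℓ)).2 ((map_ne_zero_iff _ (qExpand_injective ℓ)).2 hg)
  have hsc : ∀ k ∈ Finset.range ℓ, sc (ζ ^ k) g ≠ 0 := fun k _ =>
    (map_ne_zero_iff _ (sc_injective _)).2 hg
  have h1 := congrArg dl hPF
  unfold heckeProdQ at h1
  rw [dl_qExpand, dl_mul hqq (Finset.prod_ne_zero_iff.2 hsc), dl_prod _ _ hsc, dl_qExpand,
    dl_qExpand] at h1
  simp_rw [dl_sc] at h1
  rw [sum_sc_eq hζ, ← natCast_mul_eq_smul] at h1
  have h2 : (ℓ : LaurentSeries K) * qExpand K ℓ (dl N) = (ℓ : LaurentSeries K) *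
      qExpand K ℓ ((ℓ : LaurentSeries K) * qExpand K ℓ (dl g) + qContract ℓ (dl g)) := by
    rw [h1, map_add, map_mul, map_natCast]
    ring
  exact qExpand_injective ℓ (mul_left_cancel₀ hℓL h2)

/-- **(B3), coefficients, `ℤ`-indexed.** -/
theorem dl_coeff_of_prodFormula (ℓ : ℕ) [NeZero ℓ] (hℓK : (ℓ : K) ≠ 0) {ζ : Kˣ}
    (hζ : RootSum ℓ ζ) {g N : LaurentSeries K} (hg : g ≠ 0)
    (hPF : qExpand K ℓ N = heckeProdQ ℓ ζ g) (n : ℤ) :
    (dl N).coeff n = (dl g).coeff ((ℓ : ℤ) * n) +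
      if (ℓ : ℤ) ∣ n then (ℓ : K) * (dl g).coeff (n / (ℓ : ℤ)) else 0 := by
  rw [dl_of_prodFormula ℓ hℓK hζ hg hPF, HahnSeries.coeff_add, natCast_mul_eq_smul,
    HahnSeries.coeff_smul, smul_eq_mul, qContract_coeff, add_comm]
  congr 1
  split_ifs with hn
  · obtain ⟨m, rfl⟩ := hn
    have hℓ0 : (ℓ : ℤ) ≠ 0 := by exact_mod_cast NeZero.ne ℓ
    rw [qExpand_coeff_mul, Int.mul_ediv_cancel_left _ hℓ0]
  · rw [qExpand_coeff_of_not_dvd ℓ _ hn, mul_zero]

/-- **(B3), coefficients, `ℕ`-indexed** (the shape of `LiftAsm5.Tf`). -/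
theorem dl_coeff_nat_of_prodFormula (ℓ : ℕ) [NeZero ℓ] (hℓK : (ℓ : K) ≠ 0) {ζ : Kˣ}
    (hζ : RootSum ℓ ζ) {g N : LaurentSeries K} (hg : g ≠ 0)
    (hPF : qExpand K ℓ N = heckeProdQ ℓ ζ g) (n : ℕ) :
    (dl N).coeff (n : ℤ) = (dl g).coeff ((n * ℓ : ℕ) : ℤ) +
      if ℓ ∣ n then (ℓ : K) * (dl g).coeff ((n / ℓ : ℕ) : ℤ) else 0 := by
  rw [dl_coeff_of_prodFormula ℓ hℓK hζ hg hPF]
  have h1 : (ℓ : ℤ) * (n : ℤ) = ((n * ℓ : ℕ) : ℤ) := by push_cast; ring
  rw [h1]
  congr 1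
  by_cases hn : ℓ ∣ n
  · rw [if_pos hn, if_pos (Int.natCast_dvd_natCast.2 hn), Int.natCast_ediv]
  · rw [if_neg hn, if_neg (fun h => hn (Int.natCast_dvd_natCast.1 h))]

end Fermat.Agent.U44.HeckeDlog3
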