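/-
Programme U44 (target S44), chapter (LIFT), route Omega, step (Om-B), part (B4) (helper3):
**the logarithmic-derivative map intertwines `T̄_ℓ` and the formal Hecke operator.**

`h : LevelHyp p M' A`, `κ = kA A`, `Fb A M' = κ·F̃_{M'} ⊆ κ((q))`, `ℓ ≠ p` a prime, `ℓ ∤ M'`,
`T̄_ℓ = HeckeC4.heckeC h hℓ hℓp hℓM` on `JZeroC κ M' = Pic⁰(Fb A M')`, `lamFb` the
logarithmic-derivative map `Pic⁰(Fb A M')[p] → κ((q))` of `DlogInst5`.

* `ProdFormula h ℓ` : the characteristic-`p` product formula (PF) for the Hecke norm, as a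
  hypothesis (owner: lead, (B1) + (B2)): there is `ζ ∈ κˣ` with the root-sum property such that for
  every `g ∈ Fb A M'`, `N_ᾱ(β̄ g)(q^ℓ) = g(q^{ℓ²}) ∏_{k<ℓ} g(ζ^k q)`;
* `isKummerPair_hecke` : if `g` is a Kummer generator of `y` then `N_ᾱ(β̄ g)` is a Kummer generator
  of `T̄_ℓ y`;
* `heckeC_mem_torsion`, `heckeCTors` : `T̄_ℓ` on the `p`-torsion;
* **`lamFb_heckeC`** (Om-B): `(lamFb (T̄_ℓ y)).coeff n = Tf ℓ (fun m => (lamFb y).coeff m) n` for all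
  `n : ℕ`; `lamFb_heckeC_int` : the `ℤ`-indexed form.
-/
import Mathlib
import Fermat.Agent.U44.HeckeDlog3
import Fermat.Agent.U44.HeckeC4
import Fermat.Agent.U44.NormAlong4
import Fermat.Agent.U44.DlogInst5
import Fermat.Agent.U44.LiftAsm5

set_option autoImplicit false
set_option linter.unusedSectionVars false
set_option linter.style.haveILetI false
set_option linter.unusedVariables false
set_option synthInstance.maxHeartbeats 400000

noncomputable section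

namespace Fermat.Agent.U44.HeckeDlogB3

open HahnSeries ModularCurve IntermediateField IsLocalRing AlgebraicCurve
open Fermat.Agent.RED.Interface4 Fermat.Agent.ES.RED Fermat.Agent.T33.NodalHalf4
  Fermat.Agent.U44.DegreeC4 Fermat.Agent.U44.HeckeC4 Fermat.Agent.U44.QScale0
  Fermat.Agent.U44.HeckeDlog3 Fermat.Agent.U44.DlogAbs5 Fermat.Agent.U44.DlogInst5
  Fermat.Agent.U44.LiftAsm5 Fermat.Agent.ES.HECKE.PointFormula28
  Fermat.Agent.IG.PR.Theta20

variable {p M' : ℕ} [NeZero M'] [NeZero p] {A : ValuationSubring Qbar}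
  (h : LevelHyp p M' A) {ℓ : ℕ} [NeZero ℓ] (hℓ : ℓ.Prime) (hℓp : ℓ ≠ p) (hℓM : ¬ ℓ ∣ M')

/-- shortcut instance. -/
local instance (priority := high) algebraKFbD (M : ℕ) [NeZero M] :
    Algebra (ResidueField ↥A) (Fb A M) := inferInstance

/-- **the characteristic-`p` product formula (PF)**, as a hypothesis. -/
def ProdFormula (h : LevelHyp p M' A) (ℓ : ℕ) [NeZero ℓ] : Prop :=
  ∃ ζ : (Setup8.kA A)ˣ, RootSum ℓ ζ ∧ ∀ g : Fb A M',
    qExpand (Setup8.kA A) ℓ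
        ((normAlong (alphaC (Setup8.kA A) M' ℓ) (betaC (Setup8.kA A) M' ℓ g) : Fb A M') :
          LaurentSeries (Setup8.kA A)) =
      heckeProdQ ℓ ζ (g : LaurentSeries (Setup8.kA A))

/-- `N_ᾱ(β̄ g)` is a Kummer generator of `T̄_ℓ y` when `g` is one of `y`. -/
theorem isKummerPair_hecke {y : JZeroC (Setup8.kA A) M'} {g : Fb A M'}
    (hg : IsKummerPair p y g) :
    IsKummerPair p (heckeC h hℓ hℓp hℓM y)
      (normAlong (alphaC (Setup8.kA A) M' ℓ) (betaC (Setup8.kA A) M' ℓ g)) := by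
  obtain ⟨hg0, D, rfl, hD⟩ := hg
  have hβg : betaC (Setup8.kA A) M' ℓ g ≠ 0 := (map_ne_zero _).2 hg0
  have hpos : 0 < finrankAlong (Setup8.kA A) (alphaC (Setup8.kA A) M' ℓ) := by
    rw [finrankAlong_alpha h hℓ hℓp hℓM]
    exact Nat.succ_pos ℓ
  refine ⟨Fermat.Agent.U44.NormAlong4.normAlong_ne_zero _ hpos hβg,
    ⟨heckeDivC h hℓ hℓp hℓM (D : Divisor (Setup8.kA A) (Fb A M')),
      heckeDivC_mem_degZero h hℓ hℓp hℓM D.2⟩, (heckeC_mk h hℓ hℓp hℓM D).symm, fun v => ?_⟩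
  have h1 := heckeDivC_principal h hℓ hℓp hℓM hg0
    (D := (p : ℤ) • (D : Divisor (Setup8.kA A) (Fb A M'))) (fun w => by
      rw [Finsupp.smul_apply, smul_eq_mul]
      exact hD w) v
  rw [← h1, map_zsmul, Finsupp.smul_apply, smul_eq_mul]

/-- `T̄_ℓ` preserves the `p`-torsion. -/
theorem heckeC_mem_torsion {y : JZeroC (Setup8.kA A) M'}
    (hy : y ∈ Pic0.torsion (Setup8.kA A) (Fb A M') p) :
    heckeC h hℓ hℓp hℓM y ∈ Pic0.torsion (Setup8.kA A) (Fb A M') p := by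
  rw [Pic0.mem_torsion] at hy ⊢
  rw [← map_zsmul, hy, map_zero]

/-- `T̄_ℓ` on the `p`-torsion. -/
def heckeCTors : Pic0.torsion (Setup8.kA A) (Fb A M') p →+
    Pic0.torsion (Setup8.kA A) (Fb A M') p :=
  ((heckeC h hℓ hℓp hℓM).comp (Pic0.torsion (Setup8.kA A) (Fb A M') p).subtype).codRestrict _
    (fun y => heckeC_mem_torsion h hℓ hℓp hℓM y.2)

@[simp]
theorem coe_heckeCTors (y : Pic0.torsion (Setup8.kA A) (Fb A M') p) :
    ((heckeCTors h hℓ hℓp hℓM y : Pic0.torsion (Setup8.kA A) (Fb A M') p) :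
      JZeroC (Setup8.kA A) M') = heckeC h hℓ hℓp hℓM (y : JZeroC (Setup8.kA A) M') := rfl

include h hℓ hℓp in
theorem natCast_ne_zero_kA : ((ℓ : ℕ) : Setup8.kA A) ≠ 0 := by
  haveI := charP_kA h
  intro h0
  have h1 := (CharP.cast_eq_zero_iff (Setup8.kA A) p ℓ).1 h0
  exact hℓp ((Nat.prime_dvd_prime_iff_eq h.prime hℓ).1 h1).symm

section Main

variable [Fact p.Prime] [CharP (Setup8.kA A) p]
  (hconst : ∀ f : ↥(modularFunctionFieldFullC (Setup8.kA A) M'), f ≠ 0 →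
    (∀ v : Place (Setup8.kA A) ↥(modularFunctionFieldFullC (Setup8.kA A) M'), v.ord f = 0) →
    ∃ c : Setup8.kA A, f = algebraMap (Setup8.kA A) ↥(modularFunctionFieldFullC (Setup8.kA A) M') c)

/-- **(Om-B), `ℤ`-indexed.** -/
theorem lamFb_heckeC_int (hPF : ProdFormula h ℓ)
    (y Ty : Pic0.torsion (Setup8.kA A) (Fb A M') p)
    (hTy : (Ty : JZeroC (Setup8.kA A) M') = heckeC h hℓ hℓp hℓM (y : JZeroC (Setup8.kA A) M'))
    (n : ℤ) :
    (lamFb p M' hconst Ty).coeff n = (lamFb p M' hconst y).coeff ((ℓ : ℤ) * n) +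
      if (ℓ : ℤ) ∣ n then (ℓ : Setup8.kA A) * (lamFb p M' hconst y).coeff (n / (ℓ : ℤ)) else 0 := by
  obtain ⟨ζ, hζ, hPF⟩ := hPF
  obtain ⟨g, hg⟩ := exists_kummerPair (K := Setup8.kA A) (F := Fb A M') p
    (Pic0.mem_torsion.1 y.2)
  have hN : IsKummerPair p (Ty : JZeroC (Setup8.kA A) M')
      (normAlong (alphaC (Setup8.kA A) M' ℓ) (betaC (Setup8.kA A) M' ℓ g)) := by
    rw [hTy]
    exact isKummerPair_hecke h hℓ hℓp hℓM hg
  rw [lamFb_eq p M' hconst hg, lamFb_eq p M' hconst hN]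
  have hg0 : (g : LaurentSeries (Setup8.kA A)) ≠ 0 := fun h0 => hg.1 (Subtype.ext h0)
  exact dl_coeff_of_prodFormula ℓ (natCast_ne_zero_kA h hℓ hℓp) hζ hg0 (hPF g) n

/-- **(Om-B)**: `lamFb (T̄_ℓ y) = T_ℓ (lamFb y)` on `q`-expansions, in the shape of `LiftAsm5.Tf`. -/
theorem lamFb_heckeC (hPF : ProdFormula h ℓ)
    (y Ty : Pic0.torsion (Setup8.kA A) (Fb A M') p)
    (hTy : (Ty : JZeroC (Setup8.kA A) M') = heckeC h hℓ hℓp hℓM (y : JZeroC (Setup8.kA A) M'))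
    (n : ℕ) :
    (lamFb p M' hconst Ty).coeff (n : ℤ) =
      Tf ℓ (fun m : ℕ => (lamFb p M' hconst y).coeff (m : ℤ)) n := by
  obtain ⟨ζ, hζ, hPF⟩ := hPF
  obtain ⟨g, hg⟩ := exists_kummerPair (K := Setup8.kA A) (F := Fb A M') p
    (Pic0.mem_torsion.1 y.2)
  have hN : IsKummerPair p (Ty : JZeroC (Setup8.kA A) M')
      (normAlong (alphaC (Setup8.kA A) M' ℓ) (betaC (Setup8.kA A) M' ℓ g)) := by
    rw [hTy]
    exact isKummerPair_hecke h hℓ hℓp hℓM hg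
  unfold Tf
  rw [lamFb_eq p M' hconst hg, lamFb_eq p M' hconst hN]
  have hg0 : (g : LaurentSeries (Setup8.kA A)) ≠ 0 := fun h0 => hg.1 (Subtype.ext h0)
  exact dl_coeff_nat_of_prodFormula ℓ (natCast_ne_zero_kA h hℓ hℓp) hζ hg0 (hPF g) n

/-- (Om-B) for the restricted operator `heckeCTors`. -/
theorem lamFb_heckeCTors (hPF : ProdFormula h ℓ)
    (y : Pic0.torsion (Setup8.kA A) (Fb A M') p) (n : ℕ) :
    (lamFb p M' hconst (heckeCTors h hℓ hℓp hℓM y)).coeff (n : ℤ) =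
      Tf ℓ (fun m : ℕ => (lamFb p M' hconst y).coeff (m : ℤ)) n :=
  lamFb_heckeC h hℓ hℓp hℓM hconst hPF y _ rfl n

end Main

end Fermat.Agent.U44.HeckeDlogB3
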