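/-
Programme U44 (target S44), chapter (LIFT), leaf for the assembly (L5) (helper8): **from a regular
differential with `A`-integral `q`-expansion to a cusp form with a reduction** (`LiftAsm5.IsRed`).

`N` any level, `A` a valuation subring of `ℚ̄`.  If `h₀ dj` is regular on `X₀(N)` and
`h₀ · θ j = Y` with `Y ∈ A((q))`, then there is `g ∈ S₂(Γ₀(N))` with `a_n(g) = ι (Y_n)` for all
`n`; in particular `IsRed ι A res g (n ↦ res Y_n)`.

Also the formal bookkeeping of case O: if `λ` satisfies the formal eigen-relations for the odd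
primes of `𝓛` and `b n = c * λ (2 n)`, then `b` satisfies them too (`Tf_double`).
-/
import Mathlib
import Fermat.Agent.U44.RegBasis8
import Fermat.Agent.U44.RegLiftAux8
import Fermat.Agent.U44.LiftAsm5
import Fermat.Agent.ES.RED.Setup8

set_option autoImplicit false
set_option synthInstance.maxHeartbeats 400000
set_option linter.style.haveILetI false
set_option linter.unusedSectionVars false

noncomputable section

open AlgebraicCurve ModularCurve KaehlerDifferential Module CongruenceSubgroup ModularFormClass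
  HahnSeries

namespace Fermat.Agent.U44.LiftRedForm8

open Fermat.Agent.X0 Fermat.Agent.X0.FF Fermat.Agent.S20.LowDJ Fermat.Agent.S20.LowerBound
  Fermat.Agent.S49 Fermat.Agent.IG.PR.Theta20 Fermat.Agent.ES.RED Fermat.Agent.U44.LiftAsm5

/-- **a regular differential with `A`-integral expansion is a cusp form with coefficients in
`ι(A)`.** -/
theorem exists_cuspForm_of_regular (N : ℕ) [NeZero N] (A : ValuationSubring Kbar) (h₀ : FF N)
    (hreg : ∀ P : Place Kbar (FF N), 0 ≤ P.ordDifferential (h₀ • D Kbar (FF N) (jF N)))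
    (Y : LaurentSeries ↥A)
    (hY : (h₀ : LaurentSeries Kbar) * theta (jqModC Kbar) = coeffMap A.subtype Y) :
    ∃ g : CuspForm (Gamma0 N) 2,
      ∀ n : ℕ, qCoeff g n = iotaK ((Y.coeff (n : ℤ) : ↥A) : Kbar) := by
  obtain ⟨f, hf, -⟩ := Fermat.Agent.S20.Low.exists_cuspForm_of_regular_full N h₀ hreg
  refine ⟨f, fun n => ?_⟩
  rw [hf n, Fermat.Agent.U44.RegLiftAux8.thetaJ_eq_theta, hY, coeffMap_coeff]
  rfl

/-- the same, as a reduction statement in the vocabulary of `LiftAsm5`. -/
theorem exists_cuspForm_isRed (N : ℕ) [NeZero N] (A : ValuationSubring Kbar) (h₀ : FF N)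
    (hreg : ∀ P : Place Kbar (FF N), 0 ≤ P.ordDifferential (h₀ • D Kbar (FF N) (jF N)))
    (Y : LaurentSeries ↥A)
    (hY : (h₀ : LaurentSeries Kbar) * theta (jqModC Kbar) = coeffMap A.subtype Y) :
    ∃ g : CuspForm (Gamma0 N) 2,
      IsRed iotaK A.toSubring (Setup8.resA A : ↥A.toSubring →+* Setup8.kA A) g
        (fun n : ℕ => Setup8.resA A (Y.coeff (n : ℤ))) := by
  obtain ⟨g, hg⟩ := exists_cuspForm_of_regular N A h₀ hreg Y hY
  exact ⟨g, fun n => ⟨Y.coeff (n : ℤ), (hg n).symm, rfl⟩⟩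

/-! ### formal bookkeeping for the case `q ↦ q²` -/

/-- **case O**: if `lam` satisfies the formal eigen-relation at an odd prime `ℓ` and
`b n = c * lam (2 n)`, then so does `b`. -/
theorem Tf_double {κ : Type*} [CommRing κ] {ℓ : ℕ} (hℓ : ℓ.Prime) (hℓ2 : ℓ ≠ 2) (a c : κ)
    (lam : ℕ → κ) (heig : Tf ℓ lam = a • lam) :
    Tf ℓ (fun n => c * lam (2 * n)) = a • (fun n => c * lam (2 * n)) := by
  funext n
  have h1 := congrFun heig (2 * n)
  simp only [Tf, Pi.smul_apply, smul_eq_mul] at h1 ⊢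
  have hcop : Nat.Coprime ℓ 2 := (Nat.coprime_primes hℓ Nat.prime_two).2 hℓ2
  have hdvd : ℓ ∣ 2 * n ↔ ℓ ∣ n := hcop.dvd_mul_left
  by_cases hd : ℓ ∣ n
  · rw [if_pos hd]
    rw [if_pos (hdvd.2 hd)] at h1
    have h2 : 2 * n / ℓ = 2 * (n / ℓ) := Nat.mul_div_assoc 2 hd
    rw [h2] at h1
    have h3 : 2 * n * ℓ = 2 * (n * ℓ) := by ring
    rw [h3] at h1
    linear_combination c * h1
  · rw [if_neg hd]
    rw [if_neg (fun h => hd (hdvd.1 h))] at h1
    have h3 : 2 * n * ℓ = 2 * (n * ℓ) := by ring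
    rw [h3] at h1
    linear_combination c * h1

end Fermat.Agent.U44.LiftRedForm8
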