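/-
Programme U44 (target S44), stage 0, block (LOC) (helper9): **(L1) in group form** — the packaging of
`LocMain9` (valuation form) and `Resolvent9` (Lagrange resolvents) for a group `G` acting on a field `K`
by ring automorphisms (`G := I₁`, the inertia subgroup fixing `ζ`): with `K1 := K^G`,
`L := K^{Stab_G ρ}` (both as `FixedPoints.subfield`), `ρ ^ p ∈ K1` a principal unit and `τ ∈ G` moving
`ρ`, the field `L` has an adapted uniformiser `πL` (`LocMain9.IsUnif`).
-/
import Mathlib
import Fermat.Agent.U44.LocMain9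
import Fermat.Agent.U44.Resolvent9

set_option autoImplicit false

namespace Fermat.Agent.U44.LocGroup9

open Fermat.Agent.U44.KummerSpan9 Fermat.Agent.U44.LocMain9 Fermat.Agent.U44.Resolvent9

variable {K : Type*} [Field K] {Γ₀ : Type*} [LinearOrderedCommGroupWithZero Γ₀]
  {G : Type*} [Group G] [MulSemiringAction G K]

/-- the hypotheses of (L1) in group form. -/
structure GroupSetup (v : Valuation K Γ₀) (G : Type*) [Group G] [MulSemiringAction G K] (τ : G)
    (p : ℕ) (ζ ρ : K) : Prop where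
  hp : p.Prime
  hGv : ∀ (g : G) (x : K), v (g • x) = v x
  hGin : ∀ (g : G) (x : K), v x ≤ 1 → v (g • x - x) < 1
  hζ : ζ ^ p = 1
  hζ1 : ζ ≠ 1
  hζfix : ∀ g : G, g • ζ = ζ
  hval : ∀ x : K, (∀ g : G, g • x = x) → x ≠ 0 → ∃ n : ℤ, v x = v (ζ - 1) ^ n
  hπp : v (ζ - 1) ^ (p - 1) = v (p : K)
  hvp : v (p : K) < 1
  hu : ∀ g : G, g • (ρ ^ p) = ρ ^ p
  hu1 : v (ρ ^ p - 1) < 1
  hτρ : τ • ρ ≠ ρ

namespace GroupSetup

variable {v : Valuation K Γ₀} {τ : G} {p : ℕ} {ζ ρ : K} (S : GroupSetup v G τ p ζ ρ)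
include S

/-- the valuation-form setup with `K1 := K^G`. -/
theorem toSetup : Setup v (FixedPoints.subfield G K) (MulSemiringAction.toRingEquiv G K τ) p ζ ρ where
  hp := S.hp
  hτK1 := fun _ hx => hx τ
  hτv := fun x => S.hGv τ x
  hτin := fun x hx => S.hGin τ x hx
  hζ := S.hζ
  hζ1 := S.hζ1
  hζK1 := S.hζfix
  hval := fun x hx hx0 => S.hval x hx hx0
  hπp := S.hπp
  hvp := S.hvp
  hu := S.hu
  hu1 := S.hu1
  hτρ := S.hτρ

/-- the fixed field of the stabiliser of `ρ` is `∑_{j<p} K^G ρ^j`. -/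
theorem mem_fixed_stabilizer_iff (x : K) :
    x ∈ FixedPoints.subfield (MulAction.stabilizer G ρ) K ↔
      x ∈ powSpan (FixedPoints.subfield G K) ρ p := by
  have T := S.toSetup
  have hρ0 : ρ ≠ 0 := T.rho_ne_zero
  obtain ⟨η, hη, hη1, hτη⟩ := T.exists_eta
  have hpK : (p : K) ≠ 0 := fun h => by
    have := S.hvp; rw [h, map_zero] at this
    have h2 := S.hπp
    rw [h, map_zero] at h2
    exact T.vpi_ne_zero (pow_eq_zero_iff (by have := S.hp.two_le; omega) |>.1 h2)
  have hηfix : η ∈ FixedPoints.subfield G K := by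
    -- `η = τ ρ / ρ` is a power of `ζ`
    have hprim : IsPrimitiveRoot ζ p :=
      isPrimitiveRoot_of_mem_nthRootsFinset S.hp
        ((Polynomial.mem_nthRootsFinset S.hp.pos (1 : K)).2 S.hζ) S.hζ1
    have : NeZero p := ⟨S.hp.ne_zero⟩
    obtain ⟨i, -, rfl⟩ := hprim.eq_pow_of_pow_eq_one hη
    exact (FixedPoints.subfield G K).pow_mem S.hζfix i
  constructor
  · intro hx
    refine mem_powSpan_of_fixed (G := G) (K1 := FixedPoints.subfield G K) (τ := τ)
      (fun g y hy => hy g) (fun y hy => hy) S.hp hpK hη hη1 hηfix hρ0 S.hu hτη ?_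
    intro g hg
    exact hx ⟨g, hg⟩
  · intro hx
    -- `K^G` and `ρ` are fixed by the stabiliser
    induction hx using Submodule.span_induction with
    | mem y hy =>
      obtain ⟨i, rfl⟩ := hy
      intro g
      show (g : G) • ρ ^ (i : ℕ) = ρ ^ (i : ℕ)
      rw [smul_pow', g.2]
    | zero => exact (FixedPoints.subfield _ K).zero_mem
    | add y z _ _ hy hz => exact (FixedPoints.subfield _ K).add_mem hy hz
    | smul k y _ hy =>
      rw [coe_smul']
      refine (FixedPoints.subfield _ K).mul_mem ?_ hy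
      intro g
      exact k.2 (g : G)

/-- **(L1), group form**: `L = K^{Stab ρ}` has an adapted uniformiser. -/
theorem exists_isUnif : ∃ πL : K, IsUnif v (MulSemiringAction.toRingEquiv G K τ) p ζ
    (FixedPoints.subfield (MulAction.stabilizer G ρ) K) πL :=
  S.toSetup.exists_isUnif _ S.mem_fixed_stabilizer_iff

end GroupSetup

end Fermat.Agent.U44.LocGroup9
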