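/-
Programme U44 (target S44), LOCAL ASSEMBLY, file C (helper3): `AnnInput3.local_main_chart` with (C3)
discharged by lead's `GammaC30.c3`.  The ONLY open input left is `AnnWire1.ChartAnnAll` (helper6's
`AnnChart6`: annulus data of thickness `p` at the points of the two charts, at every level
hypothesis).
-/
import Mathlib
import Fermat.Agent.U44.AnnInput3
import Fermat.Agent.U44.GammaC30

set_option autoImplicit false
set_option linter.unusedSectionVars false
set_option linter.style.haveILetI false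
set_option linter.unusedVariables false
set_option synthInstance.maxHeartbeats 400000

noncomputable section

open AlgebraicCurve IsLocalRing ModularCurve

namespace Fermat.Agent.U44.Local3C

open Fermat.Agent.T33.NodalCtx1 Fermat.Agent.T33.NodalCurve6
  Fermat.Agent.X0 Fermat.Agent.X0.FF Fermat.Agent.U44.GaussRed3 Fermat.Agent.U44.Annulus3
  Fermat.Agent.U44.LocInst1B Fermat.Agent.FF.InertiaWire8 Fermat.Agent.T33.Psi3C
  Fermat.Agent.T33.NodalHalf4 Fermat.Agent.RED.Interface4
  Fermat.Agent.U44.LevelEll4 Fermat.Agent.U44.HeckeC4 Fermat.Agent.U44.GammaLevel2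
  Fermat.Agent.U44.GammaGauss2 Fermat.Agent.ES.RED Fermat.Agent.U44.Local3
  AlgebraicCurve.SemilinearAut

open Fermat.Agent.U44.Wire7 (Ep Good)

open WeierstrassCurve WeierstrassCurve.Affine

variable (P : FreyPackage) {M' : ℕ} [NeZero M'] [NeZero P.p] {A : ValuationSubring Qb}

/-- **LOCAL ASSEMBLY**, only open input: the annulus data at the chart points. -/
theorem local_main_of_chart (hpabc : (P.p : ℤ) ∣ P.a * P.b * P.c)
    (hirr : WeierstrassCurve.Affine.Point.GaloisRepIsIrreducible (K := Qb) ℚ P.freyCurve P.p)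
    (W : WeierstrassCurve ℤ) (hW : W.IsIntegralModelOf P.freyCurve) {N : ℕ} [NeZero N]
    (h : LevelHyp P.p M' A)
    (ι : Ep P →+ JZero (M' * P.p)) (hinj : Function.Injective ι)
    (hι : ∀ (σ : GQ) (z : Ep P), ι (σ • z) = σ • ι z)
    (hT : ∀ ℓ : Nat.Primes, (ℓ : ℕ) ∈ Good W N P.p \ {2} → ∀ z : Ep P,
      heckeOperatorBar (M' * P.p) ℓ (ι z) = (W.apOfModel ℓ) • ι z)
    (hτ' : ∀ z : Ep P,
      ofAlgAut (tau'L (M' * P.p) (four_dvd_mul h.four_dvd)) • ι z = ι z)
    (H : ∀ {M'' : ℕ} [NeZero M''] (h' : LevelHyp P.p M'' A),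
      Fermat.Agent.U44.AnnWire1.ChartAnnAll h') :
    ∃ y : JZeroC (Setup8.kA A) M', y ≠ 0 ∧ P.p • y = 0 ∧
      (∀ (l : ℕ) [NeZero l] (hl : l.Prime) (hlp : l ≠ P.p) (hlM : ¬ l ∣ M'),
        l ∈ Good W N P.p \ {2} → heckeC h hl hlp hlM y = (W.apOfModel l) • y) ∧
      ofAlgAut (tauB' h) • y = y ∧
      ((∀ z : Ep P, ofAlgAut (tauL (M' * P.p) (four_dvd_mul h.four_dvd)) • ι z = ι z) →
        ofAlgAut (tauB h) • y = y) :=
  Fermat.Agent.U44.AnnInput3.local_main_chart P hpabc hirr W hW (N := N) h ι hinj hι hT hτ' H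
    (Fermat.Agent.U44.GammaC30.c3 h)

end Fermat.Agent.U44.Local3C
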