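/-
Programme U44 (target S44), chapter (TR)/(HECKE), leaf of `AnnInst6` (helper8, for helper6):
**a node is a point of one of the two charts.**

ABSTRACT (`T : TwoCharts c₁ c₂`, `k : T.rawRed.Node`, `k = ⟨(Q₁, Q₂), _⟩`): there are a chart
`C ∈ {T.C0, T.C1}` and a point `χ : C.Pt` with `Val₁ χ Q₁`, `Val₂ χ Q₂`, some place centred at
`χ`, and the places reducing to the node are exactly the places centred at `χ`
(`node_chartPt_abs`).  The two cases are also available separately with their extra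
information (`node_chartPt_cases_abs`: chart `0` with `Fin0`, or chart `1` with
`χ (t⁻¹) = 0`).

INSTANCE (`h : LevelHyp p M' A`, any good level, e.g. `hEll h hℓ hℓp`): `node_chartPt h k` for
`k : NodalInst4E.Node h`, in terms of `(NodalInst4G.nodalRed h).RedToNode`.
-/
import Mathlib
import Fermat.Agent.T33.NodalInst4G
import Fermat.Agent.U44.RedCompat9

set_option autoImplicit false
set_option linter.unusedSectionVars false
set_option linter.style.haveILetI false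
set_option synthInstance.maxHeartbeats 400000

noncomputable section

namespace Fermat.Agent.U44.NodeChartPt8

open AlgebraicCurve IsLocalRing
open Fermat.Agent.T33.NodalCtx1 Fermat.Agent.T33.NodalPlaces1 Fermat.Agent.T33.NodalCurve6

section Abstract

variable {K : Type*} [Field K] {A : ValuationSubring K}
variable {F : Type*} [Field F] [Algebra K F]
variable {Fb₁ Fb₂ : Type*} [Field Fb₁] [Field Fb₂]
  [Algebra (ResidueField A) Fb₁] [Algebra (ResidueField A) Fb₂]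
variable {c₁ : HalfRed A F Fb₁} {c₂ : HalfRed A F Fb₂} (T : TwoCharts c₁ c₂)

/-- a place centred on the chart `0` has an integral value of `t`. -/
theorem fin0_of_centred₀ {P : Place K F} {χ : T.C0.Pt} (hP : T.C0.Centred P χ) : T.Fin0 P := by
  obtain ⟨a, ha, -⟩ := hP T.t0
  exact ⟨a, ha⟩

/-- a place centred on the chart `1` at a point with `t⁻¹ ↦ 0` has no integral value of `t`. -/
theorem not_fin0_of_centred₁ {P : Place K F} {χ : T.C1.Pt} (hP : T.C1.Centred P χ)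
    (hs : χ T.s1 = 0) : ¬ T.Fin0 P :=
  fun hfin => Fermat.Agent.U44.RedCompat9.pt_s1_ne_zero hfin hP hs

/-- chart `0`: the fibre of `r₁` over the place of a point is the set of places centred there. -/
theorem r₁_eq_some_iff_centred₀ {χ : T.C0.Pt} {Q : Place (ResidueField A) Fb₁}
    (hQ : T.C0.Val₁ χ Q) (P : Place K F) : T.r₁ P = some Q ↔ T.C0.Centred P χ := by
  rw [T.r₁_eq_some_iff₀ hQ P]
  exact ⟨fun h => h.2, fun h => ⟨fin0_of_centred₀ T h, h⟩⟩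

theorem r₂_eq_some_iff_centred₀ {χ : T.C0.Pt} {Q : Place (ResidueField A) Fb₂}
    (hQ : T.C0.Val₂ χ Q) (P : Place K F) : T.r₂ P = some Q ↔ T.C0.Centred P χ := by
  rw [T.r₂_eq_some_iff₀ hQ P]
  exact ⟨fun h => h.2, fun h => ⟨fin0_of_centred₀ T h, h⟩⟩

/-- chart `1`, at `t = ∞`. -/
theorem r₁_eq_some_iff_centred₁ {χ : T.C1.Pt} (hs : χ T.s1 = 0)
    {Q : Place (ResidueField A) Fb₁} (hQ : T.C1.Val₁ χ Q) (P : Place K F) :
    T.r₁ P = some Q ↔ T.C1.Centred P χ := by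
  rw [T.r₁_eq_some_iff₁ hs hQ P]
  exact ⟨fun h => h.2, fun h => ⟨not_fin0_of_centred₁ T h hs, h⟩⟩

theorem r₂_eq_some_iff_centred₁ {χ : T.C1.Pt} (hs : χ T.s1 = 0)
    {Q : Place (ResidueField A) Fb₂} (hQ : T.C1.Val₂ χ Q) (P : Place K F) :
    T.r₂ P = some Q ↔ T.C1.Centred P χ := by
  rw [T.r₂_eq_some_iff₁ hs hQ P]
  exact ⟨fun h => h.2, fun h => ⟨not_fin0_of_centred₁ T h hs, h⟩⟩

/-- **a node is a point of the chart `0`, or a point at `t = ∞` of the chart `1`**, with the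
fibres of the two partial reductions. -/
theorem node_chartPt_cases_abs (k : T.rawRed.Node) :
    (∃ χ : T.C0.Pt, (∃ P₀ : Place K F, T.Fin0 P₀ ∧ T.C0.Centred P₀ χ) ∧
      T.C0.Val₁ χ k.1.1 ∧ T.C0.Val₂ χ k.1.2 ∧
      (∀ P : Place K F, T.rawRed.r₁ P = some k.1.1 ↔ T.C0.Centred P χ) ∧
      (∀ P : Place K F, T.rawRed.r₂ P = some k.1.2 ↔ T.C0.Centred P χ)) ∨
    (∃ χ : T.C1.Pt, χ T.s1 = 0 ∧ (∃ P₀ : Place K F, ¬ T.Fin0 P₀ ∧ T.C1.Centred P₀ χ) ∧
      T.C1.Val₁ χ k.1.1 ∧ T.C1.Val₂ χ k.1.2 ∧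
      (∀ P : Place K F, T.rawRed.r₁ P = some k.1.1 ↔ T.C1.Centred P χ) ∧
      (∀ P : Place K F, T.rawRed.r₂ P = some k.1.2 ↔ T.C1.Centred P χ)) := by
  obtain ⟨⟨Q₁, Q₂⟩, P₀, h1, h2⟩ := k
  simp only [TwoCharts.rawRed_r₁, TwoCharts.rawRed_r₂] at h1 h2 ⊢
  have h1' := (T.r₁_eq_some_iff P₀ Q₁).1 h1
  have h2' := (T.r₂_eq_some_iff P₀ Q₂).1 h2
  by_cases hP : T.Fin0 P₀
  · obtain ⟨χ, hχ⟩ := T.centred₀ P₀ hP
    have hv1 := (T.red₁_iff₀ hP hχ Q₁).1 h1'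
    have hv2 := (T.red₂_iff₀ hP hχ Q₂).1 h2'
    exact Or.inl ⟨χ, ⟨P₀, hP, hχ⟩, hv1, hv2, r₁_eq_some_iff_centred₀ T hv1,
      r₂_eq_some_iff_centred₀ T hv2⟩
  · obtain ⟨χ, hχ, hs⟩ := T.centred₁' P₀ hP
    have hv1 := (T.red₁_iff₁ hP hχ hs Q₁).1 h1'
    have hv2 := (T.red₂_iff₁ hP hχ hs Q₂).1 h2'
    exact Or.inr ⟨χ, hs, ⟨P₀, hP, hχ⟩, hv1, hv2, r₁_eq_some_iff_centred₁ T hs hv1,
      r₂_eq_some_iff_centred₁ T hs hv2⟩

/-- **a node is a point of one of the two charts** (uniform statement). -/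
theorem node_chartPt_abs (k : T.rawRed.Node) :
    ∃ (C : Chart c₁ c₂) (_ : C = T.C0 ∨ C = T.C1) (χ : C.Pt),
      (∃ P₀ : Place K F, C.Centred P₀ χ) ∧ C.Val₁ χ k.1.1 ∧ C.Val₂ χ k.1.2 ∧
      (∀ P : Place K F, T.rawRed.r₁ P = some k.1.1 ↔ C.Centred P χ) ∧
      (∀ P : Place K F, T.rawRed.r₂ P = some k.1.2 ↔ C.Centred P χ) := by
  rcases node_chartPt_cases_abs T k with ⟨χ, ⟨P₀, -, hP₀⟩, hv1, hv2, hr1, hr2⟩ |
    ⟨χ, -, ⟨P₀, -, hP₀⟩, hv1, hv2, hr1, hr2⟩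
  · exact ⟨T.C0, Or.inl rfl, χ, ⟨P₀, hP₀⟩, hv1, hv2, hr1, hr2⟩
  · exact ⟨T.C1, Or.inr rfl, χ, ⟨P₀, hP₀⟩, hv1, hv2, hr1, hr2⟩

end Abstract

/-! ### the instance at a good level -/

section Instance

open Fermat.Agent.RED.Interface4 Fermat.Agent.ES.RED Fermat.Agent.T33.NodalHalf4
  Fermat.Agent.T33.NodalInst4E

variable {p M' : ℕ} [NeZero M'] [NeZero p] {A : ValuationSubring Qbar} (h : LevelHyp p M' A)

/-- `RedToNode` for the nodal reduction of `X₀(M'p)`, unfolded. -/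
theorem redToNode_iff (P : Place Qbar ↥(Fbar (M' * p))) (k : Node h) :
    (Fermat.Agent.T33.NodalInst4G.nodalRed h).RedToNode P k ↔ (T h).rawRed.r₁ P = some k.1.1 :=
  Iff.rfl

/-- reducing to the node, read on the second component. -/
theorem redToNode_iff₂ (P : Place Qbar ↥(Fbar (M' * p))) (k : Node h) :
    (Fermat.Agent.T33.NodalInst4G.nodalRed h).RedToNode P k ↔ (T h).rawRed.r₂ P = some k.1.2 :=
  (T h).rawRed.node_iff P k

/-- **a node of `X₀(M'p)` over `A` is a point of one of the two charts** `(T h).C0`, `(T h).C1`: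
with `k = ⟨(Q₁, Q₂), _⟩`, there is a point `χ` of the chart with `Val₁ χ Q₁`, `Val₂ χ Q₂`, and the
places reducing to the node `k` are exactly the places centred at `χ`. -/
theorem node_chartPt (k : Node h) :
    ∃ (C : Chart (c1 h) (c2 h)) (_ : C = (T h).C0 ∨ C = (T h).C1) (χ : C.Pt),
      (∃ P₀ : Place Qbar ↥(Fbar (M' * p)), C.Centred P₀ χ) ∧
      C.Val₁ χ k.1.1 ∧ C.Val₂ χ k.1.2 ∧
      ∀ P : Place Qbar ↥(Fbar (M' * p)),
        (Fermat.Agent.T33.NodalInst4G.nodalRed h).RedToNode P k ↔ C.Centred P χ := by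
  obtain ⟨C, hC, χ, hP₀, hv1, hv2, hr1, -⟩ := node_chartPt_abs (T h) k
  exact ⟨C, hC, χ, hP₀, hv1, hv2, fun P => (redToNode_iff h P k).trans (hr1 P)⟩

/-- the two cases separately: a point of the chart `0` (where `t = tA h` is finite), or a point of
the chart `1` at `t = ∞`. -/
theorem node_chartPt_cases (k : Node h) :
    (∃ χ : (T h).C0.Pt,
      (∃ P₀ : Place Qbar ↥(Fbar (M' * p)), (T h).Fin0 P₀ ∧ (T h).C0.Centred P₀ χ) ∧
      (T h).C0.Val₁ χ k.1.1 ∧ (T h).C0.Val₂ χ k.1.2 ∧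
      ∀ P : Place Qbar ↥(Fbar (M' * p)),
        (Fermat.Agent.T33.NodalInst4G.nodalRed h).RedToNode P k ↔ (T h).C0.Centred P χ) ∨
    (∃ χ : (T h).C1.Pt, χ (T h).s1 = 0 ∧
      (∃ P₀ : Place Qbar ↥(Fbar (M' * p)), ¬ (T h).Fin0 P₀ ∧ (T h).C1.Centred P₀ χ) ∧
      (T h).C1.Val₁ χ k.1.1 ∧ (T h).C1.Val₂ χ k.1.2 ∧
      ∀ P : Place Qbar ↥(Fbar (M' * p)),
        (Fermat.Agent.T33.NodalInst4G.nodalRed h).RedToNode P k ↔ (T h).C1.Centred P χ) := by
  rcases node_chartPt_cases_abs (T h) k with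
    ⟨χ, hP₀, hv1, hv2, hr1, -⟩ | ⟨χ, hs, hP₀, hv1, hv2, hr1, -⟩
  · exact Or.inl ⟨χ, hP₀, hv1, hv2, fun P => (redToNode_iff h P k).trans (hr1 P)⟩
  · exact Or.inr ⟨χ, hs, hP₀, hv1, hv2, fun P => (redToNode_iff h P k).trans (hr1 P)⟩

end Instance

end Fermat.Agent.U44.NodeChartPt8
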