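/-
Programme U44 (target S44), block (TR), instance layer (helper6): **the branch parameter of a
regular node has order one on its component** (abstract; vocabulary of `T33/PushLoc9A`).

`c : HalfRed A F Fb`, `X : PointChart c`, `Q` a place of the component with
`PushLoc9.ValueCompat X Q` (`Q` is the point of the component under the closed point of the
chart).  If `𝔪_{Bx} = (x, y) + 𝔪_A Bx` (`NodeAnn6.NodeHyp.mem_max`), `ρx y = 0`,
`ρx x ≠ 0` and the reductions of the local ring generate the function field of the component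
(`hfrac`), then `ord_Q (ρx x) = 1` (`ord_ρx_eq_one`).
-/
import Mathlib
import Fermat.Agent.U44.NodeAnn6
import Fermat.Agent.T33.PushLoc9B

set_option autoImplicit false
set_option linter.unusedSectionVars false

open AlgebraicCurve IsLocalRing

noncomputable section

namespace Fermat.Agent.U44.NodeOrd6

open Fermat.Agent.T33.NodalCtx1 Fermat.Agent.T33.NodalCurve6 Fermat.Agent.T33.PushLoc9
  Fermat.Agent.FF.GaussOv1 Fermat.Agent.X0.FF Fermat.Agent.U44.NodeAnn6

variable {K : Type*} [Field K] {A : ValuationSubring K}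
variable {F : Type*} [Field F] [Algebra K F]
variable {Fb : Type*} [Field Fb] [Algebra (ResidueField A) Fb]
variable {c : HalfRed A F Fb} {X : PointChart c}

theorem ρx_constHom (a : A) :
    X.ρx (constHom X a) = algebraMap (ResidueField A) Fb (residue A a) := by
  rw [PointChart.ρx_apply]
  exact c.ρ_algebraMap a

/-- the constants of `𝔪_A` die in the reduction. -/
theorem ρx_eq_zero_of_mem_map {m : X.Bx}
    (hm : m ∈ Ideal.map (constHom X) (maximalIdeal A)) : X.ρx m = 0 := by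
  have hle : Ideal.map (constHom X) (maximalIdeal A) ≤ RingHom.ker X.ρx := by
    rw [Ideal.map_le_iff_le_comap]
    intro a ha
    rw [Ideal.mem_comap, RingHom.mem_ker, ρx_constHom, (residue_eq_zero_iff _).2 ha, map_zero]
  exact (RingHom.mem_ker).1 (hle hm)

variable {Q : Place (ResidueField A) Fb}

/-- a unit of the local ring reduces to a unit at `Q`. -/
theorem ord_ρx_of_χx_ne (hval : ValueCompat X Q)
    {z : X.Bx} (hz : X.χx z ≠ 0) : X.ρx z ≠ 0 ∧ Q.ord (X.ρx z) = 0 :=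
  (hval.ordx z).2.1 hz

/-- a non-unit of the local ring reduces to zero or to a function vanishing at `Q`. -/
theorem ord_ρx_of_χx_eq (hval : ValueCompat X Q)
    {z : X.Bx} (hz : X.χx z = 0) (h0 : X.ρx z ≠ 0) : 0 < Q.ord (X.ρx z) :=
  ((hval.ordx z).2.2 hz).resolve_left h0

theorem ord_ρx_nonneg (hval : ValueCompat X Q)
    (z : X.Bx) (_h0 : X.ρx z ≠ 0) : 0 ≤ Q.ord (X.ρx z) :=
  (hval.ordx z).1

/-- **peeling on the component**: every nonzero reduction is a power of `ρx x` times a unit. -/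
theorem peel_ρ {x y : X.Bx}
    (hmax : ∀ z : X.Bx, X.χx z = 0 →
      z ∈ Ideal.span {x, y} ⊔ Ideal.map (constHom X) (maximalIdeal A))
    (hρy : X.ρx y = 0)
    (hval : ValueCompat X Q)
    (hxpos : 0 < Q.ord (X.ρx x)) (z : X.Bx) (h0 : X.ρx z ≠ 0) :
    ∃ j : ℕ, Q.ord (X.ρx z) = j * Q.ord (X.ρx x) := by
  obtain ⟨n, hn⟩ : ∃ n : ℕ, Q.ord (X.ρx z) = n :=
    Int.eq_ofNat_of_zero_le (ord_ρx_nonneg hval z h0)
  induction n using Nat.strong_induction_on generalizing z with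
  | _ n ih =>
    by_cases hz : X.χx z = 0
    · have hm := hmax z hz
      rw [Submodule.mem_sup] at hm
      obtain ⟨s, hs, m, hm, e⟩ := hm
      rw [Ideal.mem_span_pair] at hs
      obtain ⟨z₁, z₂, e₁⟩ := hs
      have e2 : X.ρx z = X.ρx z₁ * X.ρx x := by
        rw [← e, ← e₁, map_add, map_add, map_mul, map_mul, hρy, mul_zero, add_zero,
          ρx_eq_zero_of_mem_map hm, add_zero]
      have hz₁0 : X.ρx z₁ ≠ 0 := left_ne_zero_of_mul (e2 ▸ h0)
      have hx0 : X.ρx x ≠ 0 := right_ne_zero_of_mul (e2 ▸ h0)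
      have hord : Q.ord (X.ρx z) = Q.ord (X.ρx z₁) + Q.ord (X.ρx x) := by
        rw [e2, Q.ord_mul hz₁0 hx0]
      obtain ⟨m', hm'⟩ : ∃ m' : ℕ, Q.ord (X.ρx z₁) = m' :=
        Int.eq_ofNat_of_zero_le (ord_ρx_nonneg hval z₁ hz₁0)
      have hlt : m' < n := by omega
      obtain ⟨j, hj⟩ := ih m' hlt z₁ hz₁0 hm'
      refine ⟨j + 1, ?_⟩
      rw [hord, hj]
      push_cast
      ring
    · exact ⟨0, by rw [(ord_ρx_of_χx_ne hval hz).2]; simp⟩

/-- **the branch parameter has order one on its component.** -/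
theorem ord_ρx_eq_one {x y : X.Bx}
    (hmax : ∀ z : X.Bx, X.χx z = 0 →
      z ∈ Ideal.span {x, y} ⊔ Ideal.map (constHom X) (maximalIdeal A))
    (hρy : X.ρx y = 0) (hρx : X.ρx x ≠ 0) (hχx : X.χx x = 0)
    (hval : ValueCompat X Q)
    (hfrac : ∀ f : Fb, ∃ a d : X.Bx, X.ρx d ≠ 0 ∧ f * X.ρx d = X.ρx a) :
    Q.ord (X.ρx x) = 1 := by
  have hxpos : 0 < Q.ord (X.ρx x) := ord_ρx_of_χx_eq hval hχx hρx
  obtain ⟨ϖ, hϖ⟩ := IsDiscreteValuationRing.exists_irreducible Q.toValuationSubring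
  have hϖ1 : Q.ord (ϖ : Fb) = 1 := Q.ord_coe_irreducible hϖ
  have hϖF : (ϖ : Fb) ≠ 0 := by
    intro h0
    rw [h0, Place.ord_zero] at hϖ1
    exact zero_ne_one hϖ1
  obtain ⟨a, d, hd, e⟩ := hfrac (ϖ : Fb)
  have ha : X.ρx a ≠ 0 := by
    rw [← e]
    exact mul_ne_zero hϖF hd
  obtain ⟨j, hj⟩ := peel_ρ hmax hρy hval hxpos a ha
  obtain ⟨k, hk⟩ := peel_ρ hmax hρy hval hxpos d hd
  have hord := congrArg Q.ord e
  rw [Q.ord_mul hϖF hd, hϖ1, hj, hk] at hord
  have hdvd : Q.ord (X.ρx x) ∣ 1 :=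
    ⟨(j : ℤ) - k, by
      rw [mul_sub]
      linarith [mul_comm (Q.ord (X.ρx x)) (j : ℤ), mul_comm (Q.ord (X.ρx x)) (k : ℤ)]⟩
  exact Int.eq_one_of_dvd_one hxpos.le hdvd

end Fermat.Agent.U44.NodeOrd6
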