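/-
Programme U44 (target S44), chapter (LIFT), route Omega, step (Om-B), part (B1) (lead):
**the product formula for the Hecke norm over `ℚ̄`, at the level of `q`-expansions.**

For `f ∈ F̄_N = ℚ̄(j(q^d) : d ∣ N)`, `ℓ ∤ N` prime, `α, β : F̄_N → F̄_{Nℓ}` the two degeneracy embeddings
(`α` the inclusion, `β : q ↦ q^ℓ`), `ζ = zetaK ℓ`:

  `(N_α (β f))(q^ℓ) = f(q^{ℓ²}) · ∏_{k<ℓ} f(ζ^k q)`   in `ℚ̄((q))`,

i.e. `qExpand ℓ (N_α (β f)) = heckeProdQ ℓ ζ f` (`prodFormula`).  No fractional powers of `q`.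

Proof: the analytic norm formula `an (N_α (β f)) = ∏_i (an f) ∘ β_i` in `MerH` (helper21/helper19:
`NormAnalytic21.norm_eq_prod_of_embeddings` + `RealBar19.sigma_*`), composed with `z ↦ ℓ z`;
`β_k ∘ (z ↦ ℓ z)` is the translation `z ↦ z + k/ℓ`, whose effect on `q`-expansions is the
coefficient scaling `sc (e^{2πik/ℓ})` (`HasQExp.translate`, `HasQExpMer.translate`); uniqueness of
`q`-expansions of meromorphic functions (`HasQExpMer.unique_left`); descent along `ι : ℚ̄ → ℂ`.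
-/
import Mathlib
import Fermat.Agent.U44.QScale0
import Fermat.Agent.ES.HEQ.RealBar19
import Fermat.Agent.ES.HEQ.NormAnalytic21
import Fermat.Agent.ES.HEQ.KummerHeckeMain19
import Fermat.Agent.ES.HECKE.PointFormula28
import Fermat.Agent.X0.RootsK

set_option autoImplicit false
set_option linter.style.haveILetI false
set_option linter.unusedSectionVars false

open UpperHalfPlane hiding I
open scoped Manifold MatrixGroups
open CongruenceSubgroup AlgebraicCurve HahnSeries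

noncomputable section

namespace Fermat.Agent.U44.ProdFormula0

open Fermat.Agent.X0 Fermat.Agent.X0.Analytic Fermat.Agent.X0.JQExp Fermat.Agent.X0.SurjPoint
  Fermat.Agent.ES.KUM
open Fermat.Agent.ES.HEQ.DoubleCoset27 Fermat.Agent.ES.HEQ.BetaMer19
open Fermat.Agent.ES.HEQ.QExpMer19 Fermat.Agent.ES.HEQ.RealBar19 ModularCurve
open Fermat.Agent.U44.QScale0

/-! ### scaling of power series and `tps` -/

/-- the unit of `ℂ` attached to a complex number of norm one. -/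
def unitOf (c : ℂ) (hc : ‖c‖ = 1) : ℂˣ :=
  Units.mk0 c (fun h => by rw [h, norm_zero] at hc; exact zero_ne_one hc)

@[simp] theorem coe_unitOf (c : ℂ) (hc : ‖c‖ = 1) : ((unitOf c hc : ℂˣ) : ℂ) = c := rfl

theorem tps_comp_mul {G : ℂ → ℂ} (hG : DifferentiableOn ℂ G (Metric.ball 0 1)) {c : ℂ}
    (hc : ‖c‖ = 1) :
    tps (fun q => G (c * q)) = PowerSeries.mk fun n => PowerSeries.coeff n (tps G) * c ^ n := by
  apply tps_eq_of_hasSum
  intro q hq
  have hcq : ‖c * q‖ < 1 := by rwa [norm_mul, hc, one_mul]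
  have h1 := hasSum_tps hG hcq
  refine h1.congr_fun fun n => ?_
  rw [mul_pow]
  ring

theorem diffOn_comp_mul {G : ℂ → ℂ} (hG : DifferentiableOn ℂ G (Metric.ball 0 1)) {c : ℂ}
    (hc : ‖c‖ = 1) : DifferentiableOn ℂ (fun q => G (c * q)) (Metric.ball 0 1) := by
  have h1 : DifferentiableOn ℂ (fun q : ℂ => c * q) (Metric.ball 0 1) :=
    (differentiableOn_const c).mul differentiableOn_id
  refine hG.comp h1 ?_
  intro q hq
  simp only [Metric.mem_ball, dist_zero_right] at hq ⊢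
  rwa [norm_mul, hc, one_mul]

/-- `sc c (q^{-m} P) = q^{-m} · c^{-m} P(c q)`. -/
theorem sc_lau (c : ℂˣ) (m : ℕ) (P : PowerSeries ℂ) :
    sc c (lau m P) =
      lau m (PowerSeries.mk fun n => ((c⁻¹ : ℂˣ) : ℂ) ^ m * (PowerSeries.coeff n P * (c : ℂ) ^ n)) := by
  unfold lau
  rw [map_mul, sc_single]
  have h1 : sc c (HahnSeries.ofPowerSeries ℤ ℂ P) =
      HahnSeries.ofPowerSeries ℤ ℂ (PowerSeries.mk fun n => PowerSeries.coeff n P * (c : ℂ) ^ n) := by
    ext n
    rw [sc_coeff]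
    rcases lt_or_ge n 0 with hn | hn
    · rw [ofPowerSeries_coeff_of_neg _ hn, ofPowerSeries_coeff_of_neg _ hn, mul_zero]
    · lift n to ℕ using hn
      rw [HahnSeries.ofPowerSeries_apply_coeff, HahnSeries.ofPowerSeries_apply_coeff,
        PowerSeries.coeff_mk, zpow_natCast, Units.val_pow_eq_pow_val, mul_comm]
  have h2 : (PowerSeries.mk fun n => ((c⁻¹ : ℂˣ) : ℂ) ^ m * (PowerSeries.coeff n P * (c : ℂ) ^ n)) =
      PowerSeries.C (((c⁻¹ : ℂˣ) : ℂ) ^ m) *
        (PowerSeries.mk fun n => PowerSeries.coeff n P * (c : ℂ) ^ n) := by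
    ext n
    rw [PowerSeries.coeff_mk, PowerSeries.coeff_C_mul, PowerSeries.coeff_mk]
  rw [h1, h2, RingHom.map_mul (HahnSeries.ofPowerSeries ℤ ℂ), HahnSeries.ofPowerSeries_C,
    ← mul_assoc]
  congr 1
  rw [HahnSeries.C_apply, HahnSeries.single_mul_single, mul_one, one_mul, add_zero]
  congr 1
  rw [zpow_neg, zpow_natCast, ← inv_pow, Units.val_pow_eq_pow_val]

/-! ### translations -/

/-- **translation of a convergent `q`-expansion**: if `g' z = g (z + t)` in the sense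
`qH`-parameters are multiplied by `c` (`‖c‖ = 1`), the expansion is scaled by `c`. -/
theorem HasQExp.translate {x : LaurentSeries ℂ} {g g' : ℍ → ℂ} (H : HasQExp x g)
    {c : ℂ} (hc : ‖c‖ = 1) (τ : ℍ → ℍ) (hτ : ∀ z, qH (τ z) = c * qH z)
    (hg' : ∀ z, g' z = g (τ z)) : HasQExp (sc (unitOf c hc) x) g' := by
  obtain ⟨m, G, hG, hx, hg⟩ := H
  have hc0 : c ≠ 0 := (unitOf c hc).ne_zero
  refine ⟨m, fun q => (c⁻¹) ^ m * G (c * q),
    (differentiableOn_const _).mul (diffOn_comp_mul hG hc), ?_, fun z => ?_⟩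
  · rw [hx, sc_lau]
    congr 1
    have h1 : tps (fun q => c⁻¹ ^ m * G (c * q)) =
        PowerSeries.C (c⁻¹ ^ m) * tps (fun q => G (c * q)) := by
      have h2 := tps_mul (f := fun _ : ℂ => c⁻¹ ^ m) (g := fun q => G (c * q))
        analyticAt_const (analyticAt_zero_of_diffOn (diffOn_comp_mul hG hc))
      rw [tps_const] at h2
      exact h2
    rw [h1, tps_comp_mul hG hc]
    ext n
    rw [PowerSeries.coeff_mk, PowerSeries.coeff_C_mul, PowerSeries.coeff_mk]
    rfl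
  · show g' z * qH z ^ m = c⁻¹ ^ m * G (c * qH z)
    rw [hg', ← hτ z, ← hg (τ z), hτ z, mul_pow]
    have h3 : c⁻¹ ^ m * c ^ m = 1 := by rw [← mul_pow, inv_mul_cancel₀ hc0, one_pow]
    linear_combination (-(g (τ z) * qH z ^ m)) * h3

/-- the same for meromorphic functions. -/
theorem HasQExpMer.translate {x : LaurentSeries ℂ} {h : MerH} (H : HasQExpMer x h)
    {c : ℂ} (hc : ‖c‖ = 1) (g : GL (Fin 2) ℝ) (hg : 0 < g.det.val)
    (hτ : ∀ z : ℍ, qH (g • z) = c * qH z) :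
    HasQExpMer (sc (unitOf c hc) x) (glMer g hg h) := by
  obtain ⟨a, b, fa, fb, hfb, ha, hb, hx, hh⟩ := H
  refine ⟨glHom g hg a, glHom g hg b, sc (unitOf c hc) fa, sc (unitOf c hc) fb, ?_, ?_, ?_, ?_, ?_⟩
  · exact (map_ne_zero_iff _ (sc_injective _)).mpr hfb
  · exact HasQExp.translate ha hc (fun z => g • z) hτ (fun z => rfl)
  · exact HasQExp.translate hb hc (fun z => g • z) hτ (fun z => rfl)
  · rw [← map_mul, hx]
  · rw [← glMer_algebraMap, ← glMer_algebraMap, ← map_mul, hh]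

/-! ### multiplicativity and uniqueness of `HasQExpMer` -/

theorem HasQExpMer.mul {x x' : LaurentSeries ℂ} {h h' : MerH} (H : HasQExpMer x h)
    (H' : HasQExpMer x' h') : HasQExpMer (x * x') (h * h') := by
  obtain ⟨a, b, fa, fb, hfb, ha, hb, hx, hh⟩ := H
  obtain ⟨a', b', fa', fb', hfb', ha', hb', hx', hh'⟩ := H'
  refine ⟨a * a', b * b', fa * fa', fb * fb', mul_ne_zero hfb hfb', ha.mul ha', hb.mul hb', ?_, ?_⟩
  · rw [← hx, ← hx']
    ring
  · rw [map_mul, map_mul, ← hh, ← hh']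
    ring

theorem hasQExpMer_one : HasQExpMer (1 : LaurentSeries ℂ) (1 : MerH) := by
  have h := hasQExpMer_of_hasQExp (a := (1 : HolH)) hasQExp_one
  rwa [map_one] at h

theorem HasQExpMer.prod {ι : Type*} (s : Finset ι) (x : ι → LaurentSeries ℂ) (h : ι → MerH)
    (H : ∀ i ∈ s, HasQExpMer (x i) (h i)) : HasQExpMer (∏ i ∈ s, x i) (∏ i ∈ s, h i) := by
  classical
  induction s using Finset.induction_on with
  | empty => simpa using hasQExpMer_one
  | insert i s hi ih =>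
    rw [Finset.prod_insert hi, Finset.prod_insert hi]
    exact HasQExpMer.mul (H i (Finset.mem_insert_self i s))
      (ih fun j hj => H j (Finset.mem_insert_of_mem hj))

/-- **the expansion is determined by the meromorphic function.** -/
theorem HasQExpMer.unique_left {x x' : LaurentSeries ℂ} {h : MerH} (H : HasQExpMer x h)
    (H' : HasQExpMer x' h) : x = x' := by
  obtain ⟨a, b, fa, fb, hfb, ha, hb, hx, hh⟩ := H
  obtain ⟨a', b', fa', fb', hfb', ha', hb', hx', hh'⟩ := H'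
  have e1 : algebraMap HolH MerH (a * b') = algebraMap HolH MerH (a' * b) := by
    rw [map_mul, map_mul, ← hh, ← hh']
    ring
  have e2 : a * b' = a' * b := IsFractionRing.injective HolH MerH e1
  have e3 : a.1 * b'.1 = a'.1 * b.1 := congrArg Subtype.val e2
  have h1 : HasQExp (fa * fb') (a.1 * b'.1) := ha.mul hb'
  have h2 : HasQExp (fa' * fb) (a'.1 * b.1) := ha'.mul hb
  rw [e3] at h1
  have e4 : fa * fb' = fa' * fb := h1.unique_left h2
  have e5 : x * (fb * fb') = x' * (fb * fb') := by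
    calc x * (fb * fb') = (x * fb) * fb' := by ring
      _ = fa * fb' := by rw [hx]
      _ = fa' * fb := e4
      _ = (x' * fb') * fb := by rw [hx']
      _ = x' * (fb * fb') := by ring
  exact mul_right_cancel₀ (mul_ne_zero hfb hfb') e5

/-! ### the analytic norm formula over `ℚ̄` -/

section Main

open Fermat.Agent.ES.HECKE.PointFormula28

variable {N ℓ : ℕ} [NeZero N] [hℓ : Fact ℓ.Prime] (hℓN : ¬ ℓ ∣ N)

include hℓN in
/-- **the analytic norm formula over `ℚ̄`**: `an (N_α (β f)) = ∏ i, (an f) ∘ β_i`. -/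
theorem anBar_normAlong (f : FF N) :
    anBar N (normAlong (heckeAlphaBar Kbar N ℓ) (heckeBetaBar Kbar N ℓ f)) =
      ∏ i : Option (ZMod ℓ), betaMer ℓ i (anBar N f) := by
  letI := algebraAlong (heckeAlphaBar Kbar N ℓ)
  haveI : FiniteDimensional (FF N) (FF (N * ℓ)) :=
    Fermat.Agent.ES.HECKE.AlongDegree25.finiteAlong_alpha Kbar N ℓ hℓ.out hℓN
  haveI : CharZero (FF N) := charZero_of_injective_algebraMap (algebraMap Kbar (FF N)).injective
  have hcard : Fintype.card (Option (ZMod ℓ)) = Module.finrank (FF N) (FF (N * ℓ)) := by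
    rw [Fintype.card_option, ZMod.card]
    exact (Fermat.Agent.ES.HECKE.AlongDegree25.finrankAlong_alpha Kbar N ℓ hℓ.out hℓN).symm
  have h := Fermat.Agent.ES.HEQ.NormAnalytic21.norm_eq_prod_of_embeddings (anBar N) (sigma hℓN)
    (sigma_alpha hℓN) (sigma_injective hℓN) hcard (heckeBetaBar Kbar N ℓ f)
  show anBar N (Algebra.norm (FF N) (heckeBetaBar Kbar N ℓ f)) = _
  rw [h]
  exact Finset.prod_congr rfl fun i _ => sigma_beta hℓN i f

/-- `ω = e^{2πi/ℓ}`. -/
def omegaC (ℓ : ℕ) : ℂ := Complex.exp (2 * Real.pi * Complex.I / ℓ)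

theorem omegaC_pow_self : omegaC ℓ ^ ℓ = 1 :=
  (Complex.isPrimitiveRoot_exp ℓ hℓ.out.ne_zero).pow_eq_one

theorem norm_omegaC : ‖omegaC ℓ‖ = 1 :=
  Complex.norm_eq_one_of_pow_eq_one omegaC_pow_self hℓ.out.ne_zero

theorem norm_omegaC_pow (k : ℕ) : ‖omegaC ℓ ^ k‖ = 1 := by
  rw [norm_pow, norm_omegaC, one_pow]

/-- `β_k ∘ β_∞` is the translation by `k/ℓ`: `q(β_k (β_∞ z)) = ω^k q(z)`. -/
theorem qH_glBeta_mul (k : ZMod ℓ) (z : ℍ) :
    qH ((glBeta ℓ (some k) * glBeta ℓ none) • z) = omegaC ℓ ^ k.val * qH z := by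
  have hℓ0 : (ℓ : ℂ) ≠ 0 := by exact_mod_cast hℓ.out.ne_zero
  rw [mul_smul]
  unfold qH Function.Periodic.qParam omegaC
  rw [glBeta_some, ModularForm.coe_heckeMatrix_smul hℓ.out.ne_zero, glBeta_none,
    ModularForm.coe_heckeDiagMatrix_smul hℓ.out.ne_zero, ← Complex.exp_nat_mul, ← Complex.exp_add]
  congr 1
  push_cast
  field_simp
  ring

/-- the unit `ζ_ℓ` of `ℚ̄`. -/
def zetaU (ℓ : ℕ) [NeZero ℓ] : Kbarˣ := Units.mk0 (zetaK ℓ) (zetaK_ne_zero ℓ)

@[simp] theorem coe_zetaU (ℓ : ℕ) [NeZero ℓ] : ((zetaU ℓ : Kbarˣ) : Kbar) = zetaK ℓ := rfl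

theorem isPrimitiveRoot_zetaU (ℓ : ℕ) [NeZero ℓ] : IsPrimitiveRoot (zetaU ℓ) ℓ := by
  have h := isPrimitiveRoot_zetaK ℓ
  rw [← coe_zetaU] at h
  exact IsPrimitiveRoot.coe_units_iff.1 h

theorem rootSum_zetaU (ℓ : ℕ) [NeZero ℓ] : RootSum ℓ (zetaU ℓ) :=
  rootSum_of_isPrimitiveRoot (isPrimitiveRoot_zetaU ℓ)

theorem unitOf_omegaC_pow (k : ℕ) :
    haveI : NeZero ℓ := ⟨hℓ.out.ne_zero⟩
    unitOf (omegaC ℓ ^ k) (norm_omegaC_pow k) = (Units.map (iotaK : Kbar →* ℂ) (zetaU ℓ)) ^ k := by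
  haveI : NeZero ℓ := ⟨hℓ.out.ne_zero⟩
  apply Units.ext
  rw [coe_unitOf, Units.val_pow_eq_pow_val, Units.coe_map]
  show omegaC ℓ ^ k = (iotaK (zetaK ℓ)) ^ k
  rw [iotaK_zetaK]
  rfl

include hℓN in
/-- **(B1) the product formula over `ℚ̄`**: `(N_α (β f))(q^ℓ) = f(q^{ℓ²}) ∏_{k<ℓ} f(ζ^k q)`. -/
theorem prodFormula (f : FF N) :
    haveI : NeZero ℓ := ⟨hℓ.out.ne_zero⟩
    qExpand Kbar ℓ ((normAlong (heckeAlphaBar Kbar N ℓ) (heckeBetaBar Kbar N ℓ f) : FF N) :
        LaurentSeries Kbar) = heckeProdQ ℓ (zetaU ℓ) (f : LaurentSeries Kbar) := by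
  haveI : NeZero ℓ := ⟨hℓ.out.ne_zero⟩
  apply toC_injective
  have e1 : toC (qExpand Kbar ℓ ((normAlong (heckeAlphaBar Kbar N ℓ) (heckeBetaBar Kbar N ℓ f) : FF N) :
        LaurentSeries Kbar)) = qExpand ℂ ℓ (toC ((normAlong (heckeAlphaBar Kbar N ℓ)
          (heckeBetaBar Kbar N ℓ f) : FF N) : LaurentSeries Kbar)) :=
    QScale0.coeffMap_qExpand iotaK ℓ _
  have e2 : toC (heckeProdQ ℓ (zetaU ℓ) (f : LaurentSeries Kbar)) =
      heckeProdQ ℓ (Units.map (iotaK : Kbar →* ℂ) (zetaU ℓ)) (toC (f : LaurentSeries Kbar)) :=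
    coeffMap_heckeProdQ iotaK ℓ _ _
  rw [e1, e2]
  -- both sides are expansions of the same meromorphic function
  have H1 : HasQExpMer (qExpand ℂ ℓ (toC ((normAlong (heckeAlphaBar Kbar N ℓ)
      (heckeBetaBar Kbar N ℓ f) : FF N) : LaurentSeries Kbar)))
      (betaMer ℓ none (anBar N (normAlong (heckeAlphaBar Kbar N ℓ) (heckeBetaBar Kbar N ℓ f)))) :=
    (hasQExpMer_anBar N _).betaMer_none
  rw [anBar_normAlong hℓN, map_prod, Fintype.prod_option] at H1
  have HF := hasQExpMer_anBar N f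
  have H2 : HasQExpMer (qExpand ℂ ℓ (qExpand ℂ ℓ (toC (f : LaurentSeries Kbar))))
      (betaMer ℓ none (betaMer ℓ none (anBar N f))) := HF.betaMer_none.betaMer_none
  have H3 : ∀ k : ZMod ℓ, HasQExpMer
      (sc ((Units.map (iotaK : Kbar →* ℂ) (zetaU ℓ)) ^ k.val) (toC (f : LaurentSeries Kbar)))
      (betaMer ℓ none (betaMer ℓ (some k) (anBar N f))) := by
    intro k
    have h1 : betaMer ℓ none (betaMer ℓ (some k) (anBar N f)) =
        glMer (glBeta ℓ (some k) * glBeta ℓ none)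
          (det_mul_pos (det_glBeta_pos (some k)) (det_glBeta_pos none)) (anBar N f) :=
      (glMer_mul _ _ _ _ _).symm
    rw [h1, ← unitOf_omegaC_pow]
    exact HasQExpMer.translate HF (norm_omegaC_pow k.val) _ _ (qH_glBeta_mul k)
  have H4 := HasQExpMer.mul H2 (HasQExpMer.prod Finset.univ _ _ (fun k _ => H3 k))
  have e3 : heckeProdQ ℓ (Units.map (iotaK : Kbar →* ℂ) (zetaU ℓ)) (toC (f : LaurentSeries Kbar)) =
      qExpand ℂ ℓ (qExpand ℂ ℓ (toC (f : LaurentSeries Kbar))) *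
        ∏ k : ZMod ℓ, sc ((Units.map (iotaK : Kbar →* ℂ) (zetaU ℓ)) ^ k.val)
          (toC (f : LaurentSeries Kbar)) := by
    unfold heckeProdQ
    congr 1
    symm
    refine Finset.prod_bij (fun (k : ZMod ℓ) _ => k.val) ?_ ?_ ?_ ?_
    · intro k _
      exact Finset.mem_range.2 (ZMod.val_lt k)
    · intro k _ k' _ hkk
      exact ZMod.val_injective ℓ hkk
    · intro j hj
      exact ⟨(j : ZMod ℓ), Finset.mem_univ _, ZMod.val_cast_of_lt (Finset.mem_range.1 hj)⟩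
    · intro k _
      rfl
  rw [e3]
  exact HasQExpMer.unique_left H1 H4

end Main

end Fermat.Agent.U44.ProdFormula0
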