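/-
Programme U44 (target S44), chapter (LIFT), route Omega, step (Om-B), bridge (lead):
helper5's norm formula on the special fibre (`HeckeDlogNorm5.qExpand_normAlong_alphaC`, in the
`KronNorm10.normProd` / `KronCong24.twistU` vocabulary) gives helper3's hypothesis
`HeckeDlogB3.ProdFormula h ℓ` (in the `QScale0.heckeProdQ` / `sc` vocabulary); hence helper3's
(Om-B) theorem `lamFb_heckeC` holds without hypothesis: `lamFb_heckeC'`, `lamFb_heckeC_int'`.
-/
import Mathlib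
import Fermat.Agent.U44.HeckeDlogB3
import Fermat.Agent.U44.HeckeDlogNorm5
import Fermat.Agent.X0.RootsK

set_option autoImplicit false
set_option linter.unusedSectionVars false
set_option linter.style.haveILetI false
set_option synthInstance.maxHeartbeats 400000

noncomputable section

namespace Fermat.Agent.U44.ProdFormulaB0

open HahnSeries ModularCurve IntermediateField IsLocalRing AlgebraicCurve
open Fermat.Agent.RED.Interface4 Fermat.Agent.ES.RED Fermat.Agent.T33.NodalHalf4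
  Fermat.Agent.U44.DegreeC4 Fermat.Agent.U44.HeckeC4 Fermat.Agent.U44.QScale0
  Fermat.Agent.U44.HeckeDlogB3 Fermat.Agent.U44.DlogInst5 Fermat.Agent.U44.LiftAsm5
  Fermat.Agent.ES.HECKE.PointFormula28 Fermat.Agent.ES.KRON.KronCong24
  Fermat.Agent.ES.KRON.KronNorm10

/-- `sc` and `twistU` are the same ring homomorphism. -/
theorem sc_eq_twistU {R : Type*} [CommRing R] (u : Rˣ) (x : LaurentSeries R) :
    sc u x = twistU u x := by
  ext n
  rfl

/-- `heckeProdQ` and `normProd` are the same series. -/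
theorem heckeProdQ_eq_normProd {R : Type*} [CommRing R] (ℓ : ℕ) [NeZero ℓ] (ζ : Rˣ)
    (g : LaurentSeries R) : heckeProdQ ℓ ζ g = normProd ℓ ζ g := by
  unfold heckeProdQ normProd
  have h1 : (∏ k ∈ Finset.range ℓ, sc (ζ ^ k) g) = ∏ b ∈ Finset.range ℓ, twistU (ζ ^ b) g :=
    Finset.prod_congr rfl fun k _ => sc_eq_twistU (ζ ^ k) g
  have h2 : qExpand R ℓ (qExpand R ℓ g) = qExpand R (ℓ ^ 2) g := by
    rw [qExpand_qExpand]
    exact qExpand_congr (pow_two ℓ).symm g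
  rw [h1, h2, mul_comm]

variable {p M' : ℕ} [NeZero M'] [NeZero p] {A : ValuationSubring Qbar}
  (h : LevelHyp p M' A) {ℓ : ℕ} [NeZero ℓ] (hℓ : ℓ.Prime) (hℓp : ℓ ≠ p) (hℓM : ¬ ℓ ∣ M')

/-- a primitive `ℓ`-th root of unity of `ℚ̄` is a unit of the valuation ring `A`. -/
theorem exists_unit_primitiveRoot (A : ValuationSubring Qbar) (ℓ : ℕ) [NeZero ℓ] :
    ∃ ζA : (↥A)ˣ, IsPrimitiveRoot (Units.map (A.subtype : ↥A →* Qbar) ζA) ℓ := by
  have hprim : IsPrimitiveRoot (Fermat.Agent.X0.zetaK ℓ : Qbar) ℓ :=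
    Fermat.Agent.X0.isPrimitiveRoot_zetaK ℓ
  have hpos : 0 < ℓ := Nat.pos_of_ne_zero (NeZero.ne ℓ)
  have hint : ∀ k : ℕ, (Fermat.Agent.X0.zetaK ℓ : Qbar) ^ k ∈ A := fun k =>
    Fermat.Agent.Lib.FrobeniusExists.mem_valuationSubring_of_isIntegral A
      ((hprim.isIntegral hpos).pow k)
  have h1 : (Fermat.Agent.X0.zetaK ℓ : Qbar) * (Fermat.Agent.X0.zetaK ℓ) ^ (ℓ - 1) = 1 := by
    rw [← pow_succ', Nat.sub_add_cancel hpos, hprim.pow_eq_one]
  let ζA : (↥A)ˣ :=
    { val := ⟨Fermat.Agent.X0.zetaK ℓ, by simpa using hint 1⟩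
      inv := ⟨(Fermat.Agent.X0.zetaK ℓ) ^ (ℓ - 1), hint (ℓ - 1)⟩
      val_inv := Subtype.ext h1
      inv_val := Subtype.ext (by rw [mul_comm] at h1; exact h1) }
  refine ⟨ζA, ?_⟩
  have h2 : ((Units.map (A.subtype : ↥A →* Qbar) ζA : Qbarˣ) : Qbar) = Fermat.Agent.X0.zetaK ℓ := rfl
  rw [← IsPrimitiveRoot.coe_units_iff, h2]
  exact hprim

include h hℓ hℓp hℓM in
/-- **(PF) the characteristic-`p` product formula**, in helper3's shape. -/
theorem prodFormula : ProdFormula h ℓ := by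
  obtain ⟨ζA, hζ⟩ := exists_unit_primitiveRoot A ℓ
  have hζA : IsPrimitiveRoot ζA ℓ := by
    have hinj : Function.Injective (Units.map (A.subtype : ↥A →* Qbar)) :=
      Units.map_injective (f := (A.subtype : ↥A →* Qbar)) Subtype.val_injective
    exact IsPrimitiveRoot.of_map_of_injective (f := Units.map (A.subtype : ↥A →* Qbar)) hζ hinj
  refine ⟨Units.map (Setup8.resA A : ↥A →* Setup8.kA A) ζA,
    (rootSum_of_isPrimitiveRoot hζA).map (Setup8.resA A), fun g => ?_⟩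
  rw [heckeProdQ_eq_normProd]
  exact Fermat.Agent.U44.HeckeDlogNorm5.qExpand_normAlong_alphaC h hℓ hℓp hℓM ζA hζ g

include h hℓ hℓp hℓM in
/-- **(Om-B), hypothesis-free**: `λ (T̄_ℓ y) = T_ℓ^{formal} (λ y)` on coefficients. -/
theorem lamFb_heckeC' [Fact p.Prime] [CharP (Setup8.kA A) p]
    (hconst : ∀ f : ↥(modularFunctionFieldFullC (Setup8.kA A) M'), f ≠ 0 →
      (∀ v : Place (Setup8.kA A) ↥(modularFunctionFieldFullC (Setup8.kA A) M'), v.ord f = 0) →
      ∃ c : Setup8.kA A, f = algebraMap (Setup8.kA A) ↥(modularFunctionFieldFullC (Setup8.kA A) M') c)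
    (y Ty : Pic0.torsion (Setup8.kA A) (Fb A M') p)
    (hTy : (Ty : JZeroC (Setup8.kA A) M') = heckeC h hℓ hℓp hℓM y) (n : ℕ) :
    (lamFb p M' hconst Ty).coeff (n : ℤ) =
      Tf ℓ (fun m : ℕ => (lamFb p M' hconst y).coeff (m : ℤ)) n :=
  lamFb_heckeC h hℓ hℓp hℓM hconst (prodFormula h hℓ hℓp hℓM) y Ty hTy n

end Fermat.Agent.U44.ProdFormulaB0
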