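/-
Programme U44 (target S44), chapter (GAMMA), leaf (L-iii) of (C3) (helper8): **the powers
`1, x, …, x^(p-1)` of a separating generator are linearly independent over the `p`-th powers.**

GENERIC (`K` a field of characteristic `p`): if `x ∈ K` is not a `p`-th power, then
`∑_{i<p} (c i)^p x^i = 0` forces `c = 0` (`eq_zero_of_sum_pow_mul_pow_eq_zero`): `X^p - x^p` is
irreducible over the subfield `K^p` (Mathlib's `X_pow_sub_C_irreducible_of_prime`), so it is the
minimal polynomial of `x` over `K^p`.

INSTANCE (`h : LevelHyp p M' A`, `Fb = Fb A M'` the function field of the special fibre):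
`xOne h`, `xTwo h` are not `p`-th powers (`D x ≠ 0` for a separating generator, `D (z^p) = 0`), hence
`pow_indep_xTwo`: this is the `n₂ = p` residual independence input of
`TwoExt22.eq_or_eq_of_residually_independent` (the reductions `ρ₂ (α a)` are `p`-th powers).
-/
import Mathlib
import Fermat.Agent.T33.FrickeRed3B
import Fermat.Agent.U44.SepDiff0

set_option autoImplicit false
set_option linter.unusedSectionVars false
set_option linter.style.haveILetI false
set_option synthInstance.maxHeartbeats 400000

noncomputable section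

namespace Fermat.Agent.U44.PthIndep8

open Polynomial

section Generic

variable {K : Type*} [Field K] (p : ℕ) [hp : Fact p.Prime] [CharP K p]

/-- the subfield `K^p` of `p`-th powers. -/
def pthPowers : Subfield K := (frobenius K p).fieldRange

theorem mem_pthPowers_iff (y : K) : y ∈ pthPowers (K := K) p ↔ ∃ z : K, z ^ p = y := by
  unfold pthPowers
  rw [RingHom.mem_fieldRange]
  simp only [frobenius_def]

theorem pow_mem_pthPowers (z : K) : z ^ p ∈ pthPowers (K := K) p :=
  (mem_pthPowers_iff p _).2 ⟨z, rfl⟩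

/-- `X^p - x^p` is irreducible over `K^p` when `x` is not a `p`-th power. -/
theorem irreducible_X_pow_sub {x : K} (hx : ∀ z : K, z ^ p ≠ x) :
    Irreducible (X ^ p - C (⟨x ^ p, pow_mem_pthPowers p x⟩ : pthPowers (K := K) p)) := by
  apply X_pow_sub_C_irreducible_of_prime hp.out
  rintro ⟨b, hb⟩ hbp
  obtain ⟨z, rfl⟩ := (mem_pthPowers_iff p b).1 hb
  have h1 : (z ^ p) ^ p = x ^ p := congrArg Subtype.val hbp
  have h2 : z ^ p = x := frobenius_inj K p h1
  exact hx z h2

/-- the minimal polynomial of `x` over `K^p` is `X^p - x^p`. -/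
theorem minpoly_eq {x : K} (hx : ∀ z : K, z ^ p ≠ x) :
    minpoly (pthPowers (K := K) p) x =
      X ^ p - C (⟨x ^ p, pow_mem_pthPowers p x⟩ : pthPowers (K := K) p) := by
  symm
  apply minpoly.eq_of_irreducible_of_monic (irreducible_X_pow_sub p hx)
  · rw [map_sub, map_pow, aeval_X, aeval_C]
    exact sub_self _
  · exact monic_X_pow_sub_C _ hp.out.ne_zero

theorem natDegree_minpoly {x : K} (hx : ∀ z : K, z ^ p ≠ x) :
    (minpoly (pthPowers (K := K) p) x).natDegree = p := by
  rw [minpoly_eq p hx]
  exact natDegree_X_pow_sub_C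

/-- **the powers `x^i`, `i < p`, are linearly independent over `K^p`.** -/
theorem linearIndependent_pow_pthPowers {x : K} (hx : ∀ z : K, z ^ p ≠ x) :
    LinearIndependent (pthPowers (K := K) p) fun i : Fin p => x ^ (i : ℕ) := by
  have h := linearIndependent_pow (K := pthPowers (K := K) p) x
  rw [natDegree_minpoly p hx] at h
  exact h

/-- elementwise form, coefficients in `K^p`. -/
theorem eq_zero_of_sum_mul_pow_eq_zero {x : K} (hx : ∀ z : K, z ^ p ≠ x) (c : Fin p → K)
    (hc : ∀ i, c i ∈ pthPowers (K := K) p) (hsum : ∑ i : Fin p, c i * x ^ (i : ℕ) = 0) :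
    ∀ i, c i = 0 := by
  have hli := linearIndependent_pow_pthPowers p hx
  rw [Fintype.linearIndependent_iff] at hli
  have hsum' : ∑ i : Fin p, (⟨c i, hc i⟩ : pthPowers (K := K) p) • x ^ (i : ℕ) = 0 := by
    rw [← hsum]
    refine Finset.sum_congr rfl fun i _ => ?_
    exact Subfield.smul_def _ _
  intro i
  have h := hli (fun i => (⟨c i, hc i⟩ : pthPowers (K := K) p)) hsum' i
  exact congrArg Subtype.val h

/-- **elementwise form**: `∑ (c i)^p x^i = 0 ⟹ c = 0`. -/
theorem eq_zero_of_sum_pow_mul_pow_eq_zero {x : K} (hx : ∀ z : K, z ^ p ≠ x) (c : Fin p → K)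
    (hsum : ∑ i : Fin p, c i ^ p * x ^ (i : ℕ) = 0) : ∀ i, c i = 0 := by
  intro i
  have h := eq_zero_of_sum_mul_pow_eq_zero p hx (fun i => c i ^ p)
    (fun i => pow_mem_pthPowers p (c i)) hsum i
  exact pow_eq_zero_iff hp.out.ne_zero |>.1 h

end Generic

/-! ### differentials: a separating generator is not a `p`-th power -/

section Diff

open KaehlerDifferential IntermediateField

variable {K F : Type*} [Field K] [Field F] [Algebra K F] (p : ℕ) [Fact p.Prime] [CharP K p]

/-- in characteristic `p` the differential of a `p`-th power vanishes. -/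
theorem D_pow_char (a : F) : D K F (a ^ p) = 0 := by
  haveI : CharP F p := charP_of_injective_algebraMap (algebraMap K F).injective p
  rw [Derivation.leibniz_pow]
  have : ((p : ℕ) : F) = 0 := CharP.cast_eq_zero F p
  rw [← Nat.cast_smul_eq_nsmul F, this, zero_smul]

/-- a separating transcendental element is not a `p`-th power. -/
theorem not_pth_power_of_sep (x : F) (hx : Transcendental K x)
    [Algebra.IsSeparable K⟮x⟯ F] (z : F) : z ^ p ≠ x := by
  intro h
  apply Fermat.Agent.U44.SepDiff0.D_ne_zero_sep x hx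
  rw [← h]
  exact D_pow_char p z

end Diff

/-! ### the instance on the special fibre -/

section Instance

open Fermat.Agent.RED.Interface4 Fermat.Agent.ES.RED Fermat.Agent.T33.NodalHalf4
  Fermat.Agent.T33.FrickeRed3

variable {p M' : ℕ} [NeZero M'] [NeZero p] {A : ValuationSubring Qbar} (h : LevelHyp p M' A)

theorem xOne_not_pth_power [Fact p.Prime] [CharP (Setup8.kA A) p] (z : Fb A M') :
    z ^ p ≠ xOne h :=
  not_pth_power_of_sep (K := Setup8.kA A) p (xOne h) (isGen_xOne h).transcendental z

theorem xTwo_not_pth_power [Fact p.Prime] [CharP (Setup8.kA A) p] (z : Fb A M') :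
    z ^ p ≠ xTwo h :=
  not_pth_power_of_sep (K := Setup8.kA A) p (xTwo h) (isGen_xTwo h).transcendental z

/-- **`1, x₂, …, x₂^(p-1)` are independent over `(Fb A M')^p`** (elementwise form). -/
theorem pow_indep_xTwo [Fact p.Prime] [CharP (Setup8.kA A) p] (c : Fin p → Fb A M')
    (hsum : ∑ i : Fin p, c i ^ p * xTwo h ^ (i : ℕ) = 0) : ∀ i, c i = 0 :=
  haveI : CharP (Fb A M') p :=
    charP_of_injective_algebraMap (algebraMap (Setup8.kA A) (Fb A M')).injective p
  eq_zero_of_sum_pow_mul_pow_eq_zero p (xTwo_not_pth_power h) c hsum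

theorem pow_indep_xOne [Fact p.Prime] [CharP (Setup8.kA A) p] (c : Fin p → Fb A M')
    (hsum : ∑ i : Fin p, c i ^ p * xOne h ^ (i : ℕ) = 0) : ∀ i, c i = 0 :=
  haveI : CharP (Fb A M') p :=
    charP_of_injective_algebraMap (algebraMap (Setup8.kA A) (Fb A M')).injective p
  eq_zero_of_sum_pow_mul_pow_eq_zero p (xOne_not_pth_power h) c hsum

end Instance

end Fermat.Agent.U44.PthIndep8
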