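/-
Programme U44 (target S44), chapter (GAMMA), leaf of (C3) (helper8, for helper4's `GammaTwo4`):
**the powers `1, x, …, x^(p-1)` of a series of order `-1` are linearly independent over the series
in `q^p`.**

`κ` a field, `x ∈ κ((q))` of order `-1` (more generally of order prime to `p`... only `-1` is
needed), `v : Fin p → κ((q))`:  `∑_i v_i(q^p) · x^i = 0 ⟹ v = 0`  (`qExpand_indep`): the orders
`p · ord v_i - i` of the non-zero terms are pairwise distinct, so the term of least order cannot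
cancel (`sum_ne_zero_of_order_injOn`).
-/
import Mathlib
import Fermat.Agent.IG.PR.ThetaV1

set_option autoImplicit false

namespace Fermat.Agent.U44.SeriesIndep8

open HahnSeries ModularCurve

variable {κ : Type*} [Field κ]

/-- **a finite sum of non-zero Laurent series with pairwise distinct orders is non-zero.** -/
theorem sum_ne_zero_of_order_injOn {ι : Type*} (s : Finset ι) (f : ι → LaurentSeries κ)
    (hs : s.Nonempty) (hne : ∀ i ∈ s, f i ≠ 0)
    (hinj : ∀ i ∈ s, ∀ j ∈ s, (f i).order = (f j).order → i = j) :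
    ∑ i ∈ s, f i ≠ 0 := by
  classical
  obtain ⟨i₀, hi₀, hmin⟩ := Finset.exists_min_image s (fun i => (f i).order) hs
  intro h0
  have hc : (∑ i ∈ s, f i).coeff (f i₀).order = 0 := by rw [h0]; rfl
  have hsum : (∑ i ∈ s, f i).coeff (f i₀).order = ∑ i ∈ s, (f i).coeff (f i₀).order :=
    map_sum (HahnSeries.coeff.addMonoidHom (f i₀).order) f s
  rw [hsum, Finset.sum_eq_single_of_mem i₀ hi₀] at hc
  · exact hne i₀ hi₀ (HahnSeries.coeff_order_eq_zero.1 hc)
  · intro j hj hji
    apply HahnSeries.coeff_eq_zero_of_lt_order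
    have h1 : (f i₀).order ≤ (f j).order := hmin j hj
    have h2 : (f i₀).order ≠ (f j).order := fun h => hji (hinj i₀ hi₀ j hj h).symm
    exact lt_of_le_of_ne h1 h2

/-- the order of the `i`-th term. -/
theorem order_term (p : ℕ) [NeZero p] {x : LaurentSeries κ} (hx : x.order = -1)
    {w : LaurentSeries κ} (hw : w ≠ 0) (i : ℕ) :
    (qExpand κ p w * x ^ i).order = (p : ℤ) * w.order - i := by
  have hx0 : x ≠ 0 := by
    rintro rfl
    rw [HahnSeries.order_zero] at hx
    exact absurd hx (by norm_num)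
  have h1 : qExpand κ p w ≠ 0 := Fermat.Agent.IG.PR.ThetaV1.qExpand_ne_zero p hw
  have h2 : x ^ i ≠ 0 := pow_ne_zero i hx0
  rw [HahnSeries.order_mul h1 h2, Fermat.Agent.IG.PR.ThetaV1.order_qExpand, HahnSeries.order_pow,
    hx]
  simp only [nsmul_eq_mul]
  ring

/-- **`∑_i v_i(q^p) x^i = 0 ⟹ v = 0`** for `x` of order `-1`. -/
theorem qExpand_indep (p : ℕ) [NeZero p] (x : LaurentSeries κ) (hx : x.order = -1)
    (v : Fin p → LaurentSeries κ)
    (h : ∑ i : Fin p, qExpand κ p (v i) * x ^ (i : ℕ) = 0) : ∀ i, v i = 0 := by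
  classical
  by_contra hcon
  push Not at hcon
  obtain ⟨i₁, hi₁⟩ := hcon
  set s : Finset (Fin p) := Finset.univ.filter (fun i => v i ≠ 0) with hs
  have hx0 : x ≠ 0 := by
    rintro rfl
    rw [HahnSeries.order_zero] at hx
    exact absurd hx (by norm_num)
  have hsum : ∑ i ∈ s, qExpand κ p (v i) * x ^ (i : ℕ) = 0 := by
    rw [← h, hs, Finset.sum_filter]
    refine Finset.sum_congr rfl fun i _ => ?_
    by_cases hv : v i = 0
    · rw [if_neg (not_not.2 hv), hv, map_zero, zero_mul]
    · rw [if_pos hv]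
  refine sum_ne_zero_of_order_injOn s (fun i => qExpand κ p (v i) * x ^ (i : ℕ))
    ⟨i₁, by rw [hs, Finset.mem_filter]; exact ⟨Finset.mem_univ _, hi₁⟩⟩ ?_ ?_ hsum
  · intro i hi
    rw [hs, Finset.mem_filter] at hi
    exact mul_ne_zero (Fermat.Agent.IG.PR.ThetaV1.qExpand_ne_zero p hi.2)
      (pow_ne_zero _ hx0)
  · intro i hi j hj hij
    rw [hs, Finset.mem_filter] at hi hj
    rw [order_term p hx hi.2, order_term p hx hj.2] at hij
    -- `p a - i = p b - j` with `i, j < p`
    have hp : (0 : ℤ) < p := by exact_mod_cast Nat.pos_of_ne_zero (NeZero.ne p)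
    have hi' : ((i : ℕ) : ℤ) < p := by exact_mod_cast i.2
    have hj' : ((j : ℕ) : ℤ) < p := by exact_mod_cast j.2
    have hi0 : (0 : ℤ) ≤ ((i : ℕ) : ℤ) := Int.natCast_nonneg _
    have hj0 : (0 : ℤ) ≤ ((j : ℕ) : ℤ) := Int.natCast_nonneg _
    have hd : (p : ℤ) ∣ ((i : ℕ) : ℤ) - ((j : ℕ) : ℤ) :=
      ⟨(v i).order - (v j).order, by linarith⟩
    have habs : |((i : ℕ) : ℤ) - ((j : ℕ) : ℤ)| < p := by
      rw [abs_lt]; constructor <;> linarith
    have h0 : ((i : ℕ) : ℤ) - ((j : ℕ) : ℤ) = 0 := Int.eq_zero_of_abs_lt_dvd hd habs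
    apply Fin.ext
    have : ((i : ℕ) : ℤ) = ((j : ℕ) : ℤ) := by linarith
    exact_mod_cast this

/-- the same with an arbitrary order prime-to-`p`-free formulation is not needed; variant for `x`
given with `x⁻¹` of order `1`. -/
theorem qExpand_indep_of_inv (p : ℕ) [NeZero p] (x : LaurentSeries κ) (hx : x⁻¹.order = 1)
    (v : Fin p → LaurentSeries κ)
    (h : ∑ i : Fin p, qExpand κ p (v i) * x ^ (i : ℕ) = 0) : ∀ i, v i = 0 := by
  have hx0 : x ≠ 0 := by
    rintro rfl
    rw [inv_zero, HahnSeries.order_zero] at hx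
    exact absurd hx (by norm_num)
  have h1 : (x * x⁻¹).order = x.order + x⁻¹.order :=
    HahnSeries.order_mul hx0 (inv_ne_zero hx0)
  rw [mul_inv_cancel₀ hx0, HahnSeries.order_one, hx] at h1
  exact qExpand_indep p x (by linarith) v h

end Fermat.Agent.U44.SeriesIndep8
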