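/-
Programme U44 (S44), chapter (HECKE), block (H2), INSTANCE layer (helper1): **the constant slope
vector of a `T_ℓ`-eigenvector of `J₀(M'p)[p]` is Eisenstein.**

`h : LevelHyp p M' A`, `ℓ ≠ p` a prime with `ℓ ∤ M'`, `h' = hEll h hℓ hℓp : LevelHyp p (M' ℓ) A`,
`Nr = nodalRed h`, `Nr' = nodalRed h'` the nodal reduction contexts of `X₀(M'p)` and `X₀(M'ℓp)`,
`αE, βE : Fbar (M'p) → Fbar (M'ℓp)` the two degeneracy maps (`LevelEllB4`), `ᾱ, β̄` their reductions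
(`DegreeC4.alphaC/betaC`).

* `exists_r₁` : every place of the first component of the special fibre is the reduction of a
  place of the generic fibre (`NodalPts4B.fibre₁` + `PushWire5.hex₀/hex₁`);
* `CFacts h hℓ hℓp hℓM` : the five compatibilities (C) of the reduction of places with `αE`, `βE`
  (conclusion shapes of `RedCompat9.r₁/r₂_restrict_of_some` and of the strong direction
  `r₂_restrict`), taken as hypotheses (owner of the instance: helper9);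
* `levelMapα`, `levelMapβ : LevelMap Nr Nr'` (`SlopeHecke1`);
* `node_of_fibre_alpha` (a point of the special fibre of level `M'ℓ` over a node is a node),
  `node_of_image_alpha/_beta`, `e_alpha_eq_one`, `e_beta_eq_one` (thickness one at both levels:
  `ᾱ`, `β̄` are unramified at the nodes);
* **`hecke_slopes`** : the slopes of the datum `(D', N_α (β f), c^(ℓ+1))` of `T_ℓ [D]` at the nodes
  are `≡ (ℓ+1) γ` if those of `(D, f, c)` are `≡ γ`;
* **`eisenstein`** : `T_ℓ [D] = a [D]` and the slopes of `(D, f, c)` at the nodes are pairwise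
  congruent mod `p` (= the conclusion of `TRInstB3.tr_inst_of_ann`) ⟹
  `p ∣ (a − (ℓ+1)) · slope_k`;
* **`slope_dvd`** : if moreover `p ∤ a − (ℓ+1)` then `p ∣ slope_k` — the `hslope` hypothesis of
  `EtaleHecke4.exists_eigen`; `hslope_of_not_eisenstein` : the same for a whole Hecke-stable
  subgroup `V ⊆ J₀(M'p)[p]`.
-/
import Mathlib
import Fermat.Agent.U44.SlopeHecke1
import Fermat.Agent.U44.DatumHecke4
import Fermat.Agent.U44.LevelEllB4
import Fermat.Agent.U44.EtaleInst1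
import Fermat.Agent.T33.NodalInst4G
import Fermat.Agent.T33.NodalDisc8B

set_option autoImplicit false
set_option linter.unusedSectionVars false
set_option linter.style.haveILetI false
set_option linter.unusedVariables false
set_option synthInstance.maxHeartbeats 400000

noncomputable section

namespace Fermat.Agent.U44.SlopeHeckeInst1

open HahnSeries ModularCurve IntermediateField AlgebraicCurve IsLocalRing
open Fermat.Agent.RED.Interface4 Fermat.Agent.ES.RED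
  Fermat.Agent.T33.NodalCtx1 Fermat.Agent.T33.NodalCurve6 Fermat.Agent.T33.NodalPlaces1
  Fermat.Agent.T33.NodalHalf4 Fermat.Agent.T33.NodalBase4A Fermat.Agent.T33.NodalInst4A
  Fermat.Agent.T33.NodalInst4C Fermat.Agent.T33.NodalInst4E Fermat.Agent.T33
  Fermat.Agent.T33.GlueWire5 Fermat.Agent.T33.FrickeRed3
  Fermat.Agent.T33.PushWire5
  Fermat.Agent.RR.LSpace Fermat.Agent.X0.FF
  Fermat.Agent.U44.GaussRed3 Fermat.Agent.U44.Annulus3 Fermat.Agent.U44.EtaleAbs1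
  Fermat.Agent.U44.SlopeHecke1 Fermat.Agent.U44.DegreeC4 Fermat.Agent.U44.LevelEll4
  Fermat.Agent.U44.LevelEllB4 Fermat.Agent.U44.HeckeC4 Fermat.Agent.U44.DatumHecke4
  Fermat.Agent.ES.HECKE.PointFormula28 Fermat.Agent.ES.HECKE

variable {p M' : ℕ} [NeZero M'] [NeZero p] {A : ValuationSubring Qbar}

/-- shortcut instance. -/
local instance (priority := high) algebraKFbSH (M : ℕ) [NeZero M] :
    Algebra (ResidueField ↥A) (Fb A M) := inferInstance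

/-! ### surjectivity of the reduction of places -/

/-- **every place of the first component is the reduction of a place of the generic fibre.** -/
theorem exists_r₁ (h : LevelHyp p M' A) (Q : Place (Setup8.kA A) (Fb A M')) :
    ∃ P : Place Qbar ↥(Fbar (M' * p)), (NodalInst4G.nodalRed h).r₁ P = some Q := by
  have hs : (inp h).twoCharts.C1.ρ₁ (inp h).twoCharts.s1 = ((inp h).x₁⁻¹) ^ 1 := by
    rw [pow_one]
    exact Fermat.Agent.T33.ChartInt5.rho1_tA_inv h _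
  rcases Fermat.Agent.T33.NodalPts4B.fibre₁ (inp h).twoCharts (inp h).gen₁ (inp h).int₁₀
      (inp h).int₁₁ one_pos hs Q with ⟨χ, hv, hiff⟩ | ⟨χ, hχ, hv, hiff⟩
  · obtain ⟨P₀, hP₀⟩ := hex₀ (inp h) χ
    exact ⟨P₀, (hiff P₀).2 ⟨fin0_of_centred₀ _ hP₀, hP₀⟩⟩
  · obtain ⟨P₀, hP₀⟩ := hex₁ (inp h) χ
    exact ⟨P₀, (hiff P₀).2 ⟨not_fin0_of_centred₁ _ hP₀ hχ, hP₀⟩⟩

variable (h : LevelHyp p M' A) {ℓ : ℕ} [NeZero ℓ] (hℓ : ℓ.Prime) (hℓp : ℓ ≠ p) (hℓM : ¬ ℓ ∣ M')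

/-! ### the hypotheses (C) -/

/-- **the compatibilities (C)** of the reduction of places with the two degeneracy maps. -/
structure CFacts : Prop where
  /-- (C-α), first component. -/
  α₁ : ∀ (P' : Place Qbar ↥(Fbar ((M' * ℓ) * p))) (Q' : Place (Setup8.kA A) (Fb A (M' * ℓ))),
    (NodalInst4G.nodalRed (hEll h hℓ hℓp)).r₁ P' = some Q' →
    (NodalInst4G.nodalRed h).r₁ (P'.restrictAlong (alphaE M' p ℓ) (isIntegral_alphaE h hℓ hℓp hℓM)) =
      some (Q'.restrictAlong (alphaC (Setup8.kA A) M' ℓ) (isIntegral_alpha h hℓ hℓp hℓM))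
  /-- (C-α), second component. -/
  α₂ : ∀ (P' : Place Qbar ↥(Fbar ((M' * ℓ) * p))) (Q' : Place (Setup8.kA A) (Fb A (M' * ℓ))),
    (NodalInst4G.nodalRed (hEll h hℓ hℓp)).r₂ P' = some Q' →
    (NodalInst4G.nodalRed h).r₂ (P'.restrictAlong (alphaE M' p ℓ) (isIntegral_alphaE h hℓ hℓp hℓM)) =
      some (Q'.restrictAlong (betaC (Setup8.kA A) M' ℓ) (isIntegral_beta h hℓ hℓp hℓM))
  /-- (C-α), going-down: a point over the second component lies on the second component. -/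
  αdown : ∀ P' : Place Qbar ↥(Fbar ((M' * ℓ) * p)),
    (NodalInst4G.nodalRed (hEll h hℓ hℓp)).r₁ P' ≠ none →
    (NodalInst4G.nodalRed h).r₂ (P'.restrictAlong (alphaE M' p ℓ) (isIntegral_alphaE h hℓ hℓp hℓM)) ≠ none →
    (NodalInst4G.nodalRed (hEll h hℓ hℓp)).r₂ P' ≠ none
  /-- (C-β), first component. -/
  β₁ : ∀ (P' : Place Qbar ↥(Fbar ((M' * ℓ) * p))) (Q' : Place (Setup8.kA A) (Fb A (M' * ℓ))),
    (NodalInst4G.nodalRed (hEll h hℓ hℓp)).r₁ P' = some Q' →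
    (NodalInst4G.nodalRed h).r₁ (P'.restrictAlong (betaE M' p ℓ) (isIntegral_betaE h hℓ hℓp hℓM)) =
      some (Q'.restrictAlong (betaC (Setup8.kA A) M' ℓ) (isIntegral_beta h hℓ hℓp hℓM))
  /-- (C-β), second component. -/
  β₂ : ∀ (P' : Place Qbar ↥(Fbar ((M' * ℓ) * p))) (Q' : Place (Setup8.kA A) (Fb A (M' * ℓ))),
    (NodalInst4G.nodalRed (hEll h hℓ hℓp)).r₂ P' = some Q' →
    (NodalInst4G.nodalRed h).r₂ (P'.restrictAlong (betaE M' p ℓ) (isIntegral_betaE h hℓ hℓp hℓM)) =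
      some (Q'.restrictAlong (alphaC (Setup8.kA A) M' ℓ) (isIntegral_alpha h hℓ hℓp hℓM))

variable {h hℓ hℓp hℓM}

/-- (C-α) going-down from the strong form `r₂ (P'|α) = (r₂' P').map (·|β̄)`. -/
theorem CFacts.of_strong
    (α₁ : ∀ (P' : Place Qbar ↥(Fbar ((M' * ℓ) * p))) (Q' : Place (Setup8.kA A) (Fb A (M' * ℓ))),
      (NodalInst4G.nodalRed (hEll h hℓ hℓp)).r₁ P' = some Q' →
      (NodalInst4G.nodalRed h).r₁ (P'.restrictAlong (alphaE M' p ℓ) (isIntegral_alphaE h hℓ hℓp hℓM)) =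
        some (Q'.restrictAlong (alphaC (Setup8.kA A) M' ℓ) (isIntegral_alpha h hℓ hℓp hℓM)))
    (α₂ : ∀ P' : Place Qbar ↥(Fbar ((M' * ℓ) * p)),
      (NodalInst4G.nodalRed h).r₂ (P'.restrictAlong (alphaE M' p ℓ) (isIntegral_alphaE h hℓ hℓp hℓM)) =
        ((NodalInst4G.nodalRed (hEll h hℓ hℓp)).r₂ P').map (fun Q' =>
          Q'.restrictAlong (betaC (Setup8.kA A) M' ℓ) (isIntegral_beta h hℓ hℓp hℓM)))
    (β₁ : ∀ (P' : Place Qbar ↥(Fbar ((M' * ℓ) * p))) (Q' : Place (Setup8.kA A) (Fb A (M' * ℓ))),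
      (NodalInst4G.nodalRed (hEll h hℓ hℓp)).r₁ P' = some Q' →
      (NodalInst4G.nodalRed h).r₁ (P'.restrictAlong (betaE M' p ℓ) (isIntegral_betaE h hℓ hℓp hℓM)) =
        some (Q'.restrictAlong (betaC (Setup8.kA A) M' ℓ) (isIntegral_beta h hℓ hℓp hℓM)))
    (β₂ : ∀ (P' : Place Qbar ↥(Fbar ((M' * ℓ) * p))) (Q' : Place (Setup8.kA A) (Fb A (M' * ℓ))),
      (NodalInst4G.nodalRed (hEll h hℓ hℓp)).r₂ P' = some Q' →
      (NodalInst4G.nodalRed h).r₂ (P'.restrictAlong (betaE M' p ℓ) (isIntegral_betaE h hℓ hℓp hℓM)) =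
        some (Q'.restrictAlong (alphaC (Setup8.kA A) M' ℓ) (isIntegral_alpha h hℓ hℓp hℓM))) :
    CFacts h hℓ hℓp hℓM where
  α₁ := α₁
  α₂ := fun P' Q' hQ' => by rw [α₂ P', hQ', Option.map_some]
  αdown := fun P' _ h2 h3 => h2 (by rw [α₂ P', h3, Option.map_none])
  β₁ := β₁
  β₂ := β₂

/-! ### the two level maps -/

/-- the level map `αE` (reductions `ᾱ`, `β̄`). -/
def levelMapα (C : CFacts h hℓ hℓp hℓM) :
    LevelMap (NodalInst4G.nodalRed h) (NodalInst4G.nodalRed (hEll h hℓ hℓp)) where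
  φ := alphaE M' p ℓ
  hφ := isIntegral_alphaE h hℓ hℓp hℓM
  φ₁ := alphaC (Setup8.kA A) M' ℓ
  hφ₁ := isIntegral_alpha h hℓ hℓp hℓM
  φ₂ := betaC (Setup8.kA A) M' ℓ
  hφ₂ := isIntegral_beta h hℓ hℓp hℓM
  mem₁ := fun y hy => alphaE_mem₁ h hℓ hℓp hy
  ρ₁ := fun y hy => rho_alphaE₁ h hℓ hℓp y hy
  mem₂ := fun y hy => alphaE_mem₂ h hℓ hℓp hy
  ρ₂ := fun y hy => rho_alphaE₂ h hℓ hℓp y hy
  r₁ := C.α₁
  r₂ := C.α₂

/-- the level map `βE` (reductions `β̄`, `ᾱ`). -/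
def levelMapβ (C : CFacts h hℓ hℓp hℓM) :
    LevelMap (NodalInst4G.nodalRed h) (NodalInst4G.nodalRed (hEll h hℓ hℓp)) where
  φ := betaE M' p ℓ
  hφ := isIntegral_betaE h hℓ hℓp hℓM
  φ₁ := betaC (Setup8.kA A) M' ℓ
  hφ₁ := isIntegral_beta h hℓ hℓp hℓM
  φ₂ := alphaC (Setup8.kA A) M' ℓ
  hφ₂ := isIntegral_alpha h hℓ hℓp hℓM
  mem₁ := fun y hy => betaE_mem₁ h hℓ hℓp hy
  ρ₁ := fun y hy => rho_betaE₁ h hℓ hℓp y hy
  mem₂ := fun y hy => betaE_mem₂ h hℓ hℓp hy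
  ρ₂ := fun y hy => rho_betaE₂ h hℓ hℓp y hy
  r₁ := C.β₁
  r₂ := C.β₂

/-! ### nodes -/

/-- **a point of the special fibre of level `M'ℓ` over a node (along `ᾱ`) is a node.** -/
theorem node_of_fibre_alpha (C : CFacts h hℓ hℓp hℓM) {k : Node h}
    {Q' : Place (Setup8.kA A) (Fb A (M' * ℓ))}
    (hQ' : Q'.restrictAlong (alphaC (Setup8.kA A) M' ℓ) (isIntegral_alpha h hℓ hℓp hℓM) =
      (Nd h).s1 k) : ∃ k' : Node (hEll h hℓ hℓp), Q' = (Nd (hEll h hℓ hℓp)).s1 k' :=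
  (levelMapα C).exists_node_of_fibre C.αdown (exists_r₁ (hEll h hℓ hℓp)) hQ'

/-- the image of a node under `ᾱ` is a node. -/
theorem node_of_image_alpha (C : CFacts h hℓ hℓp hℓM) (k' : Node (hEll h hℓ hℓp)) :
    ∃ k : Node h, ((Nd (hEll h hℓ hℓp)).s1 k').restrictAlong (alphaC (Setup8.kA A) M' ℓ)
      (isIntegral_alpha h hℓ hℓp hℓM) = (Nd h).s1 k :=
  (levelMapα C).exists_node_of_image (fun k' => exists_r₁ (hEll h hℓ hℓp) _) k'

/-- the image of a node under `β̄` is a node. -/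
theorem node_of_image_beta (C : CFacts h hℓ hℓp hℓM) (k' : Node (hEll h hℓ hℓp)) :
    ∃ k : Node h, ((Nd (hEll h hℓ hℓp)).s1 k').restrictAlong (betaC (Setup8.kA A) M' ℓ)
      (isIntegral_beta h hℓ hℓp hℓM) = (Nd h).s1 k :=
  (levelMapβ C).exists_node_of_image (fun k' => exists_r₁ (hEll h hℓ hℓp) _) k'

section Thickness

variable (C : CFacts h hℓ hℓp hℓM)
  (X : ∀ k, AnnCoord (NodalInst4G.nodalRed h) k) (X' : ∀ k', AnnCoord (NodalInst4G.nodalRed (hEll h hℓ hℓp)) k')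
  {π : Qbar} (hπS : Small A π) (hπ0 : π ≠ 0)
  (hX : ∀ k, AUnit A ((X k).ϖ / π)) (hX' : ∀ k', AUnit A ((X' k').ϖ / π))

include C X X' hπS hπ0 hX hX'

/-- **`ᾱ` is unramified at the nodes** (thickness one at both levels). -/
theorem e_alpha_eq_one (k' : Node (hEll h hℓ hℓp)) :
    ((Nd (hEll h hℓ hℓp)).s1 k').ramificationIndexAlong (alphaC (Setup8.kA A) M' ℓ) = 1 := by
  obtain ⟨k, hk⟩ := node_of_image_alpha C k'
  exact (levelMapα C).ramificationIndex_eq_one hk (X k) (X' k') hπS hπ0 (hX k) (hX' k')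

/-- **`β̄` is unramified at the nodes.** -/
theorem e_beta_eq_one (k' : Node (hEll h hℓ hℓp)) :
    ((Nd (hEll h hℓ hℓp)).s1 k').ramificationIndexAlong (betaC (Setup8.kA A) M' ℓ) = 1 := by
  obtain ⟨k, hk⟩ := node_of_image_beta C k'
  exact (levelMapβ C).ramificationIndex_eq_one hk (X k) (X' k') hπS hπ0 (hX k) (hX' k')

/-! ### the slopes of the Hecke transform -/

/-- **the slopes of `T_ℓ` of a datum**: `≡ (ℓ+1) γ` at every node if those of the datum are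
`≡ γ`. -/
theorem hecke_slopes {D D' : Divisor.degZero (K := Qbar) (F := ↥(Fbar (M' * p)))}
    {f f' : ↥(Fbar (M' * p))} {c c' : Qbar}
    (hk : KData (c1 h) p D f c) (hk' : KData (c1 h) p D' f' c')
    (hred : red (c1 h) (algebraMap Qbar ↥(Fbar (M' * p)) c' * f') =
      normAlong (alphaC (Setup8.kA A) M' ℓ) (betaC (Setup8.kA A) M' ℓ
        (red (c1 h) (algebraMap Qbar ↥(Fbar (M' * p)) c * f))))
    (γ : ℤ)
    (hγ : ∀ k, (p : ℤ) ∣ ((Nd h).s1 k).ord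
      (red (c1 h) (algebraMap Qbar ↥(Fbar (M' * p)) c * f)) - γ) (k : Node h) :
    (p : ℤ) ∣ ((Nd h).s1 k).ord (red (c1 h) (algebraMap Qbar ↥(Fbar (M' * p)) c' * f')) -
      ((ℓ : ℤ) + 1) * γ := by
  haveI := hasPrincipalDivisors h hℓ hℓp
  have hfin : (finrankAlong (Setup8.kA A) (alphaC (Setup8.kA A) M' ℓ) : ℤ) = (ℓ : ℤ) + 1 := by
    rw [HeckeC4.finrankAlong_alpha h hℓ hℓp hℓM]; push_cast; ring
  rw [← hfin]
  refine hecke_slope_congr (R := c1 h) (betaC (Setup8.kA A) M' ℓ) (alphaC (Setup8.kA A) M' ℓ)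
    (isIntegral_beta h hℓ hℓp hℓM) (isIntegral_alpha h hℓ hℓp hℓM) (lHypFb h)
    (lHypFb (hEll h hℓ hℓp)).deg_eq_one (fundId_alpha h hℓ hℓp hℓM)
    (Nd h).s1 (Nd (hEll h hℓ hℓp)).s1 ?_ ?_ ?_ ?_ hk hk' ?_ γ hγ k
  · intro k w hw
    exact node_of_fibre_alpha C (Place.mem_fiberAlong.1 hw)
  · exact e_alpha_eq_one C X X' hπS hπ0 hX hX'
  · exact e_beta_eq_one C X X' hπS hπ0 hX hX'
  · exact node_of_image_beta C
  · intro Du hDu Q
    rw [hred]
    exact heckeDivC_principal h hℓ hℓp hℓM hk.red_ne hDu Q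

/-- **(H2) at `X₀(M'p)`**: the constant slope vector of a `T_ℓ`-eigenvector is Eisenstein. -/
theorem eisenstein {D : Divisor.degZero (K := Qbar) (F := ↥(Fbar (M' * p)))}
    {f : ↥(Fbar (M' * p))} {c : Qbar} (hk : KData (c1 h) p D f c) (a : ℤ)
    (hT : heckeOperatorBar (M' * p) ⟨ℓ, hℓ⟩ (Pic0.mk D) = a • Pic0.mk D)
    (hTR : ∀ k k' : Node h, (p : ℤ) ∣
      ((Nd h).s1 k).ord (red (c1 h) (algebraMap Qbar ↥(Fbar (M' * p)) c * f)) -
      ((Nd h).s1 k').ord (red (c1 h) (algebraMap Qbar ↥(Fbar (M' * p)) c * f)))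
    (k : Node h) :
    (p : ℤ) ∣ (a - ((ℓ : ℤ) + 1)) *
      ((Nd h).s1 k).ord (red (c1 h) (algebraMap Qbar ↥(Fbar (M' * p)) c * f)) := by
  obtain ⟨DT, hDT, hN0, hord, hgu, hred⟩ := datum_hecke₁ h hℓ hℓp hℓM D hk.f_ne hk.ord_f hk.gu
  have hk' : KData (c1 h) p DT
      (normAlong (heckeAlphaBar Qbar (M' * p) ℓ) (heckeBetaBar Qbar (M' * p) ℓ f))
      (c ^ (ℓ + 1)) := ⟨hN0, hord, hgu⟩
  set γ : ℤ := ((Nd h).s1 k).ord (red (c1 h) (algebraMap Qbar ↥(Fbar (M' * p)) c * f)) with hγdef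
  have hγ : ∀ k₂, (p : ℤ) ∣ ((Nd h).s1 k₂).ord
      (red (c1 h) (algebraMap Qbar ↥(Fbar (M' * p)) c * f)) - γ := fun k₂ => hTR k₂ k
  have hrow := hecke_slopes C X X' hπS hπ0 hX hX' hk hk' hred γ hγ
  have hmk : Pic0.mk DT = a • Pic0.mk D := by rw [← hDT, hT]
  exact eisenstein_abs (R := c1 h) (lHyp h) hk hk' a hmk ((ℓ : ℤ) + 1) γ (Nd h).s1 hγ hrow k

/-- **the slopes of a non-Eisenstein eigenvector vanish mod `p`.** -/
theorem slope_dvd {D : Divisor.degZero (K := Qbar) (F := ↥(Fbar (M' * p)))}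
    {f : ↥(Fbar (M' * p))} {c : Qbar} (hk : KData (c1 h) p D f c) (a : ℤ)
    (hT : heckeOperatorBar (M' * p) ⟨ℓ, hℓ⟩ (Pic0.mk D) = a • Pic0.mk D)
    (hTR : ∀ k k' : Node h, (p : ℤ) ∣
      ((Nd h).s1 k).ord (red (c1 h) (algebraMap Qbar ↥(Fbar (M' * p)) c * f)) -
      ((Nd h).s1 k').ord (red (c1 h) (algebraMap Qbar ↥(Fbar (M' * p)) c * f)))
    (hnE : ¬ (p : ℤ) ∣ a - ((ℓ : ℤ) + 1)) (k : Node h) :
    (p : ℤ) ∣ ((Nd h).s1 k).ord (red (c1 h) (algebraMap Qbar ↥(Fbar (M' * p)) c * f)) := by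
  have hp : Prime (p : ℤ) := Nat.prime_iff_prime_int.1 h.prime
  exact (hp.dvd_or_dvd (eisenstein C X X' hπS hπ0 hX hX' hk a hT hTR k)).resolve_left hnE

/-- **the `hslope` hypothesis of `EtaleHecke4.exists_eigen`** for a subgroup `V ⊆ J₀(M'p)` on which
`T_ℓ` acts by a non-Eisenstein scalar `a`, given (TR) for the Kummer data of its elements. -/
theorem hslope_of_not_eisenstein (V : AddSubgroup (JZero (M' * p))) (a : ℤ)
    (hVT : ∀ v ∈ V, heckeOperatorBar (M' * p) ⟨ℓ, hℓ⟩ v = a • v)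
    (hTR : ∀ v ∈ V, ∀ (D : Divisor.degZero (K := Qbar) (F := ↥(Fbar (M' * p))))
      (f : ↥(Fbar (M' * p))) (c₁ : Qbar), v = Pic0.mk D → KData (c1 h) p D f c₁ →
      ∀ k k' : Node h, (p : ℤ) ∣
        ((Nd h).s1 k).ord (red (c1 h) (algebraMap Qbar ↥(Fbar (M' * p)) c₁ * f)) -
        ((Nd h).s1 k').ord (red (c1 h) (algebraMap Qbar ↥(Fbar (M' * p)) c₁ * f)))
    (hnE : ¬ (p : ℤ) ∣ a - ((ℓ : ℤ) + 1)) :
    ∀ v ∈ V, ∀ (D : Divisor.degZero (K := Qbar) (F := ↥(Fbar (M' * p))))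
      (f : ↥(Fbar (M' * p))) (c₁ : Qbar), v = Pic0.mk D → KData (c1 h) p D f c₁ →
      ∀ k, (p : ℤ) ∣ ((Nd h).s1 k).ord (red (c1 h) (algebraMap Qbar ↥(Fbar (M' * p)) c₁ * f)) := by
  intro v hv D f c₁ hvD hk k
  refine slope_dvd C X X' hπS hπ0 hX hX' hk a ?_ (hTR v hv D f c₁ hvD hk) hnE k
  rw [← hvD]
  exact hVT v hv

end Thickness

end Fermat.Agent.U44.SlopeHeckeInst1
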