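/-
Programme U44 (target S44), interface (TR) → (HECKE) (helper3): **zero slopes modulo `p` at the
nodes ⟹ `p` divides the divisors of both reductions** (`mem_Jf_of_TR` of report 118, abstract
half).

`N : NodalRed A F Nd` with annulus coordinates `X k` at all nodes and `ord_{s2 k} ρ₂(y₂) = −1`
(so that the node push `Annulus3.node_push` holds), `div f = p D`, `c₁ f`, `c₂ f` Gauss units of
the two components.

* `dvd_ord_smooth₁`, `dvd_ord_smooth₂` : at a smooth point `Q` the order of the reduction is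
  `p · Σ_{P → Q} D(P)` (push);
* `dvd_slope₂` : `s1_k + s2_k = p · Σ_{P → k} D(P)`, so `p ∣ s2_k ↔ p ∣ s1_k`;
* `dvd_ord_of_slopes` : if `p ∣ s1_k` for every node `k`, then `p ∣ ord_Q ρ₁(c₁ f)` for EVERY
  place `Q` of the first component and `p ∣ ord_Q ρ₂(c₂ f)` for every place `Q` of the second.
-/
import Mathlib
import Fermat.Agent.U44.Annulus3
import Fermat.Agent.RR.LSpace
import Fermat.Agent.X0.FFDict

set_option autoImplicit false

open AlgebraicCurve IsLocalRing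

namespace Fermat.Agent.U44.SlopeZero3

open Fermat.Agent.T33.NodalCtx1 Fermat.Agent.T33.NodalCurve6 Fermat.Agent.X0.FF
  Fermat.Agent.RR.LSpace Fermat.Agent.U44.GaussRed3 Fermat.Agent.U44.Annulus3

variable {K : Type*} [Field K] {A : ValuationSubring K}
variable {F : Type*} [Field F] [Algebra K F]
variable {Fb₁ Fb₂ : Type*} [Field Fb₁] [Field Fb₂]
  [Algebra (ResidueField A) Fb₁] [Algebra (ResidueField A) Fb₂]
variable {ι : Type*} {Nd : NodalData (ResidueField A) Fb₁ Fb₂ ι} (N : NodalRed A F Nd)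

/-- push at a smooth point of `C₁`: if the orders of the Gauss unit `y` at the places over `Q` are
`p · E(P)`, then `p ∣ ord_Q ρ₁(y)`. -/
theorem dvd_ord_smooth₁ (H : LHyp K F) {y : F} (hy : IsGU N.c₁ y)
    (Q : Place (ResidueField A) Fb₁) (hQ : Nd.Smooth1 Q) {p : ℕ} (E : Divisor K F)
    (hE : ∀ P : Place K F, N.r₁ P = some Q → P.ord y = p * E P) :
    (p : ℤ) ∣ Q.ord (red N.c₁ y) := by
  classical
  obtain ⟨D', hD', -⟩ := H.principal y hy.ne_zero
  have hpush := N.push₁ ⟨y, hy.mem⟩ hy.ρ_ne Q hQ D' hD'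
    (D'.support.filter fun P => N.r₁ P = some Q) (fun P => by rw [Finset.mem_filter])
  rw [red_of_mem N.c₁ hy.mem, ← hpush]
  refine Finset.dvd_sum fun P hP => ?_
  rw [Finset.mem_filter] at hP
  rw [hD' P]
  exact ⟨E P, hE P hP.2⟩

/-- push at a smooth point of `C₂`. -/
theorem dvd_ord_smooth₂ (H : LHyp K F) {y : F} (hy : IsGU N.c₂ y)
    (Q : Place (ResidueField A) Fb₂) (hQ : Nd.Smooth2 Q) {p : ℕ} (E : Divisor K F)
    (hE : ∀ P : Place K F, N.r₂ P = some Q → P.ord y = p * E P) :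
    (p : ℤ) ∣ Q.ord (red N.c₂ y) := by
  classical
  obtain ⟨D', hD', -⟩ := H.principal y hy.ne_zero
  have hpush := N.push₂ ⟨y, hy.mem⟩ hy.ρ_ne Q hQ D' hD'
    (D'.support.filter fun P => N.r₂ P = some Q) (fun P => by rw [Finset.mem_filter])
  rw [red_of_mem N.c₂ hy.mem, ← hpush]
  refine Finset.dvd_sum fun P hP => ?_
  rw [Finset.mem_filter] at hP
  rw [hD' P]
  exact ⟨E P, hE P hP.2⟩

/-- the two slopes at a node add up to a multiple of `p` when `div f = p D`. -/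
theorem dvd_slope_add {k : ι} (X : AnnCoord N k)
    (hy₂ : (Nd.s2 k).ord (red N.c₂ X.y₂) = -1) {p : ℕ} (D : Divisor K F) {f : F} (hf0 : f ≠ 0)
    (hf : ∀ P : Place K F, P.ord f = p * D P) {c₁ c₂ : K}
    (h₁ : IsGU N.c₁ (algebraMap K F c₁ * f)) (h₂ : IsGU N.c₂ (algebraMap K F c₂ * f)) :
    (p : ℤ) ∣ (Nd.s1 k).ord (red N.c₁ (algebraMap K F c₁ * f)) +
      (Nd.s2 k).ord (red N.c₂ (algebraMap K F c₂ * f)) := by
  classical
  have hT : ∀ P ∈ D.support.filter (fun P => N.RedToNode P k), N.RedToNode P k := fun P hP =>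
    (Finset.mem_filter.1 hP).2
  have hT' : ∀ P : Place K F, N.RedToNode P k → P.ord f ≠ 0 →
      P ∈ D.support.filter (fun P => N.RedToNode P k) := by
    intro P hP hne
    rw [Finset.mem_filter, Finsupp.mem_support_iff]
    refine ⟨fun h0 => hne ?_, hP⟩
    rw [hf P, h0, mul_zero]
  rw [node_push X hy₂ hf0 _ hT hT' h₁ h₂]
  exact Finset.dvd_sum fun P _ => ⟨D P, hf P⟩

/-- `p ∣ s2_k` as soon as `p ∣ s1_k`. -/
theorem dvd_slope₂ {k : ι} (X : AnnCoord N k)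
    (hy₂ : (Nd.s2 k).ord (red N.c₂ X.y₂) = -1) {p : ℕ} (D : Divisor K F) {f : F} (hf0 : f ≠ 0)
    (hf : ∀ P : Place K F, P.ord f = p * D P) {c₁ c₂ : K}
    (h₁ : IsGU N.c₁ (algebraMap K F c₁ * f)) (h₂ : IsGU N.c₂ (algebraMap K F c₂ * f))
    (hs : (p : ℤ) ∣ (Nd.s1 k).ord (red N.c₁ (algebraMap K F c₁ * f))) :
    (p : ℤ) ∣ (Nd.s2 k).ord (red N.c₂ (algebraMap K F c₂ * f)) :=
  (Int.dvd_add_right hs).1 (dvd_slope_add N X hy₂ D hf0 hf h₁ h₂)

/-- **zero slopes at the nodes ⟹ `p` divides the divisors of both reductions.** -/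
theorem dvd_ord_of_slopes (H : LHyp K F) (X : ∀ k, AnnCoord N k)
    (hy₂ : ∀ k, (Nd.s2 k).ord (red N.c₂ (X k).y₂) = -1) {p : ℕ} (D : Divisor K F) {f : F}
    (hf0 : f ≠ 0) (hf : ∀ P : Place K F, P.ord f = p * D P) {c₁ c₂ : K}
    (h₁ : IsGU N.c₁ (algebraMap K F c₁ * f)) (h₂ : IsGU N.c₂ (algebraMap K F c₂ * f))
    (hs : ∀ k, (p : ℤ) ∣ (Nd.s1 k).ord (red N.c₁ (algebraMap K F c₁ * f))) :
    (∀ Q : Place (ResidueField A) Fb₁, (p : ℤ) ∣ Q.ord (red N.c₁ (algebraMap K F c₁ * f))) ∧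
      ∀ Q : Place (ResidueField A) Fb₂, (p : ℤ) ∣ Q.ord (red N.c₂ (algebraMap K F c₂ * f)) := by
  have hc₁ : c₁ ≠ 0 := fun h0 => h₁.ne_zero (by rw [h0, map_zero, zero_mul])
  have hc₂ : c₂ ≠ 0 := fun h0 => h₂.ne_zero (by rw [h0, map_zero, zero_mul])
  have hc₁F : algebraMap K F c₁ ≠ 0 := by rwa [ne_eq, _root_.map_eq_zero]
  have hc₂F : algebraMap K F c₂ ≠ 0 := by rwa [ne_eq, _root_.map_eq_zero]
  have e₁ : ∀ P : Place K F, P.ord (algebraMap K F c₁ * f) = p * D P := fun P => by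
    rw [P.ord_mul hc₁F hf0, ord_algebraMap, zero_add, hf P]
  have e₂ : ∀ P : Place K F, P.ord (algebraMap K F c₂ * f) = p * D P := fun P => by
    rw [P.ord_mul hc₂F hf0, ord_algebraMap, zero_add, hf P]
  constructor
  · intro Q
    by_cases hQ : ∃ k, Q = Nd.s1 k
    · obtain ⟨k, rfl⟩ := hQ
      exact hs k
    · exact dvd_ord_smooth₁ N H h₁ Q (fun i h => hQ ⟨i, h⟩) D fun P _ => e₁ P
  · intro Q
    by_cases hQ : ∃ k, Q = Nd.s2 k
    · obtain ⟨k, rfl⟩ := hQ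
      exact dvd_slope₂ N (X k) (hy₂ k) D hf0 hf h₁ h₂ (hs k)
    · exact dvd_ord_smooth₂ N H h₂ Q (fun i h => hQ ⟨i, h⟩) D fun P _ => e₂ P

end Fermat.Agent.U44.SlopeZero3
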