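/-
Programme U44 (target S44), chapter (GAMMA), steps (T2)/(T3) (helper3):
**naturality of the étale specialisation `Rel` under automorphisms.**

`R : HalfRed A F Fb` one component of a reduction context (`U44/EtaleAbs1`), `g : F ≃ₐ[K] F` an
automorphism of the generic fibre preserving the Gauss ring `R.O` whose reduction is the automorphism
`gb : Fb ≃ₐ[κ] Fb` of the special fibre (`RedAut R g gb`).  Then the Kummer datum `(D, f, c)` of a
class `x` is carried to the Kummer datum `(g D, g f, c)` of `g • x`, and `red (c · g f) = gb (red (c f))`: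

* `RedAut.one`, `RedAut.mul`, `RedAut.symm` : `RedAut` is stable under composition and inverses
  (closure induction over a group generated by a few automorphisms);
* `RedAut.red_eq`, `RedAut.isGU`, `RedAut.kdata`;
* **`RedAut.rel`** : `Rel R p x e → Rel R p (g • x) (gb • e)` (actions of `SemilinearAut.ofAlgAut`);
* **`RedAut.fixed`** : if moreover `g • x = x` then `gb • e = e`;
* `RedAut.twist` : passing to `TwistRed4.twist R σ` conjugates `gb` by `σ`.

Instances at `h : LevelHyp p M' A`, level `L = M' p`, from `GammaGauss2`: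
* `redAut_tauL₁ : RedAut (c1 h) τ τ̄`, `redAut_tau'L₂ : RedAut (c2 h) τ' τ̄`,
  `redAut_tau'L₂W : RedAut (c2W h) τ' τ̄'`;
* `rel₁_tauL`, `rel₂W_tau'L`, and the fixed-point corollaries `fixed₁_tauL`, `fixed₂W_tau'L`.
-/
import Mathlib
import Fermat.Agent.U44.EtaleAbs1
import Fermat.Agent.U44.TwistRed4
import Fermat.Agent.U44.EtaleHecke4
import Fermat.Agent.U44.GammaGauss2

set_option autoImplicit false
set_option linter.unusedSectionVars false
set_option linter.style.haveILetI false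
set_option linter.unusedVariables false
set_option synthInstance.maxHeartbeats 400000

open AlgebraicCurve IsLocalRing

noncomputable section

namespace Fermat.Agent.U44.SpecNat3

open Fermat.Agent.T33.NodalCtx1 Fermat.Agent.U44.GaussRed3 Fermat.Agent.RR.LSpace
  Fermat.Agent.U44.EtaleAbs1

section Abstract

variable {K : Type*} [Field K] {A : ValuationSubring K}
variable {F : Type*} [Field F] [Algebra K F]
variable {Fb : Type*} [Field Fb] [Algebra (ResidueField A) Fb] (R : HalfRed A F Fb)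

/-- **`g` preserves the Gauss ring `R.O` and reduces to `gb`.** -/
structure RedAut (g : F ≃ₐ[K] F) (gb : Fb ≃ₐ[ResidueField A] Fb) : Prop where
  mem : ∀ y ∈ R.O, g y ∈ R.O
  red : ∀ (y : F) (hy : y ∈ R.O), R.ρ ⟨g y, mem y hy⟩ = gb (R.ρ ⟨y, hy⟩)

variable {R}

theorem RedAut.one : RedAut R (1 : F ≃ₐ[K] F) (1 : Fb ≃ₐ[ResidueField A] Fb) :=
  ⟨fun y hy => hy, fun y hy => rfl⟩

theorem RedAut.mul {g g' : F ≃ₐ[K] F} {gb gb' : Fb ≃ₐ[ResidueField A] Fb}
    (h : RedAut R g gb) (h' : RedAut R g' gb') : RedAut R (g * g') (gb * gb') :=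
  ⟨fun y hy => h.mem _ (h'.mem y hy), fun y hy => by
    show R.ρ ⟨g (g' y), _⟩ = gb (gb' (R.ρ ⟨y, hy⟩))
    rw [h.red (g' y) (h'.mem y hy), h'.red y hy]⟩

theorem RedAut.red_eq {g : F ≃ₐ[K] F} {gb : Fb ≃ₐ[ResidueField A] Fb} (h : RedAut R g gb)
    {y : F} (hy : y ∈ R.O) : GaussRed3.red R (g y) = gb (GaussRed3.red R y) := by
  rw [red_of_mem R (h.mem y hy), red_of_mem R hy, h.red y hy]

theorem RedAut.isGU {g : F ≃ₐ[K] F} {gb : Fb ≃ₐ[ResidueField A] Fb} (h : RedAut R g gb)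
    {y : F} (hy : IsGU R y) : IsGU R (g y) :=
  ⟨h.mem y hy.1, by
    rw [h.red_eq hy.1]
    exact (map_ne_zero_iff gb gb.injective).2 hy.2⟩

/-- the inverse of a `RedAut` is a `RedAut` (valuation-ring argument: if `g⁻¹ y ∉ O` then
`c · g⁻¹ y ∈ O` with `c` small and nonzero reduction, but its image `c · y` reduces to `0`). -/
theorem RedAut.symm {g : F ≃ₐ[K] F} {gb : Fb ≃ₐ[ResidueField A] Fb} (h : RedAut R g gb) :
    RedAut R g.symm gb.symm := by
  have hmem : ∀ y ∈ R.O, g.symm y ∈ R.O := by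
    intro y hy
    by_cases hy0 : y = 0
    · rw [hy0, map_zero]; exact R.O.zero_mem
    have hz0 : g.symm y ≠ 0 := (map_ne_zero_iff g.symm g.symm.injective).2 hy0
    obtain ⟨c, hc0, hcm, hcρ⟩ := R.gauss (g.symm y) hz0
    have hgu : IsGU R (algebraMap K F c * g.symm y) := isGU_of_ρ_ne hcm hcρ
    have hgu' := h.isGU hgu
    rw [map_mul, AlgEquiv.commutes, AlgEquiv.apply_symm_apply] at hgu'
    -- `c y` is a Gauss unit and `y ∈ O`: so `c⁻¹ ∈ A`
    rcases small_or_aunit_or_inv_small (A := A) c hc0 with hs | hu | hs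
    · exact absurd (red_small_mul (R := R) hs hy) hgu'.2
    · have h1 : g.symm y = algebraMap K F c⁻¹ * (algebraMap K F c * g.symm y) := by
        rw [← mul_assoc, ← map_mul, inv_mul_cancel₀ hc0, map_one, one_mul]
      rw [h1]
      exact R.O.mul_mem (const_mem R hu.2.1) hcm
    · have h1 : g.symm y = algebraMap K F c⁻¹ * (algebraMap K F c * g.symm y) := by
        rw [← mul_assoc, ← map_mul, inv_mul_cancel₀ hc0, map_one, one_mul]
      rw [h1]
      exact R.O.mul_mem (const_mem R hs.1) hcm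
  refine ⟨hmem, fun y hy => ?_⟩
  have h1 := h.red (g.symm y) (hmem y hy)
  rw [AlgEquiv.eq_symm_apply, ← h1]
  congr 1
  exact Subtype.ext (AlgEquiv.apply_symm_apply g y)

/-! ### places, divisors -/

theorem ord_ofAlgAut {κ : Type*} [Field κ] {E : Type*} [Field E] [Algebra κ E] (s : E ≃ₐ[κ] E)
    (P : Place κ E) (f : E) :
    P.ord (s f) = ((SemilinearAut.ofAlgAut s)⁻¹ • P).ord f := by
  have h1 := SemilinearAut.ord_smul (SemilinearAut.ofAlgAut s) ((SemilinearAut.ofAlgAut s)⁻¹ • P) f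
  rw [smul_inv_smul] at h1
  exact h1

/-- the Kummer datum of `g • x`. -/
theorem RedAut.kdata {g : F ≃ₐ[K] F} {gb : Fb ≃ₐ[ResidueField A] Fb} (h : RedAut R g gb)
    {p : ℕ} {D : Divisor.degZero (K := K) (F := F)} {f : F} {c : K} (hk : KData R p D f c) :
    KData R p (SemilinearAut.degZeroSMulHom (SemilinearAut.ofAlgAut g) D) (g f) c := by
  refine ⟨(map_ne_zero_iff g g.injective).2 hk.f_ne, fun P => ?_, ?_⟩
  · rw [ord_ofAlgAut, hk.ord_f, SemilinearAut.coe_degZeroSMulHom,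
      SemilinearAut.divisor_smul_apply]
  · have h1 : algebraMap K F c * g f = g (algebraMap K F c * f) := by
      rw [map_mul, AlgEquiv.commutes]
    rw [h1]
    exact h.isGU hk.gu

/-- **naturality of the étale specialisation.** -/
theorem RedAut.rel {g : F ≃ₐ[K] F} {gb : Fb ≃ₐ[ResidueField A] Fb} (h : RedAut R g gb)
    {p : ℕ} {x : Pic0 K F} {e : Pic0 (ResidueField A) Fb} (hr : Rel R p x e) :
    Rel R p (SemilinearAut.ofAlgAut g • x) (SemilinearAut.ofAlgAut gb • e) := by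
  obtain ⟨D, f, c, Db, hk, rfl, hQ, rfl⟩ := hr
  refine ⟨SemilinearAut.degZeroSMulHom (SemilinearAut.ofAlgAut g) D, g f, c,
    SemilinearAut.degZeroSMulHom (SemilinearAut.ofAlgAut gb) Db, h.kdata hk,
    SemilinearAut.pic0_smul_mk _ D, fun Q => ?_, SemilinearAut.pic0_smul_mk _ Db⟩
  have h1 : algebraMap K F c * g f = g (algebraMap K F c * f) := by
    rw [map_mul, AlgEquiv.commutes]
  rw [h1, h.red_eq hk.gu.1, ord_ofAlgAut, hQ, SemilinearAut.coe_degZeroSMulHom,
    SemilinearAut.divisor_smul_apply]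

/-- **a class fixed by `g` has its étale image fixed by `gb`.** -/
theorem RedAut.fixed {g : F ≃ₐ[K] F} {gb : Fb ≃ₐ[ResidueField A] Fb} (h : RedAut R g gb)
    (H : LHyp K F) {p : ℕ} (hp : p ≠ 0) {x : Pic0 K F} {e : Pic0 (ResidueField A) Fb}
    (hr : Rel R p x e) (hx : SemilinearAut.ofAlgAut g • x = x) :
    SemilinearAut.ofAlgAut gb • e = e := by
  have h1 := h.rel hr
  rw [hx] at h1
  exact Rel.unique H hp h1 hr

/-- passing to the twisted component conjugates the reduction. -/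
theorem RedAut.twist {g : F ≃ₐ[K] F} {gb : Fb ≃ₐ[ResidueField A] Fb} (h : RedAut R g gb)
    (σ : Fb ≃ₐ[ResidueField A] Fb) :
    RedAut (Fermat.Agent.U44.TwistRed4.twist R σ) g ((σ.symm.trans gb).trans σ) :=
  ⟨fun y hy => h.mem y hy, fun y hy => by
    show σ (R.ρ ⟨g y, _⟩) = σ (gb (σ.symm (σ (R.ρ ⟨y, hy⟩))))
    rw [AlgEquiv.symm_apply_apply, h.red y hy]⟩

/-- the same for an involution `σ`. -/
theorem RedAut.twist_invol {g : F ≃ₐ[K] F} {gb : Fb ≃ₐ[ResidueField A] Fb} (h : RedAut R g gb)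
    (σ : Fb ≃ₐ[ResidueField A] Fb) (hσ : ∀ x, σ (σ x) = x) :
    RedAut (Fermat.Agent.U44.TwistRed4.twist R σ) g ((σ.trans gb).trans σ) :=
  ⟨fun y hy => h.mem y hy, fun y hy => by
    show σ (R.ρ ⟨g y, _⟩) = σ (gb (σ (σ (R.ρ ⟨y, hy⟩))))
    rw [hσ, h.red y hy]⟩

end Abstract

/-! ### the instances at `h : LevelHyp p M' A`, level `M' p` -/

section Inst

open HahnSeries ModularCurve IntermediateField
open Fermat.Agent.RED.Interface4 Fermat.Agent.ES.RED Fermat.Agent.T33.NodalHalf4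
  Fermat.Agent.T33.NodalBase4A Fermat.Agent.T33.FrickeRed3 Fermat.Agent.T33.NodalInst4A
  Fermat.Agent.U44.GammaLevel2 Fermat.Agent.U44.GammaGauss2 Fermat.Agent.U44.EtaleInst1
  Fermat.Agent.U44.EtaleHecke4 Fermat.Agent.U44.TwistRed4

variable {p M' : ℕ} [NeZero M'] [NeZero p] {A : ValuationSubring Qbar}

/-- shortcut instance. -/
local instance (priority := high) algebraAFbarN3s : Algebra ↥A ↥(Fbar (M' * p)) := inferInstance

/-- shortcut instance. -/
local instance (priority := high) algebraKFb3s : Algebra (Setup8.kA A) (Fb A M') := inferInstance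

variable (h : LevelHyp p M' A)

/-- **`τ` on the first component reduces to `τ̄`.** -/
theorem redAut_tauL₁ :
    RedAut (c1 h) (tauL (M' * p) (four_dvd_mul h.four_dvd)) (tauB h) :=
  ⟨fun y hy => tauL_mem_O1 h hy, fun y hy => rho1_tauL h ⟨y, hy⟩⟩

/-- **`τ'` on the second component reduces to `τ̄`.** -/
theorem redAut_tau'L₂ :
    RedAut (c2 h) (tau'L (M' * p) (four_dvd_mul h.four_dvd)) (tauB h) :=
  ⟨fun y hy => tau'L_mem_O2 h hy, fun y hy => rho2_tau'L h ⟨y, hy⟩⟩

theorem Wb_Wb (x : Fb A M') : Wb h (Wb h x) = x :=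
  haveI : Fact p.Prime := ⟨h.prime⟩
  Wbar_Wbar A M' p h.liesOver h.not_dvd (rho0_surjective h) x

/-- **`τ'` on the second component read through `W̄` reduces to `τ̄' = W̄ τ̄ W̄`.** -/
theorem redAut_tau'L₂W :
    RedAut (c2W h) (tau'L (M' * p) (four_dvd_mul h.four_dvd)) (tauB' h) :=
  (redAut_tau'L₂ h).twist_invol (Wb h) (Wb_Wb h)

/-- **naturality of `E₁` under `τ`.** -/
theorem rel₁_tauL {x : JZero (M' * p)} {e : JZeroC (Setup8.kA A) M'} (hr : Rel₁ h x e) :
    Rel₁ h (SemilinearAut.ofAlgAut (tauL (M' * p) (four_dvd_mul h.four_dvd)) • x)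
      (SemilinearAut.ofAlgAut (tauB h) • e) :=
  (redAut_tauL₁ h).rel hr

/-- **naturality of `E₂ᵂ` under `τ'`.** -/
theorem rel₂W_tau'L {x : JZero (M' * p)} {e : JZeroC (Setup8.kA A) M'} (hr : Rel₂W h x e) :
    Rel₂W h (SemilinearAut.ofAlgAut (tau'L (M' * p) (four_dvd_mul h.four_dvd)) • x)
      (SemilinearAut.ofAlgAut (tauB' h) • e) :=
  (redAut_tau'L₂W h).rel hr

/-- a `τ`-fixed class has a `τ̄`-fixed étale image on the first component. -/
theorem fixed₁_tauL {x : JZero (M' * p)} {e : JZeroC (Setup8.kA A) M'} (hr : Rel₁ h x e)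
    (hx : SemilinearAut.ofAlgAut (tauL (M' * p) (four_dvd_mul h.four_dvd)) • x = x) :
    SemilinearAut.ofAlgAut (tauB h) • e = e :=
  (redAut_tauL₁ h).fixed (lHyp h) (NeZero.ne p) hr hx

/-- a `τ'`-fixed class has a `τ̄'`-fixed étale image on the `W̄`-twisted second component. -/
theorem fixed₂W_tau'L {x : JZero (M' * p)} {e : JZeroC (Setup8.kA A) M'} (hr : Rel₂W h x e)
    (hx : SemilinearAut.ofAlgAut (tau'L (M' * p) (four_dvd_mul h.four_dvd)) • x = x) :
    SemilinearAut.ofAlgAut (tauB' h) • e = e :=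
  (redAut_tau'L₂W h).fixed (lHyp h) (NeZero.ne p) hr hx

/-- the cross cases, from the cross compatibilities (helper2's (C3)):
`τ'` on the first component. -/
theorem fixed₁_of_redAut {g : ↥(Fbar (M' * p)) ≃ₐ[Qbar] ↥(Fbar (M' * p))}
    {gb : Fb A M' ≃ₐ[Setup8.kA A] Fb A M'} (hg : RedAut (c1 h) g gb)
    {x : JZero (M' * p)} {e : JZeroC (Setup8.kA A) M'} (hr : Rel₁ h x e)
    (hx : SemilinearAut.ofAlgAut g • x = x) : SemilinearAut.ofAlgAut gb • e = e :=
  hg.fixed (lHyp h) (NeZero.ne p) hr hx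

/-- the cross cases: `τ` on the `W̄`-twisted second component. -/
theorem fixed₂W_of_redAut {g : ↥(Fbar (M' * p)) ≃ₐ[Qbar] ↥(Fbar (M' * p))}
    {gb : Fb A M' ≃ₐ[Setup8.kA A] Fb A M'} (hg : RedAut (c2W h) g gb)
    {x : JZero (M' * p)} {e : JZeroC (Setup8.kA A) M'} (hr : Rel₂W h x e)
    (hx : SemilinearAut.ofAlgAut g • x = x) : SemilinearAut.ofAlgAut gb • e = e :=
  hg.fixed (lHyp h) (NeZero.ne p) hr hx

end Inst

end Fermat.Agent.U44.SpecNat3
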