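/-
Programme U44 (target S44), chapter (LIFT), cross-examination by helper8: **an elementary bound
replacing Serre duality in route Ω**.

For a function field `F / K` (any characteristic) and a divisor `D` which is *special*
(`A(D) + F ≠` all repartitions, i.e. `H¹(D) ≠ 0`): `l(D) ≤ g`, `g = genusFF K F = dim H¹(0)`.
Proof: pick a non-zero functional `λ` on the repartitions vanishing on `A(D) + F` (a Weil
differential); then `f ↦ (α ↦ λ (f α))` embeds `L(D)` into the dual of `H¹(0)`.  No residues, no
Kähler differentials, no Serre lemma.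

Consequence (`finrank_L_le_of_degree`): with the Euler characteristic formula
`l(D) - i(D) = deg D + 1 - g`, every divisor of degree `2g - 2` has `l(D) ≤ g`.  Applied to
`D = r_*(div dj)` on the special fibre this bounds the space of regular differentials by the genus.
-/
import Mathlib
import Fermat.Prelude.Def_AlgebraicCurve_Repartitions
import Fermat.Agent.RR.SerreDim

set_option autoImplicit false

open AlgebraicCurve Module

noncomputable section

namespace Fermat.Agent.U44.SpecialBound8

open Fermat.Agent.RR.SerreDim

variable {K F : Type*} [Field K] [Field F] [Algebra K F]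

/-- `f ↦ λ ∘ (f • ·)` as a `K`-linear map `L(D) → (Rep →ₗ K)`. -/
def mulFunctional (lam : ↥(repartitions K F) →ₗ[K] K) (D : Divisor K F) :
    riemannRochSpace D →ₗ[K] (↥(repartitions K F) →ₗ[K] K) where
  toFun f := lam ∘ₗ smulK (f : F)
  map_add' f g := by
    ext α
    simp only [Submodule.coe_add, smulK_add, LinearMap.add_apply, LinearMap.comp_apply, map_add]
  map_smul' c f := by
    ext α
    simp only [Submodule.coe_smul, smulK_smul, LinearMap.comp_apply, LinearMap.smul_apply,
      map_smul, RingHom.id_apply]

theorem mulFunctional_apply (lam : ↥(repartitions K F) →ₗ[K] K) (D : Divisor K F)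
    (f : riemannRochSpace D) (α : ↥(repartitions K F)) : mulFunctional lam D f α = lam ((f : F) • α) := rfl

/-- if `λ` vanishes on `A(D) + F` and `f ∈ L(D)` then `f λ` vanishes on `A(0) + F`. -/
theorem mulFunctional_vanish {lam : ↥(repartitions K F) →ₗ[K] K} {D : Divisor K F}
    (hlam : ∀ α ∈ AF D, lam α = 0) (f : riemannRochSpace D) :
    AF (0 : Divisor K F) ≤ LinearMap.ker (mulFunctional lam D f) := by
  intro α hα
  rw [LinearMap.mem_ker, mulFunctional_apply]
  refine hlam _ (smul_mem_AF f.2 ?_)
  rwa [sub_self]

/-- **A special divisor has `l(D) ≤ g`.** -/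
theorem finrank_L_le_genusFF (hfin0 : Module.Finite K (H1 (0 : Divisor K F))) {D : Divisor K F}
    (hD : AF D ≠ ⊤) : finrank K (riemannRochSpace D) ≤ genusFF K F := by
  obtain ⟨lam, hlam0, hlamle⟩ := Submodule.exists_le_ker_of_lt_top (AF D) (lt_top_iff_ne_top.mpr hD)
  have hlam : ∀ α ∈ AF D, lam α = 0 := fun α hα => LinearMap.mem_ker.mp (hlamle hα)
  -- the map `L(D) → (H¹(0))^*`
  let Φ : riemannRochSpace D →ₗ[K] Module.Dual K (H1 (0 : Divisor K F)) :=
    { toFun := fun f => (AF (0 : Divisor K F)).liftQ (mulFunctional lam D f)
        (mulFunctional_vanish hlam f)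
      map_add' := by
        intro f g
        apply Submodule.linearMap_qext
        ext α
        simp only [LinearMap.comp_apply, Submodule.mkQ_apply, Submodule.liftQ_apply, map_add,
          LinearMap.add_apply]
      map_smul' := by
        intro c f
        apply Submodule.linearMap_qext
        ext α
        simp only [LinearMap.comp_apply, Submodule.mkQ_apply, Submodule.liftQ_apply, map_smul,
          LinearMap.smul_apply, RingHom.id_apply] }
  have hΦ : Function.Injective Φ := by
    rw [← LinearMap.ker_eq_bot, LinearMap.ker_eq_bot']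
    intro f hf
    by_contra hne
    have hf0 : (f : F) ≠ 0 := fun h0 => hne (Subtype.ext h0)
    apply hlam0
    ext β
    have h1 : Φ f (Submodule.Quotient.mk ((f : F)⁻¹ • β)) = 0 := by rw [hf]; rfl
    have h2 : Φ f (Submodule.Quotient.mk ((f : F)⁻¹ • β)) = lam ((f : F) • ((f : F)⁻¹ • β)) := rfl
    rw [h2, smul_smul, mul_inv_cancel₀ hf0, one_smul] at h1
    rw [h1]; rfl
  calc finrank K (riemannRochSpace D) ≤ finrank K (Module.Dual K (H1 (0 : Divisor K F))) :=
        LinearMap.finrank_le_finrank_of_injective hΦ
    _ = finrank K (H1 (0 : Divisor K F)) := Subspace.dual_finrank_eq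
    _ = genusFF K F := rfl

/-- With the Euler characteristic formula: `l(D) ≤ max (deg D + 1 - g) g`; in particular every
divisor of degree `2g - 2` has `l(D) ≤ g`. -/
theorem finrank_L_le_of_degree (hfin : ∀ D : Divisor K F, Module.Finite K (H1 D))
    (heuler : ∀ D : Divisor K F,
      (finrank K (riemannRochSpace D) : ℤ) - finrank K (H1 D) =
        Divisor.degree D + 1 - genusFF K F)
    {D : Divisor K F} (hdeg : Divisor.degree D = 2 * (genusFF K F : ℤ) - 2) :
    finrank K (riemannRochSpace D) ≤ genusFF K F := by
  by_cases hD : AF D = ⊤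
  · -- `H¹(D) = 0`
    have h0 : finrank K (H1 D) = 0 := by
      have : Subsingleton (H1 D) := by
        show Subsingleton (↥(repartitions K F) ⧸ AF D)
        rw [hD]
        exact Submodule.Quotient.subsingleton_iff.mpr rfl
      exact finrank_zero_of_subsingleton
    have h := heuler D
    rw [h0, hdeg] at h
    have : (finrank K (riemannRochSpace D) : ℤ) = (genusFF K F : ℤ) - 1 := by
      push_cast at h; linarith
    omega
  · exact finrank_L_le_genusFF (hfin 0) hD

end Fermat.Agent.U44.SpecialBound8
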